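/-
S42 project, block B11 (helper49), leaf L1: the mod `p` cyclotomic character of `Gal(Qbar/ℚ)` with values in a
field `K` over `ZMod p` (`fin_omega p K : G_ℚ →* K`), `fin_omega p K τ = ℓ` for every Frobenius lift `τ` at a
prime `ℓ ≠ p` (`fin_omega_frob`), and `fin_omega p K` is trivial on `Gal(Qbar/ℚ(ζ_p))`
(`fin_omega_finiteLevel`).  The `(ZMod p)ˣ`-valued version is `fin_omega0`.
-/
import Mathlib
import Fermat.Prelude.Def_EllipticCurve_FrobeniusTrace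
import Fermat.Agent.S41x.BridgeCyc

set_option autoImplicit false

namespace Fermat.Agent.S42x

open ValuationSubring

abbrev fin_Qb := AlgebraicClosure ℚ
abbrev fin_GQ := fin_Qb ≃ₐ[ℚ] fin_Qb

/-- `Qbar` has exactly `p` roots of unity of order dividing `p`. -/
theorem fin_card_roots (p : ℕ) [NeZero p] : Nat.card (rootsOfUnity p fin_Qb) = p :=
  haveI : NeZero (p : fin_Qb) := ⟨Nat.cast_ne_zero.mpr (NeZero.ne p)⟩
  HasEnoughRootsOfUnity.natCard_rootsOfUnity fin_Qb p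

/-- `Qbar` contains a primitive `p`-th root of unity. -/
theorem fin_exists_primitiveRoot (p : ℕ) [NeZero p] : ∃ ζ : fin_Qb, IsPrimitiveRoot ζ p :=
  haveI : NeZero (p : fin_Qb) := ⟨Nat.cast_ne_zero.mpr (NeZero.ne p)⟩
  HasEnoughRootsOfUnity.exists_primitiveRoot fin_Qb p

/-- the mod `p` cyclotomic character of `Gal(Qbar/ℚ)`, with values in `(ZMod p)ˣ`. -/
noncomputable def fin_omega0 (p : ℕ) [NeZero p] : fin_GQ →* (ZMod p)ˣ :=
  (modularCyclotomicCharacter fin_Qb (fin_card_roots p)).comp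
    (MulSemiringAction.toRingAut fin_GQ fin_Qb)

/-- powers of a primitive `p`-th root of unity agree iff the exponents are congruent mod `p`. -/
theorem fin_pow_eq_pow_iff {p : ℕ} [NeZero p] {ζ : fin_Qb} (hζ : IsPrimitiveRoot ζ p) {m n : ℕ} :
    ζ ^ m = ζ ^ n ↔ m ≡ n [MOD p] := by
  have hfin : IsOfFinOrder ζ :=
    isOfFinOrder_iff_pow_eq_one.2 ⟨p, Nat.pos_of_ne_zero (NeZero.ne p), hζ.pow_eq_one⟩
  rw [hfin.pow_eq_pow_iff_modEq, ← hζ.eq_orderOf]

theorem fin_omega0_apply (p : ℕ) [NeZero p] (σ : fin_GQ) :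
    fin_omega0 p σ =
      modularCyclotomicCharacter fin_Qb (fin_card_roots p) (σ : fin_Qb ≃+* fin_Qb) := by
  rfl

/-- defining property of `ω` on a primitive `p`-th root of unity. -/
theorem fin_omega0_spec (p : ℕ) [NeZero p] (σ : fin_GQ) {ζ : fin_Qb} (hζ : IsPrimitiveRoot ζ p) :
    σ ζ = ζ ^ ((fin_omega0 p σ : (ZMod p)ˣ) : ZMod p).val := by
  have hp : p ≠ 0 := NeZero.ne p
  have hu : IsUnit ζ := hζ.isUnit hp
  have hmem : hu.unit ∈ rootsOfUnity p fin_Qb := by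
    rw [mem_rootsOfUnity]
    apply Units.ext
    simp [hζ.pow_eq_one]
  have h := modularCyclotomicCharacter.spec fin_Qb (fin_card_roots p) (σ : fin_Qb ≃+* fin_Qb) hmem
  simpa [fin_omega0_apply] using h

/-- **`ω(Frob_ℓ) = ℓ`**: a Frobenius lift at `ℓ ≠ p` has cyclotomic character `ℓ mod p`. -/
theorem fin_omega0_frob {p ℓ : ℕ} [NeZero p] (hp : p.Prime) (hℓ : ℓ.Prime) (hℓp : ℓ ≠ p)
    (A : ValuationSubring fin_Qb) (hA : A.LiesOverPrime ℓ) (τ : fin_GQ) (hτ : A.IsFrobeniusAt τ ℓ) :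
    ((fin_omega0 p τ : (ZMod p)ˣ) : ZMod p) = (ℓ : ZMod p) := by
  obtain ⟨ζ, hζ⟩ := fin_exists_primitiveRoot p
  have hℓp' : ¬ ℓ ∣ p := by
    intro h
    rcases (Nat.dvd_prime hp).1 h with h1 | h1
    · exact hℓ.one_lt.ne' h1
    · exact hℓp h1
  have h1 := Fermat.Agent.S41x.brcy_frobenius_apply_root hℓ hℓp' A hA τ hτ hζ
  have h2 := fin_omega0_spec p τ hζ
  rw [h1] at h2
  have h3 : (ℓ : ZMod p) = ((((fin_omega0 p τ : (ZMod p)ˣ) : ZMod p).val : ℕ) : ZMod p) := by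
    rw [ZMod.natCast_eq_natCast_iff]
    exact (fin_pow_eq_pow_iff hζ).1 h2
  rw [h3, ZMod.natCast_zmod_val]

/-- `ω` is trivial on the fixing subgroup of a finite extension of `ℚ` (namely `ℚ(ζ_p)`). -/
theorem fin_omega0_open (p : ℕ) [NeZero p] :
    ∃ L0 : IntermediateField ℚ fin_Qb, FiniteDimensional ℚ L0 ∧
      ∀ σ : fin_GQ, (∀ a ∈ L0, σ a = a) → fin_omega0 p σ = 1 := by
  obtain ⟨ζ, hζ⟩ := fin_exists_primitiveRoot p
  have hp : p ≠ 0 := NeZero.ne p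
  have hint : IsIntegral ℚ ζ := (hζ.isIntegral (Nat.pos_of_ne_zero hp)).tower_top
  refine ⟨IntermediateField.adjoin ℚ {ζ}, IntermediateField.adjoin.finiteDimensional hint, ?_⟩
  intro σ hσ
  have hfix : σ ζ = ζ := hσ ζ (IntermediateField.mem_adjoin_simple_self ℚ ζ)
  have h2 := fin_omega0_spec p σ hζ
  rw [hfix] at h2
  have h3 : ((fin_omega0 p σ : (ZMod p)ˣ) : ZMod p).val ≡ 1 [MOD p] := by
    apply (fin_pow_eq_pow_iff hζ).1
    rw [pow_one]; exact h2.symm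
  apply Units.ext
  have h4 : ((((fin_omega0 p σ : (ZMod p)ˣ) : ZMod p).val : ℕ) : ZMod p) = ((1 : ℕ) : ZMod p) :=
    (ZMod.natCast_eq_natCast_iff _ _ _).2 h3
  rw [ZMod.natCast_zmod_val] at h4
  simpa using h4

/-- **L1**: the mod `p` cyclotomic character with values in a field `K` over `ZMod p`. -/
noncomputable def fin_omega (p : ℕ) [Fact p.Prime] (K : Type*) [Field K] [Algebra (ZMod p) K] :
    fin_GQ →* K :=
  ((algebraMap (ZMod p) K : ZMod p →* K).comp (Units.coeHom (ZMod p))).comp (fin_omega0 p)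

theorem fin_omega_apply (p : ℕ) [Fact p.Prime] (K : Type*) [Field K] [Algebra (ZMod p) K]
    (σ : fin_GQ) :
    fin_omega p K σ = algebraMap (ZMod p) K ((fin_omega0 p σ : (ZMod p)ˣ) : ZMod p) :=
  rfl

/-- `fin_omega p K σ` is never zero. -/
theorem fin_omega_ne_zero (p : ℕ) [Fact p.Prime] (K : Type*) [Field K] [Algebra (ZMod p) K]
    (σ : fin_GQ) : fin_omega p K σ ≠ 0 := by
  have h : fin_omega p K σ * fin_omega p K σ⁻¹ = 1 := by
    rw [← map_mul, mul_inv_cancel, map_one]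
  intro h0
  rw [h0, zero_mul] at h
  exact zero_ne_one h

/-- **L1, `ω(Frob_ℓ) = ℓ`** in `K`. -/
theorem fin_omega_frob {p : ℕ} [Fact p.Prime] (K : Type*) [Field K] [Algebra (ZMod p) K]
    {ℓ : ℕ} (hℓ : ℓ.Prime) (hℓp : ℓ ≠ p)
    {A : ValuationSubring fin_Qb} (hA : A.LiesOverPrime ℓ) {τ : fin_GQ} (hτ : A.IsFrobeniusAt τ ℓ) :
    fin_omega p K τ = (ℓ : K) := by
  rw [fin_omega_apply, fin_omega0_frob (Fact.out : p.Prime) hℓ hℓp A hA τ hτ, map_natCast]

/-- **L1, finite level**: `fin_omega p K` is trivial on `Gal(Qbar/ℚ(ζ_p))`. -/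
theorem fin_omega_finiteLevel (p : ℕ) [Fact p.Prime] (K : Type*) [Field K] [Algebra (ZMod p) K] :
    ∃ E : IntermediateField ℚ fin_Qb, FiniteDimensional ℚ E ∧
      ∀ σ : fin_GQ, (∀ a ∈ E, σ a = a) → fin_omega p K σ = 1 := by
  obtain ⟨E, h1, h2⟩ := fin_omega0_open p
  refine ⟨E, h1, fun σ hσ => ?_⟩
  rw [fin_omega_apply, h2 σ hσ, Units.val_one, map_one]

end Fermat.Agent.S42x
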