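import Mathlib

/-!
# S42 block B11, leaf L3: orbit span of a vector with finite-level stabiliser

`fino_orbit_span`: for a representation `ρ` of `Gal(Qbar/ℚ)` on a `K`-module `V` and a vector
`v` fixed by the pointwise stabiliser of some finite-dimensional subfield `E`, the `K`-span of
the orbit of `v` is finite-dimensional, Galois stable, and the Galois action on it factors
through a finite-dimensional Galois-stable subfield `E1 ⊇ E0` (for any prescribed f.d. `E0`).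

Mathlib only.
-/

namespace Fermat.Agent.S42x

local notation "Qbar" => AlgebraicClosure ℚ

/-- `ℚ̄/ℚ` is normal, for the `ℚ`-algebra structure found by instance search. -/
theorem fino_normal_qbar : Normal ℚ Qbar := by
  have h : @Normal ℚ Qbar _ _ (AlgebraicClosure.instAlgebra (k := ℚ)) := inferInstance
  convert h
  exact Subsingleton.elim _ _

/-- A finite-dimensional Galois-stable subfield containing two given finite-dimensional ones. -/
theorem fino_exists_stable (E E0 : IntermediateField ℚ Qbar)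
    (hE : FiniteDimensional ℚ E) (hE0 : FiniteDimensional ℚ E0) :
    ∃ E1 : IntermediateField ℚ Qbar, FiniteDimensional ℚ E1 ∧ E ≤ E1 ∧ E0 ≤ E1 ∧
      (∀ σ : Qbar ≃ₐ[ℚ] Qbar, ∀ x ∈ E1, σ x ∈ E1) := by
  classical
  have : FiniteDimensional ℚ (↥(E ⊔ E0)) := IntermediateField.finiteDimensional_sup E E0
  have : Normal ℚ Qbar := fino_normal_qbar
  refine ⟨IntermediateField.normalClosure ℚ (↥(E ⊔ E0)) Qbar, ?_, ?_, ?_, ?_⟩
  · exact normalClosure.is_finiteDimensional ℚ (↥(E ⊔ E0)) Qbar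
  · exact le_trans le_sup_left (IntermediateField.le_normalClosure (E ⊔ E0))
  · exact le_trans le_sup_right (IntermediateField.le_normalClosure (E ⊔ E0))
  · intro σ x hx
    have : Normal ℚ (IntermediateField.normalClosure ℚ (↥(E ⊔ E0)) Qbar) :=
      normalClosure.normal ℚ (↥(E ⊔ E0)) Qbar
    have h := AlgHom.fieldRange_of_normal
      (E := IntermediateField.normalClosure ℚ (↥(E ⊔ E0)) Qbar)
      ((σ : Qbar →ₐ[ℚ] Qbar).comp
        (IntermediateField.normalClosure ℚ (↥(E ⊔ E0)) Qbar).val)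
    have hmem : σ x ∈ ((σ : Qbar →ₐ[ℚ] Qbar).comp
        (IntermediateField.normalClosure ℚ (↥(E ⊔ E0)) Qbar).val).fieldRange :=
      ⟨⟨x, hx⟩, rfl⟩
    rw [h] at hmem
    exact hmem

/-- If `σ` and `τ` agree on `E1 ⊇ E` and the stabiliser of `E` fixes `v`, then `ρ σ v = ρ τ v`. -/
theorem fino_agree {K : Type*} [Field K] {V : Type*} [AddCommGroup V] [Module K V]
    (ρ : (Qbar ≃ₐ[ℚ] Qbar) →* Module.End K V) (v : V)
    (E : IntermediateField ℚ Qbar)
    (hE : ∀ σ : Qbar ≃ₐ[ℚ] Qbar, (∀ a ∈ E, σ a = a) → ρ σ v = v)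
    (σ τ : Qbar ≃ₐ[ℚ] Qbar) (h : ∀ a ∈ E, σ a = τ a) : ρ σ v = ρ τ v := by
  have h1 : ρ (τ⁻¹ * σ) v = v := by
    apply hE
    intro a ha
    rw [AlgEquiv.mul_apply, h a ha, AlgEquiv.aut_inv, AlgEquiv.symm_apply_apply]
  have h2 : σ = τ * (τ⁻¹ * σ) := by group
  rw [h2, map_mul, Module.End.mul_apply, h1]

/-- The orbit of `v` is finite. -/
theorem fino_orbit_finite {K : Type*} [Field K] {V : Type*} [AddCommGroup V] [Module K V]
    (ρ : (Qbar ≃ₐ[ℚ] Qbar) →* Module.End K V) (v : V)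
    (E : IntermediateField ℚ Qbar) (hfd : FiniteDimensional ℚ E)
    (hE : ∀ σ : Qbar ≃ₐ[ℚ] Qbar, (∀ a ∈ E, σ a = a) → ρ σ v = v) :
    (Set.range fun σ : Qbar ≃ₐ[ℚ] Qbar => ρ σ v).Finite := by
  classical
  let r : (Qbar ≃ₐ[ℚ] Qbar) → (E →ₐ[ℚ] Qbar) := fun σ => (σ : Qbar →ₐ[ℚ] Qbar).comp E.val
  let g : (E →ₐ[ℚ] Qbar) → V := fun φ =>
    if h : ∃ σ, r σ = φ then ρ h.choose v else 0
  have : Finite (E →ₐ[ℚ] Qbar) := inferInstance
  refine (Set.finite_range g).subset ?_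
  rintro _ ⟨σ, rfl⟩
  refine ⟨r σ, ?_⟩
  have hex : ∃ τ, r τ = r σ := ⟨σ, rfl⟩
  show (if h : ∃ τ, r τ = r σ then ρ h.choose v else 0) = ρ σ v
  rw [dif_pos hex]
  apply fino_agree ρ v E hE
  intro a ha
  have := hex.choose_spec
  exact congrArg (fun φ : E →ₐ[ℚ] Qbar => φ ⟨a, ha⟩) this

theorem fino_orbit_span {K : Type*} [Field K] {V : Type*} [AddCommGroup V] [Module K V]
    (ρ : (Qbar ≃ₐ[ℚ] Qbar) →* Module.End K V) (v : V)
    (hopen : ∃ E : IntermediateField ℚ Qbar, FiniteDimensional ℚ E ∧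
      ∀ σ, (∀ a ∈ E, σ a = a) → ρ σ v = v)
    (E0 : IntermediateField ℚ Qbar) (hE0 : FiniteDimensional ℚ E0) :
    ∃ (E1 : IntermediateField ℚ Qbar), FiniteDimensional ℚ E1 ∧ E0 ≤ E1 ∧
      (∀ σ : Qbar ≃ₐ[ℚ] Qbar, ∀ x ∈ E1, σ x ∈ E1) ∧
      Module.Finite K (Submodule.span K (Set.range fun σ => ρ σ v)) ∧
      (∀ σ, ∀ w ∈ Submodule.span K (Set.range fun σ => ρ σ v),
        ρ σ w ∈ Submodule.span K (Set.range fun σ => ρ σ v)) ∧
      (∀ σ, (∀ a ∈ E1, σ a = a) → ∀ w ∈ Submodule.span K (Set.range fun σ => ρ σ v),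
        ρ σ w = w) := by
  classical
  obtain ⟨E, hEfd, hE⟩ := hopen
  obtain ⟨E1, hE1fd, hEE1, hE0E1, hstab⟩ := fino_exists_stable E E0 hEfd hE0
  refine ⟨E1, hE1fd, hE0E1, hstab, ?_, ?_, ?_⟩
  · exact Module.Finite.span_of_finite K (fino_orbit_finite ρ v E hEfd hE)
  · intro σ w hw
    have hle : Submodule.span K (Set.range fun σ => ρ σ v) ≤
        (Submodule.span K (Set.range fun σ => ρ σ v)).comap (ρ σ) := by
      rw [Submodule.span_le]
      rintro _ ⟨τ, rfl⟩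
      show ρ σ (ρ τ v) ∈ Submodule.span K (Set.range fun σ => ρ σ v)
      rw [← Module.End.mul_apply, ← map_mul]
      exact Submodule.subset_span ⟨σ * τ, rfl⟩
    exact hle hw
  · intro σ hσ w hw
    have hle : Submodule.span K (Set.range fun σ => ρ σ v) ≤
        LinearMap.eqLocus (ρ σ) LinearMap.id := by
      rw [Submodule.span_le]
      rintro _ ⟨τ, rfl⟩
      show ρ σ (ρ τ v) = ρ τ v
      rw [← Module.End.mul_apply, ← map_mul]
      apply fino_agree ρ v E hE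
      intro a ha
      rw [AlgEquiv.mul_apply]
      exact hσ _ (hstab τ a (hEE1 ha))
    exact hle hw

end Fermat.Agent.S42x
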