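/-
S42 project, block B11 (helper49), leaf L4: packaging to the frozen shape
`FreyPackage.EigenformResidualAttachmentAt`.  GIVEN, for every normalized eigenform `g` and maximal ideal
`𝔪 ∋ p`, a two-dimensional representation `ρ` over a field `K ⊇ 𝔽_p` whose kernel contains the fixing
subgroup of a finite extension `L0/ℚ`, a ring hom `ψ` killing `𝔪`, and the two Frobenius clauses, we produce
the number field `F` (the normal closure of `L0 ⊔ L_Frey`, `L_Frey` = field of definition of the `p`-torsion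
of the Frey curve, from the landed `S13x.exists_finite_fixing`).
-/
import Mathlib
import Fermat.Prelude.Def_FreyPackage_EigenformResidualAttachment
import Fermat.Agent.S13x.OpenKer
import Fermat.Agent.S13x.TorsionQbar

set_option autoImplicit false

open WeierstrassCurve WeierstrassCurve.Affine.Point
open scoped CongruenceSubgroup

namespace Fermat.Agent.S42x

open Fermat.Agent.S13x (Qb GQ)

/-- the two `ℚ`-algebra structures on an intermediate field agree. -/
theorem fin_algebra_eq (M : IntermediateField ℚ Qb) :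
    (DivisionRing.toRatAlgebra : Algebra ℚ M) = IntermediateField.algebra' M :=
  Subsingleton.elim _ _

/-- a finite extension of `ℚ` inside `Qbar` is contained in a finite normal one (normal closure). -/
theorem fin_exists_normal (L0 : IntermediateField ℚ Qb) (h0 : FiniteDimensional ℚ L0) :
    ∃ N : IntermediateField ℚ Qb, FiniteDimensional ℚ N ∧ Normal ℚ N ∧ L0 ≤ N := by
  have hG : IsGalois ℚ Qb := Fermat.Agent.S13x.fr_isGalois_Qb
  have hN : Normal ℚ Qb := IsGalois.to_normal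
  let _ : Algebra ℚ L0 := IntermediateField.algebra' L0
  have h2 : @Normal ℚ (IntermediateField.normalClosure ℚ L0 Qb) _ _ (IntermediateField.algebra' _) :=
    normalClosure.normal ℚ L0 Qb
  have h3 : FiniteDimensional ℚ (IntermediateField.normalClosure ℚ L0 Qb) :=
    normalClosure.is_finiteDimensional ℚ L0 Qb
  refine ⟨IntermediateField.normalClosure ℚ L0 Qb, h3, ?_, ?_⟩
  · rw [fin_algebra_eq]
    exact h2
  · exact IntermediateField.le_normalClosure L0

/-- elements of the kernel of the restriction map to a normal subextension `F` fix the image of `F`. -/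
theorem fin_ker_restrict_fix (F : Type*) [Field F] [Algebra ℚ F] [Algebra F Qb] [IsScalarTower ℚ F Qb]
    [Normal ℚ F] (σ : GQ) (hσ : σ ∈ (AlgEquiv.restrictNormalHom (F := ℚ) (K₁ := Qb) F).ker) (x : F) :
    σ (algebraMap F Qb x) = algebraMap F Qb x := by
  rw [MonoidHom.mem_ker] at hσ
  have h := AlgEquiv.restrictNormal_commutes σ F x
  have h1 : σ.restrictNormal F = 1 := hσ
  rw [h1] at h
  simpa using h.symm

/-- the kernel of the mod `p` representation of the Frey curve contains the fixing subgroup of a finite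
extension. -/
theorem fin_frey_open (P : FreyPackage) [inst : DecidableEq Qb] :
    ∃ L1 : IntermediateField ℚ Qb, FiniteDimensional ℚ L1 ∧
      L1.fixingSubgroup ≤
        (galoisRepModuleEnd (S := ℚ) (K := Qb) P.freyCurve P.p).ker := by
  obtain rfl : inst = instDecEqAlgebraicClosureRat := Subsingleton.elim _ _
  obtain ⟨L1, h1, h2⟩ := Fermat.Agent.S13x.exists_finite_fixing P (Fermat.Agent.S13x.tq_freyV_finite P)
  refine ⟨L1, h1, fun σ hσ => ?_⟩
  rw [MonoidHom.mem_ker]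
  apply LinearMap.ext
  intro x
  rw [galoisRepModuleEnd_apply]
  exact h2 σ hσ x

/-- a finite normal intermediate field `N` of `Qbar/ℚ`, as a type, carries all the instances of the frozen
statement, and the kernel of the restriction map is the fixing subgroup. -/
theorem fin_field_package (N : IntermediateField ℚ Qb) (hfd : FiniteDimensional ℚ N) (hn : Normal ℚ N) :
    ∃ (_ : NumberField N) (_ : IsGalois ℚ N) (_ : IsScalarTower ℚ N Qb),
      (AlgEquiv.restrictNormalHom (F := ℚ) (K₁ := Qb) N).ker ≤ N.fixingSubgroup := by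
  have h1 : NumberField N := { to_charZero := inferInstance, to_finiteDimensional := hfd }
  have h2 : IsGalois ℚ N := { to_isSeparable := inferInstance, to_normal := hn }
  have h3 : IsScalarTower ℚ N Qb := inferInstance
  refine ⟨h1, h2, h3, ?_⟩
  intro σ hσ
  rw [IntermediateField.mem_fixingSubgroup_iff]
  intro x hx
  exact fin_ker_restrict_fix N σ hσ ⟨x, hx⟩

/-- the existential body of the frozen `FreyPackage.EigenformResidualAttachmentAt P M` at `(g, 𝔪)`. -/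
def fin_Body (P : FreyPackage) (M : ℕ) (g : CuspForm (CongruenceSubgroup.Gamma0 M) 2)
    (𝔪 : Ideal (integralClosure ℤ ℂ)) : Prop :=
  ∃ (K : Type) (_ : Field K) (_ : Algebra (ZMod P.p) K)
    (V : Type) (_ : AddCommGroup V) (_ : Module K V)
    (ρ : Representation K (AlgebraicClosure ℚ ≃ₐ[ℚ] AlgebraicClosure ℚ) V)
    (ψ : integralClosure ℤ ℂ →+* K)
    (F : Type) (_ : Field F) (_ : NumberField F) (_ : IsGalois ℚ F)
    (_ : Algebra F (AlgebraicClosure ℚ)) (_ : IsScalarTower ℚ F (AlgebraicClosure ℚ)),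
    𝔪 ≤ RingHom.ker ψ ∧
    Module.finrank K V = 2 ∧
    (AlgEquiv.restrictNormalHom (F := ℚ) (K₁ := AlgebraicClosure ℚ) F).ker ≤
      (galoisRepModuleEnd (S := ℚ) (K := AlgebraicClosure ℚ) P.freyCurve P.p).ker ⊓
        ρ.ker ∧
    (∀ ℓ : ℕ, ℓ.Prime → ¬ ℓ ∣ M → ℓ ≠ P.p →
      ∀ A : ValuationSubring (AlgebraicClosure ℚ), A.LiesOverPrime ℓ →
        ∀ τ : AlgebraicClosure ℚ ≃ₐ[ℚ] AlgebraicClosure ℚ, A.IsFrobeniusAt τ ℓ →
          ∃ a : integralClosure ℤ ℂ, (a : ℂ) = ModularFormClass.qCoeff g ℓ ∧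
            LinearMap.trace K V (ρ τ) = ψ a) ∧
    (∀ ℓ : ℕ, ℓ.Prime → ¬ ℓ ∣ M → ℓ ≠ P.p →
      ∀ A : ValuationSubring (AlgebraicClosure ℚ), A.LiesOverPrime ℓ →
        ∀ τ : AlgebraicClosure ℚ ≃ₐ[ℚ] AlgebraicClosure ℚ, A.IsFrobeniusAt τ ℓ →
          LinearMap.det (ρ τ) = (ℓ : K))

/-- the frozen statement is literally `∀ g 𝔪, fin_Body P M g 𝔪` (definitional unfolding). -/
theorem fin_attachmentAt_iff (P : FreyPackage) (M : ℕ) :
    P.EigenformResidualAttachmentAt M ↔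
      ∀ (g : CuspForm (CongruenceSubgroup.Gamma0 M) 2), g.IsNormalizedEigenform →
        ∀ (𝔪 : Ideal (integralClosure ℤ ℂ)), 𝔪.IsMaximal → (P.p : integralClosure ℤ ℂ) ∈ 𝔪 →
          fin_Body P M g 𝔪 :=
  Iff.rfl

/-- **B11 / L4 packaging**: the frozen existential body from a two-dimensional representation whose kernel
contains `Gal(Qbar/L0)`, `L0/ℚ` finite.  The number field is the normal closure of `L0 ⊔ L_Frey`. -/
theorem fin_package (P : FreyPackage) (M : ℕ) (g : CuspForm (CongruenceSubgroup.Gamma0 M) 2)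
    (𝔪 : Ideal (integralClosure ℤ ℂ))
    {K : Type} [Field K] [Algebra (ZMod P.p) K] {V : Type} [AddCommGroup V] [Module K V]
    (ρ : Representation K (AlgebraicClosure ℚ ≃ₐ[ℚ] AlgebraicClosure ℚ) V)
    (ψ : integralClosure ℤ ℂ →+* K) (hψ : 𝔪 ≤ RingHom.ker ψ) (h2 : Module.finrank K V = 2)
    (L0 : IntermediateField ℚ (AlgebraicClosure ℚ)) (hL0 : FiniteDimensional ℚ L0)
    (hker : ∀ σ : AlgebraicClosure ℚ ≃ₐ[ℚ] AlgebraicClosure ℚ, (∀ a ∈ L0, σ a = a) → ρ σ = 1)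
    (htr : ∀ ℓ : ℕ, ℓ.Prime → ¬ ℓ ∣ M → ℓ ≠ P.p →
      ∀ A : ValuationSubring (AlgebraicClosure ℚ), A.LiesOverPrime ℓ →
        ∀ τ : AlgebraicClosure ℚ ≃ₐ[ℚ] AlgebraicClosure ℚ, A.IsFrobeniusAt τ ℓ →
          ∃ a : integralClosure ℤ ℂ, (a : ℂ) = ModularFormClass.qCoeff g ℓ ∧
            LinearMap.trace K V (ρ τ) = ψ a)
    (hdet : ∀ ℓ : ℕ, ℓ.Prime → ¬ ℓ ∣ M → ℓ ≠ P.p →
      ∀ A : ValuationSubring (AlgebraicClosure ℚ), A.LiesOverPrime ℓ →
        ∀ τ : AlgebraicClosure ℚ ≃ₐ[ℚ] AlgebraicClosure ℚ, A.IsFrobeniusAt τ ℓ →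
          LinearMap.det (ρ τ) = (ℓ : K)) :
    ∃ (K : Type) (_ : Field K) (_ : Algebra (ZMod P.p) K)
      (V : Type) (_ : AddCommGroup V) (_ : Module K V)
      (ρ : Representation K (AlgebraicClosure ℚ ≃ₐ[ℚ] AlgebraicClosure ℚ) V)
      (ψ : integralClosure ℤ ℂ →+* K)
      (F : Type) (_ : Field F) (_ : NumberField F) (_ : IsGalois ℚ F)
      (_ : Algebra F (AlgebraicClosure ℚ)) (_ : IsScalarTower ℚ F (AlgebraicClosure ℚ)),
      𝔪 ≤ RingHom.ker ψ ∧
      Module.finrank K V = 2 ∧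
      (AlgEquiv.restrictNormalHom (F := ℚ) (K₁ := AlgebraicClosure ℚ) F).ker ≤
        (galoisRepModuleEnd (S := ℚ) (K := AlgebraicClosure ℚ) P.freyCurve P.p).ker ⊓
          ρ.ker ∧
      (∀ ℓ : ℕ, ℓ.Prime → ¬ ℓ ∣ M → ℓ ≠ P.p →
        ∀ A : ValuationSubring (AlgebraicClosure ℚ), A.LiesOverPrime ℓ →
          ∀ τ : AlgebraicClosure ℚ ≃ₐ[ℚ] AlgebraicClosure ℚ, A.IsFrobeniusAt τ ℓ →
            ∃ a : integralClosure ℤ ℂ, (a : ℂ) = ModularFormClass.qCoeff g ℓ ∧
              LinearMap.trace K V (ρ τ) = ψ a) ∧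
      (∀ ℓ : ℕ, ℓ.Prime → ¬ ℓ ∣ M → ℓ ≠ P.p →
        ∀ A : ValuationSubring (AlgebraicClosure ℚ), A.LiesOverPrime ℓ →
          ∀ τ : AlgebraicClosure ℚ ≃ₐ[ℚ] AlgebraicClosure ℚ, A.IsFrobeniusAt τ ℓ →
            LinearMap.det (ρ τ) = (ℓ : K)) := by
  obtain ⟨L1, hL1, hker1⟩ := fin_frey_open P
  obtain ⟨N, hNfd, hNn, hle⟩ := fin_exists_normal (L0 ⊔ L1) inferInstance
  obtain ⟨i1, i2, i3, hkerN⟩ := fin_field_package N hNfd hNn
  refine ⟨K, inferInstance, inferInstance, V, inferInstance, inferInstance, ρ, ψ, N, inferInstance,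
    i1, i2, inferInstance, i3, hψ, h2, ?_, htr, hdet⟩
  intro σ hσ
  have h1 : σ ∈ N.fixingSubgroup := hkerN hσ
  have h3 : σ ∈ (L0 ⊔ L1).fixingSubgroup := IntermediateField.fixingSubgroup_antitone hle h1
  refine ⟨hker1 (IntermediateField.fixingSubgroup_antitone le_sup_right h3), ?_⟩
  show σ ∈ ρ.ker
  rw [MonoidHom.mem_ker]
  apply hker
  intro a ha
  have h4 : σ ∈ L0.fixingSubgroup := IntermediateField.fixingSubgroup_antitone le_sup_left h3
  exact (IntermediateField.mem_fixingSubgroup_iff _ σ).1 h4 a ha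

/-- `fin_package` with conclusion `fin_Body`. -/
theorem fin_package_body (P : FreyPackage) (M : ℕ) (g : CuspForm (CongruenceSubgroup.Gamma0 M) 2)
    (𝔪 : Ideal (integralClosure ℤ ℂ))
    {K : Type} [Field K] [Algebra (ZMod P.p) K] {V : Type} [AddCommGroup V] [Module K V]
    (ρ : Representation K (AlgebraicClosure ℚ ≃ₐ[ℚ] AlgebraicClosure ℚ) V)
    (ψ : integralClosure ℤ ℂ →+* K) (hψ : 𝔪 ≤ RingHom.ker ψ) (h2 : Module.finrank K V = 2)
    (L0 : IntermediateField ℚ (AlgebraicClosure ℚ)) (hL0 : FiniteDimensional ℚ L0)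
    (hker : ∀ σ : AlgebraicClosure ℚ ≃ₐ[ℚ] AlgebraicClosure ℚ, (∀ a ∈ L0, σ a = a) → ρ σ = 1)
    (htr : ∀ ℓ : ℕ, ℓ.Prime → ¬ ℓ ∣ M → ℓ ≠ P.p →
      ∀ A : ValuationSubring (AlgebraicClosure ℚ), A.LiesOverPrime ℓ →
        ∀ τ : AlgebraicClosure ℚ ≃ₐ[ℚ] AlgebraicClosure ℚ, A.IsFrobeniusAt τ ℓ →
          ∃ a : integralClosure ℤ ℂ, (a : ℂ) = ModularFormClass.qCoeff g ℓ ∧
            LinearMap.trace K V (ρ τ) = ψ a)
    (hdet : ∀ ℓ : ℕ, ℓ.Prime → ¬ ℓ ∣ M → ℓ ≠ P.p →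
      ∀ A : ValuationSubring (AlgebraicClosure ℚ), A.LiesOverPrime ℓ →
        ∀ τ : AlgebraicClosure ℚ ≃ₐ[ℚ] AlgebraicClosure ℚ, A.IsFrobeniusAt τ ℓ →
          LinearMap.det (ρ τ) = (ℓ : K)) :
    fin_Body P M g 𝔪 :=
  fin_package P M g 𝔪 ρ ψ hψ h2 L0 hL0 hker htr hdet

end Fermat.Agent.S42x
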