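/-
S42 project, TOP glue (helper44, prefix `qpw_`): the DICKSON / POWER step between B8 (Frobenius quadratic
relation), B9 (every element of the finite image is a power of a Frobenius) and B10 (algebra lemma
`alm_exists_two_dim`, which needs the quadratic relation for EVERY group element).

* `qpw_dickson a e j` : the Dickson sequence `D₀ = 2, D₁ = a, D_{j+2} = a D_{j+1} - e D_j`.
* `qpw_pow_rel`  : `s² - a s + e = 0` in a `K`-algebra ⟹ `(s^j)² - D_j(a,e) s^j + e^j = 0`
                   (no invertibility, no semisimplicity, any commutative ring `K`).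
* `qpw_scalar_unique` : on a nontrivial module the scalar `a` with `s² - a s + e = 0`, `s` invertible,
                   is unique.
* `qpw_glue`     : a representation `ρ : G →* End_K V`, `V ≠ 0`, a character `ε : G →* K`, a set `Frob` of
                   group elements satisfying `ρ φ² - aF φ • ρ φ + ε φ = 0`, such that every `g` has
                   `ρ g = ρ φ ^ j`, `ε g = ε φ ^ j` for some `φ ∈ Frob` ⟹ there is `a : G → K` with the
                   relation for ALL `g` (the hypothesis of `alm_exists_two_dim`) and `a φ = aF φ` on `Frob`.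
Mathlib only.
-/
import Mathlib

set_option autoImplicit false

namespace Fermat.Agent.S42x

section Dickson

variable {K : Type*} [CommRing K]

/-- Dickson sequence: `D₀ = 2`, `D₁ = a`, `D_{j+2} = a D_{j+1} - e D_j`
(so `D_j(x + y, x y) = x^j + y^j`). -/
def qpw_dickson (a e : K) : ℕ → K
  | 0 => 2
  | 1 => a
  | (j + 2) => a * qpw_dickson a e (j + 1) - e * qpw_dickson a e j

@[simp] theorem qpw_dickson_zero (a e : K) : qpw_dickson a e 0 = 2 := rfl

@[simp] theorem qpw_dickson_one (a e : K) : qpw_dickson a e 1 = a := rfl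

theorem qpw_dickson_succ_succ (a e : K) (j : ℕ) :
    qpw_dickson a e (j + 2) = a * qpw_dickson a e (j + 1) - e * qpw_dickson a e j := rfl

variable {R : Type*} [Ring R] [Algebra K R]

/-- `s^j + t^j = D_j(a, e)` for commuting `s, t` with `s + t = a`, `s t = e`. -/
theorem qpw_pow_add_pow (s t : R) (a e : K) (hadd : s + t = algebraMap K R a)
    (hmul : s * t = algebraMap K R e) (hcomm : Commute s t) (j : ℕ) :
    s ^ j + t ^ j = algebraMap K R (qpw_dickson a e j) := by
  induction j using Nat.strong_induction_on with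
  | _ j ih =>
    match j with
    | 0 =>
      rw [pow_zero, pow_zero, qpw_dickson_zero, map_ofNat]
      norm_num
    | 1 => simpa using hadd
    | (j + 2) =>
      have h1 := ih (j + 1) (by omega)
      have h0 := ih j (by omega)
      rw [qpw_dickson_succ_succ, map_sub, map_mul, map_mul, ← h1, ← h0, ← hadd, ← hmul]
      have hts : t * s = s * t := hcomm.eq.symm
      have e1 : s * t * (s ^ j + t ^ j) = s ^ (j + 1) * t + s * t ^ (j + 1) := by
        rw [mul_add, pow_succ' s j, pow_succ' t j]
        have : s * t * s ^ j = s * s ^ j * t := by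
          rw [mul_assoc, (hcomm.symm.pow_right j).eq, ← mul_assoc]
        rw [this, mul_assoc s t (t ^ j)]
      have e2 : (s + t) * (s ^ (j + 1) + t ^ (j + 1)) =
          s ^ (j + 2) + t ^ (j + 2) + (s ^ (j + 1) * t + s * t ^ (j + 1)) := by
        have h3 : t * s ^ (j + 1) = s ^ (j + 1) * t := (hcomm.symm.pow_right (j + 1)).eq
        rw [add_mul, mul_add, mul_add, h3, ← pow_succ' s (j + 1), ← pow_succ' t (j + 1)]
        abel
      rw [e2, e1]
      abel

/-- **Power step**: `s² - a s + e = 0` ⟹ `(s^j)² - D_j(a,e) s^j + e^j = 0`. -/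
theorem qpw_pow_rel (s : R) (a e : K)
    (h : s * s - a • s + e • (1 : R) = 0) (j : ℕ) :
    s ^ j * s ^ j - qpw_dickson a e j • s ^ j + (e ^ j) • (1 : R) = 0 := by
  set t : R := algebraMap K R a - s with ht
  have hadd : s + t = algebraMap K R a := by rw [ht]; abel
  have hsa : s * algebraMap K R a = a • s := by
    rw [Algebra.smul_def, Algebra.commutes]
  have hmul : s * t = algebraMap K R e := by
    rw [ht, mul_sub, hsa, Algebra.algebraMap_eq_smul_one]
    have := h
    have h2 : a • s - s * s = e • (1 : R) := by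
      have h3 : e • (1 : R) = -(s * s - a • s) := eq_neg_of_add_eq_zero_right this
      rw [h3]; abel
    exact h2
  have hcomm : Commute s t := by
    show s * t = t * s
    rw [ht, mul_sub, sub_mul, Algebra.commutes]
  have hD := qpw_pow_add_pow s t a e hadd hmul hcomm j
  have hst : s ^ j * t ^ j = algebraMap K R (e ^ j) := by
    rw [← hcomm.mul_pow, hmul, map_pow]
  have hD' : qpw_dickson a e j • s ^ j = (s ^ j + t ^ j) * s ^ j := by
    rw [hD, Algebra.smul_def]
  have htj : t ^ j * s ^ j = s ^ j * t ^ j := ((hcomm.symm.pow_left j).pow_right j).eq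
  rw [hD', add_mul, htj, hst, Algebra.algebraMap_eq_smul_one]
  abel

end Dickson

section Unique

variable {K V : Type*} [Field K] [AddCommGroup V] [Module K V] [Nontrivial V]

/-- the scalar in a quadratic relation of an invertible endomorphism is unique. -/
theorem qpw_scalar_unique (s s' : Module.End K V) (hs : s * s' = 1) (a a' e : K)
    (h : s * s - a • s + e • (1 : Module.End K V) = 0)
    (h' : s * s - a' • s + e • (1 : Module.End K V) = 0) : a = a' := by
  have h1 : (a - a') • s = 0 := by
    have := congrArg₂ (· - ·) h' h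
    simp only [sub_self] at this
    rw [sub_smul]
    have e1 : s * s - a' • s + e • (1 : Module.End K V) - (s * s - a • s + e • 1) =
        a • s - a' • s := by abel
    rw [e1] at this
    exact this
  by_contra hne
  have hne' : a - a' ≠ 0 := sub_ne_zero.mpr hne
  have hs0 : s = 0 := by
    have := congrArg (fun x => (a - a')⁻¹ • x) h1
    simpa [smul_smul, inv_mul_cancel₀ hne'] using this
  have : (1 : Module.End K V) = 0 := by rw [← hs, hs0, zero_mul]
  exact one_ne_zero this

end Unique

section Glue

variable {G K V : Type*} [Group G] [Field K] [AddCommGroup V] [Module K V] [Nontrivial V]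

/-- **TOP glue**: from the quadratic relation on Frobenius elements and "every element is a power of a
Frobenius (on `V` and for `ε`)" to the hypothesis of the algebra lemma `alm_exists_two_dim`. -/
theorem qpw_glue (ρ : G →* Module.End K V) (ε : G →* K) (Frob : Set G) (aF : G → K)
    (hF : ∀ φ ∈ Frob, ρ φ * ρ φ - aF φ • ρ φ + ε φ • (1 : Module.End K V) = 0)
    (hdense : ∀ g : G, ∃ φ ∈ Frob, ∃ j : ℕ, ρ g = ρ φ ^ j ∧ ε g = ε φ ^ j) :
    ∃ a : G → K, (∀ g : G, ρ g * ρ g - a g • ρ g + ε g • (1 : Module.End K V) = 0) ∧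
      ∀ φ ∈ Frob, a φ = aF φ := by
  classical
  have hex : ∀ g : G, ∃ b : K, ρ g * ρ g - b • ρ g + ε g • (1 : Module.End K V) = 0 := by
    intro g
    obtain ⟨φ, hφ, j, h1, h2⟩ := hdense g
    refine ⟨qpw_dickson (aF φ) (ε φ) j, ?_⟩
    rw [h1, h2]
    exact qpw_pow_rel (ρ φ) (aF φ) (ε φ) (hF φ hφ) j
  refine ⟨fun g => (hex g).choose, fun g => (hex g).choose_spec, fun φ hφ => ?_⟩
  have hinv : ρ φ * ρ φ⁻¹ = 1 := by rw [← map_mul, mul_inv_cancel, map_one]
  exact qpw_scalar_unique (ρ φ) (ρ φ⁻¹) hinv _ _ (ε φ) (hex φ).choose_spec (hF φ hφ)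

end Glue

end Fermat.Agent.S42x
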