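/-
S42x/QuadRepCore.lean (helper92, prefix `qdr_`): pure linear algebra.
A subalgebra `B` of `End_K V` (K algebraically closed) all of whose elements satisfy a monic
quadratic polynomial over `K` and which acts transitively on nonzero vectors (irreducibility)
forces `finrank K V ≤ 2`.  No Wedderburn / Burnside input.
-/
import Mathlib

set_option autoImplicit false

namespace Fermat.Agent.S42x

open Polynomial Module

variable {K : Type*} [Field K] {V : Type*} [AddCommGroup V] [Module K V]

/-- every element of `B` is killed by a monic quadratic polynomial -/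
def qdr_Quad (B : Subalgebra K (Module.End K V)) : Prop :=
  ∀ b ∈ B, ∃ t n : K, b * b - t • b + n • (1 : Module.End K V) = 0

/-- `B` acts transitively on nonzero vectors -/
def qdr_Trans (B : Subalgebra K (Module.End K V)) : Prop :=
  ∀ w : V, w ≠ 0 → ∀ v : V, ∃ b ∈ B, b w = v

lemma qdr_exists_roots [IsAlgClosed K] (t n : K) : ∃ α β : K, t = α + β ∧ n = α * β := by
  have hdeg : (X ^ 2 - C t * X + C n : K[X]).degree ≠ 0 := by
    have : (X ^ 2 - C t * X + C n : K[X]).degree = 2 := by
      compute_degree!
    rw [this]; norm_num
  obtain ⟨α, hα⟩ := IsAlgClosed.exists_root _ hdeg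
  refine ⟨α, t - α, by ring, ?_⟩
  simp only [IsRoot, eval_add, eval_sub, eval_pow, eval_X, eval_mul, eval_C] at hα
  linear_combination hα

lemma qdr_mul_expand (b : Module.End K V) (α β : K) :
    (b - α • (1 : Module.End K V)) * (b - β • (1 : Module.End K V))
      = b * b - (α + β) • b + (α * β) • (1 : Module.End K V) := by
  simp only [sub_mul, mul_sub, smul_mul_assoc, mul_smul_comm, one_mul, mul_one, smul_sub,
    smul_smul, add_smul]
  module

lemma qdr_mul_comm' (b : Module.End K V) (α β : K) :
    (b - α • (1 : Module.End K V)) * (b - β • (1 : Module.End K V))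
      = (b - β • (1 : Module.End K V)) * (b - α • (1 : Module.End K V)) := by
  rw [qdr_mul_expand, qdr_mul_expand, add_comm α β, mul_comm α β]

lemma qdr_factor [IsAlgClosed K] {B : Subalgebra K (Module.End K V)} (hQ : qdr_Quad B)
    {b : Module.End K V} (hb : b ∈ B) :
    ∃ α β : K, (b - α • (1 : Module.End K V)) * (b - β • (1 : Module.End K V)) = 0 := by
  obtain ⟨t, n, h⟩ := hQ b hb
  obtain ⟨α, β, rfl, rfl⟩ := qdr_exists_roots t n
  exact ⟨α, β, by rw [qdr_mul_expand, h]⟩

/-- an eigenvalue of a quadratic element is one of the two roots -/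
lemma qdr_eigen_root {x : Module.End K V} {α β ν : K}
    (hx : (x - α • (1 : Module.End K V)) * (x - β • (1 : Module.End K V)) = 0)
    {v : V} (hv : x v = ν • v) (hv0 : v ≠ 0) : ν = α ∨ ν = β := by
  have h := congrArg (fun f : Module.End K V => f v) hx
  simp only [Module.End.mul_apply, LinearMap.sub_apply, LinearMap.smul_apply,
    Module.End.one_apply, LinearMap.zero_apply, map_sub, map_smul, hv] at h
  have h2 : ((ν - α) * (ν - β)) • v = 0 := by
    rw [← h]; module
  rcases smul_eq_zero.1 h2 with h3 | h3
  · rcases mul_eq_zero.1 h3 with h4 | h4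
    · exact Or.inl (sub_eq_zero.1 h4)
    · exact Or.inr (sub_eq_zero.1 h4)
  · exact absurd h3 hv0

/-- **Claim A**: the range of an idempotent `e ≠ 1` of `B` is at most one-dimensional. -/
lemma qdr_idem_range [IsAlgClosed K] {B : Subalgebra K (Module.End K V)} (hQ : qdr_Quad B)
    (hT : qdr_Trans B) {e : Module.End K V} (heB : e ∈ B) (hee : e * e = e) (he1 : e ≠ 1)
    {w1 w2 : V} (hw1 : w1 ≠ 0) (h1 : e w1 = w1) (h2 : e w2 = w2) : ∃ c : K, w2 = c • w1 := by
  classical
  by_contra hne
  push Not at hne
  obtain ⟨c0, hc0B, hc0⟩ := hT w1 hw1 w2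
  have hxB : e * c0 * e ∈ B := B.mul_mem (B.mul_mem heB hc0B) heB
  have hxw1 : (e * c0 * e) w1 = w2 := by
    simp only [Module.End.mul_apply, h1, hc0, h2]
  obtain ⟨α, β, hαβ⟩ := qdr_factor hQ hxB
  obtain ⟨ν, hν⟩ := Infinite.exists_notMem_finset ({α, β} : Finset K)
  have hνα : ν ≠ α := fun h => hν (by simp [h])
  have hνβ : ν ≠ β := fun h => hν (by simp [h])
  have hyB : e * c0 * e + ν • (1 - e) ∈ B :=
    B.add_mem hxB (B.smul_mem (B.sub_mem B.one_mem heB) ν)
  obtain ⟨α', β', hy⟩ := qdr_factor hQ hyB
  -- a nonzero vector killed by `e`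
  obtain ⟨u', hu'⟩ : ∃ u' : V, (1 - e) u' ≠ 0 := by
    by_contra hall
    push Not at hall
    apply he1
    have : (1 : Module.End K V) - e = 0 := LinearMap.ext fun v => by simpa using hall v
    exact (sub_eq_zero.1 this).symm
  set u : V := (1 - e) u' with hu
  have heu : e u = 0 := by
    have := congrArg (fun f : Module.End K V => f u') hee
    simp only [Module.End.mul_apply] at this
    simp [hu, this]
  have hyu : (e * c0 * e + ν • (1 - e)) u = ν • u := by
    simp only [LinearMap.add_apply, Module.End.mul_apply, heu, map_zero, LinearMap.smul_apply,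
      LinearMap.sub_apply, Module.End.one_apply, sub_zero, zero_add]
  -- `ν` is one of the roots of `y`
  have hνroot := qdr_eigen_root hy hyu hu'
  -- so `(y - ν)(y - γ) = 0` for some `γ`
  obtain ⟨γ, hγ⟩ : ∃ γ : K, ((e * c0 * e + ν • (1 - e)) - ν • (1 : Module.End K V)) *
      ((e * c0 * e + ν • (1 - e)) - γ • (1 : Module.End K V)) = 0 := by
    rcases hνroot with h | h
    · refine ⟨β', ?_⟩
      have h' := hy
      rw [← h] at h'
      exact h'
    · refine ⟨α', ?_⟩
      rw [qdr_mul_comm']
      have h' := hy
      rw [← h] at h'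
      exact h'
  -- apply to `w1`
  have hyw1 : (e * c0 * e + ν • (1 - e)) w1 = w2 := by
    simp only [LinearMap.add_apply, hxw1, LinearMap.smul_apply, LinearMap.sub_apply,
      Module.End.one_apply, h1, sub_self, smul_zero, add_zero]
  set v : V := w2 - γ • w1 with hv
  have hev : e v = v := by simp [hv, h1, h2]
  have hyv : (e * c0 * e + ν • (1 - e)) v = (e * c0 * e) v := by
    simp only [LinearMap.add_apply, LinearMap.smul_apply, LinearMap.sub_apply,
      Module.End.one_apply, hev, sub_self, smul_zero, add_zero]
  have h3 := congrArg (fun f : Module.End K V => f w1) hγ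
  simp only [Module.End.mul_apply, LinearMap.sub_apply, LinearMap.smul_apply,
    Module.End.one_apply, LinearMap.zero_apply, hyw1] at h3
  -- h3 : y (w2 - γ • w1) - ν • (w2 - γ • w1) = 0
  rw [← hv, hyv] at h3
  have hxv : (e * c0 * e) v = ν • v := sub_eq_zero.1 h3
  by_cases hv0 : v = 0
  · exact hne γ (sub_eq_zero.1 (hv ▸ hv0))
  · rcases qdr_eigen_root hαβ hxv hv0 with h | h
    · exact hνα h
    · exact hνβ h

/-- with a nontrivial idempotent in `B`, the space is spanned by two vectors -/
lemma qdr_finrank_le_two_of_idem [IsAlgClosed K] {B : Subalgebra K (Module.End K V)}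
    (hQ : qdr_Quad B) (hT : qdr_Trans B) {e : Module.End K V} (heB : e ∈ B) (hee : e * e = e)
    (he0 : e ≠ 0) (he1 : e ≠ 1) : finrank K V ≤ 2 := by
  classical
  -- nonzero vectors in the ranges of `e` and `1 - e`
  obtain ⟨w', hw'⟩ : ∃ w' : V, e w' ≠ 0 := by
    by_contra hall
    push Not at hall
    exact he0 (LinearMap.ext fun v => by simpa using hall v)
  obtain ⟨u', hu'⟩ : ∃ u' : V, (1 - e) u' ≠ 0 := by
    by_contra hall
    push Not at hall
    apply he1
    have : (1 : Module.End K V) - e = 0 := LinearMap.ext fun v => by simpa using hall v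
    exact (sub_eq_zero.1 this).symm
  have hee' : ∀ v : V, e (e v) = e v := fun v => by
    have := congrArg (fun f : Module.End K V => f v) hee
    simpa only [Module.End.mul_apply] using this
  have hfe : (1 - e) * (1 - e) = (1 - e : Module.End K V) := by
    simp only [sub_mul, mul_sub, one_mul, mul_one, hee]; abel
  have hf1 : (1 - e : Module.End K V) ≠ 1 := fun h => he0 (by
    have : (1 : Module.End K V) - e = 1 - 0 := by rw [h, sub_zero]
    exact sub_right_injective this)
  have hfB : (1 - e : Module.End K V) ∈ B := B.sub_mem B.one_mem heB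
  have hff' : ∀ v : V, (1 - e) ((1 - e : Module.End K V) v) = (1 - e : Module.End K V) v :=
    fun v => by
      have := congrArg (fun f : Module.End K V => f v) hfe
      simpa only [Module.End.mul_apply] using this
  have hspan : (⊤ : Submodule K V) ≤ Submodule.span K (({e w', (1 - e) u'} : Finset V) : Set V) := by
    intro v _
    obtain ⟨c1, hc1⟩ := qdr_idem_range hQ hT heB hee he1 hw' (hee' w') (hee' v)
    obtain ⟨c2, hc2⟩ := qdr_idem_range hQ hT hfB hfe hf1 hu' (hff' u') (hff' v)
    have hv : v = c1 • e w' + c2 • (1 - e) u' := by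
      rw [← hc1, ← hc2]; simp
    rw [hv]
    refine Submodule.add_mem _ (Submodule.smul_mem _ _ (Submodule.subset_span ?_))
      (Submodule.smul_mem _ _ (Submodule.subset_span ?_))
    · simp
    · simp
  calc finrank K V = finrank K (⊤ : Submodule K V) := (finrank_top K V).symm
    _ = finrank K (Submodule.span K (({e w', (1 - e) u'} : Finset V) : Set V)) := by
        rw [top_le_iff.1 hspan]
    _ ≤ ({e w', (1 - e) u'} : Finset V).card := finrank_span_finset_le_card _
    _ ≤ 2 := Finset.card_le_two

/-- **Main linear-algebra statement.** -/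
theorem qdr_finrank_le_two [IsAlgClosed K] (B : Subalgebra K (Module.End K V))
    (hQ : qdr_Quad B) (hT : qdr_Trans B) : finrank K V ≤ 2 := by
  classical
  by_cases hsc : ∀ b ∈ B, ∃ c : K, b = c • (1 : Module.End K V)
  · -- all scalar: dimension ≤ 1
    by_cases hV : ∃ w : V, w ≠ 0
    · obtain ⟨w, hw⟩ := hV
      have hspan : (⊤ : Submodule K V) ≤ Submodule.span K (({w} : Finset V) : Set V) := by
        intro v _
        obtain ⟨b, hb, hbv⟩ := hT w hw v
        obtain ⟨c, rfl⟩ := hsc b hb
        rw [← hbv]
        simp only [LinearMap.smul_apply, Module.End.one_apply]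
        exact Submodule.smul_mem _ _ (Submodule.subset_span (by simp))
      calc finrank K V = finrank K (⊤ : Submodule K V) := (finrank_top K V).symm
        _ = finrank K (Submodule.span K (({w} : Finset V) : Set V)) := by
            rw [top_le_iff.1 hspan]
        _ ≤ ({w} : Finset V).card := finrank_span_finset_le_card _
        _ ≤ 2 := by simp
    · push Not at hV
      have : Subsingleton V := ⟨fun a b => by rw [hV a, hV b]⟩
      rw [finrank_zero_of_subsingleton]; omega
  · push Not at hsc
    obtain ⟨b, hbB, hbns⟩ := hsc
    obtain ⟨lam, mu, hb⟩ := qdr_factor hQ hbB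
    by_cases hlm : lam = mu
    · -- nilpotent case
      subst hlm
      set x : Module.End K V := b - lam • (1 : Module.End K V) with hx
      have hxB : x ∈ B := B.sub_mem hbB (B.smul_mem B.one_mem lam)
      have hx0 : x ≠ 0 := fun h => hbns lam (sub_eq_zero.1 h)
      obtain ⟨w, hw⟩ : ∃ w : V, x w ≠ 0 := by
        by_contra hall
        push Not at hall
        exact hx0 (LinearMap.ext fun v => by simpa using hall v)
      have hxx : ∀ v : V, x (x v) = 0 := fun v => by
        have := congrArg (fun f : Module.End K V => f v) hb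
        simpa only [Module.End.mul_apply, LinearMap.zero_apply] using this
      have hw0 : w ≠ 0 := fun h => hw (by rw [h, map_zero])
      obtain ⟨c, hcB, hc⟩ := hT (x w) hw w
      have hzB : c * x ∈ B := B.mul_mem hcB hxB
      have hzw : (c * x) w = (1 : K) • w := by
        simp only [Module.End.mul_apply, hc, one_smul]
      have hzv : (c * x) (x w) = (0 : K) • (x w) := by
        simp only [Module.End.mul_apply, hxx, map_zero, zero_smul]
      obtain ⟨α, β, hz⟩ := qdr_factor hQ hzB
      have hzz : (c * x) * (c * x) = c * x := by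
        have e1 := qdr_eigen_root hz hzw hw0
        have e0 := qdr_eigen_root hz hzv hw
        have hab : α + β = 1 ∧ α * β = 0 := by
          rcases e1 with h | h <;> rcases e0 with h' | h'
          · exact absurd (h.trans h'.symm) one_ne_zero
          · rw [← h, ← h']; simp
          · rw [← h, ← h']; simp
          · exact absurd (h.trans h'.symm) one_ne_zero
        rw [qdr_mul_expand, hab.1, hab.2, one_smul, zero_smul, add_zero] at hz
        exact sub_eq_zero.1 hz
      have hz0 : c * x ≠ 0 := fun h => hw0 (by
        have := hzw; rw [h, LinearMap.zero_apply, one_smul] at this; exact this.symm)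
      have hz1 : c * x ≠ 1 := fun h => hw (by
        have := hzv; rw [h, Module.End.one_apply, zero_smul] at this; exact this)
      exact qdr_finrank_le_two_of_idem hQ hT hzB hzz hz0 hz1
    · -- two distinct roots: an idempotent
      have hd : lam - mu ≠ 0 := sub_ne_zero.2 hlm
      set e : Module.End K V := (lam - mu)⁻¹ • (b - mu • (1 : Module.End K V)) with he
      have heB : e ∈ B := B.smul_mem (B.sub_mem hbB (B.smul_mem B.one_mem mu)) _
      have hkey : (b - mu • (1 : Module.End K V)) * (b - mu • (1 : Module.End K V))
          = (lam - mu) • (b - mu • (1 : Module.End K V)) := by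
        have h1 : (b - mu • (1 : Module.End K V)) * (b - mu • (1 : Module.End K V))
            = (b - mu • (1 : Module.End K V)) * (b - lam • (1 : Module.End K V))
              + (lam - mu) • (b - mu • (1 : Module.End K V)) := by
          rw [qdr_mul_expand, qdr_mul_expand]
          simp only [smul_sub, smul_smul, sub_smul, add_smul]
          module
        rw [h1, qdr_mul_comm', hb, zero_add]
      have hee : e * e = e := by
        rw [he, smul_mul_assoc, mul_smul_comm, hkey, smul_smul, smul_smul]
        congr 1
        field_simp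
      have he0 : e ≠ 0 := fun h => by
        rw [he] at h
        rcases smul_eq_zero.1 h with h' | h'
        · exact hd (inv_eq_zero.1 h')
        · exact hbns mu (sub_eq_zero.1 h')
      have he1 : e ≠ 1 := fun h => by
        apply hbns lam
        have h2 : (lam - mu) • e = (lam - mu) • (1 : Module.End K V) := by rw [h]
        rw [he, smul_smul, mul_inv_cancel₀ hd, one_smul] at h2
        have : b = mu • (1 : Module.End K V) + (lam - mu) • (1 : Module.End K V) := by
          rw [← h2]; abel
        rw [this]; module
      exact qdr_finrank_le_two_of_idem hQ hT heB hee he0 he1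

end Fermat.Agent.S42x
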