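/-
S42x/QuadRep.lean (helper92, S42 block B10, prefixes `qdr_`, `alm_`): the algebra lemma.
If a group `G` acts on a nonzero finite-dimensional `K`-space `V` (`K` algebraically closed) and
every `g` satisfies `g^2 - a(g) g + ε(g) = 0` with `ε` multiplicative, then there is a
2-dimensional representation with characteristic polynomials `X^2 - a(g) X + ε(g)`.
-/
import Mathlib
import Fermat.Agent.S42x.QuadRepCore

set_option autoImplicit false

namespace Fermat.Agent.S42x

open Polynomial Module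

section Rel

variable {K : Type*} [Field K] {G : Type*} [Group G] {V : Type*} [AddCommGroup V] [Module K V]

/-- the quadratic relation for a representation -/
def qdr_Rel (ρ : G →* Module.End K V) (ε : G →* K) (a : G → K) : Prop :=
  ∀ g : G, ρ g * ρ g - a g • ρ g + ε g • (1 : Module.End K V) = 0

variable {ρ : G →* Module.End K V} {ε : G →* K} {a : G → K}

lemma qdr_mul_inv_self (ρ : G →* Module.End K V) (g : G) : ρ g * ρ g⁻¹ = 1 := by
  rw [← map_mul, mul_inv_cancel, map_one]

lemma qdr_star (h : qdr_Rel ρ ε a) (g : G) :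
    ρ g + ε g • ρ g⁻¹ = a g • (1 : Module.End K V) := by
  have h1 := congrArg (fun f : Module.End K V => f * ρ g⁻¹) (h g)
  simp only [add_mul, sub_mul, mul_assoc, smul_mul_assoc, one_mul, zero_mul,
    qdr_mul_inv_self, mul_one] at h1
  have : ρ g + ε g • ρ g⁻¹ - a g • (1 : Module.End K V) = 0 := by
    rw [← h1]; abel
  exact sub_eq_zero.1 this

/-- the linear parametrisation of the span of the image -/
noncomputable def qdr_P (ρ : G →* Module.End K V) : (G →₀ K) →ₗ[K] Module.End K V :=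
  Finsupp.linearCombination K (fun g => ρ g)

/-- the `star` partner -/
noncomputable def qdr_P' (ρ : G →* Module.End K V) (ε : G →* K) :
    (G →₀ K) →ₗ[K] Module.End K V :=
  Finsupp.linearCombination K (fun g => ε g • ρ g⁻¹)

/-- the `trace` functional -/
noncomputable def qdr_T (a : G → K) : (G →₀ K) →ₗ[K] K :=
  Finsupp.linearCombination K a

@[simp] lemma qdr_P_single (g : G) (c : K) : qdr_P ρ (Finsupp.single g c) = c • ρ g := by
  simp [qdr_P, Finsupp.linearCombination_single]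

@[simp] lemma qdr_P'_single (g : G) (c : K) :
    qdr_P' ρ ε (Finsupp.single g c) = c • (ε g • ρ g⁻¹) := by
  simp [qdr_P', Finsupp.linearCombination_single]

omit [Group G] in
@[simp] lemma qdr_T_single (g : G) (c : K) : qdr_T a (Finsupp.single g c) = c * a g := by
  simp [qdr_T, Finsupp.linearCombination_single]

lemma qdr_P_add_P' (h : qdr_Rel ρ ε a) (x : G →₀ K) :
    qdr_P ρ x + qdr_P' ρ ε x = qdr_T a x • (1 : Module.End K V) := by
  induction x using Finsupp.induction_linear with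
  | zero => simp
  | add f g hf hg =>
    rw [map_add, map_add, map_add, add_smul, ← hf, ← hg]; abel
  | single g c =>
    rw [qdr_P_single, qdr_P'_single, qdr_T_single, ← smul_add, qdr_star h g, smul_smul]

lemma qdr_cross_single (h : qdr_Rel ρ ε a) (g k : G) (c d : K) :
    ∃ s : K, (c • ρ g) * (d • (ε k • ρ k⁻¹)) + (d • ρ k) * (c • (ε g • ρ g⁻¹))
      = s • (1 : Module.End K V) := by
  refine ⟨c * d * ε k * a (g * k⁻¹), ?_⟩
  have hs := qdr_star h (g * k⁻¹)
  have hinv : (g * k⁻¹)⁻¹ = k * g⁻¹ := by group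
  have hε : ε g = ε (g * k⁻¹) * ε k := by rw [← map_mul]; congr 1; group
  rw [hinv] at hs
  have e1 : (c • ρ g) * (d • (ε k • ρ k⁻¹)) = (c * d * ε k) • ρ (g * k⁻¹) := by
    rw [map_mul]; simp only [smul_mul_assoc, mul_smul_comm, smul_smul]; congr 1; ring
  have e2 : (d • ρ k) * (c • (ε g • ρ g⁻¹))
      = (c * d * ε k) • (ε (g * k⁻¹) • ρ (k * g⁻¹)) := by
    rw [map_mul ρ k, hε]; simp only [smul_mul_assoc, mul_smul_comm, smul_smul]; congr 1; ring
  rw [e1, e2, ← smul_add, hs, smul_smul]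

lemma qdr_cross (h : qdr_Rel ρ ε a) (x y : G →₀ K) :
    ∃ s : K, qdr_P ρ x * qdr_P' ρ ε y + qdr_P ρ y * qdr_P' ρ ε x
      = s • (1 : Module.End K V) := by
  induction x using Finsupp.induction_linear with
  | zero => exact ⟨0, by simp⟩
  | add f g hf hg =>
    obtain ⟨s1, h1⟩ := hf
    obtain ⟨s2, h2⟩ := hg
    refine ⟨s1 + s2, ?_⟩
    rw [map_add, map_add, add_mul, mul_add, add_smul, ← h1, ← h2]; abel
  | single g c =>
    induction y using Finsupp.induction_linear with
    | zero => exact ⟨0, by simp⟩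
    | add f k hf hk =>
      obtain ⟨s1, h1⟩ := hf
      obtain ⟨s2, h2⟩ := hk
      refine ⟨s1 + s2, ?_⟩
      rw [map_add, map_add, add_mul, mul_add, add_smul, ← h1, ← h2]; abel
    | single k d =>
      simp only [qdr_P_single, qdr_P'_single]
      exact qdr_cross_single h g k c d

lemma qdr_norm (h : qdr_Rel ρ ε a) (x : G →₀ K) :
    ∃ n : K, qdr_P ρ x * qdr_P' ρ ε x = n • (1 : Module.End K V) := by
  induction x using Finsupp.induction_linear with
  | zero => exact ⟨0, by simp⟩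
  | add f g hf hg =>
    obtain ⟨n1, h1⟩ := hf
    obtain ⟨n2, h2⟩ := hg
    obtain ⟨s, hs⟩ := qdr_cross h f g
    refine ⟨n1 + n2 + s, ?_⟩
    rw [map_add, map_add, add_mul, mul_add, mul_add, add_smul, add_smul, ← h1, ← h2, ← hs]; abel
  | single g c =>
    refine ⟨c * c * ε g, ?_⟩
    rw [qdr_P_single, qdr_P'_single]
    simp only [smul_mul_assoc, mul_smul_comm, smul_smul, qdr_mul_inv_self]
    congr 1; ring

/-- the image algebra -/
def qdr_B (ρ : G →* Module.End K V) : Subalgebra K (Module.End K V) :=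
  Algebra.adjoin K (Set.range ρ)

lemma qdr_mem_B_iff (b : Module.End K V) : b ∈ qdr_B ρ ↔ ∃ x : G →₀ K, qdr_P ρ x = b := by
  have h1 : Subalgebra.toSubmodule (qdr_B ρ) = Submodule.span K (Set.range ρ) := by
    rw [qdr_B, Algebra.adjoin_eq_span]
    congr 1
    rw [← MonoidHom.coe_mrange, Submonoid.closure_eq]
  rw [← Subalgebra.mem_toSubmodule, h1, Finsupp.mem_span_range_iff_exists_finsupp]
  simp only [qdr_P, Finsupp.linearCombination_apply]

lemma qdr_quad (h : qdr_Rel ρ ε a) : qdr_Quad (qdr_B ρ) := by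
  intro b hb
  obtain ⟨x, rfl⟩ := (qdr_mem_B_iff b).1 hb
  obtain ⟨n, hn⟩ := qdr_norm h x
  refine ⟨qdr_T a x, n, ?_⟩
  have h2 : qdr_P' ρ ε x = qdr_T a x • (1 : Module.End K V) - qdr_P ρ x :=
    eq_sub_of_add_eq' (qdr_P_add_P' h x)
  rw [h2, mul_sub, mul_smul_comm, mul_one] at hn
  rw [← hn]; abel

/-- irreducibility of a representation -/
def qdr_Irred (ρ : G →* Module.End K V) : Prop :=
  ∀ U : Submodule K V, (∀ g : G, ∀ v ∈ U, ρ g v ∈ U) → U = ⊥ ∨ U = ⊤

lemma qdr_trans (hirr : qdr_Irred ρ) : qdr_Trans (qdr_B ρ) := by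
  intro w hw v
  set U : Submodule K V :=
    Submodule.map (LinearMap.applyₗ w) (Subalgebra.toSubmodule (qdr_B ρ)) with hU
  have hinv : ∀ g : G, ∀ v ∈ U, ρ g v ∈ U := by
    rintro g _ ⟨b, hb, rfl⟩
    refine ⟨ρ g * b, ?_, rfl⟩
    exact (qdr_B ρ).mul_mem (Algebra.subset_adjoin ⟨g, rfl⟩) hb
  have hwU : w ∈ U := ⟨1, (qdr_B ρ).one_mem, by simp⟩
  rcases hirr U hinv with h0 | h1
  · exact absurd ((Submodule.mem_bot K).1 (h0 ▸ hwU)) hw
  · have : v ∈ U := h1 ▸ Submodule.mem_top
    obtain ⟨b, hb, hbv⟩ := this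
    exact ⟨b, hb, hbv⟩

theorem qdr_irred_finrank_le_two [IsAlgClosed K] (h : qdr_Rel ρ ε a) (hirr : qdr_Irred ρ) :
    finrank K V ≤ 2 :=
  qdr_finrank_le_two (qdr_B ρ) (qdr_quad h) (qdr_trans hirr)

end Rel

end Fermat.Agent.S42x
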