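/-
S42x/QuadRepMain.lean (helper92, S42 block B10, prefixes `qdr_`, `alm_`): final form of the
algebra lemma `alm_exists_two_dim`.
-/
import Mathlib
import Fermat.Agent.S42x.QuadRep

set_option autoImplicit false

namespace Fermat.Agent.S42x

open Polynomial Module

section CharpolyTwo

variable {K : Type*} [Field K] {V : Type*} [AddCommGroup V] [Module K V]

/-- a non-scalar quadratic endomorphism of a plane: the quadratic is the characteristic
polynomial -/
lemma qdr_charpoly_of_not_scalar [FiniteDimensional K V] (hV : finrank K V = 2)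
    (f : Module.End K V) (a e : K)
    (hf : f * f - a • f + e • (1 : Module.End K V) = 0)
    (hns : ∀ c : K, f ≠ c • (1 : Module.End K V)) :
    LinearMap.charpoly f = X ^ 2 - C a * X + C e := by
  have : Nontrivial V := Module.nontrivial_of_finrank_pos (R := K) (by omega)
  set q : K[X] := X ^ 2 - C a * X + C e with hq
  have hqm : q.Monic := by
    rw [hq]; monicity!
  have hqd : q.natDegree = 2 := by
    rw [hq]; compute_degree!
  have hqf : aeval f q = 0 := by
    rw [hq]
    simp only [map_add, map_sub, map_mul, aeval_X, aeval_C, pow_two]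
    rw [← hf, Algebra.algebraMap_eq_smul_one, Algebra.algebraMap_eq_smul_one, smul_mul_assoc,
      one_mul]
  have hint : IsIntegral K f := Algebra.IsIntegral.isIntegral f
  have hdvd : minpoly K f ∣ q := minpoly.dvd K f hqf
  have hmm : (minpoly K f).Monic := minpoly.monic hint
  have hdeg : 2 ≤ (minpoly K f).natDegree := by
    by_contra hlt
    have h1 : (minpoly K f).natDegree = 1 := by
      have := minpoly.natDegree_pos hint
      omega
    have h2 := hmm.eq_X_add_C h1
    have h3 : aeval f (minpoly K f) = 0 := minpoly.aeval K f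
    rw [h2] at h3
    simp only [map_add, aeval_X, aeval_C] at h3
    apply hns (-(minpoly K f).coeff 0)
    rw [neg_smul, ← Algebra.algebraMap_eq_smul_one]
    exact eq_neg_of_add_eq_zero_left h3
  have hmq : q = minpoly K f :=
    Polynomial.eq_of_monic_of_dvd_of_natDegree_le hmm hqm hdvd (by rw [hqd]; exact hdeg)
  have hcd : (LinearMap.charpoly f).natDegree = 2 := by
    rw [LinearMap.charpoly_natDegree, hV]
  have hcm : (LinearMap.charpoly f).Monic := LinearMap.charpoly_monic f
  have hc : LinearMap.charpoly f = minpoly K f :=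
    Polynomial.eq_of_monic_of_dvd_of_natDegree_le hmm hcm (LinearMap.minpoly_dvd_charpoly f)
      (by rw [hcd]; exact hdeg)
  rw [hc, ← hmq]

/-- characteristic polynomial of a scalar on a plane -/
lemma qdr_charpoly_scalar [FiniteDimensional K V] (hV : finrank K V = 2) (c : K) :
    LinearMap.charpoly (c • (1 : Module.End K V)) = X ^ 2 - C (2 * c) * X + C (c * c) := by
  have h := LinearMap.charpoly_sub_smul (0 : Module.End K V) (-c)
  rw [LinearMap.charpoly_zero, hV] at h
  have h0 : (0 : Module.End K V) - -c • (1 : Module.End K V) = c • (1 : Module.End K V) := by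
    rw [neg_smul, sub_neg_eq_add, zero_add]
  rw [h0] at h
  rw [h]
  simp only [pow_comp, X_comp, map_neg, map_mul]
  have : (C (2 : K) : K[X]) = 2 := map_ofNat C 2
  rw [this]
  ring

end CharpolyTwo

section GroupTwo

variable {K : Type*} [Field K] {G : Type*} [Group G] {V : Type*} [AddCommGroup V] [Module K V]
variable {ρ : G →* Module.End K V} {ε : G →* K} {a : G → K}

omit [Group G] in
lemma qdr_eps_ne_zero' {G : Type*} [Group G] (ε : G →* K) (g : G) : ε g ≠ 0 := by
  intro h
  have : ε g * ε g⁻¹ = 1 := by rw [← map_mul, mul_inv_cancel, map_one]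
  rw [h, zero_mul] at this
  exact zero_ne_one this

/-- in the irreducible 2-dimensional case, the characteristic polynomial of every `g` is the
prescribed quadratic (including scalar `g`) -/
theorem qdr_charpoly_irred [FiniteDimensional K V] (h : qdr_Rel ρ ε a) (hirr : qdr_Irred ρ)
    (hV : finrank K V = 2) (g : G) :
    LinearMap.charpoly (ρ g) = X ^ 2 - C (a g) * X + C (ε g) := by
  classical
  have hnt : Nontrivial V := Module.nontrivial_of_finrank_pos (R := K) (by omega)
  by_cases hsc : ∃ c : K, ρ g = c • (1 : Module.End K V)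
  · obtain ⟨c, hc⟩ := hsc
    -- some element is not scalar
    have hex : ∃ k : G, ∀ d : K, ρ k ≠ d • (1 : Module.End K V) := by
      by_contra hall
      push Not at hall
      obtain ⟨w, hw⟩ := exists_ne (0 : V)
      have hinv : ∀ g : G, ∀ v ∈ Submodule.span K ({w} : Set V),
          ρ g v ∈ Submodule.span K ({w} : Set V) := by
        intro g' v hv
        obtain ⟨d, hd⟩ := hall g'
        rw [hd]
        simpa using Submodule.smul_mem _ d hv
      rcases hirr _ hinv with h0 | h1
      · exact hw ((Submodule.span_singleton_eq_bot).1 h0)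
      · have h2 : finrank K (Submodule.span K ({w} : Set V)) = 2 := by
          rw [h1, finrank_top, hV]
        rw [finrank_span_singleton hw] at h2
        omega
    obtain ⟨k, hk⟩ := hex
    have hc0 : c ≠ 0 := by
      intro h0
      have h1 := qdr_mul_inv_self ρ g
      rw [hc, h0, zero_smul, zero_mul] at h1
      exact zero_ne_one h1
    -- relation for `g * k`
    have hgk : ρ (g * k) = c • ρ k := by rw [map_mul, hc, smul_mul_assoc, one_mul]
    have hrk := h k
    have hrgk := h (g * k)
    rw [hgk] at hrgk
    -- (c ρk)^2 - a(gk) c ρk + ε(gk) = 0, and ρk^2 = a k ρk - ε k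
    have hk2 : ρ k * ρ k = a k • ρ k - ε k • (1 : Module.End K V) := by
      have : ρ k * ρ k - (a k • ρ k - ε k • (1 : Module.End K V)) = 0 := by
        rw [← hrk]; abel
      exact sub_eq_zero.1 this
    have hlin : (c * c * a k - a (g * k) * c) • ρ k
        + (ε (g * k) - c * c * ε k) • (1 : Module.End K V) = 0 := by
      have e1 : (c • ρ k) * (c • ρ k) = (c * c) • (ρ k * ρ k) := by
        simp only [smul_mul_assoc, mul_smul_comm, smul_smul]
      rw [e1, hk2] at hrgk
      rw [← hrgk]
      simp only [smul_sub, smul_smul, sub_smul]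
      module
    have hcoef : c * c * a k - a (g * k) * c = 0 := by
      by_contra hne
      apply hk (-(c * c * a k - a (g * k) * c)⁻¹ * (ε (g * k) - c * c * ε k))
      have h3 : (c * c * a k - a (g * k) * c) • ρ k
          = -((ε (g * k) - c * c * ε k) • (1 : Module.End K V)) :=
        eq_neg_of_add_eq_zero_left hlin
      have h4 := congrArg (fun f : Module.End K V => (c * c * a k - a (g * k) * c)⁻¹ • f) h3
      simp only [smul_smul, inv_mul_cancel₀ hne, one_smul] at h4
      rw [h4, smul_neg, smul_smul, ← neg_smul]
      congr 1; ring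
    rw [hcoef, zero_smul, zero_add] at hlin
    have hεgk : ε (g * k) - c * c * ε k = 0 := by
      rcases smul_eq_zero.1 hlin with h5 | h5
      · exact h5
      · exact absurd h5 one_ne_zero
    have hεg : ε g = c * c := by
      rw [map_mul] at hεgk
      have : (ε g - c * c) * ε k = 0 := by rw [sub_mul]; exact hεgk
      rcases mul_eq_zero.1 this with h6 | h6
      · exact sub_eq_zero.1 h6
      · exact absurd h6 (qdr_eps_ne_zero' ε k)
    -- relation for g itself
    have hrg := h g
    rw [hc, hεg] at hrg
    have hag : a g = 2 * c := by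
      have e2 : (c • (1 : Module.End K V)) * (c • (1 : Module.End K V))
          - a g • (c • (1 : Module.End K V)) + (c * c) • (1 : Module.End K V)
          = (c * c - a g * c + c * c) • (1 : Module.End K V) := by
        simp only [smul_mul_assoc, mul_smul_comm, smul_smul, one_mul, sub_smul, add_smul]
      rw [e2] at hrg
      rcases smul_eq_zero.1 hrg with h7 | h7
      · have : (2 * c - a g) * c = 0 := by rw [← h7]; ring
        rcases mul_eq_zero.1 this with h8 | h8
        · exact (sub_eq_zero.1 h8).symm
        · exact absurd h8 hc0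
      · exact absurd h7 one_ne_zero
    rw [hc, qdr_charpoly_scalar hV, hag, hεg]
  · push Not at hsc
    exact qdr_charpoly_of_not_scalar hV (ρ g) (a g) (ε g) (h g) hsc

end GroupTwo


section DimOne

variable {K : Type} [Field K] {G : Type*} [Group G] {V : Type*} [AddCommGroup V] [Module K V]
variable {ρ : G →* Module.End K V} {ε : G →* K} {a : G → K}

/-- on a line every endomorphism is the scalar `det` -/
lemma qdr_eq_det_smul_of_finrank_one [FiniteDimensional K V] (hV : finrank K V = 1)
    (f : Module.End K V) : f = LinearMap.det f • (1 : Module.End K V) := by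
  obtain ⟨v, hv0, hv⟩ := finrank_eq_one_iff'.1 hV
  obtain ⟨c, hc⟩ := hv (f v)
  have hf : f = c • (1 : Module.End K V) := by
    apply LinearMap.ext
    intro w
    obtain ⟨d, rfl⟩ := hv w
    rw [map_smul, ← hc]
    simp [smul_smul, mul_comm]
  have hdet : LinearMap.det f = c := by
    rw [hf, LinearMap.det_smul, hV, pow_one, map_one, mul_one]
  rw [hdet]; exact hf

/-- the second character `ε / lam` -/
noncomputable def qdr_mu (lam ε : G →* K) : G →* K where
  toFun g := ε g * (lam g)⁻¹
  map_one' := by simp
  map_mul' g k := by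
    simp only [map_mul, mul_inv]
    ring

/-- the diagonal representation `lam ⊕ mu` on `Fin 2 → K` -/
noncomputable def qdr_diagRep (lam mu : G →* K) : G →* Module.End K (Fin 2 → K) where
  toFun g := Matrix.toLin' (Matrix.diagonal ![lam g, mu g])
  map_one' := by
    have : (![lam 1, mu 1] : Fin 2 → K) = fun _ => 1 := by
      funext i; fin_cases i <;> simp
    rw [this]
    have h1 : (Matrix.diagonal (fun _ : Fin 2 => (1 : K))) = 1 := Matrix.diagonal_one
    rw [h1, Matrix.toLin'_one]; rfl
  map_mul' g k := by
    have : (![lam (g * k), mu (g * k)] : Fin 2 → K)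
        = fun i => (![lam g, mu g] : Fin 2 → K) i * (![lam k, mu k] : Fin 2 → K) i := by
      funext i; fin_cases i <;> simp
    rw [this, ← Matrix.diagonal_mul_diagonal, Matrix.toLin'_mul]; rfl

lemma qdr_diagRep_charpoly (lam mu : G →* K) (g : G) :
    LinearMap.charpoly (qdr_diagRep lam mu g)
      = X ^ 2 - C (lam g + mu g) * X + C (lam g * mu g) := by
  change LinearMap.charpoly (Matrix.toLin' (Matrix.diagonal ![lam g, mu g])) = _
  rw [Matrix.charpoly_toLin', Matrix.charpoly_diagonal, Fin.prod_univ_two]
  simp only [Matrix.cons_val_zero, Matrix.cons_val_one, map_add, map_mul]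
  ring

lemma qdr_diagRep_eq_one (lam mu : G →* K) (g : G) (h1 : lam g = 1) (h2 : mu g = 1) :
    qdr_diagRep lam mu g = 1 := by
  change Matrix.toLin' (Matrix.diagonal ![lam g, mu g]) = 1
  rw [h1, h2]
  have : (![1, 1] : Fin 2 → K) = fun _ => 1 := by
    funext i; fin_cases i <;> simp
  rw [this]
  have h1 : (Matrix.diagonal (fun _ : Fin 2 => (1 : K))) = 1 := Matrix.diagonal_one
  rw [h1, Matrix.toLin'_one]; rfl

end DimOne

section Final

variable {K : Type} [Field K] {G : Type*} [Group G] {V : Type} [AddCommGroup V] [Module K V]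
variable {ρ : G →* Module.End K V} {ε : G →* K} {a : G → K}

/-- restriction of a representation to an invariant subspace -/
noncomputable def qdr_restrict (ρ : G →* Module.End K V) (U : Submodule K V)
    (hU : ∀ g : G, ∀ v ∈ U, ρ g v ∈ U) : G →* Module.End K U where
  toFun g := (ρ g).restrict (hU g)
  map_one' := by
    apply LinearMap.ext; intro v; apply Subtype.ext
    simp [LinearMap.restrict_apply]
  map_mul' g k := by
    apply LinearMap.ext; intro v; apply Subtype.ext
    simp [LinearMap.restrict_apply]

lemma qdr_restrict_apply (ρ : G →* Module.End K V) (U : Submodule K V)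
    (hU : ∀ g : G, ∀ v ∈ U, ρ g v ∈ U) (g : G) (v : U) :
    ((qdr_restrict ρ U hU g) v : V) = ρ g (v : V) := rfl

lemma qdr_restrict_rel (h : qdr_Rel ρ ε a) (U : Submodule K V)
    (hU : ∀ g : G, ∀ v ∈ U, ρ g v ∈ U) : qdr_Rel (qdr_restrict ρ U hU) ε a := by
  intro g
  apply LinearMap.ext; intro v; apply Subtype.ext
  have := congrArg (fun f : Module.End K V => f (v : V)) (h g)
  simpa [qdr_restrict_apply] using this

/-- **B10 algebra lemma.** -/
theorem alm_exists_two_dim [IsAlgClosed K] [Nontrivial V] [FiniteDimensional K V]
    (ρ : G →* Module.End K V) (ε : G →* K) (a : G → K)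
    (h : ∀ g : G, ρ g * ρ g - a g • ρ g + ε g • (1 : Module.End K V) = 0) :
    ∃ (W : Type) (_ : AddCommGroup W) (_ : Module K W) (_ : Module.Finite K W)
      (ρ' : G →* Module.End K W),
      finrank K W = 2 ∧
      (∀ g : G, LinearMap.charpoly (ρ' g) = X ^ 2 - C (a g) * X + C (ε g)) ∧
      (∀ g : G, ρ g = 1 → ε g = 1 → ρ' g = 1) := by
  classical
  have hrel : qdr_Rel ρ ε a := h
  -- a minimal nonzero invariant subspace
  let S : Set (Submodule K V) := {U | U ≠ ⊥ ∧ ∀ g : G, ∀ v ∈ U, ρ g v ∈ U}
  have hS : S.Nonempty := ⟨⊤, top_ne_bot, fun _ _ _ => Submodule.mem_top⟩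
  have hwf : WellFounded ((· < ·) : Submodule K V → Submodule K V → Prop) := wellFounded_lt
  set U := hwf.min S hS with hUdef
  have hUS : U ∈ S := hwf.min_mem S hS
  have hUmin : ∀ U' ∈ S, ¬ U' < U := fun U' hU' => hwf.not_lt_min S hU'
  obtain ⟨hU0, hUinv⟩ := hUS
  set ρU := qdr_restrict ρ U hUinv with hρU
  have hrelU : qdr_Rel ρU ε a := qdr_restrict_rel hrel U hUinv
  have hirr : qdr_Irred ρU := by
    intro U' hU'
    by_cases h0 : U' = ⊥
    · exact Or.inl h0
    · right
      have hmapS : U'.map U.subtype ∈ S := by
        refine ⟨?_, ?_⟩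
        · intro hb
          apply h0
          rw [Submodule.eq_bot_iff]
          intro v hv
          have hv' : (v : V) ∈ U'.map U.subtype := ⟨v, hv, rfl⟩
          rw [hb] at hv'
          exact Subtype.ext ((Submodule.mem_bot K).1 hv')
        · rintro g _ ⟨v, hv, rfl⟩
          exact ⟨ρU g v, hU' g v hv, rfl⟩
      have hle : U'.map U.subtype ≤ U := Submodule.map_subtype_le U U'
      have heq : U'.map U.subtype = U := eq_of_le_of_not_lt hle (hUmin _ hmapS)
      rw [eq_top_iff]
      intro v _
      have hv : (v : V) ∈ U'.map U.subtype := by rw [heq]; exact v.2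
      obtain ⟨v', hv', hvv⟩ := hv
      have : v' = v := Subtype.ext hvv
      exact this ▸ hv'
  have hle2 : finrank K U ≤ 2 := qdr_irred_finrank_le_two hrelU hirr
  have hpos : 0 < finrank K U := by
    have : Nontrivial U := Submodule.nontrivial_iff_ne_bot.2 hU0
    exact Module.finrank_pos
  have hcases : finrank K U = 1 ∨ finrank K U = 2 := by omega
  rcases hcases with h1 | h2
  · -- one-dimensional: `lam ⊕ ε/lam`
    set lam : G →* K := (LinearMap.det : Module.End K U →* K).comp ρU with hlam
    have hρlam : ∀ g : G, ρU g = lam g • (1 : Module.End K U) := fun g =>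
      qdr_eq_det_smul_of_finrank_one h1 (ρU g)
    have hlam0 : ∀ g : G, lam g ≠ 0 := fun g => qdr_eps_ne_zero' lam g
    have hnt : Nontrivial U := Submodule.nontrivial_iff_ne_bot.2 hU0
    have hquad : ∀ g : G, lam g * lam g - a g * lam g + ε g = 0 := by
      intro g
      have hg := hrelU g
      rw [hρlam g] at hg
      have e2 : (lam g • (1 : Module.End K U)) * (lam g • (1 : Module.End K U))
          - a g • (lam g • (1 : Module.End K U)) + ε g • (1 : Module.End K U)
          = (lam g * lam g - a g * lam g + ε g) • (1 : Module.End K U) := by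
        simp only [smul_mul_assoc, mul_smul_comm, smul_smul, one_mul, sub_smul, add_smul]
      rw [e2] at hg
      rcases smul_eq_zero.1 hg with h7 | h7
      · exact h7
      · exact absurd h7 one_ne_zero
    refine ⟨Fin 2 → K, inferInstance, inferInstance, inferInstance,
      qdr_diagRep lam (qdr_mu lam ε), ?_, ?_, ?_⟩
    · simp
    · intro g
      rw [qdr_diagRep_charpoly]
      have hmu : qdr_mu lam ε g = ε g * (lam g)⁻¹ := rfl
      have hl0 := hlam0 g
      have e1 : lam g + qdr_mu lam ε g = a g := by
        rw [hmu]
        have h3 : lam g * (lam g + ε g * (lam g)⁻¹) = lam g * a g := by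
          rw [mul_add, ← mul_assoc, mul_comm (lam g) (ε g), mul_assoc, mul_inv_cancel₀ hl0,
            mul_one]
          linear_combination hquad g
        exact mul_left_cancel₀ hl0 h3
      have e2 : lam g * qdr_mu lam ε g = ε g := by
        rw [hmu, mul_comm (ε g), ← mul_assoc, mul_inv_cancel₀ hl0, one_mul]
      rw [e1, e2]
    · intro g hg hε
      have hl : lam g = 1 := by
        have : ρU g = 1 := by
          apply LinearMap.ext; intro v; apply Subtype.ext
          rw [qdr_restrict_apply, hg]; rfl
        rw [hlam, MonoidHom.comp_apply, this, map_one]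
      apply qdr_diagRep_eq_one _ _ _ hl
      change ε g * (lam g)⁻¹ = 1
      rw [hl, hε, inv_one, mul_one]
  · -- two-dimensional: `U` itself
    refine ⟨U, inferInstance, inferInstance, inferInstance, ρU, h2, ?_, ?_⟩
    · intro g
      exact qdr_charpoly_irred hrelU hirr h2 g
    · intro g hg _
      apply LinearMap.ext; intro v; apply Subtype.ext
      rw [qdr_restrict_apply, hg]; rfl

/-- trace and determinant from the characteristic polynomial in dimension 2 -/
theorem alm_trace_det_of_charpoly {W : Type*} [AddCommGroup W] [Module K W] [Module.Finite K W]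
    (hW : finrank K W = 2) (f : Module.End K W) (t d : K)
    (hf : LinearMap.charpoly f = X ^ 2 - C t * X + C d) :
    LinearMap.trace K W f = t ∧ LinearMap.det f = d := by
  let b : Basis (Fin 2) K W := Module.finBasisOfFinrankEq K W hW
  have h1 : (LinearMap.toMatrix b b f).charpoly = LinearMap.charpoly f :=
    LinearMap.charpoly_toMatrix f b
  rw [Matrix.charpoly_fin_two, hf] at h1
  have htr : (LinearMap.toMatrix b b f).trace = LinearMap.trace K W f :=
    (LinearMap.trace_eq_matrix_trace K b f).symm
  have hdet : (LinearMap.toMatrix b b f).det = LinearMap.det f := LinearMap.det_toMatrix b f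
  rw [htr, hdet] at h1
  have c1 := congrArg (fun p : K[X] => p.coeff 1) h1
  have c0 := congrArg (fun p : K[X] => p.coeff 0) h1
  simp only [coeff_add, coeff_sub, coeff_X_pow, coeff_C_mul, coeff_X_one, coeff_C_zero,
    coeff_X_zero, mul_zero, mul_one] at c1 c0
  simp at c1 c0
  exact ⟨c1, c0⟩

end Final

end Fermat.Agent.S42x
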