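/-
S42x/FinAttach (helper61; S42 project, block B11 TOP; prefix `fin_`).

ABSTRACT attachment theorem: from a nonzero vector `v` of a `K`-linear `G_ℚ`-module `V` (`K` an
algebraically closed field over `𝔽_p`) with an OPEN stabiliser, such that every Frobenius lift `τ` at a
prime `ℓ ∤ M`, `ℓ ≠ p` satisfies `τ² - ψ(a_ℓ) τ + ℓ = 0` on the orbit of `v`, and from the cyclic
Frobenius density statement `fin_Density` (block B9), produce the existential body of the frozen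
`FreyPackage.EigenformResidualAttachmentAt`.
-/
import Mathlib
import Fermat.Prelude.Def_FreyPackage_EigenformResidualAttachment
import Fermat.Agent.S42x.QuadRepMain
import Fermat.Agent.S42x.QuadPow
import Fermat.Agent.S42x.FinOmega
import Fermat.Agent.S42x.FinOrbit
import Fermat.Agent.S42x.FinPackage

set_option autoImplicit false
set_option linter.style.haveILetI false

open FreyPackage Polynomial

namespace Fermat.Agent.S42x

noncomputable section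

/-- The statement of block B9 (`(I1-TOP)` of `I1_SPEC_helper70`): cyclic Frobenius density. -/
def fin_Density : Prop :=
  ∀ (L : IntermediateField ℚ (AlgebraicClosure ℚ)), FiniteDimensional ℚ L →
    (∀ σ : AlgebraicClosure ℚ ≃ₐ[ℚ] AlgebraicClosure ℚ, ∀ x ∈ L, σ x ∈ L) →
    ∀ (g : AlgebraicClosure ℚ ≃ₐ[ℚ] AlgebraicClosure ℚ) (M : ℕ), 0 < M →
      ∃ (ℓ : ℕ) (A : ValuationSubring (AlgebraicClosure ℚ))
        (φ : AlgebraicClosure ℚ ≃ₐ[ℚ] AlgebraicClosure ℚ) (j : ℕ), ℓ.Prime ∧ ¬ ℓ ∣ M ∧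
        A.LiesOverPrime ℓ ∧ A.IsFrobeniusAt φ ℓ ∧ g⁻¹ * φ ^ j ∈ L.fixingSubgroup

section Restrict

variable {G K V : Type*} [Group G] [Field K] [AddCommGroup V] [Module K V]

/-- restriction of a representation to a stable subspace -/
def fin_restrict (ρ : G →* Module.End K V) (W : Submodule K V)
    (hW : ∀ σ, ∀ w ∈ W, ρ σ w ∈ W) : G →* Module.End K W where
  toFun σ := (ρ σ).restrict (hW σ)
  map_one' := by
    ext w
    simp
  map_mul' σ τ := by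
    ext w
    simp

@[simp] theorem fin_restrict_apply (ρ : G →* Module.End K V) (W : Submodule K V)
    (hW : ∀ σ, ∀ w ∈ W, ρ σ w ∈ W) (σ : G) (w : W) :
    (fin_restrict ρ W hW σ w : V) = ρ σ w := rfl

end Restrict

/-- **B11 CORE** (any prime `p`, any level `M > 0`; serves S42 and S29): the two-dimensional representation
with its finite level, the kernel-transfer clause (inertia), and trace/determinant at Frobenius lifts. -/
theorem fin_core {p : ℕ} [Fact p.Prime] (M : ℕ) (hM : 0 < M)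
    (g : CuspForm (CongruenceSubgroup.Gamma0 M) 2)
    {K : Type} [Field K] [IsAlgClosed K] [Algebra (ZMod p) K]
    (ψ : integralClosure ℤ ℂ →+* K)
    {V : Type} [AddCommGroup V] [Module K V]
    (ρ : (AlgebraicClosure ℚ ≃ₐ[ℚ] AlgebraicClosure ℚ) →* Module.End K V)
    (v : V) (hv : v ≠ 0)
    (hopen : ∃ E : IntermediateField ℚ (AlgebraicClosure ℚ), FiniteDimensional ℚ E ∧
      ∀ σ : AlgebraicClosure ℚ ≃ₐ[ℚ] AlgebraicClosure ℚ, (∀ a ∈ E, σ a = a) → ρ σ v = v)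
    (hfrob : ∀ ℓ : ℕ, ℓ.Prime → ¬ ℓ ∣ M → ℓ ≠ p →
      ∀ A : ValuationSubring (AlgebraicClosure ℚ), A.LiesOverPrime ℓ →
        ∀ τ : AlgebraicClosure ℚ ≃ₐ[ℚ] AlgebraicClosure ℚ, A.IsFrobeniusAt τ ℓ →
          ∃ a : integralClosure ℤ ℂ, (a : ℂ) = ModularFormClass.qCoeff g ℓ ∧
            ∀ σ, ρ τ (ρ τ (ρ σ v)) - ψ a • ρ τ (ρ σ v) + (ℓ : K) • ρ σ v = 0)
    (hdens : fin_Density) :
    ∃ (W : Type) (_ : AddCommGroup W) (_ : Module K W)
      (ρ' : (AlgebraicClosure ℚ ≃ₐ[ℚ] AlgebraicClosure ℚ) →* Module.End K W),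
      Module.finrank K W = 2 ∧
      (∃ L : IntermediateField ℚ (AlgebraicClosure ℚ), FiniteDimensional ℚ L ∧
        ∀ σ : AlgebraicClosure ℚ ≃ₐ[ℚ] AlgebraicClosure ℚ, (∀ x ∈ L, σ x = x) → ρ' σ = 1) ∧
      (∀ σ : AlgebraicClosure ℚ ≃ₐ[ℚ] AlgebraicClosure ℚ, (∀ τ, ρ σ (ρ τ v) = ρ τ v) →
        fin_omega p K σ = 1 → ρ' σ = 1) ∧
      (∀ ℓ : ℕ, ℓ.Prime → ¬ ℓ ∣ M → ℓ ≠ p →
        ∀ A : ValuationSubring (AlgebraicClosure ℚ), A.LiesOverPrime ℓ →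
          ∀ τ : AlgebraicClosure ℚ ≃ₐ[ℚ] AlgebraicClosure ℚ, A.IsFrobeniusAt τ ℓ →
            ∃ a : integralClosure ℤ ℂ, (a : ℂ) = ModularFormClass.qCoeff g ℓ ∧
              LinearMap.trace K W (ρ' τ) = ψ a ∧ LinearMap.det (ρ' τ) = (ℓ : K)) := by
  classical
  -- the cyclotomic character
  set ε : (AlgebraicClosure ℚ ≃ₐ[ℚ] AlgebraicClosure ℚ) →* K := fin_omega p K with hε
  obtain ⟨E0, hE0fd, hE0⟩ := fin_omega_finiteLevel p K
  -- the orbit span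
  obtain ⟨E1, hE1fd, hE01, hE1norm, hWfin, hWstab, hWtriv⟩ := fino_orbit_span ρ v hopen E0 hE0fd
  set W0 : Submodule K V := Submodule.span K (Set.range fun σ => ρ σ v) with hW0
  have hvW : v ∈ W0 := Submodule.subset_span ⟨1, by simp⟩
  haveI : Nontrivial W0 := ⟨⟨⟨v, hvW⟩, 0, fun h => hv (congrArg Subtype.val h)⟩⟩
  haveI : FiniteDimensional K W0 := hWfin
  set ρ0 : (AlgebraicClosure ℚ ≃ₐ[ℚ] AlgebraicClosure ℚ) →* Module.End K W0 :=
    fin_restrict ρ W0 hWstab with hρ0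
  -- trivial action of Gal(Qbar/E1)
  have hρ0triv : ∀ σ : AlgebraicClosure ℚ ≃ₐ[ℚ] AlgebraicClosure ℚ, (∀ a ∈ E1, σ a = a) →
      ρ0 σ = 1 := by
    intro σ hσ
    ext w
    exact hWtriv σ hσ w w.2
  have hεtriv : ∀ σ : AlgebraicClosure ℚ ≃ₐ[ℚ] AlgebraicClosure ℚ, (∀ a ∈ E1, σ a = a) →
      ε σ = 1 := fun σ hσ => hE0 σ fun a ha => hσ a (hE01 ha)
  -- an element fixing the orbit pointwise acts trivially on `W0`
  have hρ0orb : ∀ σ : AlgebraicClosure ℚ ≃ₐ[ℚ] AlgebraicClosure ℚ,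
      (∀ τ, ρ σ (ρ τ v) = ρ τ v) → ρ0 σ = 1 := by
    intro σ hσ
    have key : ∀ w ∈ W0, ρ σ w = w := by
      intro w hw
      induction hw using Submodule.span_induction with
      | mem x hx =>
        obtain ⟨τ, rfl⟩ := hx
        exact hσ τ
      | zero => simp
      | add x y _ _ hx hy => rw [map_add, hx, hy]
      | smul c x _ hx => rw [map_smul, hx]
    ext w
    exact key w w.2
  -- the Frobenius relation on W0
  have hfrobW : ∀ ℓ : ℕ, ℓ.Prime → ¬ ℓ ∣ M → ℓ ≠ p →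
      ∀ A : ValuationSubring (AlgebraicClosure ℚ), A.LiesOverPrime ℓ →
        ∀ τ : AlgebraicClosure ℚ ≃ₐ[ℚ] AlgebraicClosure ℚ, A.IsFrobeniusAt τ ℓ →
          ∃ a : integralClosure ℤ ℂ, (a : ℂ) = ModularFormClass.qCoeff g ℓ ∧
            ρ0 τ * ρ0 τ - ψ a • ρ0 τ + ε τ • (1 : Module.End K W0) = 0 := by
    intro ℓ hℓ hℓM hℓp A hA τ hτ
    obtain ⟨a, ha1, ha2⟩ := hfrob ℓ hℓ hℓM hℓp A hA τ hτ
    refine ⟨a, ha1, ?_⟩
    have hετ : ε τ = (ℓ : K) := fin_omega_frob K hℓ hℓp hA hτ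
    rw [hετ]
    -- check on the span
    have key : ∀ w ∈ W0, ρ τ (ρ τ w) - ψ a • ρ τ w + (ℓ : K) • w = 0 := by
      intro w hw
      induction hw using Submodule.span_induction with
      | mem x hx =>
        obtain ⟨σ, rfl⟩ := hx
        exact ha2 σ
      | zero => simp
      | add x y _ _ hx hy =>
        have : ρ τ (ρ τ (x + y)) - ψ a • ρ τ (x + y) + (ℓ : K) • (x + y) =
            (ρ τ (ρ τ x) - ψ a • ρ τ x + (ℓ : K) • x) +
              (ρ τ (ρ τ y) - ψ a • ρ τ y + (ℓ : K) • y) := by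
          simp only [map_add, smul_add]
          abel
        rw [this, hx, hy, add_zero]
      | smul c x _ hx =>
        have : ρ τ (ρ τ (c • x)) - ψ a • ρ τ (c • x) + (ℓ : K) • (c • x) =
            c • (ρ τ (ρ τ x) - ψ a • ρ τ x + (ℓ : K) • x) := by
          simp only [map_smul, smul_add, smul_sub, smul_comm c]
        rw [this, hx, smul_zero]
    ext w
    have := key w w.2
    simpa [hρ0] using this
  -- every element satisfies a quadratic relation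
  have hall : ∀ σ : AlgebraicClosure ℚ ≃ₐ[ℚ] AlgebraicClosure ℚ, ∃ t : K,
      ρ0 σ * ρ0 σ - t • ρ0 σ + ε σ • (1 : Module.End K W0) = 0 := by
    intro σ
    obtain ⟨ℓ, A, φ, j, hℓ, hℓMp, hA, hφ, hmem⟩ :=
      hdens E1 hE1fd hE1norm σ (M * p) (Nat.mul_pos hM (Fact.out : p.Prime).pos)
    have hℓM : ¬ ℓ ∣ M := fun h => hℓMp (Dvd.dvd.mul_right h _)
    have hℓp : ℓ ≠ p := fun h => hℓMp (h ▸ Dvd.intro_left M rfl)
    obtain ⟨a, -, ha⟩ := hfrobW ℓ hℓ hℓM hℓp A hA φ hφ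
    have hfix : ∀ x ∈ E1, (σ⁻¹ * φ ^ j) x = x := by
      intro x hx
      exact (IntermediateField.mem_fixingSubgroup_iff E1 _).mp hmem x hx
    have h1 : ρ0 (σ⁻¹ * φ ^ j) = 1 := hρ0triv _ hfix
    have h2 : ε (σ⁻¹ * φ ^ j) = 1 := hεtriv _ hfix
    have e1 : ρ0 σ = ρ0 φ ^ j := by
      have : ρ0 (φ ^ j) = ρ0 σ * ρ0 (σ⁻¹ * φ ^ j) := by
        rw [← map_mul, mul_inv_cancel_left]
      rw [← map_pow, this, h1, mul_one]
    have e2 : ε σ = ε φ ^ j := by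
      have : ε (φ ^ j) = ε σ * ε (σ⁻¹ * φ ^ j) := by
        rw [← map_mul, mul_inv_cancel_left]
      rw [← map_pow, this, h2, mul_one]
    refine ⟨qpw_dickson (ψ a) (ε φ) j, ?_⟩
    rw [e1, e2]
    exact qpw_pow_rel (ρ0 φ) (ψ a) (ε φ) ha j
  choose a ha using hall
  -- the algebra lemma
  obtain ⟨W, iW1, iW2, iW3, ρ', hW2, hchar, hker⟩ := alm_exists_two_dim ρ0 ε a ha
  refine ⟨W, iW1, iW2, ρ', hW2, ⟨E1, hE1fd, fun σ hσ => hker σ (hρ0triv σ hσ) (hεtriv σ hσ)⟩,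
    fun σ hσ hεσ => hker σ (hρ0orb σ hσ) hεσ, ?_⟩
  -- trace and determinant at Frobenius lifts
  intro ℓ hℓ hℓM hℓp A hA τ hτ
  obtain ⟨b, hb1, hb2⟩ := hfrobW ℓ hℓ hℓM hℓp A hA τ hτ
  have hinv : ρ0 τ * ρ0 τ⁻¹ = 1 := by rw [← map_mul, mul_inv_cancel, map_one]
  have hab : a τ = ψ b := qpw_scalar_unique (ρ0 τ) (ρ0 τ⁻¹) hinv _ _ (ε τ) (ha τ) hb2
  have hετ : ε τ = (ℓ : K) := fin_omega_frob K hℓ hℓp hA hτ
  obtain ⟨ht, hd⟩ := alm_trace_det_of_charpoly hW2 (ρ' τ) (a τ) (ε τ) (hchar τ)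
  exact ⟨b, hb1, by rw [ht, hab], by rw [hd, hετ]⟩

/-- **B11 TOP** (the frozen S42 shape). -/
theorem fin_attach (P : FreyPackage) (M : ℕ) (hM : 0 < M)
    (g : CuspForm (CongruenceSubgroup.Gamma0 M) 2)
    (𝔪 : Ideal (integralClosure ℤ ℂ))
    {K : Type} [Field K] [IsAlgClosed K] [Algebra (ZMod P.p) K]
    (ψ : integralClosure ℤ ℂ →+* K) (hψ : 𝔪 ≤ RingHom.ker ψ)
    {V : Type} [AddCommGroup V] [Module K V]
    (ρ : (AlgebraicClosure ℚ ≃ₐ[ℚ] AlgebraicClosure ℚ) →* Module.End K V)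
    (v : V) (hv : v ≠ 0)
    (hopen : ∃ E : IntermediateField ℚ (AlgebraicClosure ℚ), FiniteDimensional ℚ E ∧
      ∀ σ : AlgebraicClosure ℚ ≃ₐ[ℚ] AlgebraicClosure ℚ, (∀ a ∈ E, σ a = a) → ρ σ v = v)
    (hfrob : ∀ ℓ : ℕ, ℓ.Prime → ¬ ℓ ∣ M → ℓ ≠ P.p →
      ∀ A : ValuationSubring (AlgebraicClosure ℚ), A.LiesOverPrime ℓ →
        ∀ τ : AlgebraicClosure ℚ ≃ₐ[ℚ] AlgebraicClosure ℚ, A.IsFrobeniusAt τ ℓ →
          ∃ a : integralClosure ℤ ℂ, (a : ℂ) = ModularFormClass.qCoeff g ℓ ∧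
            ∀ σ, ρ τ (ρ τ (ρ σ v)) - ψ a • ρ τ (ρ σ v) + (ℓ : K) • ρ σ v = 0)
    (hdens : fin_Density) :
    ∃ (K : Type) (_ : Field K) (_ : Algebra (ZMod P.p) K)
      (V : Type) (_ : AddCommGroup V) (_ : Module K V)
      (ρ : Representation K (AlgebraicClosure ℚ ≃ₐ[ℚ] AlgebraicClosure ℚ) V)
      (ψ : integralClosure ℤ ℂ →+* K)
      (F : Type) (_ : Field F) (_ : NumberField F) (_ : IsGalois ℚ F)
      (_ : Algebra F (AlgebraicClosure ℚ)) (_ : IsScalarTower ℚ F (AlgebraicClosure ℚ)),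
      𝔪 ≤ RingHom.ker ψ ∧
      Module.finrank K V = 2 ∧
      (AlgEquiv.restrictNormalHom (F := ℚ) (K₁ := AlgebraicClosure ℚ) F).ker ≤
        (WeierstrassCurve.Affine.Point.galoisRepModuleEnd (S := ℚ) (K := AlgebraicClosure ℚ)
          P.freyCurve P.p).ker ⊓ ρ.ker ∧
      (∀ ℓ : ℕ, ℓ.Prime → ¬ ℓ ∣ M → ℓ ≠ P.p →
        ∀ A : ValuationSubring (AlgebraicClosure ℚ), A.LiesOverPrime ℓ →
          ∀ τ : AlgebraicClosure ℚ ≃ₐ[ℚ] AlgebraicClosure ℚ, A.IsFrobeniusAt τ ℓ →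
            ∃ a : integralClosure ℤ ℂ, (a : ℂ) = ModularFormClass.qCoeff g ℓ ∧
              LinearMap.trace K V (ρ τ) = ψ a) ∧
      (∀ ℓ : ℕ, ℓ.Prime → ¬ ℓ ∣ M → ℓ ≠ P.p →
        ∀ A : ValuationSubring (AlgebraicClosure ℚ), A.LiesOverPrime ℓ →
          ∀ τ : AlgebraicClosure ℚ ≃ₐ[ℚ] AlgebraicClosure ℚ, A.IsFrobeniusAt τ ℓ →
            LinearMap.det (ρ τ) = (ℓ : K)) := by
  haveI : Fact P.p.Prime := ⟨P.pp⟩
  obtain ⟨W, _, _, ρ', hW2, ⟨L, hLfd, hL⟩, -, hboth⟩ :=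
    fin_core (p := P.p) M hM g ψ ρ v hv hopen hfrob hdens
  refine fin_package P M g 𝔪 ρ' ψ hψ hW2 L hLfd hL ?_ ?_
  · intro ℓ hℓ hℓM hℓp A hA τ hτ
    obtain ⟨a, ha1, ha2, -⟩ := hboth ℓ hℓ hℓM hℓp A hA τ hτ
    exact ⟨a, ha1, ha2⟩
  · intro ℓ hℓ hℓM hℓp A hA τ hτ
    obtain ⟨a, -, -, ha3⟩ := hboth ℓ hℓ hℓM hℓp A hA τ hτ
    exact ha3

end

end Fermat.Agent.S42x
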