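/-
S42x/FinAttachB9 (helper61; S42 project, block B11): `fin_Density` holds (block B9 on main:
`Fermat.Agent.S41x.fdndi_exists_frobenius`), hence the density-free forms of `fin_core` / `fin_attach`.
-/
import Fermat.Agent.S42x.FinAttach
import Fermat.Agent.S41x.FDnDictFinal

set_option autoImplicit false

open FreyPackage

namespace Fermat.Agent.S42x

/-- block B9: cyclic Frobenius density. -/
theorem fin_density_holds : fin_Density :=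
  fun L hfd hnorm g M hM => Fermat.Agent.S41x.fdndi_exists_frobenius L hfd hnorm g M hM

/-- `fin_core` with the density input discharged. -/
theorem fin_core_closed {p : ℕ} [Fact p.Prime] (M : ℕ) (hM : 0 < M)
    (g : CuspForm (CongruenceSubgroup.Gamma0 M) 2)
    {K : Type} [Field K] [IsAlgClosed K] [Algebra (ZMod p) K]
    (ψ : integralClosure ℤ ℂ →+* K)
    {V : Type} [AddCommGroup V] [Module K V]
    (ρ : (AlgebraicClosure ℚ ≃ₐ[ℚ] AlgebraicClosure ℚ) →* Module.End K V)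
    (v : V) (hv : v ≠ 0)
    (hopen : ∃ E : IntermediateField ℚ (AlgebraicClosure ℚ), FiniteDimensional ℚ E ∧
      ∀ σ : AlgebraicClosure ℚ ≃ₐ[ℚ] AlgebraicClosure ℚ, (∀ a ∈ E, σ a = a) → ρ σ v = v)
    (hfrob : ∀ ℓ : ℕ, ℓ.Prime → ¬ ℓ ∣ M → ℓ ≠ p →
      ∀ A : ValuationSubring (AlgebraicClosure ℚ), A.LiesOverPrime ℓ →
        ∀ τ : AlgebraicClosure ℚ ≃ₐ[ℚ] AlgebraicClosure ℚ, A.IsFrobeniusAt τ ℓ →
          ∃ a : integralClosure ℤ ℂ, (a : ℂ) = ModularFormClass.qCoeff g ℓ ∧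
            ∀ σ, ρ τ (ρ τ (ρ σ v)) - ψ a • ρ τ (ρ σ v) + (ℓ : K) • ρ σ v = 0) :
    ∃ (W : Type) (_ : AddCommGroup W) (_ : Module K W)
      (ρ' : (AlgebraicClosure ℚ ≃ₐ[ℚ] AlgebraicClosure ℚ) →* Module.End K W),
      Module.finrank K W = 2 ∧
      (∃ L : IntermediateField ℚ (AlgebraicClosure ℚ), FiniteDimensional ℚ L ∧
        ∀ σ : AlgebraicClosure ℚ ≃ₐ[ℚ] AlgebraicClosure ℚ, (∀ x ∈ L, σ x = x) → ρ' σ = 1) ∧
      (∀ σ : AlgebraicClosure ℚ ≃ₐ[ℚ] AlgebraicClosure ℚ, (∀ τ, ρ σ (ρ τ v) = ρ τ v) →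
        fin_omega p K σ = 1 → ρ' σ = 1) ∧
      (∀ ℓ : ℕ, ℓ.Prime → ¬ ℓ ∣ M → ℓ ≠ p →
        ∀ A : ValuationSubring (AlgebraicClosure ℚ), A.LiesOverPrime ℓ →
          ∀ τ : AlgebraicClosure ℚ ≃ₐ[ℚ] AlgebraicClosure ℚ, A.IsFrobeniusAt τ ℓ →
            ∃ a : integralClosure ℤ ℂ, (a : ℂ) = ModularFormClass.qCoeff g ℓ ∧
              LinearMap.trace K W (ρ' τ) = ψ a ∧ LinearMap.det (ρ' τ) = (ℓ : K)) :=
  fin_core M hM g ψ ρ v hv hopen hfrob fin_density_holds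

/-- `fin_attach` with the density input discharged, conclusion in the `fin_Body` form of `FinPackage`. -/
theorem fin_attach_closed (P : FreyPackage) (M : ℕ) (hM : 0 < M)
    (g : CuspForm (CongruenceSubgroup.Gamma0 M) 2)
    (𝔪 : Ideal (integralClosure ℤ ℂ))
    {K : Type} [Field K] [IsAlgClosed K] [Algebra (ZMod P.p) K]
    (ψ : integralClosure ℤ ℂ →+* K) (hψ : 𝔪 ≤ RingHom.ker ψ)
    {V : Type} [AddCommGroup V] [Module K V]
    (ρ : (AlgebraicClosure ℚ ≃ₐ[ℚ] AlgebraicClosure ℚ) →* Module.End K V)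
    (v : V) (hv : v ≠ 0)
    (hopen : ∃ E : IntermediateField ℚ (AlgebraicClosure ℚ), FiniteDimensional ℚ E ∧
      ∀ σ : AlgebraicClosure ℚ ≃ₐ[ℚ] AlgebraicClosure ℚ, (∀ a ∈ E, σ a = a) → ρ σ v = v)
    (hfrob : ∀ ℓ : ℕ, ℓ.Prime → ¬ ℓ ∣ M → ℓ ≠ P.p →
      ∀ A : ValuationSubring (AlgebraicClosure ℚ), A.LiesOverPrime ℓ →
        ∀ τ : AlgebraicClosure ℚ ≃ₐ[ℚ] AlgebraicClosure ℚ, A.IsFrobeniusAt τ ℓ →
          ∃ a : integralClosure ℤ ℂ, (a : ℂ) = ModularFormClass.qCoeff g ℓ ∧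
            ∀ σ, ρ τ (ρ τ (ρ σ v)) - ψ a • ρ τ (ρ σ v) + (ℓ : K) • ρ σ v = 0) :
    fin_Body P M g 𝔪 :=
  fin_attach P M hM g 𝔪 ψ hψ ρ v hv hopen hfrob fin_density_holds

end Fermat.Agent.S42x
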