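import Mathlib
import Fermat.Prelude.Def_GaloisRep_Residual

/-!
# S29 from the common core of S42/S29 (helper25, prefix `s29p_`)

`s29p_Core` : the common core ("mod-`p` Galois representation attached to a weight-2 eigenform of
level `M > 0`"), stated for an ARBITRARY prime `p` and an arbitrary residue field `K = ψ(ℤ̄)`
of `ℤ̄ = integralClosure ℤ ℂ` of characteristic `p`.

`s29p_result_of_core` : the frozen S29 statement from `s29p_Core`:
* level `N = 0` is vacuous (every prime divides `0`);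
* `𝔪 := ker φ` is a maximal ideal over `p`, `K := ℤ̄ ⧸ 𝔪`, `ψ := mk`, and `φ` factors through
  `χ : K →+* k`; the representation is base-changed along `χ`;
* `charpoly = X² - tr X + det` in rank `2`.
-/

set_option autoImplicit false

noncomputable section

namespace Fermat.Agent.S42x

open Polynomial

/-- the common core of S42 and S29. -/
def s29p_Core : Prop :=
  ∀ (M : ℕ) [NeZero M] (p : ℕ), p.Prime →
    ∀ (g : CuspForm (CongruenceSubgroup.Gamma0 M) 2), g.IsNormalizedEigenform →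
    ∀ (K : Type) [Field K] (ψ : integralClosure ℤ ℂ →+* K), Function.Surjective ψ →
      (p : K) = 0 →
    ∃ (V : Type) (_ : AddCommGroup V) (_ : Module K V)
      (ρ : (AlgebraicClosure ℚ ≃ₐ[ℚ] AlgebraicClosure ℚ) →* Module.End K V),
      Module.finrank K V = 2 ∧ GaloisFactorsThroughFiniteLevel ρ ∧
      (∀ ℓ : ℕ, ℓ.Prime → ¬ ℓ ∣ M * p →
        ∀ A : ValuationSubring (AlgebraicClosure ℚ), A.LiesOverPrime ℓ →
          ∀ σ ∈ A.inertiaSubgroupIn ℚ, ρ σ = 1) ∧
      (∀ ℓ : ℕ, ℓ.Prime → ¬ ℓ ∣ M → ℓ ≠ p →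
        ∀ A : ValuationSubring (AlgebraicClosure ℚ), A.LiesOverPrime ℓ →
          ∀ σ : AlgebraicClosure ℚ ≃ₐ[ℚ] AlgebraicClosure ℚ, A.IsFrobeniusAt σ ℓ →
            ∃ a : integralClosure ℤ ℂ, (a : ℂ) = ModularFormClass.qCoeff g ℓ ∧
              LinearMap.trace K V (ρ σ) = ψ a ∧ LinearMap.det (ρ σ) = (ℓ : K))

/-- characteristic polynomial in rank two. -/
theorem s29p_charpoly_of_finrank_two {K V : Type*} [Field K] [AddCommGroup V] [Module K V]
    (h2 : Module.finrank K V = 2) (f : Module.End K V) :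
    haveI : Module.Finite K V := Module.finite_of_finrank_eq_succ h2
    LinearMap.charpoly f = X ^ 2 - C (LinearMap.trace K V f) * X + C (LinearMap.det f) := by
  haveI : Module.Finite K V := Module.finite_of_finrank_eq_succ h2
  let b : Module.Basis (Fin 2) K V := Module.finBasisOfFinrankEq K V h2
  rw [← LinearMap.charpoly_toMatrix f b, Matrix.charpoly_fin_two,
    ← LinearMap.trace_eq_matrix_trace K b f, LinearMap.det_toMatrix b f]

/-- a residue field of `ℤ̄` is algebraically closed. -/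
theorem s29p_isAlgClosed {K : Type*} [Field K] (ψ : integralClosure ℤ ℂ →+* K)
    (hψ : Function.Surjective ψ) : IsAlgClosed K := by
  refine IsAlgClosed.of_exists_root K fun q hq _ => ?_
  -- lift `q` to a monic polynomial over `ℤ̄`
  obtain ⟨Q, hQ, hdeg, hQm⟩ :=
    Polynomial.lifts_and_degree_eq_and_monic
      ((Polynomial.mem_lifts q).mpr (Polynomial.map_surjective ψ hψ q)) hq
  have hQ0 : 0 < Q.degree := by
    rw [hdeg]
    by_contra h
    have h1 : q.degree ≤ 0 := not_lt.mp h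
    have h2 := Polynomial.eq_C_of_degree_le_zero h1
    have h3 : q = 1 := by
      have hl := hq.leadingCoeff
      rw [h2, Polynomial.leadingCoeff_C] at hl
      rw [h2, hl, map_one]
    -- `q` irreducible, hence not a unit
    rename_i hirr
    exact hirr.not_isUnit (h3 ▸ isUnit_one)
  -- a root of `Q` in `ℂ`, integral over `ℤ`
  have hQC : (Q.map (algebraMap (integralClosure ℤ ℂ) ℂ)).degree ≠ 0 := by
    rw [Polynomial.degree_map_eq_of_injective (Subtype.val_injective)]
    exact hQ0.ne'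
  obtain ⟨z, hz⟩ := IsAlgClosed.exists_root (Q.map (algebraMap (integralClosure ℤ ℂ) ℂ)) hQC
  have hzint : IsIntegral (integralClosure ℤ ℂ) z :=
    ⟨Q, hQm, by rwa [Polynomial.IsRoot.def, Polynomial.eval_map] at hz⟩
  have hzint' : IsIntegral ℤ z := isIntegral_trans z hzint
  set x : integralClosure ℤ ℂ := ⟨z, (mem_integralClosure_iff ℤ ℂ).mpr hzint'⟩ with hx
  refine ⟨ψ x, ?_⟩
  rw [← hQ, Polynomial.eval_map, Polynomial.eval₂_hom]
  have h : Polynomial.eval₂ (algebraMap (integralClosure ℤ ℂ) ℂ) z Q = 0 := by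
    rwa [Polynomial.IsRoot.def, Polynomial.eval_map] at hz
  have hx0 : Polynomial.eval x Q = 0 := by
    apply Subtype.val_injective
    have h1 := Polynomial.eval₂_at_apply (p := Q) (algebraMap (integralClosure ℤ ℂ) ℂ) x
    exact h1.symm.trans h
  rw [hx0, map_zero]


/-- the trivial two-dimensional representation. -/
def s29p_trivialRep (k : Type) [Field k] : ResidualGaloisRep k where
  V := Fin 2 → k
  finrank_eq := by simp
  ρ := 1
  factorsThroughFiniteLevel := ⟨⊥, inferInstance, fun _ _ => rfl⟩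

/-- `ker φ` is a maximal ideal over `p`. -/
theorem s29p_ker_isMaximal {p : ℕ} (hp : p.Prime) {k : Type*} [Field k] [CharP k p]
    (φ : integralClosure ℤ ℂ →+* k) : (RingHom.ker φ).IsMaximal := by
  haveI hprime : (RingHom.ker φ).IsPrime := RingHom.ker_isPrime φ
  haveI : Algebra.IsIntegral ℤ (integralClosure ℤ ℂ) := integralClosure.AlgebraIsIntegral
  apply Ideal.isMaximal_of_isIntegral_of_isMaximal_comap (R := ℤ)
  have hcp : ((RingHom.ker φ).comap (algebraMap ℤ (integralClosure ℤ ℂ))).IsPrime :=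
    Ideal.comap_isPrime _ _
  refine hcp.isMaximal ?_
  intro hbot
  have hmem : (p : ℤ) ∈ (RingHom.ker φ).comap (algebraMap ℤ (integralClosure ℤ ℂ)) := by
    rw [Ideal.mem_comap, RingHom.mem_ker, map_natCast, map_natCast]
    exact CharP.cast_eq_zero k p
  rw [hbot, Ideal.mem_bot] at hmem
  exact hp.ne_zero (by exact_mod_cast hmem)

/-- **S29 from the common core.** -/
theorem s29p_result_of_core (hcore : s29p_Core)
    {N : ℕ} {g : CuspForm (CongruenceSubgroup.Gamma0 N) 2} (hg : g.IsNormalizedEigenform)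
    {p : ℕ} (hp : p.Prime) {k : Type} [Field k] [CharP k p]
    (φ : integralClosure ℤ ℂ →+* k) :
    ∃ ρ : ResidualGaloisRep k, ρ.IsAttachedTo g φ ∧
      ∀ ℓ : ℕ, ℓ.Prime → ¬ ℓ ∣ N * p → ρ.IsUnramifiedAt ℓ := by
  rcases Nat.eq_zero_or_pos N with hN | hN
  · subst hN
    refine ⟨s29p_trivialRep k, ?_, ?_⟩
    · intro ℓ _ hℓN
      exact absurd (dvd_zero ℓ) hℓN
    · intro ℓ _ hℓ
      exact absurd (by rw [zero_mul]; exact dvd_zero ℓ) hℓ
  · haveI : NeZero N := ⟨hN.ne'⟩
    haveI hmax : (RingHom.ker φ).IsMaximal := s29p_ker_isMaximal hp φ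
    letI : Field (integralClosure ℤ ℂ ⧸ RingHom.ker φ) := Ideal.Quotient.field _
    have hpK : ((p : ℕ) : integralClosure ℤ ℂ ⧸ RingHom.ker φ) = 0 := by
      rw [← map_natCast (Ideal.Quotient.mk (RingHom.ker φ)) p, Ideal.Quotient.eq_zero_iff_mem,
        RingHom.mem_ker, map_natCast]
      exact CharP.cast_eq_zero k p
    obtain ⟨V, iV1, iV2, ρ₀, h2, hfin, hin, hfr⟩ :=
      hcore N p hp g hg (integralClosure ℤ ℂ ⧸ RingHom.ker φ)
        (Ideal.Quotient.mk (RingHom.ker φ)) Ideal.Quotient.mk_surjective hpK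
    let χ : (integralClosure ℤ ℂ ⧸ RingHom.ker φ) →+* k :=
      Ideal.Quotient.lift (RingHom.ker φ) φ (fun a ha => (RingHom.mem_ker).mp ha)
    have hχ : ∀ a, χ (Ideal.Quotient.mk (RingHom.ker φ) a) = φ a := fun a =>
      Ideal.Quotient.lift_mk _ _ _
    let R₀ : ResidualGaloisRep (integralClosure ℤ ℂ ⧸ RingHom.ker φ) :=
      { V := V, finrank_eq := h2, ρ := ρ₀, factorsThroughFiniteLevel := hfin }
    letI : Algebra (integralClosure ℤ ℂ ⧸ RingHom.ker φ) k := χ.toAlgebra
    refine ⟨R₀.baseChangeAlong χ, ?_, ?_⟩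
    · intro ℓ hℓ hℓN hℓk A hA σ hσ
      have hℓp : ℓ ≠ p := by
        rintro rfl
        exact hℓk (CharP.cast_eq_zero k ℓ)
      obtain ⟨a, ha, htr, hdet⟩ := hfr ℓ hℓ hℓN hℓp A hA σ hσ
      refine ⟨a, ha, ?_⟩
      have h1 : (R₀.baseChangeAlong χ).ρ σ = (ρ₀ σ).baseChange k := rfl
      haveI : Module.Finite (integralClosure ℤ ℂ ⧸ RingHom.ker φ) V :=
        Module.finite_of_finrank_eq_succ h2
      have hcb : LinearMap.charpoly ((ρ₀ σ).baseChange k) =
          (LinearMap.charpoly (ρ₀ σ)).map (algebraMap (integralClosure ℤ ℂ ⧸ RingHom.ker φ) k) :=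
        LinearMap.charpoly_baseChange (ρ₀ σ) k
      rw [h1]
      refine hcb.trans ?_
      rw [s29p_charpoly_of_finrank_two h2, htr, hdet]
      simp only [Polynomial.map_add, Polynomial.map_sub, Polynomial.map_mul, Polynomial.map_pow,
        Polynomial.map_X, Polynomial.map_C, Polynomial.map_natCast, RingHom.algebraMap_toAlgebra,
        hχ, map_natCast]
    · intro ℓ hℓ hℓNp A hA σ hσ
      have h1 : (R₀.baseChangeAlong χ).ρ σ = (ρ₀ σ).baseChange k := rfl
      rw [h1, hin ℓ hℓ hℓNp A hA σ hσ]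
      exact LinearMap.baseChange_one _ _

end Fermat.Agent.S42x

end
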