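/-
S42x/S29Core (helper25; S29 second target, block B13; prefix `s29c_`).

`s29p_Core` (the common core of S42/S29 stated in `S29Pack`) from the SAME inputs as helper61's
`fin_attach_closed` (block B11) plus triviality of inertia on the Galois module:

* `s29c_fin_omega_inertia` : the mod-`p` cyclotomic character `fin_omega p K` is trivial on inertia at `ℓ ≠ p`;
* `s29c_clauses` : `fin_core_closed` + inertia ⇒ the four clauses of `s29p_Core` for one `(M, p, g, K, ψ)`;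
* `s29c_Input` : what block B12 has to produce (eigenvector `v` in a `K`-linear `G_ℚ`-module with open stabiliser,
  Frobenius quadratic on its orbit, trivial inertia on its orbit), for every algebraically closed `K` over `ZMod p`;
* `s29c_core_of_input : s29c_Input → s29p_Core`, hence (with `s29p_result_of_core`) the frozen S29.
-/
import Mathlib
import Fermat.Agent.S42x.S29Pack
import Fermat.Agent.S42x.FinAttachB9
import Fermat.Agent.S42x.CycInertia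

set_option autoImplicit false
set_option linter.style.haveILetI false

namespace Fermat.Agent.S42x

open ValuationSubring

/-- the mod-`p` cyclotomic character is trivial on inertia at `ℓ ≠ p`. -/
theorem s29c_fin_omega_inertia {p : ℕ} [Fact p.Prime] (K : Type*) [Field K] [Algebra (ZMod p) K]
    {ℓ : ℕ} (hℓ : ℓ.Prime) (hℓp : ℓ ≠ p)
    {A : ValuationSubring (AlgebraicClosure ℚ)} (hA : A.LiesOverPrime ℓ)
    {σ : AlgebraicClosure ℚ ≃ₐ[ℚ] AlgebraicClosure ℚ} (hσ : σ ∈ A.inertiaSubgroupIn ℚ) :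
    fin_omega p K σ = 1 := by
  have hp : p.Prime := Fact.out
  have hℓp' : ¬ ℓ ∣ p := by
    intro h
    rcases (Nat.dvd_prime hp).1 h with h1 | h1
    · exact hℓ.one_lt.ne' h1
    · exact hℓp h1
  have h := cyin_modularCyclotomicCharacter_inertia hℓp' hℓ (fin_card_roots p) A hA σ hσ
  rw [fin_omega_apply, fin_omega0_apply, h, Units.val_one, map_one]

/-- `fin_core_closed` + inertia: the four clauses of `s29p_Core` for one `(M, p, g, K, ψ)`. -/
theorem s29c_clauses {p : ℕ} [Fact p.Prime] (M : ℕ) (hM : 0 < M)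
    (g : CuspForm (CongruenceSubgroup.Gamma0 M) 2)
    {K : Type} [Field K] [IsAlgClosed K] [Algebra (ZMod p) K]
    (ψ : integralClosure ℤ ℂ →+* K)
    {V : Type} [AddCommGroup V] [Module K V]
    (ρ : (AlgebraicClosure ℚ ≃ₐ[ℚ] AlgebraicClosure ℚ) →* Module.End K V)
    (v : V) (hv : v ≠ 0)
    (hopen : ∃ E : IntermediateField ℚ (AlgebraicClosure ℚ), FiniteDimensional ℚ E ∧
      ∀ σ : AlgebraicClosure ℚ ≃ₐ[ℚ] AlgebraicClosure ℚ, (∀ a ∈ E, σ a = a) → ρ σ v = v)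
    (hfrob : ∀ ℓ : ℕ, ℓ.Prime → ¬ ℓ ∣ M → ℓ ≠ p →
      ∀ A : ValuationSubring (AlgebraicClosure ℚ), A.LiesOverPrime ℓ →
        ∀ τ : AlgebraicClosure ℚ ≃ₐ[ℚ] AlgebraicClosure ℚ, A.IsFrobeniusAt τ ℓ →
          ∃ a : integralClosure ℤ ℂ, (a : ℂ) = ModularFormClass.qCoeff g ℓ ∧
            ∀ σ, ρ τ (ρ τ (ρ σ v)) - ψ a • ρ τ (ρ σ v) + (ℓ : K) • ρ σ v = 0)
    (hinert : ∀ ℓ : ℕ, ℓ.Prime → ¬ ℓ ∣ M * p →
      ∀ A : ValuationSubring (AlgebraicClosure ℚ), A.LiesOverPrime ℓ →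
        ∀ σ ∈ A.inertiaSubgroupIn ℚ, ∀ τ, ρ σ (ρ τ v) = ρ τ v) :
    ∃ (W : Type) (_ : AddCommGroup W) (_ : Module K W)
      (ρ' : (AlgebraicClosure ℚ ≃ₐ[ℚ] AlgebraicClosure ℚ) →* Module.End K W),
      Module.finrank K W = 2 ∧ GaloisFactorsThroughFiniteLevel ρ' ∧
      (∀ ℓ : ℕ, ℓ.Prime → ¬ ℓ ∣ M * p →
        ∀ A : ValuationSubring (AlgebraicClosure ℚ), A.LiesOverPrime ℓ →
          ∀ σ ∈ A.inertiaSubgroupIn ℚ, ρ' σ = 1) ∧
      (∀ ℓ : ℕ, ℓ.Prime → ¬ ℓ ∣ M → ℓ ≠ p →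
        ∀ A : ValuationSubring (AlgebraicClosure ℚ), A.LiesOverPrime ℓ →
          ∀ σ : AlgebraicClosure ℚ ≃ₐ[ℚ] AlgebraicClosure ℚ, A.IsFrobeniusAt σ ℓ →
            ∃ a : integralClosure ℤ ℂ, (a : ℂ) = ModularFormClass.qCoeff g ℓ ∧
              LinearMap.trace K W (ρ' σ) = ψ a ∧ LinearMap.det (ρ' σ) = (ℓ : K)) := by
  obtain ⟨W, iW1, iW2, ρ', hW2, hlevel, hker, htd⟩ :=
    fin_core_closed (p := p) M hM g ψ ρ v hv hopen hfrob
  refine ⟨W, iW1, iW2, ρ', hW2, hlevel, ?_, htd⟩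
  intro ℓ hℓ hℓMp A hA σ hσ
  have hℓp : ℓ ≠ p := fun h => hℓMp (h ▸ Dvd.intro_left M rfl)
  exact hker σ (hinert ℓ hℓ hℓMp A hA σ hσ) (s29c_fin_omega_inertia K hℓ hℓp hA hσ)

/-- What block B12 has to produce, for S29 (and S42): for every level `M > 0`, prime `p`, normalised eigenform `g`,
algebraically closed field `K` over `ZMod p` and ring homomorphism `ψ : ℤ̄ → K`, a `K`-linear `G_ℚ`-module with a nonzero
vector `v` with open stabiliser, the Eichler–Shimura quadratic relation for Frobenius lifts on the orbit of `v`, and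
trivial action of inertia at `ℓ ∤ M p` on the orbit of `v`. -/
def s29c_Input : Prop :=
  ∀ (M : ℕ) [NeZero M] (p : ℕ) [Fact p.Prime]
    (g : CuspForm (CongruenceSubgroup.Gamma0 M) 2), g.IsNormalizedEigenform →
    ∀ (K : Type) [Field K] [IsAlgClosed K] [Algebra (ZMod p) K] (ψ : integralClosure ℤ ℂ →+* K),
    ∃ (V : Type) (_ : AddCommGroup V) (_ : Module K V)
      (ρ : (AlgebraicClosure ℚ ≃ₐ[ℚ] AlgebraicClosure ℚ) →* Module.End K V) (v : V),
      v ≠ 0 ∧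
      (∃ E : IntermediateField ℚ (AlgebraicClosure ℚ), FiniteDimensional ℚ E ∧
        ∀ σ : AlgebraicClosure ℚ ≃ₐ[ℚ] AlgebraicClosure ℚ, (∀ a ∈ E, σ a = a) → ρ σ v = v) ∧
      (∀ ℓ : ℕ, ℓ.Prime → ¬ ℓ ∣ M → ℓ ≠ p →
        ∀ A : ValuationSubring (AlgebraicClosure ℚ), A.LiesOverPrime ℓ →
          ∀ τ : AlgebraicClosure ℚ ≃ₐ[ℚ] AlgebraicClosure ℚ, A.IsFrobeniusAt τ ℓ →
            ∃ a : integralClosure ℤ ℂ, (a : ℂ) = ModularFormClass.qCoeff g ℓ ∧
              ∀ σ, ρ τ (ρ τ (ρ σ v)) - ψ a • ρ τ (ρ σ v) + (ℓ : K) • ρ σ v = 0) ∧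
      (∀ ℓ : ℕ, ℓ.Prime → ¬ ℓ ∣ M * p →
        ∀ A : ValuationSubring (AlgebraicClosure ℚ), A.LiesOverPrime ℓ →
          ∀ σ ∈ A.inertiaSubgroupIn ℚ, ∀ τ, ρ σ (ρ τ v) = ρ τ v)

/-- the common core of S42/S29 from the B12 input. -/
theorem s29c_core_of_input (h : s29c_Input) : s29p_Core := by
  intro M _ p hp g hg K _ ψ hψ hpK
  haveI : Fact p.Prime := ⟨hp⟩
  haveI : IsAlgClosed K := s29p_isAlgClosed ψ hψ
  haveI : CharP K p := by
    have h1 : ringChar K ∣ p := ringChar.dvd hpK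
    rcases (Nat.dvd_prime hp).1 h1 with h2 | h2
    · exact absurd h2 (CharP.ringChar_ne_one)
    · exact h2 ▸ ringChar.charP K
  letI : Algebra (ZMod p) K := ZMod.algebra K p
  obtain ⟨V, iV1, iV2, ρ, v, hv, hopen, hfrob, hinert⟩ := h M p g hg K ψ
  exact s29c_clauses M (Nat.pos_of_ne_zero (NeZero.ne M)) g ψ ρ v hv hopen hfrob hinert

end Fermat.Agent.S42x
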