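/-
S42x/CDictFinal21 (helper21): block B3, leaf B3.4 FINAL (assigned by helper55 ARCH-3 (R2)),
prefix `cdfin21_`.  Generic in the realisation bundle `D : cdc_Real F M jF` (S42x/CDictDefs).

If `D.φ f = h ^ p` in `Mer` with `p ≥ 5` prime, then
* `cdfin21_dvd_ord_vPt`  : `p ∣ ord_P f` at every point place `P = cdc_vPt D τ`
  (multiplier `1 ≤ e_τ ≤ 3`: `cdfin21_pt_mult_le_three`);
* `cdfin21_dvd_ord_fin`  : `p ∣ ord_v f` at every place `v` with `0 ≤ ord_v jF` (membership in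
  `Sp_fin`), given the covering of the finite places `hcov` (= conclusion of B3.2 COVFIN);
* `cdfin21_dvd_ord_all`  : `p ∣ ord_v f` at EVERY place, given moreover that `f` is a unit at the
  pole places of `jF` (`hpole` = conclusion of B3.3 CUSPUNIT) (membership in `Sp_full`);
* `cdfin21_dvd_ordAt`    : the N3 converse: divisibility at the finite places gives
  `p ∣ ord_τ (D.φ f)` at every point `τ` of the upper half plane (no `hcov`, no root needed).
-/
import Fermat.Agent.S42x.CDictDefs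
import Fermat.Agent.S24x.JFiber
import Fermat.Agent.S24x.LocalDiff
import Fermat.Agent.S18x.PlsTsFields
import Fermat.Agent.S18x.RmnBasic

set_option autoImplicit false

namespace Fermat.Agent.S42x

open UpperHalfPlane AlgebraicCurve CongruenceSubgroup Fermat.Agent.S24x Fermat.Agent.S18x
open scoped MatrixGroups

noncomputable section

variable {F : Type*} [Field F] [Algebra ℂ F] {M : ℕ} {jF : F} (D : cdc_Real F M jF)

/-- `ord_τ (j - j(τ)) ∈ {1, 2, 3}`. -/
theorem cdfin21_holOrdZ_le_three (τ : ℍ) :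
    0 < holOrdZ (jHol - algebraMap ℂ Hol (jFun τ)) τ ∧
      holOrdZ (jHol - algebraMap ℂ Hol (jFun τ)) τ ≤ 3 := by
  by_cases h0 : jFun τ = 0
  · have h := holOrder_jHol_of_jFun_eq_zero τ h0
    rw [h0, map_zero, sub_zero]
    unfold holOrdZ
    rw [h]
    norm_num
  by_cases h1 : jFun τ = 1728
  · have h := holOrder_jHol_sub_of_jFun_eq_1728 τ h1
    rw [h1]
    unfold holOrdZ
    rw [h]
    norm_num
  · have h := holOrder_jHol_sub_generic τ h0 h1
    unfold holOrdZ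
    rw [h]
    norm_num

/-- the multiplier of a point place is at most `3`. -/
theorem cdfin21_pt_mult_le_three (τ : ℍ) :
    ∃ e : ℕ, 0 < e ∧ e ≤ 3 ∧ ∀ f : F, ordAt τ (D.φ f) = e * (cdc_vPt D τ).ord f := by
  obtain ⟨e, he, heo⟩ := cdc_exists_ordAt_eq_mul D τ
  refine ⟨e, he, ?_, heo⟩
  have h1 := heo (jF - algebraMap ℂ F (jFun τ))
  rw [cdc_ordAt_j_sub] at h1
  obtain ⟨h2, h3⟩ := cdfin21_holOrdZ_le_three τ
  have hpos : 0 < (cdc_vPt D τ).ord (jF - algebraMap ℂ F (jFun τ)) := by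
    have := cdc_vPt_mem_placesOver D τ
    rwa [mem_placesOver] at this
  have he' : (0 : ℤ) < e := by exact_mod_cast he
  have : (e : ℤ) ≤ 3 := by nlinarith
  exact_mod_cast this

theorem cdfin21_ordAt_pow (τ : ℍ) {x : Mer} (hx : x ≠ 0) (n : ℕ) :
    ordAt τ (x ^ n) = n * ordAt τ x := by
  induction n with
  | zero =>
    rw [pow_zero, Nat.cast_zero, zero_mul]
    have := ordAt_const τ (1 : ℂ)
    rwa [map_one] at this
  | succ n ih =>
    rw [pow_succ, ordAt_mul τ (pow_ne_zero n hx) hx, ih]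
    push_cast; ring

/-- **point places**: a `p`-th root in `Mer` forces `p ∣ ord_P f`, `p ≥ 5` prime. -/
theorem cdfin21_dvd_ord_vPt {p : ℕ} (hp : p.Prime) (hp5 : 5 ≤ p) (τ : ℍ) (f : F) (h : Mer)
    (hpow : h ^ p = D.φ f) : (p : ℤ) ∣ (cdc_vPt D τ).ord f := by
  rcases eq_or_ne f 0 with rfl | hf
  · simp
  have hh : h ≠ 0 := by
    rintro rfl
    rw [zero_pow hp.ne_zero] at hpow
    exact cdc_φ_ne_zero D hf hpow.symm
  obtain ⟨e, he, he3, heo⟩ := cdfin21_pt_mult_le_three D τ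
  have h1 := heo f
  rw [← hpow, cdfin21_ordAt_pow τ hh] at h1
  have hcop : IsCoprime (p : ℤ) (e : ℤ) := by
    rw [Int.isCoprime_iff_gcd_eq_one, Int.gcd_natCast_natCast]
    exact (Nat.Prime.coprime_iff_not_dvd hp).mpr fun hdvd =>
      absurd (Nat.le_of_dvd he hdvd) (by omega)
  exact hcop.dvd_of_dvd_mul_left ⟨ordAt τ h, h1.symm⟩

/-- the point places are finite places: `0 ≤ ord_{vPt τ} jF`. -/
theorem cdfin21_vPt_ord_j_nonneg (τ : ℍ) : 0 ≤ (cdc_vPt D τ).ord jF := by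
  apply ord_nonneg_of_mem
  rw [cdc_mem_vPt_iff, D.map_j]
  exact ordAt_algebraMap_nonneg τ jHol

/-- **N3 converse**: divisibility at the finite places gives divisibility of all analytic orders. -/
theorem cdfin21_dvd_ordAt {p : ℕ} (f : F)
    (hfin : ∀ v : Place ℂ F, 0 ≤ v.ord jF → (p : ℤ) ∣ v.ord f) (τ : ℍ) :
    (p : ℤ) ∣ ordAt τ (D.φ f) := by
  obtain ⟨e, -, heo⟩ := cdc_exists_ordAt_eq_mul D τ
  rw [heo f]
  exact Dvd.dvd.mul_left (hfin _ (cdfin21_vPt_ord_j_nonneg D τ)) _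

section Covering

variable (hcoord : IsCoordinate ℂ F jF)
  (hcov : ∀ (c : ℂ) (τ₀ : ℍ), jFun τ₀ = c → ∀ v : Place ℂ F, v ∈ placesOver ℂ F jF c →
    ∃ g : SL(2, ℤ), v = cdc_vPt D (g • τ₀))

include hcoord hcov

/-- **finite places** (membership in `Sp_fin`). -/
theorem cdfin21_dvd_ord_fin {p : ℕ} (hp : p.Prime) (hp5 : 5 ≤ p) (f : F) (h : Mer)
    (hpow : h ^ p = D.φ f) (v : Place ℂ F) (hv : 0 ≤ v.ord jF) : (p : ℤ) ∣ v.ord f := by
  have hval : v.adicValuation jF ≤ 1 := by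
    rw [v.adicValuation_le_one_iff]
    exact Or.inr hv
  obtain ⟨c, hc⟩ := pls_eval (pls_isSepCoordinate_of_charZero hcoord) v jF hval
  have hne : jF - algebraMap ℂ F c ≠ 0 := cdc_j_sub_const_ne_zero D c
  have hover : v ∈ placesOver ℂ F jF c := by
    rw [mem_placesOver]
    rcases (rmn_val_lt_one_iff v).mp hc with h0 | h1
    · exact absurd h0 hne
    · exact lt_of_lt_of_le zero_lt_one h1
  obtain ⟨τ₀, hτ₀⟩ := jFun_surjective c
  obtain ⟨g, rfl⟩ := hcov c τ₀ hτ₀ v hover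
  exact cdfin21_dvd_ord_vPt D hp hp5 (g • τ₀) f h hpow

/-- **all places** (membership in `Sp_full`), given that `f` is a unit at the poles of `jF`. -/
theorem cdfin21_dvd_ord_all {p : ℕ} (hp : p.Prime) (hp5 : 5 ≤ p) (f : F) (h : Mer)
    (hpow : h ^ p = D.φ f) (hpole : ∀ v ∈ polePlaces ℂ F jF, v.ord f = 0) (v : Place ℂ F) :
    (p : ℤ) ∣ v.ord f := by
  by_cases hv : v ∈ polePlaces ℂ F jF
  · rw [hpole v hv]
    exact dvd_zero _
  · rw [mem_polePlaces, not_lt] at hv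
    exact cdfin21_dvd_ord_fin D hcoord hcov hp hp5 f h hpow v hv

end Covering

end

end Fermat.Agent.S42x
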