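/-
S42 project, block B3, leaf CUSP-EXACT (helper38): exact ramification at the cusp places.

S24x only exports `e ≤ width` at the cusp places (`vCuspG_ord_le`) and the resulting counts; the
equality `e = width` is a by-product of the squeeze (`squeeze_polePlaces`), which
`cc_ncard_polePlaces_of_vCusp` throws away.  Here we re-run the squeeze and keep it.
-/
import Fermat.Agent.S24x.CuspCounts

set_option autoImplicit false

namespace Fermat.Agent.S42x

open Fermat.Agent.S24x AlgebraicCurve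

section Abstract

variable {K F : Type*} [Field K] [Field F] [Algebra K F]
variable {G X : Type*} [Group G] [MulAction G X] [Finite X]

/-- **Abstract exactness**: in the situation of `cc_ncard_polePlaces`, the pole order at the
place attached to `x` is exactly the size of the orbit of `x`. -/
theorem cex_abstract (t : F)
    (hfin : (polePlaces K F t).Finite)
    (hsum : ∑ v ∈ hfin.toFinset, -v.ord t = (cdeg K F t : ℤ))
    (vC : X → Place K F)
    (hinv : ∀ (g : G) (x : X), vC (g • x) = vC x)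
    (hcov : ∀ v ∈ polePlaces K F t, ∃ x, vC x = v)
    (hmem : ∀ x, vC x ∈ polePlaces K F t)
    (hbound : ∀ x, -(vC x).ord t ≤ (Nat.card (MulAction.orbit G x) : ℤ))
    (hdeg : Nat.card X ≤ cdeg K F t) (x : X) :
    -(vC x).ord t = (Nat.card (MulAction.orbit G x) : ℤ) := by
  classical
  have : Fintype (MulAction.orbitRel.Quotient G X) := Fintype.ofFinite _
  obtain ⟨-, h2, -, -⟩ := squeeze_polePlaces (ι := MulAction.orbitRel.Quotient G X) t hfin hsum
    (fun ω => vC ω.out) (fun ω => Nat.card (MulAction.orbit G ω.out))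
    (fun v hv => by
      obtain ⟨x, hx⟩ := hcov v hv
      exact ⟨Quotient.mk'' x, by rw [cc_const_on_orbit vC hinv _ x rfl, hx]⟩)
    (fun ω => ⟨hmem _, hbound _⟩)
    (by rw [cc_sum_card_orbits G X]; exact hdeg)
  have h := h2 (Quotient.mk'' x)
  rw [cc_const_on_orbit vC hinv _ x rfl] at h
  rw [h]
  have hmem' : (Quotient.mk'' x : MulAction.orbitRel.Quotient G X).out ∈ MulAction.orbit G x := by
    have h1 : (Quotient.mk'' (Quotient.mk'' x : MulAction.orbitRel.Quotient G X).out :
        MulAction.orbitRel.Quotient G X) = Quotient.mk'' x := Quotient.out_eq' _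
    exact Quotient.exact' h1
  rw [MulAction.orbit_eq_iff.mpr hmem']

end Abstract

section Cusps

open CongruenceSubgroup ModularGroup Matrix.SpecialLinearGroup
open scoped MatrixGroups

variable {K F : Type*} [Field K] [Field F] [Algebra K F]
variable (N : ℕ) [NeZero N]

/-- the width of the cusp `g • ∞` of `Γ₀(N)`: the size of the `⟨T⟩`-orbit of the coset of
`g⁻¹` in `SL(2,ℤ) ⧸ Γ₀(N)`. -/
noncomputable def cex_width (g : SL(2, ℤ)) : ℕ :=
  Nat.card (MulAction.orbit (Subgroup.zpowers (T : SL(2, ℤ))) (((g⁻¹ : SL(2, ℤ)) : Q N)))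

theorem cex_width_pos (g : SL(2, ℤ)) : 0 < cex_width N g := by
  have : Finite (Q N) := by
    have : (Gamma0 N).FiniteIndex := inferInstance
    exact Subgroup.finite_quotient_of_finiteIndex
  have : Finite (MulAction.orbit (Subgroup.zpowers (T : SL(2, ℤ)))
      (((g⁻¹ : SL(2, ℤ)) : Q N))) := Set.toFinite _ |>.to_subtype
  have : Nonempty (MulAction.orbit (Subgroup.zpowers (T : SL(2, ℤ)))
      (((g⁻¹ : SL(2, ℤ)) : Q N))) := ⟨⟨_, MulAction.mem_orbit_self _⟩⟩
  exact Nat.card_pos

omit [NeZero N] in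
/-- `g T^w g⁻¹ ∈ Γ₀(N)` for `w` the width of `g • ∞`. -/
theorem cex_conj_T_pow_width_mem (g : SL(2, ℤ)) :
    g * T ^ cex_width N g * g⁻¹ ∈ Gamma0 N := by
  have hfix0 := cc_pow_card_orbit_smul (T : SL(2, ℤ)) (((g⁻¹ : SL(2, ℤ)) : Q N))
  have hfix : (T ^ cex_width N g : SL(2, ℤ)) • (((g⁻¹ : SL(2, ℤ)) : Q N)) =
      ((g⁻¹ : SL(2, ℤ)) : Q N) := hfix0
  rw [smul_coset] at hfix
  have hmemΓ : (T ^ cex_width N g * g⁻¹)⁻¹ * g⁻¹ ∈ Gamma0 N := QuotientGroup.eq.mp hfix
  have := (Gamma0 N).inv_mem hmemΓ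
  have e : ((T ^ cex_width N g * g⁻¹)⁻¹ * g⁻¹)⁻¹ = g * T ^ cex_width N g * g⁻¹ := by group
  rwa [e] at this

/-- **Exact ramification at the cusps, hypothesis form** (same hypotheses as
`cc_ncard_polePlaces_of_vCusp`): the pole order of `t` at `vCusp g` is the width of `g • ∞`. -/
theorem cex_ord_eq_width (t : F)
    (hpole : ∃ hfin : (polePlaces K F t).Finite,
      ∑ v ∈ hfin.toFinset, -v.ord t = (cdeg K F t : ℤ))
    (vCusp : SL(2, ℤ) → Place K F)
    (hleft : ∀ γ : SL(2, ℤ), γ ∈ Gamma0 N → ∀ g, vCusp (γ * g) = vCusp g)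
    (hT : ∀ g, vCusp (g * T) = vCusp g)
    (hord : ∀ (g : SL(2, ℤ)) (w : ℕ), 0 < w → g * T ^ w * g⁻¹ ∈ Gamma0 N →
      -((vCusp g).ord t) ≤ w)
    (hmem : ∀ g, vCusp g ∈ polePlaces K F t)
    (hcov : ∀ v ∈ polePlaces K F t, ∃ g, v = vCusp g)
    (hdeg : Nat.card (Q N) ≤ cdeg K F t) (g : SL(2, ℤ)) :
    -((vCusp g).ord t) = (cex_width N g : ℤ) := by
  classical
  obtain ⟨hfin, hsum⟩ := hpole
  have : Finite (Q N) := by
    have : (Gamma0 N).FiniteIndex := inferInstance
    exact Subgroup.finite_quotient_of_finiteIndex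
  -- right invariance under all powers of `T`
  have hTz : ∀ (k : ℤ) (g : SL(2, ℤ)), vCusp (g * T ^ k) = vCusp g := by
    intro k
    induction k using Int.induction_on with
    | zero => intro g; simp
    | succ n ih =>
      intro g
      rw [zpow_add_one, ← mul_assoc, hT, ih]
    | pred n ih =>
      intro g
      have h1 := hT (g * T ^ (-(n : ℤ) - 1))
      rw [mul_assoc, ← zpow_add_one, sub_add_cancel] at h1
      rw [← h1, ih]
  -- the family on cosets
  let vC : Q N → Place K F := fun q => Quotient.liftOn' q (fun g => vCusp g⁻¹) (by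
    intro a b hab
    have hab' : a⁻¹ * b ∈ Gamma0 N := QuotientGroup.leftRel_apply.mp hab
    have e : b⁻¹ = (a⁻¹ * b)⁻¹ * a⁻¹ := by group
    show vCusp a⁻¹ = vCusp b⁻¹
    rw [e, hleft _ ((Gamma0 N).inv_mem hab')])
  have hvC : ∀ g : SL(2, ℤ), vC ((g : SL(2, ℤ)) : Q N) = vCusp g⁻¹ := fun g => rfl
  have key := cex_abstract (G := Subgroup.zpowers (T : SL(2, ℤ))) (X := Q N) t hfin hsum vC
    ?_ ?_ ?_ ?_ hdeg (((g⁻¹ : SL(2, ℤ)) : Q N))
  · rw [hvC, inv_inv] at key
    exact key
  · -- invariance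
    rintro ⟨z, hz⟩ q
    obtain ⟨k, rfl⟩ := Subgroup.mem_zpowers_iff.mp hz
    induction q using QuotientGroup.induction_on with
    | H g =>
      show vC ((T ^ k : SL(2, ℤ)) • ((g : SL(2, ℤ)) : Q N)) = _
      rw [smul_coset, hvC, hvC, mul_inv_rev, ← zpow_neg, hTz]
  · -- covering
    intro v hv
    obtain ⟨g, rfl⟩ := hcov v hv
    exact ⟨((g⁻¹ : SL(2, ℤ)) : Q N), by rw [hvC, inv_inv]⟩
  · -- membership
    intro q
    induction q using QuotientGroup.induction_on with
    | H g => rw [hvC]; exact hmem _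
  · -- the bound
    intro q
    induction q using QuotientGroup.induction_on with
    | H g =>
      rw [hvC]
      have h1 := cex_conj_T_pow_width_mem N g⁻¹
      have h2 := hord g⁻¹ (cex_width N g⁻¹) (cex_width_pos N g⁻¹) h1
      unfold cex_width at h2
      rw [inv_inv] at h2
      exact h2

end Cusps

end Fermat.Agent.S42x
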