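/-
S42 project, block B3, leaf CUSP-EXACT (helper38), part 2: consequences of exact ramification at a
cusp place of a `CuspData` (generic in the field and its realisation).

* `cex_dict`      : `w * o(f) = N * ord(f)` if the pole order of `t` at the cusp is `w`;
* `cex_dvd_ord_of_root` : if `φ f * e₁ ^ p = eψ ^ p` with `eψ ∘ g = J * U`, `e₁ ∘ g = J * V`,
  `U, V` holomorphic `w`-periodic of moderate growth, then `p ∣ ord f` at the cusp `g • ∞`;
* `cex_transfer`  : exactness passes from a `CuspData` to any other one realising (the image of)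
  the same field by the same meromorphic functions.
-/
import Fermat.Agent.S24x.CuspPlacesG

set_option autoImplicit false

namespace Fermat.Agent.S42x

open Fermat.Agent.S24x AlgebraicCurve UpperHalfPlane CongruenceSubgroup
open scoped MatrixGroups Manifold

theorem cex_hasCuspGrowth_pow {w : ℕ} {h : ℍ → ℂ} {m : ℤ} (hg : HasCuspGrowth w h m) (n : ℕ) :
    HasCuspGrowth w (h ^ n) (n * m) := by
  induction n with
  | zero =>
    have : (h ^ 0 : ℍ → ℂ) = fun _ => (1 : ℂ) := by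
      funext τ
      simp
    rw [this]
    simpa using hasCuspGrowth_const w (one_ne_zero)
  | succ n ih =>
    have h1 := ih.mul hg
    have e : ((n + 1 : ℕ) : ℤ) * m = n * m + m := by push_cast; ring
    rw [pow_succ, e]
    exact h1

section Dict

variable {K F : Type*} [Field K] [Field F] [Algebra K F] {N : ℕ} [NeZero N] (D : CuspData K F N)

/-- the multiplier between the `q_N`-order function and the normalised order at a cusp. -/
theorem cex_exists_mul (g : SL(2, ℤ)) :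
    ∃ g₀ : ℤ, 0 < g₀ ∧ (∃ π : F, π ≠ 0 ∧ (D.subOrderFn g).toOrderFn.o π = g₀) ∧
      (∀ f : F, f ≠ 0 → (D.subOrderFn g).toOrderFn.o f = g₀ * (D.vCuspG g).ord f) ∧
      (N : ℤ) = g₀ * (-((D.vCuspG g).ord D.t)) := by
  obtain ⟨g₀, hg₀, hπ, hall⟩ := (D.subOrderFn g).toOrderFn.exists_o_eq_mul_ord
  refine ⟨g₀, hg₀, hπ, hall, ?_⟩
  have ht := hall D.t D.t_ne_zero
  rw [D.toOrderFn_o_t] at ht
  change -(N : ℤ) = g₀ * (D.vCuspG g).ord D.t at ht
  linarith

/-- **dictionary at an exactly ramified cusp**: `w * o(f) = N * ord(f)`. -/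
theorem cex_dict (g : SL(2, ℤ)) {w : ℕ} (hexact : -((D.vCuspG g).ord D.t) = w) {f : F}
    (hf : f ≠ 0) :
    (w : ℤ) * (D.subOrderFn g).toOrderFn.o f = N * (D.vCuspG g).ord f := by
  obtain ⟨g₀, -, -, hall, hN⟩ := cex_exists_mul D g
  rw [hall f hf, hN, hexact]
  ring

/-- **`p`-divisibility at an exactly ramified cusp.**  If `φ f * e₁ ^ p = eψ ^ p` in `Mer`
(i.e. `φ f = (eψ / e₁) ^ p`), and `eψ ∘ g = J * U`, `e₁ ∘ g = J * V` with a nowhere vanishing
factor `J` and `U, V` holomorphic, `T ^ w`-periodic, of moderate growth and nonzero, then the order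
of `f` at the cusp `g • ∞` is divisible by `p`, provided the cusp is exactly ramified
(`-ord t = w`). -/
theorem cex_dvd_ord_of_root (g : SL(2, ℤ)) {w : ℕ} (hw0 : 0 < w)
    (hexact : -((D.vCuspG g).ord D.t) = w) (p : ℕ) {f : F} (hf : f ≠ 0)
    (eψ e1 : Hol)
    (hroot : D.ρ.φ f * algebraMap Hol Mer e1 ^ p = algebraMap Hol Mer eψ ^ p)
    (J U V : ℍ → ℂ) (hJ : ∀ τ, J τ ≠ 0) (hU : IsCuspMer w U) (hV : IsCuspMer w V)
    (hU0 : U ≠ 0) (hV0 : V ≠ 0)
    (hUg : ∀ τ, (eψ : ℍ → ℂ) (g • τ) = J τ * U τ)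
    (hVg : ∀ τ, (e1 : ℍ → ℂ) (g • τ) = J τ * V τ) :
    (p : ℤ) ∣ (D.vCuspG g).ord f := by
  have hN : 0 < N := Nat.pos_of_ne_zero (NeZero.ne N)
  obtain ⟨a₀, b₀, hb₀, hfab⟩ := D.frac f
  have ha₀ : a₀ ≠ 0 := by
    rintro rfl
    apply hf
    rw [hfab]
    simp
  -- the relation in `Hol`
  have hrel : D.ρ.rep a₀ * e1 ^ p = D.ρ.rep b₀ * eψ ^ p := by
    apply IsFractionRing.injective Hol Mer
    have hβ : algebraMap Hol Mer (D.ρ.rep b₀) ≠ 0 := by
      rw [← D.ρ.rep_spec b₀]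
      apply D.ρ.φ_ne_zero
      intro h
      exact hb₀ (Subtype.ext h)
    rw [map_mul, map_mul, map_pow, map_pow, ← hroot, hfab, map_div₀, D.ρ.rep_spec a₀,
      D.ρ.rep_spec b₀]
    field_simp
  -- pointwise, after composing with `g` and cancelling the factor `J ^ p`
  have hpt : (holComp (D.ρ.rep a₀) g : ℍ → ℂ) * V ^ p =
      (holComp (D.ρ.rep b₀) g : ℍ → ℂ) * U ^ p := by
    funext τ
    have h1 := congrArg (fun h : Hol => (h : ℍ → ℂ) (g • τ)) hrel
    have h2 : (D.ρ.rep a₀ : ℍ → ℂ) (g • τ) * (e1 : ℍ → ℂ) (g • τ) ^ p =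
        (D.ρ.rep b₀ : ℍ → ℂ) (g • τ) * (eψ : ℍ → ℂ) (g • τ) ^ p := by
      simpa using h1
    rw [hUg, hVg, mul_pow, mul_pow] at h2
    have hJp : J τ ^ p ≠ 0 := pow_ne_zero _ (hJ τ)
    simp only [Pi.mul_apply, Pi.pow_apply, holComp_apply]
    apply mul_left_cancel₀ hJp
    linear_combination h2
  -- growth orders
  obtain ⟨mU, hmU⟩ := hU.exists_hasCuspGrowth hw0 hU0
  obtain ⟨mV, hmV⟩ := hV.exists_hasCuspGrowth hw0 hV0
  have hα := (D.hasCuspGrowth_rep g ha₀).mul_period hw0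
  have hβ := (D.hasCuspGrowth_rep g hb₀).mul_period hw0
  have hU' := cex_hasCuspGrowth_pow (hmU.mul_period hN) p
  have hV' := cex_hasCuspGrowth_pow (hmV.mul_period hN) p
  rw [Nat.mul_comm w N] at hU' hV'
  have h1 := hα.mul hV'
  have h2 := hβ.mul hU'
  rw [hpt] at h1
  have heq := hasCuspGrowth_unique (Nat.mul_pos hN hw0) h1 h2
  -- the order of `f`
  have ho : (D.subOrderFn g).toOrderFn.o f = D.cuspO g a₀ - D.cuspO g b₀ := by
    rw [hfab]
    exact (D.subOrderFn g).toOrderFn_o_div ha₀ hb₀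
  have hdict := cex_dict D g hexact hf
  rw [ho] at hdict
  have hNz : (N : ℤ) ≠ 0 := by exact_mod_cast hN.ne'
  refine ⟨mU - mV, ?_⟩
  apply mul_left_cancel₀ hNz
  rw [← hdict]
  linear_combination heq

end Dict

section Transfer

variable {K F : Type*} [Field K] [Field F] [Algebra K F] {N : ℕ} [NeZero N] (D : CuspData K F N)
variable {K' F' : Type*} [Field K'] [Field F'] [Algebra K' F'] (D' : CuspData K' F' N)

omit [NeZero N] in
/-- the image of a cusp-regular element under a realisation-compatible map is cusp-regular, with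
the same holomorphic representative. -/
theorem cex_map_mem_cuspReg (i : F →+* F') (hi : ∀ x, D'.ρ.φ (i x) = D.ρ.φ x)
    (a : D.ρ.cuspReg) : i (a : F) ∈ D'.ρ.cuspReg :=
  ⟨D.ρ.rep a, by rw [hi, D.ρ.rep_spec], D.ρ.rep_growth a⟩

omit [NeZero N] in
theorem cex_rep_map (i : F →+* F') (hi : ∀ x, D'.ρ.φ (i x) = D.ρ.φ x) (a : D.ρ.cuspReg) :
    D'.ρ.rep ⟨i (a : F), cex_map_mem_cuspReg D D' i hi a⟩ = D.ρ.rep a :=
  D'.ρ.rep_unique _ (by rw [hi, D.ρ.rep_spec])

omit [NeZero N] in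
theorem cex_cuspO_map (i : F →+* F') (hi : ∀ x, D'.ρ.φ (i x) = D.ρ.φ x) (g : SL(2, ℤ))
    (a : D.ρ.cuspReg) :
    D'.cuspO g ⟨i (a : F), cex_map_mem_cuspReg D D' i hi a⟩ = D.cuspO g a := by
  unfold CuspData.cuspO
  rw [cex_rep_map D D' i hi a]

/-- the `q_N`-order functions at a cusp agree along a realisation-compatible map. -/
theorem cex_o_map (i : F →+* F') (hi : ∀ x, D'.ρ.φ (i x) = D.ρ.φ x) (g : SL(2, ℤ)) {f : F}
    (hf : f ≠ 0) :
    (D'.subOrderFn g).toOrderFn.o (i f) = (D.subOrderFn g).toOrderFn.o f := by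
  obtain ⟨a, b, hb, hfab⟩ := D.frac f
  have ha : a ≠ 0 := by
    rintro rfl
    apply hf
    rw [hfab]
    simp
  have haF : (a : F) ≠ 0 := by simpa using ha
  have hbF : (b : F) ≠ 0 := by simpa using hb
  set a' : D'.ρ.cuspReg := ⟨i (a : F), cex_map_mem_cuspReg D D' i hi a⟩ with ha'
  set b' : D'.ρ.cuspReg := ⟨i (b : F), cex_map_mem_cuspReg D D' i hi b⟩ with hb'
  have ha'0 : a' ≠ 0 := by
    intro h
    have h1 : i (a : F) = 0 := congrArg Subtype.val h
    exact haF ((map_eq_zero i).mp h1)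
  have hb'0 : b' ≠ 0 := by
    intro h
    have h1 : i (b : F) = 0 := congrArg Subtype.val h
    exact hbF ((map_eq_zero i).mp h1)
  have e1 : i f = (a' : F') / (b' : F') := by
    rw [hfab, map_div₀]
  rw [e1, (D'.subOrderFn g).toOrderFn_o_div ha'0 hb'0, hfab,
    (D.subOrderFn g).toOrderFn_o_div ha hb]
  show D'.cuspO g a' - D'.cuspO g b' = D.cuspO g a - D.cuspO g b
  rw [ha', hb', cex_cuspO_map D D' i hi g a, cex_cuspO_map D D' i hi g b]

/-- `N` divides `g₀ * w` for the multiplier `g₀` at a cusp of width dividing `w`. -/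
theorem cex_dvd_mul_width (g : SL(2, ℤ)) {w : ℕ} (hw0 : 0 < w)
    (hw : g * ModularGroup.T ^ w * g⁻¹ ∈ Gamma0 N) {π : F} (hπ0 : π ≠ 0) :
    (N : ℤ) ∣ (D.subOrderFn g).toOrderFn.o π * w := by
  obtain ⟨a, b, hb, rfl⟩ := D.frac π
  have ha : a ≠ 0 := by
    rintro rfl
    apply hπ0
    simp
  rw [(D.subOrderFn g).toOrderFn_o_div ha hb, sub_mul]
  exact dvd_sub (D.dvd_cuspO_mul g hw0 hw ha) (D.dvd_cuspO_mul g hw0 hw hb)

/-- **transfer of exactness**: if the cusp `g • ∞` is exactly ramified (of width `w`) for `D`,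
it is exactly ramified for every `D'` realising (the image of) `F` by the same functions. -/
theorem cex_transfer (i : F →+* F') (hi : ∀ x, D'.ρ.φ (i x) = D.ρ.φ x) (g : SL(2, ℤ)) {w : ℕ}
    (hw0 : 0 < w) (hw : g * ModularGroup.T ^ w * g⁻¹ ∈ Gamma0 N)
    (hexact : -((D.vCuspG g).ord D.t) = w) :
    -((D'.vCuspG g).ord D'.t) = w := by
  obtain ⟨g₀, hg₀, ⟨π, hπ0, hπ⟩, -, hN⟩ := cex_exists_mul D g
  obtain ⟨g₀', hg₀', ⟨π', hπ'0, hπ'⟩, hall', hN'⟩ := cex_exists_mul D' g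
  rw [hexact] at hN
  have hw0' : (0 : ℤ) < w := by exact_mod_cast hw0
  -- `g₀' ∣ g₀`
  have h1 : g₀' ∣ g₀ := by
    have hiπ : i π ≠ 0 := (map_ne_zero i).mpr hπ0
    have := hall' (i π) hiπ
    rw [cex_o_map D D' i hi g hπ0, hπ] at this
    exact ⟨_, this⟩
  -- `g₀ ∣ g₀'`
  have h2 : g₀ ∣ g₀' := by
    have := cex_dvd_mul_width D' g hw0 hw hπ'0
    rw [hπ', hN] at this
    exact (mul_dvd_mul_iff_right hw0'.ne').mp this
  have heq : g₀ = g₀' := Int.dvd_antisymm hg₀.le hg₀'.le h2 h1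
  rw [← heq, hN] at hN'
  exact (mul_left_cancel₀ hg₀.ne' hN').symm

end Transfer

end Fermat.Agent.S42x
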