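/-
S42 project, block B3, leaf CUSP-EXACT (helper38), part 3: exact ramification at the cusp places of
the modular function field `FBar N` over `Q̄` (all inputs are the S24 inputs on main).
-/
import Fermat.Agent.S24
import Fermat.Agent.S42x.CuspExact
import Fermat.Agent.S42x.CuspExactDict

set_option autoImplicit false

namespace Fermat.Agent.S42x

open Fermat.Agent.S24x AlgebraicCurve UpperHalfPlane CongruenceSubgroup ModularCurve
open scoped MatrixGroups Manifold

variable (N : ℕ) [NeZero N]

/-- **exact ramification at the cusps of `X₀(N)` over `Q̄`**: the pole order of `j` at the cusp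
place `cg_vCusp N g` is the width of the cusp `g • ∞`. -/
theorem cex_cg_vCusp_ord (g : SL(2, ℤ)) :
    -((cg_vCusp N g).ord (jBar N)) = (cex_width N g : ℤ) :=
  cex_ord_eq_width N (jBar N) (sum_ord_polePlaces (fbf_isCoordinate_jBar N)) (cg_vCusp N)
    (cg_vCusp_mul_of_mem_Gamma0 N) (cg_vCusp_mul_T N) (cg_vCusp_ord_le N)
    (cg_vCusp_mem_polePlaces N) (fun v hv => covering_cusp N v hv)
    (by rw [card_Q]; exact fbf_dedekindPsi_le_cdeg N) g

/-- the same statement for the `CuspData` `evCuspData N`. -/
theorem cex_evCuspData_exact (g : SL(2, ℤ)) :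
    -(((evCuspData N).vCuspG g).ord (evCuspData N).t) = (cex_width N g : ℤ) :=
  cex_cg_vCusp_ord N g

/-- dictionary over `Q̄`: `width * o(f) = N * ord(f)`. -/
theorem cex_dict_Q (g : SL(2, ℤ)) {f : FBar N} (hf : f ≠ 0) :
    (cex_width N g : ℤ) * ((evCuspData N).subOrderFn g).toOrderFn.o f =
      N * (cg_vCusp N g).ord f :=
  cex_dict (evCuspData N) g (cex_evCuspData_exact N g) hf

/-- **transfer to any other realisation** (e.g. the function field over `ℂ`): a `CuspData` which
realises the image of `FBar N` by the same meromorphic functions is exactly ramified at all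
cusps. -/
theorem cex_exact_of_compat {K' F' : Type*} [Field K'] [Field F'] [Algebra K' F']
    (D' : CuspData K' F' N) (i : FBar N →+* F') (hi : ∀ x, D'.ρ.φ (i x) = evF N x)
    (g : SL(2, ℤ)) :
    -((D'.vCuspG g).ord D'.t) = (cex_width N g : ℤ) :=
  cex_transfer (evCuspData N) D' i hi g (cex_width_pos N g) (cex_conj_T_pow_width_mem N g)
    (cex_evCuspData_exact N g)

end Fermat.Agent.S42x
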