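/-
S42 project, block B4 (injectivity), leaf L1 (helper81): the N2 core.

If `h ∈ Mer` is `Γ₀(M)`-invariant and `h ^ p = A / B` for two modular forms `A, B` of the same
weight `m` on `Γ₀(M)`, then `h * B` is (the image in `Mer` of) a modular form `G` of weight `m` on
`Γ₀(M)`, i.e. `h = G / B` is again a ratio of forms.  No pole-clearing, no finiteness of poles:
`(h B) ^ p = A * B ^ (p - 1)` is holomorphic, hence `h B` is holomorphic (orders), slash-invariant
(from the invariance of `h`) and bounded at the cusps (its `p`-th power is).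
-/
import Mathlib
import Fermat.Agent.S24x.OrdAtHol
import Fermat.Agent.S23x.Defs

set_option autoImplicit false

namespace Fermat.Agent.S42x

open Fermat.Agent.S24x Fermat.Agent.S23x
open UpperHalfPlane ModularForm ModularFormClass CongruenceSubgroup Filter Asymptotics
open scoped MatrixGroups Manifold Topology

/-- order of a power in `Mer` -/
theorem inj_ordAt_pow (τ : ℍ) {x : Mer} (hx : x ≠ 0) (n : ℕ) :
    ordAt τ (x ^ n) = n * ordAt τ x := by
  induction n with
  | zero =>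
    rw [pow_zero, Nat.cast_zero, zero_mul]
    have := ordAt_const τ (1 : ℂ)
    rwa [map_one] at this
  | succ n ih =>
    rw [pow_succ, ordAt_mul τ (pow_ne_zero n hx) hx, ih]
    push_cast; ring

/-- an element of `Mer` whose `p`-th power is holomorphic is holomorphic -/
theorem inj_hol_of_pow_hol {p : ℕ} (hp : 0 < p) {x : Mer} {c : Hol}
    (hx : x ^ p = algebraMap Hol Mer c) : ∃ G : Hol, x = algebraMap Hol Mer G := by
  apply exists_hol_of_ordAt_nonneg
  intro τ
  by_cases hx0 : x = 0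
  · rw [hx0, ordAt_zero]
  · have h1 : (p : ℤ) * ordAt τ x = ordAt τ (algebraMap Hol Mer c) := by
      rw [← hx, inj_ordAt_pow τ hx0]
    have h2 := ordAt_algebraMap_nonneg τ c
    rw [← h1] at h2
    have hp' : (0 : ℤ) < p := by exact_mod_cast hp
    by_contra hneg
    rw [not_le] at hneg
    have := mul_neg_of_pos_of_neg hp' hneg
    omega

theorem inj_algebraMap_injective : Function.Injective (algebraMap Hol Mer) :=
  IsFractionRing.injective Hol Mer

/-- the slash of a holomorphic function by an element of `SL(2,ℤ)`, as an element of `Hol` -/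
noncomputable def inj_slashHol (m : ℤ) (γ : SL(2, ℤ)) (G : Hol) : Hol :=
  ⟨(G : ℍ → ℂ) ∣[m] γ, by
    rw [ModularForm.SL_slash]
    exact G.2.slash m _⟩

theorem inj_slashHol_apply (m : ℤ) (γ : SL(2, ℤ)) (G : Hol) (τ : ℍ) :
    (inj_slashHol m γ G : ℍ → ℂ) τ = (G : ℍ → ℂ) (γ • τ) * denom γ τ ^ (-m) := by
  show ((G : ℍ → ℂ) ∣[m] γ) τ = _
  rw [ModularForm.SL_slash_apply]

/-- a bound for a function whose `p`-th power is bounded -/
theorem inj_isBoundedAtImInfty_of_pow {p : ℕ} (hp : 0 < p) {f a b : ℍ → ℂ}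
    (ha : IsBoundedAtImInfty a) (hb : IsBoundedAtImInfty b)
    (hf : ∀ τ, f τ ^ p = a τ * b τ ^ (p - 1)) : IsBoundedAtImInfty f := by
  rw [IsBoundedAtImInfty, BoundedAtFilter] at ha hb ⊢
  obtain ⟨ca, hca⟩ := ha.bound
  obtain ⟨cb, hcb⟩ := hb.bound
  refine IsBigO.of_bound (max 1 (|ca| * |cb| ^ (p - 1))) ?_
  filter_upwards [hca, hcb] with τ h1 h2
  simp only [Pi.one_apply, norm_one, mul_one] at h1 h2 ⊢
  have h1' : ‖a τ‖ ≤ |ca| := h1.trans (le_abs_self _)
  have h2' : ‖b τ‖ ≤ |cb| := h2.trans (le_abs_self _)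
  have hpow : ‖f τ‖ ^ p ≤ |ca| * |cb| ^ (p - 1) := by
    rw [← norm_pow, hf τ, norm_mul, norm_pow]
    exact mul_le_mul h1' (pow_le_pow_left₀ (norm_nonneg _) h2' _) (by positivity) (abs_nonneg _)
  by_contra hlt
  rw [not_le] at hlt
  have hgt1 : 1 < ‖f τ‖ := lt_of_le_of_lt (le_max_left _ _) hlt
  have hgtC : |ca| * |cb| ^ (p - 1) < ‖f τ‖ := lt_of_le_of_lt (le_max_right _ _) hlt
  have : ‖f τ‖ ≤ ‖f τ‖ ^ p := by
    calc ‖f τ‖ = ‖f τ‖ ^ 1 := (pow_one _).symm
      _ ≤ ‖f τ‖ ^ p := pow_le_pow_right₀ hgt1.le hp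
  linarith

/-- **N2 core.** -/
theorem inj_core (M : ℕ) [NeZero M] {p : ℕ} (hp : 0 < p) {m : ℤ} {A B : Hol}
    (hA : IsMF M m (A : ℍ → ℂ)) (hB : IsMF M m (B : ℍ → ℂ)) (hB0 : B ≠ 0) {h : Mer}
    (hinv : ∀ γ : SL(2, ℤ), γ ∈ Gamma0 M → γ • h = h)
    (hpow : h ^ p * algebraMap Hol Mer B = algebraMap Hol Mer A) :
    ∃ G : Hol, IsMF M m (G : ℍ → ℂ) ∧ h * algebraMap Hol Mer B = algebraMap Hol Mer G := by
  obtain ⟨FA, hFA⟩ := hA
  obtain ⟨FB, hFB⟩ := hB
  -- step 1: `x = h * B` has a holomorphic `p`-th power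
  have hxp : (h * algebraMap Hol Mer B) ^ p = algebraMap Hol Mer (A * B ^ (p - 1)) := by
    have hp1 : p = (p - 1) + 1 := by omega
    have e : algebraMap Hol Mer B ^ p = algebraMap Hol Mer B * algebraMap Hol Mer B ^ (p - 1) := by
      conv_lhs => rw [hp1, pow_succ']
    rw [mul_pow, map_mul, map_pow, ← hpow, e]
    ring
  obtain ⟨G, hG⟩ := inj_hol_of_pow_hol hp hxp
  -- step 2: `G ^ p = A * B ^ (p - 1)` in `Hol`, hence pointwise
  have hGp : G ^ p = A * B ^ (p - 1) := by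
    apply inj_algebraMap_injective
    rw [map_pow, ← hG, hxp]
  have hGp_pt : ∀ τ : ℍ, (G : ℍ → ℂ) τ ^ p = (A : ℍ → ℂ) τ * (B : ℍ → ℂ) τ ^ (p - 1) := by
    intro τ
    have := congrArg (fun f : Hol => (f : ℍ → ℂ) τ) hGp
    simpa using this
  -- step 3: slash invariance
  have hslash : ∀ γ : SL(2, ℤ), γ ∈ Gamma0 M → (G : ℍ → ℂ) ∣[m] γ = (G : ℍ → ℂ) := by
    intro γ hγ
    have hγi : γ⁻¹ ∈ Gamma0 M := inv_mem hγ
    have h1 : γ⁻¹ • (h * algebraMap Hol Mer B) = h * algebraMap Hol Mer (γ⁻¹ • B) := by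
      rw [smul_mul', hinv _ hγi, smul_algebraMap_Mer]
    rw [hG, smul_algebraMap_Mer] at h1
    -- cross-multiply
    have h2 : algebraMap Hol Mer ((γ⁻¹ • G) * B) = algebraMap Hol Mer (G * (γ⁻¹ • B)) := by
      rw [map_mul, map_mul, h1, ← hG]
      ring
    have h3 : (γ⁻¹ • G) * B = G * (γ⁻¹ • B) := inj_algebraMap_injective h2
    -- pointwise
    have hBsl : ∀ τ : ℍ, (B : ℍ → ℂ) (γ • τ) = (B : ℍ → ℂ) τ * denom γ τ ^ m := by
      intro τ
      have hinvB : (⇑FB) ∣[m] γ = ⇑FB :=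
        SlashInvariantForm.slash_action_eqn FB _ (Subgroup.mem_map_of_mem _ hγ)
      have := congrFun hinvB τ
      rw [ModularForm.SL_slash_apply, hFB] at this
      rw [← this, mul_assoc, ← zpow_add₀ (denom_ne_zero γ τ)]
      simp
    have hD : (inj_slashHol m γ G - G) * B = 0 := by
      apply Subtype.ext
      funext τ
      have h4 := congrArg (fun f : Hol => (f : ℍ → ℂ) τ) h3
      simp only [Subring.coe_mul, Pi.mul_apply, smul_Hol_apply, inv_inv] at h4
      show ((inj_slashHol m γ G : ℍ → ℂ) τ - (G : ℍ → ℂ) τ) * (B : ℍ → ℂ) τ = 0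
      rw [inj_slashHol_apply]
      rw [hBsl τ] at h4
      have hd : denom γ τ ^ m ≠ 0 := zpow_ne_zero m (denom_ne_zero γ τ)
      have e1 : ((G : ℍ → ℂ) (γ • τ) * denom γ τ ^ (-m) - (G : ℍ → ℂ) τ) * (B : ℍ → ℂ) τ
          = denom γ τ ^ (-m) * ((G : ℍ → ℂ) (γ • τ) * (B : ℍ → ℂ) τ)
            - (G : ℍ → ℂ) τ * (B : ℍ → ℂ) τ := by ring
      rw [e1, h4, zpow_neg]
      field_simp
      ring
    have hD0 : inj_slashHol m γ G - G = 0 := by
      rcases mul_eq_zero.mp hD with h0 | h0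
      · exact h0
      · exact absurd h0 hB0
    have := congrArg (fun f : Hol => (f : ℍ → ℂ)) (sub_eq_zero.mp hD0)
    exact this
  -- step 4: assemble the modular form
  refine ⟨G, ⟨{ toFun := (G : ℍ → ℂ)
                slash_action_eq' := ?_
                holo' := G.2
                bdd_at_cusps' := ?_ }, rfl⟩, hG⟩
  · rintro _ ⟨γ, hγ, rfl⟩
    have := hslash γ hγ
    rwa [ModularForm.SL_slash] at this
  · intro c hc
    rw [Subgroup.IsArithmetic.isCusp_iff_isCusp_SL2Z] at hc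
    rw [OnePoint.isBoundedAt_iff_forall_SL2Z hc]
    intro γ _
    have hAb : IsBoundedAtImInfty ((A : ℍ → ℂ) ∣[m] γ) := by
      rw [← hFA]; exact ModularFormClass.bdd_at_infty_slash FA γ
    have hBb : IsBoundedAtImInfty ((B : ℍ → ℂ) ∣[m] γ) := by
      rw [← hFB]; exact ModularFormClass.bdd_at_infty_slash FB γ
    refine inj_isBoundedAtImInfty_of_pow hp hAb hBb (fun τ => ?_)
    rw [ModularForm.SL_slash_apply, ModularForm.SL_slash_apply, ModularForm.SL_slash_apply,
      mul_pow, hGp_pt, mul_pow]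
    have hd : denom γ τ ≠ 0 := denom_ne_zero γ τ
    have hp1 : p = (p - 1) + 1 := by omega
    have e : (denom γ τ ^ (-m)) ^ p = denom γ τ ^ (-m) * (denom γ τ ^ (-m)) ^ (p - 1) := by
      conv_lhs => rw [hp1, pow_succ]
      ring
    rw [e]
    ring

end Fermat.Agent.S42x
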