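/-
S42 project, block B7, leaf R5c (s42_plan row 75; helper11), prefix `dsdq_`.

**Cusp half** (generic in `CuspData K F N`, so it serves `K = Q̄` and `K = ℂ`): if `φ f = h ^ p` in
`Mer`, `h` is invariant under the parabolic element `g T^w g⁻¹ ∈ Γ₀(N)` and the cusp place
`vCuspG g` has exact ramification `w` over `j = ∞` (`e = width`), then `p ∣ ord_{vCuspG g} f`.
-/
import Mathlib
import Fermat.Agent.S24x.CuspPlacesG
import Fermat.Agent.S42x.InjCore

set_option autoImplicit false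

namespace Fermat.Agent.S42x

open Fermat.Agent.S24x
open UpperHalfPlane ModularCurve AlgebraicCurve CongruenceSubgroup
open scoped MatrixGroups

noncomputable section

/-- growth of a power. -/
theorem dsdq_hasCuspGrowth_pow {w : ℕ} {k : ℍ → ℂ} {m : ℤ} (hk : HasCuspGrowth w k m) (n : ℕ) :
    HasCuspGrowth w (k ^ n) (n * m) := by
  induction n with
  | zero =>
    have h1 : (k ^ 0 : ℍ → ℂ) = fun _ => (1 : ℂ) := by
      funext τ
      simp
    rw [h1, Nat.cast_zero, zero_mul]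
    exact hasCuspGrowth_const w one_ne_zero
  | succ n ih =>
    have h1 := ih.mul hk
    rw [pow_succ]
    have e : ((n + 1 : ℕ) : ℤ) * m = (n : ℤ) * m + m := by push_cast; ring
    rw [e]
    exact h1

/-- moderate growth of a `p`-th root. -/
theorem dsdq_modGrowth_of_pow {p : ℕ} (hp : 0 < p) {k a : ℍ → ℂ} (hka : ∀ τ, k τ ^ p = a τ)
    (ha : ModGrowth a) : ModGrowth k := by
  obtain ⟨m, C, A, hC, hb⟩ := ha.nonneg_const
  refine ⟨m, 1 + C, A, fun τ hτ => ?_⟩
  have h1 : ‖k τ‖ ≤ 1 + ‖k τ‖ ^ p := by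
    by_cases h : ‖k τ‖ ≤ 1
    · have := pow_nonneg (norm_nonneg (k τ)) p
      linarith
    · rw [not_le] at h
      have : ‖k τ‖ ^ 1 ≤ ‖k τ‖ ^ p := pow_le_pow_right₀ h.le hp
      rw [pow_one] at this
      linarith
  have h2 : ‖k τ‖ ^ p = ‖a τ‖ := by rw [← norm_pow, hka]
  have h3 := hb τ hτ
  have h4 : (1 : ℝ) ≤ Real.exp (2 * Real.pi * m * τ.im) := by
    apply Real.one_le_exp
    have := Real.pi_pos
    have := τ.im_pos
    positivity
  calc ‖k τ‖ ≤ 1 + ‖a τ‖ := by rw [← h2]; exact h1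
    _ ≤ Real.exp (2 * Real.pi * m * τ.im) + C * Real.exp (2 * Real.pi * m * τ.im) :=
        add_le_add h4 h3
    _ = (1 + C) * Real.exp (2 * Real.pi * m * τ.im) := by ring

theorem dsdq_modGrowth_pow {k : ℍ → ℂ} (hk : ModGrowth k) (n : ℕ) :
    ModGrowth (fun τ => k τ ^ n) := by
  induction n with
  | zero => simpa using modGrowth_const 1
  | succ n ih =>
    have := ih.mul hk
    simpa [pow_succ] using this

variable {K F : Type*} [Field K] [Field F] [Algebra K F] {N : ℕ} [NeZero N]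

/-- **cusp half, generic**: `p ∣ ord f` at the cusp place `vCuspG g` of exact ramification `w`. -/
theorem dsdq_dvd_ord_cusp_generic (D : CuspData K F N) (g : SL(2, ℤ)) {w : ℕ} (hw0 : 0 < w)
    (hw : g * ModularGroup.T ^ w * g⁻¹ ∈ Gamma0 N)
    (hexact : -((D.vCuspG g).ord D.t) = w)
    {p : ℕ} (hp : 0 < p) (f : F) (hf : f ≠ 0) (h : Mer) (hpow : h ^ p = D.ρ.φ f)
    (hinv : (g * ModularGroup.T ^ w * g⁻¹)⁻¹ • h = h) :
    (p : ℤ) ∣ (D.vCuspG g).ord f := by
  have hN : 0 < N := Nat.pos_of_ne_zero (NeZero.ne N)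
  obtain ⟨a, b, hb, hfab⟩ := D.frac f
  have ha : a ≠ 0 := by
    rintro rfl
    apply hf
    rw [hfab]
    simp
  obtain ⟨α, hα⟩ : ∃ α : Hol, α = D.ρ.rep a := ⟨_, rfl⟩
  obtain ⟨β, hβ⟩ : ∃ β : Hol, β = D.ρ.rep b := ⟨_, rfl⟩
  have hαs : D.ρ.φ (a : F) = algebraMap Hol Mer α := by rw [hα]; exact D.ρ.rep_spec a
  have hβs : D.ρ.φ (b : F) = algebraMap Hol Mer β := by rw [hβ]; exact D.ρ.rep_spec b
  have hβ0 : algebraMap Hol Mer β ≠ 0 := by
    rw [← hβs]
    apply D.ρ.φ_ne_zero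
    intro h0
    exact hb (Subtype.ext h0)
  -- the holomorphic root `G` of `α β^(p-1)`
  obtain ⟨q, rfl⟩ : ∃ q, p = q + 1 := ⟨p - 1, by omega⟩
  have hxpow : (h * algebraMap Hol Mer β) ^ (q + 1) = algebraMap Hol Mer (α * β ^ q) := by
    rw [mul_pow, hpow, hfab, map_div₀, hαs, hβs, map_mul, map_pow, pow_succ]
    field_simp
  obtain ⟨G, hG⟩ := inj_hol_of_pow_hol (Nat.succ_pos q) hxpow
  have hGpow : G ^ (q + 1) = α * β ^ q := by
    apply inj_algebraMap_injective
    rw [map_pow, ← hG, hxpow]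
  -- invariance of `G` under `γ = g T^w g⁻¹`
  set γ : SL(2, ℤ) := g * ModularGroup.T ^ w * g⁻¹ with hγ
  have hβinv : γ⁻¹ • β = β := by
    have h1 := D.inv γ⁻¹ (inv_mem hw) (b : F)
    rw [hβs, smul_algebraMap_Mer] at h1
    exact inj_algebraMap_injective h1
  have hGinv : γ⁻¹ • G = G := by
    apply inj_algebraMap_injective
    rw [← smul_algebraMap_Mer, ← hG, smul_mul', hinv, smul_algebraMap_Mer, hβinv]
  have hGper : ∀ τ : ℍ, (holComp G g : ℍ → ℂ) (ModularGroup.T ^ w • τ) =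
      (holComp G g : ℍ → ℂ) τ := by
    intro τ
    rw [holComp_apply, holComp_apply]
    have e1 : g • ModularGroup.T ^ w • τ = γ • g • τ := by
      rw [hγ, smul_smul, smul_smul]
      congr 1
      group
    rw [e1]
    have := congrArg (fun k : Hol => (k : ℍ → ℂ) (g • τ)) hGinv
    simp only [smul_Hol_apply, inv_inv] at this
    exact this
  -- pointwise power relation after composing with `g`
  have hpt : ∀ τ : ℍ, (holComp G g : ℍ → ℂ) τ ^ (q + 1) =
      (holComp α g : ℍ → ℂ) τ * (holComp β g : ℍ → ℂ) τ ^ q := by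
    intro τ
    rw [holComp_apply, holComp_apply, holComp_apply]
    have := congrArg (fun k : Hol => (k : ℍ → ℂ) (g • τ)) hGpow
    simpa using this
  have hgab : HasCuspGrowth N ((holComp α g : ℍ → ℂ) * (holComp β g : ℍ → ℂ) ^ q)
      (D.cuspO g a + q * D.cuspO g b) := by
    rw [hα, hβ]
    exact (D.hasCuspGrowth_rep g ha).mul (dsdq_hasCuspGrowth_pow (D.hasCuspGrowth_rep g hb) q)
  have hGne : (holComp G g : ℍ → ℂ) ≠ 0 := by
    intro h0
    -- `α∘g * (β∘g)^q = 0` as functions, contradiction with the growth (nonvanishing far up)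
    have hgr := hgab
    obtain ⟨c₁, c₂, A, hc₁, hbd⟩ := hgr
    let τ₀ : ℍ := ⟨⟨0, max A 1⟩, by simp⟩
    have hτ₀ : A ≤ τ₀.im := le_max_left _ _
    have h1 := (hbd τ₀ hτ₀).1
    have h2 : ((holComp α g : ℍ → ℂ) * (holComp β g : ℍ → ℂ) ^ q) τ₀ = 0 := by
      have := hpt τ₀
      rw [h0] at this
      simp only [Pi.zero_apply] at this
      rw [zero_pow (Nat.succ_ne_zero q)] at this
      simpa using this.symm
    rw [h2, norm_zero] at h1
    have : 0 < c₁ * Real.exp (-(2 * Real.pi * ↑(D.cuspO g a + ↑q * D.cuspO g b) * τ₀.im / ↑N)) :=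
      mul_pos hc₁ (Real.exp_pos _)
    linarith
  -- `G ∘ g` is cusp-meromorphic of width `w`
  have hmod : ModGrowth (holComp G g : ℍ → ℂ) := by
    apply dsdq_modGrowth_of_pow (Nat.succ_pos q) hpt
    have h1 : ModGrowth (holComp α g : ℍ → ℂ) := by rw [hα]; exact D.ρ.rep_growth a g
    have h2 : ModGrowth (fun τ => (holComp β g : ℍ → ℂ) τ ^ q) := by
      apply dsdq_modGrowth_pow
      rw [hβ]; exact D.ρ.rep_growth b g
    exact h1.mul h2
  have hcm : IsCuspMer w (holComp G g : ℍ → ℂ) := ⟨(holComp G g).2, hGper, hmod⟩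
  obtain ⟨m', hm'⟩ := hcm.exists_hasCuspGrowth hw0 hGne
  -- compare growth orders at period `w * N`
  have hA := (dsdq_hasCuspGrowth_pow hm' (q + 1)).mul_period hN
  have hB := hgab.mul_period hw0
  have hfun : ((holComp G g : ℍ → ℂ)) ^ (q + 1) =
      (holComp α g : ℍ → ℂ) * (holComp β g : ℍ → ℂ) ^ q := by
    funext τ
    simpa using hpt τ
  rw [hfun, Nat.mul_comm w N] at hA
  have hcmp := hasCuspGrowth_unique (Nat.mul_pos hN hw0) hA hB
  -- translate into orders at the place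
  obtain ⟨g₀, hg₀, -, hall⟩ := (D.subOrderFn g).toOrderFn.exists_o_eq_mul_ord
  have ht := hall D.t D.t_ne_zero
  rw [D.toOrderFn_o_t] at ht
  change -(N : ℤ) = g₀ * (D.vCuspG g).ord D.t at ht
  have hNw : (N : ℤ) = g₀ * w := by rw [← hexact]; linarith
  have haF : (a : F) ≠ 0 := by simpa using ha
  have hbF : (b : F) ≠ 0 := by simpa using hb
  have hoa := hall (a : F) haF
  have hob := hall (b : F) hbF
  rw [(D.subOrderFn g).toOrderFn_o_coe ha] at hoa
  rw [(D.subOrderFn g).toOrderFn_o_coe hb] at hob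
  change D.cuspO g a = g₀ * (D.vCuspG g).ord (a : F) at hoa
  change D.cuspO g b = g₀ * (D.vCuspG g).ord (b : F) at hob
  have hordf : (D.vCuspG g).ord f = (D.vCuspG g).ord (a : F) - (D.vCuspG g).ord (b : F) := by
    rw [hfab, div_eq_mul_inv, Place.ord_mul _ haF (inv_ne_zero hbF), Place.ord_inv]
    ring
  -- `(q+1) * m' * N = (o a + q * o b) * w`
  rw [hoa, hob, hNw] at hcmp
  have hw' : (w : ℤ) ≠ 0 := by exact_mod_cast hw0.ne'
  have key : ((q + 1 : ℕ) : ℤ) * m' = (D.vCuspG g).ord (a : F) + q * (D.vCuspG g).ord (b : F) := by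
    have h1 : g₀ * w * (((q + 1 : ℕ) : ℤ) * m') =
        g₀ * w * ((D.vCuspG g).ord (a : F) + q * (D.vCuspG g).ord (b : F)) := by
      push_cast at hcmp ⊢
      linear_combination hcmp
    exact mul_left_cancel₀ (mul_ne_zero hg₀.ne' hw') h1
  refine ⟨m' - (D.vCuspG g).ord (b : F), ?_⟩
  rw [hordf]
  push_cast at key ⊢
  linear_combination (-1 : ℤ) * key

end

end Fermat.Agent.S42x
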