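/-
S42 project, block B7, leaf R5c (s42_plan row 75; helper11), prefix `dsdq_`.

Last line of (N5) of `S42_LEAD_NOTES`: if `f : FBar M` has an explicit `p`-th root `h ∈ Mer`
(`h ^ p = evF M f`) which is invariant under the parabolic elements `g T^w g⁻¹ ∈ Γ₀(M)`, then
`p ∣ ord_P f` at EVERY place `P` of `FBar M / Q̄` (Q̄-covering theorem of S24x), hence
`div f = p • Dt` for a degree-zero divisor `Dt`.

* `dsdq_dvd_ord_point` : point places (`p` prime to `6`).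
* `dsdq_dvd_ord_of_covering` : all places, from the point half and a cusp half.
-/
import Mathlib
import Fermat.Agent.S24x.VPt
import Fermat.Agent.S24x.JFiber
import Fermat.Agent.S24x.CgCusp
import Fermat.Agent.S24x.FBarFinite
import Fermat.Agent.S24x.CoveringFinal
import Fermat.Agent.S24x.PlaceCenter
import Fermat.Agent.S42x.InjCore
import Fermat.Agent.S42x.DescDivCusp
import Fermat.Agent.S37x.HeckeInputs
import Fermat.Prelude.Def_ModularCurve_PeriodMap

set_option autoImplicit false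

namespace Fermat.Agent.S42x

open Fermat.Agent.S24x
open UpperHalfPlane ModularCurve AlgebraicCurve CongruenceSubgroup
open scoped MatrixGroups

noncomputable section

variable (N : ℕ) [NeZero N]

/-- the analytic order of `j - j(τ)` at `τ` is `1`, `2` or `3`. -/
theorem dsdq_holOrdZ_dvd_six (τ : ℍ) :
    holOrdZ (jHol - algebraMap ℂ Hol (jFun τ)) τ ∣ 6 := by
  unfold holOrdZ
  by_cases h0 : jFun τ = 0
  · have h3 := holOrder_jHol_of_jFun_eq_zero τ h0
    rw [h0, map_zero, sub_zero, h3]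
    norm_num
  · by_cases h1 : jFun τ = 1728
    · have h2 := holOrder_jHol_sub_of_jFun_eq_1728 τ h1
      rw [h1, h2]
      norm_num
    · rw [holOrder_jHol_sub_generic τ h0 h1]
      norm_num

omit [NeZero N] in
/-- **point half**: at a point place, `p ∣ ord f` when `evF f` is a `p`-th power in `Mer` and
`p` is prime to `6`. -/
theorem dsdq_dvd_ord_point {p : ℕ} (hp6 : Nat.Coprime p 6) (τ : ℍ) {c : Qbar}
    (hτ : jFun τ = iotaQ c) (f : FBar N) (hf : f ≠ 0) (h : Mer) (hpow : h ^ p = evF N f) :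
    (p : ℤ) ∣ (vPt N τ).ord f := by
  obtain ⟨g, hg, hall⟩ := exists_ordAt_eq_mul_vPt_ord N τ hτ
  -- `g ∣ 6`
  have h1 := hall (jBar N - algebraMap Qbar (FBar N) c)
  rw [ordAt_evF_jBar_sub, ← hτ] at h1
  have hg6 : (g : ℤ) ∣ 6 := Dvd.dvd.trans (Dvd.intro _ h1.symm) (dsdq_holOrdZ_dvd_six τ)
  -- `h ≠ 0`
  have hev : evF N f ≠ 0 := (map_ne_zero (evF N)).mpr hf
  have hh : h ≠ 0 := by
    rintro rfl
    by_cases hp0 : p = 0
    · subst hp0
      simp at hp6
    · rw [zero_pow hp0] at hpow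
      exact hev hpow.symm
  have h2 : (p : ℤ) * ordAt τ h = (g : ℤ) * (vPt N τ).ord f := by
    rw [← hall f, ← hpow, inj_ordAt_pow τ hh]
  -- coprimality
  have hcop : IsCoprime (p : ℤ) (g : ℤ) := by
    have h6 : IsCoprime (p : ℤ) (6 : ℤ) := by
      have := Nat.isCoprime_iff_coprime.mpr hp6
      simpa using this
    exact IsCoprime.of_isCoprime_of_dvd_right h6 hg6
  exact hcop.dvd_of_dvd_mul_left (Dvd.intro _ h2)

/-- **all places**, from the point half and a cusp half. -/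
theorem dsdq_dvd_ord_of_cusp {p : ℕ} (hp6 : Nat.Coprime p 6) (f : FBar N) (hf : f ≠ 0) (h : Mer)
    (hpow : h ^ p = evF N f)
    (hcusp : ∀ g : SL(2, ℤ), (p : ℤ) ∣ (cg_vCusp N g).ord f)
    (P : Place Qbar (FBar N)) : (p : ℤ) ∣ P.ord f := by
  rcases pc_pole_or_center (fbf_isCoordinate_jBar N) P with hP | ⟨c, hc, -⟩
  · obtain ⟨g, rfl⟩ := covering_cusp N P hP
    exact hcusp g
  · obtain ⟨τ₀, hτ₀⟩ := jFun_surjective (iotaQ c)
    obtain ⟨g, rfl⟩ := covering_finite N c τ₀ hτ₀ P hc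
    have hτ : jFun (g • τ₀) = iotaQ c := by rw [jFun_smul, hτ₀]
    exact dsdq_dvd_ord_point N hp6 (g • τ₀) hτ f hf h hpow

/-- **cusp half over `Q̄`**, given the exact ramification `e = w` at the cusp `g`. -/
theorem dsdq_dvd_ord_cusp {p : ℕ} (hp : 0 < p) (g : SL(2, ℤ)) {w : ℕ} (hw0 : 0 < w)
    (hw : g * ModularGroup.T ^ w * g⁻¹ ∈ Gamma0 N)
    (hexact : -((cg_vCusp N g).ord (jBar N)) = w)
    (f : FBar N) (hf : f ≠ 0) (h : Mer) (hpow : h ^ p = evF N f)
    (hinv : (g * ModularGroup.T ^ w * g⁻¹)⁻¹ • h = h) :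
    (p : ℤ) ∣ (cg_vCusp N g).ord f :=
  dsdq_dvd_ord_cusp_generic (evCuspData N) g hw0 hw hexact hp f hf h hpow hinv

/-- the parabolic elements `g T^w g⁻¹` have trace `2`. -/
theorem dsdq_trace_conj_T_pow (g : SL(2, ℤ)) (w : ℕ) :
    ((g * ModularGroup.T ^ w * g⁻¹ : SL(2, ℤ)) : Matrix (Fin 2) (Fin 2) ℤ).trace = 2 := by
  have h1 : ((g * ModularGroup.T ^ w * g⁻¹ : SL(2, ℤ)) : Matrix (Fin 2) (Fin 2) ℤ) =
      (g : Matrix (Fin 2) (Fin 2) ℤ) * ((ModularGroup.T ^ w : SL(2, ℤ)) : Matrix (Fin 2) (Fin 2) ℤ) *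
        ((g⁻¹ : SL(2, ℤ)) : Matrix (Fin 2) (Fin 2) ℤ) := by
    simp
  rw [h1, Matrix.trace_mul_comm, ← Matrix.mul_assoc]
  have h2 : ((g⁻¹ : SL(2, ℤ)) : Matrix (Fin 2) (Fin 2) ℤ) * (g : Matrix (Fin 2) (Fin 2) ℤ) = 1 := by
    rw [← Matrix.SpecialLinearGroup.coe_mul, inv_mul_cancel, Matrix.SpecialLinearGroup.coe_one]
  rw [h2, Matrix.one_mul]
  have h3 := ModularGroup.coe_T_zpow (w : ℤ)
  rw [zpow_natCast] at h3
  rw [h3]
  simp [Matrix.trace_fin_two]

omit [NeZero N] in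
/-- a function with a parabolic multiplier is invariant under the `g T^w g⁻¹ ∈ Γ₀(N)`. -/
theorem dsdq_inv_of_char (ψ : Additive (Gamma0 N) →+ Additive ℂˣ)
    (hψ : ModularCurve.Period.IsParabolicHom (Gamma0 N) ψ) (h : Mer)
    (hchar : ∀ γ : Gamma0 N, ((γ : SL(2, ℤ))⁻¹ • h : Mer) =
      algebraMap ℂ Mer (((ψ (Additive.ofMul γ)).toMul : ℂˣ) : ℂ) * h)
    (g : SL(2, ℤ)) (w : ℕ) (hw : g * ModularGroup.T ^ w * g⁻¹ ∈ Gamma0 N) :
    (g * ModularGroup.T ^ w * g⁻¹)⁻¹ • h = h := by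
  have h1 := hchar ⟨_, hw⟩
  have h2 : ψ (Additive.ofMul (⟨_, hw⟩ : Gamma0 N)) = 0 := by
    apply hψ
    rw [dsdq_trace_conj_T_pow]
    norm_num
  rw [h2] at h1
  simpa using h1

/-- **R5c (all places)**: if `evF f = h ^ p` with `h` of parabolic multiplier `ψ`, `p` prime to `6`,
then `p ∣ ord_P f` at every place of `F_N / Q̄`; `hex` = exact ramification at the cusps
(`e = width`, S24x squeeze / s42_plan row 57). -/
theorem dsdq_dvd_ord_of_exact {p : ℕ} (hp6 : Nat.Coprime p 6)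
    (hex : ∀ g : SL(2, ℤ), ∃ w : ℕ, 0 < w ∧ g * ModularGroup.T ^ w * g⁻¹ ∈ Gamma0 N ∧
      -((cg_vCusp N g).ord (jBar N)) = w)
    (f : FBar N) (hf : f ≠ 0) (h : Mer) (hpow : h ^ p = evF N f)
    (ψ : Additive (Gamma0 N) →+ Additive ℂˣ) (hψ : ModularCurve.Period.IsParabolicHom (Gamma0 N) ψ)
    (hchar : ∀ γ : Gamma0 N, ((γ : SL(2, ℤ))⁻¹ • h : Mer) =
      algebraMap ℂ Mer (((ψ (Additive.ofMul γ)).toMul : ℂˣ) : ℂ) * h)
    (P : Place Qbar (FBar N)) : (p : ℤ) ∣ P.ord f := by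
  have hp : 0 < p := by
    rcases Nat.eq_zero_or_pos p with rfl | hp
    · simp at hp6
    · exact hp
  refine dsdq_dvd_ord_of_cusp N hp6 f hf h hpow (fun g => ?_) P
  obtain ⟨w, hw0, hw, hexact⟩ := hex g
  exact dsdq_dvd_ord_cusp N hp g hw0 hw hexact f hf h hpow
    (dsdq_inv_of_char N ψ hψ h hchar g w hw)

end

/-- division of a principal divisor all of whose orders are divisible by `p`. -/
theorem dsdq_exists_div {K F : Type*} [Field K] [Field F] [Algebra K F]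
    [HasPrincipalDivisors K F] {p : ℕ} (hp : 0 < p) (f : F) (hf : f ≠ 0)
    (hdvd : ∀ P : Place K F, (p : ℤ) ∣ P.ord f) :
    ∃ Dt : Divisor.degZero (K := K) (F := F),
      ∀ P : Place K F, (p : ℤ) * (Dt : Divisor K F) P = P.ord f := by
  obtain ⟨D, hD, hdeg⟩ := HasPrincipalDivisors.exists_divisor (K := K) f hf
  have hp' : (p : ℤ) ≠ 0 := by exact_mod_cast hp.ne'
  let Dt : Divisor K F := D.mapRange (fun n => n / (p : ℤ)) (by simp)
  have hDt : ∀ P : Place K F, (p : ℤ) * Dt P = P.ord f := by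
    intro P
    show (p : ℤ) * (D.mapRange (fun n => n / (p : ℤ)) (by simp)) P = P.ord f
    rw [Finsupp.mapRange_apply, hD P]
    exact Int.mul_ediv_cancel' (hdvd P)
  have hsm : (p : ℤ) • Dt = D := by
    ext P
    rw [Finsupp.smul_apply, smul_eq_mul, hDt P, hD P]
  have hdeg' : Divisor.degree Dt = 0 := by
    have h1 : Divisor.degree ((p : ℤ) • Dt) = 0 := by rw [hsm, hdeg]
    rw [map_zsmul, smul_eq_mul] at h1
    rcases mul_eq_zero.mp h1 with h2 | h2
    · exact absurd h2 hp'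
    · exact h2
  exact ⟨⟨Dt, hdeg'⟩, hDt⟩

end Fermat.Agent.S42x
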