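/-
S42 project, block B7, leaf R5c (s42_plan row 75; helper11), prefix `dsdq_`: UNCONDITIONAL form.

`dsdq_dvd_ord` : if `f : FBar N`, `f ≠ 0`, `evF N f = h ^ p` in `Mer` with `h` of multiplier `ψ`
(`h(γ z) = ψ(γ) h(z)` on `Γ₀(N)`, the `heq_Rel` shape) and `ψ` parabolic, `p` prime to `6`, then
`p ∣ ord_P f` at EVERY place `P` of `F_N / Q̄`.
`dsdq_exists_degZero` : hence `div f = p • Dt` with `Dt` a degree-zero divisor (the `Dt` of
`heq_Rel`).
Inputs: `DescDivQbar` (point half, covering) + `DescDivCusp` (cusp half) + helper38's exact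
ramification at the cusps `cex_cg_vCusp_ord` (S24x squeeze).
-/
import Mathlib
import Fermat.Agent.S42x.DescDivQbar
import Fermat.Agent.S42x.CuspExactQ

set_option autoImplicit false

namespace Fermat.Agent.S42x

open Fermat.Agent.S24x
open UpperHalfPlane ModularCurve AlgebraicCurve CongruenceSubgroup
open scoped MatrixGroups

noncomputable section

variable (N : ℕ) [NeZero N]

/-- exact ramification at every cusp of `X₀(N)` over `Q̄`, in the shape of `dsdq_dvd_ord_of_exact`. -/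
theorem dsdq_hex (g : SL(2, ℤ)) : ∃ w : ℕ, 0 < w ∧ g * ModularGroup.T ^ w * g⁻¹ ∈ Gamma0 N ∧
    -((cg_vCusp N g).ord (jBar N)) = w :=
  ⟨cex_width N g, cex_width_pos N g, cex_conj_T_pow_width_mem N g, cex_cg_vCusp_ord N g⟩

/-- **R5c**: `p ∣ ord_P f` at every place of `F_N / Q̄`. -/
theorem dsdq_dvd_ord {p : ℕ} (hp6 : Nat.Coprime p 6)
    (f : FBar N) (hf : f ≠ 0) (h : Mer) (hpow : h ^ p = evF N f)
    (ψ : Additive (Gamma0 N) →+ Additive ℂˣ)
    (hψ : ModularCurve.Period.IsParabolicHom (Gamma0 N) ψ)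
    (hchar : ∀ γ : Gamma0 N, ((γ : SL(2, ℤ))⁻¹ • h : Mer) =
      algebraMap ℂ Mer (((ψ (Additive.ofMul γ)).toMul : ℂˣ) : ℂ) * h)
    (P : Place Qbar (FBar N)) : (p : ℤ) ∣ P.ord f :=
  dsdq_dvd_ord_of_exact N hp6 (dsdq_hex N) f hf h hpow ψ hψ hchar P

/-- **R5c, divisor form**: the degree-zero divisor `Dt` with `p • Dt = div f`. -/
theorem dsdq_exists_degZero {p : ℕ} (hp6 : Nat.Coprime p 6)
    (f : FBar N) (hf : f ≠ 0) (h : Mer) (hpow : h ^ p = evF N f)
    (ψ : Additive (Gamma0 N) →+ Additive ℂˣ)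
    (hψ : ModularCurve.Period.IsParabolicHom (Gamma0 N) ψ)
    (hchar : ∀ γ : Gamma0 N, ((γ : SL(2, ℤ))⁻¹ • h : Mer) =
      algebraMap ℂ Mer (((ψ (Additive.ofMul γ)).toMul : ℂˣ) : ℂ) * h) :
    ∃ Dt : Divisor.degZero (K := Qbar) (F := modularFunctionFieldBar N),
      ∀ P : Place Qbar (modularFunctionFieldBar N),
        (p : ℤ) * (Dt : Divisor Qbar (modularFunctionFieldBar N)) P = P.ord f := by
  have := Fermat.Agent.S37x.hki_hasPrincipalDivisors N
  have hp : 0 < p := by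
    rcases Nat.eq_zero_or_pos p with rfl | hp
    · simp at hp6
    · exact hp
  exact dsdq_exists_div hp f hf (dsdq_dvd_ord N hp6 f hf h hpow ψ hψ hchar)

end

end Fermat.Agent.S42x
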