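/-
S42 project, block B13, leaf ELL-EXACT (helper90, prefix `ell90_`).

Exact ramification at the elliptic points of `X₀(N)` over `Q̄`, uniformly in the prime `p`:

* `ell90_ord_eq_card_orbit`, `ell90_family_ord_eq`: the S24x orbit squeeze, keeping the PER-PLACE
  equality `ord_{pt g}(t - c) = #(⟨s⟩-orbit of g⁻¹Γ₀(N))` (S24x only keeps the counts).
* `ell90_ord_1728`, `ell90_ord_zero`: the instances at `i` (with `S`) and `ρ` (with `S T`).
* `ell90_dvd_ordAt`: if `ord_τ ∘ evF = g · ord_{vPt τ}` then `g ∣ ord_τ x` for every `x : Mer`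
  invariant under the stabiliser of `τ` in `Γ₀(N)`.
* `ell90_dvd_point`: the point half of R5c for ARBITRARY `p` (root `h0` of `evF f0` invariant under
  the elliptic stabilisers in `Γ₀(N)`).
-/
import Fermat.Agent.S18x.RamDataN
import Fermat.Agent.X0N.JInjective

set_option autoImplicit false

namespace Fermat.Agent.S42x

open UpperHalfPlane AlgebraicCurve CongruenceSubgroup ModularCurve ModularGroup
open Matrix.SpecialLinearGroup
open Fermat.Agent.S24x Fermat.Agent.S18x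
open scoped MatrixGroups Manifold

section Abstract

variable {K F : Type*} [Field K] [Field F] [Algebra K F]
variable {G X : Type*} [Group G] [MulAction G X] [Finite X]

/-- **Abstract squeeze, per point**: in the situation of `cc_ncard_placesOver`, the order of
`t - c` at `vP x` is exactly the size of the orbit of `x`. -/
theorem ell90_ord_eq_card_orbit (t : F) (c : K)
    (hfin : (placesOver K F t c).Finite)
    (hsum : ∑ v ∈ hfin.toFinset, v.ord (t - algebraMap K F c) = (cdeg K F t : ℤ))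
    (vP : X → Place K F)
    (hinv : ∀ (g : G) (x : X), vP (g • x) = vP x)
    (hcov : ∀ v ∈ placesOver K F t c, ∃ x, vP x = v)
    (hmem : ∀ x, vP x ∈ placesOver K F t c)
    (hbound : ∀ x, (vP x).ord (t - algebraMap K F c) ≤ (Nat.card (MulAction.orbit G x) : ℤ))
    (hdeg : Nat.card X ≤ cdeg K F t) (x : X) :
    (vP x).ord (t - algebraMap K F c) = (Nat.card (MulAction.orbit G x) : ℤ) := by
  classical
  let _i : Fintype (MulAction.orbitRel.Quotient G X) := Fintype.ofFinite _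
  obtain ⟨-, h2, -, -⟩ := squeeze_placesOver (ι := MulAction.orbitRel.Quotient G X) t c hfin hsum
    (fun ω => vP ω.out) (fun ω => Nat.card (MulAction.orbit G ω.out))
    (fun v hv => by
      obtain ⟨x, hx⟩ := hcov v hv
      exact ⟨Quotient.mk'' x, by rw [cc_const_on_orbit vP hinv _ x rfl, hx]⟩)
    (fun ω => ⟨hmem _, hbound _⟩)
    (by rw [cc_sum_card_orbits G X]; exact hdeg)
  have h := h2 (Quotient.mk'' x)
  rw [cc_const_on_orbit vP hinv _ x rfl] at h
  rw [h]
  have hout : (Quotient.mk'' x : MulAction.orbitRel.Quotient G X).out ∈ MulAction.orbit G x := by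
    have h1 : (Quotient.mk'' (Quotient.mk'' x : MulAction.orbitRel.Quotient G X).out :
        MulAction.orbitRel.Quotient G X) = Quotient.mk'' x := Quotient.out_eq' _
    exact Quotient.exact' h1
  rw [MulAction.orbit_eq_iff.mpr hout]

end Abstract

section Family

variable {K F : Type*} [Field K] [Field F] [Algebra K F]
variable (N : ℕ) [NeZero N]

/-- **Family form** (same hypotheses as `fc_ncard_placesOver_of_family`): the order of `t - c` at
`pt g` is the size of the `⟨s⟩`-orbit of the coset `g⁻¹ Γ₀(N)`. -/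
theorem ell90_family_ord_eq (t : F) (c : K) (s : SL(2, ℤ))
    (hsum : ∃ hfin : (placesOver K F t c).Finite,
      ∑ v ∈ hfin.toFinset, v.ord (t - algebraMap K F c) = (cdeg K F t : ℤ))
    (pt : SL(2, ℤ) → Place K F)
    (hleft : ∀ γ : SL(2, ℤ), γ ∈ Gamma0 N → ∀ g, pt (γ * g) = pt g)
    (hs : ∀ g, pt (g * s) = pt g)
    (hord : ∀ (g : SL(2, ℤ)) (w : ℕ), 0 < w → g * s ^ w * g⁻¹ ∈ Gamma0 N →
      (pt g).ord (t - algebraMap K F c) ≤ w)
    (hmem : ∀ g, pt g ∈ placesOver K F t c)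
    (hcov : ∀ v ∈ placesOver K F t c, ∃ g, v = pt g)
    (hdeg : Nat.card (Q N) ≤ cdeg K F t) (g : SL(2, ℤ)) :
    (pt g).ord (t - algebraMap K F c) =
      (Nat.card (MulAction.orbit (Subgroup.zpowers s) (((g⁻¹ : SL(2, ℤ)) : Q N))) : ℤ) := by
  classical
  obtain ⟨hfin, hsum⟩ := hsum
  have : Finite (Q N) := by
    have : (Gamma0 N).FiniteIndex := inferInstance
    exact Subgroup.finite_quotient_of_finiteIndex
  have hsz : ∀ (k : ℤ) (g : SL(2, ℤ)), pt (g * s ^ k) = pt g := fc_zpow_invariant pt s hs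
  let vP : Q N → Place K F := fun q => Quotient.liftOn' q (fun g => pt g⁻¹) (by
    intro a b hab
    have hab' : a⁻¹ * b ∈ Gamma0 N := QuotientGroup.leftRel_apply.mp hab
    have e : b⁻¹ = (a⁻¹ * b)⁻¹ * a⁻¹ := by group
    show pt a⁻¹ = pt b⁻¹
    rw [e, hleft _ ((Gamma0 N).inv_mem hab')])
  have hvP : ∀ g : SL(2, ℤ), vP ((g : SL(2, ℤ)) : Q N) = pt g⁻¹ := fun g => rfl
  have key := ell90_ord_eq_card_orbit (G := Subgroup.zpowers s) (X := Q N) t c hfin hsum vP
    ?_ ?_ ?_ ?_ hdeg (((g⁻¹ : SL(2, ℤ)) : Q N))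
  · rw [hvP, inv_inv] at key
    exact key
  · rintro ⟨z, hz⟩ q
    obtain ⟨k, rfl⟩ := Subgroup.mem_zpowers_iff.mp hz
    induction q using QuotientGroup.induction_on with
    | H g =>
      show vP ((s ^ k : SL(2, ℤ)) • ((g : SL(2, ℤ)) : Q N)) = _
      rw [smul_coset, hvP, hvP, mul_inv_rev, ← zpow_neg, hsz]
  · intro v hv
    obtain ⟨g, rfl⟩ := hcov v hv
    exact ⟨((g⁻¹ : SL(2, ℤ)) : Q N), by rw [hvP, inv_inv]⟩
  · intro q
    induction q using QuotientGroup.induction_on with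
    | H g => rw [hvP]; exact hmem _
  · intro q
    induction q using QuotientGroup.induction_on with
    | H g =>
      rw [hvP]
      set w := Nat.card (MulAction.orbit (Subgroup.zpowers s) ((g : SL(2, ℤ)) : Q N))
        with hw
      have hwpos : 0 < w := by
        have : Finite (MulAction.orbit (Subgroup.zpowers s)
            ((g : SL(2, ℤ)) : Q N)) := Set.toFinite _ |>.to_subtype
        have : Nonempty (MulAction.orbit (Subgroup.zpowers s)
            ((g : SL(2, ℤ)) : Q N)) := ⟨⟨_, MulAction.mem_orbit_self _⟩⟩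
        exact Nat.card_pos
      have hfix0 := cc_pow_card_orbit_smul s (((g : SL(2, ℤ)) : Q N))
      have hfix : (s ^ w : SL(2, ℤ)) • (((g : SL(2, ℤ)) : Q N)) = ((g : SL(2, ℤ)) : Q N) := hfix0
      rw [smul_coset] at hfix
      have hmemΓ : (s ^ w * g)⁻¹ * g ∈ Gamma0 N := QuotientGroup.eq.mp hfix
      have hmemΓ' : g⁻¹ * s ^ w * (g⁻¹)⁻¹ ∈ Gamma0 N := by
        have := (Gamma0 N).inv_mem hmemΓ
        have e : ((s ^ w * g)⁻¹ * g)⁻¹ = g⁻¹ * s ^ w * (g⁻¹)⁻¹ := by group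
        rwa [e] at this
      exact_mod_cast hord g⁻¹ w hwpos hmemΓ'

/-- an orbit of a cyclic group through a point moved by the generator has at least two points -/
theorem ell90_two_le_card_orbit (s : SL(2, ℤ)) (q : Q N) (hq : s • q ≠ q) :
    2 ≤ Nat.card (MulAction.orbit (Subgroup.zpowers s) q) := by
  have : Finite (MulAction.orbit (Subgroup.zpowers s) q) := Set.toFinite _ |>.to_subtype
  let a : MulAction.orbit (Subgroup.zpowers s) q := ⟨q, MulAction.mem_orbit_self _⟩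
  let b : MulAction.orbit (Subgroup.zpowers s) q :=
    ⟨s • q, ⟨⟨s, Subgroup.mem_zpowers s⟩, rfl⟩⟩
  have hab : a ≠ b := by
    intro h
    apply hq
    exact (congrArg Subtype.val h).symm
  have : Nontrivial (MulAction.orbit (Subgroup.zpowers s) q) := ⟨⟨a, b, hab⟩⟩
  exact Finite.one_lt_card

end Family

section Instances

variable (N : ℕ) [NeZero N]

/-- **Exact ramification over `1728`**: `ord_{vPt (g • i)} (j - 1728)` is the size of the
`⟨S⟩`-orbit of the coset `g⁻¹ Γ₀(N)`. -/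
theorem ell90_ord_1728 (g : SL(2, ℤ)) :
    (vPt N (g • UpperHalfPlane.I)).ord (jBar N - algebraMap Qbar (FBar N) 1728) =
      (Nat.card (MulAction.orbit (Subgroup.zpowers S) (((g⁻¹ : SL(2, ℤ)) : Q N))) : ℤ) := by
  have hτ₀ : jFun UpperHalfPlane.I = iotaQ 1728 := by rw [jFun_I, map_ofNat]
  have hn : holOrder (cfJ (iotaQ 1728)) UpperHalfPlane.I = (2 : ℕ) := by
    have := holOrder_jHol_sub_I
    have e : iotaQ (1728 : Qbar) = 1728 := map_ofNat iotaQ 1728
    rw [e]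
    exact this
  exact ell90_family_ord_eq N (jBar N) (1728 : Qbar) S
    ((rdn_cInputs N).sum_ord_placesOver 1728) ((rdn_cInputs N).pt UpperHalfPlane.I)
    ((rdn_cInputs N).hleft UpperHalfPlane.I) ((rdn_cInputs N).hs UpperHalfPlane.I S S_smul_I)
    (fc_ord_le_of_ram N 2 Nat.prime_two _ S ((rdn_cInputs N).pt UpperHalfPlane.I)
      ((rdn_cInputs N).oF UpperHalfPlane.I)
      ((rdn_cInputs N).hmul hτ₀)
      (fun g => by simpa using (rdn_cInputs N).hD UpperHalfPlane.I 1728 2 hn g)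
      (fun g hg f => by
        have := two_dvd_ordAt_of_invariant g ((rdn_cInputs N).evF f)
          ((rdn_cInputs N).evF_smul_of_mem_Gamma0 _ hg f)
        exact_mod_cast this)
      (fun g => by rw [os_S_sq]; exact cf_conj_neg_one_mem N g))
    ((rdn_cInputs N).hmem hτ₀) ((rdn_cInputs N).hcov hτ₀) (rdn_cInputs N).hdeg g

/-- **Exact ramification over `0`**: `ord_{vPt (g • ρ)} j` is the size of the `⟨ST⟩`-orbit of the
coset `g⁻¹ Γ₀(N)`. -/
theorem ell90_ord_zero (g : SL(2, ℤ)) :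
    (vPt N (g • rho)).ord (jBar N - algebraMap Qbar (FBar N) 0) =
      (Nat.card (MulAction.orbit (Subgroup.zpowers (S * T)) (((g⁻¹ : SL(2, ℤ)) : Q N))) : ℤ) := by
  have hτ₀ : jFun rho = iotaQ 0 := by rw [jFun_rho, map_zero]
  have hn : holOrder (cfJ (iotaQ 0)) rho = (3 : ℕ) := by
    have := holOrder_jHol_rho
    have e : cfJ (iotaQ (0 : Qbar)) = jHol := by unfold cfJ; rw [map_zero, map_zero, sub_zero]
    rw [e]
    exact this
  exact ell90_family_ord_eq N (jBar N) (0 : Qbar) (S * T)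
    ((rdn_cInputs N).sum_ord_placesOver 0) ((rdn_cInputs N).pt rho)
    ((rdn_cInputs N).hleft rho) ((rdn_cInputs N).hs rho (S * T) ST_smul_rho)
    (fc_ord_le_of_ram N 3 Nat.prime_three _ (S * T) ((rdn_cInputs N).pt rho)
      ((rdn_cInputs N).oF rho)
      ((rdn_cInputs N).hmul hτ₀)
      (fun g => by simpa using (rdn_cInputs N).hD rho 0 3 hn g)
      (fun g hg f => by
        have := three_dvd_ordAt_of_invariant g ((rdn_cInputs N).evF f)
          ((rdn_cInputs N).evF_smul_of_mem_Gamma0 _ hg f)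
        exact_mod_cast this)
      (fun g => by rw [os_ST_cube]; exact cf_conj_neg_one_mem N g))
    ((rdn_cInputs N).hmem hτ₀) ((rdn_cInputs N).hcov hτ₀) (rdn_cInputs N).hdeg g

omit [NeZero N] in
/-- the generator `s` moves the coset `g⁻¹ Γ₀(N)` unless `g s g⁻¹ ∈ Γ₀(N)` -/
theorem ell90_smul_coset_ne (s g : SL(2, ℤ)) (h : g * s * g⁻¹ ∉ Gamma0 N) :
    s • (((g⁻¹ : SL(2, ℤ)) : Q N)) ≠ ((g⁻¹ : SL(2, ℤ)) : Q N) := by
  intro heq
  apply h
  rw [smul_coset] at heq
  have h1 : (s * g⁻¹)⁻¹ * g⁻¹ ∈ Gamma0 N := QuotientGroup.eq.mp heq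
  have h2 := (Gamma0 N).inv_mem h1
  have e : ((s * g⁻¹)⁻¹ * g⁻¹)⁻¹ = g * s * g⁻¹ := by group
  rwa [e] at h2

end Instances

section Main

variable (N : ℕ) [NeZero N]

/-- `j(τ₁) = j(τ₂)` iff `τ₁`, `τ₂` are `SL(2,ℤ)`-equivalent (`X0N.kleinJ_eq_iff` for `jFun`). -/
theorem ell90_exists_smul_of_jFun_eq (τ₁ τ₂ : ℍ) (h : jFun τ₁ = jFun τ₂) :
    ∃ γ : SL(2, ℤ), γ • τ₁ = τ₂ :=
  (Fermat.Agent.X0N.kleinJ_eq_iff τ₁ τ₂).mp h

/-- at `g • i` with `g S g⁻¹ ∉ Γ₀(N)` the dictionary multiplier is `1`. -/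
theorem ell90_mult_eq_one_1728 (g : SL(2, ℤ)) (hg : g * S * g⁻¹ ∉ Gamma0 N) (m : ℕ)
    (hm : ∀ f : FBar N, ordAt (g • UpperHalfPlane.I) (evF N f)
      = m * (vPt N (g • UpperHalfPlane.I)).ord f) : m = 1 := by
  have h1 := hm (jBar N - algebraMap Qbar (FBar N) 1728)
  have hj : jFun (g • UpperHalfPlane.I) = 1728 := by rw [jFun_smul, jFun_I]
  rw [ordAt_evF_jBar_sub, map_ofNat] at h1
  have h2 : holOrdZ (jHol - algebraMap ℂ Hol 1728) (g • UpperHalfPlane.I) = 2 := by
    unfold holOrdZ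
    rw [holOrder_jHol_sub_of_jFun_eq_1728 _ hj]
    rfl
  rw [h2, ell90_ord_1728] at h1
  have h3 := ell90_two_le_card_orbit N S _ (ell90_smul_coset_ne N S g hg)
  have h3' : (2 : ℤ) ≤ (Nat.card (MulAction.orbit (Subgroup.zpowers S)
      (((g⁻¹ : SL(2, ℤ)) : Q N))) : ℤ) := by exact_mod_cast h3
  have hm0 : (0 : ℤ) ≤ m := Int.natCast_nonneg _
  have : (m : ℤ) = 1 := by nlinarith
  exact_mod_cast this

/-- at `g • ρ` with `g (ST) g⁻¹ ∉ Γ₀(N)` the dictionary multiplier is `1`. -/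
theorem ell90_mult_eq_one_zero (g : SL(2, ℤ)) (hg : g * (S * T) * g⁻¹ ∉ Gamma0 N) (m : ℕ)
    (hm : ∀ f : FBar N, ordAt (g • rho) (evF N f) = m * (vPt N (g • rho)).ord f) : m = 1 := by
  have h1 := hm (jBar N - algebraMap Qbar (FBar N) 0)
  have hj : jFun (g • rho) = 0 := by rw [jFun_smul, jFun_rho]
  rw [ordAt_evF_jBar_sub, map_zero, map_zero, sub_zero] at h1
  have h2 : holOrdZ jHol (g • rho) = 3 := by
    unfold holOrdZ
    rw [holOrder_jHol_of_jFun_eq_zero _ hj]
    rfl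
  rw [h2, ell90_ord_zero] at h1
  have h3 := ell90_two_le_card_orbit N (S * T) _ (ell90_smul_coset_ne N (S * T) g hg)
  have h3' : (2 : ℤ) ≤ (Nat.card (MulAction.orbit (Subgroup.zpowers (S * T))
      (((g⁻¹ : SL(2, ℤ)) : Q N))) : ℤ) := by exact_mod_cast h3
  have hm0 : (0 : ℤ) ≤ m := Int.natCast_nonneg _
  set k : ℤ := (Nat.card (MulAction.orbit (Subgroup.zpowers (S * T))
      (((g⁻¹ : SL(2, ℤ)) : Q N))) : ℤ) with hk
  have hk3 : k ≤ 3 := by
    by_contra hcon
    have hcon' : 3 < k := not_le.mp hcon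
    have hmpos : 1 ≤ (m : ℤ) := by
      by_contra hcon2
      have hcon2' : (m : ℤ) < 1 := not_le.mp hcon2
      have : (m : ℤ) = 0 := by omega
      rw [this, zero_mul] at h1
      omega
    nlinarith
  have : (m : ℤ) = 1 := by
    have hk2 : k = 2 ∨ k = 3 := by omega
    rcases hk2 with hk2 | hk2
    · rw [hk2] at h1; omega
    · rw [hk2] at h1; omega
  exact_mod_cast this

omit [NeZero N] in
/-- conjugates of `S` have finite order -/
theorem ell90_isOfFinOrder_conj_S (α : SL(2, ℤ)) : IsOfFinOrder (α * S * α⁻¹) := by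
  rw [isOfFinOrder_iff_pow_eq_one]
  refine ⟨4, by norm_num, ?_⟩
  rw [conj_pow, show (4 : ℕ) = 2 * 2 from rfl, pow_mul, os_S_sq, neg_one_sq, mul_one,
    mul_inv_cancel]

omit [NeZero N] in
/-- conjugates of `S T` have finite order -/
theorem ell90_isOfFinOrder_conj_ST (α : SL(2, ℤ)) : IsOfFinOrder (α * (S * T) * α⁻¹) := by
  rw [isOfFinOrder_iff_pow_eq_one]
  refine ⟨6, by norm_num, ?_⟩
  rw [conj_pow, show (6 : ℕ) = 3 * 2 from rfl, pow_mul, os_ST_cube, neg_one_sq, mul_one,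
    mul_inv_cancel]

/-- **ELL-EXACT (core).**  If `ord_τ ∘ evF = m · ord_{vPt τ}` then `m` divides `ord_τ x` for every
`x : Mer` invariant under the finite-order elements of `Γ₀(N)` fixing `τ`. -/
theorem ell90_dvd_ordAt_core (τ : ℍ) {c : Qbar} (hτ : jFun τ = iotaQ c) (m : ℕ)
    (hm : ∀ f : FBar N, ordAt τ (evF N f) = m * (vPt N τ).ord f) (x : Mer)
    (hx : ∀ γ : SL(2, ℤ), γ ∈ Gamma0 N → γ • τ = τ → IsOfFinOrder γ → γ • x = x) :
    (m : ℤ) ∣ ordAt τ x := by
  have h1 := hm (jBar N - algebraMap Qbar (FBar N) c)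
  rw [ordAt_evF_jBar_sub, ← hτ] at h1
  have hdvd : (m : ℤ) ∣ holOrdZ (jHol - algebraMap ℂ Hol (jFun τ)) τ := ⟨_, h1⟩
  by_cases h0 : jFun τ = 0
  · -- the orbit of `ρ`
    obtain ⟨α, rfl⟩ := ell90_exists_smul_of_jFun_eq rho τ (by rw [jFun_rho, h0])
    by_cases hmem : α * (S * T) * α⁻¹ ∈ Gamma0 N
    · have h3 : (3 : ℤ) ∣ ordAt (α • rho) x :=
        three_dvd_ordAt_of_invariant α x (hx _ hmem (es_conj_smul α _ _ ST_smul_rho)
          (ell90_isOfFinOrder_conj_ST α))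
      have hm3 : (m : ℤ) ∣ 3 := by
        have e : holOrdZ (jHol - algebraMap ℂ Hol (jFun (α • rho))) (α • rho) = 3 := by
          unfold holOrdZ
          rw [h0, map_zero, sub_zero, holOrder_jHol_of_jFun_eq_zero _ h0]
          rfl
        rwa [e] at hdvd
      exact dvd_trans hm3 h3
    · rw [ell90_mult_eq_one_zero N α hmem m hm]
      exact one_dvd _
  · by_cases h1728 : jFun τ = 1728
    · obtain ⟨α, rfl⟩ := ell90_exists_smul_of_jFun_eq UpperHalfPlane.I τ (by rw [jFun_I, h1728])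
      by_cases hmem : α * S * α⁻¹ ∈ Gamma0 N
      · have h2 : (2 : ℤ) ∣ ordAt (α • UpperHalfPlane.I) x :=
          two_dvd_ordAt_of_invariant α x (hx _ hmem (es_conj_smul α _ _ S_smul_I)
            (ell90_isOfFinOrder_conj_S α))
        have hm2 : (m : ℤ) ∣ 2 := by
          have e : holOrdZ (jHol - algebraMap ℂ Hol (jFun (α • UpperHalfPlane.I)))
              (α • UpperHalfPlane.I) = 2 := by
            unfold holOrdZ
            rw [h1728, holOrder_jHol_sub_of_jFun_eq_1728 _ h1728]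
            rfl
          rwa [e] at hdvd
        exact dvd_trans hm2 h2
      · rw [ell90_mult_eq_one_1728 N α hmem m hm]
        exact one_dvd _
    · have e : holOrdZ (jHol - algebraMap ℂ Hol (jFun τ)) τ = 1 := by
        unfold holOrdZ
        rw [holOrder_jHol_sub_generic τ h0 h1728]
        rfl
      rw [e] at hdvd
      exact dvd_trans hdvd (one_dvd _)

/-- **ELL-EXACT**, stabiliser form. -/
theorem ell90_dvd_ordAt (τ : ℍ) {c : Qbar} (hτ : jFun τ = iotaQ c) (m : ℕ)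
    (hm : ∀ f : FBar N, ordAt τ (evF N f) = m * (vPt N τ).ord f) (x : Mer)
    (hx : ∀ γ : SL(2, ℤ), γ ∈ Gamma0 N → γ • τ = τ → γ • x = x) : (m : ℤ) ∣ ordAt τ x :=
  ell90_dvd_ordAt_core N τ hτ m hm x (fun γ hγ hfix _ => hx γ hγ hfix)

/-- **ELL-EXACT**, finite-order form. -/
theorem ell90_dvd_ordAt_of_finOrder (τ : ℍ) {c : Qbar} (hτ : jFun τ = iotaQ c) (m : ℕ)
    (hm : ∀ f : FBar N, ordAt τ (evF N f) = m * (vPt N τ).ord f) (x : Mer)
    (hx : ∀ γ : SL(2, ℤ), γ ∈ Gamma0 N → IsOfFinOrder γ → γ • x = x) : (m : ℤ) ∣ ordAt τ x :=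
  ell90_dvd_ordAt_core N τ hτ m hm x (fun γ hγ _ hfin => hx γ hγ hfin)

/-- `ord_τ` of a power. -/
theorem ell90_ordAt_pow (τ : ℍ) {x : Mer} (hx : x ≠ 0) (n : ℕ) :
    ordAt τ (x ^ n) = n * ordAt τ x := by
  induction n with
  | zero =>
    have := ordAt_const τ 1
    rw [map_one] at this
    simp [this]
  | succ n ih =>
    rw [pow_succ, ordAt_mul τ (pow_ne_zero n hx) hx, ih]
    push_cast
    ring

/-- **point half of R5c for ARBITRARY `p > 0`**: `p ∣ ord_{vPt τ} f` when `evF f = h ^ p` with `h`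
invariant under the finite-order elements of `Γ₀(N)`. -/
theorem ell90_dvd_ord_point {p : ℕ} (hp : 0 < p) (τ : ℍ) {c : Qbar} (hτ : jFun τ = iotaQ c)
    (f : FBar N) (hf : f ≠ 0) (h : Mer) (hpow : h ^ p = evF N f)
    (hinv : ∀ γ : SL(2, ℤ), γ ∈ Gamma0 N → IsOfFinOrder γ → γ • h = h) :
    (p : ℤ) ∣ (vPt N τ).ord f := by
  obtain ⟨m, hm0, hall⟩ := exists_ordAt_eq_mul_vPt_ord N τ hτ
  obtain ⟨k, hk⟩ := ell90_dvd_ordAt_of_finOrder N τ hτ m hall h hinv
  have hev : evF N f ≠ 0 := (map_ne_zero (evF N)).mpr hf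
  have hh : h ≠ 0 := by
    rintro rfl
    rw [zero_pow hp.ne'] at hpow
    exact hev hpow.symm
  have h2 : (p : ℤ) * ordAt τ h = (m : ℤ) * (vPt N τ).ord f := by
    rw [← hall f, ← hpow, ell90_ordAt_pow τ hh]
  rw [hk] at h2
  have hm0' : (m : ℤ) ≠ 0 := by exact_mod_cast hm0.ne'
  refine ⟨k, ?_⟩
  apply mul_left_cancel₀ hm0'
  rw [← h2]
  ring

/-- **point half, all finite places**: `p ∣ ord_v f` at every place `v` over a finite value of
`j`. -/
theorem ell90_dvd_ord_placesOver {p : ℕ} (hp : 0 < p) (f : FBar N) (hf : f ≠ 0) (h : Mer)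
    (hpow : h ^ p = evF N f)
    (hinv : ∀ γ : SL(2, ℤ), γ ∈ Gamma0 N → IsOfFinOrder γ → γ • h = h)
    (c : Qbar) (v : Place Qbar (FBar N))
    (hv : v ∈ placesOver Qbar (FBar N) (jBar N) c) : (p : ℤ) ∣ v.ord f := by
  obtain ⟨τ₀, hτ₀⟩ := jFun_surjective (iotaQ c)
  obtain ⟨g, rfl⟩ := covering_finite N c τ₀ hτ₀ v hv
  have hτ : jFun (g • τ₀) = iotaQ c := by rw [jFun_smul, hτ₀]
  exact ell90_dvd_ord_point N hp (g • τ₀) hτ f hf h hpow hinv

end Main

end Fermat.Agent.S42x
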