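/-
S42 project, block B1 (Eisenstein series with a character), leaf (b): the CHARACTER LAYER.
(helper16, prefix `twc_`, Mathlib only.)

For a character `ψ : Γ₀(M) →* ℂˣ` which is trivial on the matrices of `Γ₀(M)` whose lower-left entry
vanishes (`± T^n`), the value `ψ γ` only depends on the bottom row of `γ`.  This gives a coefficient
function `twc_coeff ψ : (Fin 2 → ℤ) → ℂ` supported on the bottom rows of `Γ₀(M)` (coprime pairs
`(c, d)` with `M ∣ c`) with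
  `twc_coeff ψ (w ᵥ* γ⁻¹) = ψ γ * twc_coeff ψ w`        (`γ ∈ Γ₀(M)`),
which is the only input needed to turn the generic twisted lattice sums of `TwEis.lean` into an
Eisenstein series with character `ψ`.
-/
import Mathlib

set_option autoImplicit false

namespace Fermat.Agent.S42x

open Matrix CongruenceSubgroup
open scoped MatrixGroups

/-- the bottom rows of `Γ₀(M)`: coprime pairs `(c, d)` with `M ∣ c`. -/
def twc_rows (M : ℕ) : Set (Fin 2 → ℤ) := {v | IsCoprime (v 0) (v 1) ∧ (M : ℤ) ∣ v 0}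

/-- the bottom row of a matrix. -/
def twc_row (g : SL(2, ℤ)) : Fin 2 → ℤ := (g : Matrix (Fin 2) (Fin 2) ℤ) 1

@[simp] theorem twc_row_zero (g : SL(2, ℤ)) : twc_row g 0 = g 1 0 := rfl

@[simp] theorem twc_row_one (g : SL(2, ℤ)) : twc_row g 1 = g 1 1 := rfl

theorem twc_row_mul (g h : SL(2, ℤ)) : twc_row (g * h) = twc_row g ᵥ* (h : Matrix (Fin 2) (Fin 2) ℤ) := by
  unfold twc_row
  rw [Matrix.SpecialLinearGroup.coe_mul, Matrix.mul_apply_eq_vecMul]

theorem twc_mem_Gamma0_iff (M : ℕ) (g : SL(2, ℤ)) : g ∈ Gamma0 M ↔ (M : ℤ) ∣ g 1 0 := by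
  rw [Gamma0_mem, ZMod.intCast_zmod_eq_zero_iff_dvd]

theorem twc_row_isCoprime (g : SL(2, ℤ)) : IsCoprime (g 1 0) (g 1 1) := by
  have hdet := g.det_coe
  rw [Matrix.det_fin_two] at hdet
  exact ⟨-(g 0 1), g 0 0, by linarith⟩

theorem twc_row_mem_rows {M : ℕ} {g : SL(2, ℤ)} (hg : g ∈ Gamma0 M) : twc_row g ∈ twc_rows M :=
  ⟨twc_row_isCoprime g, (twc_mem_Gamma0_iff M g).mp hg⟩

/-- every bottom row is the bottom row of a matrix of `Γ₀(M)`. -/
theorem twc_exists_mat {M : ℕ} {v : Fin 2 → ℤ} (hv : v ∈ twc_rows M) :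
    ∃ g : Gamma0 M, twc_row (g : SL(2, ℤ)) = v := by
  obtain ⟨g, hg0, hg1⟩ := hv.1.exists_SL2_row 1
  have hmem : g ∈ Gamma0 M := by
    rw [twc_mem_Gamma0_iff, hg0]
    exact hv.2
  refine ⟨⟨g, hmem⟩, ?_⟩
  funext i
  fin_cases i
  · exact hg0
  · exact hg1

/-- two matrices with the same bottom row differ by a matrix with vanishing lower-left entry. -/
theorem twc_mul_inv_lower_left {g h : SL(2, ℤ)} (hrow : twc_row g = twc_row h) :
    (g * h⁻¹) 1 0 = 0 := by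
  have h0 : g 1 0 = h 1 0 := congrFun hrow 0
  have h1 : g 1 1 = h 1 1 := congrFun hrow 1
  rw [Matrix.SpecialLinearGroup.SL2_inv_expl h]
  simp only [Matrix.SpecialLinearGroup.coe_mul, Matrix.mul_apply, Fin.sum_univ_two]
  simp [h0, h1]
  ring

section Character

variable {M : ℕ} (ψ : ↥(Gamma0 M) →* ℂˣ)

/-- `ψ` is trivial on the matrices of `Γ₀(M)` with vanishing lower-left entry (`± T^n`). -/
def twc_TrivUnip : Prop := ∀ g : Gamma0 M, (g : SL(2, ℤ)) 1 0 = 0 → ψ g = 1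

/-- `ψ` takes values of absolute value one. -/
def twc_Unitary : Prop := ∀ g : Gamma0 M, ‖((ψ g : ℂˣ) : ℂ)‖ = 1

variable {ψ}

/-- `ψ γ` only depends on the bottom row of `γ`. -/
theorem twc_psi_eq_of_row_eq (hT : twc_TrivUnip ψ) {g h : Gamma0 M}
    (hrow : twc_row (g : SL(2, ℤ)) = twc_row (h : SL(2, ℤ))) : ψ g = ψ h := by
  have h1 : ψ (g * h⁻¹) = 1 := by
    apply hT
    have := twc_mul_inv_lower_left hrow
    simpa using this
  rw [map_mul, map_inv, mul_inv_eq_one] at h1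
  exact h1

open scoped Classical in
variable (ψ) in
/-- the value of `ψ` on (any matrix of `Γ₀(M)` with) a given bottom row; `1` off `twc_rows M`. -/
noncomputable def twc_psiRow (v : Fin 2 → ℤ) : ℂˣ :=
  if hv : v ∈ twc_rows M then ψ (twc_exists_mat hv).choose else 1

theorem twc_psiRow_row (hT : twc_TrivUnip ψ) (g : Gamma0 M) :
    twc_psiRow ψ (twc_row (g : SL(2, ℤ))) = ψ g := by
  have hv : twc_row (g : SL(2, ℤ)) ∈ twc_rows M := twc_row_mem_rows g.2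
  unfold twc_psiRow
  rw [dif_pos hv]
  exact twc_psi_eq_of_row_eq hT (twc_exists_mat hv).choose_spec

open scoped Classical in
variable (ψ) in
/-- the coefficient function of the Eisenstein series with character `ψ`. -/
noncomputable def twc_coeff (v : Fin 2 → ℤ) : ℂ :=
  if v ∈ twc_rows M then (((twc_psiRow ψ v)⁻¹ : ℂˣ) : ℂ) else 0

theorem twc_coeff_of_notMem {v : Fin 2 → ℤ} (hv : v ∉ twc_rows M) : twc_coeff ψ v = 0 := by
  unfold twc_coeff
  rw [if_neg hv]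

theorem twc_coeff_row (hT : twc_TrivUnip ψ) (g : Gamma0 M) :
    twc_coeff ψ (twc_row (g : SL(2, ℤ))) = (((ψ g)⁻¹ : ℂˣ) : ℂ) := by
  unfold twc_coeff
  rw [if_pos (twc_row_mem_rows g.2), twc_psiRow_row hT]

theorem twc_norm_coeff_le (hT : twc_TrivUnip ψ) (hU : twc_Unitary ψ) (v : Fin 2 → ℤ) :
    ‖twc_coeff ψ v‖ ≤ 1 := by
  by_cases hv : v ∈ twc_rows M
  · obtain ⟨g, rfl⟩ := twc_exists_mat hv
    rw [twc_coeff_row hT, Units.val_inv_eq_inv_val, norm_inv, hU g, inv_one]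
  · rw [twc_coeff_of_notMem hv, norm_zero]
    exact zero_le_one

/-- `Γ₀(M)` permutes the bottom rows. -/
theorem twc_vecMul_mem_rows_iff (g : Gamma0 M) (w : Fin 2 → ℤ) :
    w ᵥ* ((g : SL(2, ℤ)) : Matrix (Fin 2) (Fin 2) ℤ) ∈ twc_rows M ↔ w ∈ twc_rows M := by
  have key : ∀ (g : Gamma0 M) (w : Fin 2 → ℤ), w ∈ twc_rows M →
      w ᵥ* ((g : SL(2, ℤ)) : Matrix (Fin 2) (Fin 2) ℤ) ∈ twc_rows M := by
    intro g w hw
    obtain ⟨h, rfl⟩ := twc_exists_mat hw
    rw [← twc_row_mul]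
    exact twc_row_mem_rows (Subgroup.mul_mem _ h.2 g.2)
  refine ⟨fun h => ?_, key g w⟩
  have h2 := key g⁻¹ _ h
  rwa [Matrix.vecMul_vecMul, Subgroup.coe_inv, ← Matrix.SpecialLinearGroup.coe_mul,
    mul_inv_cancel, Matrix.SpecialLinearGroup.coe_one, Matrix.vecMul_one] at h2

/-- **THE identity**: `c_ψ (w ᵥ* γ⁻¹) = ψ γ * c_ψ w` for `γ ∈ Γ₀(M)`. -/
theorem twc_coeff_vecMul_inv (hT : twc_TrivUnip ψ) (g : Gamma0 M) (w : Fin 2 → ℤ) :
    twc_coeff ψ (w ᵥ* (((g : SL(2, ℤ))⁻¹ : SL(2, ℤ)) : Matrix (Fin 2) (Fin 2) ℤ)) =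
      ((ψ g : ℂˣ) : ℂ) * twc_coeff ψ w := by
  by_cases hw : w ∈ twc_rows M
  · obtain ⟨h, rfl⟩ := twc_exists_mat hw
    have e : twc_row (h : SL(2, ℤ)) ᵥ* (((g : SL(2, ℤ))⁻¹ : SL(2, ℤ)) : Matrix (Fin 2) (Fin 2) ℤ) =
        twc_row (((h * g⁻¹ : Gamma0 M)) : SL(2, ℤ)) := by
      rw [Subgroup.coe_mul, Subgroup.coe_inv, twc_row_mul]
    rw [e, twc_coeff_row hT, twc_coeff_row hT, map_mul, map_inv, mul_inv, inv_inv, mul_comm,
      Units.val_mul]
  · have hw' : w ᵥ* (((g : SL(2, ℤ))⁻¹ : SL(2, ℤ)) : Matrix (Fin 2) (Fin 2) ℤ) ∉ twc_rows M := by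
      intro h
      apply hw
      have := (twc_vecMul_mem_rows_iff g⁻¹ w).mp (by simpa using h)
      exact this
    rw [twc_coeff_of_notMem hw, twc_coeff_of_notMem hw', mul_zero]

/-- the bottom rows with vanishing first entry are `(0, 1)` and `(0, -1)`. -/
theorem twc_rows_zero_iff {v : Fin 2 → ℤ} (h0 : v 0 = 0) :
    v ∈ twc_rows M ↔ v 1 = 1 ∨ v 1 = -1 := by
  unfold twc_rows
  simp only [Set.mem_ofPred_eq, h0, dvd_zero, and_true]
  rw [isCoprime_zero_left, Int.isUnit_iff]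

/-- on the rows `(0, ± 1)` the coefficient is `1`. -/
theorem twc_coeff_of_zero (hT : twc_TrivUnip ψ) {v : Fin 2 → ℤ} (h0 : v 0 = 0)
    (hv : v ∈ twc_rows M) : twc_coeff ψ v = 1 := by
  obtain ⟨g, rfl⟩ := twc_exists_mat hv
  rw [twc_coeff_row hT, hT g h0, inv_one, Units.val_one]

end Character

end Fermat.Agent.S42x
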