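/-
S42 project, block B1 (Eisenstein series with a character), leaf B1.5 PSI-CHI
(helper12, prefix `twp_`).

For a homomorphism `χ : Additive Γ →+ ℤ` (`Γ = Γ₀(M)`, or any subgroup of `SL(2,ℤ)`) the character
  `ψ_χ := exp(2 π i χ / p)`,
both as a monoid hom `Γ →* ℂˣ` (`twp_psi`, the shape of `TwEisChar`) and as an additive hom
`Additive Γ →+ Additive ℂˣ` (`twp_psiAdd`, the shape of `heq_Rel`).

* `twp_psi_apply`, `twp_psi_coe` (explicit exponential), `twp_psiAdd_toMul`;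
* `twp_norm_psi`, `twp_unitary` : absolute value one;
* `twp_psi_pow`, `twp_psi_coe_pow` : `ψ_χ ^ p = 1`;
* `twp_psi_add`, `twp_psi_zero`, `twp_psi_neg`, `twp_psi_sub`, `twp_psi_nsmul`, `twp_psi_zsmul`;
* `twp_psi_apply_eq_one_iff`, `twp_psi_eq_one_iff` : `ψ_χ = 1 ↔ ∀ γ, p ∣ χ γ`;
  `twp_psi_eq_iff` : `ψ_χ = ψ_χ' ↔ ∀ γ, p ∣ χ γ - χ' γ`;
  `twp_exists_div` : if `p ∣ χ γ` for all `γ` then `χ = p • χ'` (`χ'` parabolic if `χ` is);
  `twp_psi_eq_one_iff_mem` : `ψ_χ = 1 ↔ χ ∈ p • parabolicHoms` for parabolic `χ`;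
* for PARABOLIC `χ` (`ModularCurve.Period.IsParabolicHom`):
  `twp_psi_of_trace` (`ψ_χ γ = 1` if `(tr γ)² = 4`), `twp_psi_of_lower_left`
  (`ψ_χ γ = 1` if `γ 1 0 = 0`), `twp_trivUnip : twc_TrivUnip (twp_psi p χ)`,
  `twp_psi_conj_T_zpow` (`ψ_χ (A Tⁿ A⁻¹) = 1`), `twp_psi_conj_of_trace`.
-/
import Mathlib
import Fermat.Prelude.Def_ModularCurve_PeriodMap
import Fermat.Agent.S42x.TwEisChar

set_option autoImplicit false

namespace Fermat.Agent.S42x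

open CongruenceSubgroup ModularCurve.Period
open scoped MatrixGroups Real

noncomputable section

/-! ### the root of unity `exp(2 π i / p)` -/

/-- `ζ_p = exp(2 π i / p)` as a unit of `ℂ` -/
def twp_zeta (p : ℕ) : ℂˣ :=
  Units.mk0 (Complex.exp (2 * π * Complex.I / p)) (Complex.exp_ne_zero _)

theorem twp_zeta_coe (p : ℕ) :
    ((twp_zeta p : ℂˣ) : ℂ) = Complex.exp (2 * π * Complex.I / p) := rfl

/-- `e_p(n) = exp(2 π i n / p)` as a unit of `ℂ` -/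
def twp_ep (p : ℕ) (n : ℤ) : ℂˣ := twp_zeta p ^ n

theorem twp_ep_def (p : ℕ) (n : ℤ) : twp_ep p n = twp_zeta p ^ n := rfl

theorem twp_ep_coe (p : ℕ) (n : ℤ) :
    ((twp_ep p n : ℂˣ) : ℂ) = Complex.exp (2 * π * Complex.I * n / p) := by
  rw [twp_ep, Units.val_zpow_eq_zpow_val, twp_zeta_coe, ← Complex.exp_int_mul]
  congr 1
  ring

@[simp] theorem twp_ep_zero (p : ℕ) : twp_ep p 0 = 1 := zpow_zero _

theorem twp_ep_add (p : ℕ) (m n : ℤ) : twp_ep p (m + n) = twp_ep p m * twp_ep p n :=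
  zpow_add _ _ _

theorem twp_ep_neg (p : ℕ) (n : ℤ) : twp_ep p (-n) = (twp_ep p n)⁻¹ := zpow_neg _ _

theorem twp_ep_sub (p : ℕ) (m n : ℤ) : twp_ep p (m - n) = twp_ep p m / twp_ep p n :=
  zpow_sub _ _ _

theorem twp_ep_mul (p : ℕ) (m n : ℤ) : twp_ep p (m * n) = twp_ep p m ^ n := zpow_mul _ _ _

theorem twp_norm_zeta (p : ℕ) : ‖((twp_zeta p : ℂˣ) : ℂ)‖ = 1 := by
  rw [twp_zeta_coe, Complex.norm_exp]
  simp

theorem twp_norm_ep (p : ℕ) (n : ℤ) : ‖((twp_ep p n : ℂˣ) : ℂ)‖ = 1 := by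
  rw [twp_ep, Units.val_zpow_eq_zpow_val, norm_zpow, twp_norm_zeta, one_zpow]

theorem twp_zeta_pow (p : ℕ) : twp_zeta p ^ p = 1 := by
  rcases Nat.eq_zero_or_pos p with rfl | hp
  · exact pow_zero _
  · apply Units.ext
    rw [Units.val_pow_eq_pow_val, twp_zeta_coe, Units.val_one]
    exact (Complex.isPrimitiveRoot_exp p hp.ne').pow_eq_one

theorem twp_zeta_isPrimitiveRoot {p : ℕ} (hp : p ≠ 0) : IsPrimitiveRoot (twp_zeta p) p := by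
  have h := Complex.isPrimitiveRoot_exp p hp
  rw [← twp_zeta_coe] at h
  exact IsPrimitiveRoot.of_map_of_injective (f := Units.coeHom ℂ) h (fun _ _ h => Units.ext h)

theorem twp_ep_pow (p : ℕ) (n : ℤ) : twp_ep p n ^ p = 1 := by
  rw [twp_ep, ← zpow_natCast, zpow_comm, zpow_natCast, twp_zeta_pow, one_zpow]

theorem twp_ep_eq_one_iff {p : ℕ} (hp : p ≠ 0) (n : ℤ) : twp_ep p n = 1 ↔ (p : ℤ) ∣ n :=
  (twp_zeta_isPrimitiveRoot hp).zpow_eq_one_iff_dvd n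

theorem twp_ep_eq_iff {p : ℕ} (hp : p ≠ 0) (m n : ℤ) :
    twp_ep p m = twp_ep p n ↔ (p : ℤ) ∣ m - n := by
  rw [← twp_ep_eq_one_iff hp, twp_ep_sub, div_eq_one]

/-! ### the character `ψ_χ` -/

variable {Γ : Subgroup SL(2, ℤ)}

/-- `ψ_χ = exp(2 π i χ / p) : Γ →* ℂˣ` -/
def twp_psi (p : ℕ) (χ : Additive Γ →+ ℤ) : Γ →* ℂˣ where
  toFun g := twp_ep p (χ (Additive.ofMul g))
  map_one' := by
    show twp_ep p (χ 0) = 1
    rw [map_zero, twp_ep_zero]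
  map_mul' g h := by
    show twp_ep p (χ (Additive.ofMul g + Additive.ofMul h)) = _
    rw [map_add, twp_ep_add]

/-- `ψ_χ` in the additive shape of `heq_Rel` -/
def twp_psiAdd (p : ℕ) (χ : Additive Γ →+ ℤ) : Additive Γ →+ Additive ℂˣ :=
  MonoidHom.toAdditive (twp_psi p χ)

theorem twp_psi_apply (p : ℕ) (χ : Additive Γ →+ ℤ) (g : Γ) :
    twp_psi p χ g = twp_ep p (χ (Additive.ofMul g)) := rfl

theorem twp_psi_apply_zpow (p : ℕ) (χ : Additive Γ →+ ℤ) (g : Γ) :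
    twp_psi p χ g = twp_zeta p ^ χ (Additive.ofMul g) := rfl

theorem twp_psi_coe (p : ℕ) (χ : Additive Γ →+ ℤ) (g : Γ) :
    ((twp_psi p χ g : ℂˣ) : ℂ) =
      Complex.exp (2 * π * Complex.I * (χ (Additive.ofMul g) : ℤ) / p) := by
  rw [twp_psi_apply, twp_ep_coe]

theorem twp_psiAdd_toMul (p : ℕ) (χ : Additive Γ →+ ℤ) (g : Γ) :
    (twp_psiAdd p χ (Additive.ofMul g)).toMul = twp_psi p χ g := rfl

theorem twp_psiAdd_apply (p : ℕ) (χ : Additive Γ →+ ℤ) (a : Additive Γ) :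
    twp_psiAdd p χ a = Additive.ofMul (twp_psi p χ (Additive.toMul a)) := rfl

theorem twp_psiAdd_coe (p : ℕ) (χ : Additive Γ →+ ℤ) (g : Γ) :
    (((twp_psiAdd p χ (Additive.ofMul g)).toMul : ℂˣ) : ℂ) =
      Complex.exp (2 * π * Complex.I * (χ (Additive.ofMul g) : ℤ) / p) :=
  twp_psi_coe p χ g

/-! ### absolute value one, `p`-th power one -/

theorem twp_norm_psi (p : ℕ) (χ : Additive Γ →+ ℤ) (g : Γ) :
    ‖((twp_psi p χ g : ℂˣ) : ℂ)‖ = 1 :=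
  twp_norm_ep p _

theorem twp_psi_pow (p : ℕ) (χ : Additive Γ →+ ℤ) (g : Γ) : twp_psi p χ g ^ p = 1 :=
  twp_ep_pow p _

theorem twp_psi_coe_pow (p : ℕ) (χ : Additive Γ →+ ℤ) (g : Γ) :
    ((twp_psi p χ g : ℂˣ) : ℂ) ^ p = 1 := by
  rw [← Units.val_pow_eq_pow_val, twp_psi_pow, Units.val_one]

theorem twp_psi_pow_eq_one (p : ℕ) (χ : Additive Γ →+ ℤ) : twp_psi p χ ^ p = 1 := by
  ext g
  rw [MonoidHom.pow_apply, twp_psi_pow, MonoidHom.one_apply]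

theorem twp_psi_mem_rootsOfUnity (p : ℕ) (χ : Additive Γ →+ ℤ) (g : Γ) :
    twp_psi p χ g ∈ rootsOfUnity p ℂ :=
  (mem_rootsOfUnity p _).2 (twp_psi_pow p χ g)

/-! ### additivity in `χ` -/

@[simp] theorem twp_psi_zero (p : ℕ) : twp_psi p (0 : Additive Γ →+ ℤ) = 1 := by
  ext g
  rw [twp_psi_apply, AddMonoidHom.zero_apply, twp_ep_zero, MonoidHom.one_apply]

theorem twp_psi_add (p : ℕ) (χ χ' : Additive Γ →+ ℤ) :
    twp_psi p (χ + χ') = twp_psi p χ * twp_psi p χ' := by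
  ext g
  rw [MonoidHom.mul_apply, twp_psi_apply, twp_psi_apply, twp_psi_apply, AddMonoidHom.add_apply,
    twp_ep_add]

theorem twp_psi_neg (p : ℕ) (χ : Additive Γ →+ ℤ) : twp_psi p (-χ) = (twp_psi p χ)⁻¹ := by
  ext g
  rw [MonoidHom.inv_apply, twp_psi_apply, twp_psi_apply, AddMonoidHom.neg_apply, twp_ep_neg]

theorem twp_psi_sub (p : ℕ) (χ χ' : Additive Γ →+ ℤ) :
    twp_psi p (χ - χ') = twp_psi p χ / twp_psi p χ' := by
  ext g
  rw [MonoidHom.div_apply, twp_psi_apply, twp_psi_apply, twp_psi_apply, AddMonoidHom.sub_apply,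
    twp_ep_sub]

theorem twp_psi_nsmul (p : ℕ) (n : ℕ) (χ : Additive Γ →+ ℤ) :
    twp_psi p (n • χ) = twp_psi p χ ^ n := by
  ext g
  rw [MonoidHom.pow_apply, twp_psi_apply, twp_psi_apply]
  show ((twp_ep p (n • χ (Additive.ofMul g)) : ℂˣ) : ℂ) = _
  rw [nsmul_eq_mul, mul_comm, twp_ep_mul, zpow_natCast]

theorem twp_psi_zsmul (p : ℕ) (n : ℤ) (χ : Additive Γ →+ ℤ) :
    twp_psi p (n • χ) = twp_psi p χ ^ n := by
  ext g
  have h1 : (twp_psi p χ ^ n) g = (twp_psi p χ g) ^ n := by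
    cases n with
    | ofNat m => simp
    | negSucc m => simp [zpow_negSucc]
  rw [h1, twp_psi_apply, twp_psi_apply, AddMonoidHom.smul_apply, smul_eq_mul, mul_comm,
    twp_ep_mul]

theorem twp_psi_add_apply (p : ℕ) (χ χ' : Additive Γ →+ ℤ) (g : Γ) :
    twp_psi p (χ + χ') g = twp_psi p χ g * twp_psi p χ' g := by
  rw [twp_psi_add, MonoidHom.mul_apply]

theorem twp_psiAdd_add (p : ℕ) (χ χ' : Additive Γ →+ ℤ) :
    twp_psiAdd p (χ + χ') = twp_psiAdd p χ + twp_psiAdd p χ' := by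
  refine DFunLike.ext _ _ fun a => ?_
  show Additive.ofMul (twp_psi p (χ + χ') (Additive.toMul a)) = _
  rw [twp_psi_add]
  rfl

@[simp] theorem twp_psiAdd_zero (p : ℕ) : twp_psiAdd p (0 : Additive Γ →+ ℤ) = 0 := by
  refine DFunLike.ext _ _ fun a => ?_
  show Additive.ofMul (twp_psi p (0 : Additive Γ →+ ℤ) (Additive.toMul a)) = _
  rw [twp_psi_zero]
  rfl

/-- `p • χ` gives the trivial character -/
theorem twp_psi_smul_self (p : ℕ) (χ : Additive Γ →+ ℤ) : twp_psi p (p • χ) = 1 := by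
  rw [twp_psi_nsmul, twp_psi_pow_eq_one]

/-! ### triviality -/

theorem twp_psi_apply_eq_one_iff {p : ℕ} (hp : p ≠ 0) (χ : Additive Γ →+ ℤ) (g : Γ) :
    twp_psi p χ g = 1 ↔ (p : ℤ) ∣ χ (Additive.ofMul g) :=
  twp_ep_eq_one_iff hp _

theorem twp_psi_eq_one_iff {p : ℕ} (hp : p ≠ 0) (χ : Additive Γ →+ ℤ) :
    twp_psi p χ = 1 ↔ ∀ g : Γ, (p : ℤ) ∣ χ (Additive.ofMul g) := by
  constructor
  · intro h g
    rw [← twp_psi_apply_eq_one_iff hp, h, MonoidHom.one_apply]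
  · intro h
    ext g
    rw [(twp_psi_apply_eq_one_iff hp χ g).2 (h g), MonoidHom.one_apply]

theorem twp_psi_eq_iff {p : ℕ} (hp : p ≠ 0) (χ χ' : Additive Γ →+ ℤ) :
    twp_psi p χ = twp_psi p χ' ↔
      ∀ g : Γ, (p : ℤ) ∣ χ (Additive.ofMul g) - χ' (Additive.ofMul g) := by
  rw [← div_eq_one, ← twp_psi_sub, twp_psi_eq_one_iff hp]
  rfl

theorem twp_psiAdd_eq_zero_iff {p : ℕ} (hp : p ≠ 0) (χ : Additive Γ →+ ℤ) :
    twp_psiAdd p χ = 0 ↔ ∀ g : Γ, (p : ℤ) ∣ χ (Additive.ofMul g) := by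
  rw [← twp_psi_eq_one_iff hp]
  constructor
  · intro h
    ext g
    have := DFunLike.congr_fun h (Additive.ofMul g)
    exact congrArg Units.val (congrArg Additive.toMul this)
  · intro h
    refine DFunLike.ext _ _ fun a => ?_
    show Additive.ofMul (twp_psi p χ (Additive.toMul a)) = _
    rw [h]
    rfl

/-- if `p` divides all values of `χ` then `χ = p • χ'`; `χ'` is parabolic if `χ` is -/
theorem twp_exists_div {p : ℕ} (hp : p ≠ 0) (χ : Additive Γ →+ ℤ)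
    (h : ∀ g : Γ, (p : ℤ) ∣ χ (Additive.ofMul g)) :
    ∃ χ' : Additive Γ →+ ℤ, χ = p • χ' ∧ (IsParabolicHom Γ χ → IsParabolicHom Γ χ') := by
  have hp' : (p : ℤ) ≠ 0 := by exact_mod_cast hp
  refine ⟨{ toFun := fun a => χ a / (p : ℤ), map_zero' := by simp, map_add' := ?_ }, ?_, ?_⟩
  · intro a b
    show χ (a + b) / (p : ℤ) = χ a / (p : ℤ) + χ b / (p : ℤ)
    rw [map_add]
    exact Int.add_ediv_of_dvd_left (h (Additive.toMul a))
  · refine DFunLike.ext _ _ fun a => ?_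
    show χ a = p • (χ a / (p : ℤ))
    rw [nsmul_eq_mul]
    exact (Int.mul_ediv_cancel' (h (Additive.toMul a))).symm
  · intro hχ g hg
    show χ (Additive.ofMul g) / (p : ℤ) = 0
    rw [hχ g hg, Int.zero_ediv]

theorem twp_psi_eq_one_iff_mem {p : ℕ} (hp : p ≠ 0) (χ : Additive Γ →+ ℤ)
    (hχ : IsParabolicHom Γ χ) :
    twp_psi p χ = 1 ↔ ∃ χ' ∈ parabolicHoms ℤ Γ ℤ, χ = p • χ' := by
  constructor
  · intro h
    obtain ⟨χ', h1, h2⟩ := twp_exists_div hp χ ((twp_psi_eq_one_iff hp χ).1 h)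
    exact ⟨χ', h2 hχ, h1⟩
  · rintro ⟨χ', -, rfl⟩
    exact twp_psi_smul_self p χ'

/-! ### parabolic `χ` -/

theorem twp_psi_of_trace (p : ℕ) {χ : Additive Γ →+ ℤ} (hχ : IsParabolicHom Γ χ) (g : Γ)
    (hg : ((g : SL(2, ℤ)) : Matrix (Fin 2) (Fin 2) ℤ).trace ^ 2 = 4) : twp_psi p χ g = 1 := by
  rw [twp_psi_apply, hχ g hg, twp_ep_zero]

/-- a matrix of `SL(2,ℤ)` with vanishing lower-left entry has trace `± 2` -/
theorem twp_trace_sq_of_lower_left (g : SL(2, ℤ)) (h : g 1 0 = 0) :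
    (g : Matrix (Fin 2) (Fin 2) ℤ).trace ^ 2 = 4 := by
  have hdet := Matrix.SpecialLinearGroup.det_coe g
  rw [Matrix.det_fin_two, h, mul_zero, sub_zero] at hdet
  rw [Matrix.trace_fin_two]
  rcases Int.eq_one_or_neg_one_of_mul_eq_one' hdet with ⟨h0, h1⟩ | ⟨h0, h1⟩
  · rw [h0, h1]; norm_num
  · rw [h0, h1]; norm_num

theorem twp_psi_of_lower_left (p : ℕ) {χ : Additive Γ →+ ℤ} (hχ : IsParabolicHom Γ χ) (g : Γ)
    (hg : (g : SL(2, ℤ)) 1 0 = 0) : twp_psi p χ g = 1 :=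
  twp_psi_of_trace p hχ g (twp_trace_sq_of_lower_left _ hg)

theorem twp_trace_conj (A B : SL(2, ℤ)) :
    ((A * B * A⁻¹ : SL(2, ℤ)) : Matrix (Fin 2) (Fin 2) ℤ).trace =
      (B : Matrix (Fin 2) (Fin 2) ℤ).trace := by
  rw [Matrix.SpecialLinearGroup.coe_mul, Matrix.trace_mul_comm, ← Matrix.SpecialLinearGroup.coe_mul,
    ← mul_assoc, inv_mul_cancel, one_mul]

theorem twp_trace_T_zpow (n : ℤ) :
    ((ModularGroup.T ^ n : SL(2, ℤ)) : Matrix (Fin 2) (Fin 2) ℤ).trace = 2 := by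
  rw [ModularGroup.coe_T_zpow, Matrix.trace_fin_two]
  simp

/-- `ψ_χ` kills the conjugates of elements of trace `± 2` -/
theorem twp_psi_conj_of_trace (p : ℕ) {χ : Additive Γ →+ ℤ} (hχ : IsParabolicHom Γ χ)
    (A B : SL(2, ℤ)) (hB : (B : Matrix (Fin 2) (Fin 2) ℤ).trace ^ 2 = 4)
    (hmem : A * B * A⁻¹ ∈ Γ) : twp_psi p χ ⟨A * B * A⁻¹, hmem⟩ = 1 := by
  apply twp_psi_of_trace p hχ
  show ((A * B * A⁻¹ : SL(2, ℤ)) : Matrix (Fin 2) (Fin 2) ℤ).trace ^ 2 = 4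
  rw [twp_trace_conj, hB]

/-- `ψ_χ (A Tⁿ A⁻¹) = 1` : the slashes of a form with character `ψ_χ` are periodic at every cusp -/
theorem twp_psi_conj_T_zpow (p : ℕ) {χ : Additive Γ →+ ℤ} (hχ : IsParabolicHom Γ χ)
    (A : SL(2, ℤ)) (n : ℤ) (hmem : A * ModularGroup.T ^ n * A⁻¹ ∈ Γ) :
    twp_psi p χ ⟨A * ModularGroup.T ^ n * A⁻¹, hmem⟩ = 1 :=
  twp_psi_conj_of_trace p hχ A _ (by rw [twp_trace_T_zpow]; norm_num) hmem

/-- variant with the conjugation on the other side -/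
theorem twp_psi_conj_T_zpow' (p : ℕ) {χ : Additive Γ →+ ℤ} (hχ : IsParabolicHom Γ χ)
    (A : SL(2, ℤ)) (n : ℤ) (hmem : A⁻¹ * ModularGroup.T ^ n * A ∈ Γ) :
    twp_psi p χ ⟨A⁻¹ * ModularGroup.T ^ n * A, hmem⟩ = 1 := by
  have h := twp_psi_conj_T_zpow p hχ A⁻¹ n (by rwa [inv_inv])
  have e : (⟨A⁻¹ * ModularGroup.T ^ n * A, hmem⟩ : Γ) =
      ⟨A⁻¹ * ModularGroup.T ^ n * A⁻¹⁻¹, by rwa [inv_inv]⟩ := by
    apply Subtype.ext
    show A⁻¹ * ModularGroup.T ^ n * A = A⁻¹ * ModularGroup.T ^ n * A⁻¹⁻¹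
    rw [inv_inv]
  rw [e]
  exact h

theorem twp_psi_neg_one (p : ℕ) {χ : Additive Γ →+ ℤ} (hχ : IsParabolicHom Γ χ)
    (hmem : (-1 : SL(2, ℤ)) ∈ Γ) : twp_psi p χ ⟨-1, hmem⟩ = 1 := by
  apply twp_psi_of_lower_left p hχ
  show ((-1 : SL(2, ℤ)) : Matrix (Fin 2) (Fin 2) ℤ) 1 0 = 0
  simp

theorem twp_psi_coe_conj_T_zpow (p : ℕ) {χ : Additive Γ →+ ℤ} (hχ : IsParabolicHom Γ χ)
    (A : SL(2, ℤ)) (n : ℤ) (hmem : A * ModularGroup.T ^ n * A⁻¹ ∈ Γ) :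
    ((twp_psi p χ ⟨A * ModularGroup.T ^ n * A⁻¹, hmem⟩ : ℂˣ) : ℂ) = 1 := by
  rw [twp_psi_conj_T_zpow p hχ, Units.val_one]

/-! ### the hypotheses of `TwEisChar` for `Γ = Γ₀(M)` -/

theorem twp_unitary {M : ℕ} (p : ℕ) (χ : Additive (Gamma0 M) →+ ℤ) :
    twc_Unitary (twp_psi p χ) :=
  fun g => twp_norm_psi p χ g

theorem twp_trivUnip {M : ℕ} (p : ℕ) {χ : Additive (Gamma0 M) →+ ℤ}
    (hχ : IsParabolicHom (Gamma0 M) χ) : twc_TrivUnip (twp_psi p χ) :=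
  fun g hg => twp_psi_of_lower_left p hχ g hg

end

end Fermat.Agent.S42x
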