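/-
S42 project, block B13, leaf ELL-EXACT, part 2 (helper90, prefix `ell90_`).

Consumers of `EllExact90` (exact ramification at the elliptic points, uniformly in `p`):

* `ell90_dvd_ord_of_char` : R5c over `Q̄` for ARBITRARY `p > 0` in the `heq_Rel` / `dsdq_dvd_ord`
  shape (multiplier `ψ` parabolic AND trivial on the finite-order elements of `Γ₀(N)`; no
  coprimality of `p` and `6`), `ell90_exists_degZero` : the divisor form.
* `ell90_chi_finOrder`, `ell90_psiAdd_finOrder` : the multipliers `ψ_χ = exp(2πi χ/p)` of the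
  `ℤ`-valued `χ` are trivial on finite-order elements.
* `ell90_C_dvd_ordAt`, `ell90_C_dvd_ord_point` : transfer to a realisation over `ℂ`
  (`cdc_Real F M jF` of B3) compatible with `evF M`: the multiplier `e_τ` of EVERY point `τ`
  divides `ord_τ x` for `x` invariant under the finite-order elements of `Γ₀(M)`, hence
  `p ∣ ord_{cdc_vPt τ} f` for all `p` (point half of B3.4 FINAL without `gcd(e, p) = 1`).
-/
import Fermat.Agent.S42x.EllExact90
import Fermat.Agent.S42x.CDictDefs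
import Fermat.Agent.S42x.DescDivFinal
import Fermat.Agent.S42x.TwEisPsi

set_option autoImplicit false

namespace Fermat.Agent.S42x

open UpperHalfPlane AlgebraicCurve CongruenceSubgroup ModularCurve ModularGroup
open Fermat.Agent.S24x Fermat.Agent.S18x
open scoped MatrixGroups Manifold

noncomputable section

section Char

variable (N : ℕ) [NeZero N]

omit [NeZero N] in
/-- a multiplier trivial on finite-order elements gives invariance under them. -/
theorem ell90_inv_of_char (ψ : Additive (Gamma0 N) →+ Additive ℂˣ)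
    (hψfin : ∀ γ : Gamma0 N, IsOfFinOrder γ → ψ (Additive.ofMul γ) = 0) (h : Mer)
    (hchar : ∀ γ : Gamma0 N, ((γ : SL(2, ℤ))⁻¹ • h : Mer) =
      algebraMap ℂ Mer (((ψ (Additive.ofMul γ)).toMul : ℂˣ) : ℂ) * h)
    (γ : SL(2, ℤ)) (hγ : γ ∈ Gamma0 N) (hfin : IsOfFinOrder γ) : γ • h = h := by
  have hγ' : γ⁻¹ ∈ Gamma0 N := (Gamma0 N).inv_mem hγ
  have hfin' : IsOfFinOrder (⟨γ⁻¹, hγ'⟩ : Gamma0 N) := by
    obtain ⟨n, hn, hpow⟩ := isOfFinOrder_iff_pow_eq_one.mp hfin.inv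
    refine isOfFinOrder_iff_pow_eq_one.mpr ⟨n, hn, Subtype.ext ?_⟩
    rw [Subgroup.coe_pow, Subgroup.coe_one]
    exact hpow
  have h1 := hchar ⟨γ⁻¹, hγ'⟩
  rw [hψfin _ hfin'] at h1
  simpa using h1

/-- **R5c for ARBITRARY `p > 0`**: `p ∣ ord_P f` at every place of `F_N / Q̄`, when `evF f = h ^ p`
with `h` of multiplier `ψ`, `ψ` parabolic and trivial on finite-order elements. -/
theorem ell90_dvd_ord_of_char {p : ℕ} (hp : 0 < p)
    (f : FBar N) (hf : f ≠ 0) (h : Mer) (hpow : h ^ p = evF N f)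
    (ψ : Additive (Gamma0 N) →+ Additive ℂˣ)
    (hψ : ModularCurve.Period.IsParabolicHom (Gamma0 N) ψ)
    (hψfin : ∀ γ : Gamma0 N, IsOfFinOrder γ → ψ (Additive.ofMul γ) = 0)
    (hchar : ∀ γ : Gamma0 N, ((γ : SL(2, ℤ))⁻¹ • h : Mer) =
      algebraMap ℂ Mer (((ψ (Additive.ofMul γ)).toMul : ℂˣ) : ℂ) * h)
    (P : Place Qbar (FBar N)) : (p : ℤ) ∣ P.ord f := by
  rcases pc_pole_or_center (fbf_isCoordinate_jBar N) P with hP | ⟨c, hc, -⟩
  · obtain ⟨g, rfl⟩ := covering_cusp N P hP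
    obtain ⟨w, hw0, hw, hexact⟩ := dsdq_hex N g
    exact dsdq_dvd_ord_cusp N hp g hw0 hw hexact f hf h hpow
      (dsdq_inv_of_char N ψ hψ h hchar g w hw)
  · exact ell90_dvd_ord_placesOver N hp f hf h hpow
      (ell90_inv_of_char N ψ hψfin h hchar) c P hc

/-- **R5c for ARBITRARY `p > 0`, divisor form**: the degree-zero divisor `Dt` with
`p • Dt = div f`. -/
theorem ell90_exists_degZero {p : ℕ} (hp : 0 < p)
    (f : FBar N) (hf : f ≠ 0) (h : Mer) (hpow : h ^ p = evF N f)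
    (ψ : Additive (Gamma0 N) →+ Additive ℂˣ)
    (hψ : ModularCurve.Period.IsParabolicHom (Gamma0 N) ψ)
    (hψfin : ∀ γ : Gamma0 N, IsOfFinOrder γ → ψ (Additive.ofMul γ) = 0)
    (hchar : ∀ γ : Gamma0 N, ((γ : SL(2, ℤ))⁻¹ • h : Mer) =
      algebraMap ℂ Mer (((ψ (Additive.ofMul γ)).toMul : ℂˣ) : ℂ) * h) :
    ∃ Dt : Divisor.degZero (K := Qbar) (F := modularFunctionFieldBar N),
      ∀ P : Place Qbar (modularFunctionFieldBar N),
        (p : ℤ) * (Dt : Divisor Qbar (modularFunctionFieldBar N)) P = P.ord f := by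
  have := Fermat.Agent.S37x.hki_hasPrincipalDivisors N
  exact dsdq_exists_div hp f hf (ell90_dvd_ord_of_char N hp f hf h hpow ψ hψ hψfin hchar)

end Char

section Psi

variable {Γ : Subgroup SL(2, ℤ)}

/-- a `ℤ`-valued homomorphism kills the finite-order elements. -/
theorem ell90_chi_finOrder (χ : Additive Γ →+ ℤ) (g : Γ) (hg : IsOfFinOrder g) :
    χ (Additive.ofMul g) = 0 := by
  obtain ⟨n, hn, hgn⟩ := isOfFinOrder_iff_pow_eq_one.mp hg
  have h1 : n • χ (Additive.ofMul g) = 0 := by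
    rw [← map_nsmul, ← ofMul_pow, hgn, ofMul_one, map_zero]
  rcases smul_eq_zero.mp h1 with h2 | h2
  · exact absurd h2 hn.ne'
  · exact h2

/-- the multipliers `ψ_χ` are trivial on the finite-order elements. -/
theorem ell90_psiAdd_finOrder (p : ℕ) (χ : Additive Γ →+ ℤ) (g : Γ) (hg : IsOfFinOrder g) :
    twp_psiAdd p χ (Additive.ofMul g) = 0 := by
  rw [twp_psiAdd_apply, toMul_ofMul, twp_psi_apply, ell90_chi_finOrder χ g hg, twp_ep_zero]
  rfl

end Psi

section OverC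

variable {F : Type*} [Field F] [Algebra ℂ F] {M : ℕ} [NeZero M] {jF : F} (D : cdc_Real F M jF)

/-- **ELL-EXACT over `ℂ`**: for a realisation `D` of `F/ℂ` compatible with `evF M` along
`ι : FBar M →+* F`, the dictionary multiplier `e` at ANY point `τ` divides `ord_τ x` for every
`x : Mer` invariant under the finite-order elements of `Γ₀(M)`. -/
theorem ell90_C_dvd_ordAt (ι : FBar M →+* F) (hι : ∀ f : FBar M, D.φ (ι f) = evF M f) (τ : ℍ)
    (e : ℕ) (he : ∀ f : F, ordAt τ (D.φ f) = e * (cdc_vPt D τ).ord f) (x : Mer)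
    (hx : ∀ γ : SL(2, ℤ), γ ∈ Gamma0 M → IsOfFinOrder γ → γ • x = x) : (e : ℤ) ∣ ordAt τ x := by
  have h1 := he (jF - algebraMap ℂ F (jFun τ))
  rw [cdc_ordAt_j_sub] at h1
  have hdvd : (e : ℤ) ∣ holOrdZ (jHol - algebraMap ℂ Hol (jFun τ)) τ := ⟨_, h1⟩
  -- the algebraic case
  have halg : ∀ c : Qbar, jFun τ = iotaQ c → (e : ℤ) ∣ ordAt τ x := by
    intro c hτ
    obtain ⟨m, -, ⟨π, -, hπ⟩, hall⟩ := exists_ordAt_eq_mul_vPt_ord' M τ hτ
    have h2 := he (ι π)
    rw [hι, hπ] at h2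
    have hem : (e : ℤ) ∣ (m : ℤ) := ⟨_, h2⟩
    exact dvd_trans hem (ell90_dvd_ordAt_of_finOrder M τ hτ m hall x hx)
  by_cases h0 : jFun τ = 0
  · exact halg 0 (by rw [h0, map_zero])
  · by_cases h1728 : jFun τ = 1728
    · exact halg 1728 (by rw [h1728, map_ofNat])
    · have e1 : holOrdZ (jHol - algebraMap ℂ Hol (jFun τ)) τ = 1 := by
        unfold holOrdZ
        rw [holOrder_jHol_sub_generic τ h0 h1728]
        rfl
      rw [e1] at hdvd
      exact dvd_trans hdvd (one_dvd _)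

/-- **point half of B3.4 FINAL for ARBITRARY `p > 0`**: `p ∣ ord_{cdc_vPt τ} f` when
`D.φ f = h ^ p` with `h` invariant under the finite-order elements of `Γ₀(M)`. -/
theorem ell90_C_dvd_ord_point (ι : FBar M →+* F) (hι : ∀ f : FBar M, D.φ (ι f) = evF M f)
    {p : ℕ} (hp : 0 < p) (τ : ℍ) (f : F) (hf : f ≠ 0) (h : Mer) (hpow : h ^ p = D.φ f)
    (hinv : ∀ γ : SL(2, ℤ), γ ∈ Gamma0 M → IsOfFinOrder γ → γ • h = h) :
    (p : ℤ) ∣ (cdc_vPt D τ).ord f := by
  obtain ⟨e, he0, hall⟩ := cdc_exists_ordAt_eq_mul D τ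
  obtain ⟨k, hk⟩ := ell90_C_dvd_ordAt D ι hι τ e hall h hinv
  have hev : D.φ f ≠ 0 := cdc_φ_ne_zero D hf
  have hh : h ≠ 0 := by
    rintro rfl
    rw [zero_pow hp.ne'] at hpow
    exact hev hpow.symm
  have h2 : (p : ℤ) * ordAt τ h = (e : ℤ) * (cdc_vPt D τ).ord f := by
    rw [← hall f, ← hpow, ell90_ordAt_pow τ hh]
  rw [hk] at h2
  have he0' : (e : ℤ) ≠ 0 := by exact_mod_cast he0.ne'
  refine ⟨k, ?_⟩
  apply mul_left_cancel₀ he0'
  rw [← h2]
  ring

/-- the same with a multiplier `ψ` trivial on the finite-order elements (`heq_Rel` shape). -/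
theorem ell90_C_dvd_ord_point_of_char (ι : FBar M →+* F)
    (hι : ∀ f : FBar M, D.φ (ι f) = evF M f)
    {p : ℕ} (hp : 0 < p) (τ : ℍ) (f : F) (hf : f ≠ 0) (h : Mer) (hpow : h ^ p = D.φ f)
    (ψ : Additive (Gamma0 M) →+ Additive ℂˣ)
    (hψfin : ∀ γ : Gamma0 M, IsOfFinOrder γ → ψ (Additive.ofMul γ) = 0)
    (hchar : ∀ γ : Gamma0 M, ((γ : SL(2, ℤ))⁻¹ • h : Mer) =
      algebraMap ℂ Mer (((ψ (Additive.ofMul γ)).toMul : ℂˣ) : ℂ) * h) :
    (p : ℤ) ∣ (cdc_vPt D τ).ord f :=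
  ell90_C_dvd_ord_point D ι hι hp τ f hf h hpow (ell90_inv_of_char M ψ hψfin h hchar)

end OverC

end

end Fermat.Agent.S42x
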