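/-
S42 project, block B3 / B13, leaf B3.4 FINAL for ARBITRARY `p > 0` (helper90, prefix `cdfap90_`):
all-`p` twins of `cdfin21_dvd_ord_vPt / _fin / _all` (S42x/CDictFinal21, helper21), with
`p ≥ 5 prime` replaced by
* a comparison map `ι : FBar M →+* F` with `D.φ ∘ ι = evF M` (B3.1), and
* invariance of the root `h` under the finite-order elements of `Γ₀(M)` (automatic for the
  multipliers `ψ_χ`, see `ell90_psiAdd_finOrder`),
via the exact ramification at the elliptic points (`EllExactC90`).  Needed for S29 (`p = 2, 3`).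
-/
import Fermat.Agent.S42x.EllExactC90
import Fermat.Agent.S42x.CDictFinal21

set_option autoImplicit false

namespace Fermat.Agent.S42x

open UpperHalfPlane AlgebraicCurve CongruenceSubgroup Fermat.Agent.S24x Fermat.Agent.S18x
open scoped MatrixGroups

noncomputable section

variable {F : Type*} [Field F] [Algebra ℂ F] {M : ℕ} [NeZero M] {jF : F} (D : cdc_Real F M jF)
  (ι : FBar M →+* F) (hι : ∀ f : FBar M, D.φ (ι f) = evF M f)

include hι in
/-- **point places, any `p > 0`** (`f = 0` allowed). -/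
theorem cdfap90_dvd_ord_vPt {p : ℕ} (hp : 0 < p) (τ : ℍ) (f : F) (h : Mer)
    (hpow : h ^ p = D.φ f)
    (hinv : ∀ γ : SL(2, ℤ), γ ∈ Gamma0 M → IsOfFinOrder γ → γ • h = h) :
    (p : ℤ) ∣ (cdc_vPt D τ).ord f := by
  rcases eq_or_ne f 0 with rfl | hf
  · simp
  exact ell90_C_dvd_ord_point D ι hι hp τ f hf h hpow hinv

section Covering

variable (hcoord : IsCoordinate ℂ F jF)
  (hcov : ∀ (c : ℂ) (τ₀ : ℍ), jFun τ₀ = c → ∀ v : Place ℂ F, v ∈ placesOver ℂ F jF c →
    ∃ g : SL(2, ℤ), v = cdc_vPt D (g • τ₀))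

include hι hcoord hcov

/-- **finite places, any `p > 0`** (membership in `Sp_fin`). -/
theorem cdfap90_dvd_ord_fin {p : ℕ} (hp : 0 < p) (f : F) (h : Mer)
    (hpow : h ^ p = D.φ f)
    (hinv : ∀ γ : SL(2, ℤ), γ ∈ Gamma0 M → IsOfFinOrder γ → γ • h = h)
    (v : Place ℂ F) (hv : 0 ≤ v.ord jF) : (p : ℤ) ∣ v.ord f := by
  have hval : v.adicValuation jF ≤ 1 := by
    rw [v.adicValuation_le_one_iff]
    exact Or.inr hv
  obtain ⟨c, hc⟩ := pls_eval (pls_isSepCoordinate_of_charZero hcoord) v jF hval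
  have hne : jF - algebraMap ℂ F c ≠ 0 := cdc_j_sub_const_ne_zero D c
  have hover : v ∈ placesOver ℂ F jF c := by
    rw [mem_placesOver]
    rcases (rmn_val_lt_one_iff v).mp hc with h0 | h1
    · exact absurd h0 hne
    · exact lt_of_lt_of_le zero_lt_one h1
  obtain ⟨τ₀, hτ₀⟩ := jFun_surjective c
  obtain ⟨g, rfl⟩ := hcov c τ₀ hτ₀ v hover
  exact cdfap90_dvd_ord_vPt D ι hι hp (g • τ₀) f h hpow hinv

/-- **all places, any `p > 0`** (membership in `Sp_full`), given that `f` is a unit at the poles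
of `jF`. -/
theorem cdfap90_dvd_ord_all {p : ℕ} (hp : 0 < p) (f : F) (h : Mer)
    (hpow : h ^ p = D.φ f)
    (hinv : ∀ γ : SL(2, ℤ), γ ∈ Gamma0 M → IsOfFinOrder γ → γ • h = h)
    (hpole : ∀ v ∈ polePlaces ℂ F jF, v.ord f = 0) (v : Place ℂ F) :
    (p : ℤ) ∣ v.ord f := by
  by_cases hv : v ∈ polePlaces ℂ F jF
  · rw [hpole v hv]
    exact dvd_zero _
  · rw [mem_polePlaces, not_lt] at hv
    exact cdfap90_dvd_ord_fin D ι hι hcoord hcov hp f h hpow hinv v hv

/-- `heq_Rel`-shaped variant of `cdfap90_dvd_ord_fin`: multiplier `ψ` trivial on the finite-order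
elements. -/
theorem cdfap90_dvd_ord_fin_of_char {p : ℕ} (hp : 0 < p) (f : F) (h : Mer)
    (hpow : h ^ p = D.φ f)
    (ψ : Additive (Gamma0 M) →+ Additive ℂˣ)
    (hψfin : ∀ γ : Gamma0 M, IsOfFinOrder γ → ψ (Additive.ofMul γ) = 0)
    (hchar : ∀ γ : Gamma0 M, ((γ : SL(2, ℤ))⁻¹ • h : Mer) =
      algebraMap ℂ Mer (((ψ (Additive.ofMul γ)).toMul : ℂˣ) : ℂ) * h)
    (v : Place ℂ F) (hv : 0 ≤ v.ord jF) : (p : ℤ) ∣ v.ord f :=
  cdfap90_dvd_ord_fin D ι hι hcoord hcov hp f h hpow (ell90_inv_of_char M ψ hψfin h hchar) v hv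

end Covering

end

end Fermat.Agent.S42x
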