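/-
S42x/CDictBridge (helper2, block B3, prefix `cdcb_`): the function field `FC` of `X₀(M)` over `ℂ`.

Three descriptions coincide as intermediate fields of `ℂ((q))`:
* `S23x.ratioField M`          (q-expansions of weight-0 ratios of modular forms on `Γ₀(M)`),
* `modularFunctionFieldFullC ℂ M` (Prelude: generated by the formal `j(q^d)`, `d ∣ M`),
* `laurentBaseChange ℂ (modularFunctionFieldFull M)` (Prelude: `ℂ · F_M`).
Consequently the abstract algebraic-curve package of S18x (`rmn_Hyp`, `rmn_Bound`: places of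
degree one, principal divisors, degree zero, finite-dimensional `L(D)`, Riemann's inequality),
which is proved on main for `modularFunctionFieldFullC k M`, `k` ANY algebraically closed field,
is available for `FC = ratioField M`.
-/
import Fermat.Agent.S24x.DegreeLowerCore
import Fermat.Agent.S24x.FBarFinite
import Fermat.Agent.S23x.FieldGen
import Fermat.Agent.S18x.RmnFbar

set_option autoImplicit false

namespace Fermat.Agent.S42x

open ModularCurve UpperHalfPlane IntermediateField CongruenceSubgroup ModularForm EisensteinSeries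
open scoped MatrixGroups ModularForm

/-! ### forms of level `d` are forms of level `M` for `d ∣ M` -/

theorem cdcb_Gamma0_le_of_dvd {d M : ℕ} (hd : d ∣ M) :
    (Gamma0 M : Subgroup SL(2, ℤ)) ≤ Gamma0 d := by
  intro g hg
  rw [Gamma0_mem] at hg ⊢
  rw [ZMod.intCast_zmod_eq_zero_iff_dvd] at hg ⊢
  exact dvd_trans (Int.natCast_dvd_natCast.mpr hd) hg

theorem cdcb_isMF_of_dvd {d M : ℕ} [NeZero d] [NeZero M] (hd : d ∣ M) {k : ℤ} {f : ℍ → ℂ}
    (h : S23x.IsMF d k f) : S23x.IsMF M k f := by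
  obtain ⟨F, rfl⟩ := h
  refine ⟨{ toFun := F
            slash_action_eq' := fun γ hγ =>
              F.slash_action_eq' γ (Subgroup.map_mono (cdcb_Gamma0_le_of_dvd hd) hγ)
            holo' := F.holo'
            bdd_at_cusps' := fun hc =>
              F.bdd_at_cusps' ((Subgroup.IsArithmetic.isCusp_iff_isCusp_SL2Z _).mpr
                ((Subgroup.IsArithmetic.isCusp_iff_isCusp_SL2Z _).mp hc)) }, rfl⟩

/-- `j(q^d)` is a weight-0 ratio of forms of level `M` when `d ∣ M`. -/
theorem cdcb_isRatio_jNL_of_dvd {d M : ℕ} [NeZero d] [NeZero M] (hd : d ∣ M) :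
    S23x.IsRatio M 0 (S23x.jNL d) := by
  have hE : S23x.IsMF M 4 (fun z => E₄ (S23x.mulN d z)) :=
    cdcb_isMF_of_dvd hd (S23x.isMF_comp_mulN d S23x.m08_isMF1_E4)
  have hD : S23x.IsMF M 12 (fun z => ModularForm.discriminant (S23x.mulN d z)) :=
    cdcb_isMF_of_dvd hd (S23x.isMF_comp_mulN d S23x.m08_isMF1_discriminant)
  have hD0 : (fun z => ModularForm.discriminant (S23x.mulN d z)) ≠ 0 := by
    intro h
    have := congrFun h UpperHalfPlane.I
    exact ModularForm.discriminant_ne_zero _ this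
  have hqD : S23x.qL (fun z => ModularForm.discriminant (S23x.mulN d z)) ≠ 0 := by
    intro h
    exact hD0 ((S23x.qL_eq_zero_iff (S23x.IsMF.isNice hD)).mp h)
  refine ⟨12, (fun z => E₄ (S23x.mulN d z)) ^ 3,
    fun z => ModularForm.discriminant (S23x.mulN d z),
    S23x.m08_isMF_cast (S23x.IsMF.pow hE 3) (by norm_num), hD, hD0, ?_⟩
  rw [S23x.qL_pow (S23x.IsMF.isNice hE) 3]
  unfold S23x.jNL
  exact div_mul_cancel₀ _ hqD

theorem cdcb_jNL_mem {d M : ℕ} [NeZero d] [NeZero M] (hd : d ∣ M) :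
    S23x.jNL d ∈ S23x.ratioField M :=
  S23x.mem_ratioField_iff.mpr (cdcb_isRatio_jNL_of_dvd hd)

/-! ### the three descriptions of `FC` -/

/-- The Prelude's formal function field over `ℂ` is the field of ratios of modular forms. -/
theorem cdcb_fullC_eq (M : ℕ) [NeZero M] :
    modularFunctionFieldFullC ℂ M = S23x.ratioField M := by
  apply le_antisymm
  · rw [modularFunctionFieldFullC, adjoin_le_iff]
    rintro x ⟨d, hd0, hd, rfl⟩
    have := hd0
    rw [S24x.dl_jqModC_eq_jL, ← S24x.dl_jNL_eq d]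
    exact cdcb_jNL_mem hd
  · rw [S23x.ratioField_eq, adjoin_le_iff]
    rintro x (rfl | rfl)
    · rw [← S24x.dl_jqModC_eq_jL]
      exact jqModC_mem_full ℂ M
    · rw [S24x.dl_jNL_eq M, ← S24x.dl_jqModC_eq_jL]
      exact jqModCd_mem_full ℂ M (dvd_refl M)

/-- the generator `j(q^d)` over any field `L ⊇ ℚ`: Prelude's two formal descriptions agree. -/
theorem cdcb_coeffEmb_qExpand_jq (L : Type*) [Field L] [Algebra ℚ L] (d : ℕ) [NeZero d] :
    coeffEmb L (qExpand ℚ d jq) = qExpand L d (jqModC L) := by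
  rw [coeffEmb, ModularCurve.coeffMap_qExpand, ← jqModC_rat, coeffMap_jqModC]

/-- `L · F_M = L(j(q^d) : d ∣ M)` for every field `L ⊇ ℚ` (Prelude's two descriptions). -/
theorem cdcb_laurentBaseChange_eq_fullC (L : Type*) [Field L] [Algebra ℚ L] (M : ℕ) [NeZero M] :
    laurentBaseChange L (modularFunctionFieldFull M) = modularFunctionFieldFullC L M := by
  rw [modularFunctionFieldFull, S24x.fbf_laurentBaseChange_adjoin, modularFunctionFieldFullC]
  congr 1
  ext x
  constructor
  · rintro ⟨y, ⟨d, hne, hd, rfl⟩, rfl⟩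
    exact ⟨d, hne, hd, cdcb_coeffEmb_qExpand_jq L d⟩
  · rintro ⟨d, hne, hd, rfl⟩
    exact ⟨qExpand ℚ d jq, ⟨d, hne, hd, rfl⟩, cdcb_coeffEmb_qExpand_jq L d⟩

/-- `ℂ · F_M` is the field of ratios of modular forms on `Γ₀(M)`. -/
theorem cdcb_laurentBaseChange_eq (M : ℕ) [NeZero M] :
    laurentBaseChange ℂ (modularFunctionFieldFull M) = S23x.ratioField M := by
  rw [cdcb_laurentBaseChange_eq_fullC, cdcb_fullC_eq]

/-! ### the algebraic-curve package over `ℂ` (from S18x, generic algebraically closed `k`) -/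

/-- places of degree one, principal divisors of degree zero, `L(0) = ℂ` on `FC = ratioField M`. -/
theorem cdcb_rmn_hyp (M : ℕ) [NeZero M] : S18x.rmn_Hyp ℂ ↥(S23x.ratioField M) :=
  cdcb_fullC_eq M ▸ S18x.rmn_hyp_fb ℂ M

/-- Riemann's linear bound on `FC = ratioField M`. -/
theorem cdcb_rmn_bound (M : ℕ) [NeZero M] : S18x.rmn_Bound ℂ ↥(S23x.ratioField M) :=
  cdcb_fullC_eq M ▸ S18x.rmn_bound_fb ℂ M

/-- the same package on `ℂ · F_M = laurentBaseChange ℂ (modularFunctionFieldFull M)`. -/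
theorem cdcb_rmn_hyp_lbc (M : ℕ) [NeZero M] :
    S18x.rmn_Hyp ℂ ↥(laurentBaseChange ℂ (modularFunctionFieldFull M)) :=
  (cdcb_laurentBaseChange_eq_fullC ℂ M).symm ▸ S18x.rmn_hyp_fb ℂ M

theorem cdcb_rmn_bound_lbc (M : ℕ) [NeZero M] :
    S18x.rmn_Bound ℂ ↥(laurentBaseChange ℂ (modularFunctionFieldFull M)) :=
  (cdcb_laurentBaseChange_eq_fullC ℂ M).symm ▸ S18x.rmn_bound_fb ℂ M

/-- every `L(D)` on `FC` is finite-dimensional. -/
theorem cdcb_finite_L (M : ℕ) [NeZero M] (D : AlgebraicCurve.Divisor ℂ ↥(S23x.ratioField M)) :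
    Module.Finite ℂ (AlgebraicCurve.riemannRochSpace D) :=
  S18x.rmn_finite (cdcb_rmn_hyp M) D

/-- **Riemann's inequality on `FC`** (shape of `S18x.rmn_riemann`). -/
theorem cdcb_riemann (M : ℕ) [NeZero M] (D : AlgebraicCurve.Divisor ℂ ↥(S23x.ratioField M)) :
    AlgebraicCurve.Divisor.degree D + 1 - (S18x.rmn_genus ℂ ↥(S23x.ratioField M) : ℤ) ≤
      Module.finrank ℂ (AlgebraicCurve.riemannRochSpace D) :=
  S18x.rmn_riemann (cdcb_rmn_hyp M) (cdcb_rmn_bound M) D

end Fermat.Agent.S42x
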