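/-
S42 project, block B3 (dictionary over `ℂ`), leaf B3.0: DEFINITIONS (helper55, prefix `cdc_`).

`cdc_Real F M jF` : a realisation of a field `F/ℂ` inside `Mer` (meromorphic functions on the upper
half plane) which is `ℂ`-linear, sends the coordinate `jF` to the `j`-function and is invariant
under `Γ₀(M)`.  Everything in block B3 is proved for an arbitrary such bundle; the instance for
`F = modularFunctionFieldFullC ℂ M` is constructed in leaf B3.1.

Point places: over `ℂ` EVERY point `τ` of the upper half plane gives a place `cdc_vPt D τ` of `F`,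
with the order dictionary `ord_τ (φ f) = e_τ * ord_{vPt τ} f`.
-/
import Fermat.Agent.S24x.VPt
import Fermat.Agent.S24x.JOrders

set_option autoImplicit false

namespace Fermat.Agent.S42x

open UpperHalfPlane AlgebraicCurve CongruenceSubgroup Fermat.Agent.S24x
open scoped MatrixGroups Manifold

/-- a `ℂ`-linear, `Γ₀(M)`-invariant realisation of `F/ℂ` in `Mer` with `jF ↦ j`. -/
structure cdc_Real (F : Type*) [Field F] [Algebra ℂ F] (M : ℕ) (jF : F) where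
  /-- the realisation -/
  φ : F →+* Mer
  map_const : ∀ c : ℂ, φ (algebraMap ℂ F c) = algebraMap ℂ Mer c
  map_j : φ jF = jMer
  inv : ∀ γ : SL(2, ℤ), γ ∈ Gamma0 M → ∀ f : F, γ • φ f = φ f

variable {F : Type*} [Field F] [Algebra ℂ F] {M : ℕ} {jF : F} (D : cdc_Real F M jF)

/-- the underlying `MerReal` of S24x. -/
noncomputable def cdc_Real.toMerReal : MerReal ℂ F := ⟨D.φ, RingHom.id ℂ, D.map_const⟩

@[simp] theorem cdc_toMerReal_φ : D.toMerReal.φ = D.φ := rfl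

@[simp] theorem cdc_toMerReal_ι : D.toMerReal.ι = RingHom.id ℂ := rfl

theorem cdc_φ_injective : Function.Injective D.φ := D.φ.injective

theorem cdc_φ_ne_zero {f : F} (hf : f ≠ 0) : D.φ f ≠ 0 := (map_ne_zero D.φ).mpr hf

/-- `jF - c` is realised by the holomorphic function `j - c`. -/
theorem cdc_φ_j_sub (c : ℂ) :
    D.φ (jF - algebraMap ℂ F c) = algebraMap Hol Mer (jHol - algebraMap ℂ Hol c) := by
  rw [map_sub, map_sub, D.map_j, D.map_const, IsScalarTower.algebraMap_apply ℂ Hol Mer]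
  rfl

include D in
theorem cdc_j_sub_const_ne_zero (c : ℂ) : jF - algebraMap ℂ F c ≠ 0 := by
  intro h
  have h1 := cdc_φ_j_sub D c
  rw [h, map_zero] at h1
  apply jHol_sub_const_ne_zero c
  apply IsFractionRing.injective Hol Mer
  rw [map_zero, ← h1]

/-- over `ℂ` every point of the upper half plane is a point of the curve. -/
theorem cdc_isPt (τ : ℍ) : D.toMerReal.IsPt τ := by
  refine D.toMerReal.isPt_of_hol_zero (cdc_j_sub_const_ne_zero D (jFun τ))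
    (cdc_φ_j_sub D (jFun τ)) ?_
  show jFun τ - jFun τ = 0
  rw [sub_self]

/-- the place of `F` given by the order of vanishing at `τ`. -/
noncomputable def cdc_vPt (τ : ℍ) : Place ℂ F := D.toMerReal.placeAt τ (cdc_isPt D τ)

theorem cdc_mem_vPt_iff (τ : ℍ) (f : F) :
    f ∈ (cdc_vPt D τ).toValuationSubring ↔ 0 ≤ ordAt τ (D.φ f) :=
  D.toMerReal.mem_placeAt_iff τ _ f

/-- `ord_τ ∘ φ = e_τ • ord_{vPt τ}` with `e_τ ≥ 1`. -/
theorem cdc_exists_ordAt_eq_mul (τ : ℍ) :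
    ∃ e : ℕ, 0 < e ∧ ∀ f : F, ordAt τ (D.φ f) = e * (cdc_vPt D τ).ord f := by
  obtain ⟨g, hg, -, h⟩ := D.toMerReal.exists_ordAt_eq_mul_placeAt_ord τ (cdc_isPt D τ)
  exact ⟨g, hg, h⟩

/-- strong form: the multiplier `e_τ` is the order of some element. -/
theorem cdc_exists_ordAt_eq_mul' (τ : ℍ) :
    ∃ e : ℕ, 0 < e ∧ (∃ π : F, π ≠ 0 ∧ ordAt τ (D.φ π) = e) ∧
      ∀ f : F, ordAt τ (D.φ f) = e * (cdc_vPt D τ).ord f :=
  D.toMerReal.exists_ordAt_eq_mul_placeAt_ord τ (cdc_isPt D τ)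

theorem cdc_vPt_ord_pos_iff (τ : ℍ) {f : F} (hf : f ≠ 0) :
    0 < (cdc_vPt D τ).ord f ↔ 0 < ordAt τ (D.φ f) :=
  D.toMerReal.placeAt_ord_pos_iff τ _ hf

theorem cdc_inv' (γ : SL(2, ℤ)) (hγ : γ ∈ Gamma0 M) (f : F) : γ⁻¹ • D.φ f = D.φ f :=
  D.inv γ⁻¹ (inv_mem hγ) f

/-- orders at `γ • τ` and `τ` agree for `γ ∈ Γ₀(M)`. -/
theorem cdc_ordAt_smul (γ : SL(2, ℤ)) (hγ : γ ∈ Gamma0 M) (τ : ℍ) (f : F) :
    ordAt (γ • τ) (D.φ f) = ordAt τ (D.φ f) :=
  D.toMerReal.ordAt_smul_point_of_invariant (cdc_inv' D γ hγ) τ f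

/-- the point places only depend on the `Γ₀(M)`-orbit. -/
theorem cdc_vPt_smul (γ : SL(2, ℤ)) (hγ : γ ∈ Gamma0 M) (τ : ℍ) :
    cdc_vPt D (γ • τ) = cdc_vPt D τ :=
  D.toMerReal.placeAt_congr _ _ (cdc_ordAt_smul D γ hγ τ)

/-- the order at `τ` of `jF - c`. -/
theorem cdc_ordAt_j_sub (τ : ℍ) (c : ℂ) :
    ordAt τ (D.φ (jF - algebraMap ℂ F c)) = holOrdZ (jHol - algebraMap ℂ Hol c) τ := by
  rw [cdc_φ_j_sub, ordAt_algebraMap_eq_holOrdZ τ (jHol_sub_const_ne_zero c)]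

theorem cdc_ordAt_j_sub_pos (τ : ℍ) : 0 < ordAt τ (D.φ (jF - algebraMap ℂ F (jFun τ))) := by
  rw [cdc_φ_j_sub, ordAt_algebraMap_pos_iff τ (jHol_sub_const_ne_zero (jFun τ))]
  show jFun τ - jFun τ = 0
  rw [sub_self]

theorem cdc_vPt_mem_placesOver (τ : ℍ) : cdc_vPt D τ ∈ placesOver ℂ F jF (jFun τ) := by
  rw [mem_placesOver, cdc_vPt_ord_pos_iff D τ (cdc_j_sub_const_ne_zero D (jFun τ))]
  exact cdc_ordAt_j_sub_pos D τ

/-- `E₄` as an element of `Hol`. -/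
noncomputable def cdc_E4Hol : Hol := ⟨⇑ModularForm.E₄, jo_mdiff_E₄⟩

@[simp] theorem cdc_E4Hol_apply (τ : ℍ) : (cdc_E4Hol : ℍ → ℂ) τ = ModularForm.E₄ τ := rfl

end Fermat.Agent.S42x
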