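/-
S42 project, block B3, leaf B3.2 COVFIN (helper38, prefix `cdf_`): covering of the finite places
over `ℂ`, for an arbitrary realisation bundle `cdc_Real F M jF`.

`cdf_covering_finite` : every place of `F/ℂ` over `jF = c` is the point place
`cdc_vPt D (g • τ₀)` for some `g : SL(2,ℤ)`, where `τ₀` is any point with `j(τ₀) = c`.

Port of S24x `CoveringSym` / `CoveringFinite` / `Covering` with `Q̄ → ℂ`, `iotaQ → id`,
`FBar N → F`, `evF → D.φ`, `jBar → jF`, `vPt → cdc_vPt`.  Linear disjointness is trivial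
(`ℂ ⊗[ℂ] R ≅ R` and `D.φ` is injective).
-/
import Fermat.Agent.S42x.CDictDefs
import Fermat.Agent.S24x.CoveringFinite
import Fermat.Agent.S24x.CoveringRingPack

set_option autoImplicit false

namespace Fermat.Agent.S42x

open UpperHalfPlane Polynomial TensorProduct CongruenceSubgroup AlgebraicCurve Fermat.Agent.S24x
open scoped MatrixGroups Manifold

noncomputable section

/-- the action of `g : SL(2,ℤ)` on `Mer` as a `ℂ`-algebra homomorphism -/
def cdf_smulA (g : SL(2, ℤ)) : Mer →ₐ[ℂ] Mer :=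
  { MulSemiringAction.toRingHom SL(2, ℤ) Mer g with
    commutes' := fun c => cov_smul_const g c }

theorem cdf_smulA_apply (g : SL(2, ℤ)) (y : Mer) : cdf_smulA g y = g • y := rfl

variable {F : Type*} [Field F] [Algebra ℂ F] {M : ℕ} {jF : F} (D : cdc_Real F M jF)

/-- the realisation as a `ℂ`-algebra homomorphism -/
def cdf_φA : F →ₐ[ℂ] Mer :=
  { D.φ with commutes' := fun c => D.map_const c }

theorem cdf_φA_apply (f : F) : cdf_φA D f = D.φ f := rfl

variable (R : Type*) [CommRing R] [Algebra ℂ R] [Algebra R F] [IsScalarTower ℂ R F]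

/-- the family of conjugate realisations `ev x = (out x) • φ`, `x ∈ SL(2,ℤ) ⧸ Γ₀(M)` -/
def cdf_ev (x : Q M) : R →ₐ[ℂ] Mer :=
  (cdf_smulA (Quotient.out x)).comp ((cdf_φA D).comp (IsScalarTower.toAlgHom ℂ R F))

theorem cdf_ev_apply (x : Q M) (r : R) :
    cdf_ev D R x r = (Quotient.out x : SL(2, ℤ)) • D.φ (algebraMap R F r) := rfl

theorem cdf_ev_eq_of_mk (g : SL(2, ℤ)) (x : Q M) (hx : (g : Q M) = x) (r : R) :
    cdf_ev D R x r = g • D.φ (algebraMap R F r) := by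
  subst hx
  obtain ⟨h, hh⟩ := QuotientGroup.mk_out_eq_mul (Gamma0 M) g
  rw [cdf_ev_apply]
  have : (Quotient.out (g : Q M) : SL(2, ℤ)) = g * h := hh
  rw [this, mul_smul, D.inv h h.2]

theorem cdf_ev_smul (γ : SL(2, ℤ)) (x : Q M) (r : R) :
    γ • cdf_ev D R x r = cdf_ev D R (γ • x) r := by
  rw [cdf_ev_apply, ← mul_smul]
  symm
  apply cdf_ev_eq_of_mk
  conv_rhs => rw [← QuotientGroup.out_eq' x]
  rfl

theorem cdf_ev_one (x0 : Q M) (hx0 : ((1 : SL(2, ℤ)) : Q M) = x0) (r : R) :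
    cdf_ev D R x0 r = D.φ (algebraMap R F r) := by
  rw [cdf_ev_eq_of_mk D R 1 x0 hx0, one_smul]

/-- linear disjointness over `ℂ` is trivial -/
theorem cdf_tensor_injective (hinj : Function.Injective (algebraMap R F))
    (x0 : Q M) (hx0 : ((1 : SL(2, ℤ)) : Q M) = x0) :
    Function.Injective
      (Algebra.TensorProduct.lift (Algebra.ofId ℂ Mer) (cdf_ev D R x0)
        (fun _ _ => Commute.all _ _) : ℂ ⊗[ℂ] R →ₐ[ℂ] Mer) := by
  have hev : Function.Injective (cdf_ev D R x0) := by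
    intro a b hab
    rw [cdf_ev_one D R x0 hx0, cdf_ev_one D R x0 hx0] at hab
    exact hinj (D.φ.injective hab)
  have hcomp : (Algebra.TensorProduct.lift (Algebra.ofId ℂ Mer) (cdf_ev D R x0)
      (fun _ _ => Commute.all _ _) : ℂ ⊗[ℂ] R →ₐ[ℂ] Mer) =
      (cdf_ev D R x0).comp (Algebra.TensorProduct.lid ℂ R).toAlgHom := by
    apply Algebra.TensorProduct.ext'
    intro a r
    rw [Algebra.TensorProduct.lift_tmul, AlgHom.comp_apply]
    show _ = cdf_ev D R x0 (Algebra.TensorProduct.lid ℂ R (a ⊗ₜ[ℂ] r))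
    rw [Algebra.TensorProduct.lid_tmul, map_smul, Algebra.ofId_apply, Algebra.smul_def]
  rw [hcomp]
  exact hev.comp (Algebra.TensorProduct.lid ℂ R).injective

/-- transfer of integrality along `cdf_ev x` -/
theorem cdf_ev_isIntegralElem (tR : R) (J : Mer) (hJ : ∀ x, cdf_ev D R x tR = J) (r : R)
    (hint : ((aeval tR : ℂ[X] →ₐ[ℂ] R) : ℂ[X] →+* R).IsIntegralElem r) (x : Q M) :
    ((aeval J : ℂ[X] →ₐ[ℂ] Mer) : ℂ[X] →+* Mer).IsIntegralElem (cdf_ev D R x r) := by
  obtain ⟨P, hPm, hP⟩ := hint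
  refine ⟨P, hPm, ?_⟩
  have hcomp : ((aeval J : ℂ[X] →ₐ[ℂ] Mer) : ℂ[X] →+* Mer) =
      ((cdf_ev D R x : R →ₐ[ℂ] Mer) : R →+* Mer).comp
        ((aeval tR : ℂ[X] →ₐ[ℂ] R) : ℂ[X] →+* R) := by
    apply Polynomial.ringHom_ext
    · intro a
      simp only [RingHom.coe_comp, RingHom.coe_coe, Function.comp_apply, aeval_C]
      rw [AlgHom.commutes]
    · simp only [RingHom.coe_comp, RingHom.coe_coe, Function.comp_apply, aeval_X]
      exact (hJ x).symm
  rw [hcomp, ← RingHom.coe_coe (cdf_ev D R x), ← Polynomial.hom_eval₂, hP, map_zero]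

/-- **Covering of the finite places over `ℂ`** (relative to a Dedekind domain `R ⊆ F`, integral
over `ℂ[jF]`, with fraction field `F`). -/
theorem cdf_covering_finite_of_dedekind [NeZero M] [IsDedekindDomain R] [IsFractionRing R F]
    (tR : R) (htR : algebraMap R F tR = jF)
    (hint : ∀ r : R, ((aeval tR : ℂ[X] →ₐ[ℂ] R) : ℂ[X] →+* R).IsIntegralElem r)
    (c : ℂ) (τ₀ : ℍ) (hτ₀ : jFun τ₀ = c)
    (v : Place ℂ F) (hv : v ∈ placesOver ℂ F jF c) :
    ∃ g : SL(2, ℤ), v = cdc_vPt D (g • τ₀) := by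
  classical
  have hinjR : Function.Injective (algebraMap R F) := IsFractionRing.injective R F
  rw [mem_placesOver] at hv
  -- `jF ∈ O_v`
  have hjv : algebraMap R F tR ∈ v.toValuationSubring := by
    rw [htR]
    have h0 : jF - algebraMap ℂ F c ≠ 0 := by
      intro h
      rw [h, Place.ord_zero] at hv
      exact lt_irrefl _ hv
    have h1 : jF - algebraMap ℂ F c ∈ v.toValuationSubring :=
      (ord_nonneg_iff v h0).1 hv.le
    have := v.toValuationSubring.add_mem _ _ h1 (v.algebraMap_mem' c)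
    rwa [sub_add_cancel] at this
  have hvR : ∀ r : R, algebraMap R F r ∈ v.toValuationSubring :=
    cov_mem_of_integral R tR hint v hjv
  set x0 : Q M := ((1 : SL(2, ℤ)) : Q M) with hx0
  have hJ : ∀ x, cdf_ev D R x tR = jMer := by
    intro x
    rw [cdf_ev_apply, htR, D.map_j, cov_jMer_smul]
  have hτ : ∀ g : SL(2, ℤ), jFun (g • τ₀) = c := fun g => by rw [jFun_smul, hτ₀]
  let w : Q M → Place ℂ F := fun x => cdc_vPt D ((Quotient.out x : SL(2, ℤ))⁻¹ • τ₀)
  have hordval : ∀ (τ : ℍ) (r : R) (x : Q M), cov_ordVal τ (cdf_ev D R x r) ≤ 1 := by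
    intro τ r x
    refine cov_val_le_one_of_isIntegralElem (cov_ordVal τ) _ (fun a => ?_)
      (cdf_ev_isIntegralElem D R tR jMer hJ r (hint r) x)
    rw [RingHom.coe_coe, cov_aeval_jMer]
    exact cov_ordVal_hol τ _
  have hw : ∀ x, ∀ r : R, algebraMap R F r ∈ (w x).toValuationSubring := by
    intro x r
    show algebraMap R F r ∈ (cdc_vPt D ((Quotient.out x : SL(2, ℤ))⁻¹ • τ₀)).toValuationSubring
    rw [cdc_mem_vPt_iff]
    apply cov_ordAt_nonneg_of_le_one
    have := hordval ((Quotient.out x : SL(2, ℤ))⁻¹ • τ₀) r x0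
    rwa [cdf_ev_one D R x0 rfl] at this
  suffices hmain : ∀ r : R, 0 < v.ord (algebraMap R F r) →
      ∃ x, 0 < (w x).ord (algebraMap R F r) by
    obtain ⟨x, hx⟩ := cov_place_eq_of_forall R v hvR w hw hmain
    exact ⟨(Quotient.out x : SL(2, ℤ))⁻¹, hx⟩
  -- the main step
  intro r hr
  have hr0 : algebraMap R F r ≠ 0 := by
    intro h
    rw [h, Place.ord_zero] at hr
    exact lt_irrefl _ hr
  have hvt : 0 < v.ord (algebraMap R F tR - algebraMap ℂ F c) := by
    rw [htR]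
    exact hv
  obtain ⟨φ, hφt, hφ⟩ := cov_exists_residue R tR c hint v hvR hvt
  have hφr : φ r = 0 := (hφ r).2 (Or.inr hr)
  obtain ⟨Q, hQ⟩ := cov_exists_Q jMer cov_inv_finite (fun x => cdf_ev D R x r)
    (fun γ x => cdf_ev_smul D R γ x r)
    (fun x => cdf_ev_isIntegralElem D R tR jMer hJ r (hint r) x)
  have hwt : cov_ordVal τ₀ (cdf_ev D R x0 tR - algebraMap ℂ Mer (algebraMap ℂ ℂ c)) < 1 := by
    rw [hJ x0]
    have h1 : jMer - algebraMap ℂ Mer (algebraMap ℂ ℂ c) =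
        algebraMap Hol Mer (jHol - algebraMap ℂ Hol c) := by
      rw [map_sub, ← IsScalarTower.algebraMap_apply ℂ Hol Mer]
      rfl
    rw [h1]
    have hne : jHol - algebraMap ℂ Hol c ≠ 0 := jHol_sub_const_ne_zero _
    have hne' : algebraMap Hol Mer (jHol - algebraMap ℂ Hol c) ≠ 0 := by
      rw [Ne, map_eq_zero_iff _ (IsFractionRing.injective Hol Mer)]
      exact hne
    rw [cov_ordVal_lt_one_iff τ₀ hne', ordAt_algebraMap_pos_iff τ₀ hne]
    show jFun τ₀ - c = 0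
    rw [hτ₀, sub_self]
  obtain ⟨x, hx⟩ := cov_abstract (cdf_ev D R) x0 (cdf_tensor_injective D R hinjR x0 rfl) tR c
    (cov_ordVal τ₀) (cov_ordVal_const τ₀) hwt φ hφt r hφr Q (by rw [hJ x0]; exact hQ)
  refine ⟨x, ?_⟩
  rw [cdf_ev_apply, cov_ordVal_smul] at hx
  have hne : D.φ (algebraMap R F r) ≠ 0 := by
    rw [Ne, map_eq_zero]
    exact hr0
  rw [cov_ordVal_lt_one_iff _ hne] at hx
  obtain ⟨g, hg, hgo⟩ := cdc_exists_ordAt_eq_mul D ((Quotient.out x : SL(2, ℤ))⁻¹ • τ₀)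
  rw [hgo] at hx
  have hg' : (0 : ℤ) < (g : ℤ) := by exact_mod_cast hg
  show 0 < (cdc_vPt D ((Quotient.out x : SL(2, ℤ))⁻¹ • τ₀)).ord (algebraMap R F r)
  exact (pos_iff_pos_of_mul_pos hx).1 hg'

/-- **Covering of the finite places over `ℂ`**: every place of `F` over `jF = c` is
`cdc_vPt D (g • τ₀)`, `g ∈ SL(2,ℤ)`, where `τ₀` is any point with `j(τ₀) = c`. -/
theorem cdf_covering_finite [NeZero M] (hcoord : IsCoordinate ℂ F jF) (c : ℂ) (τ₀ : ℍ)
    (hτ₀ : jFun τ₀ = c) (v : Place ℂ F) (hv : v ∈ placesOver ℂ F jF c) :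
    ∃ g : SL(2, ℤ), v = cdc_vPt D (g • τ₀) := by
  have hFF : FFData ℂ F jF := cr_ffData hcoord
  obtain ⟨R, i1, i2, i3, i4, i5, i6, tR, htR, hint⟩ :=
    cov_exists_ring (K := ℂ) (F := F) jF
  exact cdf_covering_finite_of_dedekind D R tR htR hint c τ₀ hτ₀ v hv

end

end Fermat.Agent.S42x
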