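/-
S42 project, block B4 (injectivity), leaf L1b (helper81): N2 for a realisation of
`FC = S23x.ratioField M` inside `Mer`.

`inj_EvCompat M ev` is the ONLY property of the realisation `ev : ratioField M →+* Mer` that is
used: if `x * qL B = qL A` for two forms `A, B` of the same weight on `Γ₀(M)` then
`ev x * B = A` in `Mer`.

* `inj_ev_surj` : a `Γ₀(M)`-invariant `h ∈ Mer` with `h ^ p = ev f` is `ev u` with `u ^ p = f`.
* `inj_ev_invariant` : every `ev x` is `Γ₀(M)`-invariant.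
* `inj_ev_class` : two `p`-th roots `h, h'` of `ev f, ev f'` with the same multiplier give
  `f' = f * w ^ p`.
-/
import Mathlib
import Fermat.Agent.S42x.InjCore
import Fermat.Agent.S23x.Ratio

set_option autoImplicit false

namespace Fermat.Agent.S42x

open Fermat.Agent.S24x Fermat.Agent.S23x
open UpperHalfPlane ModularForm ModularFormClass CongruenceSubgroup
open scoped MatrixGroups Manifold

/-- compatibility of a realisation of `ratioField M` in `Mer` with `q`-expansions of forms -/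
def inj_EvCompat (M : ℕ) [NeZero M] (ev : ratioField M →+* Mer) : Prop :=
  ∀ (x : ratioField M) (m : ℤ) (A B : Hol), IsMF M m (A : ℍ → ℂ) → IsMF M m (B : ℍ → ℂ) →
    B ≠ 0 → (x : LS) * qL (B : ℍ → ℂ) = qL (A : ℍ → ℂ) →
      ev x * algebraMap Hol Mer B = algebraMap Hol Mer A

/-- a modular form (raw function) as an element of `Hol` -/
theorem inj_exists_hol {M : ℕ} {m : ℤ} {f : ℍ → ℂ} (hf : IsMF M m f) :
    ∃ A : Hol, (A : ℍ → ℂ) = f := by
  obtain ⟨F, rfl⟩ := hf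
  exact ⟨⟨⇑F, F.holo'⟩, rfl⟩

/-- every element of `ratioField M` is a ratio of two `Hol`-forms -/
theorem inj_exists_ratio (M : ℕ) [NeZero M] (x : ratioField M) :
    ∃ (m : ℤ) (A B : Hol), IsMF M m (A : ℍ → ℂ) ∧ IsMF M m (B : ℍ → ℂ) ∧ B ≠ 0 ∧
      (x : LS) * qL (B : ℍ → ℂ) = qL (A : ℍ → ℂ) := by
  obtain ⟨m, f, g, hf, hg, hg0, hx⟩ := mem_ratioField_iff.mp x.2
  obtain ⟨A, rfl⟩ := inj_exists_hol hf
  obtain ⟨B, rfl⟩ := inj_exists_hol hg
  refine ⟨m, A, B, hf.cast (add_zero m), hg, ?_, hx⟩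
  rintro rfl
  exact hg0 rfl

theorem inj_algebraMap_ne_zero {B : Hol} (hB : B ≠ 0) : algebraMap Hol Mer B ≠ 0 := by
  intro h
  apply hB
  apply inj_algebraMap_injective
  rw [h, map_zero]

/-- **N2 over `FC`.** -/
theorem inj_ev_surj (M : ℕ) [NeZero M] (ev : ratioField M →+* Mer) (hev : inj_EvCompat M ev)
    {p : ℕ} (hp : 0 < p) (f : ratioField M) (h : Mer)
    (hinv : ∀ γ : SL(2, ℤ), γ ∈ Gamma0 M → γ • h = h) (hpow : h ^ p = ev f) :
    ∃ u : ratioField M, ev u = h ∧ u ^ p = f := by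
  obtain ⟨m, A, B, hA, hB, hB0, hx⟩ := inj_exists_ratio M f
  have h1 := hev f m A B hA hB hB0 hx
  rw [← hpow] at h1
  obtain ⟨G, hG, hhG⟩ := inj_core M hp hA hB hB0 hinv h1
  have hqB : qL (B : ℍ → ℂ) ≠ 0 :=
    m04_qL_ne_zero hB (fun h0 => hB0 (Subtype.ext h0))
  have humem : qL (G : ℍ → ℂ) * (qL (B : ℍ → ℂ))⁻¹ ∈ ratioField M := by
    rw [mem_ratioField_iff]
    refine ⟨m, (G : ℍ → ℂ), (B : ℍ → ℂ), hG.cast (add_zero m).symm, hB,
      fun h0 => hB0 (Subtype.ext h0), ?_⟩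
    rw [mul_assoc, inv_mul_cancel₀ hqB, mul_one]
  set u : ratioField M := ⟨_, humem⟩ with hu
  have hux : (u : LS) * qL (B : ℍ → ℂ) = qL (G : ℍ → ℂ) := by
    show qL (G : ℍ → ℂ) * (qL (B : ℍ → ℂ))⁻¹ * qL (B : ℍ → ℂ) = _
    rw [mul_assoc, inv_mul_cancel₀ hqB, mul_one]
  have h2 := hev u m G B hG hB hB0 hux
  have hBm := inj_algebraMap_ne_zero hB0
  have hevu : ev u = h := by
    apply mul_right_cancel₀ hBm
    rw [h2, hhG]
  refine ⟨u, hevu, ?_⟩
  apply ev.injective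
  rw [map_pow, hevu, hpow]

/-- every `ev x` is `Γ₀(M)`-invariant -/
theorem inj_ev_invariant (M : ℕ) [NeZero M] (ev : ratioField M →+* Mer) (hev : inj_EvCompat M ev)
    (x : ratioField M) (γ : SL(2, ℤ)) (hγ : γ ∈ Gamma0 M) : γ • ev x = ev x := by
  obtain ⟨m, A, B, hA, hB, hB0, hx⟩ := inj_exists_ratio M x
  have h1 := hev x m A B hA hB hB0 hx
  have hBm := inj_algebraMap_ne_zero hB0
  -- `γ • A = J * A`, `γ • B = J * B` with the same unit `J`
  obtain ⟨δ, hδ⟩ : ∃ δ : SL(2, ℤ), δ = γ⁻¹ := ⟨_, rfl⟩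
  have hδm : δ ∈ Gamma0 M := hδ ▸ inv_mem hγ
  have key : ∀ {C : Hol}, IsMF M m (C : ℍ → ℂ) → ∀ τ : ℍ,
      ((γ • C : Hol) : ℍ → ℂ) τ = (C : ℍ → ℂ) τ * denom δ τ ^ m := by
    intro C hC τ
    obtain ⟨FC, hFC⟩ := hC
    have hinvC : (⇑FC) ∣[m] δ = ⇑FC :=
      SlashInvariantForm.slash_action_eqn FC _ (Subgroup.mem_map_of_mem _ hδm)
    have := congrFun hinvC τ
    rw [ModularForm.SL_slash_apply, hFC] at this
    rw [smul_Hol_apply, ← hδ, ← this, mul_assoc, ← zpow_add₀ (denom_ne_zero δ τ)]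
    simp
  have hcross : (γ • A) * B = A * (γ • B) := by
    apply Subtype.ext
    funext τ
    show ((γ • A : Hol) : ℍ → ℂ) τ * (B : ℍ → ℂ) τ = (A : ℍ → ℂ) τ * ((γ • B : Hol) : ℍ → ℂ) τ
    rw [key hA, key hB]
    ring
  have h2 : γ • (ev x * algebraMap Hol Mer B) = γ • algebraMap Hol Mer A := by rw [h1]
  rw [smul_mul', smul_algebraMap_Mer, smul_algebraMap_Mer] at h2
  have hγB : algebraMap Hol Mer (γ • B) ≠ 0 := by
    apply inj_algebraMap_ne_zero
    intro h0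
    apply hB0
    have := congrArg (fun C : Hol => γ⁻¹ • C) h0
    simpa using this
  apply mul_right_cancel₀ (mul_ne_zero hγB hBm)
  calc γ • ev x * (algebraMap Hol Mer (γ • B) * algebraMap Hol Mer B)
      = (γ • ev x * algebraMap Hol Mer (γ • B)) * algebraMap Hol Mer B := by ring
    _ = algebraMap Hol Mer (γ • A) * algebraMap Hol Mer B := by rw [h2]
    _ = algebraMap Hol Mer ((γ • A) * B) := by rw [map_mul]
    _ = algebraMap Hol Mer (A * (γ • B)) := by rw [hcross]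
    _ = algebraMap Hol Mer A * algebraMap Hol Mer (γ • B) := by rw [map_mul]
    _ = ev x * algebraMap Hol Mer B * algebraMap Hol Mer (γ • B) := by rw [h1]
    _ = ev x * (algebraMap Hol Mer (γ • B) * algebraMap Hol Mer B) := by ring

/-- **injectivity of `κ` modulo `p`-th powers**: two `p`-th roots with the same multipliers. -/
theorem inj_ev_class (M : ℕ) [NeZero M] (ev : ratioField M →+* Mer) (hev : inj_EvCompat M ev)
    {p : ℕ} (hp : 0 < p) (f f' : ratioField M) (hf : f ≠ 0) (h h' : Mer)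
    (hpow : h ^ p = ev f) (hpow' : h' ^ p = ev f') (c : Gamma0 M → ℂ)
    (hc : ∀ γ : Gamma0 M, (γ : SL(2, ℤ)) • h = algebraMap ℂ Mer (c γ) * h)
    (hc' : ∀ γ : Gamma0 M, (γ : SL(2, ℤ)) • h' = algebraMap ℂ Mer (c γ) * h') :
    ∃ w : ratioField M, f' = f * w ^ p := by
  have hevf : ev f ≠ 0 := (map_ne_zero ev).mpr hf
  have hh : h ≠ 0 := by
    rintro rfl
    rw [zero_pow hp.ne'] at hpow
    exact hevf hpow.symm
  have hinv : ∀ γ : SL(2, ℤ), γ ∈ Gamma0 M → γ • (h' * h⁻¹) = h' * h⁻¹ := by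
    intro γ hγ
    have e1 := hc ⟨γ, hγ⟩
    have e2 := hc' ⟨γ, hγ⟩
    simp only at e1 e2
    have hγh : γ • h ≠ 0 := by
      rw [Ne, smul_eq_zero_iff_eq]; exact hh
    have hcne : algebraMap ℂ Mer (c ⟨γ, hγ⟩) ≠ 0 := by
      intro h0
      rw [h0, zero_mul] at e1
      exact hγh e1
    rw [smul_mul', smul_inv'' , e1, e2, mul_inv]
    field_simp
  have hpw : (h' * h⁻¹) ^ p = ev (f' * f⁻¹) := by
    rw [mul_pow, inv_pow, hpow, hpow', map_mul, map_inv₀]
  obtain ⟨w, _, hw⟩ := inj_ev_surj M ev hev hp (f' * f⁻¹) (h' * h⁻¹) hinv hpw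
  refine ⟨w, ?_⟩
  rw [hw]
  field_simp

end Fermat.Agent.S42x
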