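/-
S42 project, block B3, leaf B3.1 (TWIN by helper29, prefix `cde29_`): the realisation
`ev : FC → Mer` of the function field `FC = S23x.ratioField M = modularFunctionFieldFullC ℂ M`
of `X₀(M)` over `ℂ` inside the field `Mer` of meromorphic functions on the upper half plane,
constructed DIRECTLY from ratios of modular forms:

  `x * qL B = qL A`  (A, B forms of the same weight on `Γ₀(M)`, `B ≠ 0`)  ⟹  `ev x = A / B`.

* `cde29_Rel M x h`        : the graph relation;
* `cde29_ev M`             : `ratioField M →+* Mer`;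
* `cde29_evCompat M`       : `inj_EvCompat M (cde29_ev M)` (the DOOR from forms, helper81's shape);
* `cde29_ev_algebraMap`, `cde29_ev_jL`, `cde29_ev_smul`;
* `cde29_real M`           : `cdc_Real ↥(modularFunctionFieldFullC ℂ M) M (pls_jb ℂ M)` (helper55's bundle)
  and its DOOR `cde29_real_door`.
-/
import Fermat.Agent.S42x.InjEv
import Fermat.Agent.S42x.CDictDefs
import Fermat.Agent.S42x.CDictBridge

set_option autoImplicit false

namespace Fermat.Agent.S42x

open Fermat.Agent.S24x Fermat.Agent.S23x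
open UpperHalfPlane ModularForm ModularFormClass CongruenceSubgroup
open scoped MatrixGroups Manifold

/-- the graph of the realisation: `x` is the `q`-expansion of `A / B` and `h = A / B`. -/
def cde29_Rel (M : ℕ) [NeZero M] (x : LS) (h : Mer) : Prop :=
  ∃ (m : ℤ) (A B : Hol), IsMF M m (A : ℍ → ℂ) ∧ IsMF M m (B : ℍ → ℂ) ∧ B ≠ 0 ∧
    x * qL (B : ℍ → ℂ) = qL (A : ℍ → ℂ) ∧ h * algebraMap Hol Mer B = algebraMap Hol Mer A

variable {M : ℕ} [NeZero M]

theorem cde29_coe_ne_zero {B : Hol} (hB : B ≠ 0) : (B : ℍ → ℂ) ≠ 0 :=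
  fun h0 => hB (Subtype.ext h0)

/-- the relation is functional. -/
theorem cde29_rel_unique {x : LS} {h h' : Mer} (H : cde29_Rel M x h) (H' : cde29_Rel M x h') :
    h = h' := by
  obtain ⟨m, A, B, hA, hB, hB0, hx, hh⟩ := H
  obtain ⟨m', A', B', hA', hB', hB0', hx', hh'⟩ := H'
  have hq : qL ((A : ℍ → ℂ) * (B' : ℍ → ℂ)) = qL ((A' : ℍ → ℂ) * (B : ℍ → ℂ)) := by
    rw [qL_mul hA.isNice hB'.isNice, qL_mul hA'.isNice hB.isNice, ← hx, ← hx']
    ring
  have hfun : (A : ℍ → ℂ) * (B' : ℍ → ℂ) = (A' : ℍ → ℂ) * (B : ℍ → ℂ) :=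
    qL_injective (hA.isNice.mul hB'.isNice) (hA'.isNice.mul hB.isNice) hq
  have hHol : A * B' = A' * B := Subtype.ext hfun
  have hBm := inj_algebraMap_ne_zero hB0
  have hBm' := inj_algebraMap_ne_zero hB0'
  apply mul_right_cancel₀ (mul_ne_zero hBm hBm')
  calc h * (algebraMap Hol Mer B * algebraMap Hol Mer B')
      = (h * algebraMap Hol Mer B) * algebraMap Hol Mer B' := by ring
    _ = algebraMap Hol Mer (A * B') := by rw [hh, map_mul]
    _ = algebraMap Hol Mer (A' * B) := by rw [hHol]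
    _ = (h' * algebraMap Hol Mer B') * algebraMap Hol Mer B := by rw [hh', map_mul]
    _ = h' * (algebraMap Hol Mer B * algebraMap Hol Mer B') := by ring

/-- from a presentation as a ratio of forms. -/
theorem cde29_rel_of_ratio {x : LS} {m : ℤ} {A B : Hol} (hA : IsMF M m (A : ℍ → ℂ))
    (hB : IsMF M m (B : ℍ → ℂ)) (hB0 : B ≠ 0) (hx : x * qL (B : ℍ → ℂ) = qL (A : ℍ → ℂ)) :
    cde29_Rel M x (algebraMap Hol Mer A / algebraMap Hol Mer B) :=
  ⟨m, A, B, hA, hB, hB0, hx, div_mul_cancel₀ _ (inj_algebraMap_ne_zero hB0)⟩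

/-- the relation is total on `ratioField M`. -/
theorem cde29_rel_exists (x : ratioField M) : ∃ h : Mer, cde29_Rel M (x : LS) h := by
  obtain ⟨m, A, B, hA, hB, hB0, hx⟩ := inj_exists_ratio M x
  exact ⟨_, cde29_rel_of_ratio hA hB hB0 hx⟩

theorem cde29_rel_add {x y : LS} {h k : Mer} (H : cde29_Rel M x h) (K : cde29_Rel M y k) :
    cde29_Rel M (x + y) (h + k) := by
  obtain ⟨m, A, B, hA, hB, hB0, hx, hh⟩ := H
  obtain ⟨m', A', B', hA', hB', hB0', hy, hk⟩ := K
  have h1 : IsMF M (m + m') ((A : ℍ → ℂ) * (B' : ℍ → ℂ)) := hA.mul hB'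
  have h2 : IsMF M (m + m') ((A' : ℍ → ℂ) * (B : ℍ → ℂ)) := (hA'.mul hB).cast (by ring)
  refine ⟨m + m', A * B' + A' * B, B * B', h1.add h2, hB.mul hB', mul_ne_zero hB0 hB0', ?_, ?_⟩
  · show (x + y) * qL ((B : ℍ → ℂ) * (B' : ℍ → ℂ)) =
      qL ((A : ℍ → ℂ) * (B' : ℍ → ℂ) + (A' : ℍ → ℂ) * (B : ℍ → ℂ))
    rw [qL_mul hB.isNice hB'.isNice, qL_add h1.isNice h2.isNice, qL_mul hA.isNice hB'.isNice,
      qL_mul hA'.isNice hB.isNice, ← hx, ← hy]
    ring
  · rw [map_mul, map_add, map_mul, map_mul, ← hh, ← hk]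
    ring

theorem cde29_rel_mul {x y : LS} {h k : Mer} (H : cde29_Rel M x h) (K : cde29_Rel M y k) :
    cde29_Rel M (x * y) (h * k) := by
  obtain ⟨m, A, B, hA, hB, hB0, hx, hh⟩ := H
  obtain ⟨m', A', B', hA', hB', hB0', hy, hk⟩ := K
  refine ⟨m + m', A * A', B * B', hA.mul hA', hB.mul hB', mul_ne_zero hB0 hB0', ?_, ?_⟩
  · show (x * y) * qL ((B : ℍ → ℂ) * (B' : ℍ → ℂ)) = qL ((A : ℍ → ℂ) * (A' : ℍ → ℂ))
    rw [qL_mul hB.isNice hB'.isNice, qL_mul hA.isNice hA'.isNice, ← hx, ← hy]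
    ring
  · rw [map_mul, map_mul, ← hh, ← hk]
    ring

theorem cde29_rel_const (c : ℂ) : cde29_Rel M (algebraMap ℂ LS c) (algebraMap ℂ Mer c) := by
  refine ⟨0, algebraMap ℂ Hol c, 1, isMF_const M c, isMF_const M 1, one_ne_zero, ?_, ?_⟩
  · show algebraMap ℂ LS c * qL (fun _ : ℍ => (1 : ℂ)) = qL (fun _ : ℍ => c)
    rw [m04_qL_one, mul_one, qL_const]
  · rw [map_one, mul_one, IsScalarTower.algebraMap_apply ℂ Hol Mer]

variable (M)

/-- **the realisation** of `FC = ratioField M` in `Mer`. -/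
noncomputable def cde29_ev : ratioField M →+* Mer where
  toFun x := Classical.choose (cde29_rel_exists x)
  map_one' := by
    have h1 := Classical.choose_spec (cde29_rel_exists (M := M) 1)
    have h2 := cde29_rel_const (M := M) 1
    rw [map_one, map_one] at h2
    exact cde29_rel_unique h1 h2
  map_mul' x y := by
    have h1 := Classical.choose_spec (cde29_rel_exists (x * y))
    have h2 := cde29_rel_mul (Classical.choose_spec (cde29_rel_exists x))
      (Classical.choose_spec (cde29_rel_exists y))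
    exact cde29_rel_unique h1 h2
  map_zero' := by
    have h1 := Classical.choose_spec (cde29_rel_exists (M := M) 0)
    have h2 := cde29_rel_const (M := M) 0
    rw [map_zero, map_zero] at h2
    exact cde29_rel_unique h1 h2
  map_add' x y := by
    have h1 := Classical.choose_spec (cde29_rel_exists (x + y))
    have h2 := cde29_rel_add (Classical.choose_spec (cde29_rel_exists x))
      (Classical.choose_spec (cde29_rel_exists y))
    exact cde29_rel_unique h1 h2

theorem cde29_ev_rel (x : ratioField M) : cde29_Rel M (x : LS) (cde29_ev M x) :=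
  Classical.choose_spec (cde29_rel_exists x)

/-- **the DOOR from forms** (helper81's `inj_EvCompat`). -/
theorem cde29_evCompat : inj_EvCompat M (cde29_ev M) := by
  intro x m A B hA hB hB0 hx
  have h1 := cde29_rel_unique (cde29_ev_rel M x) (cde29_rel_of_ratio hA hB hB0 hx)
  rw [h1, div_mul_cancel₀ _ (inj_algebraMap_ne_zero hB0)]

theorem cde29_ev_algebraMap (c : ℂ) :
    cde29_ev M (algebraMap ℂ (ratioField M) c) = algebraMap ℂ Mer c :=
  cde29_rel_unique (cde29_ev_rel M _) (cde29_rel_const c)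

/-- `Γ₀(M)`-invariance. -/
theorem cde29_ev_smul (γ : SL(2, ℤ)) (hγ : γ ∈ Gamma0 M) (x : ratioField M) :
    γ • cde29_ev M x = cde29_ev M x :=
  inj_ev_invariant M (cde29_ev M) (cde29_evCompat M) x γ hγ


/-- `ev` of the `q`-expansion of `j` is the `j`-function. -/
theorem cde29_ev_jL :
    cde29_ev M ⟨jL, mem_ratioField_iff.mpr (isRatio_jL M)⟩ = jMer := by
  have hE : IsMF M 4 (⇑E₄) := IsMF1.isMF M m08_isMF1_E4
  have hD : IsMF M 12 ModularForm.discriminant := IsMF1.isMF M m08_isMF1_discriminant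
  have hE3 : IsMF M 12 ((⇑E₄ : ℍ → ℂ) ^ 3) := (IsMF.pow hE 3).cast (by norm_num)
  obtain ⟨A, hA⟩ := inj_exists_hol hE3
  obtain ⟨B, hB⟩ := inj_exists_hol hD
  have hB0 : B ≠ 0 := by
    intro h0
    have h1 : (B : ℍ → ℂ) UpperHalfPlane.I = 0 := by rw [h0]; rfl
    rw [hB] at h1
    exact ModularForm.discriminant_ne_zero _ h1
  have hx : jL * qL (B : ℍ → ℂ) = qL (A : ℍ → ℂ) := by
    rw [hA, hB, qL_pow hE.isNice 3]
    show E4L ^ 3 / DeltaL * DeltaL = E4L ^ 3
    exact div_mul_cancel₀ _ DeltaL_ne_zero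
  have h1 := cde29_evCompat M ⟨jL, mem_ratioField_iff.mpr (isRatio_jL M)⟩ 12 A B
    (hA ▸ hE3) (hB ▸ hD) hB0 hx
  have h2 : jMer * algebraMap Hol Mer B = algebraMap Hol Mer A := by
    rw [jMer, ← map_mul]
    congr 1
    apply Subtype.ext
    funext τ
    show jFun τ * (B : ℍ → ℂ) τ = (A : ℍ → ℂ) τ
    rw [hA, hB]
    exact jFun_mul_discriminant τ
  exact mul_right_cancel₀ (inj_algebraMap_ne_zero hB0) (h1.trans h2.symm)

theorem cde29_dmulH_eq (d : ℕ) [NeZero d] (τ : ℍ) : dmulH d τ = mulN d τ :=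
  UpperHalfPlane.ext rfl

/-- `ev` of the `q`-expansion of `j(dz)` is `j(dz)`, for `d ∣ M`. -/
theorem cde29_ev_jNL {d : ℕ} [NeZero d] (hd : d ∣ M) :
    cde29_ev M ⟨jNL d, cdcb_jNL_mem hd⟩ = algebraMap Hol Mer (jdHol d) := by
  have hE : IsMF M 4 (fun z => E₄ (mulN d z)) :=
    cdcb_isMF_of_dvd hd (isMF_comp_mulN d m08_isMF1_E4)
  have hD : IsMF M 12 (fun z => ModularForm.discriminant (mulN d z)) :=
    cdcb_isMF_of_dvd hd (isMF_comp_mulN d m08_isMF1_discriminant)
  have hE3 : IsMF M 12 ((fun z => E₄ (mulN d z)) ^ 3) := (IsMF.pow hE 3).cast (by norm_num)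
  obtain ⟨A, hA⟩ := inj_exists_hol hE3
  obtain ⟨B, hB⟩ := inj_exists_hol hD
  have hB0 : B ≠ 0 := by
    intro h0
    have h1 : (B : ℍ → ℂ) UpperHalfPlane.I = 0 := by rw [h0]; rfl
    rw [hB] at h1
    exact ModularForm.discriminant_ne_zero _ h1
  have hqD : qL (fun z => ModularForm.discriminant (mulN d z)) ≠ 0 := by
    intro h
    have h2 := (qL_eq_zero_iff (IsMF.isNice hD)).mp h
    have := congrFun h2 UpperHalfPlane.I
    exact ModularForm.discriminant_ne_zero _ this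
  have hx : jNL d * qL (B : ℍ → ℂ) = qL (A : ℍ → ℂ) := by
    rw [hA, hB, qL_pow hE.isNice 3]
    unfold jNL
    exact div_mul_cancel₀ _ hqD
  have h1 := cde29_evCompat M ⟨jNL d, cdcb_jNL_mem hd⟩ 12 A B (hA ▸ hE3) (hB ▸ hD) hB0 hx
  have h2 : algebraMap Hol Mer (jdHol d) * algebraMap Hol Mer B = algebraMap Hol Mer A := by
    rw [← map_mul]
    congr 1
    apply Subtype.ext
    funext τ
    show (jdHol d : ℍ → ℂ) τ * (B : ℍ → ℂ) τ = (A : ℍ → ℂ) τ
    rw [hA, hB, jdHol_eq, cde29_dmulH_eq]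
    exact jFun_mul_discriminant (mulN d τ)
  exact mul_right_cancel₀ (inj_algebraMap_ne_zero hB0) (h1.trans h2.symm)

/-! ### transport to the official carrier `modularFunctionFieldFullC ℂ M` -/

/-- the identification `modularFunctionFieldFullC ℂ M ≃ ratioField M` (equal subfields of `ℂ((q))`). -/
noncomputable def cde29_equiv :
    ↥(ModularCurve.modularFunctionFieldFullC ℂ M) ≃ₐ[ℂ] ↥(ratioField M) :=
  IntermediateField.equivOfEq (cdcb_fullC_eq M)

@[simp] theorem cde29_equiv_coe (x : ↥(ModularCurve.modularFunctionFieldFullC ℂ M)) :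
    ((cde29_equiv M x : ratioField M) : LS) = (x : LaurentSeries ℂ) := rfl

/-- **B3.1** the realisation bundle on the official carrier. -/
noncomputable def cde29_real :
    cdc_Real ↥(ModularCurve.modularFunctionFieldFullC ℂ M) M (S18x.pls_jb ℂ M) where
  φ := (cde29_ev M).comp (cde29_equiv M).toRingEquiv.toRingHom
  map_const c := by
    show cde29_ev M (cde29_equiv M (algebraMap ℂ _ c)) = _
    rw [AlgEquiv.commutes, cde29_ev_algebraMap]
  map_j := by
    show cde29_ev M (cde29_equiv M (S18x.pls_jb ℂ M)) = _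
    have h : cde29_equiv M (S18x.pls_jb ℂ M) = ⟨jL, mem_ratioField_iff.mpr (isRatio_jL M)⟩ :=
      Subtype.ext dl_jqModC_eq_jL
    rw [h, cde29_ev_jL]
  inv γ hγ f := cde29_ev_smul M γ hγ _

theorem cde29_real_apply (x : ↥(ModularCurve.modularFunctionFieldFullC ℂ M)) :
    (cde29_real M).φ x = cde29_ev M (cde29_equiv M x) := rfl

/-- **the DOOR from forms** on the official carrier. -/
theorem cde29_real_door (x : ↥(ModularCurve.modularFunctionFieldFullC ℂ M)) (m : ℤ) (A B : Hol)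
    (hA : IsMF M m (A : ℍ → ℂ)) (hB : IsMF M m (B : ℍ → ℂ)) (hB0 : B ≠ 0)
    (hx : (x : LaurentSeries ℂ) * qL (B : ℍ → ℂ) = qL (A : ℍ → ℂ)) :
    (cde29_real M).φ x * algebraMap Hol Mer B = algebraMap Hol Mer A :=
  cde29_evCompat M (cde29_equiv M x) m A B hA hB hB0 hx

/-- variant of the DOOR with a quotient. -/
theorem cde29_real_door' (x : ↥(ModularCurve.modularFunctionFieldFullC ℂ M)) (m : ℤ) (A B : Hol)
    (hA : IsMF M m (A : ℍ → ℂ)) (hB : IsMF M m (B : ℍ → ℂ)) (hB0 : B ≠ 0)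
    (hx : (x : LaurentSeries ℂ) = qL (A : ℍ → ℂ) / qL (B : ℍ → ℂ)) :
    (cde29_real M).φ x = algebraMap Hol Mer A / algebraMap Hol Mer B := by
  have hqB : qL (B : ℍ → ℂ) ≠ 0 := m04_qL_ne_zero hB (cde29_coe_ne_zero hB0)
  rw [eq_div_iff (inj_algebraMap_ne_zero hB0)]
  apply cde29_real_door M x m A B hA hB hB0
  rw [hx, div_mul_cancel₀ _ hqB]

/-- the generators `j(q^d)`, `d ∣ M`, are realised by `j(dz)`. -/
theorem cde29_real_jd {d : ℕ} [NeZero d] (hd : d ∣ M)
    (x : ↥(ModularCurve.modularFunctionFieldFullC ℂ M))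
    (hx : (x : LaurentSeries ℂ) = ModularCurve.qExpand ℂ d (ModularCurve.jqModC ℂ)) :
    (cde29_real M).φ x = algebraMap Hol Mer (jdHol d) := by
  have h : cde29_equiv M x = ⟨jNL d, cdcb_jNL_mem hd⟩ := by
    apply Subtype.ext
    show (x : LaurentSeries ℂ) = jNL d
    rw [hx, dl_jqModC_eq_jL, ← dl_jNL_eq d]
  rw [cde29_real_apply, h, cde29_ev_jNL M hd]

end Fermat.Agent.S42x
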