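/-
S42 project, block B3, leaf B3.1 (helper29, prefix `cde29_`), complement of `CDictEv29`:
the SAME realisation bundle on the carrier `S23x.ratioField M` (for the consumers that work on
`ratioField M` instead of `modularFunctionFieldFullC ℂ M`), with its coordinate statement.

* `cde29_jR M`            : `jL` as an element of `ratioField M`;
* `cde29_realR M`         : `cdc_Real ↥(ratioField M) M (cde29_jR M)` with `(cde29_realR M).φ = cde29_ev M` (rfl);
* `cde29_realR_evCompat`  : `inj_EvCompat M (cde29_realR M).φ`;
* `cde29_isCoordinateR`   : `IsCoordinate ℂ ↥(ratioField M) (cde29_jR M)`.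
-/
import Fermat.Agent.S42x.CDictEv29

set_option autoImplicit false

namespace Fermat.Agent.S42x

open Fermat.Agent.S24x Fermat.Agent.S23x
open UpperHalfPlane ModularForm ModularFormClass CongruenceSubgroup AlgebraicCurve
open scoped MatrixGroups Manifold

variable (M : ℕ) [NeZero M]

/-- `j` (its `q`-expansion) as an element of `ratioField M`. -/
noncomputable def cde29_jR : ↥(ratioField M) := ⟨jL, mem_ratioField_iff.mpr (isRatio_jL M)⟩

@[simp] theorem cde29_jR_coe : ((cde29_jR M : ratioField M) : LS) = jL := rfl

/-- the realisation bundle on `ratioField M`. -/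
noncomputable def cde29_realR : cdc_Real ↥(ratioField M) M (cde29_jR M) where
  φ := cde29_ev M
  map_const c := cde29_ev_algebraMap M c
  map_j := cde29_ev_jL M
  inv γ hγ f := cde29_ev_smul M γ hγ f

theorem cde29_realR_phi : (cde29_realR M).φ = cde29_ev M := rfl

theorem cde29_realR_evCompat : inj_EvCompat M (cde29_realR M).φ := cde29_evCompat M

/-- transport of the coordinate statement along an equality of intermediate fields. -/
theorem cde29_isCoordinate_of_eq (K : IntermediateField ℂ (LaurentSeries ℂ))
    (h : ModularCurve.modularFunctionFieldFullC ℂ M = K) :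
    IsCoordinate ℂ ↥K ⟨ModularCurve.jqModC ℂ, h ▸ ModularCurve.jqModC_mem_full ℂ M⟩ := by
  subst h
  exact S18x.pls_isCoordinate_jb ℂ M

/-- `j` is a coordinate of `ratioField M`. -/
theorem cde29_isCoordinateR : IsCoordinate ℂ ↥(ratioField M) (cde29_jR M) := by
  have h := cde29_isCoordinate_of_eq M (ratioField M) (cdcb_fullC_eq M)
  have e : (⟨ModularCurve.jqModC ℂ, (cdcb_fullC_eq M) ▸ ModularCurve.jqModC_mem_full ℂ M⟩ :
      ↥(ratioField M)) = cde29_jR M := Subtype.ext dl_jqModC_eq_jL
  rwa [e] at h

/-- the identification of carriers sends `pls_jb` to `cde29_jR` and intertwines the bundles. -/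
theorem cde29_equiv_jb : cde29_equiv M (S18x.pls_jb ℂ M) = cde29_jR M :=
  Subtype.ext dl_jqModC_eq_jL

theorem cde29_real_eq_realR (x : ↥(ModularCurve.modularFunctionFieldFullC ℂ M)) :
    (cde29_real M).φ x = (cde29_realR M).φ (cde29_equiv M x) := rfl

end Fermat.Agent.S42x
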