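/-
S42 helper library (row 75 "R5c", POINT-PLACE half; also the finite-place step of B3.4), helper71.

Generic over a realisation `ρ : MerReal K F` of a function field inside `Mer` in which some
`t : F` is realised by `j`:

* `ddp71_holOrdZ_j`            : `ord_τ (j - j(τ)) ∈ {1, 2, 3}`;
* `ddp71_ordAt_pow`            : `ord_τ (x ^ n) = n * ord_τ x`;
* `ddp71_exists_mult_dvd_six`  : `ord_τ ∘ φ = e • ord_{P_τ}` with `e ∣ 6`;
* `ddp71_dvd_placeAt`          : `φ f = h ^ p`, `gcd (p, 6) = 1` ⟹ `p ∣ ord_{P_τ} f`;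
* `ddp71_dvd_ordAt_of_dvd_placeAt` : the converse direction (N3): `p ∣ ord_{P_τ} f ⟹ p ∣ ord_τ (φ f)`.

`Q̄` instance (`evReal N`, `vPt N τ`):

* `ddp71_dvd_vPt`, `ddp71_dvd_of_mem_placesOver`, `ddp71_dvd_of_finite` (every place at which
  `jBar` is finite), `ddp71_dvd_all` (all places, the pole places of `jBar` as a hypothesis).
-/
import Fermat.Agent.S24x.CoveringFinal
import Fermat.Agent.S24x.PlaceCenter
import Fermat.Agent.S24x.JFiber

set_option autoImplicit false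

namespace Fermat.Agent.S42x

open UpperHalfPlane AlgebraicCurve CongruenceSubgroup ModularCurve
open Fermat.Agent.S24x
open scoped MatrixGroups Manifold

/-! ## Level one: the local orders of `j - j(τ)` -/

/-- `ord_τ (j - j(τ)) ∈ {1, 2, 3}`. -/
theorem ddp71_holOrdZ_j (τ : ℍ) :
    holOrdZ (jHol - algebraMap ℂ Hol (jFun τ)) τ = 1 ∨
      holOrdZ (jHol - algebraMap ℂ Hol (jFun τ)) τ = 2 ∨
      holOrdZ (jHol - algebraMap ℂ Hol (jFun τ)) τ = 3 := by
  unfold holOrdZ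
  by_cases h0 : jFun τ = 0
  · right; right
    rw [h0, map_zero, sub_zero, holOrder_jHol_of_jFun_eq_zero τ h0]
    rfl
  · by_cases h1 : jFun τ = 1728
    · right; left
      rw [h1, holOrder_jHol_sub_of_jFun_eq_1728 τ h1]
      rfl
    · left
      rw [holOrder_jHol_sub_generic τ h0 h1]
      rfl

theorem ddp71_holOrdZ_j_dvd_six (τ : ℍ) :
    holOrdZ (jHol - algebraMap ℂ Hol (jFun τ)) τ ∣ 6 := by
  rcases ddp71_holOrdZ_j τ with h | h | h <;> rw [h] <;> norm_num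

theorem ddp71_ordAt_one (τ : ℍ) : ordAt τ (1 : Mer) = 0 := by
  have := ordAt_const τ 1
  rwa [map_one] at this

/-- `ord_τ (x ^ n) = n * ord_τ x`. -/
theorem ddp71_ordAt_pow (τ : ℍ) (x : Mer) (n : ℕ) : ordAt τ (x ^ n) = n * ordAt τ x := by
  by_cases hx : x = 0
  · subst hx
    rcases Nat.eq_zero_or_pos n with rfl | hn
    · rw [pow_zero, Nat.cast_zero, zero_mul, ddp71_ordAt_one]
    · rw [zero_pow hn.ne', ordAt_zero, mul_zero]
  · induction n with
    | zero =>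
      rw [pow_zero, Nat.cast_zero, zero_mul, ddp71_ordAt_one]
    | succ n ih =>
      rw [pow_succ, ordAt_mul τ (pow_ne_zero n hx) hx, ih]
      push_cast
      ring

/-! ## Generic realisations -/

section Generic

variable {K F : Type*} [Field K] [Field F] [Algebra K F] (ρ : MerReal K F)

/-- `t - c` is realised by the holomorphic function `j - ι c`. -/
theorem ddp71_φ_sub {t : F} (ht : ρ.φ t = jMer) (c : K) :
    ρ.φ (t - algebraMap K F c) = algebraMap Hol Mer (jHol - algebraMap ℂ Hol (ρ.ι c)) := by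
  rw [map_sub, map_sub, ht, ρ.map_const, IsScalarTower.algebraMap_apply ℂ Hol Mer]
  rfl

theorem ddp71_sub_ne_zero {t : F} (ht : ρ.φ t = jMer) (c : K) : t - algebraMap K F c ≠ 0 := by
  intro h
  have h1 := ddp71_φ_sub ρ ht c
  rw [h, map_zero] at h1
  apply jHol_sub_const_ne_zero (ρ.ι c)
  apply IsFractionRing.injective Hol Mer
  rw [map_zero, ← h1]

/-- every point whose `j`-invariant comes from the constants is a point of the curve. -/
theorem ddp71_isPt {t : F} (ht : ρ.φ t = jMer) (τ : ℍ) {c : K} (hc : ρ.ι c = jFun τ) :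
    ρ.IsPt τ := by
  refine ρ.isPt_of_hol_zero (ddp71_sub_ne_zero ρ ht c) (ddp71_φ_sub ρ ht c) ?_
  show jFun τ - ρ.ι c = 0
  rw [hc, sub_self]

theorem ddp71_ordAt_sub {t : F} (ht : ρ.φ t = jMer) (τ : ℍ) {c : K} (hc : ρ.ι c = jFun τ) :
    ordAt τ (ρ.φ (t - algebraMap K F c)) =
      holOrdZ (jHol - algebraMap ℂ Hol (jFun τ)) τ := by
  rw [ddp71_φ_sub ρ ht c, ordAt_algebraMap_eq_holOrdZ τ (jHol_sub_const_ne_zero (ρ.ι c)), hc]

/-- the point place lies over `t = c`. -/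
theorem ddp71_placeAt_mem_placesOver {t : F} (ht : ρ.φ t = jMer) (τ : ℍ) {c : K}
    (hc : ρ.ι c = jFun τ) (hpt : ρ.IsPt τ) : ρ.placeAt τ hpt ∈ placesOver K F t c := by
  rw [mem_placesOver, ρ.placeAt_ord_pos_iff τ hpt (ddp71_sub_ne_zero ρ ht c),
    ddp71_ordAt_sub ρ ht τ hc]
  rcases ddp71_holOrdZ_j τ with h | h | h <;> rw [h] <;> norm_num

/-- **the dictionary with multiplier dividing `6`**: `ord_τ ∘ φ = e • ord_{P_τ}`, `e ∣ 6`. -/
theorem ddp71_exists_mult_dvd_six {t : F} (ht : ρ.φ t = jMer) (τ : ℍ) {c : K}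
    (hc : ρ.ι c = jFun τ) (hpt : ρ.IsPt τ) :
    ∃ e : ℕ, 0 < e ∧ e ∣ 6 ∧ (∃ π : F, π ≠ 0 ∧ ordAt τ (ρ.φ π) = e) ∧
      ∀ f : F, ordAt τ (ρ.φ f) = e * (ρ.placeAt τ hpt).ord f := by
  obtain ⟨e, he, hπ, hall⟩ := ρ.exists_ordAt_eq_mul_placeAt_ord τ hpt
  refine ⟨e, he, ?_, hπ, hall⟩
  have h1 := hall (t - algebraMap K F c)
  rw [ddp71_ordAt_sub ρ ht τ hc] at h1
  have h2 : (e : ℤ) ∣ 6 := (Dvd.intro _ h1.symm).trans (ddp71_holOrdZ_j_dvd_six τ)
  exact_mod_cast h2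

/-- **point-place divisibility**: if `φ f` is a `p`-th power in `Mer` and `gcd (p, 6) = 1`, then
`p ∣ ord_{P_τ} f`. -/
theorem ddp71_dvd_placeAt {t : F} (ht : ρ.φ t = jMer) (τ : ℍ) {c : K}
    (hc : ρ.ι c = jFun τ) (hpt : ρ.IsPt τ) {p : ℕ} (hp : Nat.Coprime p 6) {f : F} {h0 : Mer}
    (hroot : h0 ^ p = ρ.φ f) : (p : ℤ) ∣ (ρ.placeAt τ hpt).ord f := by
  obtain ⟨e, -, he6, -, hall⟩ := ddp71_exists_mult_dvd_six ρ ht τ hc hpt
  have h1 : (p : ℤ) * ordAt τ h0 = e * (ρ.placeAt τ hpt).ord f := by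
    rw [← hall f, ← hroot, ddp71_ordAt_pow]
  have hcop : IsCoprime (p : ℤ) (e : ℤ) :=
    Nat.isCoprime_iff_coprime.mpr (Nat.Coprime.coprime_dvd_right he6 hp)
  exact hcop.dvd_of_dvd_mul_left (Dvd.intro _ h1)

/-- the converse direction (N3): divisibility at the place gives divisibility of the analytic
order. -/
theorem ddp71_dvd_ordAt_of_dvd_placeAt (τ : ℍ) (hpt : ρ.IsPt τ) {p : ℤ} {f : F}
    (h : p ∣ (ρ.placeAt τ hpt).ord f) : p ∣ ordAt τ (ρ.φ f) := by
  obtain ⟨e, -, -, hall⟩ := ρ.exists_ordAt_eq_mul_placeAt_ord τ hpt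
  rw [hall f]
  exact Dvd.dvd.mul_left h _

/-- **all finite places, generic**: given the covering of the places over finite values of `t` by
point places, `p` divides the order of `f` at every place at which `t` is finite. -/
theorem ddp71_dvd_of_finite_gen [IsAlgClosed K] {t : F} (ht : ρ.φ t = jMer)
    (hcoord : IsCoordinate K F t)
    (hcov : ∀ (c : K) (v : Place K F), v ∈ placesOver K F t c →
      ∃ (τ : ℍ) (hpt : ρ.IsPt τ), ρ.ι c = jFun τ ∧ v = ρ.placeAt τ hpt)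
    {p : ℕ} (hp : Nat.Coprime p 6) {f : F} {h0 : Mer} (hroot : h0 ^ p = ρ.φ f)
    {v : Place K F} (hv : 0 ≤ v.ord t) : (p : ℤ) ∣ v.ord f := by
  obtain ⟨c, hc, -⟩ := pc_existsUnique_center hcoord v hv
  obtain ⟨τ, hpt, hcτ, rfl⟩ := hcov c v hc
  exact ddp71_dvd_placeAt ρ ht τ hcτ hpt hp hroot

/-- **all places, generic**: the pole places of `t` as a hypothesis. -/
theorem ddp71_dvd_all_gen [IsAlgClosed K] {t : F} (ht : ρ.φ t = jMer)
    (hcoord : IsCoordinate K F t)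
    (hcov : ∀ (c : K) (v : Place K F), v ∈ placesOver K F t c →
      ∃ (τ : ℍ) (hpt : ρ.IsPt τ), ρ.ι c = jFun τ ∧ v = ρ.placeAt τ hpt)
    {p : ℕ} (hp : Nat.Coprime p 6) {f : F} {h0 : Mer} (hroot : h0 ^ p = ρ.φ f)
    (hpole : ∀ v : Place K F, v ∈ polePlaces K F t → (p : ℤ) ∣ v.ord f)
    (v : Place K F) : (p : ℤ) ∣ v.ord f := by
  rcases lt_or_ge (v.ord t) 0 with h | h
  · exact hpole v h
  · exact ddp71_dvd_of_finite_gen ρ ht hcoord hcov hp hroot h

/-- a prime `p ≥ 5` is coprime to `6`. -/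
theorem ddp71_coprime_six {p : ℕ} (hp : p.Prime) (h5 : 5 ≤ p) : Nat.Coprime p 6 := by
  have h2 : Nat.Coprime p 2 := (Nat.coprime_primes hp Nat.prime_two).mpr (by omega)
  have h3 : Nat.Coprime p 3 := (Nat.coprime_primes hp Nat.prime_three).mpr (by omega)
  exact Nat.Coprime.mul_right h2 h3

end Generic

/-! ## The `Q̄` instance -/

section Qbar

variable (N : ℕ)

/-- point places of `FBar N`: `p ∣ ord_{vPt τ} f` if `evF f` is a `p`-th power, `gcd (p, 6) = 1`. -/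
theorem ddp71_dvd_vPt (τ : ℍ) {c : Qbar} (hτ : jFun τ = iotaQ c) {p : ℕ} (hp : Nat.Coprime p 6)
    {f : FBar N} {h0 : Mer} (hroot : h0 ^ p = evF N f) : (p : ℤ) ∣ (vPt N τ).ord f := by
  rw [vPt_eq N τ hτ]
  exact ddp71_dvd_placeAt (evReal N) (t := jBar N) (evF_jBar N) τ (c := c) hτ.symm
    (evReal_isPt N τ hτ) hp hroot

variable [NeZero N]

/-- every place over a finite value of `jBar`. -/
theorem ddp71_dvd_of_mem_placesOver {c : Qbar} {v : Place Qbar (FBar N)}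
    (hv : v ∈ placesOver Qbar (FBar N) (jBar N) c) {p : ℕ} (hp : Nat.Coprime p 6)
    {f : FBar N} {h0 : Mer} (hroot : h0 ^ p = evF N f) : (p : ℤ) ∣ v.ord f := by
  obtain ⟨τ₀, hτ₀⟩ := jFun_surjective (iotaQ c)
  obtain ⟨g, rfl⟩ := covering_finite N c τ₀ hτ₀ v hv
  have hg : jFun (g • τ₀) = iotaQ c := by rw [jFun_smul, hτ₀]
  exact ddp71_dvd_vPt N (g • τ₀) hg hp hroot

/-- every place at which `jBar` is finite. -/
theorem ddp71_dvd_of_finite {v : Place Qbar (FBar N)} (hv : 0 ≤ v.ord (jBar N)) {p : ℕ}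
    (hp : Nat.Coprime p 6) {f : FBar N} {h0 : Mer} (hroot : h0 ^ p = evF N f) :
    (p : ℤ) ∣ v.ord f := by
  obtain ⟨c, hc, -⟩ := pc_existsUnique_center (fbf_isCoordinate_jBar N) v hv
  exact ddp71_dvd_of_mem_placesOver N hc hp hroot

/-- all places, with the pole places of `jBar` (the cusps) as a hypothesis. -/
theorem ddp71_dvd_all {p : ℕ} (hp : Nat.Coprime p 6) {f : FBar N} {h0 : Mer}
    (hroot : h0 ^ p = evF N f)
    (hcusp : ∀ v : Place Qbar (FBar N), v ∈ polePlaces Qbar (FBar N) (jBar N) → (p : ℤ) ∣ v.ord f)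
    (v : Place Qbar (FBar N)) : (p : ℤ) ∣ v.ord f := by
  rcases lt_or_ge (v.ord (jBar N)) 0 with h | h
  · exact hcusp v h
  · exact ddp71_dvd_of_finite N h hp hroot

end Qbar

end Fermat.Agent.S42x
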