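/-
S42 project, block B3, leaf B3.4 FINAL (twin written by helper71, prefix `cdcf71_`), on top of
helper55's `CDictDefs` (`cdc_Real`, `cdc_vPt`) and `DescDivPt71` (`ddp71_`).

For an arbitrary realisation bundle `D : cdc_Real F M jF` with `jF` a coordinate of `F/ℂ`:

* `cdcf71_dvd_vPt`     : `D.φ f = h ^ p`, `gcd (p, 6) = 1` ⟹ `p ∣ ord_{vPt τ} f` for every `τ`;
* `cdcf71_dvd_finite`  : given the covering of the finite places (conclusion of B3.2) the same at every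
  place at which `jF` is finite;
* `cdcf71_dvd_all`     : all places, given that `f` is a unit at the pole places of `jF`
  (conclusion of B3.3);
* `cdcf71_dvd_ordAt`   : the N3 converse `(∀ v, p ∣ v.ord f) → ∀ τ, p ∣ ord_τ (D.φ f)` (feeds B2);
* `cdcf71_dvd_ordAt_of_finite` : the same from divisibility at the finite places only.
-/
import Fermat.Agent.S42x.CDictDefs
import Fermat.Agent.S42x.DescDivPt71

set_option autoImplicit false

namespace Fermat.Agent.S42x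

open UpperHalfPlane AlgebraicCurve CongruenceSubgroup Fermat.Agent.S24x
open scoped MatrixGroups Manifold

variable {F : Type*} [Field F] [Algebra ℂ F] {M : ℕ} {jF : F} (D : cdc_Real F M jF)

/-- point places: `p ∣ ord_{vPt τ} f` if `D.φ f` is a `p`-th power in `Mer`, `gcd (p, 6) = 1`. -/
theorem cdcf71_dvd_vPt (τ : ℍ) {p : ℕ} (hp : Nat.Coprime p 6) {f : F} {h : Mer}
    (hroot : h ^ p = D.φ f) : (p : ℤ) ∣ (cdc_vPt D τ).ord f :=
  ddp71_dvd_placeAt D.toMerReal (t := jF) D.map_j τ (c := jFun τ) rfl (cdc_isPt D τ) hp hroot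

/-- the multiplier of the dictionary divides `6`. -/
theorem cdcf71_exists_mult_dvd_six (τ : ℍ) :
    ∃ e : ℕ, 0 < e ∧ e ∣ 6 ∧ ∀ f : F, ordAt τ (D.φ f) = e * (cdc_vPt D τ).ord f := by
  obtain ⟨e, he, h6, -, hall⟩ :=
    ddp71_exists_mult_dvd_six D.toMerReal (t := jF) D.map_j τ (c := jFun τ) rfl (cdc_isPt D τ)
  exact ⟨e, he, h6, hall⟩

/-- all places at which `jF` is finite, given the covering theorem (conclusion of B3.2). -/
theorem cdcf71_dvd_finite (hcoord : IsCoordinate ℂ F jF)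
    (hcov : ∀ (c : ℂ) (τ₀ : ℍ), jFun τ₀ = c → ∀ v : Place ℂ F, v ∈ placesOver ℂ F jF c →
      ∃ g : SL(2, ℤ), v = cdc_vPt D (g • τ₀))
    {p : ℕ} (hp : Nat.Coprime p 6) {f : F} {h : Mer} (hroot : h ^ p = D.φ f)
    {v : Place ℂ F} (hv : 0 ≤ v.ord jF) : (p : ℤ) ∣ v.ord f := by
  obtain ⟨c, hc, -⟩ := pc_existsUnique_center hcoord v hv
  obtain ⟨τ₀, hτ₀⟩ := jFun_surjective c
  obtain ⟨g, rfl⟩ := hcov c τ₀ hτ₀ v hc
  exact cdcf71_dvd_vPt D (g • τ₀) hp hroot

/-- **B3.4 FINAL**: all places, `f` a unit at the pole places of `jF` (conclusion of B3.3). -/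
theorem cdcf71_dvd_all (hcoord : IsCoordinate ℂ F jF)
    (hcov : ∀ (c : ℂ) (τ₀ : ℍ), jFun τ₀ = c → ∀ v : Place ℂ F, v ∈ placesOver ℂ F jF c →
      ∃ g : SL(2, ℤ), v = cdc_vPt D (g • τ₀))
    {p : ℕ} (hp : Nat.Coprime p 6) {f : F} {h : Mer} (hroot : h ^ p = D.φ f)
    (hpole : ∀ v : Place ℂ F, v ∈ polePlaces ℂ F jF → v.ord f = 0)
    (v : Place ℂ F) : (p : ℤ) ∣ v.ord f := by
  rcases lt_or_ge (v.ord jF) 0 with hv | hv
  · rw [hpole v hv]
    exact dvd_zero _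
  · exact cdcf71_dvd_finite D hcoord hcov hp hroot hv

/-- prime `p ≥ 5` form of `cdcf71_dvd_all`. -/
theorem cdcf71_dvd_all_prime (hcoord : IsCoordinate ℂ F jF)
    (hcov : ∀ (c : ℂ) (τ₀ : ℍ), jFun τ₀ = c → ∀ v : Place ℂ F, v ∈ placesOver ℂ F jF c →
      ∃ g : SL(2, ℤ), v = cdc_vPt D (g • τ₀))
    {p : ℕ} (hp : p.Prime) (h5 : 5 ≤ p) {f : F} {h : Mer} (hroot : h ^ p = D.φ f)
    (hpole : ∀ v : Place ℂ F, v ∈ polePlaces ℂ F jF → v.ord f = 0)
    (v : Place ℂ F) : (p : ℤ) ∣ v.ord f :=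
  cdcf71_dvd_all D hcoord hcov (ddp71_coprime_six hp h5) hroot hpole v

/-- **N3 converse**: divisibility at the point places gives divisibility of all analytic orders
(the input of B2 `prtm_exists_root_mer`). -/
theorem cdcf71_dvd_ordAt_of_finite {p : ℤ} {f : F}
    (hall : ∀ v : Place ℂ F, 0 ≤ v.ord jF → p ∣ v.ord f) (τ : ℍ) : p ∣ ordAt τ (D.φ f) := by
  refine ddp71_dvd_ordAt_of_dvd_placeAt D.toMerReal τ (cdc_isPt D τ) (hall _ ?_)
  -- `jF` is finite at a point place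
  have hmem : jF ∈ (cdc_vPt D τ).toValuationSubring := by
    rw [cdc_mem_vPt_iff, D.map_j]
    exact ordAt_algebraMap_nonneg τ jHol
  have hj : jF ≠ 0 := by
    have := cdc_j_sub_const_ne_zero D 0
    rwa [map_zero, sub_zero] at this
  exact (pb_mem_iff _ hj).mp hmem

theorem cdcf71_dvd_ordAt {p : ℤ} {f : F} (hall : ∀ v : Place ℂ F, p ∣ v.ord f) (τ : ℍ) :
    p ∣ ordAt τ (D.φ f) :=
  cdcf71_dvd_ordAt_of_finite D (fun v _ => hall v) τ

end Fermat.Agent.S42x
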