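/-
S42x/AutFixedRel (helper87; S42 project, shared leaf X1 of blocks B4/B7; prefix `afr_`):
the fixed field of a FINITE-INDEX subgroup of `Aut(K/k)` is `k`, for `k ⊆ K` algebraically
closed fields of characteristic zero (used with `k = Q̄`, `K = ℂ`).

* `afr_exists_shift` : `z` transcendental over `k` ⇒ some `σ : K ≃ₐ[k] K` has `σ z = z + 1`;
* `afr_mem_range_of_fixed` : `H ≤ (K ≃ₐ[k] K)` of finite index, `z` fixed by `H` ⇒ `z ∈ k`;
* `afr_mem_range_of_finite_orbit` : finite `Aut(K/k)`-orbit ⇒ `z ∈ k`.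
-/
import Mathlib
import Fermat.Agent.S23x.AutFixed

set_option autoImplicit false
set_option linter.unusedSectionVars false
set_option linter.style.haveILetI false

namespace Fermat.Agent.S42x

open MvPolynomial Fermat.Agent.S23x

section

variable {k K : Type*} [Field k] [Field K] [Algebra k K] [IsAlgClosed K]

/-- A transcendental element of an algebraically closed field `K ⊇ k` is shifted by `1` by some
`k`-automorphism of `K`. -/
theorem afr_exists_shift (z : K) (hz : Transcendental k z) :
    ∃ σ : K ≃ₐ[k] K, σ z = z + 1 := by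
  classical
  have hind : AlgebraicIndepOn k id ({z} : Set K) := by
    rw [AlgebraicIndepOn, algebraicIndependent_unique_type_iff]
    exact hz
  obtain ⟨t, hzt, ht⟩ := exists_isTranscendenceBasis_superset hind
  have hzmem : z ∈ t := hzt rfl
  let i₀ : t := ⟨z, hzmem⟩
  let c : t → k := fun i => if i = i₀ then 1 else 0
  let τ : MvPolynomial t k ≃ₐ[k] MvPolynomial t k :=
    AlgEquiv.ofAlgHom (aeval fun i => X i + C (c i)) (aeval fun i => X i - C (c i))
      (by ext i; simp) (by ext i; simp)
  obtain ⟨σ, hσ⟩ := af_exists_ringEquiv ((↑) : t → K) ht τ.toRingEquiv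
  have hcomm : ∀ r : k, σ (algebraMap k K r) = algebraMap k K r := by
    intro r
    have h1 := hσ (C r)
    have h2 : τ.toRingEquiv (C r) = C r := by simp [τ]
    rw [h2] at h1
    simpa using h1
  refine ⟨AlgEquiv.ofRingEquiv (f := σ) hcomm, ?_⟩
  have h1 := hσ (X i₀)
  have h2 : τ.toRingEquiv (X i₀) = X i₀ + C (c i₀) := by simp [τ]
  rw [h2] at h1
  simp only [aeval_X, map_add] at h1
  have h3 : c i₀ = 1 := by simp [c]
  rw [h3] at h1
  simp only [map_one] at h1
  exact h1

variable [IsAlgClosed k] [CharZero K]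

/-- an element of `K` outside `k` is transcendental over `k` (`k` algebraically closed). -/
theorem afr_transcendental_of_not_mem (z : K) (hz : z ∉ Set.range (algebraMap k K)) :
    Transcendental k z := by
  intro halg
  apply hz
  have hint : IsIntegral k z := halg.isIntegral
  refine ⟨-(minpoly k z).coeff 0, ?_⟩
  have hq : (minpoly k z).leadingCoeff = 1 := minpoly.monic hint
  have h : (minpoly k z).degree = 1 :=
    IsAlgClosed.degree_eq_one_of_irreducible k (minpoly.irreducible hint)
  have h0 : Polynomial.aeval z (minpoly k z) = 0 := minpoly.aeval k z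
  rw [Polynomial.eq_X_add_C_of_degree_eq_one h, hq, Polynomial.C_1, one_mul, Polynomial.aeval_add,
    Polynomial.aeval_X, Polynomial.aeval_C, add_eq_zero_iff_eq_neg] at h0
  rw [map_neg]
  exact h0.symm

/-- iterating a shift. -/
theorem afr_pow_shift (σ : K ≃ₐ[k] K) (z : K) (hσ : σ z = z + 1) (n : ℕ) :
    (σ ^ n) z = z + n := by
  induction n with
  | zero => simp
  | succ n ih =>
    rw [pow_succ, AlgEquiv.mul_apply, hσ, map_add, ih, map_one]
    push_cast
    ring

/-- **The fixed field of a finite-index subgroup of `Aut(K/k)` is `k`.** -/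
theorem afr_mem_range_of_fixed (H : Subgroup (K ≃ₐ[k] K)) [H.FiniteIndex] (z : K)
    (hz : ∀ σ ∈ H, σ z = z) : z ∈ Set.range (algebraMap k K) := by
  by_contra hzk
  obtain ⟨σ, hσ⟩ := afr_exists_shift z (afr_transcendental_of_not_mem z hzk)
  obtain ⟨n, hn0, hn⟩ := Subgroup.exists_pow_mem_of_index_ne_zero (H := H)
    Subgroup.FiniteIndex.index_ne_zero σ
  have h1 := hz (σ ^ n) hn.2
  rw [afr_pow_shift σ z hσ n] at h1
  have h2 : ((n : ℕ) : K) = 0 := by linear_combination h1
  exact (Nat.pos_iff_ne_zero.mp hn0) (by exact_mod_cast h2)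

/-- an element with a finite `Aut(K/k)`-orbit lies in `k`. -/
theorem afr_mem_range_of_finite_orbit (z : K)
    (hz : (Set.range fun σ : K ≃ₐ[k] K => σ z).Finite) : z ∈ Set.range (algebraMap k K) := by
  by_contra hzk
  obtain ⟨σ, hσ⟩ := afr_exists_shift z (afr_transcendental_of_not_mem z hzk)
  have hinj : Function.Injective fun n : ℕ => z + (n : K) := by
    intro a b hab
    have : (a : K) = b := add_left_cancel hab
    exact_mod_cast this
  have hsub : Set.range (fun n : ℕ => z + (n : K)) ⊆ Set.range fun σ : K ≃ₐ[k] K => σ z := by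
    rintro _ ⟨n, rfl⟩
    exact ⟨σ ^ n, afr_pow_shift σ z hσ n⟩
  exact Set.infinite_range_of_injective hinj (hz.subset hsub)

end

/-! ### ring-automorphism flavour (for `ι = iotaQ : Q̄ →+* ℂ`) -/

section RingHom

variable {k K : Type*} [Field k] [Field K] [IsAlgClosed k] [IsAlgClosed K] [CharZero K]
  (ι : k →+* K)

/-- **shift automorphism, ring-hom form**: `z ∉ ι(k)` ⇒ some ring automorphism `σ` of `K` fixing
`ι(k)` pointwise has `σ^n z = z + n` for all `n`. -/
theorem afr_exists_shift_ringHom (z : K) (hz : z ∉ Set.range ι) :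
    ∃ σ : K ≃+* K, (∀ r : k, σ (ι r) = ι r) ∧ ∀ n : ℕ, (σ ^ n) z = z + n := by
  letI : Algebra k K := ι.toAlgebra
  have hz' : z ∉ Set.range (algebraMap k K) := hz
  obtain ⟨σ, hσ⟩ := afr_exists_shift z (afr_transcendental_of_not_mem z hz')
  refine ⟨σ.toRingEquiv, fun r => σ.commutes r, fun n => ?_⟩
  have h1 := afr_pow_shift σ z hσ n
  have h2 : ∀ m : ℕ, ∀ w : K, ((σ.toRingEquiv : K ≃+* K) ^ m) w = (σ ^ m) w := by
    intro m
    induction m with
    | zero => intro w; rfl
    | succ m ih =>
      intro w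
      rw [pow_succ, pow_succ, RingAut.mul_apply, AlgEquiv.mul_apply, ih]
      rfl
  rw [h2 n z, h1]

/-- **finite orbit ⇒ algebraic, ring-hom form**: if the orbit of `z` under the ring automorphisms
of `K` fixing `ι(k)` pointwise is finite then `z ∈ ι(k)`. -/
theorem afr_mem_range_of_finite_orbit_ringHom (z : K)
    (hz : {w : K | ∃ σ : K ≃+* K, (∀ r : k, σ (ι r) = ι r) ∧ σ z = w}.Finite) :
    z ∈ Set.range ι := by
  by_contra hzk
  obtain ⟨σ, hσι, hσ⟩ := afr_exists_shift_ringHom ι z hzk
  have hinj : Function.Injective fun n : ℕ => z + (n : K) := by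
    intro a b hab
    have : (a : K) = b := add_left_cancel hab
    exact_mod_cast this
  have hpow : ∀ n : ℕ, ∀ r : k, (σ ^ n) (ι r) = ι r := by
    intro n
    induction n with
    | zero => intro r; rfl
    | succ n ih => intro r; rw [pow_succ, RingAut.mul_apply, hσι, ih]
  have hsub : Set.range (fun n : ℕ => z + (n : K)) ⊆
      {w : K | ∃ σ : K ≃+* K, (∀ r : k, σ (ι r) = ι r) ∧ σ z = w} := by
    rintro _ ⟨n, rfl⟩
    exact ⟨σ ^ n, hpow n, hσ n⟩
  exact Set.infinite_range_of_injective hinj (hz.subset hsub)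

/-- **fixed by a 'power-cofinal' set of automorphisms ⇒ in `ι(k)`**: if every automorphism of `K`
fixing `ι(k)` has a positive power in `H`, and `H` fixes `z`, then `z ∈ ι(k)`
(e.g. `H` of finite index in the group of automorphisms fixing `ι(k)`). -/
theorem afr_mem_range_of_fixed_ringHom (H : Set (K ≃+* K))
    (hH : ∀ σ : K ≃+* K, (∀ r : k, σ (ι r) = ι r) → ∃ n : ℕ, 0 < n ∧ σ ^ n ∈ H)
    (z : K) (hz : ∀ σ ∈ H, σ z = z) : z ∈ Set.range ι := by
  by_contra hzk
  obtain ⟨σ, hσι, hσ⟩ := afr_exists_shift_ringHom ι z hzk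
  obtain ⟨n, hn0, hn⟩ := hH σ hσι
  have h1 := hz (σ ^ n) hn
  rw [hσ n] at h1
  have h2 : ((n : ℕ) : K) = 0 := by linear_combination h1
  exact (Nat.pos_iff_ne_zero.mp hn0) (by exact_mod_cast h2)

end RingHom

end Fermat.Agent.S42x
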