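/-
S42x/CanonRep (helper21): block (E)-RR of ROUTE_S42_S29, generic part.

For a function field `F/K` (Prelude places) satisfying the Riemann package `rmn_Hyp`/`rmn_Bound`
of S18x, a base place `P0` and `p > 0`:  every class of
`S_p(F) / (K^* F^{*p})`  (`S_p(F)` = nonzero functions all of whose orders are divisible by `p`)
contains an element with poles only at `P0`, of pole order exactly `p n` with `n` MINIMAL, and this
element is unique up to a constant of `K^*` (`cnr_main`).  The construction is equivariant under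
every semilinear automorphism of `F/K` fixing `P0` (`cnr_canon_smul`), and with an equivariant
"leading coefficient" functional one gets a canonical NORMALISED representative `cnr_rep`
with `g • cnr_rep f = cnr_rep (g • f)` and `cnr_rep f = cnr_rep f'` for equivalent `f, f'`.
-/
import Mathlib
import Fermat.Prelude.Def_AlgebraicCurve_BaseChangeGalois
import Fermat.Agent.S18x.RmnGreedy

set_option autoImplicit false

namespace Fermat.Agent.S42x

open AlgebraicCurve Fermat.Agent.S18x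

variable {K F : Type*} [Field K] [Field F] [Algebra K F]

/-- `S_p(F)`: nonzero functions all of whose orders are divisible by `p`. -/
def cnr_Sp (K : Type*) {F : Type*} [Field K] [Field F] [Algebra K F] (p : ℕ) (f : F) : Prop :=
  f ≠ 0 ∧ ∀ P : Place K F, (p : ℤ) ∣ P.ord f

/-- `f' = a f h^p` with `a ∈ K^*`, `h ∈ F^*`. -/
def cnr_Rel (K : Type*) {F : Type*} [Field K] [Field F] [Algebra K F] (p : ℕ) (f f' : F) : Prop :=
  ∃ (a : K) (h : F), a ≠ 0 ∧ h ≠ 0 ∧ f' = algebraMap K F a * f * h ^ p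

/-- poles only at `P0`, of order at most `p n` -/
def cnr_Shape (P0 : Place K F) (p : ℕ) (n : ℕ) (f : F) : Prop :=
  f ≠ 0 ∧ (∀ P : Place K F, P ≠ P0 → 0 ≤ P.ord f) ∧ -((p : ℤ) * n) ≤ P0.ord f

/-! ## the relation -/

theorem cnr_rel_refl (p : ℕ) (f : F) : cnr_Rel K p f f :=
  ⟨1, 1, one_ne_zero, one_ne_zero, by simp⟩

theorem cnr_rel_ne_zero {p : ℕ} {f f' : F} (hf : f ≠ 0) (h : cnr_Rel K p f f') : f' ≠ 0 := by
  obtain ⟨a, h, ha, hh, rfl⟩ := h
  have : algebraMap K F a ≠ 0 := by simpa using ha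
  exact mul_ne_zero (mul_ne_zero this hf) (pow_ne_zero _ hh)

theorem cnr_rel_symm {p : ℕ} {f f' : F} (h : cnr_Rel K p f f') : cnr_Rel K p f' f := by
  obtain ⟨a, h, ha, hh, rfl⟩ := h
  refine ⟨a⁻¹, h⁻¹, inv_ne_zero ha, inv_ne_zero hh, ?_⟩
  have : algebraMap K F a ≠ 0 := by simpa using ha
  rw [map_inv₀, inv_pow]
  field_simp

theorem cnr_rel_trans {p : ℕ} {f f' f'' : F} (h : cnr_Rel K p f f') (h' : cnr_Rel K p f' f'') :
    cnr_Rel K p f f'' := by
  obtain ⟨a, h, ha, hh, rfl⟩ := h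
  obtain ⟨b, k, hb, hk, rfl⟩ := h'
  refine ⟨b * a, h * k, mul_ne_zero hb ha, mul_ne_zero hh hk, ?_⟩
  rw [map_mul, mul_pow]
  ring

theorem cnr_ord_pow (P : Place K F) (x : F) (i : ℕ) : P.ord (x ^ i) = i * P.ord x := by
  have := P.ord_zpow x (i : ℤ)
  rwa [zpow_natCast] at this

theorem cnr_sp_of_rel {p : ℕ} {f f' : F} (hf : cnr_Sp K p f) (h : cnr_Rel K p f f') :
    cnr_Sp K p f' := by
  refine ⟨cnr_rel_ne_zero hf.1 h, fun P => ?_⟩
  obtain ⟨a, h, ha, hh, rfl⟩ := h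
  have ha' : algebraMap K F a ≠ 0 := by simpa using ha
  rw [P.ord_mul (mul_ne_zero ha' hf.1) (pow_ne_zero _ hh), P.ord_mul ha' hf.1,
    rmn_ord_algebraMap, zero_add, cnr_ord_pow]
  exact dvd_add (hf.2 P) (dvd_mul_right _ _)

/-! ## the divisor `div(f)/p` -/

theorem cnr_exists_div (H : rmn_Hyp K F) {p : ℕ} (hp : 0 < p) {f : F} (hf : cnr_Sp K p f) :
    ∃ D : Divisor K F, (∀ P, (p : ℤ) * D P = P.ord f) ∧ Divisor.degree D = 0 := by
  obtain ⟨Df, hDf⟩ := H.hpd f hf.1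
  have hp' : (p : ℤ) ≠ 0 := by exact_mod_cast hp.ne'
  refine ⟨Finsupp.mapRange (fun z : ℤ => z / (p : ℤ)) (by simp) Df, fun P => ?_, ?_⟩
  · rw [Finsupp.mapRange_apply, hDf P]
    exact Int.mul_ediv_cancel' (hf.2 P)
  · have hsmul : p • Finsupp.mapRange (fun z : ℤ => z / (p : ℤ)) (by simp) Df = Df := by
      ext P
      rw [Finsupp.smul_apply, Finsupp.mapRange_apply, nsmul_eq_mul, hDf P]
      exact Int.mul_ediv_cancel' (hf.2 P)
    have h0 := H.hprin0 f Df hf.1 hDf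
    rw [← hsmul, map_nsmul, nsmul_eq_mul] at h0
    rcases mul_eq_zero.mp h0 with h | h
    · exact absurd h hp'
    · exact h

/-- the order of `f g^p` in terms of `D = div(f)/p` -/
theorem cnr_ord_mul_pow {p : ℕ} {f : F} (hf : f ≠ 0) {D : Divisor K F}
    (hD : ∀ P, (p : ℤ) * D P = P.ord f) {g : F} (hg : g ≠ 0) (P : Place K F) :
    P.ord (f * g ^ p) = (p : ℤ) * (D P + P.ord g) := by
  rw [P.ord_mul hf (pow_ne_zero _ hg), cnr_ord_pow, ← hD P]
  ring

/-- `f g^p` has the shape `n` iff `g ∈ L(D + n P0)`. -/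
theorem cnr_shape_iff {p : ℕ} (hp : 0 < p) {f : F} (hf : f ≠ 0) {D : Divisor K F}
    (hD : ∀ P, (p : ℤ) * D P = P.ord f) (P0 : Place K F) (n : ℕ) {g : F} (hg : g ≠ 0) :
    cnr_Shape P0 p n (f * g ^ p) ↔ g ∈ riemannRochSpace (D + Finsupp.single P0 (n : ℤ)) := by
  classical
  have hp' : (0 : ℤ) < p := by exact_mod_cast hp
  rw [mem_riemannRochSpace_iff, cnr_Shape]
  constructor
  · rintro ⟨-, h1, h2⟩ P
    right
    by_cases hP : P = P0
    · subst hP
      rw [cnr_ord_mul_pow hf hD hg] at h2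
      simp only [Finsupp.coe_add, Pi.add_apply, Finsupp.single_eq_same]
      have : (p : ℤ) * (-(n : ℤ)) ≤ (p : ℤ) * (D P + P.ord g) := by linarith
      have := le_of_mul_le_mul_left this hp'
      omega
    · have h := h1 P hP
      rw [cnr_ord_mul_pow hf hD hg] at h
      simp only [Finsupp.coe_add, Pi.add_apply, Finsupp.single_apply, if_neg (Ne.symm hP),
        add_zero]
      have : (p : ℤ) * 0 ≤ (p : ℤ) * (D P + P.ord g) := by linarith
      have := le_of_mul_le_mul_left this hp'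
      omega
  · intro h
    refine ⟨mul_ne_zero hf (pow_ne_zero _ hg), fun P hP => ?_, ?_⟩
    · have h' := (h P).resolve_left hg
      simp only [Finsupp.coe_add, Pi.add_apply, Finsupp.single_apply, if_neg (Ne.symm hP),
        add_zero] at h'
      rw [cnr_ord_mul_pow hf hD hg]
      exact mul_nonneg hp'.le (by omega)
    · have h' := (h P0).resolve_left hg
      simp only [Finsupp.coe_add, Pi.add_apply, Finsupp.single_eq_same] at h'
      rw [cnr_ord_mul_pow hf hD hg]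
      have : (p : ℤ) * (-(n : ℤ)) ≤ (p : ℤ) * (D P0 + P0.ord g) :=
        mul_le_mul_of_nonneg_left (by omega) hp'.le
      linarith

/-- a divisor of negative degree has no sections -/
theorem cnr_L_eq_bot_of_degree_neg (H : rmn_Hyp K F) {D : Divisor K F}
    (hD : Divisor.degree D < 0) : riemannRochSpace D = ⊥ := by
  rw [eq_bot_iff]
  intro x hx
  rw [Submodule.mem_bot]
  by_contra hx0
  obtain ⟨Dx, hDx⟩ := H.hpd x hx0
  have h0 := H.hprin0 x Dx hx0 hDx
  have hnn : ∀ P, 0 ≤ (D + Dx) P := by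
    intro P
    rw [mem_riemannRochSpace_iff] at hx
    have := (hx P).resolve_left hx0
    simp only [Finsupp.coe_add, Pi.add_apply, hDx P]
    omega
  have := rmn_degree_nonneg H hnn
  rw [map_add, h0] at this
  omega

theorem cnr_degree_add_single (H : rmn_Hyp K F) {D : Divisor K F} (hD : Divisor.degree D = 0)
    (P0 : Place K F) (n : ℤ) : Divisor.degree (D + Finsupp.single P0 n) = n := by
  rw [map_add, hD, rmn_degree_single H, zero_add]

/-! ## the main theorem -/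

/-- **Canonical representative, existence and uniqueness up to `K^*`.** -/
theorem cnr_main (H : rmn_Hyp K F) (hB : rmn_Bound K F) (P0 : Place K F) {p : ℕ} (hp : 0 < p)
    {f : F} (hf : cnr_Sp K p f) :
    ∃ (n : ℕ) (f₀ : F), cnr_Rel K p f f₀ ∧ cnr_Shape P0 p n f₀ ∧
      P0.ord f₀ = -((p : ℤ) * n) ∧
      ∀ (m : ℕ) (f₁ : F), cnr_Rel K p f f₁ → cnr_Shape P0 p m f₁ →
        n ≤ m ∧ (m = n → ∃ c : K, c ≠ 0 ∧ f₁ = algebraMap K F c * f₀) := by
  classical
  obtain ⟨D, hD, hdeg⟩ := cnr_exists_div H hp hf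
  have hp' : (p : ℤ) ≠ 0 := by exact_mod_cast hp.ne'
  -- existence of some `n` with `L(D + n P0) ≠ 0`
  have hex : ∃ n : ℕ, ∃ g : F, g ≠ 0 ∧ g ∈ riemannRochSpace (D + Finsupp.single P0 (n : ℤ)) := by
    refine ⟨rmn_genus K F, ?_⟩
    have := rmn_hRiem H hB (D + Finsupp.single P0 ((rmn_genus K F : ℕ) : ℤ))
      (by rw [cnr_degree_add_single H hdeg])
    exact this
  set n := Nat.find hex with hn
  obtain ⟨g, hg0, hg⟩ := Nat.find_spec hex
  have hmin : ∀ m : ℕ, m < n → riemannRochSpace (D + Finsupp.single P0 (m : ℤ)) = ⊥ := by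
    intro m hm
    rw [eq_bot_iff]
    intro x hx
    rw [Submodule.mem_bot]
    by_contra hx0
    exact Nat.find_min hex hm ⟨x, hx0, hx⟩
  -- `L(D + (n-1) P0) = 0`
  have hprev : riemannRochSpace (D + Finsupp.single P0 ((n : ℤ) - 1)) = ⊥ := by
    rcases Nat.eq_zero_or_pos n with h0 | hpos
    · apply cnr_L_eq_bot_of_degree_neg H
      rw [cnr_degree_add_single H hdeg, h0]
      norm_num
    · have := hmin (n - 1) (by omega)
      rwa [Nat.cast_sub hpos, Nat.cast_one] at this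
  have hsplit : D + Finsupp.single P0 (n : ℤ) =
      (D + Finsupp.single P0 ((n : ℤ) - 1)) + Finsupp.single P0 1 := by
    rw [add_assoc, ← Finsupp.single_add]; congr 2; ring
  -- exact order of `g` at `P0`
  have hgord : P0.ord g = -(D P0 + n) := by
    have hg' : g ∉ riemannRochSpace (D + Finsupp.single P0 ((n : ℤ) - 1)) := by
      rw [hprev, Submodule.mem_bot]; exact hg0
    have := (rmn_ord_of_mem_of_notMem (hsplit ▸ hg) hg').2
    simp only [Finsupp.coe_add, Pi.add_apply, Finsupp.single_eq_same] at this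
    omega
  -- every section is a multiple of `g`
  have hline : ∀ x : F, x ∈ riemannRochSpace (D + Finsupp.single P0 (n : ℤ)) →
      ∃ c : K, x = c • g := by
    intro x hx
    have hg' : g ∉ riemannRochSpace (D + Finsupp.single P0 ((n : ℤ) - 1)) := by
      rw [hprev, Submodule.mem_bot]; exact hg0
    have hle := rmn_step_le H _ P0 (hsplit ▸ hg) hg'
    rw [← hsplit, hprev, bot_sup_eq] at hle
    obtain ⟨c, hc⟩ := Submodule.mem_span_singleton.mp (hle hx)
    exact ⟨c, hc.symm⟩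
  refine ⟨n, f * g ^ p, ⟨1, g, one_ne_zero, hg0, by simp⟩,
    (cnr_shape_iff hp hf.1 hD P0 n hg0).mpr hg, ?_, ?_⟩
  · rw [cnr_ord_mul_pow hf.1 hD hg0, hgord]; ring
  · rintro m f₁ ⟨a, h, ha, hh, rfl⟩ hshape
    have ha' : algebraMap K F a ≠ 0 := by simpa using ha
    -- the shape of `a f h^p` is the shape of `f h^p`
    have hshape' : cnr_Shape P0 p m (f * h ^ p) := by
      obtain ⟨-, h1, h2⟩ := hshape
      have key : ∀ P : Place K F, P.ord (algebraMap K F a * f * h ^ p) = P.ord (f * h ^ p) := by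
        intro P
        rw [mul_assoc, P.ord_mul ha' (mul_ne_zero hf.1 (pow_ne_zero _ hh)), rmn_ord_algebraMap,
          zero_add]
      refine ⟨mul_ne_zero hf.1 (pow_ne_zero _ hh), fun P hP => ?_, ?_⟩
      · rw [← key]; exact h1 P hP
      · rw [← key]; exact h2
    have hmem := (cnr_shape_iff hp hf.1 hD P0 m hh).mp hshape'
    have hnm : n ≤ m := by
      by_contra hlt
      rw [not_le] at hlt
      have := hmin m hlt
      rw [this, Submodule.mem_bot] at hmem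
      exact hh hmem
    refine ⟨hnm, fun hmn => ?_⟩
    subst hmn
    obtain ⟨c, hc⟩ := hline h hmem
    have hc0 : c ≠ 0 := by
      rintro rfl
      rw [zero_smul] at hc
      exact hh hc
    refine ⟨a * c ^ p, mul_ne_zero ha (pow_ne_zero _ hc0), ?_⟩
    rw [hc, Algebra.smul_def, mul_pow, map_mul, map_pow]
    ring

/-! ## equivariance under semilinear automorphisms -/

section Equivariance

variable (g : SemilinearAut K F)

theorem cnr_ord_smul' (P : Place K F) (x : F) : P.ord (g • x) = (g⁻¹ • P).ord x := by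
  have := SemilinearAut.ord_smul g (g⁻¹ • P) x
  rwa [smul_inv_smul] at this

theorem cnr_sp_smul {p : ℕ} {f : F} (hf : cnr_Sp K p f) : cnr_Sp K p (g • f) :=
  ⟨by simpa using hf.1, fun P => by rw [cnr_ord_smul']; exact hf.2 _⟩

theorem cnr_rel_smul {p : ℕ} {f f' : F} (h : cnr_Rel K p f f') :
    cnr_Rel K p (g • f) (g • f') := by
  obtain ⟨a, h, ha, hh, rfl⟩ := h
  refine ⟨SemilinearAut.baseAut g a, g • h, by simpa using ha, by simpa using hh, ?_⟩
  rw [smul_mul', smul_mul', smul_pow', SemilinearAut.smul_algebraMap]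

theorem cnr_shape_smul {P0 : Place K F} (hP0 : g • P0 = P0) {p n : ℕ} {f : F}
    (h : cnr_Shape P0 p n f) : cnr_Shape P0 p n (g • f) := by
  have hP0' : g⁻¹ • P0 = P0 := by rw [inv_smul_eq_iff, hP0]
  refine ⟨by simpa using h.1, fun P hP => ?_, ?_⟩
  · rw [cnr_ord_smul']
    refine h.2.1 _ fun hc => hP ?_
    rw [inv_smul_eq_iff, hP0] at hc
    exact hc
  · rw [cnr_ord_smul', hP0']
    exact h.2.2

end Equivariance

/-! ## the minimal pole order and the set of canonical elements -/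

/-- the minimal `n` such that the class of `f` contains an element of shape `n` (junk `0` if
there is none) -/
noncomputable def cnr_n (P0 : Place K F) (p : ℕ) (f : F) : ℕ :=
  sInf {n : ℕ | ∃ f₀ : F, cnr_Rel K p f f₀ ∧ cnr_Shape P0 p n f₀}

/-- the canonical elements of the class of `f`: those of minimal shape -/
def cnr_Canon (P0 : Place K F) (p : ℕ) (f : F) : Set F :=
  {f₀ | cnr_Rel K p f f₀ ∧ cnr_Shape P0 p (cnr_n P0 p f) f₀}

theorem cnr_n_spec (H : rmn_Hyp K F) (hB : rmn_Bound K F) (P0 : Place K F) {p : ℕ} (hp : 0 < p)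
    {f : F} (hf : cnr_Sp K p f) :
    (∃ f₀ : F, f₀ ∈ cnr_Canon P0 p f) ∧
      (∀ (m : ℕ) (f₁ : F), cnr_Rel K p f f₁ → cnr_Shape P0 p m f₁ → cnr_n P0 p f ≤ m) ∧
      (∀ f₀ ∈ cnr_Canon P0 p f, P0.ord f₀ = -((p : ℤ) * cnr_n P0 p f)) ∧
      ∀ f₀ ∈ cnr_Canon P0 p f, ∀ f₁ ∈ cnr_Canon P0 p f,
        ∃ c : K, c ≠ 0 ∧ f₁ = algebraMap K F c * f₀ := by
  classical
  obtain ⟨n, f₀, hrel, hshape, hord, huniq⟩ := cnr_main H hB P0 hp hf
  have hex : {n : ℕ | ∃ f₀ : F, cnr_Rel K p f f₀ ∧ cnr_Shape P0 p n f₀}.Nonempty :=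
    ⟨n, f₀, hrel, hshape⟩
  have hn : cnr_n P0 p f = n := by
    have h1 : n ∈ {n : ℕ | ∃ f₀ : F, cnr_Rel K p f f₀ ∧ cnr_Shape P0 p n f₀} :=
      ⟨f₀, hrel, hshape⟩
    apply le_antisymm (Nat.sInf_le h1)
    obtain ⟨f₁, hrel₁, hshape₁⟩ := Nat.sInf_mem hex
    exact (huniq _ f₁ hrel₁ hshape₁).1
  have hmem : f₀ ∈ cnr_Canon P0 p f := ⟨hrel, hn ▸ hshape⟩
  have hall : ∀ f₁ ∈ cnr_Canon P0 p f, ∃ c : K, c ≠ 0 ∧ f₁ = algebraMap K F c * f₀ := by
    rintro f₁ ⟨hr, hs⟩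
    rw [hn] at hs
    exact (huniq n f₁ hr hs).2 rfl
  refine ⟨⟨f₀, hmem⟩, fun m f₁ hr hs => hn ▸ (huniq m f₁ hr hs).1, ?_, ?_⟩
  · intro f₁ hf₁
    obtain ⟨c, hc, rfl⟩ := hall f₁ hf₁
    have hc' : algebraMap K F c ≠ 0 := by simpa using hc
    rw [P0.ord_mul hc' hshape.1, rmn_ord_algebraMap, zero_add, hord, hn]
  · intro f₁ hf₁ f₂ hf₂
    obtain ⟨c₁, hc₁, rfl⟩ := hall f₁ hf₁
    obtain ⟨c₂, hc₂, rfl⟩ := hall f₂ hf₂
    refine ⟨c₂ * c₁⁻¹, mul_ne_zero hc₂ (inv_ne_zero hc₁), ?_⟩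
    rw [map_mul, map_inv₀]
    have hc' : algebraMap K F c₁ ≠ 0 := by simpa using hc₁
    field_simp

/-- the minimal shape only depends on the class -/
theorem cnr_n_congr (P0 : Place K F) {p : ℕ} {f f' : F} (h : cnr_Rel K p f f') :
    cnr_n P0 p f = cnr_n P0 p f' := by
  have key : ∀ n : ℕ, (∃ f₀ : F, cnr_Rel K p f f₀ ∧ cnr_Shape P0 p n f₀) ↔
      ∃ f₀ : F, cnr_Rel K p f' f₀ ∧ cnr_Shape P0 p n f₀ := fun n =>
    ⟨fun ⟨f₀, hr, hs⟩ => ⟨f₀, cnr_rel_trans (cnr_rel_symm h) hr, hs⟩,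
      fun ⟨f₀, hr, hs⟩ => ⟨f₀, cnr_rel_trans h hr, hs⟩⟩
  unfold cnr_n
  congr 1
  ext n
  exact key n

theorem cnr_canon_congr (P0 : Place K F) {p : ℕ} {f f' : F} (h : cnr_Rel K p f f') :
    cnr_Canon P0 p f = cnr_Canon P0 p f' := by
  ext f₀
  simp only [cnr_Canon, Set.mem_ofPred_eq, cnr_n_congr P0 h]
  exact ⟨fun ⟨hr, hs⟩ => ⟨cnr_rel_trans (cnr_rel_symm h) hr, hs⟩,
    fun ⟨hr, hs⟩ => ⟨cnr_rel_trans h hr, hs⟩⟩

theorem cnr_n_smul (g : SemilinearAut K F) {P0 : Place K F} (hP0 : g • P0 = P0) (p : ℕ) (f : F) :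
    cnr_n P0 p (g • f) = cnr_n P0 p f := by
  have hP0' : g⁻¹ • P0 = P0 := by rw [inv_smul_eq_iff, hP0]
  have key : ∀ n : ℕ, (∃ f₀ : F, cnr_Rel K p (g • f) f₀ ∧ cnr_Shape P0 p n f₀) ↔
      ∃ f₀ : F, cnr_Rel K p f f₀ ∧ cnr_Shape P0 p n f₀ := fun n =>
    ⟨fun ⟨f₀, hr, hs⟩ => ⟨g⁻¹ • f₀, by simpa using cnr_rel_smul g⁻¹ hr,
        cnr_shape_smul g⁻¹ hP0' hs⟩,
      fun ⟨f₀, hr, hs⟩ => ⟨g • f₀, cnr_rel_smul g hr, cnr_shape_smul g hP0 hs⟩⟩
  unfold cnr_n
  congr 1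
  ext n
  exact key n

/-- **equivariance of the canonical elements** -/
theorem cnr_canon_smul (g : SemilinearAut K F) {P0 : Place K F} (hP0 : g • P0 = P0) (p : ℕ)
    (f : F) {f₀ : F} (h : f₀ ∈ cnr_Canon P0 p f) : g • f₀ ∈ cnr_Canon P0 p (g • f) := by
  refine ⟨cnr_rel_smul g h.1, ?_⟩
  rw [cnr_n_smul g hP0]
  exact cnr_shape_smul g hP0 h.2

/-! ## normalised canonical representative -/

/-- an equivariant leading-coefficient functional at `P0` -/
structure cnr_Lead (K F : Type*) [Field K] [Field F] [Algebra K F] (lc : F → K) : Prop where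
  mul : ∀ (a : K) (x : F), lc (algebraMap K F a * x) = a * lc x
  ne_zero : ∀ x : F, x ≠ 0 → lc x ≠ 0

open Classical in
/-- pick the element of `S` with leading coefficient `1` (junk `0` if none) -/
noncomputable def cnr_pick (S : Set F) (lc : F → K) : F :=
  if h : ∃ f₀ : F, f₀ ∈ S ∧ lc f₀ = 1 then h.choose else 0

/-- the normalised canonical representative of the class of `f` (junk `0` if none) -/
noncomputable def cnr_rep (P0 : Place K F) (p : ℕ) (lc : F → K) (f : F) : F :=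
  cnr_pick (cnr_Canon P0 p f) lc

theorem cnr_rep_spec (H : rmn_Hyp K F) (hB : rmn_Bound K F) (P0 : Place K F) {p : ℕ} (hp : 0 < p)
    {lc : F → K} (hlc : cnr_Lead K F lc) {f : F} (hf : cnr_Sp K p f) :
    cnr_rep P0 p lc f ∈ cnr_Canon P0 p f ∧ lc (cnr_rep P0 p lc f) = 1 ∧
      ∀ f₁ ∈ cnr_Canon P0 p f, lc f₁ = 1 → f₁ = cnr_rep P0 p lc f := by
  obtain ⟨⟨f₀, hf₀⟩, -, -, huniq⟩ := cnr_n_spec H hB P0 hp hf
  have hf₀0 : f₀ ≠ 0 := hf₀.2.1
  have hex : ∃ f₁ : F, f₁ ∈ cnr_Canon P0 p f ∧ lc f₁ = 1 := by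
    refine ⟨algebraMap K F (lc f₀)⁻¹ * f₀, ⟨?_, ?_⟩, ?_⟩
    · refine cnr_rel_trans hf₀.1 ⟨(lc f₀)⁻¹, 1, inv_ne_zero (hlc.ne_zero _ hf₀0), one_ne_zero, ?_⟩
      simp
    · have hc : algebraMap K F (lc f₀)⁻¹ ≠ 0 := by
        simpa using hlc.ne_zero _ hf₀0
      obtain ⟨h0, h1, h2⟩ := hf₀.2
      refine ⟨mul_ne_zero hc h0, fun P hP => ?_, ?_⟩
      · rw [P.ord_mul hc h0, rmn_ord_algebraMap, zero_add]; exact h1 P hP
      · rw [P0.ord_mul hc h0, rmn_ord_algebraMap, zero_add]; exact h2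
    · rw [hlc.mul, inv_mul_cancel₀ (hlc.ne_zero _ hf₀0)]
  have hspec := hex.choose_spec
  have hrep : cnr_rep P0 p lc f = hex.choose := by rw [cnr_rep, cnr_pick, dif_pos hex]
  rw [hrep]
  refine ⟨hspec.1, hspec.2, fun f₁ hf₁ h1 => ?_⟩
  obtain ⟨c, hc, rfl⟩ := huniq _ hspec.1 f₁ hf₁
  rw [hlc.mul, hspec.2, mul_one] at h1
  rw [h1, map_one, one_mul]

/-- the representative only depends on the class -/
theorem cnr_rep_congr (P0 : Place K F) {p : ℕ} (lc : F → K) {f f' : F} (h : cnr_Rel K p f f') :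
    cnr_rep P0 p lc f = cnr_rep P0 p lc f' := by
  rw [cnr_rep, cnr_rep, cnr_canon_congr P0 h]

/-- **equivariance of the normalised canonical representative** -/
theorem cnr_rep_smul (H : rmn_Hyp K F) (hB : rmn_Bound K F) {P0 : Place K F} {p : ℕ} (hp : 0 < p)
    {lc : F → K} (hlc : cnr_Lead K F lc) (g : SemilinearAut K F) (hP0 : g • P0 = P0)
    (hg : ∀ x : F, lc (g • x) = SemilinearAut.baseAut g (lc x)) {f : F} (hf : cnr_Sp K p f) :
    g • cnr_rep P0 p lc f = cnr_rep P0 p lc (g • f) := by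
  obtain ⟨h1, h2, -⟩ := cnr_rep_spec H hB P0 hp hlc hf
  obtain ⟨-, -, h3⟩ := cnr_rep_spec H hB P0 hp hlc (cnr_sp_smul g hf)
  exact h3 _ (cnr_canon_smul g hP0 p f h1) (by rw [hg, h2, map_one])

/-- the representative is in the class, lies in `S_p`, has poles only at `P0` -/
theorem cnr_rep_rel (H : rmn_Hyp K F) (hB : rmn_Bound K F) (P0 : Place K F) {p : ℕ} (hp : 0 < p)
    {lc : F → K} (hlc : cnr_Lead K F lc) {f : F} (hf : cnr_Sp K p f) :
    cnr_Rel K p f (cnr_rep P0 p lc f) ∧ cnr_Sp K p (cnr_rep P0 p lc f) :=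
  ⟨(cnr_rep_spec H hB P0 hp hlc hf).1.1, cnr_sp_of_rel hf (cnr_rep_spec H hB P0 hp hlc hf).1.1⟩

/-- **the representative is fixed by the stabiliser of the class**: if `g • f` is equivalent to
`f` then `g` fixes the normalised canonical representative. -/
theorem cnr_rep_fixed (H : rmn_Hyp K F) (hB : rmn_Bound K F) {P0 : Place K F} {p : ℕ} (hp : 0 < p)
    {lc : F → K} (hlc : cnr_Lead K F lc) (g : SemilinearAut K F) (hP0 : g • P0 = P0)
    (hg : ∀ x : F, lc (g • x) = SemilinearAut.baseAut g (lc x)) {f : F} (hf : cnr_Sp K p f)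
    (hrel : cnr_Rel K p f (g • f)) :
    g • cnr_rep P0 p lc f = cnr_rep P0 p lc f := by
  rw [cnr_rep_smul H hB hp hlc g hP0 hg hf, ← cnr_rep_congr P0 lc hrel]

end Fermat.Agent.S42x
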