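/-
S42 route, support leaf for B3/B7 (helper95, prefix `fci95_`): the two Prelude descriptions of the
level-`N` modular function field over ANY field `L ⊇ ℚ` coincide,

  `fci95_laurentBaseChange_eq : laurentBaseChange L (modularFunctionFieldFull N)
        = modularFunctionFieldFullC L N`      (= `L(j(q^d) : d ∣ N) ⊆ L((q))`),

(generic-`L` version of S18x `ccp_fullC_eq_bar`, which is the case `L = Q̄`).  Consequently the
whole S18x place/Riemann package, proved for `pls_Fb k N = modularFunctionFieldFullC k N` over any
algebraically closed `k`, is available for `FC := laurentBaseChange ℂ (modularFunctionFieldFull N)`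
(the official `FC` of the S42 route) and for every algebraically closed `L` of characteristic `0`:

* `fci95_rmn_hyp`, `fci95_rmn_bound`      : `rmn_Hyp L FL`, `rmn_Bound L FL`  (Riemann package);
* `fci95_isSepCoordinate`                 : `j` is a separating coordinate of `FL`;
* `fci95_hasPrincipalDivisors`, `fci95_deg_eq_one`, `fci95_residue_surjective`.
-/
import Mathlib
import Fermat.Agent.S18x.RmnFbar
import Fermat.Agent.S18x.PlsFbarFinal
import Fermat.Agent.S18x.PlsTsFields
import Fermat.Agent.S18x.RiemannOfCoord
import Fermat.Prelude.Thm_ModularCurve_coeffMap_qExpand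

set_option autoImplicit false

noncomputable section

namespace Fermat.Agent.S42x

open ModularCurve IntermediateField AlgebraicCurve Fermat.Agent.S24x Fermat.Agent.S18x

section Ident

variable (L : Type*) [Field L] [Algebra ℚ L]

/-- the generator `j(q^d)`: `coeffEmb L (j(q^d)) = (j mod L)(q^d)`. -/
theorem fci95_coeffEmb_qExpand_jq (d : ℕ) [NeZero d] :
    coeffEmb L (qExpand ℚ d jq) = qExpand L d (jqModC L) := by
  rw [coeffEmb, ModularCurve.coeffMap_qExpand, ← jqModC_rat, coeffMap_jqModC]

variable (N : ℕ) [NeZero N]

/-- **the two descriptions of the level-`N` function field over `L` coincide.** -/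
theorem fci95_laurentBaseChange_eq :
    laurentBaseChange L (modularFunctionFieldFull N) = modularFunctionFieldFullC L N := by
  apply le_antisymm
  · rw [laurentBaseChange, adjoin_le_iff]
    rintro _ ⟨y, hy, rfl⟩
    -- the preimage of `L(j(q^d))` under `coeffEmb` is a subfield of `ℚ((q))` containing the `j(q^d)`
    have hle : modularFunctionFieldFull N ≤
        ((modularFunctionFieldFullC L N).toSubfield.comap (coeffEmb L)).toIntermediateField
          (fun x => by
            rw [Subfield.mem_comap]
            have : coeffEmb L (algebraMap ℚ (LaurentSeries ℚ) x) =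
                algebraMap L (LaurentSeries L) (algebraMap ℚ L x) := by
              rw [coeffEmb, algebraMap_laurentSeries_eq_single, algebraMap_laurentSeries_eq_single,
                coeffMap_single]
            rw [this]
            exact (modularFunctionFieldFullC L N).algebraMap_mem _) := by
      rw [modularFunctionFieldFull, adjoin_le_iff]
      rintro x ⟨d, hne, hd, rfl⟩
      haveI := hne
      show coeffEmb L (qExpand ℚ d jq) ∈ modularFunctionFieldFullC L N
      rw [fci95_coeffEmb_qExpand_jq]
      exact jqModCd_mem_full L N hd
    exact hle hy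
  · rw [modularFunctionFieldFullC, adjoin_le_iff]
    rintro x ⟨d, hne, hd, rfl⟩
    haveI := hne
    rw [← fci95_coeffEmb_qExpand_jq]
    exact coeffEmb_mem_laurentBaseChange L (jqd_mem_full N hd)

end Ident

section Package

variable (L : Type*) [Field L] [Algebra ℚ L] [IsAlgClosed L] (N : ℕ) [NeZero N]

/-- the Riemann-package hypotheses for `FL = L · F_N`. -/
theorem fci95_rmn_hyp : rmn_Hyp L ↥(laurentBaseChange L (modularFunctionFieldFull N)) :=
  (fci95_laurentBaseChange_eq L N) ▸ rmn_hyp_fb L N

/-- Riemann's linear bound for `FL = L · F_N`. -/
theorem fci95_rmn_bound : rmn_Bound L ↥(laurentBaseChange L (modularFunctionFieldFull N)) :=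
  (fci95_laurentBaseChange_eq L N) ▸ rmn_bound_fb L N

/-- `j` as an element of `FL`. -/
def fci95_j : ↥(laurentBaseChange L (modularFunctionFieldFull N)) :=
  ⟨jqModC L, by rw [fci95_laurentBaseChange_eq]; exact jqModC_mem_full L N⟩

@[simp] theorem fci95_coe_j :
    ((fci95_j L N : ↥(laurentBaseChange L (modularFunctionFieldFull N))) : LaurentSeries L) =
      jqModC L := rfl

/-- transport of `IsCoordinate` along an equality of intermediate fields. -/
theorem fci95_isCoordinate_of_eq {K E : Type*} [Field K] [Field E] [Algebra K E]
    {A B : IntermediateField K E} (h : A = B) (a : ↥A) (b : ↥B) (hab : (a : E) = (b : E))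
    (hb : IsCoordinate K ↥B b) : IsCoordinate K ↥A a := by
  subst h
  have : a = b := Subtype.ext hab
  rw [this]
  exact hb

omit [IsAlgClosed L] in
/-- `j` is a coordinate of `FL` (any field `L ⊇ ℚ`). -/
theorem fci95_isCoordinate :
    IsCoordinate L ↥(laurentBaseChange L (modularFunctionFieldFull N)) (fci95_j L N) :=
  fci95_isCoordinate_of_eq (fci95_laurentBaseChange_eq L N) (fci95_j L N) (pls_jb L N) rfl
    (pls_isCoordinate_jb L N)

variable [CharZero L]

/-- `j` is a separating coordinate of `FL`. -/
theorem fci95_isSepCoordinate :
    pls_IsSepCoordinate L ↥(laurentBaseChange L (modularFunctionFieldFull N)) (fci95_j L N) :=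
  pls_isSepCoordinate_of_charZero (fci95_isCoordinate L N)

/-- every function of `FL` has a divisor of degree zero. -/
theorem fci95_hasPrincipalDivisors :
    HasPrincipalDivisors L ↥(laurentBaseChange L (modularFunctionFieldFull N)) :=
  pls_hasPrincipalDivisors (fci95_isSepCoordinate L N)

/-- all places of `FL` have degree one. -/
theorem fci95_deg_eq_one (P : Place L ↥(laurentBaseChange L (modularFunctionFieldFull N))) :
    P.deg = 1 :=
  pls_place_deg_eq_one (fci95_isSepCoordinate L N) P

/-- residue fields of places of `FL` are `L`. -/
theorem fci95_residue_surjective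
    (P : Place L ↥(laurentBaseChange L (modularFunctionFieldFull N))) :
    Function.Surjective (algebraMap L P.ResidueField) :=
  pc_place_residue_surjective (fci95_isCoordinate L N) P

/-- the `RmtBase` package (S18x RiemannBase/RiemannThm API) for `FL`. -/
theorem fci95_rmtBase : RmtBase L ↥(laurentBaseChange L (modularFunctionFieldFull N)) :=
  rmt_base_of_isCoordinate (fci95_isCoordinate L N)

/-- the `RmtCoord` package for `FL` and the coordinate `j`: Riemann's theorem
(`rmt_riemann_ineq`, `rmtGenus`, ...) holds for `FL`. -/
theorem fci95_rmtCoord : RmtCoord (fci95_rmtBase L N) (fci95_j L N) :=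
  rmt_coord_of_isCoordinate (fci95_isCoordinate L N)

end Package

end Fermat.Agent.S42x
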