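/-
S42x/InjFieldDescent (helper34, S42 block B4 leaf (d), prefix `injd_`): descent of the constant field
for `laurentBaseChange`, by LINEAR DISJOINTNESS (no automorphism argument).

For fields `K ⊆ L` of characteristic zero and `F₀ ⊆ ℚ((q))`:

  `injd_mem_laurentBaseChange_of_coeffMap` :
     `coeffMap (algebraMap K L) y ∈ laurentBaseChange L F₀  →  y ∈ laurentBaseChange K F₀`,

i.e. `F_L ∩ K((q)) = F_K` (for `(K, L) = (ℚ̄, ℂ)`: `FC ∩ ℚ̄((q)) = F0`).

Proof. An element of `F_L` is `a / b` with `a, b` in the `L`-span of `coeffEmb L '' F₀`.  For a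
`K`-linear functional `φ : L → K` let `Φ` be its coefficientwise extension `L((q)) → K((q))`; it is
`K((q))`-semilinear (`injd_Phi_mul`) and maps the `L`-span of `coeffEmb L '' F₀` into `F_K`
(`injd_Phi_mem_of_mem_adjoin`).  From `ι(y) * b = a` we get `y * Φ b = Φ a`, and `φ` can be chosen with `Φ b ≠ 0`.
-/
import Mathlib
import Fermat.Prelude.Def_ModularCurve_LaurentCoeff

set_option autoImplicit false

namespace Fermat.Agent.S42x

open ModularCurve HahnSeries

noncomputable section

variable {K L : Type*} [Field K] [Field L] [Algebra K L]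

/-- coefficientwise application of a `K`-linear functional `L → K` to a Laurent series. -/
def injd_Phi (φ : L →ₗ[K] K) (z : LaurentSeries L) : LaurentSeries K := z.map φ

@[simp]
theorem injd_Phi_coeff (φ : L →ₗ[K] K) (z : LaurentSeries L) (n : ℤ) :
    (injd_Phi φ z).coeff n = φ (z.coeff n) := rfl

theorem injd_Phi_zero (φ : L →ₗ[K] K) : injd_Phi φ (0 : LaurentSeries L) = 0 := by
  ext n
  simp

theorem injd_Phi_add (φ : L →ₗ[K] K) (a b : LaurentSeries L) :
    injd_Phi φ (a + b) = injd_Phi φ a + injd_Phi φ b := by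
  ext n
  simp

theorem injd_Phi_support_subset (φ : L →ₗ[K] K) (z : LaurentSeries L) :
    (injd_Phi φ z).support ⊆ z.support := by
  intro n hn
  rw [HahnSeries.mem_support] at hn ⊢
  intro h0
  apply hn
  rw [injd_Phi_coeff, h0, map_zero]

theorem injd_coeffMap_support (y : LaurentSeries K) :
    (coeffMap (algebraMap K L) y).support = y.support := by
  ext n
  rw [HahnSeries.mem_support, HahnSeries.mem_support, coeffMap_coeff]
  exact (map_ne_zero_iff _ (algebraMap K L).injective)

/-- `Φ` is semilinear over `K((q))`. -/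
theorem injd_Phi_mul (φ : L →ₗ[K] K) (y : LaurentSeries K) (z : LaurentSeries L) :
    injd_Phi φ (coeffMap (algebraMap K L) y * z) = y * injd_Phi φ z := by
  ext n
  rw [injd_Phi_coeff, HahnSeries.coeff_mul, HahnSeries.coeff_mul, map_sum]
  have hterm : ∀ ij : ℤ × ℤ, φ ((coeffMap (algebraMap K L) y).coeff ij.1 * z.coeff ij.2) =
      y.coeff ij.1 * (injd_Phi φ z).coeff ij.2 := by
    intro ij
    rw [coeffMap_coeff, injd_Phi_coeff, ← Algebra.smul_def, map_smul, smul_eq_mul]
  rw [Finset.sum_congr rfl (fun ij _ => hterm ij)]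
  symm
  refine Finset.sum_subset (fun ij hij => ?_) (fun ij hij hz => ?_)
  · rw [Finset.mem_antidiagonal] at hij ⊢
    refine ⟨?_, injd_Phi_support_subset φ z hij.2.1, hij.2.2⟩
    rw [injd_coeffMap_support]
    exact hij.1
  · rw [Finset.mem_antidiagonal] at hij hz
    have h2 : ij.2 ∉ (injd_Phi φ z).support := by
      intro h2
      apply hz
      refine ⟨?_, h2, hij.2.2⟩
      have := hij.1
      rwa [injd_coeffMap_support] at this
    rw [HahnSeries.mem_support, not_not] at h2
    rw [h2, mul_zero]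

/-- `Φ` of a constant multiple. -/
theorem injd_Phi_algebraMap_mul (φ : L →ₗ[K] K) (l : L) (x : LaurentSeries L) :
    injd_Phi φ (algebraMap L (LaurentSeries L) l * x) =
      injd_Phi (φ.comp (LinearMap.mulLeft K l)) x := by
  ext n
  rw [injd_Phi_coeff, injd_Phi_coeff, algebraMap_laurentSeries_eq_single,
    HahnSeries.coeff_single_zero_mul]
  rfl

variable [Algebra ℚ K] [Algebra ℚ L] [IsScalarTower ℚ K L]

theorem injd_coeffEmb_eq (f : LaurentSeries ℚ) :
    coeffEmb L f = coeffMap (algebraMap K L) (coeffEmb K f) := by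
  ext n
  rw [coeffEmb_coeff, coeffMap_coeff, coeffEmb_coeff, ← IsScalarTower.algebraMap_apply]

variable (F₀ : IntermediateField ℚ (LaurentSeries ℚ))

/-- `Φ` of a generator. -/
theorem injd_Phi_coeffEmb (φ : L →ₗ[K] K) (f : LaurentSeries ℚ) :
    injd_Phi φ (coeffEmb L f) = algebraMap K (LaurentSeries K) (φ 1) * coeffEmb K f := by
  ext n
  rw [injd_Phi_coeff, coeffEmb_coeff, algebraMap_laurentSeries_eq_single,
    HahnSeries.coeff_single_zero_mul, coeffEmb_coeff,
    IsScalarTower.algebraMap_apply ℚ K L, Algebra.algebraMap_eq_smul_one, map_smul, smul_eq_mul,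
    mul_comm]

/-- `Algebra.adjoin L (coeffEmb L '' F₀)` is mapped into `F_K` by every `Φ`. -/
theorem injd_Phi_mem_of_mem_adjoin {a : LaurentSeries L}
    (ha : a ∈ Algebra.adjoin L (⇑(coeffEmb L) '' (F₀ : Set (LaurentSeries ℚ)))) :
    ∀ φ : L →ₗ[K] K, injd_Phi φ a ∈ laurentBaseChange K F₀ := by
  have h1 : (⇑(coeffEmb L) '' (F₀ : Set (LaurentSeries ℚ))) =
      ((F₀.toSubfield.toSubring.toSubmonoid.map (coeffEmb L : LaurentSeries ℚ →* LaurentSeries L) :
        Submonoid (LaurentSeries L)) : Set (LaurentSeries L)) := by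
    ext x
    simp only [Set.mem_image, SetLike.mem_coe, Submonoid.coe_map]
    rfl
  have h4 : (Submonoid.closure (⇑(coeffEmb L) '' (F₀ : Set (LaurentSeries ℚ))) :
      Set (LaurentSeries L)) = ⇑(coeffEmb L) '' (F₀ : Set (LaurentSeries ℚ)) := by
    conv_lhs => rw [h1, Submonoid.closure_eq]
    exact h1.symm
  have h3 : a ∈ Subalgebra.toSubmodule
      (Algebra.adjoin L (⇑(coeffEmb L) '' (F₀ : Set (LaurentSeries ℚ)))) := ha
  rw [Algebra.adjoin_eq_span, h4] at h3
  clear ha
  induction h3 using Submodule.span_induction with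
  | mem x hx =>
    intro φ
    obtain ⟨f, hf, rfl⟩ := hx
    rw [injd_Phi_coeffEmb]
    exact mul_mem ((laurentBaseChange K F₀).algebraMap_mem _)
      (coeffEmb_mem_laurentBaseChange K hf)
  | zero =>
    intro φ
    rw [injd_Phi_zero]
    exact zero_mem _
  | add x y _ _ hx hy =>
    intro φ
    rw [injd_Phi_add]
    exact add_mem (hx φ) (hy φ)
  | smul l x _ hx =>
    intro φ
    rw [Algebra.smul_def, injd_Phi_algebraMap_mul]
    exact hx _

/-- **Descent of the constant field**: `F_L ∩ K((q)) = F_K`. -/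
theorem injd_mem_laurentBaseChange_of_coeffMap (y : LaurentSeries K)
    (hy : coeffMap (algebraMap K L) y ∈ laurentBaseChange L F₀) :
    y ∈ laurentBaseChange K F₀ := by
  obtain ⟨a, ha, b, hb, hab⟩ := IntermediateField.mem_adjoin_iff_div.mp hy
  by_cases hb0 : b = 0
  · rw [hb0, div_zero] at hab
    have hy0 : y = 0 := by
      ext n
      have := congrArg (fun s => s.coeff n) hab
      simp only [coeffMap_coeff, HahnSeries.coeff_zero] at this
      exact (map_eq_zero_iff _ (algebraMap K L).injective).mp this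
    rw [hy0]
    exact zero_mem _
  · have hmul : coeffMap (algebraMap K L) y * b = a := by
      rw [hab, div_mul_cancel₀ _ hb0]
    -- a coefficient of `b` which is not zero, and a functional seeing it
    obtain ⟨n, hn⟩ : ∃ n, b.coeff n ≠ 0 := by
      by_contra h
      push Not at h
      exact hb0 (HahnSeries.ext (funext h))
    obtain ⟨g, hg⟩ := LinearMap.exists_leftInverse_of_injective
      (LinearMap.toSpanSingleton K L (b.coeff n))
      (LinearMap.ker_toSpanSingleton K hn)
    have hgn : g (b.coeff n) = 1 := by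
      have := LinearMap.congr_fun hg 1
      simpa using this
    have hΦb : injd_Phi g b ≠ 0 := by
      intro h0
      have := congrArg (fun s => s.coeff n) h0
      simp only [injd_Phi_coeff, HahnSeries.coeff_zero, hgn] at this
      exact one_ne_zero this
    have hkey : y * injd_Phi g b = injd_Phi g a := by
      rw [← injd_Phi_mul, hmul]
    have hyeq : y = injd_Phi g a / injd_Phi g b := by
      rw [← hkey, mul_div_cancel_right₀ _ hΦb]
    rw [hyeq]
    exact div_mem (injd_Phi_mem_of_mem_adjoin F₀ ha g) (injd_Phi_mem_of_mem_adjoin F₀ hb g)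

/-- set form: `F_L ∩ ι(K((q))) = ι(F_K)`. -/
theorem injd_mem_iff (y : LaurentSeries K) :
    coeffMap (algebraMap K L) y ∈ laurentBaseChange L F₀ ↔ y ∈ laurentBaseChange K F₀ := by
  refine ⟨injd_mem_laurentBaseChange_of_coeffMap F₀ y, fun hy => ?_⟩
  -- the easy inclusion: `ι(F_K) ⊆ F_L`
  rw [mem_laurentBaseChange_iff] at hy
  induction hy using Subfield.closure_induction with
  | mem x hx =>
    rcases hx with ⟨c, rfl⟩ | ⟨f, hf, rfl⟩
    · have : coeffMap (algebraMap K L) (algebraMap K (LaurentSeries K) c) =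
          algebraMap L (LaurentSeries L) (algebraMap K L c) := by
        rw [algebraMap_laurentSeries_eq_single, algebraMap_laurentSeries_eq_single,
          coeffMap_single]
      rw [this]
      exact (laurentBaseChange L F₀).algebraMap_mem _
    · rw [← injd_coeffEmb_eq]
      exact coeffEmb_mem_laurentBaseChange L hf
  | one => rw [map_one]; exact one_mem _
  | add x y _ _ hx hy => rw [map_add]; exact add_mem hx hy
  | neg x _ hx => rw [map_neg]; exact neg_mem hx
  | inv x _ hx => rw [map_inv₀]; exact inv_mem hx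
  | mul x y _ _ hx hy => rw [map_mul]; exact mul_mem hx hy

/-- ring-hom form (no `Algebra K L` instance needed): for ANY ring hom `ι : K →+* L` of
characteristic-zero fields, `ι(y) ∈ F_L ↔ y ∈ F_K`.  For `(K, L, ι) = (ℚ̄, ℂ, iotaQ)`:
`FC ∩ ℚ̄((q)) = F0`. -/
theorem injd_mem_iff_ringHom {K L : Type*} [Field K] [Field L] [Algebra ℚ K] [Algebra ℚ L]
    (ι : K →+* L) (F₀ : IntermediateField ℚ (LaurentSeries ℚ)) (y : LaurentSeries K) :
    coeffMap ι y ∈ laurentBaseChange L F₀ ↔ y ∈ laurentBaseChange K F₀ := by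
  let _ : Algebra K L := ι.toAlgebra
  have : IsScalarTower ℚ K L := IsScalarTower.of_algebraMap_eq (fun r => by
    rw [RingHom.algebraMap_toAlgebra, eq_ratCast, eq_ratCast, map_ratCast])
  exact injd_mem_iff F₀ y

end

end Fermat.Agent.S42x
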