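/-
S42x/DescFinal (helper74, captain of S42 block B7 = DESCENT ℂ → Q̄; prefix `dsct_`): the B7 TOP.

For `FC := modularFunctionFieldFullC ℂ M` (the level `M` function field over `ℂ`, inside `ℂ((q))`)
and a function `f ∈ FC^*` all of whose place orders are divisible by `p`: if the class set of
`S_p(FC)` modulo `ℂ^* · FC^{*p}` is finite (block B4), then some `c · f · u^p` (`c ∈ ℂ^*`,
`u ∈ FC^*`) is the image of an element `f0` of `FBar M = Q̄ · F_M`.

Proof (S42_LEAD_NOTES N5, simplified: no stabilisers, no finite-index subgroups): the normalised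
canonical representative `cnr_rep Pinf p lc` (S42x/CanonRep, helper21: minimal pole order at the
place `Pinf = ord_q`, leading `q`-coefficient one) is equivariant under every coefficientwise
automorphism `cfb_coeffAut ℂ M φ` (S37x/CoeffFrob), `φ : ℂ ≃+* ℂ`; hence the FINITE set of
canonical representatives of the finitely many classes is stable under all of `Aut(ℂ)`, so every
`q`-coefficient of a canonical representative has a finite `Aut(ℂ/Q̄)`-orbit, hence lies in `Q̄`
(S42x/AutFixedRel, helper87); finally `FC ∩ Q̄((q)) = FBar M` (S42x/InjFieldDescent, helper34,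
with S42x/FCIdent95, helper95).
-/
import Mathlib
import Fermat.Agent.S18x.RmnFbar
import Fermat.Agent.S37x.CoeffFrob
import Fermat.Agent.S24x.Iota
import Fermat.Agent.S24x.AlgDefs
import Fermat.Agent.S24x.PlaceOfOrder
import Fermat.Agent.S42x.CanonRep
import Fermat.Agent.S42x.AutFixedRel
import Fermat.Agent.S42x.InjFieldDescent
import Fermat.Agent.S42x.FCIdent95

set_option autoImplicit false

namespace Fermat.Agent.S42x

open AlgebraicCurve ModularCurve Fermat.Agent.S18x Fermat.Agent.S24x Fermat.Agent.S37x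

/-! ### The place `ord_q` and the leading coefficient on `modularFunctionFieldFullC k N` -/

section Inf

variable (k : Type*) [Field k] (N : ℕ) [NeZero N]

/-- the `q`-order on `modularFunctionFieldFullC k N` as an order function -/
noncomputable def dsct_orderFn : OrderFn k (modularFunctionFieldFullC k N) where
  o x := (x : LaurentSeries k).order
  map_mul a b ha hb := by
    have ha' : (a : LaurentSeries k) ≠ 0 := fun h => ha (Subtype.ext h)
    have hb' : (b : LaurentSeries k) ≠ 0 := fun h => hb (Subtype.ext h)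
    show ((a * b : modularFunctionFieldFullC k N) : LaurentSeries k).order = _
    rw [MulMemClass.coe_mul]
    exact HahnSeries.order_mul ha' hb'
  map_add a b _ _ hab := by
    have hab' : (a : LaurentSeries k) + (b : LaurentSeries k) ≠ 0 := fun h =>
      hab (Subtype.ext h)
    show min _ _ ≤ ((a + b : modularFunctionFieldFullC k N) : LaurentSeries k).order
    rw [AddMemClass.coe_add]
    exact HahnSeries.min_order_le_order_add hab'
  map_const c _ := by
    show (algebraMap k (LaurentSeries k) c).order = 0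
    rw [LaurentSeries.algebraMap_apply]
    exact HahnSeries.order_C
  nontrivial := by
    refine ⟨⟨jqModC k, jqModC_mem_full k N⟩, fun h => jqModC_ne_zero_of_nontrivial k
      (congrArg Subtype.val h), fun h0 => ?_⟩
    have h0' : (jqModC k).order = 0 := h0
    have h1 : (jqModC k).coeff (-1) = 0 :=
      HahnSeries.coeff_eq_zero_of_lt_order (by rw [h0']; norm_num)
    rw [coeff_jqModC_neg_one] at h1
    exact one_ne_zero h1

/-- the place `ord_q` (the cusp `∞`) -/
noncomputable def dsct_Pinf : Place k (modularFunctionFieldFullC k N) :=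
  (dsct_orderFn k N).place

theorem dsct_order_coeffMap (φ : k ≃+* k) (x : LaurentSeries k) :
    (coeffMap (φ : k →+* k) x).order = x.order := by
  rcases eq_or_ne x 0 with rfl | hx
  · rw [map_zero]
  · have hinj : Function.Injective (coeffMap (φ : k →+* k)) := by
      intro a b hab
      ext n
      have := congrArg (fun s => s.coeff n) hab
      exact φ.injective this
    have hx' : coeffMap (φ : k →+* k) x ≠ 0 := fun h => hx (hinj (by rw [h, map_zero]))
    apply le_antisymm
    · apply HahnSeries.order_le_of_coeff_ne_zero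
      show φ (x.coeff x.order) ≠ 0
      rw [Ne, map_eq_zero_iff φ φ.injective]
      exact HahnSeries.coeff_order_eq_zero.not.mpr hx
    · apply HahnSeries.order_le_of_coeff_ne_zero
      intro h
      have h2 : φ (x.coeff (coeffMap (φ : k →+* k) x).order) ≠ 0 :=
        HahnSeries.coeff_order_eq_zero.not.mpr hx'
      exact h2 (by rw [h, map_zero])

/-- every coefficientwise automorphism fixes the place `ord_q` -/
theorem dsct_smul_Pinf (φ : k ≃+* k) : cfb_coeffAut k N φ • dsct_Pinf k N = dsct_Pinf k N := by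
  apply Place.toValuationSubring_injective
  rw [SemilinearAut.smul_toValuationSubring]
  ext x
  rw [ValuationSubring.mem_pointwise_smul_iff_inv_smul_mem]
  show (cfb_coeffAut k N φ)⁻¹ • x ∈ (dsct_orderFn k N).valuationSubring ↔
    x ∈ (dsct_orderFn k N).valuationSubring
  rw [← map_inv, OrderFn.mem_valuationSubring, OrderFn.mem_valuationSubring]
  have ho : (dsct_orderFn k N).o (cfb_coeffAut k N φ⁻¹ • x) = (dsct_orderFn k N).o x := by
    show ((cfb_coeffAut k N φ⁻¹ • x : modularFunctionFieldFullC k N) : LaurentSeries k).order = _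
    rw [cfb_coe_coeffAut_smul, dsct_order_coeffMap]
    rfl
  rw [ho, smul_eq_zero_iff_eq]

/-- leading `q`-coefficient -/
noncomputable def dsct_lc (x : modularFunctionFieldFullC k N) : k :=
  (x : LaurentSeries k).leadingCoeff

theorem dsct_lc_mul (x y : modularFunctionFieldFullC k N) :
    dsct_lc k N (x * y) = dsct_lc k N x * dsct_lc k N y := by
  show ((x * y : modularFunctionFieldFullC k N) : LaurentSeries k).leadingCoeff = _
  rw [MulMemClass.coe_mul]
  exact HahnSeries.leadingCoeff_mul _ _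

theorem dsct_lc_ne (x : modularFunctionFieldFullC k N) (hx : x ≠ 0) : dsct_lc k N x ≠ 0 := by
  have hx' : (x : LaurentSeries k) ≠ 0 := fun h => hx (Subtype.ext h)
  exact HahnSeries.leadingCoeff_ne_zero.mpr hx'

theorem dsct_lc_algebraMap (c : k) :
    dsct_lc k N (algebraMap k (modularFunctionFieldFullC k N) c) = c := by
  show (algebraMap k (LaurentSeries k) c).leadingCoeff = c
  rw [LaurentSeries.algebraMap_apply, HahnSeries.C_apply]
  exact HahnSeries.leadingCoeff_of_single

theorem dsct_lead : cnr_Lead k (modularFunctionFieldFullC k N) (dsct_lc k N) where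
  mul a x := by rw [dsct_lc_mul, dsct_lc_algebraMap]
  ne_zero := dsct_lc_ne k N

theorem dsct_lc_smul (φ : k ≃+* k) (x : modularFunctionFieldFullC k N) :
    dsct_lc k N (cfb_coeffAut k N φ • x) = φ (dsct_lc k N x) := by
  show ((cfb_coeffAut k N φ • x : modularFunctionFieldFullC k N) :
    LaurentSeries k).leadingCoeff = _
  rw [cfb_coe_coeffAut_smul]
  rcases eq_or_ne (x : LaurentSeries k) 0 with h0 | h0
  · rw [dsct_lc, h0, map_zero, HahnSeries.leadingCoeff_zero, map_zero]
  · rw [dsct_lc, HahnSeries.leadingCoeff_eq, HahnSeries.leadingCoeff_eq, dsct_order_coeffMap]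
    rfl

end Inf

/-! ### Finite `Aut(ℂ)`-stable sets of Laurent series have algebraic coefficients -/

/-- a finite set of complex Laurent series stable under all coefficientwise automorphisms
consists of series with coefficients in `Q̄` -/
theorem dsct_exists_preimage (T : Set (LaurentSeries ℂ)) (hT : T.Finite)
    (hstab : ∀ φ : ℂ ≃+* ℂ, ∀ t ∈ T, coeffMap (φ : ℂ →+* ℂ) t ∈ T) :
    ∀ t ∈ T, ∃ y : LaurentSeries Qbar, coeffMap iotaQ y = t := by
  intro t ht
  have hcoeff : ∀ n : ℤ, t.coeff n ∈ Set.range iotaQ := by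
    intro n
    apply afr_mem_range_of_finite_orbit_ringHom iotaQ
    apply (hT.image fun s : LaurentSeries ℂ => s.coeff n).subset
    rintro w ⟨σ, -, rfl⟩
    exact ⟨coeffMap (σ : ℂ →+* ℂ) t, hstab σ t ht, rfl⟩
  choose c hc using hcoeff
  have hsupp : Function.support c = t.support := by
    ext n
    rw [Function.mem_support, HahnSeries.mem_support, ← hc n, Ne, Ne,
      map_eq_zero_iff iotaQ iotaQ_injective]
  refine ⟨⟨c, by rw [hsupp]; exact t.isPWO_support⟩, ?_⟩
  ext n
  exact hc n

/-! ### The B7 TOP -/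

/-- **B7 TOP (descent ℂ → Q̄)**: if the classes of `S_p(FC)` modulo `ℂ^* · FC^{*p}` are
represented by a finite set `T0`, then every `f ∈ S_p(FC)` is equivalent to the image of an
element of `FBar M`. -/
theorem dsct_top (M : ℕ) [NeZero M] (p : ℕ) (hp : 0 < p)
    (T0 : Set (modularFunctionFieldFullC ℂ M)) (hT0 : T0.Finite)
    (hcls : ∀ f : modularFunctionFieldFullC ℂ M, f ≠ 0 →
      (∀ P : Place ℂ (modularFunctionFieldFullC ℂ M), (p : ℤ) ∣ P.ord f) →
      ∃ t ∈ T0, ∃ (c : ℂ) (u : modularFunctionFieldFullC ℂ M), c ≠ 0 ∧ u ≠ 0 ∧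
        f = algebraMap ℂ (modularFunctionFieldFullC ℂ M) c * t * u ^ p)
    (f : modularFunctionFieldFullC ℂ M) (hf : f ≠ 0)
    (hdiv : ∀ P : Place ℂ (modularFunctionFieldFullC ℂ M), (p : ℤ) ∣ P.ord f) :
    ∃ (f0 : FBar M) (c : ℂ) (u : modularFunctionFieldFullC ℂ M), c ≠ 0 ∧ u ≠ 0 ∧
      coeffMap iotaQ (f0 : LaurentSeries Qbar) =
        ((algebraMap ℂ (modularFunctionFieldFullC ℂ M) c * f * u ^ p :
          modularFunctionFieldFullC ℂ M) : LaurentSeries ℂ) := by
  classical
  have H := rmn_hyp_fb ℂ M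
  have hB := rmn_bound_fb ℂ M
  have hlead := dsct_lead ℂ M
  set rep : modularFunctionFieldFullC ℂ M → modularFunctionFieldFullC ℂ M :=
    cnr_rep (dsct_Pinf ℂ M) p (dsct_lc ℂ M) with hrep
  -- every element of `S_p` is related to an element of `T0 ∩ S_p`
  have hcls' : ∀ g : modularFunctionFieldFullC ℂ M, cnr_Sp ℂ p g →
      ∃ t ∈ T0, cnr_Sp ℂ p t ∧ cnr_Rel ℂ p t g := by
    intro g hg
    obtain ⟨t, ht, c, u, hc, hu, hgt⟩ := hcls g hg.1 hg.2
    have hrel : cnr_Rel ℂ p t g := ⟨c, u, hc, hu, hgt⟩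
    exact ⟨t, ht, cnr_sp_of_rel hg (cnr_rel_symm hrel), hrel⟩
  -- the finite stable set of canonical representatives
  set T : Set (modularFunctionFieldFullC ℂ M) := rep '' {t | t ∈ T0 ∧ cnr_Sp ℂ p t} with hTdef
  have hTfin : T.Finite := (hT0.subset fun t ht => ht.1).image _
  have hTstab : ∀ φ : ℂ ≃+* ℂ, ∀ s ∈ T, cfb_coeffAut ℂ M φ • s ∈ T := by
    rintro φ _ ⟨t, ⟨-, htS⟩, rfl⟩
    have h1 : cfb_coeffAut ℂ M φ • rep t = rep (cfb_coeffAut ℂ M φ • t) :=
      cnr_rep_smul H hB hp hlead _ (dsct_smul_Pinf ℂ M φ) (dsct_lc_smul ℂ M φ) htS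
    obtain ⟨t', ht', ht'S, hrel⟩ := hcls' _ (cnr_sp_smul (cfb_coeffAut ℂ M φ) htS)
    rw [h1]
    exact ⟨t', ⟨ht', ht'S⟩, cnr_rep_congr _ _ hrel⟩
  -- `f` and its canonical representative
  have hfS : cnr_Sp ℂ p f := ⟨hf, hdiv⟩
  obtain ⟨t, ht, htS, hrel⟩ := hcls' f hfS
  have hmemT : rep f ∈ T := ⟨t, ⟨ht, htS⟩, cnr_rep_congr _ _ hrel⟩
  obtain ⟨c, u, hc, hu, hcu⟩ := (cnr_rep_rel H hB (dsct_Pinf ℂ M) hp hlead hfS).1
  -- coefficients
  have hstab : ∀ φ : ℂ ≃+* ℂ, ∀ s ∈ (Subtype.val '' T : Set (LaurentSeries ℂ)),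
      coeffMap (φ : ℂ →+* ℂ) s ∈ (Subtype.val '' T : Set (LaurentSeries ℂ)) := by
    rintro φ _ ⟨s, hs, rfl⟩
    exact ⟨cfb_coeffAut ℂ M φ • s, hTstab φ s hs, cfb_coe_coeffAut_smul ℂ M φ s⟩
  obtain ⟨y, hy⟩ := dsct_exists_preimage _ (hTfin.image _) hstab (rep f : LaurentSeries ℂ)
    ⟨rep f, hmemT, rfl⟩
  have hmem : y ∈ modularFunctionFieldBar M := by
    show y ∈ laurentBaseChange Qbar (modularFunctionFieldFull M)
    rw [← injd_mem_iff_ringHom iotaQ (modularFunctionFieldFull M) y, hy,
      fci95_laurentBaseChange_eq ℂ M]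
    exact (rep f).2
  exact ⟨⟨y, hmem⟩, c, u, hc, hu, by rw [← hcu]; exact hy⟩

/-- the same for any presentation `FC` of the level `M` function field over `ℂ` (for instance
`S23x.ratioField M`) -/
theorem dsct_top' (M : ℕ) [NeZero M] (p : ℕ) (hp : 0 < p)
    (FC : IntermediateField ℂ (LaurentSeries ℂ)) (hFC : FC = modularFunctionFieldFullC ℂ M)
    (T0 : Set FC) (hT0 : T0.Finite)
    (hcls : ∀ f : FC, f ≠ 0 → (∀ P : Place ℂ FC, (p : ℤ) ∣ P.ord f) →
      ∃ t ∈ T0, ∃ (c : ℂ) (u : FC), c ≠ 0 ∧ u ≠ 0 ∧ f = algebraMap ℂ FC c * t * u ^ p)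
    (f : FC) (hf : f ≠ 0) (hdiv : ∀ P : Place ℂ FC, (p : ℤ) ∣ P.ord f) :
    ∃ (f0 : FBar M) (c : ℂ) (u : FC), c ≠ 0 ∧ u ≠ 0 ∧
      coeffMap iotaQ (f0 : LaurentSeries Qbar) =
        ((algebraMap ℂ FC c * f * u ^ p : FC) : LaurentSeries ℂ) := by
  subst hFC
  exact dsct_top M p hp T0 hT0 hcls f hf hdiv

end Fermat.Agent.S42x
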