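/-
S42x/CanonRepGen57 (helper57, prefix `cnrg_`): the canonical representative of helper21's
`S42x/CanonRep` for EVERY nonzero function (no divisibility hypothesis on the orders).

For `f ≠ 0` put `D P := ⌊P.ord f / p⌋` (floor divisor).  Then for `g ≠ 0`
`f g^p` has poles only at `P0`, of order `≤ p n`  iff  `g ∈ L(D + n P0)`
(`cnrg_shape_iff`), exactly as in the case `p ∣ div f`, because
`0 ≤ a + p b ↔ 0 ≤ ⌊a / p⌋ + b`.  Hence the class `{c f u^p}` of ANY `f ≠ 0` contains an element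
with poles only at `P0` of minimal order, unique up to constants; the definitions `cnr_n`,
`cnr_Canon`, `cnr_rep` of `S42x/CanonRep` are reused verbatim and all their properties
(`cnrg_rep_spec`, `cnrg_rep_smul`, `cnrg_rep_rel`, `cnrg_rep_fixed`) hold for `f ≠ 0`.

Purpose: the descent step of the S42 route then works for ANY predicate on `F` which is closed
under `cnr_Rel`, e.g. `p ∣ P.ord f` only at the places `P` where a coordinate is finite
(`S42x/DescTopGen57`), so that nothing has to be known about the cusp places over `ℂ`.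
-/
import Mathlib
import Fermat.Agent.S42x.CanonRep

set_option autoImplicit false

namespace Fermat.Agent.S42x

open AlgebraicCurve Fermat.Agent.S18x

variable {K F : Type*} [Field K] [Field F] [Algebra K F]

/-- the arithmetic behind the floor divisor -/
theorem cnrg_arith {p : ℤ} (hp : 0 < p) (a b c : ℤ) :
    -(p * c) ≤ a + p * b ↔ 0 ≤ a / p + (b + c) := by
  have h1 : (a + p * (b + c)) / p = a / p + (b + c) := Int.add_mul_ediv_left a (b + c) hp.ne'
  rw [← h1, Int.ediv_nonneg_iff_of_pos hp]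
  constructor <;> intro h <;> linarith [mul_add p b c]

/-- the floor divisor `⌊div(f)/p⌋`; its degree is `≤ 0`. -/
theorem cnrg_exists_div (H : rmn_Hyp K F) {p : ℕ} (hp : 0 < p) {f : F} (hf : f ≠ 0) :
    ∃ D : Divisor K F, (∀ P, D P = P.ord f / (p : ℤ)) ∧ Divisor.degree D ≤ 0 := by
  obtain ⟨Df, hDf⟩ := H.hpd f hf
  have hp' : (0 : ℤ) < p := by exact_mod_cast hp
  refine ⟨Finsupp.mapRange (fun z : ℤ => z / (p : ℤ)) (by simp) Df, fun P => ?_, ?_⟩
  · rw [Finsupp.mapRange_apply, hDf P]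
  · set D := Finsupp.mapRange (fun z : ℤ => z / (p : ℤ)) (by simp) Df with hD
    have h0 := H.hprin0 f Df hf hDf
    have hnn : ∀ P, 0 ≤ (Df - p • D) P := by
      intro P
      rw [Finsupp.sub_apply, Finsupp.smul_apply, hD, Finsupp.mapRange_apply, nsmul_eq_mul]
      have := Int.mul_ediv_self_le (x := Df P) (k := (p : ℤ)) hp'.ne'
      linarith
    have h1 := rmn_degree_nonneg H hnn
    rw [map_sub, h0, map_nsmul, nsmul_eq_mul] at h1
    by_contra hcon
    rw [not_le] at hcon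
    have : 0 < (p : ℤ) * Divisor.degree D := mul_pos hp' hcon
    linarith

theorem cnrg_ord_mul_pow {p : ℕ} {f : F} (hf : f ≠ 0) {g : F} (hg : g ≠ 0) (P : Place K F) :
    P.ord (f * g ^ p) = P.ord f + (p : ℤ) * P.ord g := by
  rw [P.ord_mul hf (pow_ne_zero _ hg), cnr_ord_pow]

/-- `f g^p` has the shape `n` iff `g ∈ L(D + n P0)`, `D` the floor divisor. -/
theorem cnrg_shape_iff {p : ℕ} (hp : 0 < p) {f : F} (hf : f ≠ 0) {D : Divisor K F}
    (hD : ∀ P, D P = P.ord f / (p : ℤ)) (P0 : Place K F) (n : ℕ) {g : F} (hg : g ≠ 0) :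
    cnr_Shape P0 p n (f * g ^ p) ↔ g ∈ riemannRochSpace (D + Finsupp.single P0 (n : ℤ)) := by
  classical
  have hp' : (0 : ℤ) < p := by exact_mod_cast hp
  rw [mem_riemannRochSpace_iff, cnr_Shape]
  constructor
  · rintro ⟨-, h1, h2⟩ P
    right
    by_cases hP : P = P0
    · subst hP
      rw [cnrg_ord_mul_pow hf hg] at h2
      simp only [Finsupp.coe_add, Pi.add_apply, Finsupp.single_eq_same]
      have := (cnrg_arith hp' (P.ord f) (P.ord g) n).mp h2
      rw [hD P]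
      linarith
    · have h := h1 P hP
      rw [cnrg_ord_mul_pow hf hg] at h
      simp only [Finsupp.coe_add, Pi.add_apply, Finsupp.single_apply, if_neg (Ne.symm hP),
        add_zero]
      have := (cnrg_arith hp' (P.ord f) (P.ord g) 0).mp (by simpa using h)
      rw [hD P]
      linarith
  · intro h
    refine ⟨mul_ne_zero hf (pow_ne_zero _ hg), fun P hP => ?_, ?_⟩
    · have h' := (h P).resolve_left hg
      simp only [Finsupp.coe_add, Pi.add_apply, Finsupp.single_apply, if_neg (Ne.symm hP),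
        add_zero] at h'
      rw [hD P] at h'
      rw [cnrg_ord_mul_pow hf hg]
      have := (cnrg_arith hp' (P.ord f) (P.ord g) 0).mpr (by linarith)
      simpa using this
    · have h' := (h P0).resolve_left hg
      simp only [Finsupp.coe_add, Pi.add_apply, Finsupp.single_eq_same] at h'
      rw [hD P0] at h'
      rw [cnrg_ord_mul_pow hf hg]
      exact (cnrg_arith hp' (P0.ord f) (P0.ord g) n).mpr (by linarith)

/-! ## the main theorem -/

/-- **Canonical representative, existence and uniqueness up to `K^*`, for every `f ≠ 0`.** -/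
theorem cnrg_main (H : rmn_Hyp K F) (hB : rmn_Bound K F) (P0 : Place K F) {p : ℕ} (hp : 0 < p)
    {f : F} (hf : f ≠ 0) :
    ∃ (n : ℕ) (f₀ : F), cnr_Rel K p f f₀ ∧ cnr_Shape P0 p n f₀ ∧
      ∀ (m : ℕ) (f₁ : F), cnr_Rel K p f f₁ → cnr_Shape P0 p m f₁ →
        n ≤ m ∧ (m = n → ∃ c : K, c ≠ 0 ∧ f₁ = algebraMap K F c * f₀) := by
  classical
  obtain ⟨D, hD, hdeg⟩ := cnrg_exists_div H hp hf
  have hdegadd : ∀ z : ℤ, Divisor.degree (D + Finsupp.single P0 z) = Divisor.degree D + z := by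
    intro z
    rw [map_add, rmn_degree_single H]
  -- existence of some `n` with `L(D + n P0) ≠ 0`
  have hex : ∃ n : ℕ, ∃ g : F, g ≠ 0 ∧ g ∈ riemannRochSpace (D + Finsupp.single P0 (n : ℤ)) := by
    refine ⟨rmn_genus K F + (-(Divisor.degree D)).toNat, ?_⟩
    apply rmn_hRiem H hB
    rw [hdegadd]
    push_cast
    have : ((-(Divisor.degree D)).toNat : ℤ) = -(Divisor.degree D) :=
      Int.toNat_of_nonneg (by linarith)
    rw [this]
    linarith
  set n := Nat.find hex with hn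
  obtain ⟨g, hg0, hg⟩ := Nat.find_spec hex
  have hmin : ∀ m : ℕ, m < n → riemannRochSpace (D + Finsupp.single P0 (m : ℤ)) = ⊥ := by
    intro m hm
    rw [eq_bot_iff]
    intro x hx
    rw [Submodule.mem_bot]
    by_contra hx0
    exact Nat.find_min hex hm ⟨x, hx0, hx⟩
  -- `L(D + (n-1) P0) = 0`
  have hprev : riemannRochSpace (D + Finsupp.single P0 ((n : ℤ) - 1)) = ⊥ := by
    rcases Nat.eq_zero_or_pos n with h0 | hpos
    · apply cnr_L_eq_bot_of_degree_neg H
      rw [hdegadd, h0]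
      push_cast
      linarith
    · have := hmin (n - 1) (by omega)
      rwa [Nat.cast_sub hpos, Nat.cast_one] at this
  have hsplit : D + Finsupp.single P0 (n : ℤ) =
      (D + Finsupp.single P0 ((n : ℤ) - 1)) + Finsupp.single P0 1 := by
    rw [add_assoc, ← Finsupp.single_add]; congr 2; ring
  -- every section is a multiple of `g`
  have hline : ∀ x : F, x ∈ riemannRochSpace (D + Finsupp.single P0 (n : ℤ)) →
      ∃ c : K, x = c • g := by
    intro x hx
    have hg' : g ∉ riemannRochSpace (D + Finsupp.single P0 ((n : ℤ) - 1)) := by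
      rw [hprev, Submodule.mem_bot]; exact hg0
    have hle := rmn_step_le H _ P0 (hsplit ▸ hg) hg'
    rw [← hsplit, hprev, bot_sup_eq] at hle
    obtain ⟨c, hc⟩ := Submodule.mem_span_singleton.mp (hle hx)
    exact ⟨c, hc.symm⟩
  refine ⟨n, f * g ^ p, ⟨1, g, one_ne_zero, hg0, by simp⟩,
    (cnrg_shape_iff hp hf hD P0 n hg0).mpr hg, ?_⟩
  rintro m f₁ ⟨a, h, ha, hh, rfl⟩ hshape
  have ha' : algebraMap K F a ≠ 0 := by simpa using ha
  -- the shape of `a f h^p` is the shape of `f h^p`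
  have hshape' : cnr_Shape P0 p m (f * h ^ p) := by
    obtain ⟨-, h1, h2⟩ := hshape
    have key : ∀ P : Place K F, P.ord (algebraMap K F a * f * h ^ p) = P.ord (f * h ^ p) := by
      intro P
      rw [mul_assoc, P.ord_mul ha' (mul_ne_zero hf (pow_ne_zero _ hh)), rmn_ord_algebraMap,
        zero_add]
    refine ⟨mul_ne_zero hf (pow_ne_zero _ hh), fun P hP => ?_, ?_⟩
    · rw [← key]; exact h1 P hP
    · rw [← key]; exact h2
  have hmem := (cnrg_shape_iff hp hf hD P0 m hh).mp hshape'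
  have hnm : n ≤ m := by
    by_contra hlt
    rw [not_le] at hlt
    have := hmin m hlt
    rw [this, Submodule.mem_bot] at hmem
    exact hh hmem
  refine ⟨hnm, fun hmn => ?_⟩
  subst hmn
  obtain ⟨c, hc⟩ := hline h hmem
  have hc0 : c ≠ 0 := by
    rintro rfl
    rw [zero_smul] at hc
    exact hh hc
  refine ⟨a * c ^ p, mul_ne_zero ha (pow_ne_zero _ hc0), ?_⟩
  rw [hc, Algebra.smul_def, mul_pow, map_mul, map_pow]
  ring

/-! ## the minimal pole order and the set of canonical elements -/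

theorem cnrg_n_spec (H : rmn_Hyp K F) (hB : rmn_Bound K F) (P0 : Place K F) {p : ℕ} (hp : 0 < p)
    {f : F} (hf : f ≠ 0) :
    (∃ f₀ : F, f₀ ∈ cnr_Canon P0 p f) ∧
      (∀ (m : ℕ) (f₁ : F), cnr_Rel K p f f₁ → cnr_Shape P0 p m f₁ → cnr_n P0 p f ≤ m) ∧
      ∀ f₀ ∈ cnr_Canon P0 p f, ∀ f₁ ∈ cnr_Canon P0 p f,
        ∃ c : K, c ≠ 0 ∧ f₁ = algebraMap K F c * f₀ := by
  classical
  obtain ⟨n, f₀, hrel, hshape, huniq⟩ := cnrg_main H hB P0 hp hf
  have hex : {n : ℕ | ∃ f₀ : F, cnr_Rel K p f f₀ ∧ cnr_Shape P0 p n f₀}.Nonempty :=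
    ⟨n, f₀, hrel, hshape⟩
  have hn : cnr_n P0 p f = n := by
    have h1 : n ∈ {n : ℕ | ∃ f₀ : F, cnr_Rel K p f f₀ ∧ cnr_Shape P0 p n f₀} :=
      ⟨f₀, hrel, hshape⟩
    apply le_antisymm (Nat.sInf_le h1)
    obtain ⟨f₁, hrel₁, hshape₁⟩ := Nat.sInf_mem hex
    exact (huniq _ f₁ hrel₁ hshape₁).1
  have hmem : f₀ ∈ cnr_Canon P0 p f := ⟨hrel, hn ▸ hshape⟩
  have hall : ∀ f₁ ∈ cnr_Canon P0 p f, ∃ c : K, c ≠ 0 ∧ f₁ = algebraMap K F c * f₀ := by
    rintro f₁ ⟨hr, hs⟩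
    rw [hn] at hs
    exact (huniq n f₁ hr hs).2 rfl
  refine ⟨⟨f₀, hmem⟩, fun m f₁ hr hs => hn ▸ (huniq m f₁ hr hs).1, ?_⟩
  intro f₁ hf₁ f₂ hf₂
  obtain ⟨c₁, hc₁, rfl⟩ := hall f₁ hf₁
  obtain ⟨c₂, hc₂, rfl⟩ := hall f₂ hf₂
  refine ⟨c₂ * c₁⁻¹, mul_ne_zero hc₂ (inv_ne_zero hc₁), ?_⟩
  rw [map_mul, map_inv₀]
  have hc' : algebraMap K F c₁ ≠ 0 := by simpa using hc₁
  field_simp

/-! ## normalised canonical representative -/

theorem cnrg_rep_spec (H : rmn_Hyp K F) (hB : rmn_Bound K F) (P0 : Place K F) {p : ℕ} (hp : 0 < p)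
    {lc : F → K} (hlc : cnr_Lead K F lc) {f : F} (hf : f ≠ 0) :
    cnr_rep P0 p lc f ∈ cnr_Canon P0 p f ∧ lc (cnr_rep P0 p lc f) = 1 ∧
      ∀ f₁ ∈ cnr_Canon P0 p f, lc f₁ = 1 → f₁ = cnr_rep P0 p lc f := by
  obtain ⟨⟨f₀, hf₀⟩, -, huniq⟩ := cnrg_n_spec H hB P0 hp hf
  have hf₀0 : f₀ ≠ 0 := hf₀.2.1
  have hex : ∃ f₁ : F, f₁ ∈ cnr_Canon P0 p f ∧ lc f₁ = 1 := by
    refine ⟨algebraMap K F (lc f₀)⁻¹ * f₀, ⟨?_, ?_⟩, ?_⟩
    · refine cnr_rel_trans hf₀.1 ⟨(lc f₀)⁻¹, 1, inv_ne_zero (hlc.ne_zero _ hf₀0), one_ne_zero, ?_⟩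
      simp
    · have hc : algebraMap K F (lc f₀)⁻¹ ≠ 0 := by
        simpa using hlc.ne_zero _ hf₀0
      obtain ⟨h0, h1, h2⟩ := hf₀.2
      refine ⟨mul_ne_zero hc h0, fun P hP => ?_, ?_⟩
      · rw [P.ord_mul hc h0, rmn_ord_algebraMap, zero_add]; exact h1 P hP
      · rw [P0.ord_mul hc h0, rmn_ord_algebraMap, zero_add]; exact h2
    · rw [hlc.mul, inv_mul_cancel₀ (hlc.ne_zero _ hf₀0)]
  have hspec := hex.choose_spec
  have hrep : cnr_rep P0 p lc f = hex.choose := by rw [cnr_rep, cnr_pick, dif_pos hex]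
  rw [hrep]
  refine ⟨hspec.1, hspec.2, fun f₁ hf₁ h1 => ?_⟩
  obtain ⟨c, hc, rfl⟩ := huniq _ hspec.1 f₁ hf₁
  rw [hlc.mul, hspec.2, mul_one] at h1
  rw [h1, map_one, one_mul]

/-- **equivariance of the normalised canonical representative** (any `f ≠ 0`) -/
theorem cnrg_rep_smul (H : rmn_Hyp K F) (hB : rmn_Bound K F) {P0 : Place K F} {p : ℕ} (hp : 0 < p)
    {lc : F → K} (hlc : cnr_Lead K F lc) (g : SemilinearAut K F) (hP0 : g • P0 = P0)
    (hg : ∀ x : F, lc (g • x) = SemilinearAut.baseAut g (lc x)) {f : F} (hf : f ≠ 0) :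
    g • cnr_rep P0 p lc f = cnr_rep P0 p lc (g • f) := by
  have hgf : g • f ≠ 0 := by simpa using hf
  obtain ⟨h1, h2, -⟩ := cnrg_rep_spec H hB P0 hp hlc hf
  obtain ⟨-, -, h3⟩ := cnrg_rep_spec H hB P0 hp hlc hgf
  exact h3 _ (cnr_canon_smul g hP0 p f h1) (by rw [hg, h2, map_one])

/-- the representative is in the class, has poles only at `P0`, leading coefficient `1` -/
theorem cnrg_rep_rel (H : rmn_Hyp K F) (hB : rmn_Bound K F) (P0 : Place K F) {p : ℕ} (hp : 0 < p)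
    {lc : F → K} (hlc : cnr_Lead K F lc) {f : F} (hf : f ≠ 0) :
    cnr_Rel K p f (cnr_rep P0 p lc f) ∧ cnr_rep P0 p lc f ≠ 0 ∧
      (∀ P : Place K F, P ≠ P0 → 0 ≤ P.ord (cnr_rep P0 p lc f)) ∧
      lc (cnr_rep P0 p lc f) = 1 := by
  obtain ⟨h1, h2, -⟩ := cnrg_rep_spec H hB P0 hp hlc hf
  exact ⟨h1.1, h1.2.1, h1.2.2.1, h2⟩

/-- **the representative is fixed by the stabiliser of the class** -/
theorem cnrg_rep_fixed (H : rmn_Hyp K F) (hB : rmn_Bound K F) {P0 : Place K F} {p : ℕ}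
    (hp : 0 < p) {lc : F → K} (hlc : cnr_Lead K F lc) (g : SemilinearAut K F) (hP0 : g • P0 = P0)
    (hg : ∀ x : F, lc (g • x) = SemilinearAut.baseAut g (lc x)) {f : F} (hf : f ≠ 0)
    (hrel : cnr_Rel K p f (g • f)) :
    g • cnr_rep P0 p lc f = cnr_rep P0 p lc f := by
  rw [cnrg_rep_smul H hB hp hlc g hP0 hg hf, ← cnr_rep_congr P0 lc hrel]

end Fermat.Agent.S42x
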