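/-
S42x/DescTop (helper31, prefix `dsc_`): ABSTRACT ASSEMBLY of the descent step N5 of the S42 route
on top of helper21's canonical representative `S42x/CanonRep` (`cnr_`).

Setting: fields `k ⊆ K` (think `ℚ̄ ⊆ ℂ`), a function field `FK ⊆ K((q))` (an intermediate field of
`LaurentSeries K` over `K`) with the S18x Riemann package `rmn_Hyp`/`rmn_Bound`, a base place `P0`,
a leading-coefficient functional `lc`, and for every `σ : K ≃ₐ[k] K` a semilinear automorphism
`act σ` of `FK` acting COEFFICIENTWISE on Laurent series, fixing `P0`, `lc`-equivariant.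

* `dsc_coeffs_descend` : a Laurent series over `K` all of whose coefficients lie in `k` is
  `coeffMap (algebraMap k K) y`.
* `dsc_descend` : if finitely many functions meet every `cnr_Rel`-class of `S_p(FK)` (finiteness of
  `Pic⁰(FK)[p]`, block B4) and every `t : K` with finite `Aut(K/k)`-orbit lies in `k` (block X1),
  then for every `f ∈ S_p(FK)` the normalised canonical representative `f0 = cnr_rep P0 p lc f`
  (which is `cnr_Rel`-equivalent to `f`) has all its coefficients in `k`:
  `(f0 : K((q))) = coeffMap (algebraMap k K) y`.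
-/
import Mathlib
import Fermat.Prelude.Def_ModularCurve_LaurentCoeff
import Fermat.Agent.S42x.CanonRep

set_option autoImplicit false

namespace Fermat.Agent.S42x

open AlgebraicCurve Fermat.Agent.S18x ModularCurve

variable {k K : Type*} [Field k] [Field K] [Algebra k K]

/-- a Laurent series all of whose coefficients come from `k` is a base change. -/
theorem dsc_coeffs_descend (x : LaurentSeries K)
    (hx : ∀ n : ℤ, x.coeff n ∈ Set.range (algebraMap k K)) :
    ∃ y : LaurentSeries k, coeffMap (algebraMap k K) y = x := by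
  classical
  choose c hc using hx
  have hsupp : Function.support c ⊆ x.support := by
    intro n hn
    rw [Function.mem_support] at hn
    rw [HahnSeries.mem_support]
    intro h0
    apply hn
    have : algebraMap k K (c n) = 0 := by rw [hc n, h0]
    exact (map_eq_zero (algebraMap k K)).mp this
  refine ⟨⟨c, x.isPWO_support.mono hsupp⟩, ?_⟩
  ext n
  rw [coeffMap_coeff]
  exact hc n

variable (FK : IntermediateField K (LaurentSeries K))

/-- **descent of the canonical representative.** -/
theorem dsc_descend {p : ℕ} (hp : 0 < p)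
    (H : rmn_Hyp K FK) (hB : rmn_Bound K FK) (P0 : Place K FK)
    {lc : FK → K} (hlc : cnr_Lead K FK lc)
    (act : (K ≃ₐ[k] K) → SemilinearAut K FK)
    (hcoe : ∀ (σ : K ≃ₐ[k] K) (x : FK),
      ((act σ • x : FK) : LaurentSeries K) = coeffMap (σ : K →+* K) (x : LaurentSeries K))
    (hP0 : ∀ σ : K ≃ₐ[k] K, act σ • P0 = P0)
    (hlcσ : ∀ (σ : K ≃ₐ[k] K) (x : FK),
      lc (act σ • x) = SemilinearAut.baseAut (act σ) (lc x))
    (hfin : ∃ S : Set FK, S.Finite ∧ ∀ f : FK, cnr_Sp K p f → ∃ f' ∈ S, cnr_Rel K p f' f)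
    (hfix : ∀ t : K, (Set.range fun σ : K ≃ₐ[k] K => σ t).Finite →
      t ∈ Set.range (algebraMap k K))
    {f : FK} (hf : cnr_Sp K p f) :
    cnr_Rel K p f (cnr_rep P0 p lc f) ∧ cnr_Sp K p (cnr_rep P0 p lc f) ∧
      ∃ y : LaurentSeries k,
        coeffMap (algebraMap k K) y = ((cnr_rep P0 p lc f : FK) : LaurentSeries K) := by
  classical
  obtain ⟨hrel, hsp⟩ := cnr_rep_rel H hB P0 hp hlc hf
  refine ⟨hrel, hsp, ?_⟩
  obtain ⟨S, hS, hmeet⟩ := hfin
  set f0 : FK := cnr_rep P0 p lc f with hf0
  -- the finite set of all canonical representatives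
  set R : Set FK := (fun f' => cnr_rep P0 p lc f') '' S with hR
  have hRfin : R.Finite := hS.image _
  -- the orbit of `f0` stays inside `R`
  have horb : ∀ σ : K ≃ₐ[k] K, act σ • f0 ∈ R := by
    intro σ
    have h1 : act σ • f0 = cnr_rep P0 p lc (act σ • f) :=
      cnr_rep_smul H hB hp hlc (act σ) (hP0 σ) (hlcσ σ) hf
    obtain ⟨f', hf'S, hf'rel⟩ := hmeet (act σ • f) (cnr_sp_smul (act σ) hf)
    rw [h1, ← cnr_rep_congr P0 lc hf'rel]
    exact ⟨f', hf'S, rfl⟩
  apply dsc_coeffs_descend
  intro n
  apply hfix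
  -- the orbit of the `n`-th coefficient lies in the finite set of `n`-th coefficients of `R`
  refine (hRfin.image fun r : FK => ((r : FK) : LaurentSeries K).coeff n).subset ?_
  rintro _ ⟨σ, rfl⟩
  refine ⟨act σ • f0, horb σ, ?_⟩
  show ((act σ • f0 : FK) : LaurentSeries K).coeff n = σ (((f0 : FK) : LaurentSeries K).coeff n)
  rw [hcoe σ f0, coeffMap_coeff]
  rfl

end Fermat.Agent.S42x
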