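/-
S42x/DescTopGen57 (helper57, prefix `dscg_`): the abstract descent step N5 of the S42 route
(`S42x/DescTop.dsc_descend`, `S42x/DescCoreA31.dsa31_core`) for an ARBITRARY predicate `Sp` on the
function field instead of `cnr_Sp` (= `p ∣` all orders), on top of `S42x/CanonRepGen57`
(canonical representatives exist for every `f ≠ 0`).

Needed of `Sp`: its elements are nonzero, it is stable under the automorphisms, and finitely many
functions meet every `cnr_Rel`-class of `Sp`.  Intended instance (`dscg_SpFin`):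
`Sp f := f ≠ 0 ∧ ∀ P, 0 ≤ P.ord j → p ∣ P.ord f` (divisibility only at the places where the
coordinate `j` is finite), so that nothing has to be known about the pole places of `j` (cusps).
-/
import Mathlib
import Fermat.Prelude.Def_ModularCurve_LaurentCoeff
import Fermat.Agent.S42x.CanonRepGen57
import Fermat.Agent.S42x.DescTop

set_option autoImplicit false

namespace Fermat.Agent.S42x

open AlgebraicCurve Fermat.Agent.S18x ModularCurve

section Abs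

variable {K F : Type*} [Field K] [Field F] [Algebra K F]

/-- `p ∣ P.ord f` at all places where `j` has no pole -/
def dscg_SpFin (K : Type*) {F : Type*} [Field K] [Field F] [Algebra K F] (j : F) (p : ℕ)
    (f : F) : Prop :=
  f ≠ 0 ∧ ∀ P : Place K F, 0 ≤ P.ord j → (p : ℤ) ∣ P.ord f

theorem dscg_spFin_of_rel {j : F} {p : ℕ} {f f' : F} (hf : dscg_SpFin K j p f)
    (h : cnr_Rel K p f f') : dscg_SpFin K j p f' := by
  refine ⟨cnr_rel_ne_zero hf.1 h, fun P hP => ?_⟩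
  obtain ⟨a, h, ha, hh, rfl⟩ := h
  have ha' : algebraMap K F a ≠ 0 := by simpa using ha
  rw [P.ord_mul (mul_ne_zero ha' hf.1) (pow_ne_zero _ hh), P.ord_mul ha' hf.1,
    rmn_ord_algebraMap, zero_add, cnr_ord_pow]
  exact dvd_add (hf.2 P hP) (dvd_mul_right _ _)

theorem dscg_spFin_smul (g : SemilinearAut K F) {j : F} (hj : g • j = j) {p : ℕ} {f : F}
    (hf : dscg_SpFin K j p f) : dscg_SpFin K j p (g • f) := by
  refine ⟨by simpa using hf.1, fun P hP => ?_⟩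
  rw [cnr_ord_smul']
  apply hf.2
  have hj' : g⁻¹ • j = j := by rw [inv_smul_eq_iff, hj]
  have := cnr_ord_smul' g P j
  rw [hj] at this
  rw [← this]
  exact hP

theorem dscg_spFin_of_sp {j : F} {p : ℕ} {f : F} (hf : cnr_Sp K p f) : dscg_SpFin K j p f :=
  ⟨hf.1, fun P _ => hf.2 P⟩

/-- **LEAF A of the B7 spec for an arbitrary predicate**: a finite `S`-stable set `T` of canonical
representatives meeting every class of `Sp`. -/
theorem dscg_core (H : rmn_Hyp K F) (hB : rmn_Bound K F) (p : ℕ) (hp : 0 < p)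
    (Pinf : Place K F) (lc : F → K)
    (hlc_mul : ∀ x y, lc (x * y) = lc x * lc y) (hlc_ne : ∀ x, x ≠ 0 → lc x ≠ 0)
    (hlc_alg : ∀ c, lc (algebraMap K F c) = c)
    (S : Set (SemilinearAut K F))
    (hSinf : ∀ g ∈ S, g • Pinf = Pinf)
    (hSlc : ∀ g ∈ S, ∀ x, lc (g • x) = SemilinearAut.baseAut g (lc x))
    (Sp : F → Prop) (hSp0 : ∀ f, Sp f → f ≠ 0)
    (hSpS : ∀ g ∈ S, ∀ f, Sp f → Sp (g • f))
    (T0 : Set F) (hT0 : T0.Finite)
    (hcls : ∀ f : F, Sp f →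
      ∃ t ∈ T0, ∃ (c : K) (u : F), c ≠ 0 ∧ u ≠ 0 ∧ f = algebraMap K F c * t * u ^ p) :
    ∃ T : Set F, T.Finite ∧ (∀ g ∈ S, ∀ t ∈ T, g • t ∈ T) ∧
      ∀ f : F, Sp f →
        ∃ t ∈ T, ∃ (c : K) (u : F), c ≠ 0 ∧ u ≠ 0 ∧ t = algebraMap K F c * f * u ^ p := by
  classical
  have hlc : cnr_Lead K F lc :=
    ⟨fun a x => by rw [hlc_mul, hlc_alg], hlc_ne⟩
  have hmeet : ∀ f : F, Sp f → ∃ t ∈ T0, cnr_Rel K p t f := by
    intro f hf
    obtain ⟨t, htT0, c, u, hc, hu, hfe⟩ := hcls f hf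
    exact ⟨t, htT0, c, u, hc, hu, hfe⟩
  refine ⟨(fun t => cnr_rep Pinf p lc t) '' {t | t ∈ T0 ∧ ∃ f, Sp f ∧ cnr_Rel K p t f},
    (hT0.subset fun t ht => ht.1).image _, ?_, ?_⟩
  · rintro g hg _ ⟨t, ⟨-, f, hfSp, htf⟩, rfl⟩
    have hf0 : f ≠ 0 := hSp0 f hfSp
    have ht0 : t ≠ 0 := cnr_rel_ne_zero hf0 (cnr_rel_symm htf)
    have h1 : g • cnr_rep Pinf p lc t = cnr_rep Pinf p lc (g • t) :=
      cnrg_rep_smul H hB hp hlc g (hSinf g hg) (hSlc g hg) ht0
    obtain ⟨t', ht'T0, ht'rel⟩ := hmeet (g • f) (hSpS g hg f hfSp)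
    refine ⟨t', ⟨ht'T0, g • f, hSpS g hg f hfSp, ht'rel⟩, ?_⟩
    show cnr_rep Pinf p lc t' = g • cnr_rep Pinf p lc t
    rw [h1, cnr_rep_congr Pinf lc ht'rel, cnr_rep_congr Pinf lc (cnr_rel_smul g htf)]
  · intro f hf
    have hf0 : f ≠ 0 := hSp0 f hf
    obtain ⟨t, htT0, htrel⟩ := hmeet f hf
    refine ⟨cnr_rep Pinf p lc t, ⟨t, ⟨htT0, f, hf, htrel⟩, rfl⟩, ?_⟩
    obtain ⟨a, h, ha, hh, he⟩ := (cnrg_rep_rel H hB Pinf hp hlc hf0).1
    exact ⟨a, h, ha, hh, by rw [cnr_rep_congr Pinf lc htrel]; exact he⟩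

end Abs

variable {k K : Type*} [Field k] [Field K] [Algebra k K]
variable (FK : IntermediateField K (LaurentSeries K))

/-- **descent of the canonical representative, arbitrary predicate `Sp`.** -/
theorem dscg_descend {p : ℕ} (hp : 0 < p)
    (H : rmn_Hyp K FK) (hB : rmn_Bound K FK) (P0 : Place K FK)
    {lc : FK → K} (hlc : cnr_Lead K FK lc)
    (act : (K ≃ₐ[k] K) → SemilinearAut K FK)
    (hcoe : ∀ (σ : K ≃ₐ[k] K) (x : FK),
      ((act σ • x : FK) : LaurentSeries K) = coeffMap (σ : K →+* K) (x : LaurentSeries K))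
    (hP0 : ∀ σ : K ≃ₐ[k] K, act σ • P0 = P0)
    (hlcσ : ∀ (σ : K ≃ₐ[k] K) (x : FK),
      lc (act σ • x) = SemilinearAut.baseAut (act σ) (lc x))
    (Sp : FK → Prop) (hSp0 : ∀ f, Sp f → f ≠ 0)
    (hSpσ : ∀ (σ : K ≃ₐ[k] K) (f : FK), Sp f → Sp (act σ • f))
    (hfin : ∃ S : Set FK, S.Finite ∧ ∀ f : FK, Sp f → ∃ f' ∈ S, cnr_Rel K p f' f)
    (hfix : ∀ t : K, (Set.range fun σ : K ≃ₐ[k] K => σ t).Finite →
      t ∈ Set.range (algebraMap k K))
    {f : FK} (hf : Sp f) :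
    cnr_Rel K p f (cnr_rep P0 p lc f) ∧ cnr_rep P0 p lc f ≠ 0 ∧
      (∀ P : Place K FK, P ≠ P0 → 0 ≤ P.ord (cnr_rep P0 p lc f)) ∧
      lc (cnr_rep P0 p lc f) = 1 ∧
      ∃ y : LaurentSeries k,
        coeffMap (algebraMap k K) y = ((cnr_rep P0 p lc f : FK) : LaurentSeries K) := by
  classical
  have hf0 : f ≠ 0 := hSp0 f hf
  obtain ⟨hrel, hne, hpol, hlc1⟩ := cnrg_rep_rel H hB P0 hp hlc hf0
  refine ⟨hrel, hne, hpol, hlc1, ?_⟩
  obtain ⟨S, hS, hmeet⟩ := hfin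
  set f0 : FK := cnr_rep P0 p lc f with hf0def
  set R : Set FK := (fun f' => cnr_rep P0 p lc f') '' S with hR
  have hRfin : R.Finite := hS.image _
  have horb : ∀ σ : K ≃ₐ[k] K, act σ • f0 ∈ R := by
    intro σ
    have h1 : act σ • f0 = cnr_rep P0 p lc (act σ • f) :=
      cnrg_rep_smul H hB hp hlc (act σ) (hP0 σ) (hlcσ σ) hf0
    obtain ⟨f', hf'S, hf'rel⟩ := hmeet (act σ • f) (hSpσ σ f hf)
    rw [h1, ← cnr_rep_congr P0 lc hf'rel]
    exact ⟨f', hf'S, rfl⟩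
  apply dsc_coeffs_descend
  intro n
  apply hfix
  refine (hRfin.image fun r : FK => ((r : FK) : LaurentSeries K).coeff n).subset ?_
  rintro _ ⟨σ, rfl⟩
  refine ⟨act σ • f0, horb σ, ?_⟩
  show ((act σ • f0 : FK) : LaurentSeries K).coeff n = σ (((f0 : FK) : LaurentSeries K).coeff n)
  rw [hcoe σ f0, coeffMap_coeff]
  rfl

end Fermat.Agent.S42x
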