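/-
S42x/DescFinalFin57 (helper57, prefix `dsct57_`): FALLBACK variant of the B7 TOP `dsct_top`
(`S42x/DescFinal`, helper74) in which divisibility of the orders by `p` is required ONLY at the
places where `j` is finite (`0 ≤ P.ord j`): nothing has to be known about the cusp places of the
level `M` function field over `ℂ`.  Built on `S42x/CanonRepGen57` / `S42x/DescTopGen57`
(canonical representatives for every `f ≠ 0`, floor divisor) and the instantiation lemmas of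
`S42x/DescFinal`.  The matching finiteness input is helper81's `inj_exists_T0_of_dict` with
`PP = {P | 0 ≤ P.ord j}`.
-/
import Mathlib
import Fermat.Agent.S18x.PlsFbar
import Fermat.Agent.S42x.DescFinal
import Fermat.Agent.S42x.DescTopGen57

set_option autoImplicit false

namespace Fermat.Agent.S42x

open AlgebraicCurve ModularCurve Fermat.Agent.S18x Fermat.Agent.S24x Fermat.Agent.S37x

/-- **B7 TOP, finite places only.** -/
theorem dsct57_top_fin (M : ℕ) [NeZero M] (p : ℕ) (hp : 0 < p)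
    (T0 : Set (modularFunctionFieldFullC ℂ M)) (hT0 : T0.Finite)
    (hcls : ∀ f : modularFunctionFieldFullC ℂ M, f ≠ 0 →
      (∀ P : Place ℂ (modularFunctionFieldFullC ℂ M), 0 ≤ P.ord (pls_jb ℂ M) →
        (p : ℤ) ∣ P.ord f) →
      ∃ t ∈ T0, ∃ (c : ℂ) (u : modularFunctionFieldFullC ℂ M), c ≠ 0 ∧ u ≠ 0 ∧
        f = algebraMap ℂ (modularFunctionFieldFullC ℂ M) c * t * u ^ p)
    (f : modularFunctionFieldFullC ℂ M) (hf : f ≠ 0)
    (hdiv : ∀ P : Place ℂ (modularFunctionFieldFullC ℂ M), 0 ≤ P.ord (pls_jb ℂ M) →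
      (p : ℤ) ∣ P.ord f) :
    ∃ (f0 : FBar M) (c : ℂ) (u : modularFunctionFieldFullC ℂ M), c ≠ 0 ∧ u ≠ 0 ∧
      coeffMap iotaQ (f0 : LaurentSeries Qbar) =
        ((algebraMap ℂ (modularFunctionFieldFullC ℂ M) c * f * u ^ p :
          modularFunctionFieldFullC ℂ M) : LaurentSeries ℂ) := by
  classical
  obtain ⟨T, hTfin, hTstab, hTcov⟩ := dscg_core (rmn_hyp_fb ℂ M) (rmn_bound_fb ℂ M) p hp
    (dsct_Pinf ℂ M) (dsct_lc ℂ M) (dsct_lc_mul ℂ M) (dsct_lc_ne ℂ M) (dsct_lc_algebraMap ℂ M)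
    (Set.range (cfb_coeffAut ℂ M))
    (by rintro _ ⟨φ, rfl⟩; exact dsct_smul_Pinf ℂ M φ)
    (by rintro _ ⟨φ, rfl⟩ x; exact dsct_lc_smul ℂ M φ x)
    (dscg_SpFin ℂ (pls_jb ℂ M) p) (fun f hf => hf.1)
    (by
      rintro _ ⟨φ, rfl⟩ f hf
      exact dscg_spFin_smul _ (cfb_coeffAut_smul_j ℂ M φ) hf)
    T0 hT0 (fun f hf => hcls f hf.1 hf.2)
  obtain ⟨t, htT, c, u, hc, hu, ht⟩ := hTcov f ⟨hf, hdiv⟩
  have hstab : ∀ φ : ℂ ≃+* ℂ, ∀ s ∈ (Subtype.val '' T : Set (LaurentSeries ℂ)),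
      coeffMap (φ : ℂ →+* ℂ) s ∈ (Subtype.val '' T : Set (LaurentSeries ℂ)) := by
    rintro φ _ ⟨s, hs, rfl⟩
    exact ⟨cfb_coeffAut ℂ M φ • s, hTstab _ ⟨φ, rfl⟩ s hs, cfb_coe_coeffAut_smul ℂ M φ s⟩
  obtain ⟨y, hy⟩ := dsct_exists_preimage _ (hTfin.image _) hstab (t : LaurentSeries ℂ)
    ⟨t, htT, rfl⟩
  have hmem : y ∈ modularFunctionFieldBar M := by
    show y ∈ laurentBaseChange Qbar (modularFunctionFieldFull M)
    rw [← injd_mem_iff_ringHom iotaQ (modularFunctionFieldFull M) y, hy,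
      fci95_laurentBaseChange_eq ℂ M]
    exact t.2
  exact ⟨⟨y, hmem⟩, c, u, hc, hu, by rw [← ht]; exact hy⟩

/-- the same for any presentation `FC` of the level `M` function field over `ℂ` -/
theorem dsct57_top_fin' (M : ℕ) [NeZero M] (p : ℕ) (hp : 0 < p)
    (FC : IntermediateField ℂ (LaurentSeries ℂ)) (hFC : FC = modularFunctionFieldFullC ℂ M)
    (jF : FC) (hjF : (jF : LaurentSeries ℂ) = jqModC ℂ)
    (T0 : Set FC) (hT0 : T0.Finite)
    (hcls : ∀ f : FC, f ≠ 0 → (∀ P : Place ℂ FC, 0 ≤ P.ord jF → (p : ℤ) ∣ P.ord f) →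
      ∃ t ∈ T0, ∃ (c : ℂ) (u : FC), c ≠ 0 ∧ u ≠ 0 ∧ f = algebraMap ℂ FC c * t * u ^ p)
    (f : FC) (hf : f ≠ 0) (hdiv : ∀ P : Place ℂ FC, 0 ≤ P.ord jF → (p : ℤ) ∣ P.ord f) :
    ∃ (f0 : FBar M) (c : ℂ) (u : FC), c ≠ 0 ∧ u ≠ 0 ∧
      coeffMap iotaQ (f0 : LaurentSeries Qbar) =
        ((algebraMap ℂ FC c * f * u ^ p : FC) : LaurentSeries ℂ) := by
  subst hFC
  have hj : jF = pls_jb ℂ M := Subtype.ext hjF
  subst hj
  exact dsct57_top_fin M p hp T0 hT0 hcls f hf hdiv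

end Fermat.Agent.S42x
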