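/-
S42 project, block B4, leaf L1c (helper81): `inj_EvCompat` from the generators.

A realisation `ev : ratioField M →+* Mer` satisfies `inj_EvCompat M ev` as soon as
* `ev` fixes the constants, and
* `jL` and `jNL M` (the two generators, `S23x.ratioField_eq`) each have ONE compatible
  representation (`inj_HasRep`): forms `A, B` of equal weight with `x * qL B = qL A` and
  `ev x * B = A` in `Mer`.
(`inj_compat_of_hasRep`: one compatible representation gives all, because `qL` is injective on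
forms; `inj_hasRep_*`: the elements with a compatible representation form a subfield.)
-/
import Mathlib
import Fermat.Agent.S42x.InjEv
import Fermat.Agent.S23x.FieldGen

set_option autoImplicit false

namespace Fermat.Agent.S42x

open Fermat.Agent.S24x Fermat.Agent.S23x
open UpperHalfPlane ModularForm ModularFormClass CongruenceSubgroup
open scoped MatrixGroups Manifold

variable {M : ℕ} [NeZero M] {ev : ratioField M →+* Mer}

/-- `x` has a representation as a ratio of forms compatible with `ev` -/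
def inj_HasRep (M : ℕ) [NeZero M] (ev : ratioField M →+* Mer) (x : ratioField M) : Prop :=
  ∃ (m : ℤ) (A B : Hol), IsMF M m (A : ℍ → ℂ) ∧ IsMF M m (B : ℍ → ℂ) ∧ B ≠ 0 ∧
    (x : LS) * qL (B : ℍ → ℂ) = qL (A : ℍ → ℂ) ∧
    ev x * algebraMap Hol Mer B = algebraMap Hol Mer A

theorem inj_coe_ne_zero {B : Hol} (hB : B ≠ 0) : (B : ℍ → ℂ) ≠ 0 :=
  fun h0 => hB (Subtype.ext h0)

/-- one compatible representation gives all -/
theorem inj_compat_of_hasRep {x : ratioField M} (hx : inj_HasRep M ev x)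
    (m' : ℤ) (A' B' : Hol) (hA' : IsMF M m' (A' : ℍ → ℂ)) (hB' : IsMF M m' (B' : ℍ → ℂ))
    (_hB'0 : B' ≠ 0) (hx' : (x : LS) * qL (B' : ℍ → ℂ) = qL (A' : ℍ → ℂ)) :
    ev x * algebraMap Hol Mer B' = algebraMap Hol Mer A' := by
  obtain ⟨m, A, B, hA, hB, hB0, hq, he⟩ := hx
  have hfun : (A : ℍ → ℂ) * (B' : ℍ → ℂ) = (A' : ℍ → ℂ) * (B : ℍ → ℂ) := by
    apply qL_injective (hA.isNice.mul hB'.isNice) (hA'.isNice.mul hB.isNice)
    rw [qL_mul hA.isNice hB'.isNice, qL_mul hA'.isNice hB.isNice, ← hq, ← hx']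
    ring
  have hHol : A * B' = A' * B := Subtype.ext hfun
  have hBm := inj_algebraMap_ne_zero hB0
  apply mul_right_cancel₀ hBm
  calc ev x * algebraMap Hol Mer B' * algebraMap Hol Mer B
      = (ev x * algebraMap Hol Mer B) * algebraMap Hol Mer B' := by ring
    _ = algebraMap Hol Mer (A * B') := by rw [he, map_mul]
    _ = algebraMap Hol Mer A' * algebraMap Hol Mer B := by rw [hHol, map_mul]

/-- constants -/
theorem inj_hasRep_algebraMap (hc : ∀ c : ℂ, ev (algebraMap ℂ (ratioField M) c) = algebraMap ℂ Mer c)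
    (c : ℂ) : inj_HasRep M ev (algebraMap ℂ (ratioField M) c) := by
  refine ⟨0, algebraMap ℂ Hol c, 1, isMF_const M c, isMF_const M 1, one_ne_zero, ?_, ?_⟩
  · show algebraMap ℂ LS c * qL (fun _ : ℍ => (1 : ℂ)) = qL (fun _ : ℍ => c)
    rw [m04_qL_one, mul_one, qL_const]
  · rw [hc, map_one, mul_one, IsScalarTower.algebraMap_apply ℂ Hol Mer]

theorem inj_hasRep_add {x y : ratioField M} (hx : inj_HasRep M ev x) (hy : inj_HasRep M ev y) :
    inj_HasRep M ev (x + y) := by
  obtain ⟨m, A, B, hA, hB, hB0, hq, he⟩ := hx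
  obtain ⟨m', A', B', hA', hB', hB'0, hq', he'⟩ := hy
  have h1 : IsMF M (m + m') ((A : ℍ → ℂ) * (B' : ℍ → ℂ)) := hA.mul hB'
  have h2 : IsMF M (m + m') ((A' : ℍ → ℂ) * (B : ℍ → ℂ)) := (hA'.mul hB).cast (add_comm _ _)
  refine ⟨m + m', A * B' + A' * B, B * B', h1.add h2, hB.mul hB', mul_ne_zero hB0 hB'0, ?_, ?_⟩
  · show ((x : LS) + (y : LS)) * qL ((B : ℍ → ℂ) * (B' : ℍ → ℂ))
      = qL ((A : ℍ → ℂ) * (B' : ℍ → ℂ) + (A' : ℍ → ℂ) * (B : ℍ → ℂ))
    rw [qL_add h1.isNice h2.isNice, qL_mul hA.isNice hB'.isNice, qL_mul hA'.isNice hB.isNice,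
      qL_mul hB.isNice hB'.isNice, ← hq, ← hq']
    ring
  · rw [map_add, map_add, map_mul, map_mul, map_mul, ← he, ← he']
    ring

theorem inj_hasRep_mul {x y : ratioField M} (hx : inj_HasRep M ev x) (hy : inj_HasRep M ev y) :
    inj_HasRep M ev (x * y) := by
  obtain ⟨m, A, B, hA, hB, hB0, hq, he⟩ := hx
  obtain ⟨m', A', B', hA', hB', hB'0, hq', he'⟩ := hy
  refine ⟨m + m', A * A', B * B', hA.mul hA', hB.mul hB', mul_ne_zero hB0 hB'0, ?_, ?_⟩
  · show ((x : LS) * (y : LS)) * qL ((B : ℍ → ℂ) * (B' : ℍ → ℂ))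
      = qL ((A : ℍ → ℂ) * (A' : ℍ → ℂ))
    rw [qL_mul hA.isNice hA'.isNice, qL_mul hB.isNice hB'.isNice, ← hq, ← hq']
    ring
  · rw [map_mul, map_mul, map_mul, ← he, ← he']
    ring

theorem inj_hasRep_zero : inj_HasRep M ev 0 := by
  refine ⟨0, 0, 1, m04_isMF_zero M 0, isMF_const M 1, one_ne_zero, ?_, ?_⟩
  · show (0 : LS) * qL (fun _ : ℍ => (1 : ℂ)) = qL (0 : ℍ → ℂ)
    rw [zero_mul, m04_qL_zero]
  · rw [map_zero, zero_mul, map_zero]

theorem inj_hasRep_inv {x : ratioField M} (hx : inj_HasRep M ev x) : inj_HasRep M ev x⁻¹ := by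
  by_cases hx0 : x = 0
  · rw [hx0, inv_zero]
    exact inj_hasRep_zero
  obtain ⟨m, A, B, hA, hB, hB0, hq, he⟩ := hx
  have hxL : (x : LS) ≠ 0 := fun h0 => hx0 (Subtype.ext h0)
  have hqB : qL (B : ℍ → ℂ) ≠ 0 := m04_qL_ne_zero hB (inj_coe_ne_zero hB0)
  have hA0 : A ≠ 0 := by
    rintro rfl
    have : qL ((0 : Hol) : ℍ → ℂ) = 0 := m04_qL_zero
    rw [this] at hq
    exact mul_ne_zero hxL hqB hq
  refine ⟨m, B, A, hB, hA, hA0, ?_, ?_⟩
  · show (x : LS)⁻¹ * qL (A : ℍ → ℂ) = qL (B : ℍ → ℂ)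
    rw [← hq, ← mul_assoc, inv_mul_cancel₀ hxL, one_mul]
  · have hevx : ev x ≠ 0 := (map_ne_zero ev).mpr hx0
    rw [map_inv₀, ← he, ← mul_assoc, inv_mul_cancel₀ hevx, one_mul]

/-- **`inj_EvCompat` from the generators.** -/
theorem inj_evCompat_of_generators
    (hc : ∀ c : ℂ, ev (algebraMap ℂ (ratioField M) c) = algebraMap ℂ Mer c)
    (hj : inj_HasRep M ev ⟨jL, fg_Kj_le_ratioField M (IntermediateField.mem_adjoin_simple_self ℂ jL)⟩)
    (hjN : inj_HasRep M ev ⟨jNL M, fg_jNL_mem_ratioField M⟩) :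
    inj_EvCompat M ev := by
  have hall : ∀ (x : LS) (_ : x ∈ IntermediateField.adjoin ℂ {jL, jNL M})
      (hx : x ∈ ratioField M), inj_HasRep M ev ⟨x, hx⟩ := by
    intro x hxa
    induction hxa using IntermediateField.adjoin_induction with
    | mem y hy =>
      intro hx
      rcases hy with rfl | hy
      · exact hj
      · rw [Set.mem_singleton_iff] at hy
        subst hy
        exact hjN
    | algebraMap c =>
      intro hx
      have e : (⟨algebraMap ℂ LS c, hx⟩ : ratioField M) = algebraMap ℂ (ratioField M) c :=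
        Subtype.ext (IntermediateField.coe_algebraMap_apply (ratioField M) c).symm
      rw [e]
      exact inj_hasRep_algebraMap hc c
    | add y z hy hz ihy ihz =>
      intro hx
      have hy' : y ∈ ratioField M := by rw [ratioField_eq]; exact hy
      have hz' : z ∈ ratioField M := by rw [ratioField_eq]; exact hz
      have e : (⟨y + z, hx⟩ : ratioField M) = ⟨y, hy'⟩ + ⟨z, hz'⟩ := Subtype.ext rfl
      rw [e]
      exact inj_hasRep_add (ihy hy') (ihz hz')
    | inv y hy ihy =>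
      intro hx
      have hy' : y ∈ ratioField M := by rw [ratioField_eq]; exact hy
      have e : (⟨y⁻¹, hx⟩ : ratioField M) = (⟨y, hy'⟩ : ratioField M)⁻¹ := Subtype.ext rfl
      rw [e]
      exact inj_hasRep_inv (ihy hy')
    | mul y z hy hz ihy ihz =>
      intro hx
      have hy' : y ∈ ratioField M := by rw [ratioField_eq]; exact hy
      have hz' : z ∈ ratioField M := by rw [ratioField_eq]; exact hz
      have e : (⟨y * z, hx⟩ : ratioField M) = ⟨y, hy'⟩ * ⟨z, hz'⟩ := Subtype.ext rfl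
      rw [e]
      exact inj_hasRep_mul (ihy hy') (ihz hz')
  intro x m A B hA hB hB0 hq
  have hxa : (x : LS) ∈ IntermediateField.adjoin ℂ {jL, jNL M} := by
    rw [← ratioField_eq]; exact x.2
  exact inj_compat_of_hasRep (hall x hxa x.2) m A B hA hB hB0 hq

end Fermat.Agent.S42x
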