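/-
S42 project, block B5 (Hecke equivariance R6), leaf HE0 (helper54), prefix `heq_`.

Shared definitions of block B5:
* `heq_glOf A hA`  : an integer `2 × 2` matrix of positive determinant as an element of `GL(2,ℝ)`;
* `heq_compHol A hA : Hol →+* Hol`, `heq_comp A : Mer →+* Mer` : precomposition `h ↦ h ∘ A`
  (`heq_comp A = id` when `det A ≤ 0`, so that products over `heckeReps` are well typed);
* `heq_comp_algebraMap`, `heq_comp_comp` (`(h ∘ A) ∘ B = h ∘ (A * B)`), `heq_comp_SL`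
  (`h ∘ γ = γ⁻¹ • h` for the S24x action of `SL(2,ℤ)` on `Mer`), `heq_comp_const`;
* `heq_Rel M p x ψ` : the relation `R(D, χ)` of `S42_LEAD_NOTES` (N1) for a general multiplier
  `ψ : Γ₀(M) → ℂˣ`.
-/
import Mathlib
import Fermat.Agent.S24x.Defs
import Fermat.Agent.S24x.Realize
import Fermat.Prelude.Def_ModularCurve_ArithmeticGalois

set_option autoImplicit false

namespace Fermat.Agent.S42x

open UpperHalfPlane ModularCurve AlgebraicCurve CongruenceSubgroup
open Fermat.Agent.S24x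
open scoped MatrixGroups Manifold

noncomputable section

/-! ### integer matrices of positive determinant in `GL(2,ℝ)` -/

theorem heq_det_map (A : Matrix (Fin 2) (Fin 2) ℤ) :
    (A.map (Int.cast : ℤ → ℝ)).det = ((A.det : ℤ) : ℝ) := by
  have := (Int.castRingHom ℝ).map_det A
  simpa [RingHom.mapMatrix_apply] using this.symm

/-- an integer matrix of positive determinant as an element of `GL(2,ℝ)` -/
def heq_glOf (A : Matrix (Fin 2) (Fin 2) ℤ) (hA : 0 < A.det) : GL (Fin 2) ℝ :=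
  Matrix.GeneralLinearGroup.mkOfDetNeZero (A.map (Int.cast : ℤ → ℝ)) (by
    rw [heq_det_map]
    exact_mod_cast hA.ne')

theorem heq_glOf_coe (A : Matrix (Fin 2) (Fin 2) ℤ) (hA : 0 < A.det) :
    ((heq_glOf A hA : GL (Fin 2) ℝ) : Matrix (Fin 2) (Fin 2) ℝ) = A.map (Int.cast : ℤ → ℝ) := rfl

theorem heq_glOf_det (A : Matrix (Fin 2) (Fin 2) ℤ) (hA : 0 < A.det) :
    (heq_glOf A hA).det.val = ((A.det : ℤ) : ℝ) := by
  rw [Matrix.GeneralLinearGroup.val_det_apply, heq_glOf_coe, heq_det_map]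

theorem heq_glOf_det_pos (A : Matrix (Fin 2) (Fin 2) ℤ) (hA : 0 < A.det) :
    0 < (heq_glOf A hA).det.val := by
  rw [heq_glOf_det]
  exact_mod_cast hA

theorem heq_det_mul_pos {A B : Matrix (Fin 2) (Fin 2) ℤ} (hA : 0 < A.det) (hB : 0 < B.det) :
    0 < (A * B).det := by
  rw [Matrix.det_mul]
  exact mul_pos hA hB

theorem heq_glOf_mul (A B : Matrix (Fin 2) (Fin 2) ℤ) (hA : 0 < A.det) (hB : 0 < B.det) :
    heq_glOf (A * B) (heq_det_mul_pos hA hB) = heq_glOf A hA * heq_glOf B hB := by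
  apply Matrix.GeneralLinearGroup.ext
  intro i j
  rw [Matrix.GeneralLinearGroup.coe_mul, heq_glOf_coe, heq_glOf_coe, heq_glOf_coe,
    Matrix.map_mul_intCast]

theorem heq_SL_det_pos (γ : SL(2, ℤ)) : 0 < (γ : Matrix (Fin 2) (Fin 2) ℤ).det := by
  rw [γ.2]; exact one_pos

theorem heq_glOf_SL (γ : SL(2, ℤ)) :
    heq_glOf (γ : Matrix (Fin 2) (Fin 2) ℤ) (heq_SL_det_pos γ) =
      Matrix.SpecialLinearGroup.mapGL ℝ γ := by
  apply Matrix.GeneralLinearGroup.ext
  intro i j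
  rw [heq_glOf_coe]
  simp [Matrix.SpecialLinearGroup.mapGL]

/-- the Möbius action of `heq_glOf A` in coordinates -/
theorem heq_glOf_smul_coe (A : Matrix (Fin 2) (Fin 2) ℤ) (hA : 0 < A.det) (τ : ℍ) :
    ((heq_glOf A hA • τ : ℍ) : ℂ) =
      ((A 0 0 : ℂ) * τ + (A 0 1 : ℂ)) / ((A 1 0 : ℂ) * τ + (A 1 1 : ℂ)) := by
  rw [UpperHalfPlane.coe_smul_of_det_pos (heq_glOf_det_pos A hA)]
  simp [UpperHalfPlane.num, UpperHalfPlane.denom, heq_glOf_coe]

/-! ### precomposition on `Hol` and `Mer` -/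

/-- `f ↦ f ∘ A` on holomorphic functions -/
def heq_compHol (A : Matrix (Fin 2) (Fin 2) ℤ) (hA : 0 < A.det) : Hol →+* Hol :=
  compGL (heq_glOf A hA) (heq_glOf_det_pos A hA)

@[simp] theorem heq_compHol_apply (A : Matrix (Fin 2) (Fin 2) ℤ) (hA : 0 < A.det) (f : Hol)
    (τ : ℍ) : (heq_compHol A hA f : ℍ → ℂ) τ = (f : ℍ → ℂ) (heq_glOf A hA • τ) := rfl

theorem heq_compHol_injective (A : Matrix (Fin 2) (Fin 2) ℤ) (hA : 0 < A.det) :
    Function.Injective (heq_compHol A hA) := by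
  rw [injective_iff_map_eq_zero]
  intro f hf
  apply Subtype.ext
  funext τ
  have h1 := congrFun (congrArg Subtype.val hf) ((heq_glOf A hA)⁻¹ • τ)
  rw [heq_compHol_apply, smul_inv_smul] at h1
  exact h1

theorem heq_compHol_mer_injective (A : Matrix (Fin 2) (Fin 2) ℤ) (hA : 0 < A.det) :
    Function.Injective ((algebraMap Hol Mer).comp (heq_compHol A hA)) :=
  (IsFractionRing.injective Hol Mer).comp (heq_compHol_injective A hA)

open Classical in
/-- `h ↦ h ∘ A` on meromorphic functions (`id` if `det A ≤ 0`) -/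
def heq_comp (A : Matrix (Fin 2) (Fin 2) ℤ) : Mer →+* Mer :=
  if hA : 0 < A.det then IsFractionRing.lift (heq_compHol_mer_injective A hA) else RingHom.id Mer

theorem heq_comp_algebraMap (A : Matrix (Fin 2) (Fin 2) ℤ) (hA : 0 < A.det) (f : Hol) :
    heq_comp A (algebraMap Hol Mer f) = algebraMap Hol Mer (heq_compHol A hA f) := by
  rw [heq_comp, dif_pos hA]
  exact IsFractionRing.lift_algebraMap (heq_compHol_mer_injective A hA) f

theorem heq_comp_of_not_pos (A : Matrix (Fin 2) (Fin 2) ℤ) (hA : ¬ 0 < A.det) (h : Mer) :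
    heq_comp A h = h := by
  rw [heq_comp, dif_neg hA]; rfl

/-- two ring homs out of `Mer` agreeing on `Hol` are equal -/
theorem heq_ringHom_ext {φ φ' : Mer →+* Mer}
    (h : ∀ f : Hol, φ (algebraMap Hol Mer f) = φ' (algebraMap Hol Mer f)) : φ = φ' :=
  IsLocalization.ringHom_ext (nonZeroDivisors Hol) (RingHom.ext h)

/-- `(h ∘ A) ∘ B = h ∘ (A * B)` -/
theorem heq_comp_comp (A B : Matrix (Fin 2) (Fin 2) ℤ) (hA : 0 < A.det) (hB : 0 < B.det)
    (h : Mer) : heq_comp B (heq_comp A h) = heq_comp (A * B) h := by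
  have key : (heq_comp B).comp (heq_comp A) = heq_comp (A * B) := by
    apply heq_ringHom_ext
    intro f
    rw [RingHom.comp_apply, heq_comp_algebraMap A hA, heq_comp_algebraMap B hB,
      heq_comp_algebraMap (A * B) (heq_det_mul_pos hA hB)]
    congr 1
    apply Subtype.ext
    funext τ
    rw [heq_compHol_apply, heq_compHol_apply, heq_compHol_apply, heq_glOf_mul A B hA hB, mul_smul]
  exact congrArg (fun φ : Mer →+* Mer => φ h) key

/-- `h ∘ γ = γ⁻¹ • h` for `γ ∈ SL(2,ℤ)` -/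
theorem heq_comp_SL (γ : SL(2, ℤ)) (h : Mer) :
    heq_comp (γ : Matrix (Fin 2) (Fin 2) ℤ) h = γ⁻¹ • h := by
  have key : heq_comp (γ : Matrix (Fin 2) (Fin 2) ℤ) =
      MulSemiringAction.toRingHom SL(2, ℤ) Mer γ⁻¹ := by
    apply heq_ringHom_ext
    intro f
    rw [heq_comp_algebraMap _ (heq_SL_det_pos γ)]
    show _ = γ⁻¹ • algebraMap Hol Mer f
    rw [smul_algebraMap_Mer]
    congr 1
    apply Subtype.ext
    funext τ
    rw [heq_compHol_apply, smul_Hol_apply, inv_inv, heq_glOf_SL]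
    rfl
  exact congrArg (fun φ : Mer →+* Mer => φ h) key

theorem heq_comp_const (A : Matrix (Fin 2) (Fin 2) ℤ) (c : ℂ) :
    heq_comp A (algebraMap ℂ Mer c) = algebraMap ℂ Mer c := by
  by_cases hA : 0 < A.det
  · rw [IsScalarTower.algebraMap_apply ℂ Hol Mer, heq_comp_algebraMap A hA]
    rfl
  · exact heq_comp_of_not_pos A hA _

/-! ### the relation `R` -/

/-- **The relation `R(x, ψ)`** (`S42_LEAD_NOTES` N1, general multiplier): `x ∈ J₀(M)` is the class
of a degree-zero divisor `Dt` with `p • Dt = div f`, and `evF f` has a `p`-th root `h` in `Mer`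
with `h (γ z) = ψ(γ) h(z)` for `γ ∈ Γ₀(M)`. -/
def heq_Rel (M p : ℕ) [NeZero M] (x : JZero M)
    (ψ : Additive (Gamma0 M) →+ Additive ℂˣ) : Prop :=
  ∃ (f : FBar M) (Dt : Divisor.degZero (K := Qbar) (F := modularFunctionFieldBar M)) (h : Mer),
    f ≠ 0 ∧ Pic0.mk Dt = x ∧
    (∀ P : Place Qbar (modularFunctionFieldBar M),
      (p : ℤ) * (Dt : Divisor Qbar (modularFunctionFieldBar M)) P = P.ord f) ∧
    h ^ p = evF M f ∧
    ∀ γ : Gamma0 M, ((γ : SL(2, ℤ))⁻¹ • h : Mer) =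
      algebraMap ℂ Mer (((ψ (Additive.ofMul γ)).toMul : ℂˣ) : ℂ) * h

end

end Fermat.Agent.S42x
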