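/-
S42x/InjQbar (helper34, S42 block B4 leaf L3, prefix `inj_qb_`): `FC ∩ ℚ̄((q)) = F0` and
`ℚ̄`-rationality of normalised `p`-th roots; NO automorphism argument.

Generic part (fields `K`, `L`, ring hom `ι : K →+* L`, `F₀ ⊆ ℚ((q))`; Mathlib + Prelude +
`S42x/InjFieldDescent`):

* `inj_qb_exists_preimage` : a series in `L((q))` with all coefficients in `ι K` is `coeffMap ι y`;
* `inj_qb_descent` (a)     : `x ∈ laurentBaseChange L F₀` with all coefficients in `ι K`
                             ⟹ `x = coeffMap ι y`, `y ∈ laurentBaseChange K F₀`;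
* `inj_qb_coeffMap_mem` (a'): `coeffMap ι` maps `laurentBaseChange K F₀` into `laurentBaseChange L F₀`;
* `inj_qb_ps_root_mem`     : power series `v`, constant coefficient `1`, `v ^ p` with coefficients
                             in a subring `A` in which `p` is invertible ⟹ `v` has coefficients in `A`
                             (recursion on coefficients via the second-order binomial expansion);
* `inj_qb_root_coeff_mem` (b): `u ∈ L((q))`, leading coefficient `1`, `u ^ p` with coefficients in
                             `ι K` ⟹ `u` has coefficients in `ι K`;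
* `inj_qb_root_descent`    : `u ∈ F_L`, `u ^ p = ι f` ⟹ `u = l · ι w`, `f = c · w ^ p`, `w ∈ F_K`.

Specialisation to `(K, L, ι, F₀) = (ℚ̄, ℂ, S24x.iotaQ, modularFunctionFieldFull M)`:
`inj_qb_FC_descent`, `inj_qb_FC_of_FBar`, `inj_qb_FC_root_descent` (with
`FBar M = ↥(modularFunctionFieldBar M)`).
-/
import Mathlib
import Fermat.Prelude.Def_ModularCurve_LaurentCoeff
import Fermat.Prelude.Def_ModularCurve_ArithmeticGalois
import Fermat.Agent.S24x.Iota
import Fermat.Agent.S42x.InjFieldDescent

set_option autoImplicit false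

namespace Fermat.Agent.S42x

open ModularCurve HahnSeries

noncomputable section

/-! ### power series: rationality of normalised `p`-th roots -/

/-- power series with all coefficients in a subring. -/
def inj_qb_psSub {R : Type*} [CommRing R] (A : Subring R) : Subring (PowerSeries R) where
  carrier := {v | ∀ n, PowerSeries.coeff n v ∈ A}
  mul_mem' {a b} ha hb := by
    intro n
    rw [PowerSeries.coeff_mul]
    exact Subring.sum_mem _ fun ij _ => A.mul_mem (ha ij.1) (hb ij.2)
  one_mem' := by
    intro n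
    rw [PowerSeries.coeff_one]
    split_ifs
    · exact A.one_mem
    · exact A.zero_mem
  add_mem' {a b} ha hb := by
    intro n
    rw [map_add]
    exact A.add_mem (ha n) (hb n)
  zero_mem' := by
    intro n
    rw [map_zero]
    exact A.zero_mem
  neg_mem' {a} ha := by
    intro n
    rw [map_neg]
    exact A.neg_mem (ha n)

theorem inj_qb_mem_psSub {R : Type*} [CommRing R] (A : Subring R) (v : PowerSeries R) :
    v ∈ inj_qb_psSub A ↔ ∀ n, PowerSeries.coeff n v ∈ A := Iff.rfl

/-- binomial expansion to second order. -/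
theorem inj_qb_add_pow_exists {R : Type*} [CommRing R] (a b : R) (p : ℕ) :
    ∃ c : R, (a + b) ^ p = a ^ p + (p : R) * a ^ (p - 1) * b + c * b ^ 2 := by
  induction p with
  | zero => exact ⟨0, by simp⟩
  | succ n ih =>
    obtain ⟨c, hc⟩ := ih
    rcases Nat.eq_zero_or_pos n with rfl | hn
    · exact ⟨0, by simp⟩
    · obtain ⟨m, rfl⟩ : ∃ m, n = m + 1 := ⟨n - 1, (Nat.sub_add_cancel hn).symm⟩
      refine ⟨c * (a + b) + ((m + 1 : ℕ) : R) * a ^ m, ?_⟩
      rw [pow_succ, hc]
      simp only [Nat.add_sub_cancel]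
      push_cast
      ring


/-- coefficient `k` of `x * b` when `b` has no coefficients below `k`. -/
theorem inj_qb_coeff_mul_of_low {R : Type*} [CommRing R] (x b : PowerSeries R) (k : ℕ)
    (hb : ∀ n < k, PowerSeries.coeff n b = 0) :
    PowerSeries.coeff k (x * b) = PowerSeries.constantCoeff x * PowerSeries.coeff k b := by
  rw [PowerSeries.coeff_mul, Finset.sum_eq_single (0, k)]
  · rw [PowerSeries.coeff_zero_eq_constantCoeff_apply]
  · intro ij hij hne
    rw [Finset.HasAntidiagonal.mem_antidiagonal] at hij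
    have hlt : ij.2 < k := by
      rcases Nat.lt_or_ge ij.2 k with h | h
      · exact h
      · exfalso
        apply hne
        have h2 : ij.2 = k := by omega
        have h1 : ij.1 = 0 := by omega
        exact Prod.ext h1 h2
    rw [hb _ hlt, mul_zero]
  · intro h
    exfalso
    apply h
    rw [Finset.HasAntidiagonal.mem_antidiagonal]
    simp

/-- coefficient `k` of `c * b ^ 2` vanishes when `b` has no coefficients below `k ≥ 1`. -/
theorem inj_qb_coeff_mul_sq_of_low {R : Type*} [CommRing R] (c b : PowerSeries R) (k : ℕ)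
    (hk : 0 < k) (hb : ∀ n < k, PowerSeries.coeff n b = 0) :
    PowerSeries.coeff k (c * b ^ 2) = 0 := by
  have h1 : c * b ^ 2 = (c * b) * b := by ring
  rw [h1, inj_qb_coeff_mul_of_low _ _ _ hb]
  have h2 : PowerSeries.constantCoeff (c * b) = 0 := by
    rw [map_mul, ← PowerSeries.coeff_zero_eq_constantCoeff_apply (φ := b), hb 0 hk, mul_zero]
  rw [h2, zero_mul]

/-- **Rationality of normalised `p`-th roots, power series version.**  If `p` is invertible in the
subring `A`, `v` has constant coefficient `1` and `v ^ p` has all coefficients in `A`, then so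
has `v`. -/
theorem inj_qb_ps_root_mem {R : Type*} [CommRing R] (A : Subring R) (p : ℕ)
    (hp : ∃ r ∈ A, r * (p : R) = 1) (v : PowerSeries R)
    (hv0 : PowerSeries.constantCoeff v = 1) (hpow : v ^ p ∈ inj_qb_psSub A) :
    v ∈ inj_qb_psSub A := by
  obtain ⟨r, hrA, hr⟩ := hp
  have key : ∀ k : ℕ, ∀ n < k, PowerSeries.coeff n v ∈ A := by
    intro k
    induction k with
    | zero => intro n hn; exact absurd hn (Nat.not_lt_zero n)
    | succ k ih =>
      intro n hn
      rcases Nat.lt_or_ge n k with h | h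
      · exact ih n h
      have hnk : n = k := by omega
      subst hnk
      rcases Nat.eq_zero_or_pos n with rfl | hpos
      · rw [PowerSeries.coeff_zero_eq_constantCoeff_apply, hv0]
        exact A.one_mem
      -- the truncation `a` and the tail `b`
      set a : PowerSeries R := ((PowerSeries.trunc n v : Polynomial R) : PowerSeries R) with ha
      have hacoeff : ∀ m, PowerSeries.coeff m a = if m < n then PowerSeries.coeff m v else 0 := by
        intro m
        rw [ha, Polynomial.coeff_coe, PowerSeries.coeff_trunc]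
      have haS : a ∈ inj_qb_psSub A := by
        intro m
        rw [hacoeff]
        split_ifs with hm
        · exact ih m hm
        · exact A.zero_mem
      set b : PowerSeries R := v - a with hb
      have hblow : ∀ m < n, PowerSeries.coeff m b = 0 := by
        intro m hm
        rw [hb, map_sub, hacoeff, if_pos hm, sub_self]
      have hbn : PowerSeries.coeff n b = PowerSeries.coeff n v := by
        rw [hb, map_sub, hacoeff, if_neg (lt_irrefl n), sub_zero]
      have hva : v = a + b := by rw [hb]; ring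
      obtain ⟨c, hc⟩ := inj_qb_add_pow_exists a b p
      have ha0 : PowerSeries.constantCoeff a = 1 := by
        rw [← PowerSeries.coeff_zero_eq_constantCoeff_apply, hacoeff, if_pos hpos,
          PowerSeries.coeff_zero_eq_constantCoeff_apply, hv0]
      have h1 : PowerSeries.coeff n (v ^ p) =
          PowerSeries.coeff n (a ^ p) + (p : R) * PowerSeries.coeff n v := by
        conv_lhs => rw [hva, hc]
        rw [map_add, map_add, inj_qb_coeff_mul_sq_of_low c b n hpos hblow, add_zero,
          inj_qb_coeff_mul_of_low _ b n hblow, hbn, map_mul PowerSeries.constantCoeff,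
          map_pow PowerSeries.constantCoeff, ha0, one_pow, mul_one,
          map_natCast PowerSeries.constantCoeff]
      have h2 : (p : R) * PowerSeries.coeff n v ∈ A := by
        have : (p : R) * PowerSeries.coeff n v =
            PowerSeries.coeff n (v ^ p) - PowerSeries.coeff n (a ^ p) := by
          rw [h1]; ring
        rw [this]
        exact A.sub_mem (hpow n) ((inj_qb_psSub A).pow_mem haS p n)
      have h3 : PowerSeries.coeff n v = r * ((p : R) * PowerSeries.coeff n v) := by
        rw [← mul_assoc, hr, one_mul]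
      rw [h3]
      exact A.mul_mem hrA h2
  intro n
  exact key (n + 1) n (Nat.lt_succ_self n)


/-! ### Laurent series -/

section laurent

variable {K L : Type*} [Field K] [Field L]

/-- a Laurent series over `L` all of whose coefficients lie in the range of `ι : K →+* L` is the
coefficientwise image of a Laurent series over `K`. -/
theorem inj_qb_exists_preimage (ι : K →+* L) (x : LaurentSeries L)
    (h : ∀ n, x.coeff n ∈ ι.range) : ∃ y : LaurentSeries K, coeffMap ι y = x := by
  choose c hc using h
  have hsupp : Function.support c ⊆ x.support := by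
    intro n hn
    rw [Function.mem_support] at hn
    rw [HahnSeries.mem_support, ← hc n]
    exact (map_ne_zero_iff ι ι.injective).mpr hn
  refine ⟨⟨c, x.isPWO_support.mono hsupp⟩, ?_⟩
  ext n
  rw [coeffMap_coeff]
  exact hc n

theorem inj_qb_coeffMap_injective (ι : K →+* L) : Function.Injective (coeffMap ι) :=
  (coeffMap ι).injective

theorem inj_qb_coeffMap_algebraMap (ι : K →+* L) (c : K) :
    coeffMap ι (algebraMap K (LaurentSeries K) c) = algebraMap L (LaurentSeries L) (ι c) := by
  rw [algebraMap_laurentSeries_eq_single, algebraMap_laurentSeries_eq_single, coeffMap_single]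

theorem inj_qb_leadingCoeff_pow (u : LaurentSeries L) (p : ℕ) :
    (u ^ p).leadingCoeff = u.leadingCoeff ^ p := by
  induction p with
  | zero => rw [pow_zero, pow_zero, HahnSeries.leadingCoeff_one]
  | succ n ih => rw [pow_succ, pow_succ, HahnSeries.leadingCoeff_mul, ih]

/-- **Rationality of normalised `p`-th roots.**  If `u ∈ L((q))` has leading coefficient `1` and
`u ^ p` has all its coefficients in `ι K` (with `p` invertible in `K`), then so has `u`. -/
theorem inj_qb_root_coeff_mem (ι : K →+* L) (p : ℕ) (hp : (p : K) ≠ 0) (u : LaurentSeries L)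
    (hlc : u.leadingCoeff = 1) (hpow : ∀ n, (u ^ p).coeff n ∈ ι.range) :
    ∀ n, u.coeff n ∈ ι.range := by
  set v : PowerSeries L := LaurentSeries.powerSeriesPart u with hv
  set m : ℤ := u.order with hm
  have hu : (single m (1 : L) : LaurentSeries L) * (HahnSeries.ofPowerSeries ℤ L v) = u :=
    LaurentSeries.single_order_mul_powerSeriesPart u
  have hv0 : PowerSeries.constantCoeff v = 1 := by
    rw [← PowerSeries.coeff_zero_eq_constantCoeff_apply, hv, LaurentSeries.powerSeriesPart_coeff,
      Nat.cast_zero, add_zero, ← HahnSeries.leadingCoeff_eq, hlc]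
  have hupow : u ^ p = (single (p • m) (1 : L) : LaurentSeries L) *
      (HahnSeries.ofPowerSeries ℤ L (v ^ p)) := by
    conv_lhs => rw [← hu]
    rw [mul_pow, HahnSeries.single_pow, one_pow, map_pow]
  have hvpow : ∀ n, PowerSeries.coeff n (v ^ p) ∈ ι.range := by
    intro n
    have h1 : (u ^ p).coeff ((n : ℤ) + p • m) = PowerSeries.coeff n (v ^ p) := by
      rw [hupow, HahnSeries.coeff_single_mul_add, one_mul, LaurentSeries.coeff_coe_powerSeries]
    rw [← h1]
    exact hpow _
  have hinv : ∃ r ∈ ι.range, r * (p : L) = 1 := by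
    refine ⟨ι ((p : K)⁻¹), ⟨_, rfl⟩, ?_⟩
    rw [← map_natCast ι p, ← map_mul, inv_mul_cancel₀ hp, map_one]
  have hvmem := inj_qb_ps_root_mem ι.range p hinv v hv0 hvpow
  intro n
  rcases lt_or_ge n m with h | h
  · rw [HahnSeries.coeff_eq_zero_of_lt_order h]
    exact ι.range.zero_mem
  · obtain ⟨k, hk⟩ := Int.eq_ofNat_of_zero_le (sub_nonneg.mpr h)
    have hn : n = m + (k : ℤ) := by omega
    rw [hn, ← LaurentSeries.powerSeriesPart_coeff]
    exact hvmem k

end laurent

section descent

variable {K L : Type*} [Field K] [Field L] [Algebra ℚ K] [Algebra ℚ L]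

/-- **`F_L ∩ ι K((q)) = ι F_K`.**  An element of `laurentBaseChange L F₀` all of whose
coefficients lie in `ι K` is the coefficientwise image of an element of `laurentBaseChange K F₀`. -/
theorem inj_qb_descent (ι : K →+* L) (F₀ : IntermediateField ℚ (LaurentSeries ℚ))
    (x : LaurentSeries L) (hx : x ∈ laurentBaseChange L F₀) (h : ∀ n, x.coeff n ∈ ι.range) :
    ∃ y : LaurentSeries K, y ∈ laurentBaseChange K F₀ ∧ coeffMap ι y = x := by
  obtain ⟨y, hy⟩ := inj_qb_exists_preimage ι x h
  refine ⟨y, ?_, hy⟩
  rw [← injd_mem_iff_ringHom ι F₀ y, hy]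
  exact hx

/-- the easy direction: `coeffMap ι` maps `F_K` into `F_L`. -/
theorem inj_qb_coeffMap_mem (ι : K →+* L) (F₀ : IntermediateField ℚ (LaurentSeries ℚ))
    (y : LaurentSeries K) (hy : y ∈ laurentBaseChange K F₀) :
    coeffMap ι y ∈ laurentBaseChange L F₀ :=
  (injd_mem_iff_ringHom ι F₀ y).mpr hy

/-- **Descent of `p`-th roots.**  If `u ∈ F_L` and `u ^ p = ι f` with `f ∈ K((q))`, then
`u = l · ι w` and `f = c · w ^ p` for some `w ∈ F_K`, `l ∈ L`, `c ∈ K`. -/
theorem inj_qb_root_descent (ι : K →+* L) (F₀ : IntermediateField ℚ (LaurentSeries ℚ))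
    (p : ℕ) (hp : (p : K) ≠ 0) (f : LaurentSeries K) (u : LaurentSeries L)
    (hu : u ∈ laurentBaseChange L F₀) (hpow : u ^ p = coeffMap ι f) :
    ∃ (w : LaurentSeries K) (l : L) (c : K), w ∈ laurentBaseChange K F₀ ∧
      u = algebraMap L (LaurentSeries L) l * coeffMap ι w ∧
      f = algebraMap K (LaurentSeries K) c * w ^ p := by
  have hp0 : p ≠ 0 := by
    rintro rfl
    exact hp Nat.cast_zero
  rcases eq_or_ne u 0 with rfl | hu0
  · refine ⟨0, 0, 0, zero_mem _, by rw [map_zero, zero_mul], ?_⟩
    rw [map_zero, zero_mul]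
    apply inj_qb_coeffMap_injective ι
    rw [← hpow, zero_pow hp0, map_zero]
  set l : L := u.leadingCoeff with hl
  have hl0 : l ≠ 0 := HahnSeries.leadingCoeff_ne_zero.mpr hu0
  -- `l ^ p = ι c`
  set c : K := f.coeff (u ^ p).order with hc
  have hlc : l ^ p = ι c := by
    rw [hl, ← inj_qb_leadingCoeff_pow, HahnSeries.leadingCoeff_eq, hc, ← coeffMap_coeff, ← hpow]
  have hc0 : c ≠ 0 := by
    intro h0
    rw [h0, map_zero] at hlc
    exact hl0 (pow_eq_zero_iff hp0 |>.mp hlc)
  -- the normalised root
  set u1 : LaurentSeries L := algebraMap L (LaurentSeries L) l⁻¹ * u with hu1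
  have hu1lc : u1.leadingCoeff = 1 := by
    rw [hu1, HahnSeries.leadingCoeff_mul, algebraMap_laurentSeries_eq_single,
      HahnSeries.leadingCoeff_of_single, ← hl, inv_mul_cancel₀ hl0]
  have hu1pow : u1 ^ p = coeffMap ι (algebraMap K (LaurentSeries K) c⁻¹ * f) := by
    rw [hu1, mul_pow, hpow, map_mul, inj_qb_coeffMap_algebraMap, ← map_pow, inv_pow, hlc, map_inv₀ ι]
  have hu1mem : u1 ∈ laurentBaseChange L F₀ :=
    mul_mem ((laurentBaseChange L F₀).algebraMap_mem _) hu
  have hcoef : ∀ n, u1.coeff n ∈ ι.range := by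
    apply inj_qb_root_coeff_mem ι p hp u1 hu1lc
    intro n
    rw [hu1pow, coeffMap_coeff]
    exact ⟨_, rfl⟩
  obtain ⟨w, hwmem, hw⟩ := inj_qb_descent ι F₀ u1 hu1mem hcoef
  refine ⟨w, l, c, hwmem, ?_, ?_⟩
  · rw [hw, hu1, ← mul_assoc, ← map_mul, mul_inv_cancel₀ hl0, map_one, one_mul]
  · have h1 : w ^ p = algebraMap K (LaurentSeries K) c⁻¹ * f := by
      apply inj_qb_coeffMap_injective ι
      rw [map_pow, hw, hu1pow]
    rw [h1, ← mul_assoc, ← map_mul, mul_inv_cancel₀ hc0, map_one, one_mul]

end descent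


/-! ### specialisation to `ℚ̄ ⊆ ℂ` and the modular function field -/

section modular

open Fermat.Agent.S24x

/-- **(a) `FC ∩ ℚ̄((q)) = F0`.**  An element of `FC = laurentBaseChange ℂ (modularFunctionFieldFull M)`
all of whose `q`-expansion coefficients lie in `iotaQ ℚ̄` is `coeffMap iotaQ` of an element of
`FBar M = modularFunctionFieldBar M`. -/
theorem inj_qb_FC_descent (M : ℕ) (x : LaurentSeries ℂ)
    (hx : x ∈ laurentBaseChange ℂ (modularFunctionFieldFull M))
    (h : ∀ n, x.coeff n ∈ iotaQ.range) :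
    ∃ f0 : ↥(modularFunctionFieldBar M),
      coeffMap iotaQ (f0 : LaurentSeries (AlgebraicClosure ℚ)) = x := by
  obtain ⟨y, hy, hyx⟩ := inj_qb_descent iotaQ (modularFunctionFieldFull M) x hx h
  exact ⟨⟨y, hy⟩, hyx⟩

/-- **(a')** `coeffMap iotaQ` maps `FBar M` into `FC`. -/
theorem inj_qb_FC_of_FBar (M : ℕ) (f0 : ↥(modularFunctionFieldBar M)) :
    coeffMap iotaQ (f0 : LaurentSeries (AlgebraicClosure ℚ)) ∈
      laurentBaseChange ℂ (modularFunctionFieldFull M) :=
  inj_qb_coeffMap_mem iotaQ (modularFunctionFieldFull M) _ f0.2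

/-- membership in `FC` of `coeffMap iotaQ y` is membership of `y` in `FBar M`. -/
theorem inj_qb_FC_mem_iff (M : ℕ) (y : LaurentSeries (AlgebraicClosure ℚ)) :
    coeffMap iotaQ y ∈ laurentBaseChange ℂ (modularFunctionFieldFull M) ↔
      y ∈ modularFunctionFieldBar M :=
  injd_mem_iff_ringHom iotaQ (modularFunctionFieldFull M) y

/-- **(b)** a `p`-th root in `ℂ((q))` with leading coefficient `1` of a series with `ℚ̄`-coefficients
has `ℚ̄`-coefficients. -/
theorem inj_qb_root_coeff_mem_iotaQ (p : ℕ) (hp : 0 < p) (u : LaurentSeries ℂ)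
    (hlc : u.leadingCoeff = 1) (y : LaurentSeries (AlgebraicClosure ℚ))
    (hpow : u ^ p = coeffMap iotaQ y) : ∀ n, u.coeff n ∈ iotaQ.range := by
  apply inj_qb_root_coeff_mem iotaQ p (Nat.cast_ne_zero.mpr hp.ne') u hlc
  intro n
  rw [hpow, coeffMap_coeff]
  exact ⟨_, rfl⟩

/-- **R3 over `ℚ̄`, field part.**  If `u ∈ FC` and `u ^ p = coeffMap iotaQ f` with `f ∈ FBar M`,
then `u = l · coeffMap iotaQ u0` and `f = c · u0 ^ p` with `u0 ∈ FBar M`, `l ∈ ℂ`, `c ∈ ℚ̄`. -/
theorem inj_qb_FC_root_descent (M : ℕ) (p : ℕ) (hp : 0 < p) (f : ↥(modularFunctionFieldBar M))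
    (u : LaurentSeries ℂ) (hu : u ∈ laurentBaseChange ℂ (modularFunctionFieldFull M))
    (hpow : u ^ p = coeffMap iotaQ (f : LaurentSeries (AlgebraicClosure ℚ))) :
    ∃ (u0 : ↥(modularFunctionFieldBar M)) (l : ℂ) (c : AlgebraicClosure ℚ),
      u = algebraMap ℂ (LaurentSeries ℂ) l *
        coeffMap iotaQ (u0 : LaurentSeries (AlgebraicClosure ℚ)) ∧
      f = algebraMap (AlgebraicClosure ℚ) ↥(modularFunctionFieldBar M) c * u0 ^ p := by
  obtain ⟨w, l, c, hw, hul, hfc⟩ := inj_qb_root_descent iotaQ (modularFunctionFieldFull M) p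
    (Nat.cast_ne_zero.mpr hp.ne') (f : LaurentSeries (AlgebraicClosure ℚ)) u hu hpow
  refine ⟨⟨w, hw⟩, l, c, hul, ?_⟩
  apply Subtype.ext
  rw [hfc]
  rfl

end modular

end

end Fermat.Agent.S42x
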