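/-
S42x/InjR3 (helper34, S42 block B4, prefix `injr_`): **(R3)** for the relation `heq_Rel`
(helper54, S42x/HeckeEqDefs): a class related to the TRIVIAL multiplier is zero,

  `injr_R3 : heq_Rel M p x ψ → ψ = 0 → x = 0`     (`0 < p`),

abstractly over the B3 package: a realisation `ev : S23x.ratioField M →+* Mer` which is compatible
with `q`-expansions of forms (`inj_EvCompat`, helper81 S42x/InjEv) and extends `S24x.evF M`
(`hcomp`: if `y ∈ ratioField M` has `q`-expansion `iotaL f`, `f ∈ FBar M`, then `ev y = evF M f`).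

Proof.  Unpack `heq_Rel`: `f ∈ FBar M`, `p • Dt = div f`, `h ∈ Mer`, `h ^ p = evF M f`, and
`ψ = 0` makes `h` invariant under `Γ₀(M)`.  By `inj_ev_surj` (N2 over `FC`) `h = ev u` with
`u ∈ ratioField M = ℂ · F_M` (`cdcb_laurentBaseChange_eq`, helper2) and `u ^ p = iotaL f`.  By
`inj_qb_FC_root_descent` (S42x/InjQbar: normalised `p`-th roots of `ℚ̄`-series are `ℚ̄`-series, and
`FC ∩ ℚ̄((q)) = F0`) we get `f = c · u0 ^ p` with `u0 ∈ FBar M`, `c ∈ ℚ̄`.  Hence
`p * Dt P = P.ord f = p * P.ord u0` at every place, `Dt = div u0` is principal and `x = 0`.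
-/
import Mathlib
import Fermat.Agent.S42x.HeckeEqDefs
import Fermat.Agent.S42x.InjEv
import Fermat.Agent.S42x.InjQbar
import Fermat.Agent.S42x.CDictBridge
import Fermat.Agent.S24x.PlaceBasic

set_option autoImplicit false

namespace Fermat.Agent.S42x

open UpperHalfPlane ModularCurve AlgebraicCurve CongruenceSubgroup
open Fermat.Agent.S24x Fermat.Agent.S23x
open scoped MatrixGroups

noncomputable section

/-- the trivial multiplier makes `h` invariant under `Γ₀(M)` -/
theorem injr_invariant_of_trivial {M : ℕ} (ψ : Additive (Gamma0 M) →+ Additive ℂˣ) (hψ : ψ = 0)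
    (h : Mer)
    (hchar : ∀ γ : Gamma0 M, ((γ : SL(2, ℤ))⁻¹ • h : Mer) =
      algebraMap ℂ Mer (((ψ (Additive.ofMul γ)).toMul : ℂˣ) : ℂ) * h) :
    ∀ γ : SL(2, ℤ), γ ∈ Gamma0 M → γ • h = h := by
  intro γ hγ
  have h1 := hchar ⟨γ⁻¹, inv_mem hγ⟩
  rw [hψ] at h1
  simpa using h1

/-- order of `c * u ^ p` at a place -/
theorem injr_ord_const_mul_pow {K F : Type*} [Field K] [Field F] [Algebra K F] (P : Place K F)
    (c : K) (u : F) (p : ℕ) (hc : algebraMap K F c ≠ 0) (hu : u ≠ 0) :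
    P.ord (algebraMap K F c * u ^ p) = (p : ℤ) * P.ord u := by
  rw [P.ord_mul hc (pow_ne_zero p hu), pb_ord_algebraMap, zero_add, ← zpow_natCast, P.ord_zpow]

/-- **(R3)**, abstract over the realisation `ev` of `FC = ratioField M`. -/
theorem injr_R3 (M p : ℕ) [NeZero M] (hp : 0 < p) (ev : ratioField M →+* Mer)
    (hev : inj_EvCompat M ev)
    (hcomp : ∀ (f : FBar M) (y : ratioField M),
      (y : LS) = iotaL (f : LaurentSeries Qbar) → ev y = evF M f)
    {x : JZero M} {ψ : Additive (Gamma0 M) →+ Additive ℂˣ}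
    (hrel : heq_Rel M p x ψ) (hψ : ψ = 0) : x = 0 := by
  obtain ⟨f, Dt, h, hf, hDt, hdiv, hpow, hchar⟩ := hrel
  have hinv := injr_invariant_of_trivial ψ hψ h hchar
  -- `iotaL f` as an element of `ratioField M`
  have hfmem : iotaL (f : LaurentSeries Qbar) ∈ ratioField M := by
    rw [← cdcb_laurentBaseChange_eq]
    exact inj_qb_FC_of_FBar M f
  set y : ratioField M := ⟨_, hfmem⟩ with hy
  have hevy : ev y = evF M f := hcomp f y rfl
  obtain ⟨u, -, hupow⟩ := inj_ev_surj M ev hev hp y h hinv (hpow.trans hevy.symm)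
  -- descend the root
  have humem : (u : LS) ∈ laurentBaseChange ℂ (modularFunctionFieldFull M) := by
    rw [cdcb_laurentBaseChange_eq]
    exact u.2
  have hupow' : (u : LS) ^ p = coeffMap iotaQ (f : LaurentSeries Qbar) := by
    have h1 : ((u ^ p : ratioField M) : LS) = (y : LS) := congrArg Subtype.val hupow
    rw [SubmonoidClass.coe_pow] at h1
    exact h1
  obtain ⟨u0, l, c, -, hfc⟩ := inj_qb_FC_root_descent M p hp f (u : LS) humem hupow'
  have hc0 : algebraMap Qbar (FBar M) c ≠ 0 := by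
    intro h0
    apply hf
    rw [hfc, h0, zero_mul]
  have hu0 : u0 ≠ 0 := by
    rintro rfl
    apply hf
    rw [hfc, zero_pow hp.ne', mul_zero]
  -- `Dt = div u0`
  rw [← hDt]
  refine (QuotientAddGroup.eq_zero_iff _).mpr ?_
  rw [AddSubgroup.mem_addSubgroupOf, Divisor.mem_principal]
  refine ⟨u0, hu0, fun P => ?_⟩
  have h1 := hdiv P
  rw [hfc, injr_ord_const_mul_pow P c u0 p hc0 hu0] at h1
  have hp' : (p : ℤ) ≠ 0 := by exact_mod_cast hp.ne'
  exact mul_left_cancel₀ hp' h1

/-- **(R3)** in helper81's packaging: `iF : FBar M →+* ratioField M` the coefficientwise embedding,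
`ev ∘ iF = evF M`. -/
theorem injr_R3_of_package (M p : ℕ) [NeZero M] (hp : 0 < p) (ev : ratioField M →+* Mer)
    (hev : inj_EvCompat M ev) (iF : FBar M →+* ratioField M)
    (hiF : ∀ f : FBar M, ((iF f : ratioField M) : LS) = iotaL (f : LaurentSeries Qbar))
    (hcomp : ∀ f : FBar M, ev (iF f) = evF M f)
    {x : JZero M} {ψ : Additive (Gamma0 M) →+ Additive ℂˣ}
    (hrel : heq_Rel M p x ψ) (hψ : ψ = 0) : x = 0 := by
  refine injr_R3 M p hp ev hev (fun f y hy => ?_) hrel hψ
  have : y = iF f := Subtype.ext (hy.trans (hiF f).symm)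
  rw [this, hcomp]

/-- the shape consumed by `rlg_iotHyp` (helper47, S42x/RelGroup). -/
theorem injr_hR3 (M p : ℕ) [NeZero M] (hp : 0 < p) (ev : ratioField M →+* Mer)
    (hev : inj_EvCompat M ev)
    (hcomp : ∀ (f : FBar M) (y : ratioField M),
      (y : LS) = iotaL (f : LaurentSeries Qbar) → ev y = evF M f)
    {L : Type*} [AddCommGroup L] (psiOf : L →+ (Additive (Gamma0 M) →+ Additive ℂˣ)) :
    ∀ (x : JZero M) (χ : L), heq_Rel M p x (psiOf χ) → psiOf χ = 0 → x = 0 :=
  fun _ _ hrel hψ => injr_R3 M p hp ev hev hcomp hrel hψ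

end

end Fermat.Agent.S42x
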