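/-
S42x/InjComp (helper81, S42 block B4, prefix `inj_cmp_`): the compatibility `ev ∘ iotaL = evF M`
is AUTOMATIC for every realisation `ev : ratioField M →+* Mer` satisfying the DOOR `inj_EvCompat`
(S42x/InjEv): both sides are ring homomorphisms on the field `FBar M = ℚ̄(j(q^d) : d ∣ M)`, they
agree on constants (`A = c`, `B = 1` in the door) and on the generators `j(q^d)`
(`A = E₄(dτ)^3`, `B = Δ(dτ)` in the door), hence everywhere.

Consequences: (R3) `heq_Rel M p x ψ → ψ = 0 → x = 0` and the `hR3` binder of `rlg_iotHyp`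
from `ev` + `inj_EvCompat M ev` ALONE (no separate `hcomp` input).
-/
import Mathlib
import Fermat.Agent.S42x.InjR3
import Fermat.Agent.S42x.InjEvGen

set_option autoImplicit false

namespace Fermat.Agent.S42x

open UpperHalfPlane ModularCurve AlgebraicCurve CongruenceSubgroup ModularForm EisensteinSeries
open Fermat.Agent.S24x Fermat.Agent.S23x
open scoped MatrixGroups

noncomputable section

variable (M : ℕ) [NeZero M] (ev : ratioField M →+* Mer)

/-- the door gives `ev (const) = const` -/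
theorem inj_cmp_const (hev : inj_EvCompat M ev) (c : ℂ) :
    ev (algebraMap ℂ (ratioField M) c) = algebraMap ℂ Mer c := by
  have h1 := hev (algebraMap ℂ (ratioField M) c) 0 (algebraMap ℂ Hol c) 1 (isMF_const M c)
    (isMF_const M 1) one_ne_zero (by
      show algebraMap ℂ LS c * qL (fun _ : ℍ => (1 : ℂ)) = qL (fun _ : ℍ => c)
      rw [m04_qL_one, mul_one, qL_const])
  rw [map_one, mul_one] at h1
  rw [h1, IsScalarTower.algebraMap_apply ℂ Hol Mer]

/-- `τ ↦ E₄(dτ)` and `τ ↦ Δ(dτ)` as elements of `Hol` -/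
def inj_cmp_E4d (d : ℕ) [NeZero d] : Hol :=
  ⟨fun z => E₄ (S23x.mulN d z), (S23x.IsMF.isNice (S23x.isMF_comp_mulN d S23x.m08_isMF1_E4)).1⟩

def inj_cmp_Deltad (d : ℕ) [NeZero d] : Hol :=
  ⟨fun z => ModularForm.discriminant (S23x.mulN d z),
    (S23x.IsMF.isNice (S23x.isMF_comp_mulN d S23x.m08_isMF1_discriminant)).1⟩

theorem inj_cmp_mulN_eq (d : ℕ) [NeZero d] (τ : ℍ) : S23x.mulN d τ = dmulH d τ :=
  UpperHalfPlane.ext rfl

theorem inj_cmp_jd_mul (d : ℕ) [NeZero d] :
    jdHol d * inj_cmp_Deltad d = inj_cmp_E4d d ^ 3 := by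
  apply Subtype.ext
  funext τ
  show (jdHol d : ℍ → ℂ) τ * ModularForm.discriminant (S23x.mulN d τ) = E₄ (S23x.mulN d τ) ^ 3
  rw [jdHol_eq, inj_cmp_mulN_eq, jFun_mul_discriminant]

/-- the door on the generator `j(q^d)`, `d ∣ M` -/
theorem inj_cmp_gen (hev : inj_EvCompat M ev) (d : ℕ) [NeZero d] (hd : d ∣ M)
    (y : ratioField M) (hy : (y : LS) = S23x.jNL d) : ev y = algebraMap Hol Mer (jdHol d) := by
  have hE : S23x.IsMF M 4 (fun z => E₄ (S23x.mulN d z)) :=
    cdcb_isMF_of_dvd hd (S23x.isMF_comp_mulN d S23x.m08_isMF1_E4)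
  have hD : S23x.IsMF M 12 (fun z => ModularForm.discriminant (S23x.mulN d z)) :=
    cdcb_isMF_of_dvd hd (S23x.isMF_comp_mulN d S23x.m08_isMF1_discriminant)
  have hD0 : (fun z => ModularForm.discriminant (S23x.mulN d z)) ≠ 0 := by
    intro h
    have := congrFun h UpperHalfPlane.I
    exact ModularForm.discriminant_ne_zero _ this
  have hqD : S23x.qL (fun z => ModularForm.discriminant (S23x.mulN d z)) ≠ 0 := by
    intro h
    exact hD0 ((S23x.qL_eq_zero_iff (S23x.IsMF.isNice hD)).mp h)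
  have hB0 : inj_cmp_Deltad d ≠ 0 := fun h0 => hD0 (congrArg Subtype.val h0)
  have hA : S23x.IsMF M 12 ((inj_cmp_E4d d ^ 3 : Hol) : ℍ → ℂ) :=
    S23x.m08_isMF_cast (S23x.IsMF.pow hE 3) (by norm_num)
  have hq : (y : LS) * qL ((inj_cmp_Deltad d : Hol) : ℍ → ℂ)
      = qL ((inj_cmp_E4d d ^ 3 : Hol) : ℍ → ℂ) := by
    rw [hy]
    show S23x.jNL d * qL (fun z => ModularForm.discriminant (S23x.mulN d z))
      = qL ((fun z => E₄ (S23x.mulN d z)) ^ 3)
    rw [S23x.qL_pow (S23x.IsMF.isNice hE) 3]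
    unfold S23x.jNL
    exact div_mul_cancel₀ _ hqD
  have h1 := hev y 12 (inj_cmp_E4d d ^ 3) (inj_cmp_Deltad d) hA hD hB0 hq
  have hBm : algebraMap Hol Mer (inj_cmp_Deltad d) ≠ 0 := inj_algebraMap_ne_zero hB0
  apply mul_right_cancel₀ hBm
  rw [h1, ← map_mul, inj_cmp_jd_mul]

/-- `iotaL` maps `FBar M` into `ratioField M` -/
theorem inj_cmp_mem (x : LaurentSeries Qbar) (hx : x ∈ modularFunctionFieldBar M) :
    iotaL x ∈ ratioField M := by
  rw [← cdcb_laurentBaseChange_eq]
  exact inj_qb_FC_of_FBar M ⟨x, hx⟩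

theorem inj_cmp_aux (hev : inj_EvCompat M ev) :
    ∀ (x : LaurentSeries Qbar) (_ : x ∈ IntermediateField.adjoin Qbar (gensBar M))
      (hx : x ∈ modularFunctionFieldBar M) (y : ratioField M), (y : LS) = iotaL x →
      ev y = evF M ⟨x, hx⟩ := by
  intro x hxa
  induction hxa using IntermediateField.adjoin_induction with
  | mem x hx =>
    obtain ⟨d, hne, hd, rfl⟩ := hx
    have := hne
    intro hx' y hy
    have h1 : (⟨coeffEmb Qbar (qExpand ℚ d jq), hx'⟩ : FBar M) = jdBar M d hd := Subtype.ext rfl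
    rw [h1, evF_jdBar]
    refine inj_cmp_gen M ev hev d hd y ?_
    rw [hy, iotaL_gen, dl_jNL_eq, dl_jqModC_eq_jL]
  | algebraMap c =>
    intro hx' y hy
    have h1 : (⟨algebraMap Qbar (LaurentSeries Qbar) c, hx'⟩ : FBar M)
        = algebraMap Qbar (FBar M) c := Subtype.ext rfl
    rw [h1, evF_algebraMap]
    have h2 : y = algebraMap ℂ (ratioField M) (iotaQ c) := by
      apply Subtype.ext
      rw [hy, iotaL_algebraMap, IntermediateField.coe_algebraMap_apply,
        algebraMap_laurentSeries_eq_single, HahnSeries.C_apply]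
    rw [h2, inj_cmp_const M ev hev]
  | add a b ha hb iha ihb =>
    intro hx' y hy
    have ha' : a ∈ modularFunctionFieldBar M := by
      rw [modularFunctionFieldBar_eq_adjoin]; exact ha
    have hb' : b ∈ modularFunctionFieldBar M := by
      rw [modularFunctionFieldBar_eq_adjoin]; exact hb
    have h1 : (⟨a + b, hx'⟩ : FBar M) = ⟨a, ha'⟩ + ⟨b, hb'⟩ := Subtype.ext rfl
    have h2 : y = ⟨iotaL a, inj_cmp_mem M a ha'⟩ + ⟨iotaL b, inj_cmp_mem M b hb'⟩ := by
      apply Subtype.ext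
      rw [hy, map_add]
      rfl
    rw [h1, h2, map_add, map_add, iha ha' _ rfl, ihb hb' _ rfl]
  | inv a ha iha =>
    intro hx' y hy
    have ha' : a ∈ modularFunctionFieldBar M := by
      rw [modularFunctionFieldBar_eq_adjoin]; exact ha
    have h1 : (⟨a⁻¹, hx'⟩ : FBar M) = (⟨a, ha'⟩ : FBar M)⁻¹ := Subtype.ext rfl
    have h2 : y = (⟨iotaL a, inj_cmp_mem M a ha'⟩ : ratioField M)⁻¹ := by
      apply Subtype.ext
      rw [hy, map_inv₀]
      rfl
    rw [h1, h2, map_inv₀, map_inv₀, iha ha' _ rfl]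
  | mul a b ha hb iha ihb =>
    intro hx' y hy
    have ha' : a ∈ modularFunctionFieldBar M := by
      rw [modularFunctionFieldBar_eq_adjoin]; exact ha
    have hb' : b ∈ modularFunctionFieldBar M := by
      rw [modularFunctionFieldBar_eq_adjoin]; exact hb
    have h1 : (⟨a * b, hx'⟩ : FBar M) = ⟨a, ha'⟩ * ⟨b, hb'⟩ := Subtype.ext rfl
    have h2 : y = ⟨iotaL a, inj_cmp_mem M a ha'⟩ * ⟨iotaL b, inj_cmp_mem M b hb'⟩ := by
      apply Subtype.ext
      rw [hy, map_mul]
      rfl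
    rw [h1, h2, map_mul, map_mul, iha ha' _ rfl, ihb hb' _ rfl]

/-- **`hcomp` is automatic**: every realisation with the door extends `evF M`. -/
theorem inj_cmp_hcomp (hev : inj_EvCompat M ev) (f : FBar M) (y : ratioField M)
    (hy : (y : LS) = iotaL (f : LaurentSeries Qbar)) : ev y = evF M f := by
  have hf : (f : LaurentSeries Qbar) ∈ IntermediateField.adjoin Qbar (gensBar M) := by
    rw [← modularFunctionFieldBar_eq_adjoin]; exact f.2
  exact inj_cmp_aux M ev hev (f : LaurentSeries Qbar) hf f.2 y hy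

/-- the coefficientwise embedding `FBar M →+* ratioField M` -/
def inj_cmp_iF : FBar M →+* ratioField M :=
  (iotaL.comp (algebraMap (FBar M) (LaurentSeries Qbar))).codRestrict (ratioField M).toSubring
    (fun f => inj_cmp_mem M (f : LaurentSeries Qbar) f.2)

theorem inj_cmp_iF_coe (f : FBar M) :
    ((inj_cmp_iF M f : ratioField M) : LS) = iotaL (f : LaurentSeries Qbar) := rfl

theorem inj_cmp_ev_iF (hev : inj_EvCompat M ev) (f : FBar M) :
    ev (inj_cmp_iF M f) = evF M f :=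
  inj_cmp_hcomp M ev hev f _ (inj_cmp_iF_coe M f)

/-- **(R3)** from a realisation with the door, nothing else. -/
theorem inj_cmp_R3 (p : ℕ) (hp : 0 < p) (hev : inj_EvCompat M ev)
    {x : JZero M} {ψ : Additive (Gamma0 M) →+ Additive ℂˣ}
    (hrel : heq_Rel M p x ψ) (hψ : ψ = 0) : x = 0 :=
  injr_R3 M p hp ev hev (inj_cmp_hcomp M ev hev) hrel hψ

/-- the form used by `jtf85_finite` (helper85): `heq_Rel M p x 0 → x = 0`. -/
theorem inj_cmp_R3_zero (p : ℕ) (hp : 0 < p) (hev : inj_EvCompat M ev) :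
    ∀ x : JZero M, heq_Rel M p x 0 → x = 0 :=
  fun _ hrel => inj_cmp_R3 M ev p hp hev hrel rfl

/-- the `hR3` binder of `rlg_iotHyp` (helper47). -/
theorem inj_cmp_hR3 (p : ℕ) (hp : 0 < p) (hev : inj_EvCompat M ev)
    {L : Type*} [AddCommGroup L] (psiOf : L →+ (Additive (Gamma0 M) →+ Additive ℂˣ)) :
    ∀ (x : JZero M) (χ : L), heq_Rel M p x (psiOf χ) → psiOf χ = 0 → x = 0 :=
  injr_hR3 M p hp ev hev (inj_cmp_hcomp M ev hev) psiOf

end

end Fermat.Agent.S42x
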