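/-
S42x/R5Asm (helper60, S42 glue leaf R5-ASM, prefix `r5a_`): the assembly producing hypothesis
`R5` of the relation `heq_Rel` (`S42_LEAD_NOTES` N1/N5):

  from a `p`-th root `h₁ ∈ Mer` of `evC fC` (`fC ∈ FC := modularFunctionFieldFullC ℂ M`) with
  multiplier `ψ`, whose divisor over `ℂ` is divisible by `p`, the descent `ℂ → ℚ̄` (block B7) and
  the divisibility over `ℚ̄` (leaf R5c) produce `x : JZero M` with `heq_Rel M p x ψ`.

Everything which is produced by another block enters as an explicit hypothesis, in the shape of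
the corresponding block top, so that this file only depends on `HeckeEqDefs` (the relation),
`CanonRep` (`cnr_exists_div`) and the Riemann package of `FBar M` (S18x).
-/
import Mathlib
import Fermat.Agent.S42x.HeckeEqDefs
import Fermat.Agent.S42x.CanonRep
import Fermat.Agent.S18x.RmnOfRmt

set_option autoImplicit false

namespace Fermat.Agent.S42x

open UpperHalfPlane ModularCurve AlgebraicCurve CongruenceSubgroup
open Fermat.Agent.S24x Fermat.Agent.S18x
open scoped MatrixGroups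

noncomputable section

/-- a meromorphic function `h` has multiplier `ψ` on `Γ₀(M)` (last clause of `heq_Rel`). -/
def r5a_HasChar (M : ℕ) (ψ : Additive (Gamma0 M) →+ Additive ℂˣ) (h : Mer) : Prop :=
  ∀ γ : Gamma0 M, ((γ : SL(2, ℤ))⁻¹ • h : Mer) =
    algebraMap ℂ Mer (((ψ (Additive.ofMul γ)).toMul : ℂˣ) : ℂ) * h

/-- constants are invariant under `SL(2,ℤ)`. -/
theorem r5a_smul_const (γ : SL(2, ℤ)) (c : ℂ) :
    (γ • algebraMap ℂ Mer c : Mer) = algebraMap ℂ Mer c := by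
  rw [IsScalarTower.algebraMap_apply ℂ Hol Mer, smul_algebraMap_Mer]
  rfl

/-- products of a function with multiplier `ψ` by constants and `Γ₀(M)`-invariant functions
still have multiplier `ψ`. -/
theorem r5a_hasChar_mul {M : ℕ} {ψ : Additive (Gamma0 M) →+ Additive ℂˣ} {h : Mer}
    (hh : r5a_HasChar M ψ h) (c : ℂ) {v : Mer}
    (hv : ∀ γ : Gamma0 M, ((γ : SL(2, ℤ))⁻¹ • v : Mer) = v) :
    r5a_HasChar M ψ (algebraMap ℂ Mer c * h * v) := by
  intro γ
  rw [smul_mul', smul_mul', hh γ, hv γ, r5a_smul_const]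
  ring

/-- **from a root over `ℚ̄` to the relation**: `f₀ ∈ FBar M` nonzero, with all place orders
divisible by `p`, and a `p`-th root `h` of `evF M f₀` with multiplier `ψ` give a point of `JZero M`
in relation with `ψ`. -/
theorem r5a_rel_of_root (M p : ℕ) [NeZero M] (hp : 0 < p)
    (ψ : Additive (Gamma0 M) →+ Additive ℂˣ) (f₀ : FBar M) (hf₀ : f₀ ≠ 0)
    (hdiv : ∀ P : Place Qbar (FBar M), (p : ℤ) ∣ P.ord f₀)
    (h : Mer) (hroot : h ^ p = evF M f₀) (hchar : r5a_HasChar M ψ h) :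
    ∃ x : JZero M, heq_Rel M p x ψ := by
  obtain ⟨D, hD, hdeg⟩ := cnr_exists_div (rmn_hyp_FBar M) hp (f := f₀) ⟨hf₀, hdiv⟩
  have hmem : D ∈ Divisor.degZero (K := Qbar) (F := modularFunctionFieldBar M) := hdeg
  exact ⟨Pic0.mk ⟨D, hmem⟩, f₀, ⟨D, hmem⟩, h, hf₀, rfl, hD, hroot, hchar⟩

/-- **R5 ASSEMBLY, descended form.**  `FC` is any model of the function field over `ℂ` inside
`ℂ((q))` (`modularFunctionFieldFullC ℂ M`, `S23x.ratioField M`, `laurentBaseChange ℂ _`, ...).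
Inputs: the evaluation package `evC` on `FC` (block B3), a `p`-th root `h₁` of `evC fC` with
multiplier `ψ` (blocks B1 + B3), the descended function `f₀ ∈ FBar M` with `ι f₀ = c · fC · u ^ p`
(block B7, conclusion of `dsct_top`), and the divisibility over `ℚ̄` (leaf R5c).  Output: a point
of `JZero M` in relation with `ψ`. -/
theorem r5a_of_descended (M p : ℕ) [NeZero M] (hp : 0 < p)
    (ψ : Additive (Gamma0 M) →+ Additive ℂˣ)
    (FC : IntermediateField ℂ (LaurentSeries ℂ))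
    (evC : FC →+* Mer)
    (hevC_alg : ∀ c : ℂ, evC (algebraMap ℂ FC c) = algebraMap ℂ Mer c)
    (hevC_inv : ∀ (γ : Gamma0 M) (u : FC), ((γ : SL(2, ℤ))⁻¹ • evC u : Mer) = evC u)
    (hevC_iota : ∀ (f₀ : FBar M) (y : FC),
      (y : LaurentSeries ℂ) = coeffMap iotaQ (f₀ : LaurentSeries Qbar) → evC y = evF M f₀)
    (h₁ : Mer) (fC : FC) (hfC : fC ≠ 0)
    (hroot : h₁ ^ p = evC fC) (hchar : r5a_HasChar M ψ h₁)
    (hdesc : ∃ (f₀ : FBar M) (c : ℂ) (u : FC), c ≠ 0 ∧ u ≠ 0 ∧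
      coeffMap iotaQ (f₀ : LaurentSeries Qbar) =
        ((algebraMap ℂ FC c * fC * u ^ p : FC) : LaurentSeries ℂ))
    (hR5c : ∀ f₀ : FBar M, f₀ ≠ 0 → ∀ h : Mer, h ^ p = evF M f₀ → r5a_HasChar M ψ h →
      ∀ P : Place Qbar (FBar M), (p : ℤ) ∣ P.ord f₀) :
    ∃ x : JZero M, heq_Rel M p x ψ := by
  obtain ⟨f₀, c, u, hc, hu, hf₀⟩ := hdesc
  -- `f₀ ≠ 0`
  have hcF : algebraMap ℂ FC c ≠ 0 := by simpa using hc
  have hy0 : algebraMap ℂ FC c * fC * u ^ p ≠ 0 :=
    mul_ne_zero (mul_ne_zero hcF hfC) (pow_ne_zero _ hu)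
  have hf₀0 : f₀ ≠ 0 := by
    rintro rfl
    apply hy0
    apply Subtype.ext
    rw [← hf₀]
    simp
  -- a `p`-th root of `c`
  obtain ⟨c', hc'⟩ := IsAlgClosed.exists_pow_nat_eq c hp
  -- the root over `ℚ̄`
  have hev : evF M f₀ = (algebraMap ℂ Mer c' * h₁ * evC u) ^ p := by
    rw [← hevC_iota f₀ _ hf₀.symm, map_mul, map_mul, map_pow, hevC_alg, ← hroot, mul_pow, mul_pow,
      ← map_pow (algebraMap ℂ Mer), hc']
  have hchar' : r5a_HasChar M ψ (algebraMap ℂ Mer c' * h₁ * evC u) :=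
    r5a_hasChar_mul hchar c' (fun γ => hevC_inv γ u)
  exact r5a_rel_of_root M p hp ψ f₀ hf₀0
    (hR5c f₀ hf₀0 _ hev.symm hchar') _ hev.symm hchar'

/-- **R5 ASSEMBLY.**  Same as `r5a_of_descended`, with the descent (block B7: the statement of
`dsct_top` on `modularFunctionFieldFullC ℂ M`, finiteness of classes from block B4 included) as a
hypothesis in the exact shape of the B7 top, and any model `FC = modularFunctionFieldFullC ℂ M`
for the evaluation package. -/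
theorem r5a_main (M p : ℕ) [NeZero M] (hp : 0 < p)
    (ψ : Additive (Gamma0 M) →+ Additive ℂˣ)
    (FC : IntermediateField ℂ (LaurentSeries ℂ)) (hFC : FC = modularFunctionFieldFullC ℂ M)
    (evC : FC →+* Mer)
    (hevC_alg : ∀ c : ℂ, evC (algebraMap ℂ FC c) = algebraMap ℂ Mer c)
    (hevC_inv : ∀ (γ : Gamma0 M) (u : FC), ((γ : SL(2, ℤ))⁻¹ • evC u : Mer) = evC u)
    (hevC_iota : ∀ (f₀ : FBar M) (y : FC),
      (y : LaurentSeries ℂ) = coeffMap iotaQ (f₀ : LaurentSeries Qbar) → evC y = evF M f₀)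
    (h₁ : Mer) (fC : FC) (hfC : fC ≠ 0)
    (hroot : h₁ ^ p = evC fC) (hchar : r5a_HasChar M ψ h₁)
    (hdivC : ∀ P : Place ℂ FC, (p : ℤ) ∣ P.ord fC)
    (hB7 : ∀ f : modularFunctionFieldFullC ℂ M, f ≠ 0 →
      (∀ P : Place ℂ (modularFunctionFieldFullC ℂ M), (p : ℤ) ∣ P.ord f) →
      ∃ (f₀ : FBar M) (c : ℂ) (u : modularFunctionFieldFullC ℂ M), c ≠ 0 ∧ u ≠ 0 ∧
        coeffMap iotaQ (f₀ : LaurentSeries Qbar) =
          ((algebraMap ℂ (modularFunctionFieldFullC ℂ M) c * f * u ^ p :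
            modularFunctionFieldFullC ℂ M) : LaurentSeries ℂ))
    (hR5c : ∀ f₀ : FBar M, f₀ ≠ 0 → ∀ h : Mer, h ^ p = evF M f₀ → r5a_HasChar M ψ h →
      ∀ P : Place Qbar (FBar M), (p : ℤ) ∣ P.ord f₀) :
    ∃ x : JZero M, heq_Rel M p x ψ := by
  subst hFC
  exact r5a_of_descended M p hp ψ _ evC hevC_alg hevC_inv hevC_iota h₁ fC hfC hroot hchar
    (hB7 fC hfC hdivC) hR5c

end

end Fermat.Agent.S42x
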