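/-
S42x / TwEis55 (helper55): weighted ("twisted") Eisenstein series, Mathlib only.

For a bounded weight function `w : (Fin 2 → ℤ) → ℂ` and an integer weight `k ≥ 3` we define
`twe55_E w k z = ∑' v, w v * (v 0 * z + v 1) ^ (-k)` and prove: summability, holomorphy on `ℍ`,
the slash formula `twe55_E w k ∣[k] A = twe55_E (fun v => w (v ᵥ* A⁻¹)) k` for `A : SL(2, ℤ)`,
boundedness at `i∞` (hence at every cusp, by the slash formula), and the limit at `i∞`.
-/
import Mathlib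

set_option autoImplicit false

namespace Fermat.Agent.S42x

open EisensteinSeries UpperHalfPlane ModularForm Matrix CongruenceSubgroup Filter Topology
open scoped MatrixGroups Manifold

noncomputable section

/-- The weighted Eisenstein sum. -/
def twe55_E (w : (Fin 2 → ℤ) → ℂ) (k : ℤ) (z : ℍ) : ℂ :=
  ∑' v : Fin 2 → ℤ, w v * eisSummand k v z

/-- a weight function is bounded by one -/
def twe55_Bdd (w : (Fin 2 → ℤ) → ℂ) : Prop := ∀ v, ‖w v‖ ≤ 1

theorem twe55_norm_term_le {w : (Fin 2 → ℤ) → ℂ} (hw : twe55_Bdd w) (k : ℤ) (v : Fin 2 → ℤ)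
    (z : ℍ) : ‖w v * eisSummand k v z‖ ≤ ‖eisSummand k v z‖ := by
  rw [norm_mul]
  exact mul_le_of_le_one_left (norm_nonneg _) (hw v)

theorem twe55_summable_norm {w : (Fin 2 → ℤ) → ℂ} (hw : twe55_Bdd w) {k : ℤ} (hk : 3 ≤ k)
    (z : ℍ) : Summable fun v : Fin 2 → ℤ => ‖w v * eisSummand k v z‖ :=
  (summable_norm_eisSummand hk z).of_nonneg_of_le (fun _ => norm_nonneg _)
    (fun v => twe55_norm_term_le hw k v z)

theorem twe55_summable {w : (Fin 2 → ℤ) → ℂ} (hw : twe55_Bdd w) {k : ℤ} (hk : 3 ≤ k)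
    (z : ℍ) : Summable fun v : Fin 2 → ℤ => w v * eisSummand k v z :=
  (twe55_summable_norm hw hk z).of_norm

/-- the norm of the weighted sum is at most the full lattice sum of norms -/
theorem twe55_norm_le {w : (Fin 2 → ℤ) → ℂ} (hw : twe55_Bdd w) {k : ℤ} (hk : 3 ≤ k) (z : ℍ) :
    ‖twe55_E w k z‖ ≤ ∑' v : Fin 2 → ℤ, ‖eisSummand k v z‖ := by
  unfold twe55_E
  refine le_trans (norm_tsum_le_tsum_norm (twe55_summable_norm hw hk z)) ?_
  exact (twe55_summable_norm hw hk z).tsum_le_tsum (fun v => twe55_norm_term_le hw k v z)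
    (summable_norm_eisSummand hk z)

/-- translate of a weight by a matrix -/
def twe55_tr (w : (Fin 2 → ℤ) → ℂ) (A : SL(2, ℤ)) : (Fin 2 → ℤ) → ℂ :=
  fun v => w (v ᵥ* ↑(A⁻¹))

theorem twe55_tr_bdd {w : (Fin 2 → ℤ) → ℂ} (hw : twe55_Bdd w) (A : SL(2, ℤ)) :
    twe55_Bdd (twe55_tr w A) := fun _ => hw _

/-- right multiplication by `A` as a permutation of `Fin 2 → ℤ` -/
def twe55_mulEquiv (A : SL(2, ℤ)) : (Fin 2 → ℤ) ≃ (Fin 2 → ℤ) where
  toFun v := v ᵥ* A
  invFun v := v ᵥ* ↑(A⁻¹)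
  left_inv v := by
    simp_rw [vecMul_vecMul, ← Matrix.SpecialLinearGroup.coe_mul, mul_inv_cancel,
      Matrix.SpecialLinearGroup.coe_one, vecMul_one]
  right_inv v := by
    simp_rw [vecMul_vecMul, ← Matrix.SpecialLinearGroup.coe_mul, inv_mul_cancel,
      Matrix.SpecialLinearGroup.coe_one, vecMul_one]

/-- The slash formula. -/
theorem twe55_slash (w : (Fin 2 → ℤ) → ℂ) (k : ℤ) (A : SL(2, ℤ)) :
    twe55_E w k ∣[k] A = twe55_E (twe55_tr w A) k := by
  ext1 z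
  simp_rw [SL_slash_apply, _root_.zpow_neg,
    mul_inv_eq_iff_eq_mul₀ (zpow_ne_zero _ <| denom_ne_zero _ z),
    twe55_E, eisSummand_SL2_apply, ← tsum_mul_right]
  rw [← (twe55_mulEquiv A).tsum_eq
    (fun v => twe55_tr w A v * eisSummand k v z * denom (A : SL(2, ℤ)) z ^ k)]
  refine tsum_congr fun v => ?_
  have h1 : (twe55_mulEquiv A) v = v ᵥ* A := rfl
  have h2 : twe55_tr w A (v ᵥ* A) = w v := by
    unfold twe55_tr
    rw [vecMul_vecMul, ← Matrix.SpecialLinearGroup.coe_mul, mul_inv_cancel,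
      Matrix.SpecialLinearGroup.coe_one, vecMul_one]
  rw [h1, h2]
  ring

/-- locally uniform convergence of the weighted sum -/
theorem twe55_tendstoLocallyUniformly {w : (Fin 2 → ℤ) → ℂ} (hw : twe55_Bdd w) {k : ℤ}
    (hk : 3 ≤ k) :
    TendstoLocallyUniformly (fun (s : Finset (Fin 2 → ℤ)) ↦ (∑ x ∈ s, w x * eisSummand k x ·))
      (twe55_E w k ·) Filter.atTop := by
  have hk' : (2 : ℝ) < k := by norm_cast
  have p_sum : Summable fun x : Fin 2 → ℤ ↦ ‖x‖ ^ (-k) :=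
    mod_cast (summable_one_div_norm_rpow hk')
  simp only [tendstoLocallyUniformly_iff_forall_isCompact, twe55_E]
  intro K hK
  obtain ⟨A, B, hB, HABK⟩ := subset_verticalStrip_of_isCompact hK
  refine (tendstoUniformlyOn_tsum (hu := p_sum.mul_left <| r ⟨⟨A, B⟩, hB⟩ ^ (-k : ℝ))
    (fun p z hz ↦ ?_)).mono HABK
  refine le_trans (twe55_norm_term_le hw k p z) ?_
  simpa only [eisSummand, one_div, ← _root_.zpow_neg, norm_zpow, ← Real.rpow_intCast,
    Int.cast_neg] using summand_bound_of_mem_verticalStrip (by positivity) p hB hz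

theorem twe55_tendstoLocallyUniformlyOn {w : (Fin 2 → ℤ) → ℂ} (hw : twe55_Bdd w) {k : ℤ}
    (hk : 3 ≤ k) :
    TendstoLocallyUniformlyOn (fun (s : Finset (Fin 2 → ℤ)) ↦
      ↑ₕ(fun (z : ℍ) ↦ ∑ x ∈ s, w x * eisSummand k x z)) (↑ₕ(twe55_E w k))
          Filter.atTop {z : ℂ | 0 < z.im} := by
  rw [← upperHalfPlaneSet, ← UpperHalfPlane.range_coe, ← Set.image_univ]
  apply TendstoLocallyUniformlyOn.comp (s := ⊤) _ _ _ (OpenPartialHomeomorph.continuousOn_symm _)
  · simp only [Set.top_eq_univ, tendstoLocallyUniformlyOn_univ]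
    exact twe55_tendstoLocallyUniformly hw hk
  · simp only [IsOpenEmbedding.toOpenPartialHomeomorph_target, Set.top_eq_univ,
      Set.mapsTo_range_iff, Set.mem_univ, forall_const]

/-- the weighted Eisenstein series is holomorphic -/
theorem twe55_mdiff {w : (Fin 2 → ℤ) → ℂ} (hw : twe55_Bdd w) {k : ℤ} (hk : 3 ≤ k) :
    MDiff (twe55_E w k) := by
  intro τ
  suffices DifferentiableAt ℂ (↑ₕ(twe55_E w k)) τ.1 by
    convert!
      MDifferentiableAt.comp τ (DifferentiableAt.mdifferentiableAt this) τ.mdifferentiable_coe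
    exact funext fun z ↦ (comp_ofComplex (twe55_E w k) z).symm
  refine DifferentiableOn.differentiableAt ?_ (isOpen_upperHalfPlaneSet.mem_nhds τ.2)
  refine (twe55_tendstoLocallyUniformlyOn hw hk).differentiableOn
    (Eventually.of_forall fun s ↦ ?_) isOpen_upperHalfPlaneSet
  have : (↑ₕ(fun (z : ℍ) ↦ ∑ x ∈ s, w x * eisSummand k x z)) =
      fun z : ℂ => ∑ x ∈ s, w x * (↑ₕ(eisSummand k x)) z := by
    ext z
    simp [Function.comp]
  rw [this]
  exact DifferentiableOn.fun_sum fun x _ ↦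
    (eisSummand_extension_differentiableOn k x).const_mul (w x)

/-- the shear `(c, d) ↦ (c, c n + d)` -/
def twe55_shear (n : ℤ) : (Fin 2 → ℤ) ≃ (Fin 2 → ℤ) where
  toFun v := ![v 0, v 0 * n + v 1]
  invFun v := ![v 0, v 1 - v 0 * n]
  left_inv v := by
    ext i
    fin_cases i <;> simp
  right_inv v := by
    ext i
    fin_cases i <;> simp

theorem twe55_eisSummand_vadd (k : ℤ) (n : ℤ) (v : Fin 2 → ℤ) (z : ℍ) :
    eisSummand k v ((n : ℝ) +ᵥ z) = eisSummand k (twe55_shear n v) z := by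
  simp only [eisSummand, twe55_shear, Equiv.coe_fn_mk, coe_vadd, Matrix.cons_val_zero,
    Matrix.cons_val_one]
  congr 1
  push_cast
  ring

/-- the full lattice sum of norms is invariant under `z ↦ T ^ n • z` -/
theorem twe55_fullsum_T (k : ℤ) (n : ℤ) (z : ℍ) :
    ∑' v : Fin 2 → ℤ, ‖eisSummand k v (ModularGroup.T ^ n • z)‖ =
      ∑' v : Fin 2 → ℤ, ‖eisSummand k v z‖ := by
  rw [modular_T_zpow_smul z n]
  simp_rw [twe55_eisSummand_vadd]
  exact (twe55_shear n).tsum_eq (fun v => ‖eisSummand k v z‖)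

/-- the weighted Eisenstein series is bounded at `i∞` -/
theorem twe55_isBoundedAtImInfty {w : (Fin 2 → ℤ) → ℂ} (hw : twe55_Bdd w) {k : ℤ}
    (hk : 3 ≤ k) : IsBoundedAtImInfty (twe55_E w k) := by
  rw [UpperHalfPlane.isBoundedAtImInfty_iff]
  refine ⟨∑' (x : Fin 2 → ℤ), r ⟨⟨1, 2⟩, Nat.ofNat_pos⟩ ^ (-k) * ‖x‖ ^ (-k), 2, ?_⟩
  intro z hz
  obtain ⟨n, hn⟩ := ModularGroup_T_zpow_mem_verticalStrip z (N := 1) one_pos
  simp only [Nat.cast_one] at hn
  refine le_trans (twe55_norm_le hw hk z) ?_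
  rw [← twe55_fullsum_T k (1 * n) z]
  have hk' : (2 : ℝ) < k := by norm_cast
  apply (summable_norm_eisSummand hk _).tsum_le_tsum _
  · exact_mod_cast (summable_one_div_norm_rpow hk').mul_left <| r ⟨⟨1, 2⟩, Nat.ofNat_pos⟩ ^ (-k)
  · intro x
    simp_rw [eisSummand, norm_zpow]
    exact_mod_cast
      summand_bound_of_mem_verticalStrip (lt_trans two_pos hk').le x two_pos
      (verticalStrip_anti_right 1 hz hn)

/-- the weighted Eisenstein series is bounded at every cusp -/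
theorem twe55_isBoundedAtImInfty_slash {w : (Fin 2 → ℤ) → ℂ} (hw : twe55_Bdd w) {k : ℤ}
    (hk : 3 ≤ k) (A : SL(2, ℤ)) : IsBoundedAtImInfty (twe55_E w k ∣[k] A) := by
  rw [twe55_slash]
  exact twe55_isBoundedAtImInfty (twe55_tr_bdd hw A) hk

/-- the point `i * max y 1` of the upper half plane -/
def twe55_iy (y : ℝ) : ℍ := ⟨⟨0, max y 1⟩, lt_of_lt_of_le one_pos (le_max_right _ _)⟩

theorem twe55_iy_mem (y : ℝ) : twe55_iy y ∈ verticalStrip 1 1 := by
  refine ⟨?_, ?_⟩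
  · show |(0 : ℝ)| ≤ 1
    simp
  · show (1 : ℝ) ≤ max y 1
    exact le_max_right _ _

theorem twe55_iy_coe (y : ℝ) : ((twe55_iy y : ℍ) : ℂ) = ⟨0, max y 1⟩ := rfl

/-- the limit value -/
def twe55_lim (w : (Fin 2 → ℤ) → ℂ) (k : ℤ) : ℂ :=
  ∑' v : Fin 2 → ℤ, if v 0 = 0 then w v * ((v 1 : ℤ) : ℂ) ^ (-k) else 0

theorem twe55_term_tendsto (w : (Fin 2 → ℤ) → ℂ) {k : ℤ} (hk : 3 ≤ k) (v : Fin 2 → ℤ) :
    Tendsto (fun y : ℝ => w v * eisSummand k v (twe55_iy y)) atTop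
      (𝓝 (if v 0 = 0 then w v * ((v 1 : ℤ) : ℂ) ^ (-k) else 0)) := by
  by_cases h0 : v 0 = 0
  · rw [if_pos h0]
    have : (fun y : ℝ => w v * eisSummand k v (twe55_iy y)) =
        fun _ => w v * ((v 1 : ℤ) : ℂ) ^ (-k) := by
      funext y
      simp [eisSummand, h0]
    rw [this]
    exact tendsto_const_nhds
  · rw [if_neg h0]
    rw [show (0 : ℂ) = w v * 0 by simp]
    refine Tendsto.const_mul _ ?_
    rw [tendsto_zero_iff_norm_tendsto_zero]
    have hc : (1 : ℝ) ≤ |((v 0 : ℤ) : ℝ)| := by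
      have : (1 : ℤ) ≤ |v 0| := Int.one_le_abs h0
      exact_mod_cast this
    have hbound : ∀ y : ℝ, 1 ≤ y → ‖eisSummand k v (twe55_iy y)‖ ≤ y⁻¹ := by
      intro y hy
      have hy0 : (0 : ℝ) < y := lt_of_lt_of_le one_pos hy
      have hmax : max y 1 = y := max_eq_left hy
      have hnorm : y ≤ ‖((v 0 : ℤ) : ℂ) * ((twe55_iy y : ℍ) : ℂ) + ((v 1 : ℤ) : ℂ)‖ := by
        have him : (((v 0 : ℤ) : ℂ) * ((twe55_iy y : ℍ) : ℂ) + ((v 1 : ℤ) : ℂ)).im =
            ((v 0 : ℤ) : ℝ) * y := by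
          rw [twe55_iy_coe, hmax]
          simp
        calc y ≤ |((v 0 : ℤ) : ℝ)| * y := by nlinarith
          _ = |((v 0 : ℤ) : ℝ) * y| := by rw [abs_mul, abs_of_pos hy0]
          _ = |(((v 0 : ℤ) : ℂ) * ((twe55_iy y : ℍ) : ℂ) + ((v 1 : ℤ) : ℂ)).im| := by rw [him]
          _ ≤ _ := Complex.abs_im_le_norm _
      have hk0 : (0 : ℤ) ≤ k := by omega
      obtain ⟨m, rfl⟩ := Int.eq_ofNat_of_zero_le hk0
      have hm : 1 ≤ m := by omega
      simp only [eisSummand, _root_.zpow_neg, zpow_natCast, norm_inv, norm_pow]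
      rw [inv_le_inv₀ (pow_pos (lt_of_lt_of_le hy0 hnorm) m) hy0]
      calc y = y ^ 1 := (pow_one y).symm
        _ ≤ y ^ m := pow_le_pow_right₀ hy hm
        _ ≤ _ := pow_le_pow_left₀ hy0.le hnorm m
    refine squeeze_zero' (Eventually.of_forall fun _ => norm_nonneg _)
      ((eventually_ge_atTop 1).mono hbound) tendsto_inv_atTop_zero

/-- limit of the weighted Eisenstein series along the imaginary axis -/
theorem twe55_tendsto_axis {w : (Fin 2 → ℤ) → ℂ} (hw : twe55_Bdd w) {k : ℤ} (hk : 3 ≤ k) :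
    Tendsto (fun y : ℝ => twe55_E w k (twe55_iy y)) atTop (𝓝 (twe55_lim w k)) := by
  have hk' : (2 : ℝ) < k := by norm_cast
  unfold twe55_E twe55_lim
  refine tendsto_tsum_of_dominated_convergence
    (bound := fun v : Fin 2 → ℤ => r ⟨⟨1, 1⟩, one_pos⟩ ^ (-k) * ‖v‖ ^ (-k)) ?_
    (fun v => twe55_term_tendsto w hk v) (Eventually.of_forall fun y v => ?_)
  · exact_mod_cast (summable_one_div_norm_rpow hk').mul_left <| r ⟨⟨1, 1⟩, one_pos⟩ ^ (-k)
  · refine le_trans (twe55_norm_term_le hw k v _) ?_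
    simp_rw [eisSummand, norm_zpow]
    exact_mod_cast
      summand_bound_of_mem_verticalStrip (lt_trans two_pos hk').le v one_pos (twe55_iy_mem y)

end

end Fermat.Agent.S42x
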