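/-
S42 project, block B1 (Eisenstein series with character), leaf B1.3 (helper76), prefix `twm_`.

ModularForm packaging, abstract in the function `F`: if `F : ℍ → ℂ` is holomorphic, transforms
under `Γ₀(M)` in weight `k` with a multiplier `ψ` (`F ∣[k] γ = ψ γ • F`), every `SL(2,ℤ)`-slash of
`F` is bounded at `i∞`, and `ψ ^ p = 1`, then `F ^ p` is a modular form of weight `p * k` on
`Γ₀(M)` (`S23x.IsMF`).  Consequently the `q`-expansion of `(F / G) ^ p` (`G` likewise, with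
trivial multiplier, `G ≠ 0`) lies in `S23x.ratioField M = ℂ(j, j_M)`.
-/
import Fermat.Agent.S23x.Ratio

set_option autoImplicit false

namespace Fermat.Agent.S42x

open UpperHalfPlane ModularForm CongruenceSubgroup Filter
open scoped MatrixGroups Manifold Topology

/-- The slash action on a power. -/
theorem twm_pow_slash (F : ℍ → ℂ) (k : ℤ) (p : ℕ) (A : SL(2, ℤ)) :
    (F ^ p) ∣[(p : ℤ) * k] A = (F ∣[k] A) ^ p := by
  ext z
  simp only [SL_slash_apply, Pi.pow_apply]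
  rw [mul_pow, ← zpow_natCast (denom A z ^ (-k)) p, ← zpow_mul]
  congr 2
  ring

theorem twm_isBoundedAtImInfty_pow {f : ℍ → ℂ} (hf : IsBoundedAtImInfty f) (p : ℕ) :
    IsBoundedAtImInfty (f ^ p) := by
  induction p with
  | zero =>
    simp only [pow_zero]
    exact Filter.const_boundedAtFilter _ (1 : ℂ)
  | succ n ih =>
    rw [pow_succ]
    exact ih.mul hf

/-- **B1.3.**  The `p`-th power of a weight-`k` form with a multiplier of order dividing `p` is a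
modular form of weight `p * k` on `Γ₀(M)`. -/
theorem twm_isMF_pow {M : ℕ} [NeZero M] {k : ℤ} {F : ℍ → ℂ} (hF : MDiff F)
    (ψ : ↥(Gamma0 M) → ℂ)
    (hsl : ∀ γ : ↥(Gamma0 M), F ∣[k] (γ : SL(2, ℤ)) = ψ γ • F)
    (hb : ∀ A : SL(2, ℤ), IsBoundedAtImInfty (F ∣[k] A)) (p : ℕ)
    (hp : ∀ γ : ↥(Gamma0 M), ψ γ ^ p = 1) :
    S23x.IsMF M ((p : ℤ) * k) (F ^ p) := by
  refine ⟨{ toFun := F ^ p
            slash_action_eq' := ?_
            holo' := ?_
            bdd_at_cusps' := ?_ }, rfl⟩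
  · intro γ hγ
    obtain ⟨γ', hγ', rfl⟩ := hγ
    have h1 : (F ^ p) ∣[(p : ℤ) * k] γ' = F ^ p := by
      rw [twm_pow_slash, hsl ⟨γ', hγ'⟩]
      ext z
      simp only [Pi.pow_apply, Pi.smul_apply, smul_eq_mul, mul_pow, hp, one_mul]
    simpa [Matrix.SpecialLinearGroup.mapGL, ← SL_slash] using h1
  · exact hF.pow p
  · intro c hc
    rw [Subgroup.IsArithmetic.isCusp_iff_isCusp_SL2Z] at hc
    rw [OnePoint.isBoundedAt_iff_forall_SL2Z hc]
    intro γ _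
    rw [twm_pow_slash]
    exact twm_isBoundedAtImInfty_pow (hb γ) p

/-- The `q`-expansion of a quotient of two forms of the same weight lies in `ℂ(j, j_M)`. -/
theorem twm_qL_div_mem {M : ℕ} [NeZero M] {m : ℤ} {f g : ℍ → ℂ} (hf : S23x.IsMF M m f)
    (hg : S23x.IsMF M m g) (hg0 : g ≠ 0) :
    S23x.qL f / S23x.qL g ∈ S23x.ratioField M := by
  rw [S23x.mem_ratioField_iff]
  refine ⟨m, f, g, hf.cast (add_zero m).symm, hg, hg0, ?_⟩
  have hq : S23x.qL g ≠ 0 := fun h => hg0 ((S23x.qL_eq_zero_iff hg.isNice).mp h)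
  rw [div_mul_cancel₀ _ hq]

theorem twm_pow_ne_zero {G : ℍ → ℂ} (hG : G ≠ 0) (p : ℕ) : G ^ p ≠ 0 := by
  obtain ⟨z, hz⟩ := Function.ne_iff.mp hG
  refine Function.ne_iff.mpr ⟨z, ?_⟩
  simpa using pow_ne_zero p hz

/-- **B1.3, ratio form.**  `q`-expansion of `(F / G) ^ p` lies in `S23x.ratioField M`. -/
theorem twm_ratio_mem {M : ℕ} [NeZero M] {k : ℤ} {F G : ℍ → ℂ} (hF : MDiff F) (hG : MDiff G)
    (ψ : ↥(Gamma0 M) → ℂ)
    (hslF : ∀ γ : ↥(Gamma0 M), F ∣[k] (γ : SL(2, ℤ)) = ψ γ • F)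
    (hslG : ∀ γ : ↥(Gamma0 M), G ∣[k] (γ : SL(2, ℤ)) = G)
    (hbF : ∀ A : SL(2, ℤ), IsBoundedAtImInfty (F ∣[k] A))
    (hbG : ∀ A : SL(2, ℤ), IsBoundedAtImInfty (G ∣[k] A)) (hG0 : G ≠ 0) (p : ℕ)
    (hp : ∀ γ : ↥(Gamma0 M), ψ γ ^ p = 1) :
    S23x.qL (F ^ p) / S23x.qL (G ^ p) ∈ S23x.ratioField M := by
  have h1 := twm_isMF_pow hF ψ hslF hbF p hp
  have h2 := twm_isMF_pow hG (fun _ => (1 : ℂ)) (fun γ => by rw [hslG γ, one_smul]) hbG p
    (fun _ => one_pow p)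
  exact twm_qL_div_mem h1 h2 (twm_pow_ne_zero hG0 p)

end Fermat.Agent.S42x
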