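/-
S42 project, block B1, abstract MER leaf (helper76), prefix `twr76_`.

Abstract version of helper16's `TwEisMer` (`twc_u`): for `A B : Hol` (holomorphic functions on `ℍ`)
of the same weight `k`, with `A ∣[k] γ = c • A` and `B ∣[k] γ = B`, the meromorphic function
`h = mk A / mk B ∈ Mer` satisfies `γ⁻¹ • h = c * h` (i.e. `h (γ z) = c h(z)`), and
`h ^ p = mk (A ^ p) / mk (B ^ p)`.  Used with `A` = the all-cusp Eisenstein series with character
and `B = E₄` (ARCH-2).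
-/
import Mathlib
import Fermat.Agent.S24x.Defs

set_option autoImplicit false

namespace Fermat.Agent.S42x

open UpperHalfPlane ModularForm CongruenceSubgroup
open Fermat.Agent.S24x
open scoped MatrixGroups Manifold

/-- Pointwise form of a slash law with multiplier. -/
theorem twr76_apply_smul {F : ℍ → ℂ} {k : ℤ} {c : ℂ} {γ : SL(2, ℤ)} (h : F ∣[k] γ = c • F)
    (z : ℍ) : F (γ • z) = c * denom γ z ^ k * F z := by
  have h1 := congrFun h z
  rw [SL_slash_apply, Pi.smul_apply, smul_eq_mul, _root_.zpow_neg] at h1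
  have hd : denom γ z ^ k ≠ 0 := zpow_ne_zero _ (denom_ne_zero _ z)
  rw [(mul_inv_eq_iff_eq_mul₀ hd).mp h1]
  ring

theorem twr76_algebraMap_ne_zero {f : Hol} (hf : f ≠ 0) : algebraMap Hol Mer f ≠ 0 := by
  intro h
  apply hf
  exact (IsFractionRing.injective Hol Mer) (by rw [h, map_zero])

/-- The transformation laws in `Hol`, cross-multiplied. -/
theorem twr76_cross {A B : Hol} {k : ℤ} {c : ℂ} {γ : SL(2, ℤ)}
    (hA : (A : ℍ → ℂ) ∣[k] γ = c • (A : ℍ → ℂ)) (hB : (B : ℍ → ℂ) ∣[k] γ = (B : ℍ → ℂ)) :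
    (γ⁻¹ • A) * B = algebraMap ℂ Hol c * A * (γ⁻¹ • B) := by
  apply Subtype.ext
  funext τ
  show ((γ⁻¹ • A : Hol) : ℍ → ℂ) τ * (B : ℍ → ℂ) τ =
    ((algebraMap ℂ Hol c : Hol) : ℍ → ℂ) τ * (A : ℍ → ℂ) τ * ((γ⁻¹ • B : Hol) : ℍ → ℂ) τ
  have hB' : (B : ℍ → ℂ) ∣[k] γ = (1 : ℂ) • (B : ℍ → ℂ) := by rw [hB, one_smul]
  rw [smul_Hol_apply, smul_Hol_apply, inv_inv, algebraMap_Hol_apply, twr76_apply_smul hA τ,
    twr76_apply_smul hB' τ]
  ring

/-- **The character law in `Mer`** for `h = mk A / mk B`: `γ⁻¹ • h = c * h`. -/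
theorem twr76_char {A B : Hol} (hB0 : B ≠ 0) {k : ℤ} {c : ℂ} {γ : SL(2, ℤ)}
    (hA : (A : ℍ → ℂ) ∣[k] γ = c • (A : ℍ → ℂ)) (hB : (B : ℍ → ℂ) ∣[k] γ = (B : ℍ → ℂ)) :
    (γ⁻¹ • (algebraMap Hol Mer A / algebraMap Hol Mer B) : Mer) =
      algebraMap ℂ Mer c * (algebraMap Hol Mer A / algebraMap Hol Mer B) := by
  have hb0 : algebraMap Hol Mer B ≠ 0 := twr76_algebraMap_ne_zero hB0
  have hgb0 : algebraMap Hol Mer (γ⁻¹ • B) ≠ 0 := by
    apply twr76_algebraMap_ne_zero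
    intro h
    apply hB0
    have := congrArg (fun x => γ • x) h
    simpa using this
  have hcross := congrArg (algebraMap Hol Mer) (twr76_cross hA hB)
  rw [map_mul, map_mul, map_mul, ← IsScalarTower.algebraMap_apply ℂ Hol Mer] at hcross
  have hdiv : (γ⁻¹ • (algebraMap Hol Mer A / algebraMap Hol Mer B) : Mer) =
      (γ⁻¹ • algebraMap Hol Mer A) / (γ⁻¹ • algebraMap Hol Mer B) :=
    map_div₀ (MulSemiringAction.toRingHom SL(2, ℤ) Mer γ⁻¹) _ _
  rw [hdiv, smul_algebraMap_Mer, smul_algebraMap_Mer, div_eq_iff hgb0]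
  field_simp
  linear_combination hcross

/-- `(mk A / mk B) ^ p = mk (A ^ p) / mk (B ^ p)`. -/
theorem twr76_pow (A B : Hol) (p : ℕ) :
    (algebraMap Hol Mer A / algebraMap Hol Mer B) ^ p =
      algebraMap Hol Mer (A ^ p) / algebraMap Hol Mer (B ^ p) := by
  rw [div_pow, map_pow, map_pow]

theorem twr76_div_ne_zero {A B : Hol} (hA0 : A ≠ 0) (hB0 : B ≠ 0) :
    algebraMap Hol Mer A / algebraMap Hol Mer B ≠ 0 :=
  div_ne_zero (twr76_algebraMap_ne_zero hA0) (twr76_algebraMap_ne_zero hB0)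

end Fermat.Agent.S42x
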