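/-
S42 project, block B1 (ARCH-2 form), abstract TOP (helper76), prefix `twb76_`.

ARCH-2 asks for an Eisenstein series `A` with character `ψ` which is non-vanishing at every cusp,
with denominator Mathlib's level-one `E₄`.  This file is ABSTRACT in `A`: from the bundle
`twb76_Form M ψ A` (holomorphic, `A ∣[4] γ = ψ γ • A` on `Γ₀(M)`, every slash bounded at `i∞` with a
non-zero limit along the imaginary axis) and `ψ ^ p = 1` it derives everything B3/B4/B7 consume: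

* `twb76_isMF_pow`      : `A ^ p` is a modular form of weight `4 p` on `Γ₀(M)`;
* `twb76_isMF_E4_pow`   : so is `E₄ ^ p`;
* `twb76_ratio_mem`     : `x := qL (A ^ p) / qL (E₄ ^ p) ∈ S23x.ratioField M`, `twb76_ratio_mul`
  (`x * qL (E₄ ^ p) = qL (A ^ p)`, the hypothesis of the "door from forms"), `twb76_ratio_ne_zero`;
* `twb76_h`             : `h := mk A / mk E₄ ∈ Mer`, `twb76_h_ne_zero`, `twb76_h_char`
  (`γ⁻¹ • h = ψ γ * h`, the last clause of `heq_Rel`), `twb76_h_pow`, `twb76_h_pow_mul`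
  (`h ^ p * mk E₄ ^ p = mk A ^ p`, the hypothesis `hf` of `cdu_ord_eq_zero`);
* `twb76_hhol`, `twb76_hbdd`, `twb76_hlim` : the hypotheses `hhol/hbdd/hlim` of `cdu_ord_eq_zero`.
-/
import Fermat.Agent.S42x.TwEisMF
import Fermat.Agent.S42x.TwEisMerAbs76
import Fermat.Agent.S42x.TwEis55
import Fermat.Agent.S42x.CDictDefs

set_option autoImplicit false

namespace Fermat.Agent.S42x

open UpperHalfPlane ModularForm CongruenceSubgroup Filter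
open Fermat.Agent.S24x
open scoped MatrixGroups Manifold Topology

/-- `A` is a weight-4 "form with character `ψ`" on `Γ₀(M)`, non-vanishing at every cusp. -/
structure twb76_Form (M : ℕ) (ψ : ↥(Gamma0 M) →* ℂˣ) (A : ℍ → ℂ) : Prop where
  mdiff : MDiff A
  slash : ∀ g : ↥(Gamma0 M), A ∣[(4 : ℤ)] (g : SL(2, ℤ)) = ((ψ g : ℂˣ) : ℂ) • A
  bdd : ∀ g : SL(2, ℤ), IsBoundedAtImInfty (A ∣[(4 : ℤ)] g)
  lim : ∀ g : SL(2, ℤ), ∃ l : ℂ, l ≠ 0 ∧
    Tendsto (fun y : ℝ => (A ∣[(4 : ℤ)] g) (twe55_iy y)) atTop (𝓝 l)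

namespace twb76_Form

variable {M : ℕ} {ψ : ↥(Gamma0 M) →* ℂˣ} {A : ℍ → ℂ}

theorem ne_zero (hA : twb76_Form M ψ A) : A ≠ 0 := by
  intro h
  obtain ⟨l, hl, hlim⟩ := hA.lim 1
  rw [SlashAction.slash_one, h] at hlim
  simp only [Pi.zero_apply] at hlim
  exact hl (tendsto_nhds_unique hlim tendsto_const_nhds)

/-- `A` as an element of `Hol`. -/
noncomputable def hol (hA : twb76_Form M ψ A) : Hol := ⟨A, hA.mdiff⟩

@[simp] theorem hol_coe (hA : twb76_Form M ψ A) : ((hA.hol : Hol) : ℍ → ℂ) = A := rfl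

theorem hol_ne_zero (hA : twb76_Form M ψ A) : hA.hol ≠ 0 := fun h =>
  hA.ne_zero (congrArg Subtype.val h)

end twb76_Form

/-! ### `E₄` -/

theorem twb76_E4_slash (γ : SL(2, ℤ)) : (⇑E₄ : ℍ → ℂ) ∣[(4 : ℤ)] γ = ⇑E₄ := by
  rw [SL_slash]
  exact SlashInvariantFormClass.slash_action_eq E₄ _ ⟨γ, rfl⟩

theorem twb76_E4_ne_zero : (⇑E₄ : ℍ → ℂ) ≠ 0 := by
  intro h
  have h1 : Tendsto (⇑E₄ : ℍ → ℂ) atImInfty (𝓝 1) := jf_tendsto_E₄
  rw [h] at h1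
  have h2 : Tendsto (0 : ℍ → ℂ) atImInfty (𝓝 0) := tendsto_const_nhds
  exact one_ne_zero (tendsto_nhds_unique h1 h2)

theorem twb76_E4Hol_ne_zero : cdc_E4Hol ≠ 0 := fun h =>
  twb76_E4_ne_zero (congrArg Subtype.val h)

theorem twb76_isMF_E4_pow (M : ℕ) [NeZero M] (p : ℕ) :
    S23x.IsMF M ((p : ℤ) * 4) ((⇑E₄ : ℍ → ℂ) ^ p) :=
  (S23x.IsMF1.isMF M (⟨E₄, rfl⟩ : S23x.IsMF1 4 (⇑E₄))).pow p

/-! ### consequences of the bundle -/

section main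

variable {M : ℕ} {ψ : ↥(Gamma0 M) →* ℂˣ} {A : ℍ → ℂ} (hA : twb76_Form M ψ A)
  (p : ℕ) (hp : ∀ g : ↥(Gamma0 M), ψ g ^ p = 1)

include hA

theorem twb76_hhol (g : SL(2, ℤ)) : MDiff (A ∣[(4 : ℤ)] g) := by
  rw [SL_slash]
  exact hA.mdiff.slash 4 _

theorem twb76_hbdd (g : SL(2, ℤ)) : IsBoundedAtImInfty (A ∣[(4 : ℤ)] g) := hA.bdd g

theorem twb76_hlim (g : SL(2, ℤ)) : ∃ l : ℂ, l ≠ 0 ∧
    Tendsto (fun y : ℝ => (A ∣[(4 : ℤ)] g) (twe55_iy y)) atTop (𝓝 l) := hA.lim g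

include hp

/-- **`A ^ p` is a modular form of weight `4 p` on `Γ₀(M)`.** -/
theorem twb76_isMF_pow [NeZero M] : S23x.IsMF M ((p : ℤ) * 4) (A ^ p) :=
  twm_isMF_pow hA.mdiff (fun g => ((ψ g : ℂˣ) : ℂ)) hA.slash hA.bdd p
    (fun g => by rw [← Units.val_pow_eq_pow_val, hp g, Units.val_one])

/-- **The modular function `(A / E₄) ^ p` lies in `ℂ(j, j_M)`.** -/
theorem twb76_ratio_mem [NeZero M] :
    S23x.qL (A ^ p) / S23x.qL ((⇑E₄ : ℍ → ℂ) ^ p) ∈ S23x.ratioField M :=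
  twm_qL_div_mem (twb76_isMF_pow hA p hp) (twb76_isMF_E4_pow M p)
    (twm_pow_ne_zero twb76_E4_ne_zero p)

omit hA hp in
theorem twb76_qL_E4_pow_ne_zero (M : ℕ) [NeZero M] : S23x.qL ((⇑E₄ : ℍ → ℂ) ^ p) ≠ 0 := fun h =>
  twm_pow_ne_zero twb76_E4_ne_zero p
    ((S23x.qL_eq_zero_iff (twb76_isMF_E4_pow M p).isNice).mp h)

omit hA hp in
/-- The hypothesis of the "door from forms". -/
theorem twb76_ratio_mul [NeZero M] (A : ℍ → ℂ) :
    S23x.qL (A ^ p) / S23x.qL ((⇑E₄ : ℍ → ℂ) ^ p) * S23x.qL ((⇑E₄ : ℍ → ℂ) ^ p) =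
      S23x.qL (A ^ p) :=
  div_mul_cancel₀ _ (twb76_qL_E4_pow_ne_zero p M)

theorem twb76_ratio_ne_zero [NeZero M] :
    S23x.qL (A ^ p) / S23x.qL ((⇑E₄ : ℍ → ℂ) ^ p) ≠ 0 := by
  have h1 : S23x.qL (A ^ p) ≠ 0 := fun h =>
    twm_pow_ne_zero hA.ne_zero p
      ((S23x.qL_eq_zero_iff (twb76_isMF_pow hA p hp).isNice).mp h)
  exact div_ne_zero h1 (twb76_qL_E4_pow_ne_zero p M)

omit hp

/-- **The meromorphic `p`-th root** `h = A / E₄ ∈ Mer`. -/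
noncomputable def twb76_h : Mer := algebraMap Hol Mer hA.hol / algebraMap Hol Mer cdc_E4Hol

theorem twb76_h_ne_zero : twb76_h hA ≠ 0 :=
  twr76_div_ne_zero hA.hol_ne_zero twb76_E4Hol_ne_zero

/-- **Character law**: `γ⁻¹ • h = ψ γ * h` for `γ ∈ Γ₀(M)` (the last clause of `heq_Rel`). -/
theorem twb76_h_char (g : ↥(Gamma0 M)) :
    ((g : SL(2, ℤ))⁻¹ • twb76_h hA : Mer) = algebraMap ℂ Mer ((ψ g : ℂˣ) : ℂ) * twb76_h hA :=
  twr76_char twb76_E4Hol_ne_zero (k := 4) (hA.slash g) (twb76_E4_slash _)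

theorem twb76_h_pow :
    twb76_h hA ^ p = algebraMap Hol Mer (hA.hol ^ p) / algebraMap Hol Mer (cdc_E4Hol ^ p) :=
  twr76_pow _ _ p

/-- The hypothesis `hf` of `cdu_ord_eq_zero` for `φ f = h ^ p`. -/
theorem twb76_h_pow_mul :
    twb76_h hA ^ p * algebraMap Hol Mer cdc_E4Hol ^ p = algebraMap Hol Mer hA.hol ^ p := by
  unfold twb76_h
  rw [div_pow, div_mul_cancel₀ _ (pow_ne_zero p (twr76_algebraMap_ne_zero twb76_E4Hol_ne_zero))]

end main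

end Fermat.Agent.S42x
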