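/-
S42 project, block B1, leaf B1-ALL (ARCH-2 of helper55, section 3) -- helper99, prefix `twa99_`.

The ALL-CUSP Eisenstein series of weight `4` with character `ψ : Γ₀(M) →* ℂˣ`, `ψ` trivial on every
element of trace `± 2` (`twa99_TrivPar`) and unitary (`twc_Unitary`).

The coefficient function `twa99_coeff ψ` is supported on ALL primitive vectors: the group `Γ₀(M)` acts
on the primitive vectors by `v ↦ v ᵥ* γ`; on the orbit of a chosen representative `r` we put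
`twa99_coeff ψ (r ᵥ* γ) = (ψ γ)⁻¹`.  This is well defined because the stabiliser of a non-zero vector
in `SL(2, ℤ)` consists of matrices of trace `2`.  Consequences:

* `twa99_coeff ψ (w ᵥ* γ⁻¹) = ψ γ * twa99_coeff ψ w` for `γ ∈ Γ₀(M)`, norm `1` on primitive vectors,
  `0` elsewhere, even;
* `twa99_E ψ := twe55_E (twa99_coeff ψ) 4` is holomorphic, every slash translate is holomorphic and
  bounded at `i∞`, `twa99_E ψ ∣[4] γ = ψ γ • twa99_E ψ` for `γ ∈ Γ₀(M)`;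
* for EVERY `g : SL(2, ℤ)` the slash translate `twa99_E ψ ∣[4] g` tends along `i y`, `y → ∞`, to
  `2 * twa99_coeff ψ (bottom row of g⁻¹) ≠ 0`: the series does not vanish at any cusp.
-/
import Fermat.Agent.S42x.TwEis55
import Fermat.Agent.S42x.TwEisChar

set_option autoImplicit false

namespace Fermat.Agent.S42x

open EisensteinSeries UpperHalfPlane ModularForm Matrix CongruenceSubgroup Filter Topology
open scoped MatrixGroups Manifold

noncomputable section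

/-! ### primitive vectors -/

/-- the primitive vectors of `ℤ²`. -/
def twa99_prim : Set (Fin 2 → ℤ) := {v | IsCoprime (v 0) (v 1)}

theorem twa99_row_mem_prim (g : SL(2, ℤ)) : twc_row g ∈ twa99_prim := twc_row_isCoprime g

theorem twa99_exists_row {v : Fin 2 → ℤ} (hv : v ∈ twa99_prim) :
    ∃ g : SL(2, ℤ), twc_row g = v := by
  obtain ⟨g, hg0, hg1⟩ := IsCoprime.exists_SL2_row hv 1
  refine ⟨g, ?_⟩
  funext i
  fin_cases i
  · exact hg0
  · exact hg1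

theorem twa99_ne_zero_of_prim {v : Fin 2 → ℤ} (hv : v ∈ twa99_prim) : v ≠ 0 := by
  rintro rfl
  have h : IsCoprime (0 : ℤ) 0 := hv
  rw [isCoprime_zero_left] at h
  exact not_isUnit_zero h

theorem twa99_vecMul_mem_prim (A : SL(2, ℤ)) {v : Fin 2 → ℤ} (hv : v ∈ twa99_prim) :
    v ᵥ* (A : Matrix (Fin 2) (Fin 2) ℤ) ∈ twa99_prim := by
  obtain ⟨g, rfl⟩ := twa99_exists_row hv
  rw [← twc_row_mul]
  exact twa99_row_mem_prim _

theorem twa99_vecMul_vecMul_inv (A : SL(2, ℤ)) (v : Fin 2 → ℤ) :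
    (v ᵥ* (A : Matrix (Fin 2) (Fin 2) ℤ)) ᵥ* ((A⁻¹ : SL(2, ℤ)) : Matrix (Fin 2) (Fin 2) ℤ) = v := by
  rw [vecMul_vecMul, ← Matrix.SpecialLinearGroup.coe_mul, mul_inv_cancel,
    Matrix.SpecialLinearGroup.coe_one, vecMul_one]

theorem twa99_vecMul_inv_vecMul (A : SL(2, ℤ)) (v : Fin 2 → ℤ) :
    (v ᵥ* ((A⁻¹ : SL(2, ℤ)) : Matrix (Fin 2) (Fin 2) ℤ)) ᵥ* (A : Matrix (Fin 2) (Fin 2) ℤ) = v := by
  rw [vecMul_vecMul, ← Matrix.SpecialLinearGroup.coe_mul, inv_mul_cancel,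
    Matrix.SpecialLinearGroup.coe_one, vecMul_one]

theorem twa99_vecMul_mem_prim_iff (A : SL(2, ℤ)) (v : Fin 2 → ℤ) :
    v ᵥ* (A : Matrix (Fin 2) (Fin 2) ℤ) ∈ twa99_prim ↔ v ∈ twa99_prim := by
  refine ⟨fun h => ?_, twa99_vecMul_mem_prim A⟩
  have h2 := twa99_vecMul_mem_prim A⁻¹ h
  rwa [twa99_vecMul_vecMul_inv] at h2

/-- a matrix of `SL(2, ℤ)` fixing a non-zero row vector has trace `2`. -/
theorem twa99_trace_of_fix {g : SL(2, ℤ)} {r : Fin 2 → ℤ} (hr : r ≠ 0)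
    (h : r ᵥ* (g : Matrix (Fin 2) (Fin 2) ℤ) = r) :
    (g : Matrix (Fin 2) (Fin 2) ℤ).trace = 2 := by
  have h0 := congrFun h 0
  have h1 := congrFun h 1
  simp only [vecMul, dotProduct, Fin.sum_univ_two] at h0 h1
  have hdet := g.det_coe
  rw [Matrix.det_fin_two] at hdet
  rw [Matrix.trace_fin_two]
  have hx : (g 0 0 + g 1 1 - 2) * r 0 = 0 := by
    linear_combination (-(g 1 1 - 1)) * h0 + g 1 0 * h1 + r 0 * hdet
  have hy : (g 0 0 + g 1 1 - 2) * r 1 = 0 := by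
    linear_combination (-(g 0 0 - 1)) * h1 + g 0 1 * h0 + r 1 * hdet
  by_contra hne
  have hne' : g 0 0 + g 1 1 - 2 ≠ 0 := fun h2 => hne (by linarith)
  apply hr
  funext i
  fin_cases i
  · exact (mul_eq_zero.mp hx).resolve_left hne'
  · exact (mul_eq_zero.mp hy).resolve_left hne'

/-! ### orbits of `Γ₀(M)` and representatives -/

section Orbits

variable (M : ℕ)

/-- the orbit relation of the right action of `Γ₀(M)` on row vectors. -/
def twa99_setoid : Setoid (Fin 2 → ℤ) where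
  r v w := ∃ γ : Gamma0 M, w = v ᵥ* (((γ : SL(2, ℤ)) : Matrix (Fin 2) (Fin 2) ℤ))
  iseqv :=
    { refl := fun v => ⟨1, by simp⟩
      symm := by
        rintro v w ⟨γ, rfl⟩
        refine ⟨γ⁻¹, ?_⟩
        rw [Subgroup.coe_inv, twa99_vecMul_vecMul_inv]
      trans := by
        rintro u v w ⟨γ, rfl⟩ ⟨δ, rfl⟩
        refine ⟨γ * δ, ?_⟩
        rw [vecMul_vecMul, Subgroup.coe_mul, Matrix.SpecialLinearGroup.coe_mul] }

/-- the chosen representative of the `Γ₀(M)`-orbit of `v`. -/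
def twa99_rep (v : Fin 2 → ℤ) : Fin 2 → ℤ := (Quotient.mk (twa99_setoid M) v).out

theorem twa99_rep_rel (v : Fin 2 → ℤ) :
    ∃ γ : Gamma0 M, v = twa99_rep M v ᵥ* (((γ : SL(2, ℤ)) : Matrix (Fin 2) (Fin 2) ℤ)) :=
  Quotient.mk_out (s := twa99_setoid M) v

/-- a chosen matrix of `Γ₀(M)` moving the representative to `v`. -/
def twa99_mat (v : Fin 2 → ℤ) : Gamma0 M := (twa99_rep_rel M v).choose

theorem twa99_mat_spec (v : Fin 2 → ℤ) :
    v = twa99_rep M v ᵥ* (((twa99_mat M v : Gamma0 M) : SL(2, ℤ)) : Matrix (Fin 2) (Fin 2) ℤ) :=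
  (twa99_rep_rel M v).choose_spec

theorem twa99_rep_vecMul (v : Fin 2 → ℤ) (γ : Gamma0 M) :
    twa99_rep M (v ᵥ* (((γ : SL(2, ℤ)) : Matrix (Fin 2) (Fin 2) ℤ))) = twa99_rep M v := by
  unfold twa99_rep
  congr 1
  exact (Quotient.sound (s := twa99_setoid M) ⟨γ, rfl⟩).symm

theorem twa99_rep_ne_zero {v : Fin 2 → ℤ} (hv : v ≠ 0) : twa99_rep M v ≠ 0 := by
  intro h
  apply hv
  rw [twa99_mat_spec M v, h, zero_vecMul]

end Orbits

/-! ### the coefficient function -/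

section Character

variable {M : ℕ} (ψ : ↥(Gamma0 M) →* ℂˣ)

/-- `ψ` is trivial on every element of `Γ₀(M)` of trace `± 2` (`-1` and all parabolic elements). -/
def twa99_TrivPar : Prop :=
  ∀ g : Gamma0 M, ((g : SL(2, ℤ)) : Matrix (Fin 2) (Fin 2) ℤ).trace ^ 2 = 4 → ψ g = 1

open scoped Classical in
/-- the coefficient function of the all-cusp Eisenstein series with character `ψ`. -/
def twa99_coeff (v : Fin 2 → ℤ) : ℂ :=
  if v ∈ twa99_prim then (((ψ (twa99_mat M v))⁻¹ : ℂˣ) : ℂ) else 0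

variable {ψ}

theorem twa99_coeff_of_notMem {v : Fin 2 → ℤ} (hv : v ∉ twa99_prim) : twa99_coeff ψ v = 0 := by
  unfold twa99_coeff
  rw [if_neg hv]

theorem twa99_trivPar_trivUnip (hP : twa99_TrivPar ψ) : twc_TrivUnip ψ := by
  intro g hg
  apply hP
  have hdet := (g : SL(2, ℤ)).det_coe
  rw [Matrix.det_fin_two, hg, mul_zero, sub_zero] at hdet
  rw [Matrix.trace_fin_two]
  have hu : IsUnit ((g : SL(2, ℤ)) 0 0) := IsUnit.of_mul_eq_one _ hdet
  rcases Int.isUnit_iff.mp hu with h | h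
  · rw [h, one_mul] at hdet
    rw [h, hdet]
    norm_num
  · rw [h] at hdet
    have h11 : (g : SL(2, ℤ)) 1 1 = -1 := by linarith
    rw [h, h11]
    norm_num

/-- `ψ γ` only depends on the image `r ᵥ* γ` of a non-zero vector `r`. -/
theorem twa99_psi_eq_of_vecMul_eq (hP : twa99_TrivPar ψ) {r : Fin 2 → ℤ} (hr : r ≠ 0)
    {γ δ : Gamma0 M}
    (h : r ᵥ* (((γ : SL(2, ℤ)) : Matrix (Fin 2) (Fin 2) ℤ)) =
      r ᵥ* (((δ : SL(2, ℤ)) : Matrix (Fin 2) (Fin 2) ℤ))) : ψ γ = ψ δ := by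
  have hfix : r ᵥ* ((((γ * δ⁻¹ : Gamma0 M) : SL(2, ℤ))) : Matrix (Fin 2) (Fin 2) ℤ) = r := by
    rw [Subgroup.coe_mul, Matrix.SpecialLinearGroup.coe_mul, ← vecMul_vecMul, h, Subgroup.coe_inv,
      twa99_vecMul_vecMul_inv]
  have h1 : ψ (γ * δ⁻¹) = 1 := by
    apply hP
    rw [twa99_trace_of_fix hr hfix]
    norm_num
  rw [map_mul, map_inv, mul_inv_eq_one] at h1
  exact h1

/-- the value of the coefficient function through ANY matrix moving the representative to `v`. -/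
theorem twa99_coeff_eq (hP : twa99_TrivPar ψ) {v : Fin 2 → ℤ} (hv : v ∈ twa99_prim)
    (γ : Gamma0 M)
    (h : v = twa99_rep M v ᵥ* (((γ : SL(2, ℤ)) : Matrix (Fin 2) (Fin 2) ℤ))) :
    twa99_coeff ψ v = (((ψ γ)⁻¹ : ℂˣ) : ℂ) := by
  unfold twa99_coeff
  rw [if_pos hv]
  congr 2
  refine twa99_psi_eq_of_vecMul_eq hP (twa99_rep_ne_zero M (twa99_ne_zero_of_prim hv)) ?_
  rw [← twa99_mat_spec M v, ← h]

/-- **THE identity**: `c_ψ (w ᵥ* γ⁻¹) = ψ γ * c_ψ w` for `γ ∈ Γ₀(M)`. -/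
theorem twa99_coeff_vecMul_inv (hP : twa99_TrivPar ψ) (g : Gamma0 M) (w : Fin 2 → ℤ) :
    twa99_coeff ψ (w ᵥ* (((g : SL(2, ℤ))⁻¹ : SL(2, ℤ)) : Matrix (Fin 2) (Fin 2) ℤ)) =
      ((ψ g : ℂˣ) : ℂ) * twa99_coeff ψ w := by
  by_cases hw : w ∈ twa99_prim
  · have hw' : w ᵥ* (((g : SL(2, ℤ))⁻¹ : SL(2, ℤ)) : Matrix (Fin 2) (Fin 2) ℤ) ∈ twa99_prim :=
      twa99_vecMul_mem_prim _ hw
    have hrep : twa99_rep M (w ᵥ* (((g : SL(2, ℤ))⁻¹ : SL(2, ℤ)) : Matrix (Fin 2) (Fin 2) ℤ)) =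
        twa99_rep M w := by
      have := twa99_rep_vecMul M w g⁻¹
      rwa [Subgroup.coe_inv] at this
    have h1 : w ᵥ* (((g : SL(2, ℤ))⁻¹ : SL(2, ℤ)) : Matrix (Fin 2) (Fin 2) ℤ) =
        twa99_rep M (w ᵥ* (((g : SL(2, ℤ))⁻¹ : SL(2, ℤ)) : Matrix (Fin 2) (Fin 2) ℤ)) ᵥ*
          ((((twa99_mat M w * g⁻¹ : Gamma0 M) : SL(2, ℤ))) : Matrix (Fin 2) (Fin 2) ℤ) := by
      rw [hrep, Subgroup.coe_mul, Matrix.SpecialLinearGroup.coe_mul, ← vecMul_vecMul,
        ← twa99_mat_spec M w, Subgroup.coe_inv]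
    rw [twa99_coeff_eq hP hw' _ h1, twa99_coeff_eq hP hw _ (twa99_mat_spec M w), map_mul, map_inv,
      mul_inv, inv_inv, mul_comm, Units.val_mul]
  · have hw' : w ᵥ* (((g : SL(2, ℤ))⁻¹ : SL(2, ℤ)) : Matrix (Fin 2) (Fin 2) ℤ) ∉ twa99_prim := by
      rw [twa99_vecMul_mem_prim_iff]
      exact hw
    rw [twa99_coeff_of_notMem hw, twa99_coeff_of_notMem hw', mul_zero]

theorem twa99_norm_coeff (hU : twc_Unitary ψ) {v : Fin 2 → ℤ} (hv : v ∈ twa99_prim) :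
    ‖twa99_coeff ψ v‖ = 1 := by
  unfold twa99_coeff
  rw [if_pos hv, Units.val_inv_eq_inv_val, norm_inv, hU, inv_one]

theorem twa99_coeff_ne_zero (hU : twc_Unitary ψ) {v : Fin 2 → ℤ} (hv : v ∈ twa99_prim) :
    twa99_coeff ψ v ≠ 0 := by
  intro h
  have := twa99_norm_coeff (ψ := ψ) hU hv
  rw [h, norm_zero] at this
  exact zero_ne_one this

theorem twa99_norm_coeff_le (hU : twc_Unitary ψ) (v : Fin 2 → ℤ) : ‖twa99_coeff ψ v‖ ≤ 1 := by
  by_cases hv : v ∈ twa99_prim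
  · exact (twa99_norm_coeff hU hv).le
  · rw [twa99_coeff_of_notMem hv, norm_zero]
    exact zero_le_one

theorem twa99_bdd (hU : twc_Unitary ψ) : twe55_Bdd (twa99_coeff ψ) :=
  fun v => twa99_norm_coeff_le hU v

/-- `-1` as an element of `Γ₀(M)`. -/
def twa99_negOne (M : ℕ) : Gamma0 M :=
  ⟨-1, by
    rw [twc_mem_Gamma0_iff]
    simp [Matrix.SpecialLinearGroup.coe_neg]⟩

/-- the coefficient function is even. -/
theorem twa99_coeff_neg (hP : twa99_TrivPar ψ) (v : Fin 2 → ℤ) :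
    twa99_coeff ψ (-v) = twa99_coeff ψ v := by
  have h := twa99_coeff_vecMul_inv hP (twa99_negOne M) v
  have h1 : ψ (twa99_negOne M) = 1 := by
    apply hP
    simp [twa99_negOne, Matrix.SpecialLinearGroup.coe_neg]
  have h2 : v ᵥ* ((((twa99_negOne M : Gamma0 M) : SL(2, ℤ))⁻¹ : SL(2, ℤ)) :
      Matrix (Fin 2) (Fin 2) ℤ) = -v := by
    simp [twa99_negOne, Matrix.SpecialLinearGroup.coe_neg, vecMul_neg]
  rw [h2, h1, Units.val_one, one_mul] at h
  exact h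

/-! ### the all-cusp Eisenstein series -/

variable (ψ) in
/-- the all-cusp Eisenstein series of weight `4` with character `ψ`. -/
def twa99_E : ℍ → ℂ := twe55_E (twa99_coeff ψ) 4

theorem twa99_E_mdiff (hU : twc_Unitary ψ) : MDiff (twa99_E ψ) :=
  twe55_mdiff (twa99_bdd hU) (by norm_num)

theorem twa99_E_slash_eq (g : SL(2, ℤ)) :
    twa99_E ψ ∣[(4 : ℤ)] g = twe55_E (twe55_tr (twa99_coeff ψ) g) 4 :=
  twe55_slash _ _ _

/-- every slash translate is holomorphic. -/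
theorem twa99_E_slash_mdiff (hU : twc_Unitary ψ) (g : SL(2, ℤ)) :
    MDiff (twa99_E ψ ∣[(4 : ℤ)] g) := by
  rw [twa99_E_slash_eq]
  exact twe55_mdiff (twe55_tr_bdd (twa99_bdd hU) g) (by norm_num)

/-- every slash translate is bounded at `i∞`. -/
theorem twa99_E_isBoundedAtImInfty_slash (hU : twc_Unitary ψ) (g : SL(2, ℤ)) :
    IsBoundedAtImInfty (twa99_E ψ ∣[(4 : ℤ)] g) :=
  twe55_isBoundedAtImInfty_slash (twa99_bdd hU) (by norm_num) g

/-- **the transformation law**: `E_ψ ∣[4] γ = ψ γ • E_ψ` for `γ ∈ Γ₀(M)`. -/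
theorem twa99_E_slash (hP : twa99_TrivPar ψ) (g : Gamma0 M) :
    twa99_E ψ ∣[(4 : ℤ)] (g : SL(2, ℤ)) = ((ψ g : ℂˣ) : ℂ) • twa99_E ψ := by
  unfold twa99_E
  rw [twe55_slash]
  funext z
  simp only [twe55_E, twe55_tr, Pi.smul_apply, smul_eq_mul]
  rw [← tsum_mul_left]
  refine tsum_congr fun v => ?_
  rw [twa99_coeff_vecMul_inv hP g v, mul_assoc]

/-- pointwise form of the transformation law. -/
theorem twa99_E_smul_apply (hP : twa99_TrivPar ψ) (g : Gamma0 M) (z : ℍ) :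
    twa99_E ψ ((g : SL(2, ℤ)) • z) =
      ((ψ g : ℂˣ) : ℂ) * denom ((g : SL(2, ℤ)) : GL (Fin 2) ℝ) z ^ (4 : ℤ) * twa99_E ψ z := by
  have h := congrFun (twa99_E_slash hP g) z
  rw [SL_slash_apply, Pi.smul_apply, smul_eq_mul] at h
  have hd : denom ((g : SL(2, ℤ)) : GL (Fin 2) ℝ) z ^ (4 : ℤ) ≠ 0 :=
    zpow_ne_zero _ (denom_ne_zero _ z)
  rw [_root_.zpow_neg, mul_inv_eq_iff_eq_mul₀ hd] at h
  rw [h]
  ring

/-- the limit value of the slash translate by `g` is `2 * c_ψ (bottom row of g⁻¹)`. -/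
theorem twa99_lim_eq (hP : twa99_TrivPar ψ) (g : SL(2, ℤ)) :
    twe55_lim (twe55_tr (twa99_coeff ψ) g) 4 = 2 * twa99_coeff ψ (twc_row g⁻¹) := by
  classical
  unfold twe55_lim
  have hne : (![0, 1] : Fin 2 → ℤ) ≠ ![0, -1] := by
    intro h
    have := congrFun h 1
    simp at this
  have hrow1 : (![0, 1] : Fin 2 → ℤ) ᵥ* ((g⁻¹ : SL(2, ℤ)) : Matrix (Fin 2) (Fin 2) ℤ) =
      twc_row g⁻¹ := by
    funext i
    fin_cases i <;> simp [vecMul, dotProduct, Fin.sum_univ_two, twc_row]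
  have hrow2 : (![0, -1] : Fin 2 → ℤ) ᵥ* ((g⁻¹ : SL(2, ℤ)) : Matrix (Fin 2) (Fin 2) ℤ) =
      -twc_row g⁻¹ := by
    funext i
    fin_cases i <;> simp [vecMul, dotProduct, Fin.sum_univ_two, twc_row]
  rw [tsum_eq_sum (s := {![0, 1], ![0, -1]})]
  · rw [Finset.sum_pair hne, if_pos (by rfl), if_pos (by rfl)]
    unfold twe55_tr
    rw [hrow1, hrow2, twa99_coeff_neg hP]
    norm_num
    ring
  · intro v hv
    by_cases h0 : v 0 = 0
    · rw [if_pos h0]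
      have hv' : v ∉ twa99_prim := by
        intro hmem
        apply hv
        have hc : IsCoprime (v 0) (v 1) := hmem
        rw [h0, isCoprime_zero_left, Int.isUnit_iff] at hc
        rcases hc with h1 | h1
        · have : v = ![0, 1] := by
            funext i
            fin_cases i
            · exact h0
            · exact h1
          rw [this]
          simp
        · have : v = ![0, -1] := by
            funext i
            fin_cases i
            · exact h0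
            · exact h1
          rw [this]
          simp
      have hv'' : v ᵥ* ((g⁻¹ : SL(2, ℤ)) : Matrix (Fin 2) (Fin 2) ℤ) ∉ twa99_prim := by
        rw [twa99_vecMul_mem_prim_iff]
        exact hv'
      unfold twe55_tr
      rw [twa99_coeff_of_notMem hv'', zero_mul]
    · rw [if_neg h0]

/-- the limit of the slash translate by ANY `g : SL(2, ℤ)` along the imaginary axis. -/
theorem twa99_E_slash_tendsto (hP : twa99_TrivPar ψ) (hU : twc_Unitary ψ) (g : SL(2, ℤ)) :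
    Tendsto (fun y : ℝ => (twa99_E ψ ∣[(4 : ℤ)] g) (twe55_iy y)) atTop
      (𝓝 (2 * twa99_coeff ψ (twc_row g⁻¹))) := by
  rw [twa99_E_slash_eq, ← twa99_lim_eq hP g]
  exact twe55_tendsto_axis (twe55_tr_bdd (twa99_bdd hU) g) (by norm_num)

theorem twa99_lim_ne_zero (hU : twc_Unitary ψ) (g : SL(2, ℤ)) :
    2 * twa99_coeff ψ (twc_row g⁻¹) ≠ 0 :=
  mul_ne_zero two_ne_zero (twa99_coeff_ne_zero hU (twa99_row_mem_prim _))

/-- **non-vanishing at every cusp** (hypothesis `hlim` of `cdu_ord_eq_zero`). -/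
theorem twa99_E_hlim (hP : twa99_TrivPar ψ) (hU : twc_Unitary ψ) (g : SL(2, ℤ)) :
    ∃ l : ℂ, l ≠ 0 ∧
      Tendsto (fun y : ℝ => (twa99_E ψ ∣[(4 : ℤ)] g) (twe55_iy y)) atTop (𝓝 l) :=
  ⟨_, twa99_lim_ne_zero hU g, twa99_E_slash_tendsto hP hU g⟩

/-- `E_ψ` is not identically zero. -/
theorem twa99_E_ne_zero (hP : twa99_TrivPar ψ) (hU : twc_Unitary ψ) : twa99_E ψ ≠ 0 := by
  intro h
  have h1 := twa99_E_slash_tendsto hP hU 1
  rw [h] at h1
  have h2 : (fun y : ℝ => ((0 : ℍ → ℂ) ∣[(4 : ℤ)] (1 : SL(2, ℤ))) (twe55_iy y)) = fun _ => 0 := by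
    funext y
    rw [SlashAction.zero_slash]
    rfl
  rw [h2] at h1
  exact twa99_lim_ne_zero hU 1 (tendsto_nhds_unique h1 tendsto_const_nhds)

/-- slash invariance of the `p`-th power in weight `4 p` when `ψ ^ p = 1`. -/
theorem twa99_E_pow_slash (hP : twa99_TrivPar ψ) (p : ℕ) (hp : ∀ g : Gamma0 M, ψ g ^ p = 1)
    (g : Gamma0 M) :
    (twa99_E ψ ^ p) ∣[((4 * p : ℕ) : ℤ)] (g : SL(2, ℤ)) = twa99_E ψ ^ p := by
  funext z
  rw [SL_slash_apply, Pi.pow_apply, twa99_E_smul_apply hP g z, Pi.pow_apply, mul_pow, mul_pow,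
    ← Units.val_pow_eq_pow_val, hp g, Units.val_one, one_mul]
  have hd : denom ((g : SL(2, ℤ)) : GL (Fin 2) ℝ) z ≠ 0 := denom_ne_zero _ z
  rw [_root_.zpow_neg, ← zpow_natCast (denom _ z ^ (4 : ℤ)) p, ← _root_.zpow_mul]
  have : ((4 : ℤ) * (p : ℤ)) = ((4 * p : ℕ) : ℤ) := by push_cast; ring
  rw [this]
  have hd' : denom ((g : SL(2, ℤ)) : GL (Fin 2) ℝ) z ^ ((4 * p : ℕ) : ℤ) ≠ 0 := zpow_ne_zero _ hd
  field_simp

end Character

end

end Fermat.Agent.S42x
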