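/-
S42 project, block B1 (ARCH-2 form) **TOP** (helper76), prefix `twx76_`.

Instantiates the abstract bundle `twb76_Form` (`TwEisAllAbs76`) with helper99's all-cusp Eisenstein
series `twa99_E ψ` (`TwEisAll99`), for a general unitary `ψ` killing all trace-`±2` elements, and for
`ψ = ψ_χ = twp_psi p χ` (`χ : Γ₀(M) → ℤ` parabolic, helper12's `TwEisPsi`).

For `p : ℕ`, `χ` parabolic: `twx76_A p χ : ℍ → ℂ` (weight 4, character `ψ_χ`, non-vanishing at
every cusp), `twx76_form`, and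
* `twx76_hhol/_hbdd/_hlim`  (hypotheses of `cdu_ord_eq_zero`);
* `twx76_isMF_pow`, `twx76_ratio_mem`, `twx76_ratio_mul`, `twx76_ratio_ne_zero`
  (`x_χ := qL (A ^ p) / qL (E₄ ^ p) ∈ S23x.ratioField M`);
* `twx76_h p hχ : Mer` with `twx76_h_ne_zero`, `twx76_h_char` (in the `heq_Rel` shape for
  `twp_psiAdd p χ`), `twx76_h_pow`, `twx76_h_pow_mul`.
-/
import Fermat.Agent.S42x.TwEisAllAbs76
import Fermat.Agent.S42x.TwEisAll99
import Fermat.Agent.S42x.TwEisPsi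

set_option autoImplicit false

namespace Fermat.Agent.S42x

open UpperHalfPlane ModularForm CongruenceSubgroup Filter ModularCurve.Period
open Fermat.Agent.S24x
open scoped MatrixGroups Manifold Topology

variable {M : ℕ}

/-- helper99's all-cusp series satisfies the abstract bundle. -/
theorem twx76_form_of {ψ : ↥(Gamma0 M) →* ℂˣ} (hP : twa99_TrivPar ψ) (hU : twc_Unitary ψ) :
    twb76_Form M ψ (twa99_E ψ) where
  mdiff := twa99_E_mdiff hU
  slash := twa99_E_slash hP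
  bdd := twa99_E_isBoundedAtImInfty_slash hU
  lim := twa99_E_hlim hP hU

section chi

variable (p : ℕ) (χ : Additive ↥(Gamma0 M) →+ ℤ)

theorem twx76_trivPar {χ : Additive ↥(Gamma0 M) →+ ℤ} (hχ : IsParabolicHom (Gamma0 M) χ) :
    twa99_TrivPar (twp_psi p χ) :=
  fun g hg => twp_psi_of_trace p hχ g hg

/-- **The all-cusp Eisenstein series of weight `4` with character `ψ_χ = exp(2 π i χ / p)`.** -/
noncomputable def twx76_A : ℍ → ℂ := twa99_E (twp_psi p χ)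

variable {χ} (hχ : IsParabolicHom (Gamma0 M) χ)

include hχ

theorem twx76_form : twb76_Form M (twp_psi p χ) (twx76_A p χ) :=
  twx76_form_of (twx76_trivPar p hχ) (fun g => twp_norm_psi p χ g)

theorem twx76_hhol (g : SL(2, ℤ)) : MDiff (twx76_A p χ ∣[(4 : ℤ)] g) :=
  twb76_hhol (twx76_form p hχ) g

theorem twx76_hbdd (g : SL(2, ℤ)) : IsBoundedAtImInfty (twx76_A p χ ∣[(4 : ℤ)] g) :=
  (twx76_form p hχ).bdd g

theorem twx76_hlim (g : SL(2, ℤ)) : ∃ l : ℂ, l ≠ 0 ∧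
    Tendsto (fun y : ℝ => (twx76_A p χ ∣[(4 : ℤ)] g) (twe55_iy y)) atTop (𝓝 l) :=
  (twx76_form p hχ).lim g

theorem twx76_slash (g : ↥(Gamma0 M)) :
    twx76_A p χ ∣[(4 : ℤ)] (g : SL(2, ℤ)) = ((twp_psi p χ g : ℂˣ) : ℂ) • twx76_A p χ :=
  (twx76_form p hχ).slash g

/-- **`A_χ ^ p` is a modular form of weight `4 p` on `Γ₀(M)`.** -/
theorem twx76_isMF_pow [NeZero M] : S23x.IsMF M ((p : ℤ) * 4) (twx76_A p χ ^ p) :=
  twb76_isMF_pow (twx76_form p hχ) p (fun g => twp_psi_pow p χ g)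

/-- **The modular function `f_χ = (A_χ / E₄) ^ p` lies in `ℂ(j, j_M)`.** -/
theorem twx76_ratio_mem [NeZero M] :
    S23x.qL (twx76_A p χ ^ p) / S23x.qL ((⇑E₄ : ℍ → ℂ) ^ p) ∈ S23x.ratioField M :=
  twb76_ratio_mem (twx76_form p hχ) p (fun g => twp_psi_pow p χ g)

theorem twx76_ratio_ne_zero [NeZero M] :
    S23x.qL (twx76_A p χ ^ p) / S23x.qL ((⇑E₄ : ℍ → ℂ) ^ p) ≠ 0 :=
  twb76_ratio_ne_zero (twx76_form p hχ) p (fun g => twp_psi_pow p χ g)

omit hχ in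
theorem twx76_ratio_mul [NeZero M] :
    S23x.qL (twx76_A p χ ^ p) / S23x.qL ((⇑E₄ : ℍ → ℂ) ^ p) * S23x.qL ((⇑E₄ : ℍ → ℂ) ^ p) =
      S23x.qL (twx76_A p χ ^ p) :=
  twb76_ratio_mul (M := M) p (twx76_A p χ)

/-- `A_χ` as an element of `Hol`. -/
noncomputable def twx76_AHol : Hol := (twx76_form p hχ).hol

omit hχ in
@[simp] theorem twx76_AHol_coe (hχ : IsParabolicHom (Gamma0 M) χ) :
    ((twx76_AHol p hχ : Hol) : ℍ → ℂ) = twx76_A p χ := rfl

/-- **The meromorphic `p`-th root** `h_χ = A_χ / E₄ ∈ Mer`. -/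
noncomputable def twx76_h : Mer := twb76_h (twx76_form p hχ)

theorem twx76_h_def :
    twx76_h p hχ = algebraMap Hol Mer (twx76_AHol p hχ) / algebraMap Hol Mer cdc_E4Hol := rfl

theorem twx76_h_ne_zero : twx76_h p hχ ≠ 0 := twb76_h_ne_zero _

/-- **Character law in the `heq_Rel` shape.** -/
theorem twx76_h_char (γ : ↥(Gamma0 M)) :
    ((γ : SL(2, ℤ))⁻¹ • twx76_h p hχ : Mer) =
      algebraMap ℂ Mer (((twp_psiAdd p χ (Additive.ofMul γ)).toMul : ℂˣ) : ℂ) * twx76_h p hχ := by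
  rw [twp_psiAdd_toMul]
  exact twb76_h_char (twx76_form p hχ) γ

theorem twx76_h_pow :
    twx76_h p hχ ^ p =
      algebraMap Hol Mer (twx76_AHol p hχ ^ p) / algebraMap Hol Mer (cdc_E4Hol ^ p) :=
  twb76_h_pow _ p

/-- The hypothesis `hf` of `cdu_ord_eq_zero` (with `φ f = h_χ ^ p`). -/
theorem twx76_h_pow_mul :
    twx76_h p hχ ^ p * algebraMap Hol Mer cdc_E4Hol ^ p =
      algebraMap Hol Mer (twx76_AHol p hχ) ^ p :=
  twb76_h_pow_mul _ p

end chi

end Fermat.Agent.S42x
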