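/-
S42x/R5Fin92 (helper92, prefix `r5f92_`): GLUE of the `S_p^fin` chain (ARCH-3 (R1), CAPTAIN-1).

From the B3 package on `FC = S23x.ratioField M` (a realisation bundle `D : cdc_Real FC M jF` whose
underlying map has the door `inj_EvCompat`, `jF` a coordinate with `q`-expansion `j`), and ONE
weight-4 form `A` with character `ψ` (`ψ ^ p = 1`, `ψ` parabolic; bundle `twb76_Form`), `p ≥ 5`
prime, we produce a point `x : JZero M` with `heq_Rel M p x ψ` (hypothesis `hR5` of `rlg_iotHyp`).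

Chain: `f := (A / E₄) ^ p ∈ FC` (B1) ; `p ∣ ord_P f` at the places where `jF` is finite
(`cdf_covering_finite` B3.2 + `cdcf71_dvd_finite` B3.4) ; finitely many classes
(`inj_exists_T0_of_dict`, B4) ; descent `ℂ → Q̄` with finite places only (`dsct57_top_fin'`, B7) ;
all orders over `Q̄` divisible by `p` (`dsdq_dvd_ord`, R5c) ; `r5a_of_descended`.
NO information about the cusp places over `ℂ` is used.
-/
import Mathlib
import Fermat.Agent.S42x.R5Asm
import Fermat.Agent.S42x.InjT0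
import Fermat.Agent.S42x.InjComp
import Fermat.Agent.S42x.DescFinalFin57
import Fermat.Agent.S42x.DescDivFinal
import Fermat.Agent.S42x.CDictFinal71
import Fermat.Agent.S42x.CDictCovFin
import Fermat.Agent.S42x.CDictBridge
import Fermat.Agent.S42x.TwEisAllAbs76
import Fermat.Agent.S42x.TwEisAllTop76
import Fermat.Agent.S42x.CDictEvR29

set_option autoImplicit false

namespace Fermat.Agent.S42x

open UpperHalfPlane ModularCurve AlgebraicCurve CongruenceSubgroup ModularForm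
open Fermat.Agent.S24x Fermat.Agent.S18x Fermat.Agent.S23x
open scoped MatrixGroups

noncomputable section

variable {M : ℕ} [NeZero M]

/-- at a point place the coordinate is finite -/
theorem r5f92_vPt_ord_j_nonneg {jF : ratioField M} (D : cdc_Real (ratioField M) M jF) (τ : ℍ) :
    0 ≤ (cdc_vPt D τ).ord jF := by
  have hmem : jF ∈ (cdc_vPt D τ).toValuationSubring := by
    rw [cdc_mem_vPt_iff, D.map_j]
    exact ordAt_algebraMap_nonneg τ jHol
  have hj : jF ≠ 0 := by
    have := cdc_j_sub_const_ne_zero D 0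
    rwa [map_zero, sub_zero] at this
  exact (pb_mem_iff _ hj).mp hmem

/-- **the `S_p^fin` chain**: from the B3 package and a `p`-th root with multiplier `ψ` of
`D.φ fC`, a point of `JZero M` in relation with `ψ`. -/
theorem r5f92_rel_of_root (p : ℕ) (hp : p.Prime) (h5 : 5 ≤ p)
    (jF : ratioField M) (hjF : (jF : LaurentSeries ℂ) = jqModC ℂ)
    (D : cdc_Real (ratioField M) M jF) (hcoord : IsCoordinate ℂ (ratioField M) jF)
    (hev : inj_EvCompat M D.φ)
    (ψ : Additive (Gamma0 M) →+ Additive ℂˣ)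
    (hψ : ModularCurve.Period.IsParabolicHom (Gamma0 M) ψ)
    (fC : ratioField M) (hfC : fC ≠ 0) (h₁ : Mer) (hroot : h₁ ^ p = D.φ fC)
    (hchar : r5a_HasChar M ψ h₁) :
    ∃ x : JZero M, heq_Rel M p x ψ := by
  have hp0 : 0 < p := hp.pos
  have hp6 : Nat.Coprime p 6 := ddp71_coprime_six hp h5
  have hcov : ∀ (c : ℂ) (τ₀ : ℍ), jFun τ₀ = c → ∀ v : Place ℂ (ratioField M),
      v ∈ placesOver ℂ (ratioField M) jF c → ∃ g : SL(2, ℤ), v = cdc_vPt D (g • τ₀) :=
    fun c τ₀ hτ₀ v hv => cdf_covering_finite D hcoord c τ₀ hτ₀ v hv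
  -- membership in `S_p^fin`
  have hdivfin : ∀ P : Place ℂ (ratioField M), 0 ≤ P.ord jF → (p : ℤ) ∣ P.ord fC :=
    fun P hP => cdcf71_dvd_finite D hcoord hcov hp6 hroot hP
  -- finitely many classes
  obtain ⟨T0, hT0fin, -, hcls⟩ := inj_exists_T0_of_dict M D.φ hev hp0
    {P : Place ℂ (ratioField M) | 0 ≤ P.ord jF} (fun τ => by
      obtain ⟨e, -, he⟩ := cdc_exists_ordAt_eq_mul D τ
      exact ⟨cdc_vPt D τ, (e : ℤ), r5f92_vPt_ord_j_nonneg D τ, fun f _ => he f⟩)
  -- descent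
  have hdesc := dsct57_top_fin' M p hp0 (ratioField M) (cdcb_fullC_eq M).symm jF hjF T0 hT0fin
    (fun f hf hdiv => hcls f hf (fun P hP => hdiv P hP)) fC hfC hdivfin
  -- assembly
  refine r5a_of_descended M p hp0 ψ (ratioField M) D.φ D.map_const
    (fun γ u => cdc_inv' D (γ : SL(2, ℤ)) γ.2 u)
    (fun f₀ y hy => inj_cmp_hcomp M D.φ hev f₀ y hy) h₁ fC hfC hroot hchar hdesc ?_
  intro f₀ hf₀ h hh hch P
  exact dsdq_dvd_ord M hp6 f₀ hf₀ h hh ψ hψ hch P

/-- **the `S_p^fin` chain from a form with character** (`twb76_Form`, B1): `f := (A / E₄) ^ p`. -/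
theorem r5f92_rel_of_form (p : ℕ) (hp : p.Prime) (h5 : 5 ≤ p)
    (jF : ratioField M) (hjF : (jF : LaurentSeries ℂ) = jqModC ℂ)
    (D : cdc_Real (ratioField M) M jF) (hcoord : IsCoordinate ℂ (ratioField M) jF)
    (hev : inj_EvCompat M D.φ)
    (ψ : ↥(Gamma0 M) →* ℂˣ) (hψp : ∀ g : ↥(Gamma0 M), ψ g ^ p = 1)
    (hψ : ModularCurve.Period.IsParabolicHom (Gamma0 M) (MonoidHom.toAdditive ψ))
    (A : ℍ → ℂ) (hA : twb76_Form M ψ A) :
    ∃ x : JZero M, heq_Rel M p x (MonoidHom.toAdditive ψ) := by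
  set fC : ratioField M := ⟨_, twb76_ratio_mem hA p hψp⟩ with hfCdef
  have hfC : fC ≠ 0 := by
    intro h
    exact twb76_ratio_ne_zero hA p hψp (congrArg Subtype.val h)
  have hE : (cdc_E4Hol ^ p : Hol) ≠ 0 := pow_ne_zero p twb76_E4Hol_ne_zero
  have hdoor := hev fC ((p : ℤ) * 4) (hA.hol ^ p) (cdc_E4Hol ^ p)
    (twb76_isMF_pow hA p hψp) (twb76_isMF_E4_pow M p) hE (twb76_ratio_mul (M := M) p A)
  have hroot : twb76_h hA ^ p = D.φ fC := by
    rw [twb76_h_pow, div_eq_iff (twr76_algebraMap_ne_zero hE)]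
    exact hdoor.symm
  exact r5f92_rel_of_root p hp h5 jF hjF D hcoord hev (MonoidHom.toAdditive ψ) hψ fC hfC
    (twb76_h hA) hroot (fun γ => twb76_h_char hA γ)

omit [NeZero M] in
/-- `ψ_χ = exp(2πi χ/p)` is parabolic (additive shape of `heq_Rel`) when `χ` is. -/
theorem r5f92_parabolic (p : ℕ) {χ : Additive (Gamma0 M) →+ ℤ}
    (hχ : ModularCurve.Period.IsParabolicHom (Gamma0 M) χ) :
    ModularCurve.Period.IsParabolicHom (Gamma0 M) (twp_psiAdd p χ) := by
  intro γ hγ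
  rw [twp_psiAdd_apply]
  show Additive.ofMul (twp_psi p χ γ) = 0
  rw [twp_psi_of_trace p hχ γ hγ]
  rfl

/-- **(R5), CLOSED FORM (hypothesis `hR5` of `rlg_iotHyp` for `psiOf χ = twp_psiAdd p χ`)**:
for `p ≥ 5` prime and every parabolic `χ : Γ₀(M) → ℤ` there is a point of `JZero M` in relation
with `ψ_χ = exp(2πi χ / p)`.  Hypothesis-free: B3.1 = helper29's `cde29_realR`, B1 = helper99's
all-cusp series through helper76's `twx76_form`. -/
theorem r5f92_hR5 (M p : ℕ) [NeZero M] (hp : p.Prime) (h5 : 5 ≤ p)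
    (χ : Additive (Gamma0 M) →+ ℤ)
    (hχ : ModularCurve.Period.IsParabolicHom (Gamma0 M) χ) :
    ∃ x : JZero M, heq_Rel M p x (twp_psiAdd p χ) :=
  r5f92_rel_of_form p hp h5 (cde29_jR M) dl_jqModC_eq_jL.symm (cde29_realR M)
    (cde29_isCoordinateR M) (cde29_realR_evCompat M) (twp_psi p χ) (twp_psi_pow p χ)
    (r5f92_parabolic p hχ) (twx76_A p χ) (twx76_form p hχ)

end

end Fermat.Agent.S42x

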