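/-
S42 project, S29 support (helper90, prefix `r5fap90_`): all-`p` twins of helper92's `S_p^fin`
chain `r5f92_rel_of_root / r5f92_rel_of_form / r5f92_hR5` (S42x/R5Fin92).

`p ≥ 5 prime` is replaced by `0 < p` plus triviality of the multiplier `ψ` on the finite-order
elements of `Γ₀(M)` (automatic for `ψ_χ = exp(2πi χ/p)`, `χ` integer valued:
`ell90_psiAdd_finOrder`), using the exact ramification at the elliptic points:
`cdfap90_dvd_ord_fin` over `ℂ` (S42x/CDictFinalAllP90) and `ell90_dvd_ord_of_char` over `Q̄`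
(S42x/EllExactC90).  In particular `r5fap90_hR5` is the closed hypothesis `hR5` of `rlg_iotHyp` for
EVERY `p > 0` (S29 needs `p = 2, 3`).
-/
import Mathlib
import Fermat.Agent.S42x.R5Fin92
import Fermat.Agent.S42x.CDictFinalAllP90

set_option autoImplicit false

namespace Fermat.Agent.S42x

open UpperHalfPlane ModularCurve AlgebraicCurve CongruenceSubgroup ModularForm
open Fermat.Agent.S24x Fermat.Agent.S18x Fermat.Agent.S23x
open scoped MatrixGroups

noncomputable section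

variable {M : ℕ} [NeZero M]

/-- **the `S_p^fin` chain, any `p > 0`**: from the B3 package and a `p`-th root with multiplier
`ψ` (parabolic, trivial on finite-order elements) of `D.φ fC`, a point of `JZero M` in relation
with `ψ`. -/
theorem r5fap90_rel_of_root (p : ℕ) (hp0 : 0 < p)
    (jF : ratioField M) (hjF : (jF : LaurentSeries ℂ) = jqModC ℂ)
    (D : cdc_Real (ratioField M) M jF) (hcoord : IsCoordinate ℂ (ratioField M) jF)
    (hev : inj_EvCompat M D.φ)
    (ψ : Additive (Gamma0 M) →+ Additive ℂˣ)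
    (hψ : ModularCurve.Period.IsParabolicHom (Gamma0 M) ψ)
    (hψfin : ∀ γ : Gamma0 M, IsOfFinOrder γ → ψ (Additive.ofMul γ) = 0)
    (fC : ratioField M) (hfC : fC ≠ 0) (h₁ : Mer) (hroot : h₁ ^ p = D.φ fC)
    (hchar : r5a_HasChar M ψ h₁) :
    ∃ x : JZero M, heq_Rel M p x ψ := by
  have hcov : ∀ (c : ℂ) (τ₀ : ℍ), jFun τ₀ = c → ∀ v : Place ℂ (ratioField M),
      v ∈ placesOver ℂ (ratioField M) jF c → ∃ g : SL(2, ℤ), v = cdc_vPt D (g • τ₀) :=
    fun c τ₀ hτ₀ v hv => cdf_covering_finite D hcoord c τ₀ hτ₀ v hv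
  -- membership in `S_p^fin`
  have hdivfin : ∀ P : Place ℂ (ratioField M), 0 ≤ P.ord jF → (p : ℤ) ∣ P.ord fC :=
    fun P hP => cdfap90_dvd_ord_fin D (inj_cmp_iF M) (inj_cmp_ev_iF M D.φ hev) hcoord hcov hp0
      fC h₁ hroot (ell90_inv_of_char M ψ hψfin h₁ hchar) P hP
  -- finitely many classes
  obtain ⟨T0, hT0fin, -, hcls⟩ := inj_exists_T0_of_dict M D.φ hev hp0
    {P : Place ℂ (ratioField M) | 0 ≤ P.ord jF} (fun τ => by
      obtain ⟨e, -, he⟩ := cdc_exists_ordAt_eq_mul D τ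
      exact ⟨cdc_vPt D τ, (e : ℤ), r5f92_vPt_ord_j_nonneg D τ, fun f _ => he f⟩)
  -- descent
  have hdesc := dsct57_top_fin' M p hp0 (ratioField M) (cdcb_fullC_eq M).symm jF hjF T0 hT0fin
    (fun f hf hdiv => hcls f hf (fun P hP => hdiv P hP)) fC hfC hdivfin
  -- assembly
  refine r5a_of_descended M p hp0 ψ (ratioField M) D.φ D.map_const
    (fun γ u => cdc_inv' D (γ : SL(2, ℤ)) γ.2 u)
    (fun f₀ y hy => inj_cmp_hcomp M D.φ hev f₀ y hy) h₁ fC hfC hroot hchar hdesc ?_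
  intro f₀ hf₀ h hh hch P
  exact ell90_dvd_ord_of_char M hp0 f₀ hf₀ h hh ψ hψ hψfin hch P

/-- **the `S_p^fin` chain from a form with character, any `p > 0`** (`twb76_Form`, B1):
`f := (A / E₄) ^ p`. -/
theorem r5fap90_rel_of_form (p : ℕ) (hp0 : 0 < p)
    (jF : ratioField M) (hjF : (jF : LaurentSeries ℂ) = jqModC ℂ)
    (D : cdc_Real (ratioField M) M jF) (hcoord : IsCoordinate ℂ (ratioField M) jF)
    (hev : inj_EvCompat M D.φ)
    (ψ : ↥(Gamma0 M) →* ℂˣ) (hψp : ∀ g : ↥(Gamma0 M), ψ g ^ p = 1)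
    (hψ : ModularCurve.Period.IsParabolicHom (Gamma0 M) (MonoidHom.toAdditive ψ))
    (hψfin : ∀ γ : Gamma0 M, IsOfFinOrder γ → MonoidHom.toAdditive ψ (Additive.ofMul γ) = 0)
    (A : ℍ → ℂ) (hA : twb76_Form M ψ A) :
    ∃ x : JZero M, heq_Rel M p x (MonoidHom.toAdditive ψ) := by
  set fC : ratioField M := ⟨_, twb76_ratio_mem hA p hψp⟩ with hfCdef
  have hfC : fC ≠ 0 := by
    intro h
    exact twb76_ratio_ne_zero hA p hψp (congrArg Subtype.val h)
  have hE : (cdc_E4Hol ^ p : Hol) ≠ 0 := pow_ne_zero p twb76_E4Hol_ne_zero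
  have hdoor := hev fC ((p : ℤ) * 4) (hA.hol ^ p) (cdc_E4Hol ^ p)
    (twb76_isMF_pow hA p hψp) (twb76_isMF_E4_pow M p) hE (twb76_ratio_mul (M := M) p A)
  have hroot : twb76_h hA ^ p = D.φ fC := by
    rw [twb76_h_pow, div_eq_iff (twr76_algebraMap_ne_zero hE)]
    exact hdoor.symm
  exact r5fap90_rel_of_root p hp0 jF hjF D hcoord hev (MonoidHom.toAdditive ψ) hψ hψfin fC hfC
    (twb76_h hA) hroot (fun γ => twb76_h_char hA γ)

/-- **(R5), CLOSED FORM for EVERY `p > 0`** (hypothesis `hR5` of `rlg_iotHyp` for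
`psiOf χ = twp_psiAdd p χ`): for every parabolic `χ : Γ₀(M) → ℤ` there is a point of `JZero M` in
relation with `ψ_χ = exp(2πi χ / p)`. -/
theorem r5fap90_hR5 (M p : ℕ) [NeZero M] (hp0 : 0 < p)
    (χ : Additive (Gamma0 M) →+ ℤ)
    (hχ : ModularCurve.Period.IsParabolicHom (Gamma0 M) χ) :
    ∃ x : JZero M, heq_Rel M p x (twp_psiAdd p χ) :=
  r5fap90_rel_of_form p hp0 (cde29_jR M) dl_jqModC_eq_jL.symm (cde29_realR M)
    (cde29_isCoordinateR M) (cde29_realR_evCompat M) (twp_psi p χ) (twp_psi_pow p χ)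
    (r5f92_parabolic p hχ) (fun γ hγ => ell90_psiAdd_finOrder p χ γ hγ)
    (twx76_A p χ) (twx76_form p hχ)

end

end Fermat.Agent.S42x
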