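/-
S42 project, block B5 (Hecke equivariance R6), leaf HE4 (helper54), prefix `heq_`.

Divisor side of R6: if `x = [Dt]` with `p • Dt = div f` then `T_ℓ x = [Dt']` with
`p • Dt' = div (N_α (β f))`, where `N_α (β f) = N_{F_{Mℓ}/αF_M} (β f)` is the norm of
`S37x.es3lb_norm_series_bar`.  Also `heq_R6_of`: the statement R6 from the analytic norm formula
(HE2) and the multiplier computation (HE3), taken as hypotheses.
-/
import Mathlib
import Fermat.Agent.S42x.HeckeEqDefs
import Fermat.Agent.S37x.HeckeUnfold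
import Fermat.Agent.S37x.HeckeInputsFinal
import Fermat.Agent.S37x.Es3LiftDiv
import Fermat.Agent.S16x.CohHecke

set_option autoImplicit false
set_option linter.style.haveILetI false

namespace Fermat.Agent.S42x

open UpperHalfPlane ModularCurve AlgebraicCurve CongruenceSubgroup
open Fermat.Agent.S24x Fermat.Agent.S37x Fermat.Agent.S18x Fermat.Agent.S16x
open scoped MatrixGroups Manifold

noncomputable section

/-- the function `N_α (β f)` with `div = T_ℓ (div f)` -/
def heq_Nm (M l : ℕ) [NeZero M] [NeZero l] (f : FBar M) : FBar M :=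
  @Algebra.norm (modularFunctionFieldBar M) (modularFunctionFieldBar (M * l)) _ _
    (algebraAlong (heckeAlphaBar Qbar M l)) (heckeBetaBar Qbar M l f)

theorem heq_Nm_ne_zero (M l : ℕ) [NeZero M] [NeZero l] {f : FBar M} (hf : f ≠ 0) :
    heq_Nm M l f ≠ 0 :=
  es3ld_norm_ne_zero (heckeBetaBar Qbar M l) (heckeAlphaBar Qbar M l)
    (bt37_finiteAlong_alpha M l) hf

/-- **divisor side of R6** -/
theorem heq_hecke_mk (M : ℕ) [NeZero M] (ℓ : Nat.Primes) (p : ℕ) (f : FBar M) (hf : f ≠ 0)
    (Dt : Divisor.degZero (K := Qbar) (F := modularFunctionFieldBar M))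
    (hDt : ∀ P : Place Qbar (modularFunctionFieldBar M),
      (p : ℤ) * (Dt : Divisor Qbar (modularFunctionFieldBar M)) P = P.ord f) :
    haveI := hku_neZero ℓ
    ∃ Dt' : Divisor.degZero (K := Qbar) (F := modularFunctionFieldBar M),
      heckeOperatorBar M ℓ (Pic0.mk Dt) = Pic0.mk Dt' ∧
      ∀ P : Place Qbar (modularFunctionFieldBar M),
        (p : ℤ) * (Dt' : Divisor Qbar (modularFunctionFieldBar M)) P =
          P.ord (heq_Nm M (ℓ : ℕ) f) := by
  haveI := hku_neZero ℓ
  haveI := hki_hasPrincipalDivisors (M * (ℓ : ℕ))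
  refine ⟨Pic0.degZeroCorrespondence (heckeBetaBar Qbar M ℓ) (heckeAlphaBar Qbar M ℓ)
      (bt37_betaIntegral M ℓ) (bt37_alphaIntegral M ℓ) (hki_fundamentalIdentityAlong_beta M ℓ) Dt,
    hku_heckeOperatorBar_mk M ℓ (bt37_alphaIntegral M ℓ) (bt37_betaIntegral M ℓ)
      (hki_hasPrincipalDivisors (M * (ℓ : ℕ))) (hki_fundamentalIdentityAlong_beta M ℓ)
      (bt37_finiteAlong_alpha M ℓ) (hif_normFormulaAlong_alpha M ℓ) Dt, ?_⟩
  intro P
  rw [Pic0.coe_degZeroCorrespondence]
  have hD : ∀ Q : Place Qbar (modularFunctionFieldBar M),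
      ((p : ℤ) • (Dt : Divisor Qbar (modularFunctionFieldBar M))) Q = Q.ord f := by
    intro Q
    rw [Finsupp.smul_apply, smul_eq_mul]
    exact hDt Q
  have h1 := es3ld_hecke_apply M (ℓ : ℕ) hf hD P
  rw [map_zsmul, Finsupp.smul_apply, smul_eq_mul] at h1
  exact h1

end

end Fermat.Agent.S42x
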