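/-
S42 project, block B5 (Hecke equivariance R6), leaf HE4 (helper54), prefix `heq_`.

`heq_R6_of`: the statement R6 (`heq_Rel M p x ψ → heq_Rel M p (T_ℓ x) (cohOpGen M ℓ ψ)`) from
* `hNorm` (leaf HE2, `heqn_evF_norm`): `evF (N_α (β f)) = ∏ A ∈ heckeReps M ℓ, (evF f) ∘ A`;
* `hMult` (leaf HE3, `heqm_multiplier`): the multiplier of `∏ A, h ∘ A` is `cohOpGen M ℓ ψ`.
-/
import Mathlib
import Fermat.Agent.S42x.HeckeEqDiv

set_option autoImplicit false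
set_option linter.style.haveILetI false

namespace Fermat.Agent.S42x

open UpperHalfPlane ModularCurve AlgebraicCurve CongruenceSubgroup
open Fermat.Agent.S24x Fermat.Agent.S37x Fermat.Agent.S18x Fermat.Agent.S16x
open scoped MatrixGroups Manifold

noncomputable section

/-- the multiplier condition `h (γ z) = ψ(γ) h(z)` on `Γ₀(M)` (last clause of `heq_Rel`) -/
def heq_HasMult (M : ℕ) (ψ : Additive (Gamma0 M) →+ Additive ℂˣ) (h : Mer) : Prop :=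
  ∀ γ : Gamma0 M, ((γ : SL(2, ℤ))⁻¹ • h : Mer) =
    algebraMap ℂ Mer (((ψ (Additive.ofMul γ)).toMul : ℂˣ) : ℂ) * h

/-- **R6 from the analytic norm formula and the multiplier computation.** -/
theorem heq_R6_of (M p : ℕ) [NeZero M] (ℓ : Nat.Primes)
    (hNorm : haveI := hku_neZero ℓ; ∀ f : FBar M,
      evF M (heq_Nm M (ℓ : ℕ) f) = ∏ A ∈ heckeReps M (ℓ : ℕ), heq_comp A (evF M f))
    (hMult : ∀ (ψ : Additive (Gamma0 M) →+ Additive ℂˣ) (h : Mer), heq_HasMult M ψ h →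
      heq_HasMult M (cohOpGen M ℓ ψ) (∏ A ∈ heckeReps M (ℓ : ℕ), heq_comp A h))
    (x : JZero M) (ψ : Additive (Gamma0 M) →+ Additive ℂˣ) (hR : heq_Rel M p x ψ) :
    heq_Rel M p (heckeOperatorBar M ℓ x) (cohOpGen M ℓ ψ) := by
  haveI := hku_neZero ℓ
  obtain ⟨f, Dt, h, hf, hx, hDt, hroot, hmult⟩ := hR
  obtain ⟨Dt', hT, hDt'⟩ := heq_hecke_mk M ℓ p f hf Dt hDt
  refine ⟨heq_Nm M (ℓ : ℕ) f, Dt', ∏ A ∈ heckeReps M (ℓ : ℕ), heq_comp A h,
    heq_Nm_ne_zero M (ℓ : ℕ) hf, ?_, hDt', ?_, hMult ψ h hmult⟩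
  · rw [← hx, hT]
  · rw [hNorm f, ← Finset.prod_pow]
    refine Finset.prod_congr rfl fun A _ => ?_
    rw [← map_pow, hroot]

end

end Fermat.Agent.S42x
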