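/-
S42 project, block B5 (Hecke equivariance R6), leaf MULT / HE3 (helper1), prefix `heqm_`.

Multiplier bookkeeping (the Betti half of `R6`), on top of `HeckeEqDefs` (`heq_comp`):

* `heqm_HasChar M ψ h` : `h ∈ Mer` has character `ψ` on `Γ₀(M)`, i.e. `h(γ z) = ψ(γ) h(z)`
  (verbatim the last clause of `heq_Rel`); `heqm_hasChar_iff` (the `heq_comp` form);
* closure: `heqm_hasChar_one`, `heqm_hasChar_const`, `heqm_hasChar_mul`, `heqm_hasChar_inv`,
  `heqm_hasChar_div`, `heqm_hasChar_pow`, `heqm_hasChar_prod`, `heqm_hasChar_zero_iff`;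
* `heqm_multiplier_datum` : for ANY `CohDatum` `D` on `Γ₀(M)` with positive determinants, if `h`
  has character `ψ` then `∏ i, heq_comp (D.A i) h` has character `D.op ψ`;
* `heqm_multiplier` : `H = ∏ A ∈ heckeReps M ℓ, heq_comp A h` has character `cohOpGen M ℓ ψ`;
  `heqm_prod_pow` : `H ^ p = ∏ A ∈ heckeReps M ℓ, heq_comp A (h ^ p)`;
* `heqm_rel_step` : packaging into `heq_Rel` (the glue for the top theorem `R6`): from
  `h ^ p = evF f`, `h` of character `ψ`, and `evF f' = ∏ A, heq_comp A (evF f)` with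
  `p • Dt' = div f'`, get `heq_Rel M p (Pic0.mk Dt') (cohOpGen M ℓ ψ)`.
-/
import Fermat.Agent.S42x.HeckeEqDefs
import Fermat.Agent.S16x.CohHecke

set_option autoImplicit false

namespace Fermat.Agent.S42x

open UpperHalfPlane ModularCurve AlgebraicCurve CongruenceSubgroup
open Fermat.Agent.S24x Fermat.Agent.S16x
open scoped MatrixGroups

noncomputable section

/-- `h ∈ Mer` has character `ψ` on `Γ₀(M)`: `h (γ z) = ψ(γ) h(z)` (S24x action
`(γ • f)(τ) = f(γ⁻¹ τ)`).  This is verbatim the last clause of `heq_Rel`. -/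
def heqm_HasChar (M : ℕ) (ψ : Additive (Gamma0 M) →+ Additive ℂˣ) (h : Mer) : Prop :=
  ∀ γ : Gamma0 M, ((γ : SL(2, ℤ))⁻¹ • h : Mer) =
    algebraMap ℂ Mer (((ψ (Additive.ofMul γ)).toMul : ℂˣ) : ℂ) * h

variable {M : ℕ}

/-- the `heq_comp` form of `heqm_HasChar` -/
theorem heqm_hasChar_iff (ψ : Additive (Gamma0 M) →+ Additive ℂˣ) (h : Mer) :
    heqm_HasChar M ψ h ↔ ∀ γ : Gamma0 M, heq_comp (cohMat γ) h =
      algebraMap ℂ Mer (((ψ (Additive.ofMul γ)).toMul : ℂˣ) : ℂ) * h := by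
  refine forall_congr' fun γ => ?_
  have : heq_comp (cohMat γ) h = ((γ : SL(2, ℤ))⁻¹ • h : Mer) := heq_comp_SL (γ : SL(2, ℤ)) h
  rw [this]

theorem heqm_hasChar_const (c : ℂ) : heqm_HasChar M 0 (algebraMap ℂ Mer c) := by
  rw [heqm_hasChar_iff]
  intro γ
  rw [heq_comp_const]
  simp

theorem heqm_hasChar_one : heqm_HasChar M 0 (1 : Mer) := by
  have := heqm_hasChar_const (M := M) 1
  rwa [map_one] at this

theorem heqm_hasChar_mul {ψ ψ' : Additive (Gamma0 M) →+ Additive ℂˣ} {h h' : Mer}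
    (hh : heqm_HasChar M ψ h) (hh' : heqm_HasChar M ψ' h') :
    heqm_HasChar M (ψ + ψ') (h * h') := by
  intro γ
  rw [smul_mul', hh γ, hh' γ, AddMonoidHom.add_apply, toMul_add, Units.val_mul, map_mul]
  ring

theorem heqm_hasChar_inv {ψ : Additive (Gamma0 M) →+ Additive ℂˣ} {h : Mer}
    (hh : heqm_HasChar M ψ h) : heqm_HasChar M (-ψ) h⁻¹ := by
  intro γ
  rw [smul_inv'', hh γ, AddMonoidHom.neg_apply, toMul_neg, Units.val_inv_eq_inv_val, map_inv₀,
    mul_inv]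

theorem heqm_hasChar_div {ψ ψ' : Additive (Gamma0 M) →+ Additive ℂˣ} {h h' : Mer}
    (hh : heqm_HasChar M ψ h) (hh' : heqm_HasChar M ψ' h') :
    heqm_HasChar M (ψ - ψ') (h / h') := by
  have e : ψ - ψ' = ψ + -ψ' := sub_eq_add_neg ψ ψ'
  rw [e, div_eq_mul_inv]
  exact heqm_hasChar_mul hh (heqm_hasChar_inv hh')

theorem heqm_hasChar_pow {ψ : Additive (Gamma0 M) →+ Additive ℂˣ} {h : Mer}
    (hh : heqm_HasChar M ψ h) (n : ℕ) : heqm_HasChar M (n • ψ) (h ^ n) := by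
  induction n with
  | zero =>
    have e : (0 : ℕ) • ψ = 0 := zero_nsmul ψ
    rw [e, pow_zero]
    exact heqm_hasChar_one
  | succ n ih =>
    have e : (n + 1) • ψ = n • ψ + ψ := succ_nsmul ψ n
    rw [e, pow_succ]
    exact heqm_hasChar_mul ih hh

theorem heqm_hasChar_prod {ι : Type*} (s : Finset ι)
    (ψ : ι → (Additive (Gamma0 M) →+ Additive ℂˣ)) (h : ι → Mer)
    (hh : ∀ i ∈ s, heqm_HasChar M (ψ i) (h i)) :
    heqm_HasChar M (∑ i ∈ s, ψ i) (∏ i ∈ s, h i) := by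
  classical
  induction s using Finset.induction_on with
  | empty =>
    rw [Finset.sum_empty, Finset.prod_empty]
    exact heqm_hasChar_one
  | insert a s ha ih =>
    rw [Finset.sum_insert ha, Finset.prod_insert ha]
    exact heqm_hasChar_mul (hh a (Finset.mem_insert_self a s))
      (ih fun i hi => hh i (Finset.mem_insert_of_mem hi))

/-- trivial character = `Γ₀(M)`-invariance -/
theorem heqm_hasChar_zero_iff (h : Mer) :
    heqm_HasChar M 0 h ↔ ∀ γ : Gamma0 M, ((γ : SL(2, ℤ)) • h : Mer) = h := by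
  constructor
  · intro hh γ
    have := hh γ⁻¹
    simpa using this
  · intro hh γ
    have := hh γ⁻¹
    simpa using this

/-- a character only depends on `ψ` as a function -/
theorem heqm_hasChar_congr {ψ ψ' : Additive (Gamma0 M) →+ Additive ℂˣ} (hψ : ψ = ψ') {h : Mer}
    (hh : heqm_HasChar M ψ h) : heqm_HasChar M ψ' h := hψ ▸ hh

/-! ### the multiplier of `∏ h ∘ A` -/

/-- **Multiplier bookkeeping, abstract form**: for a Hecke datum `D` on `Γ₀(M)` with positive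
determinants, if `h` has character `ψ` then `∏ i, h ∘ A i` has character `D.op ψ`. -/
theorem heqm_multiplier_datum {I : Type} [Fintype I] (D : CohDatum (Gamma0 M) I)
    (hdet : ∀ i, 0 < (D.A i).det) (ψ : Additive (Gamma0 M) →+ Additive ℂˣ) (h : Mer)
    (hh : heqm_HasChar M ψ h) :
    heqm_HasChar M (D.op ψ) (∏ i, heq_comp (D.A i) h) := by
  rw [heqm_hasChar_iff] at hh ⊢
  intro g
  have hg : 0 < (cohMat g).det := heq_SL_det_pos (g : SL(2, ℤ))
  have h1 : ∀ i, heq_comp (cohMat g) (heq_comp (D.A i) h) =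
      algebraMap ℂ Mer (((ψ (Additive.ofMul (D.elt g i))).toMul : ℂˣ) : ℂ) *
        heq_comp (D.A (D.idx g i)) h := by
    intro i
    have he : 0 < (cohMat (D.elt g i)).det := heq_SL_det_pos ((D.elt g i : Gamma0 M) : SL(2, ℤ))
    rw [heq_comp_comp _ _ (hdet i) hg, ← D.elt_spec g i, ← heq_comp_comp _ _ he (hdet _), hh,
      map_mul, heq_comp_const]
  rw [map_prod, Finset.prod_congr rfl (fun i _ => h1 i), Finset.prod_mul_distrib, D.op_apply,
    toMul_sum, Units.coe_prod, map_prod]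
  congr 1
  exact Equiv.prod_comp (D.perm g) (fun i => heq_comp (D.A i) h)

theorem heqm_heckeReps_det_pos (ℓ : Nat.Primes) (A : Matrix (Fin 2) (Fin 2) ℤ)
    (hA : A ∈ heckeReps M (ℓ : ℕ)) : 0 < A.det := by
  have : NeZero (ℓ : ℕ) := ⟨ℓ.2.ne_zero⟩
  have hℓ : (0 : ℤ) < ((ℓ : ℕ) : ℤ) := by exact_mod_cast ℓ.2.pos
  rcases coh_mem_heckeReps.mp hA with ⟨j, rfl⟩ | ⟨-, rfl⟩
  · rw [cohMatFin_det]; exact hℓ
  · rw [cohMatInf_det]; exact hℓ

theorem heqm_heckeReps_det (ℓ : Nat.Primes) (A : Matrix (Fin 2) (Fin 2) ℤ)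
    (hA : A ∈ heckeReps M (ℓ : ℕ)) : A.det = ((ℓ : ℕ) : ℤ) := by
  have : NeZero (ℓ : ℕ) := ⟨ℓ.2.ne_zero⟩
  rcases coh_mem_heckeReps.mp hA with ⟨j, rfl⟩ | ⟨-, rfl⟩
  · rw [cohMatFin_det]
  · rw [cohMatInf_det]

/-- **Multiplier bookkeeping (Betti half of `R6`)**: if `h` has character `ψ` on `Γ₀(M)` then
`H = ∏_{A ∈ heckeReps M ℓ} h ∘ A` has character `cohOpGen M ℓ ψ`. -/
theorem heqm_multiplier (M : ℕ) [NeZero M] (ℓ : Nat.Primes)
    (ψ : Additive (Gamma0 M) →+ Additive ℂˣ) (h : Mer) (hh : heqm_HasChar M ψ h) :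
    heqm_HasChar M (cohOpGen M ℓ ψ) (∏ A ∈ heckeReps M (ℓ : ℕ), heq_comp A h) := by
  have key := heqm_multiplier_datum (cohDatumGen M ℓ)
    (fun A => heqm_heckeReps_det_pos ℓ A.1 A.2) ψ h hh
  have e : (∏ A : ↥(heckeReps M (ℓ : ℕ)), heq_comp ((cohDatumGen M ℓ).A A) h) =
      ∏ A ∈ heckeReps M (ℓ : ℕ), heq_comp A h :=
    Finset.prod_coe_sort (heckeReps M (ℓ : ℕ)) (fun A => heq_comp A h)
  rw [e] at key
  exact key

/-- `H ^ p = ∏ (h ^ p) ∘ A` -/
theorem heqm_prod_pow (M : ℕ) (ℓ : ℕ) (h : Mer) (p : ℕ) :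
    (∏ A ∈ heckeReps M ℓ, heq_comp A h) ^ p = ∏ A ∈ heckeReps M ℓ, heq_comp A (h ^ p) := by
  rw [← Finset.prod_pow]
  exact Finset.prod_congr rfl fun A _ => (map_pow _ _ _).symm

/-- the multiplier clause of `heq_Rel`, for `H = ∏ h ∘ A` -/
theorem heqm_multiplier' (M : ℕ) [NeZero M] (ℓ : Nat.Primes)
    (ψ : Additive (Gamma0 M) →+ Additive ℂˣ) (h : Mer)
    (hh : ∀ γ : Gamma0 M, ((γ : SL(2, ℤ))⁻¹ • h : Mer) =
      algebraMap ℂ Mer (((ψ (Additive.ofMul γ)).toMul : ℂˣ) : ℂ) * h) (γ : Gamma0 M) :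
    ((γ : SL(2, ℤ))⁻¹ • (∏ A ∈ heckeReps M (ℓ : ℕ), heq_comp A h) : Mer) =
      algebraMap ℂ Mer (((cohOpGen M ℓ ψ (Additive.ofMul γ)).toMul : ℂˣ) : ℂ) *
        ∏ A ∈ heckeReps M (ℓ : ℕ), heq_comp A h :=
  heqm_multiplier M ℓ ψ h hh γ

/-- **Glue for `R6`**: if `h ^ p = evF f` with `h` of character `ψ`, and `f'` (in practice
`N_α(β f)`) satisfies `evF f' = ∏ A ∈ heckeReps M ℓ, heq_comp A (evF f)` and `p • Dt' = div f'`,
then `heq_Rel M p (Pic0.mk Dt') (cohOpGen M ℓ ψ)`. -/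
theorem heqm_rel_step (M p : ℕ) [NeZero M] (ℓ : Nat.Primes)
    (ψ : Additive (Gamma0 M) →+ Additive ℂˣ) (f f' : FBar M)
    (Dt' : Divisor.degZero (K := Qbar) (F := modularFunctionFieldBar M)) (h : Mer)
    (hf' : f' ≠ 0)
    (hdiv : ∀ P : Place Qbar (modularFunctionFieldBar M),
      (p : ℤ) * (Dt' : Divisor Qbar (modularFunctionFieldBar M)) P = P.ord f')
    (hroot : h ^ p = evF M f)
    (hnorm : evF M f' = ∏ A ∈ heckeReps M (ℓ : ℕ), heq_comp A (evF M f))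
    (hh : ∀ γ : Gamma0 M, ((γ : SL(2, ℤ))⁻¹ • h : Mer) =
      algebraMap ℂ Mer (((ψ (Additive.ofMul γ)).toMul : ℂˣ) : ℂ) * h) :
    heq_Rel M p (Pic0.mk Dt') (cohOpGen M ℓ ψ) :=
  ⟨f', Dt', ∏ A ∈ heckeReps M (ℓ : ℕ), heq_comp A h, hf', rfl, hdiv,
    by rw [heqm_prod_pow, hroot, hnorm], heqm_multiplier' M ℓ ψ h hh⟩

/-- `heq_Rel` unfolded through `heqm_HasChar` -/
theorem heqm_rel_iff (M p : ℕ) [NeZero M] (x : JZero M)
    (ψ : Additive (Gamma0 M) →+ Additive ℂˣ) :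
    heq_Rel M p x ψ ↔
      ∃ (f : FBar M) (Dt : Divisor.degZero (K := Qbar) (F := modularFunctionFieldBar M))
        (h : Mer), f ≠ 0 ∧ Pic0.mk Dt = x ∧
        (∀ P : Place Qbar (modularFunctionFieldBar M),
          (p : ℤ) * (Dt : Divisor Qbar (modularFunctionFieldBar M)) P = P.ord f) ∧
        h ^ p = evF M f ∧ heqm_HasChar M ψ h :=
  Iff.rfl

end

end Fermat.Agent.S42x
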