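/-
S42 project, block B5 (Hecke equivariance R6), helper54, prefix `heqk_`.

Coordinates of the Hecke representatives `cohMatInf l = [[l,0],[0,1]]` (`τ ↦ lτ`) and
`cohMatFin l b = [[1,b],[0,l]]` (`τ ↦ (τ+b)/l`) acting on `ℍ` through `heq_glOf`, and the values of
`qOf` there: `qOf (lτ) = qOf τ ^ l`, `qOf ((τ+b)/l) = t ζ^b` with `t = e^{2πiτ/l}`, `ζ = e^{2πi/l}`.
-/
import Mathlib
import Fermat.Agent.S42x.HeckeEqDefs
import Fermat.Agent.S16x.CohGamma0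

set_option autoImplicit false

namespace Fermat.Agent.S42x

open UpperHalfPlane Complex
open Fermat.Agent.S24x Fermat.Agent.S16x
open scoped MatrixGroups Real

noncomputable section

variable (l : ℕ) [NeZero l]

theorem heqk_natCast_pos : (0 : ℤ) < (l : ℤ) := by
  exact_mod_cast Nat.pos_of_ne_zero (NeZero.ne l)

theorem heqk_cohMatInf_det_pos : 0 < (cohMatInf l).det := by
  rw [cohMatInf_det]; exact heqk_natCast_pos l

theorem heqk_cohMatFin_det_pos (b : ZMod l) : 0 < (cohMatFin l b).det := by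
  rw [cohMatFin_det]; exact heqk_natCast_pos l

theorem heqk_inf_coe (τ : ℍ) :
    ((heq_glOf (cohMatInf l) (heqk_cohMatInf_det_pos l) • τ : ℍ) : ℂ) = (l : ℂ) * τ := by
  rw [heq_glOf_smul_coe]
  simp [cohMatInf]

theorem heqk_fin_coe (b : ZMod l) (τ : ℍ) :
    ((heq_glOf (cohMatFin l b) (heqk_cohMatFin_det_pos l b) • τ : ℍ) : ℂ) =
      ((τ : ℂ) + (b.val : ℂ)) / (l : ℂ) := by
  rw [heq_glOf_smul_coe]
  simp [cohMatFin]

/-- `t = e^{2πiτ/l}` -/
def heqk_t (τ : ℍ) : ℂ := Complex.exp (2 * π * Complex.I * (τ : ℂ) / (l : ℂ))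

/-- `ζ = e^{2πi/l}` -/
def heqk_zeta : ℂ := Complex.exp (2 * π * Complex.I / (l : ℂ))

theorem heqk_zeta_isPrimitiveRoot : IsPrimitiveRoot (heqk_zeta l) l :=
  Complex.isPrimitiveRoot_exp l (NeZero.ne l)

theorem heqk_qOf_eq (τ : ℍ) : qOf τ = Complex.exp (2 * π * Complex.I * (τ : ℂ)) := by
  unfold qOf Function.Periodic.qParam
  congr 1
  simp

theorem heqk_t_pow (τ : ℍ) : heqk_t l τ ^ l = qOf τ := by
  have hl : (l : ℂ) ≠ 0 := by exact_mod_cast NeZero.ne l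
  rw [heqk_t, ← Complex.exp_nat_mul, heqk_qOf_eq]
  congr 1
  field_simp

theorem heqk_t_ne_zero (τ : ℍ) : heqk_t l τ ≠ 0 := Complex.exp_ne_zero _

theorem heqk_norm_t_lt_one (τ : ℍ) : ‖heqk_t l τ‖ < 1 := by
  have h1 : ‖heqk_t l τ‖ ^ l < 1 := by
    rw [← norm_pow, heqk_t_pow]
    exact norm_qOf_lt_one τ
  exact (pow_lt_one_iff_of_nonneg (norm_nonneg _) (NeZero.ne l)).mp h1

theorem heqk_qOf_inf (τ : ℍ) :
    qOf (heq_glOf (cohMatInf l) (heqk_cohMatInf_det_pos l) • τ) = qOf τ ^ l := by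
  rw [heqk_qOf_eq, heqk_inf_coe, heqk_qOf_eq, ← Complex.exp_nat_mul]
  congr 1
  ring

theorem heqk_qOf_fin (b : ZMod l) (τ : ℍ) :
    qOf (heq_glOf (cohMatFin l b) (heqk_cohMatFin_det_pos l b) • τ) =
      heqk_t l τ * heqk_zeta l ^ b.val := by
  have hl : (l : ℂ) ≠ 0 := by exact_mod_cast NeZero.ne l
  rw [heqk_qOf_eq, heqk_fin_coe, heqk_t, heqk_zeta, ← Complex.exp_nat_mul, ← Complex.exp_add]
  congr 1
  field_simp

end

end Fermat.Agent.S42x
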