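/-
S42 project, block B5 (Hecke equivariance R6), leaf HE2c (twin by helper54), prefix `heqf54_`.

Function-level norm formula: for `a ∈ Q̄((q))` convergent (through `iotaQ`) and `l ≥ 1`,
the series `a(q^l) · det (mp_mat l a)` (the `q`-expansion of `N_α(β a)`,
`S37x.es3lb_norm_series_bar`) converges and its value at `τ` is
`a(lτ) · ∏_{b mod l} a((τ+b)/l)`, in the coordinates `heq_glOf (cohMatInf l)`,
`heq_glOf (cohMatFin l b)`.
-/
import Mathlib
import Fermat.Agent.S42x.HeckeEqCoords
import Fermat.Agent.S42x.HeckeEqDetEval54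
import Fermat.Agent.S24x.Realize
import Fermat.Agent.S37x.KraGauss
import Fermat.Prelude.Thm_ModularCurve_coeffMap_qExpand

set_option autoImplicit false

namespace Fermat.Agent.S42x

open UpperHalfPlane HahnSeries ModularCurve
open Fermat.Agent.S24x Fermat.Agent.S16x Fermat.Agent.S28x Fermat.Agent.S37x
open scoped MatrixGroups

noncomputable section

variable (l : ℕ) [NeZero l]

theorem heqf54_iotaL_qExpand (a : LaurentSeries Qbar) :
    iotaL (qExpand Qbar l a) = qExpand ℂ l (iotaL a) :=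
  coeffMap_qExpand iotaQ l a

theorem heqf54_iotaL_det (a : LaurentSeries Qbar) :
    iotaL (mp_mat l a).det = (mp_mat l (iotaL a)).det :=
  (kra_det_coeffMap l iotaQ a).symm

/-- `ZMod l ≃ Fin l`, `b ↦ b.val` -/
def heqf54_equiv : ZMod l ≃ Fin l where
  toFun b := ⟨b.val, ZMod.val_lt b⟩
  invFun i := (i.val : ZMod l)
  left_inv b := ZMod.natCast_zmod_val b
  right_inv i := Fin.ext (ZMod.val_cast_of_lt i.2)

/-- the series `a(q^l) · det (mp_mat l a)` converges -/
theorem heqf54_lconv {a : LaurentSeries Qbar} (ha : LConv (iotaL a)) :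
    LConv (iotaL (qExpand Qbar l a * (mp_mat l a).det)) := by
  rw [map_mul, heqf54_iotaL_qExpand, heqf54_iotaL_det]
  exact (ha.qExpand l).mul (heqd54_lconv_det l ha)

/-- **function-level norm formula** -/
theorem heqf54_lEval {a : LaurentSeries Qbar} (ha : LConv (iotaL a)) (τ : ℍ) :
    lEval (iotaL (qExpand Qbar l a * (mp_mat l a).det)) (qOf τ) =
      lEval (iotaL a) (qOf (heq_glOf (cohMatInf l) (heqk_cohMatInf_det_pos l) • τ)) *
        ∏ b : ZMod l,
          lEval (iotaL a) (qOf (heq_glOf (cohMatFin l b) (heqk_cohMatFin_det_pos l b) • τ)) := by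
  rw [map_mul, heqf54_iotaL_qExpand, heqf54_iotaL_det,
    lEval_mul (ha.qExpand l) (heqd54_lconv_det l ha) (qOf_ne_zero τ) (norm_qOf_lt_one τ),
    lEval_qExpand, heqk_qOf_inf]
  congr 1
  rw [← heqk_t_pow l τ, heqd54_lEval_det l ha (heqk_t_ne_zero l τ) (heqk_norm_t_lt_one l τ)
    (heqk_zeta_isPrimitiveRoot l)]
  refine (Fintype.prod_equiv (heqf54_equiv l) _ _ fun b => ?_).symm
  rw [heqk_qOf_fin]
  rfl

end

end Fermat.Agent.S42x
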