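/-
S42 project, block B5 (Hecke equivariance R6), leaves HE2a + HE2 final (twin by helper54),
prefix `heqn54_`.

**The analytic norm formula**: for `l` prime, `l ∤ M`, `f ∈ F_M = FBar M`:
`evF M (N_α (β f)) = ∏ A ∈ heckeReps M l, (evF M f) ∘ A` in `Mer`.
-/
import Mathlib
import Fermat.Agent.S42x.HeckeEqNormFun54
import Fermat.Agent.S42x.HeckeEqDiv
import Fermat.Agent.S37x.Es3LiftsBar

set_option autoImplicit false
set_option linter.style.haveILetI false

namespace Fermat.Agent.S42x

open UpperHalfPlane HahnSeries ModularCurve AlgebraicCurve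
open Fermat.Agent.S24x Fermat.Agent.S16x Fermat.Agent.S28x Fermat.Agent.S37x Fermat.Agent.S18x
open scoped MatrixGroups

noncomputable section

/-! ### reindexing the Hecke representatives -/

theorem heqn54_prod_heckeReps {α : Type*} [CommMonoid α] (M l : ℕ) [NeZero l] (hl : 2 ≤ l)
    (hlM : ¬ l ∣ M) (F : Matrix (Fin 2) (Fin 2) ℤ → α) :
    ∏ A ∈ heckeReps M l, F A = F (cohMatInf l) * ∏ b : ZMod l, F (cohMatFin l b) := by
  unfold heckeReps
  rw [if_neg hlM, Finset.prod_union, Finset.prod_singleton, mul_comm, Finset.prod_image]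
  · congr 1
    rw [Finset.prod_range]
    exact (Fintype.prod_equiv (heqf54_equiv l) _ _ (fun b => rfl)).symm
  · intro i _ j _ hij
    have h := congrFun (congrFun hij 0) 1
    simpa using h
  · rw [Finset.disjoint_singleton_right, Finset.mem_image]
    rintro ⟨j, _, hj⟩
    have h := congrFun (congrFun hj 0) 0
    simp only [Matrix.of_apply, Matrix.cons_val', Matrix.cons_val_zero] at h
    have : (l : ℤ) = 1 := h.symm
    have : l = 1 := by exact_mod_cast this
    omega

/-- evaluation at a point as a ring homomorphism on `Hol` -/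
def heqn54_evalAt (τ : ℍ) : Hol →+* ℂ := (Pi.evalRingHom (fun _ : ℍ => ℂ) τ).comp Hol.subtype

theorem heqn54_evalAt_apply (τ : ℍ) (g : Hol) : heqn54_evalAt τ g = (g : ℍ → ℂ) τ := rfl

/-! ### `evF` of a convergent element -/

/-- **evF_of_conv**: an element of `F_N` whose `q`-expansion converges on the punctured disc is
realised by its evaluation. -/
theorem heqn54_evF_of_conv (N : ℕ) (x : FBar N)
    (hx : LConv (iotaL (x : LaurentSeries Qbar))) :
    evF N x = algebraMap Hol Mer ⟨fun τ => lEval (iotaL (x : LaurentSeries Qbar)) (qOf τ),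
      hx.mdifferentiable⟩ := by
  obtain ⟨⟨r, s⟩, hrs⟩ := IsLocalization.surj (nonZeroDivisors (ringR0 N)) x
  have hs0 : (s : ringR0 N) ≠ 0 := nonZeroDivisors.ne_zero s.2
  -- the identity in `Q̄((q))`
  have hser : (x : LaurentSeries Qbar) * ((s : ringR0 N) : LaurentSeries Qbar) =
      (r : LaurentSeries Qbar) := by
    have := congrArg (fun y : FBar N => (y : LaurentSeries Qbar)) hrs
    exact this
  set X : convBar := ⟨(x : LaurentSeries Qbar), hx⟩ with hX
  have hconv : X * (Subalgebra.inclusion (ringR0_le_convBar N) (s : ringR0 N)) =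
      Subalgebra.inclusion (ringR0_le_convBar N) r := Subtype.ext hser
  have hHol : evBar X * evR0 N (s : ringR0 N) = evR0 N r := by
    have := congrArg evBar hconv
    rw [map_mul] at this
    exact this
  have hMer1 : algebraMap Hol Mer (evBar X) * algebraMap Hol Mer (evR0 N (s : ringR0 N)) =
      algebraMap Hol Mer (evR0 N r) := by
    rw [← map_mul, hHol]
  have hMer2 : evF N x * algebraMap Hol Mer (evR0 N (s : ringR0 N)) =
      algebraMap Hol Mer (evR0 N r) := by
    have := congrArg (evF N) hrs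
    rw [map_mul, evF_algebraMap_R0, evF_algebraMap_R0] at this
    exact this
  have hne : algebraMap Hol Mer (evR0 N (s : ringR0 N)) ≠ 0 := by
    intro h
    apply hs0
    exact (evR0_mer_injective N) (by rw [RingHom.comp_apply, h, map_zero])
  have : evF N x = algebraMap Hol Mer (evBar X) :=
    mul_right_cancel₀ hne (hMer2.trans hMer1.symm)
  rw [this]
  rfl

/-! ### the norm formula on `R₀` -/

section R0

variable (M l : ℕ) [NeZero M] [NeZero l]

/-- the right-hand side: `Φ f = ∏ A ∈ heckeReps M l, (evF M f) ∘ A` -/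
def heqn54_Phi (f : FBar M) : Mer := ∏ A ∈ heckeReps M l, heq_comp A (evF M f)

theorem heqn54_Phi_mul (f g : FBar M) :
    heqn54_Phi M l (f * g) = heqn54_Phi M l f * heqn54_Phi M l g := by
  unfold heqn54_Phi
  rw [← Finset.prod_mul_distrib]
  refine Finset.prod_congr rfl fun A _ => ?_
  rw [map_mul, map_mul]

theorem heq_Nm_mul (f g : FBar M) : heq_Nm M l (f * g) = heq_Nm M l f * heq_Nm M l g := by
  unfold heq_Nm
  rw [map_mul]
  letI := algebraAlong (heckeAlphaBar Qbar M l)
  exact map_mul (Algebra.norm (modularFunctionFieldBar M)) _ _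

/-- the norm formula for `a ∈ R₀` -/
theorem heqn54_norm_R0 [Fact l.Prime] (hlM : ¬ l ∣ M) (a : ringR0 M) :
    evF M (heq_Nm M l (algebraMap (ringR0 M) (FBar M) a)) =
      heqn54_Phi M l (algebraMap (ringR0 M) (FBar M) a) := by
  have hl2 : 2 ≤ l := (Fact.out : l.Prime).two_le
  have ha : LConv (iotaL ((a : ringR0 M) : LaurentSeries Qbar)) := ringR0_le_convBar M a.2
  -- the series of the norm
  have hser : ((heq_Nm M l (algebraMap (ringR0 M) (FBar M) a) : FBar M) : LaurentSeries Qbar) =
      qExpand Qbar l (a : LaurentSeries Qbar) * (mp_mat l (a : LaurentSeries Qbar)).det :=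
    es3lb_norm_series_bar M l hlM (algebraMap (ringR0 M) (FBar M) a)
  have hconv : LConv (iotaL ((heq_Nm M l (algebraMap (ringR0 M) (FBar M) a) : FBar M) :
      LaurentSeries Qbar)) := by
    rw [hser]; exact heqf54_lconv l ha
  rw [heqn54_evF_of_conv M _ hconv, heqn54_Phi, heqn54_prod_heckeReps M l hl2 hlM,
    evF_algebraMap_R0, heq_comp_algebraMap _ (heqk_cohMatInf_det_pos l)]
  simp_rw [heq_comp_algebraMap _ (heqk_cohMatFin_det_pos l _)]
  rw [← map_prod, ← map_mul]
  congr 1
  apply Subtype.ext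
  funext τ
  show lEval (iotaL ((heq_Nm M l (algebraMap (ringR0 M) (FBar M) a) : FBar M) :
      LaurentSeries Qbar)) (qOf τ) = _
  rw [hser, heqf54_lEval l ha τ]
  rw [← heqn54_evalAt_apply, map_mul, map_prod]
  simp only [heqn54_evalAt_apply, heq_compHol_apply, evR0_apply]

end R0

/-! ### the norm formula on `F_M` -/

/-- **HE2: the analytic norm formula.** -/
theorem heqn54_evF_norm (M l : ℕ) [NeZero M] [NeZero l] [Fact l.Prime] (hlM : ¬ l ∣ M)
    (f : FBar M) :
    evF M (heq_Nm M l f) = ∏ A ∈ heckeReps M l, heq_comp A (evF M f) := by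
  show _ = heqn54_Phi M l f
  obtain ⟨⟨r, s⟩, hrs⟩ := IsLocalization.surj (nonZeroDivisors (ringR0 M)) f
  have hs0 : (s : ringR0 M) ≠ 0 := nonZeroDivisors.ne_zero s.2
  have hs0' : algebraMap (ringR0 M) (FBar M) (s : ringR0 M) ≠ 0 := by
    intro h
    exact hs0 ((IsFractionRing.injective (ringR0 M) (FBar M)) (by rw [h, map_zero]))
  have h1 : evF M (heq_Nm M l f) * evF M (heq_Nm M l (algebraMap (ringR0 M) (FBar M) s)) =
      evF M (heq_Nm M l (algebraMap (ringR0 M) (FBar M) r)) := by
    rw [← map_mul, ← heq_Nm_mul]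
    exact congrArg (fun y => evF M (heq_Nm M l y)) hrs
  have h2 : heqn54_Phi M l f * heqn54_Phi M l (algebraMap (ringR0 M) (FBar M) s) =
      heqn54_Phi M l (algebraMap (ringR0 M) (FBar M) r) := by
    rw [← heqn54_Phi_mul]
    exact congrArg (heqn54_Phi M l) hrs
  rw [heqn54_norm_R0 M l hlM r, ← h2, heqn54_norm_R0 M l hlM s] at h1
  have hne : heqn54_Phi M l (algebraMap (ringR0 M) (FBar M) s) ≠ 0 := by
    rw [← heqn54_norm_R0 M l hlM s]
    intro h
    exact heq_Nm_ne_zero M l hs0' ((evF M).injective (by rw [h, map_zero]))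
  exact mul_right_cancel₀ hne h1

end

end Fermat.Agent.S42x
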