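/-
S42 project, block B5 (Hecke equivariance R6), TOP (helper54), prefix `heq_`.

**R6**: for a prime `ℓ ∤ M`, `heq_Rel M p x ψ → heq_Rel M p (T_ℓ x) (cohOpGen M ℓ ψ)`, where
`T_ℓ = heckeOperatorBar M ℓ` is the Prelude Hecke operator on `J₀(M) = JZero M` and
`cohOpGen M ℓ` is the cohomological (Betti) Hecke operator of S16x on `Hom(Γ₀(M), ℂˣ)`.

Assembly of `heq_R6_of` (HeckeEqGlue), `heqn54_evF_norm` (HE2, HeckeEqNormAn54) and
`heqm_multiplier` (HE3, helper1, HeckeEqMult).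
-/
import Mathlib
import Fermat.Agent.S42x.HeckeEqGlue
import Fermat.Agent.S42x.HeckeEqNormAn54
import Fermat.Agent.S42x.HeckeEqMult

set_option autoImplicit false
set_option linter.style.haveILetI false

namespace Fermat.Agent.S42x

open UpperHalfPlane ModularCurve AlgebraicCurve CongruenceSubgroup
open Fermat.Agent.S24x Fermat.Agent.S37x Fermat.Agent.S18x Fermat.Agent.S16x
open scoped MatrixGroups Manifold

noncomputable section

/-- **R6: Hecke equivariance of the relation `R`.** -/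
theorem heq_R6 (M p : ℕ) [NeZero M] (ℓ : Nat.Primes) (hℓM : ¬ (ℓ : ℕ) ∣ M) (x : JZero M)
    (ψ : Additive (Gamma0 M) →+ Additive ℂˣ) (hR : heq_Rel M p x ψ) :
    heq_Rel M p (heckeOperatorBar M ℓ x) (cohOpGen M ℓ ψ) := by
  haveI := hku_neZero ℓ
  haveI : Fact (ℓ : ℕ).Prime := ⟨ℓ.2⟩
  exact heq_R6_of M p ℓ (fun f => heqn54_evF_norm M (ℓ : ℕ) hℓM f)
    (fun ψ' h hh => heqm_multiplier M ℓ ψ' h hh) x ψ hR

/-- R6 for an integer-valued homomorphism `χ` and a character `e : ℤ →+ Additive ℂˣ`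
(e.g. `n ↦ ζ_p^n`): the multiplier `e ∘ χ` goes to `e ∘ (T^B_ℓ χ)`. -/
theorem heq_R6_comp (M p : ℕ) [NeZero M] (ℓ : Nat.Primes) (hℓM : ¬ (ℓ : ℕ) ∣ M) (x : JZero M)
    {B : Type*} [AddCommGroup B] (e : B →+ Additive ℂˣ) (χ : Additive (Gamma0 M) →+ B)
    (hR : heq_Rel M p x (e.comp χ)) :
    heq_Rel M p (heckeOperatorBar M ℓ x) (e.comp (cohOpGen M ℓ χ)) := by
  rw [cohOpGen_comp]
  exact heq_R6 M p ℓ hℓM x (e.comp χ) hR

end

end Fermat.Agent.S42x
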