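/-
S42 (route `ROUTE_S42_helper55` + `S42_LEAD_NOTES` N1), leaf IOTA-ABS (helper47), prefix `iot_`.  Mathlib only.

ABSTRACT construction of the comparison map `ι : L → J` from a RELATION.

`J` (think `JZero M`) and `L` (think `Hom_par(Γ₀(M), ℤ)`) are additive commutative groups, `R : J → L → Prop`
(think: `R D χ` iff there are `f ∈ F₀ˣ`, `D̃` of class `D` with `div f = p • D̃` and a `p`-th root `h` of `ev f`
on the upper half plane with `h ∘ γ = ψ_χ(γ) h`), `triv : L → Prop` (think: `ψ_χ = 1`, i.e. `χ ∈ pL`).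

From
* (R2)  `R 0 0`, `R D χ → R D' χ' → R (D + D') (χ + χ')`, `R D χ → R (-D) (-χ)`,
* (R3)  `R D χ → triv χ → D = 0`,
* (R4') `R 0 χ → triv χ`,
* (R5)  `∀ χ, ∃ D, R D χ`,
* (Rp)  `R D χ → p • D = 0`,
we get an additive map `ι : L →+ J` with `R (ι χ) χ`, uniqueness, `p • ι χ = 0`, `ι χ = 0 ↔ triv χ`
(`iot_exists_addHom`, `iot_iota` and its API), equivariance for any pair of additive operators compatible with
`R` (`iot_iota_comm`: (R6) Hecke, Galois), and the induced injective maps on the quotient `L ⧸ ker` and after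
tensoring with a field `K` over `ZMod p` (`iot_tensor_injective`) together with eigenvector transport
(`iot_exists_eigenvector`).
-/
import Mathlib

set_option autoImplicit false

namespace Fermat.Agent.S42x

open TensorProduct

section Core

variable {J L : Type*} [AddCommGroup J] [AddCommGroup L]

/-- the hypotheses (R2), (R3), (R4'), (R5), (Rp) on a relation `R` -/
structure iot_Hyp (R : J → L → Prop) (triv : L → Prop) (p : ℕ) : Prop where
  zero : R 0 0
  add : ∀ D D' χ χ', R D χ → R D' χ' → R (D + D') (χ + χ')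
  neg : ∀ D χ, R D χ → R (-D) (-χ)
  inj : ∀ D χ, R D χ → triv χ → D = 0
  triv_of_zero : ∀ χ, R 0 χ → triv χ
  ex : ∀ χ, ∃ D, R D χ
  tors : ∀ D χ, R D χ → p • D = 0

variable {R : J → L → Prop} {triv : L → Prop} {p : ℕ}

theorem iot_Hyp.triv_zero (H : iot_Hyp R triv p) : triv 0 := H.triv_of_zero 0 H.zero

/-- `R` is single valued in the first argument -/
theorem iot_Hyp.unique (H : iot_Hyp R triv p) {D D' : J} {χ : L} (h : R D χ) (h' : R D' χ) :
    D = D' := by
  have h1 : R (D + -D') (χ + -χ) := H.add _ _ _ _ h (H.neg _ _ h')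
  rw [add_neg_cancel] at h1
  have h2 := H.inj _ _ h1 H.triv_zero
  rwa [← sub_eq_add_neg, sub_eq_zero] at h2

/-- the comparison map as a function -/
noncomputable def iot_fun (H : iot_Hyp R triv p) (χ : L) : J := (H.ex χ).choose

theorem iot_fun_spec (H : iot_Hyp R triv p) (χ : L) : R (iot_fun H χ) χ := (H.ex χ).choose_spec

theorem iot_fun_eq (H : iot_Hyp R triv p) {D : J} {χ : L} (h : R D χ) : D = iot_fun H χ :=
  H.unique h (iot_fun_spec H χ)

/-- **the comparison map** `ι : L →+ J` -/
noncomputable def iot_iota (H : iot_Hyp R triv p) : L →+ J where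
  toFun := iot_fun H
  map_zero' := (iot_fun_eq H H.zero).symm
  map_add' χ χ' := (iot_fun_eq H (H.add _ _ _ _ (iot_fun_spec H χ) (iot_fun_spec H χ'))).symm

theorem iot_iota_spec (H : iot_Hyp R triv p) (χ : L) : R (iot_iota H χ) χ := iot_fun_spec H χ

theorem iot_iota_eq (H : iot_Hyp R triv p) {D : J} {χ : L} (h : R D χ) : D = iot_iota H χ :=
  iot_fun_eq H h

theorem iot_iota_tors (H : iot_Hyp R triv p) (χ : L) : p • iot_iota H χ = 0 :=
  H.tors _ _ (iot_iota_spec H χ)

theorem iot_iota_eq_zero_iff (H : iot_Hyp R triv p) (χ : L) : iot_iota H χ = 0 ↔ triv χ := by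
  constructor
  · intro h
    have := iot_iota_spec H χ
    rw [h] at this
    exact H.triv_of_zero χ this
  · intro h
    exact H.inj _ _ (iot_iota_spec H χ) h

theorem iot_mem_ker_iff (H : iot_Hyp R triv p) (χ : L) : χ ∈ (iot_iota H).ker ↔ triv χ := by
  rw [AddMonoidHom.mem_ker]
  exact iot_iota_eq_zero_iff H χ

/-- existence statement (no reference to the choice) -/
theorem iot_exists_addHom (H : iot_Hyp R triv p) :
    ∃ ι : L →+ J, (∀ χ, R (ι χ) χ) ∧ (∀ D χ, R D χ → D = ι χ) ∧ (∀ χ, p • ι χ = 0) ∧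
      ∀ χ, ι χ = 0 ↔ triv χ :=
  ⟨iot_iota H, iot_iota_spec H, fun _ _ h => iot_iota_eq H h, iot_iota_tors H,
    iot_iota_eq_zero_iff H⟩

/-- **(R6) equivariance**: operators compatible with the relation commute with `ι`
(plain functions: covers Hecke operators and Galois/semilinear actions alike). -/
theorem iot_iota_comm (H : iot_Hyp R triv p) (T : J → J) (TB : L → L)
    (h6 : ∀ D χ, R D χ → R (T D) (TB χ)) (χ : L) : iot_iota H (TB χ) = T (iot_iota H χ) :=
  (iot_iota_eq H (h6 _ _ (iot_iota_spec H χ))).symm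

/-- two compatible pairs: the operators commute on the image of `ι` as soon as they commute on `L` -/
theorem iot_comm_on_range (H : iot_Hyp R triv p) (T T' : J → J) (TB TB' : L → L)
    (h6 : ∀ D χ, R D χ → R (T D) (TB χ)) (h6' : ∀ D χ, R D χ → R (T' D) (TB' χ))
    (hB : ∀ χ, TB (TB' χ) = TB' (TB χ)) (χ : L) :
    T (T' (iot_iota H χ)) = T' (T (iot_iota H χ)) := by
  rw [← iot_iota_comm H T' TB' h6', ← iot_iota_comm H T TB h6, hB,
    iot_iota_comm H T' TB' h6', iot_iota_comm H T TB h6]

/-- `p L ⊆ ker ι` -/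
theorem iot_nsmul_mem_ker (H : iot_Hyp R triv p) (χ : L) : iot_iota H (p • χ) = 0 := by
  rw [map_nsmul]
  exact iot_iota_tors H χ

/-- the image of `ι` lies in the `p`-torsion -/
theorem iot_range_le_torsion (H : iot_Hyp R triv p) :
    (iot_iota H).range ≤ (nsmulAddMonoidHom p : J →+ J).ker := by
  rintro _ ⟨χ, rfl⟩
  rw [AddMonoidHom.mem_ker]
  exact iot_iota_tors H χ

end Core

section Linear

/-!
### The `ZMod p`-linear form and tensoring with a field `K` over `ZMod p`

Here `J[p]` and `L / pL` are presented as `ZMod p`-modules `Jp`, `Lp` (the consumer chooses the presentations,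
e.g. `Jp := torsionBy`, `Lp := L ⧸ p L` or `Hom_par(Γ, ZMod p)`), and `ι` is given as an INJECTIVE additive map
`Lp →+ Jp`.  It is automatically `ZMod p`-linear, and stays injective after `⊗ K`.
-/

variable {p : ℕ} [Fact p.Prime] {Jp Lp : Type*} [AddCommGroup Jp] [AddCommGroup Lp]
  [Module (ZMod p) Jp] [Module (ZMod p) Lp]

/-- an additive map between `ZMod p`-modules is `ZMod p`-linear -/
noncomputable def iot_linear (ι : Lp →+ Jp) : Lp →ₗ[ZMod p] Jp := ι.toZModLinearMap p

theorem iot_linear_apply (ι : Lp →+ Jp) (x : Lp) : iot_linear (p := p) ι x = ι x := rfl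

variable (K : Type*) [Field K] [Algebra (ZMod p) K]

/-- `ι ⊗ K : K ⊗ Lp → K ⊗ Jp` -/
noncomputable def iot_tensor (ι : Lp →+ Jp) : K ⊗[ZMod p] Lp →ₗ[K] K ⊗[ZMod p] Jp :=
  LinearMap.baseChange K (iot_linear (p := p) ι)

theorem iot_tensor_tmul (ι : Lp →+ Jp) (a : K) (x : Lp) :
    iot_tensor K ι (a ⊗ₜ[ZMod p] x) = a ⊗ₜ[ZMod p] ι x := by
  rw [iot_tensor, LinearMap.baseChange_tmul, iot_linear_apply]

/-- **injectivity is preserved by `⊗ K`** (everything is flat over the field `ZMod p`) -/
theorem iot_tensor_injective (ι : Lp →+ Jp) (hι : Function.Injective ι) :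
    Function.Injective (iot_tensor (p := p) K ι) := by
  have h1 : Function.Injective (iot_linear (p := p) ι) := hι
  have h2 := Module.Flat.lTensor_preserves_injective_linearMap (M := K) (iot_linear (p := p) ι) h1
  intro x y hxy
  apply h2
  have e : ∀ z, (LinearMap.lTensor K (iot_linear (p := p) ι)) z = iot_tensor K ι z := by
    intro z
    induction z using TensorProduct.induction_on with
    | zero => simp
    | tmul a b => rw [LinearMap.lTensor_tmul, iot_tensor_tmul, iot_linear_apply]
    | add a b ha hb => rw [map_add, map_add, ha, hb]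
  rw [e, e, hxy]

/-- `ι ⊗ K` intertwines `TB ⊗ K` and `T ⊗ K` when `ι` intertwines `TB` and `T` -/
theorem iot_tensor_comm (ι : Lp →+ Jp) (T : Jp →ₗ[ZMod p] Jp) (TB : Lp →ₗ[ZMod p] Lp)
    (h : ∀ x, ι (TB x) = T (ι x)) (v : K ⊗[ZMod p] Lp) :
    iot_tensor K ι (LinearMap.baseChange K TB v) = LinearMap.baseChange K T (iot_tensor K ι v) := by
  induction v using TensorProduct.induction_on with
  | zero => simp
  | tmul a b =>
    rw [LinearMap.baseChange_tmul, iot_tensor_tmul, iot_tensor_tmul, LinearMap.baseChange_tmul, h]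
  | add a b ha hb => rw [map_add, map_add, map_add, map_add, ha, hb]

/-- **eigenvector transport**: a nonzero simultaneous eigenvector of the `TB i ⊗ K` in `K ⊗ Lp` gives a
nonzero simultaneous eigenvector of the `T i ⊗ K` in `K ⊗ Jp` with the same eigenvalues. -/
theorem iot_exists_eigenvector {I : Type*} (ι : Lp →+ Jp) (hι : Function.Injective ι)
    (T : I → Jp →ₗ[ZMod p] Jp) (TB : I → Lp →ₗ[ZMod p] Lp)
    (h : ∀ i x, ι (TB i x) = T i (ι x)) (a : I → K)
    (v : K ⊗[ZMod p] Lp) (hv : v ≠ 0)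
    (hev : ∀ i, LinearMap.baseChange K (TB i) v = a i • v) :
    ∃ w : K ⊗[ZMod p] Jp, w ≠ 0 ∧ ∀ i, LinearMap.baseChange K (T i) w = a i • w := by
  refine ⟨iot_tensor K ι v, ?_, fun i => ?_⟩
  · intro h0
    apply hv
    apply iot_tensor_injective (p := p) K ι hι
    rw [h0, map_zero]
  · rw [← iot_tensor_comm K ι (T i) (TB i) (h i), hev i, map_smul]

end Linear

end Fermat.Agent.S42x
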