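/-
S42 project, glue leaf REL-GROUP (helper47), prefix `rlg_`.

Group laws of the relation `heq_Rel M p x ψ` (helper54, S42x/HeckeEqDefs; `S42_LEAD_NOTES` N1):
* `rlg_rel_zero`  : `heq_Rel M p 0 0`                      (`f = 1`, `Dt = 0`, `h = 1`),
* `rlg_rel_add`   : `heq_Rel x ψ → heq_Rel x' ψ' → heq_Rel (x + x') (ψ + ψ')`   (multiply),
* `rlg_rel_neg`   : `heq_Rel x ψ → heq_Rel (-x) (-ψ)`       (invert),
* `rlg_rel_tors`  : `heq_Rel x ψ → p • x = 0`               (`p • Dt = div f` is principal),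
and the ASSEMBLY `rlg_iotHyp`: for an additive `psiOf : L →+ (Additive Γ₀(M) →+ Additive ℂˣ)` and the three
block outputs (R3), (R4'), (R5) stated on `heq_Rel`, the hypotheses `iot_Hyp` of S42x/IotaAbs hold, so
`rlg_iota : L →+ JZero M` exists with kernel `{χ | psiOf χ = 0}`, image in the `p`-torsion and (R6)-transport
(`rlg_iota_comm`).
-/
import Mathlib
import Fermat.Agent.S42x.HeckeEqDefs
import Fermat.Agent.S42x.IotaAbs

set_option autoImplicit false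

namespace Fermat.Agent.S42x

open UpperHalfPlane ModularCurve AlgebraicCurve CongruenceSubgroup
open Fermat.Agent.S24x
open scoped MatrixGroups

noncomputable section

variable (M p : ℕ) [NeZero M]

/-- (R2, zero) -/
theorem rlg_rel_zero : heq_Rel M p (0 : JZero M) 0 := by
  refine ⟨1, 0, 1, one_ne_zero, rfl, fun P => ?_, ?_, fun γ => ?_⟩
  · rw [Place.ord_one]
    simp
  · rw [one_pow, map_one]
  · rw [smul_one]
    simp

/-- (R2, addition) -/
theorem rlg_rel_add {x x' : JZero M} {ψ ψ' : Additive (Gamma0 M) →+ Additive ℂˣ}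
    (hx : heq_Rel M p x ψ) (hx' : heq_Rel M p x' ψ') : heq_Rel M p (x + x') (ψ + ψ') := by
  obtain ⟨f, Dt, h, hf, hDt, hdiv, hpow, hchar⟩ := hx
  obtain ⟨f', Dt', h', hf', hDt', hdiv', hpow', hchar'⟩ := hx'
  refine ⟨f * f', Dt + Dt', h * h', mul_ne_zero hf hf', ?_, fun P => ?_, ?_, fun γ => ?_⟩
  · rw [Pic0.mk_add, hDt, hDt']
  · rw [P.ord_mul hf hf', ← hdiv P, ← hdiv' P, AddSubgroup.coe_add, Finsupp.add_apply, mul_add]
  · rw [mul_pow, hpow, hpow', map_mul]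
  · rw [smul_mul', hchar γ, hchar' γ, AddMonoidHom.add_apply, toMul_add, Units.val_mul, map_mul]
    ring

/-- (R2, negation) -/
theorem rlg_rel_neg {x : JZero M} {ψ : Additive (Gamma0 M) →+ Additive ℂˣ}
    (hx : heq_Rel M p x ψ) : heq_Rel M p (-x) (-ψ) := by
  obtain ⟨f, Dt, h, hf, hDt, hdiv, hpow, hchar⟩ := hx
  refine ⟨f⁻¹, -Dt, h⁻¹, inv_ne_zero hf, ?_, fun P => ?_, ?_, fun γ => ?_⟩
  · rw [← hDt]
    rfl
  · rw [P.ord_inv, ← hdiv P, AddSubgroup.coe_neg, Finsupp.neg_apply, mul_neg]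
  · rw [inv_pow, hpow, map_inv₀]
  · rw [smul_inv'', hchar γ, AddMonoidHom.neg_apply, toMul_neg, Units.val_inv_eq_inv_val,
      map_inv₀, mul_inv]

/-- (Rp) the class is killed by `p` -/
theorem rlg_rel_tors {x : JZero M} {ψ : Additive (Gamma0 M) →+ Additive ℂˣ}
    (hx : heq_Rel M p x ψ) : p • x = 0 := by
  obtain ⟨f, Dt, h, hf, hDt, hdiv, -, -⟩ := hx
  rw [← hDt]
  have h1 : p • Pic0.mk Dt = Pic0.mk (p • Dt) := rfl
  rw [h1]
  refine (QuotientAddGroup.eq_zero_iff _).mpr ?_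
  rw [AddSubgroup.mem_addSubgroupOf, Divisor.mem_principal]
  refine ⟨f, hf, fun P => ?_⟩
  rw [← hdiv P, AddSubgroup.coe_nsmul, Finsupp.smul_apply, nsmul_eq_mul]

/-! ### Assembly into `iot_Hyp` -/

variable {M p}
variable {L : Type*} [AddCommGroup L]

/-- the `iot_Hyp` package for `R x χ := heq_Rel M p x (psiOf χ)`, `triv χ := psiOf χ = 0`. -/
theorem rlg_iotHyp (psiOf : L →+ (Additive (Gamma0 M) →+ Additive ℂˣ))
    (hR3 : ∀ (x : JZero M) (χ : L), heq_Rel M p x (psiOf χ) → psiOf χ = 0 → x = 0)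
    (hR4 : ∀ χ : L, heq_Rel M p (0 : JZero M) (psiOf χ) → psiOf χ = 0)
    (hR5 : ∀ χ : L, ∃ x : JZero M, heq_Rel M p x (psiOf χ)) :
    iot_Hyp (fun (x : JZero M) (χ : L) => heq_Rel M p x (psiOf χ)) (fun χ => psiOf χ = 0) p where
  zero := by
    show heq_Rel M p 0 (psiOf 0)
    rw [map_zero]
    exact rlg_rel_zero M p
  add := by
    intro D D' χ χ' h h'
    show heq_Rel M p (D + D') (psiOf (χ + χ'))
    rw [map_add]
    exact rlg_rel_add M p h h'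
  neg := by
    intro D χ h
    show heq_Rel M p (-D) (psiOf (-χ))
    rw [map_neg]
    exact rlg_rel_neg M p h
  inj := hR3
  triv_of_zero := hR4
  ex := hR5
  tors := fun _ _ h => rlg_rel_tors M p h

/-- **the comparison map** `ι : L →+ JZero M` -/
def rlg_iota (psiOf : L →+ (Additive (Gamma0 M) →+ Additive ℂˣ))
    (hR3 : ∀ (x : JZero M) (χ : L), heq_Rel M p x (psiOf χ) → psiOf χ = 0 → x = 0)
    (hR4 : ∀ χ : L, heq_Rel M p (0 : JZero M) (psiOf χ) → psiOf χ = 0)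
    (hR5 : ∀ χ : L, ∃ x : JZero M, heq_Rel M p x (psiOf χ)) : L →+ JZero M :=
  iot_iota (rlg_iotHyp psiOf hR3 hR4 hR5)

section API

variable (psiOf : L →+ (Additive (Gamma0 M) →+ Additive ℂˣ))
  (hR3 : ∀ (x : JZero M) (χ : L), heq_Rel M p x (psiOf χ) → psiOf χ = 0 → x = 0)
  (hR4 : ∀ χ : L, heq_Rel M p (0 : JZero M) (psiOf χ) → psiOf χ = 0)
  (hR5 : ∀ χ : L, ∃ x : JZero M, heq_Rel M p x (psiOf χ))

theorem rlg_iota_spec (χ : L) : heq_Rel M p (rlg_iota psiOf hR3 hR4 hR5 χ) (psiOf χ) :=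
  iot_iota_spec (rlg_iotHyp psiOf hR3 hR4 hR5) χ

theorem rlg_iota_eq {x : JZero M} {χ : L} (h : heq_Rel M p x (psiOf χ)) :
    x = rlg_iota psiOf hR3 hR4 hR5 χ :=
  iot_iota_eq (rlg_iotHyp psiOf hR3 hR4 hR5) h

theorem rlg_iota_tors (χ : L) : p • rlg_iota psiOf hR3 hR4 hR5 χ = 0 :=
  iot_iota_tors (rlg_iotHyp psiOf hR3 hR4 hR5) χ

theorem rlg_iota_mem_torsion (χ : L) :
    rlg_iota psiOf hR3 hR4 hR5 χ ∈ Pic0.torsion Qbar (modularFunctionFieldBar M) p := by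
  rw [Pic0.mem_torsion, natCast_zsmul]
  exact rlg_iota_tors psiOf hR3 hR4 hR5 χ

theorem rlg_iota_eq_zero_iff (χ : L) : rlg_iota psiOf hR3 hR4 hR5 χ = 0 ↔ psiOf χ = 0 :=
  iot_iota_eq_zero_iff (rlg_iotHyp psiOf hR3 hR4 hR5) χ

/-- **(R6) transport**: operators compatible with `heq_Rel` commute with `ι`. -/
theorem rlg_iota_comm (T : JZero M → JZero M) (TB : L → L)
    (h6 : ∀ (x : JZero M) (χ : L), heq_Rel M p x (psiOf χ) → heq_Rel M p (T x) (psiOf (TB χ)))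
    (χ : L) : rlg_iota psiOf hR3 hR4 hR5 (TB χ) = T (rlg_iota psiOf hR3 hR4 hR5 χ) :=
  iot_iota_comm (rlg_iotHyp psiOf hR3 hR4 hR5) T TB h6 χ

end API

end

end Fermat.Agent.S42x
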