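/-
S42 project, block B4 (injectivity + finiteness), leaf L2 (helper50), prefix `inj_`
(all names here are `inj_char_*` / `inj_HasMult*` / `inj_const*`).

The character (multiplier) of a `p`-th root.

* `inj_const_of_pow_eq_one` : in a field `𝕄 ⊇ ℂ`, `x ^ p = 1` forces `x` to be a constant `p`-th
  root of unity (`X ^ p - 1` splits over `ℂ`);
* generic layer (`G` a group acting on a field `𝕄 ⊇ ℂ` by ring automorphisms fixing the constants,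
  `H ≤ G`): `inj_HasMult H h χ` (`g • h = χ(g) h` for `g ∈ H`), existence of `χ : H →* μ_p(ℂ)` from
  `(g • h) ^ p = h ^ p`, uniqueness, multiplicativity in `h`, `χ = 1 ↔ h` invariant, constants;
* instance `𝕄 = S24x.Mer`, `G = SL(2,ℤ)`, `H = Γ₀(M)`: `inj_char_exists` and the OFFICIAL shape of
  `S42x/HeckeEqDefs` (`ψ : Additive Γ₀(M) →+ Additive ℂˣ`, `γ⁻¹ • h = ψ(γ) h`, i.e.
  `h(γ z) = ψ(γ) h(z)`): `inj_char_exists_additive`, `inj_char_additive_unique`,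
  `inj_char_additive_eq_zero_iff`.

Finiteness of `Γ₀(M) →* μ_p` is `S42x/HomFinite` (helper30, `hmf_*`).
-/
import Mathlib
import Fermat.Agent.S24x.Defs

set_option autoImplicit false

namespace Fermat.Agent.S42x

open Fermat.Agent.S24x CongruenceSubgroup Polynomial
open scoped MatrixGroups

/-! ### `p`-th roots of unity in a field containing `ℂ` are constants -/

theorem inj_const_of_pow_eq_one {𝕄 : Type*} [Field 𝕄] [Algebra ℂ 𝕄] {p : ℕ} (hp : p ≠ 0)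
    {x : 𝕄} (hx : x ^ p = 1) : ∃ ζ : ℂ, ζ ^ p = 1 ∧ x = algebraMap ℂ 𝕄 ζ := by
  classical
  have hprim := Complex.isPrimitiveRoot_exp p hp
  have hfac := X_pow_sub_one_eq_prod (Nat.pos_of_ne_zero hp) hprim
  have h1 : aeval x (X ^ p - 1 : ℂ[X]) = 0 := by
    rw [map_sub, map_pow, aeval_X, map_one, hx, sub_self]
  rw [hfac, map_prod] at h1
  obtain ⟨ζ, hζ, h0⟩ := Finset.prod_eq_zero_iff.mp h1
  refine ⟨ζ, ?_, ?_⟩
  · exact ((mem_nthRootsFinset (Nat.pos_of_ne_zero hp) (1 : ℂ)).mp hζ)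
  · rw [map_sub, aeval_X, aeval_C] at h0
    exact sub_eq_zero.mp h0

/-! ### generic layer -/

section Generic

variable {G 𝕄 : Type*} [Group G] [Field 𝕄] [Algebra ℂ 𝕄] [MulSemiringAction G 𝕄]

/-- `h` transforms under `H` by the multiplier `χ`: `g • h = χ(g) h` for `g ∈ H`. -/
def inj_HasMult (H : Subgroup G) (h : 𝕄) (χ : H →* ℂˣ) : Prop :=
  ∀ g : H, (g : G) • h = algebraMap ℂ 𝕄 ((χ g : ℂˣ) : ℂ) * h

theorem inj_HasMult_unique {H : Subgroup G} {h : 𝕄} (h0 : h ≠ 0) {χ χ' : H →* ℂˣ}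
    (hχ : inj_HasMult H h χ) (hχ' : inj_HasMult H h χ') : χ = χ' := by
  ext g
  have e := (hχ g).symm.trans (hχ' g)
  exact (algebraMap ℂ 𝕄).injective (mul_right_cancel₀ h0 e)

variable (hconst : ∀ (g : G) (c : ℂ), g • algebraMap ℂ 𝕄 c = algebraMap ℂ 𝕄 c)

theorem inj_HasMult_mul {H : Subgroup G} {h₁ h₂ : 𝕄} {χ₁ χ₂ : H →* ℂˣ}
    (h1 : inj_HasMult H h₁ χ₁) (h2 : inj_HasMult H h₂ χ₂) :
    inj_HasMult H (h₁ * h₂) (χ₁ * χ₂) := by
  intro g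
  rw [smul_mul', h1 g, h2 g, MonoidHom.mul_apply, Units.val_mul, map_mul]
  ring

theorem inj_HasMult_inv {H : Subgroup G} {h : 𝕄} {χ : H →* ℂˣ}
    (h1 : inj_HasMult H h χ) : inj_HasMult H h⁻¹ χ⁻¹ := by
  intro g
  rw [smul_inv'', h1 g, MonoidHom.inv_apply, Units.val_inv_eq_inv_val, map_inv₀, mul_inv]

include hconst in
theorem inj_HasMult_const_mul {H : Subgroup G} {h : 𝕄} {χ : H →* ℂˣ} (c : ℂ)
    (h1 : inj_HasMult H h χ) : inj_HasMult H (algebraMap ℂ 𝕄 c * h) χ := by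
  intro g
  rw [smul_mul', hconst, h1 g]
  ring

theorem inj_HasMult_pow {H : Subgroup G} {h : 𝕄} {χ : H →* ℂˣ} (n : ℕ)
    (h1 : inj_HasMult H h χ) : inj_HasMult H (h ^ n) (χ ^ n) := by
  intro g
  rw [smul_pow', h1 g, MonoidHom.pow_apply, Units.val_pow_eq_pow_val, map_pow, mul_pow]

/-- `χ = 1` iff `h` is `H`-invariant. -/
theorem inj_HasMult_one_iff {H : Subgroup G} {h : 𝕄} :
    inj_HasMult H h 1 ↔ ∀ g : H, (g : G) • h = h := by
  constructor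
  · intro h1 g
    have := h1 g
    rwa [MonoidHom.one_apply, Units.val_one, map_one, one_mul] at this
  · intro h1 g
    rw [h1 g, MonoidHom.one_apply, Units.val_one, map_one, one_mul]

theorem inj_HasMult_eq_one_of_invariant {H : Subgroup G} {h : 𝕄} (h0 : h ≠ 0) {χ : H →* ℂˣ}
    (hχ : inj_HasMult H h χ) (hinv : ∀ g : H, (g : G) • h = h) : χ = 1 :=
  inj_HasMult_unique h0 hχ (inj_HasMult_one_iff.mpr hinv)

theorem inj_HasMult_invariant_of_eq_one {H : Subgroup G} {h : 𝕄} {χ : H →* ℂˣ}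
    (hχ : inj_HasMult H h χ) (h1 : χ = 1) : ∀ g : H, (g : G) • h = h :=
  inj_HasMult_one_iff.mp (h1 ▸ hχ)

/-- if `h` has multiplier `χ` and `χ ^ p = 1` then `h ^ p` is invariant -/
theorem inj_HasMult_pow_invariant {H : Subgroup G} {h : 𝕄} {χ : H →* ℂˣ} {p : ℕ}
    (hχ : inj_HasMult H h χ) (hp : ∀ g : H, χ g ^ p = 1) : ∀ g : H, (g : G) • h ^ p = h ^ p := by
  intro g
  have := inj_HasMult_pow p hχ g
  rw [MonoidHom.pow_apply, hp g, Units.val_one, map_one, one_mul] at this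
  exact this

include hconst in
/-- **Existence of the multiplier**: if `h ≠ 0` and `(g • h) ^ p = h ^ p` for all `g ∈ H`
(i.e. `h ^ p` is `H`-invariant), then `h` transforms by a character `χ : H →* μ_p(ℂ)`. -/
theorem inj_HasMult_exists {H : Subgroup G} {p : ℕ} (hp : p ≠ 0) {h : 𝕄} (h0 : h ≠ 0)
    (hpow : ∀ g : H, ((g : G) • h) ^ p = h ^ p) :
    ∃ χ : H →* ℂˣ, inj_HasMult H h χ ∧ ∀ g : H, χ g ^ p = 1 := by
  classical
  -- the constants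
  have hex : ∀ g : H, ∃ ζ : ℂ, ζ ^ p = 1 ∧ (g : G) • h = algebraMap ℂ 𝕄 ζ * h := by
    intro g
    have hx : (((g : G) • h) / h) ^ p = 1 := by
      rw [div_pow, hpow g, div_self (pow_ne_zero p h0)]
    obtain ⟨ζ, hζ, hx2⟩ := inj_const_of_pow_eq_one hp hx
    refine ⟨ζ, hζ, ?_⟩
    rw [← hx2, div_mul_cancel₀ _ h0]
  choose c hc1 hc2 using hex
  have hcne : ∀ g : H, c g ≠ 0 := fun g hg => by
    have := hc1 g
    rw [hg, zero_pow hp] at this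
    exact zero_ne_one this
  have hinj : Function.Injective (algebraMap ℂ 𝕄) := (algebraMap ℂ 𝕄).injective
  have hone : c 1 = 1 := by
    have := hc2 1
    rw [Subgroup.coe_one, one_smul] at this
    have e : algebraMap ℂ 𝕄 1 * h = algebraMap ℂ 𝕄 (c 1) * h := by rw [map_one, one_mul]; exact this
    exact (hinj (mul_right_cancel₀ h0 e)).symm
  have hmul : ∀ g g' : H, c (g * g') = c g * c g' := by
    intro g g'
    have e1 := hc2 (g * g')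
    rw [Subgroup.coe_mul, mul_smul, hc2 g', smul_mul', hconst, hc2 g] at e1
    have e : algebraMap ℂ 𝕄 (c g * c g') * h = algebraMap ℂ 𝕄 (c (g * g')) * h := by
      rw [map_mul, ← e1]; ring
    exact (hinj (mul_right_cancel₀ h0 e)).symm
  let χ : H →* ℂˣ :=
    { toFun := fun g => Units.mk0 (c g) (hcne g)
      map_one' := by ext; simpa using hone
      map_mul' := fun g g' => by ext; simpa using hmul g g' }
  refine ⟨χ, fun g => ?_, fun g => ?_⟩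
  · exact hc2 g
  · ext
    simpa [χ] using hc1 g

include hconst in
/-- `rootsOfUnity`-valued version. -/
theorem inj_HasMult_exists_rootsOfUnity {H : Subgroup G} {p : ℕ} [NeZero p] {h : 𝕄} (h0 : h ≠ 0)
    (hpow : ∀ g : H, ((g : G) • h) ^ p = h ^ p) :
    ∃ χ : H →* rootsOfUnity p ℂ,
      ∀ g : H, (g : G) • h = algebraMap ℂ 𝕄 (((χ g : ℂˣ)) : ℂ) * h := by
  obtain ⟨χ, hχ, hχp⟩ := inj_HasMult_exists hconst (NeZero.ne p) h0 hpow
  refine ⟨χ.codRestrict (rootsOfUnity p ℂ) (fun g => (mem_rootsOfUnity p (χ g)).mpr (hχp g)),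
    fun g => ?_⟩
  exact hχ g

end Generic

/-! ### the instance `Mer`, `SL(2,ℤ)`, `Γ₀(M)` -/

theorem inj_smul_const_Mer (γ : SL(2, ℤ)) (c : ℂ) :
    γ • algebraMap ℂ Mer c = algebraMap ℂ Mer c := by
  rw [IsScalarTower.algebraMap_apply ℂ Hol Mer, smul_algebraMap_Mer]
  rfl

/-- **L2 (b)**: `h ∈ Mer`, `h ≠ 0`, `h ^ p` invariant under `Γ₀(M)` ⟹ `h` has a character
`χ : Γ₀(M) →* μ_p(ℂ)`, `g • h = χ(g) h`  (S24x action: `(g • h)(τ) = h(g⁻¹ τ)`). -/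
theorem inj_char_exists (M : ℕ) {p : ℕ} [NeZero p] {h : Mer} (h0 : h ≠ 0)
    (hpow : ∀ g : Gamma0 M, ((g : SL(2, ℤ)) • h) ^ p = h ^ p) :
    ∃ χ : Gamma0 M →* rootsOfUnity p ℂ,
      ∀ g : Gamma0 M, (g : SL(2, ℤ)) • h = algebraMap ℂ Mer (((χ g : ℂˣ)) : ℂ) * h :=
  inj_HasMult_exists_rootsOfUnity inj_smul_const_Mer h0 hpow

/-- the hypothesis of `inj_char_exists` in the form "`h ^ p` is `Γ₀(M)`-invariant" -/
theorem inj_char_exists' (M : ℕ) {p : ℕ} [NeZero p] {h : Mer} (h0 : h ≠ 0)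
    (hinv : ∀ g : Gamma0 M, (g : SL(2, ℤ)) • (h ^ p) = h ^ p) :
    ∃ χ : Gamma0 M →* rootsOfUnity p ℂ,
      ∀ g : Gamma0 M, (g : SL(2, ℤ)) • h = algebraMap ℂ Mer (((χ g : ℂˣ)) : ℂ) * h :=
  inj_char_exists M h0 (fun g => by rw [← smul_pow', hinv g])

/-- **Official shape** (`S42x/HeckeEqDefs`, `heq_Rel`): `ψ : Additive Γ₀(M) →+ Additive ℂˣ` with
`γ⁻¹ • h = ψ(γ) h` (i.e. `h(γ z) = ψ(γ) h(z)`) and `p • ψ = 0`. -/
theorem inj_char_exists_additive (M : ℕ) {p : ℕ} (hp : p ≠ 0) {h : Mer} (h0 : h ≠ 0)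
    (hinv : ∀ g : Gamma0 M, (g : SL(2, ℤ)) • (h ^ p) = h ^ p) :
    ∃ ψ : Additive (Gamma0 M) →+ Additive ℂˣ,
      (∀ γ : Gamma0 M, ((γ : SL(2, ℤ))⁻¹ • h : Mer) =
        algebraMap ℂ Mer (((ψ (Additive.ofMul γ)).toMul : ℂˣ) : ℂ) * h) ∧
      ∀ γ : Gamma0 M, ((ψ (Additive.ofMul γ)).toMul : ℂˣ) ^ p = 1 := by
  obtain ⟨χ, hχ, hχp⟩ := inj_HasMult_exists (H := Gamma0 M) inj_smul_const_Mer hp h0
    (fun g => by rw [← smul_pow', hinv g])
  refine ⟨MonoidHom.toAdditive χ⁻¹, fun γ => ?_, fun γ => ?_⟩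
  · have := hχ γ⁻¹
    rw [Subgroup.coe_inv, map_inv] at this
    rw [this]
    rfl
  · show ((χ⁻¹ : Gamma0 M →* ℂˣ) γ) ^ p = 1
    rw [MonoidHom.inv_apply, inv_pow, hχp γ, inv_one]

theorem inj_char_additive_unique (M : ℕ) {h : Mer} (h0 : h ≠ 0)
    {ψ ψ' : Additive (Gamma0 M) →+ Additive ℂˣ}
    (hψ : ∀ γ : Gamma0 M, ((γ : SL(2, ℤ))⁻¹ • h : Mer) =
        algebraMap ℂ Mer (((ψ (Additive.ofMul γ)).toMul : ℂˣ) : ℂ) * h)
    (hψ' : ∀ γ : Gamma0 M, ((γ : SL(2, ℤ))⁻¹ • h : Mer) =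
        algebraMap ℂ Mer (((ψ' (Additive.ofMul γ)).toMul : ℂˣ) : ℂ) * h) : ψ = ψ' := by
  apply AddMonoidHom.ext
  intro γ
  have e := (hψ (Additive.toMul γ)).symm.trans (hψ' (Additive.toMul γ))
  have h2 := (algebraMap ℂ Mer).injective (mul_right_cancel₀ h0 e)
  have h3 : (ψ γ).toMul = (ψ' γ).toMul := Units.ext h2
  exact h3

/-- `ψ = 0` iff `h` is `Γ₀(M)`-invariant. -/
theorem inj_char_additive_eq_zero_iff (M : ℕ) {h : Mer} (h0 : h ≠ 0)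
    {ψ : Additive (Gamma0 M) →+ Additive ℂˣ}
    (hψ : ∀ γ : Gamma0 M, ((γ : SL(2, ℤ))⁻¹ • h : Mer) =
        algebraMap ℂ Mer (((ψ (Additive.ofMul γ)).toMul : ℂˣ) : ℂ) * h) :
    ψ = 0 ↔ ∀ g : Gamma0 M, (g : SL(2, ℤ)) • h = h := by
  constructor
  · intro h1 g
    have := hψ g⁻¹
    rw [h1] at this
    simpa using this
  · intro hinv
    apply inj_char_additive_unique M h0 hψ
    intro γ
    have := hinv γ⁻¹
    simpa using this

/-- multiplicativity in `h` (official shape) -/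
theorem inj_char_additive_mul (M : ℕ) {h₁ h₂ : Mer}
    {ψ₁ ψ₂ : Additive (Gamma0 M) →+ Additive ℂˣ}
    (hψ₁ : ∀ γ : Gamma0 M, ((γ : SL(2, ℤ))⁻¹ • h₁ : Mer) =
        algebraMap ℂ Mer (((ψ₁ (Additive.ofMul γ)).toMul : ℂˣ) : ℂ) * h₁)
    (hψ₂ : ∀ γ : Gamma0 M, ((γ : SL(2, ℤ))⁻¹ • h₂ : Mer) =
        algebraMap ℂ Mer (((ψ₂ (Additive.ofMul γ)).toMul : ℂˣ) : ℂ) * h₂) :
    ∀ γ : Gamma0 M, ((γ : SL(2, ℤ))⁻¹ • (h₁ * h₂) : Mer) =
        algebraMap ℂ Mer ((((ψ₁ + ψ₂) (Additive.ofMul γ)).toMul : ℂˣ) : ℂ) * (h₁ * h₂) := by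
  intro γ
  rw [smul_mul', hψ₁ γ, hψ₂ γ, AddMonoidHom.add_apply, toMul_add, Units.val_mul, map_mul]
  ring

/-- constants do not change the character (official shape) -/
theorem inj_char_additive_const_mul (M : ℕ) {h : Mer} (c : ℂ)
    {ψ : Additive (Gamma0 M) →+ Additive ℂˣ}
    (hψ : ∀ γ : Gamma0 M, ((γ : SL(2, ℤ))⁻¹ • h : Mer) =
        algebraMap ℂ Mer (((ψ (Additive.ofMul γ)).toMul : ℂˣ) : ℂ) * h) :
    ∀ γ : Gamma0 M, ((γ : SL(2, ℤ))⁻¹ • (algebraMap ℂ Mer c * h) : Mer) =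
        algebraMap ℂ Mer (((ψ (Additive.ofMul γ)).toMul : ℂˣ) : ℂ) * (algebraMap ℂ Mer c * h) := by
  intro γ
  rw [smul_mul', inj_smul_const_Mer, hψ γ]
  ring

/-- an invariant factor does not change the character (official shape) -/
theorem inj_char_additive_mul_invariant (M : ℕ) {h u : Mer}
    {ψ : Additive (Gamma0 M) →+ Additive ℂˣ}
    (hψ : ∀ γ : Gamma0 M, ((γ : SL(2, ℤ))⁻¹ • h : Mer) =
        algebraMap ℂ Mer (((ψ (Additive.ofMul γ)).toMul : ℂˣ) : ℂ) * h)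
    (hu : ∀ g : Gamma0 M, (g : SL(2, ℤ)) • u = u) :
    ∀ γ : Gamma0 M, ((γ : SL(2, ℤ))⁻¹ • (u * h) : Mer) =
        algebraMap ℂ Mer (((ψ (Additive.ofMul γ)).toMul : ℂˣ) : ℂ) * (u * h) := by
  intro γ
  have := hu γ⁻¹
  rw [Subgroup.coe_inv] at this
  rw [smul_mul', this, hψ γ]
  ring

end Fermat.Agent.S42x
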