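/-
S42 project, glue leaf R4' (helper67), prefix `rr4_`.

`S42_LEAD_NOTES` (N1), item R4': `R(0, ψ) ⟹ ψ = 1`, on helper54's official relation `heq_Rel`
(`S42x/HeckeEqDefs`).  This is hypothesis `hR4` of helper47's `rlg_iotHyp` (`S42x/RelGroup`).

* `rr4_const_of_pow_eq_const` : in a field `𝕄 ⊇ ℂ`, a `p`-th root of a constant is a constant;
* `rr4_exists_of_mk_eq_zero`  : `Pic0.mk Dt = 0`, `p • Dt = div f` ⟹ `f = a * u ^ p` with a
  constant `a` and `div u = Dt` (functions without zeros and poles are constants: `rmn_hyp_FBar`);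
* `rr4_root_invariant`        : a `p`-th root `h ∈ Mer` of `evF (a * u ^ p)` is a constant multiple of
  `evF u`, hence `Γ₀(M)`-invariant;
* `rr4_psi_eq_zero`           : `heq_Rel M p 0 ψ → ψ = 0`.
-/
import Mathlib
import Fermat.Agent.S42x.HeckeEqDefs
import Fermat.Agent.S42x.InjChar
import Fermat.Agent.S18x.RmnOfRmt

set_option autoImplicit false

namespace Fermat.Agent.S42x

open UpperHalfPlane ModularCurve AlgebraicCurve CongruenceSubgroup
open Fermat.Agent.S24x Fermat.Agent.S18x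
open scoped MatrixGroups

noncomputable section

/-- in a field containing `ℂ`, a `p`-th root of a constant is a constant -/
theorem rr4_const_of_pow_eq_const {𝕄 : Type*} [Field 𝕄] [Algebra ℂ 𝕄] {p : ℕ} (hp : p ≠ 0)
    {x : 𝕄} {c : ℂ} (hx : x ^ p = algebraMap ℂ 𝕄 c) :
    ∃ d : ℂ, d ^ p = c ∧ x = algebraMap ℂ 𝕄 d := by
  rcases eq_or_ne c 0 with rfl | hc
  · refine ⟨0, zero_pow hp, ?_⟩
    rw [map_zero] at hx ⊢
    exact (pow_eq_zero_iff hp).mp hx
  obtain ⟨d0, hd0⟩ := IsAlgClosed.exists_pow_nat_eq c (Nat.pos_of_ne_zero hp)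
  have hd00 : d0 ≠ 0 := by
    rintro rfl
    rw [zero_pow hp] at hd0
    exact hc hd0.symm
  have hd0' : algebraMap ℂ 𝕄 d0 ≠ 0 := by simpa using hd00
  have hc' : algebraMap ℂ 𝕄 c ≠ 0 := by simpa using hc
  have h1 : (x / algebraMap ℂ 𝕄 d0) ^ p = 1 := by
    rw [div_pow, hx, ← map_pow, hd0, div_self hc']
  obtain ⟨ζ, hζ, hxζ⟩ := inj_const_of_pow_eq_one hp h1
  refine ⟨ζ * d0, by rw [mul_pow, hζ, hd0, one_mul], ?_⟩
  rw [map_mul, ← hxζ, div_mul_cancel₀ _ hd0']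

variable (M : ℕ) [NeZero M]

/-- if the class of `Dt` is trivial and `p • Dt = div f`, then `f = a * u ^ p` with `a` a nonzero
constant and `div u = Dt` -/
theorem rr4_exists_of_mk_eq_zero (p : ℕ) (f : FBar M) (hf0 : f ≠ 0)
    (Dt : Divisor.degZero (K := Qbar) (F := modularFunctionFieldBar M))
    (hmk : Pic0.mk Dt = (0 : JZero M))
    (hdiv : ∀ P : Place Qbar (modularFunctionFieldBar M),
      (p : ℤ) * (Dt : Divisor Qbar (modularFunctionFieldBar M)) P = P.ord f) :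
    ∃ (a : Qbar) (u : FBar M), a ≠ 0 ∧ u ≠ 0 ∧
      (∀ P : Place Qbar (modularFunctionFieldBar M),
        (Dt : Divisor Qbar (modularFunctionFieldBar M)) P = P.ord u) ∧
      f = algebraMap Qbar (FBar M) a * u ^ p := by
  have hprin : (Dt : Divisor Qbar (modularFunctionFieldBar M)) ∈
      Divisor.principal (K := Qbar) (F := modularFunctionFieldBar M) := by
    have h1 := (QuotientAddGroup.eq_zero_iff Dt).mp hmk
    exact AddSubgroup.mem_addSubgroupOf.mp h1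
  obtain ⟨u, hu0, hu⟩ := hprin
  have hup0 : u ^ p ≠ 0 := pow_ne_zero p hu0
  have hy0 : f * (u ^ p)⁻¹ ≠ 0 := mul_ne_zero hf0 (inv_ne_zero hup0)
  have hyord : ∀ Q : Place Qbar (FBar M), 0 ≤ Q.ord (f * (u ^ p)⁻¹) := by
    intro Q
    rw [Q.ord_mul hf0 (inv_ne_zero hup0), Q.ord_inv, ← zpow_natCast, Q.ord_zpow, ← hdiv Q, hu Q]
    simp
  obtain ⟨a, ha⟩ := (rmn_hyp_FBar M).hconst _ hy0 hyord
  have ha0 : a ≠ 0 := by
    rintro rfl
    rw [map_zero] at ha
    exact hy0 ha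
  refine ⟨a, u, ha0, hu0, hu, ?_⟩
  rw [← ha, mul_assoc, inv_mul_cancel₀ hup0, mul_one]

omit [NeZero M] in
/-- a `p`-th root in `Mer` of `evF (a * u ^ p)` is a constant multiple of `evF u` -/
theorem rr4_root_eq_const_mul {p : ℕ} (hp : p ≠ 0) (a : Qbar) (u : FBar M) (hu0 : u ≠ 0)
    (h : Mer) (hpow : h ^ p = evF M (algebraMap Qbar (FBar M) a * u ^ p)) :
    ∃ d : ℂ, h = algebraMap ℂ Mer d * evF M u := by
  have hev0 : evF M u ≠ 0 := by
    rw [Ne, map_eq_zero_iff _ (evF M).injective]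
    exact hu0
  have h1 : (h / evF M u) ^ p = algebraMap ℂ Mer (iotaQ a) := by
    rw [div_pow, hpow, map_mul, map_pow, evF_algebraMap, mul_div_assoc,
      div_self (pow_ne_zero p hev0), mul_one]
  obtain ⟨d, -, hd⟩ := rr4_const_of_pow_eq_const hp h1
  exact ⟨d, by rw [← hd, div_mul_cancel₀ _ hev0]⟩

omit [NeZero M] in
/-- such a root is `Γ₀(M)`-invariant -/
theorem rr4_root_invariant {p : ℕ} (hp : p ≠ 0) (a : Qbar) (u : FBar M) (hu0 : u ≠ 0)
    (h : Mer) (hpow : h ^ p = evF M (algebraMap Qbar (FBar M) a * u ^ p))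
    (g : Gamma0 M) : (g : SL(2, ℤ)) • h = h := by
  obtain ⟨d, rfl⟩ := rr4_root_eq_const_mul M hp a u hu0 h hpow
  rw [smul_mul', inj_smul_const_Mer, evF_smul_of_mem_Gamma0 M (g : SL(2, ℤ)) g.2]

/-- **R4'**: `R(0, ψ) ⟹ ψ = 0` (i.e. the multiplier is trivial). -/
theorem rr4_psi_eq_zero (p : ℕ) (hp : p ≠ 0) (ψ : Additive (Gamma0 M) →+ Additive ℂˣ)
    (hR : heq_Rel M p 0 ψ) : ψ = 0 := by
  obtain ⟨f, Dt, h, hf0, hmk, hdiv, hpow, hchar⟩ := hR
  obtain ⟨a, u, -, hu0, -, hf⟩ := rr4_exists_of_mk_eq_zero M p f hf0 Dt hmk hdiv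
  have hh0 : h ≠ 0 := by
    rintro rfl
    rw [zero_pow hp] at hpow
    exact hf0 ((map_eq_zero_iff _ (evF M).injective).mp hpow.symm)
  rw [hf] at hpow
  exact (inj_char_additive_eq_zero_iff M hh0 hchar).mpr
    (fun g => rr4_root_invariant M hp a u hu0 h hpow g)

/-- the same with `0 < p` -/
theorem rr4_psi_eq_zero' (p : ℕ) (hp : 0 < p) (ψ : Additive (Gamma0 M) →+ Additive ℂˣ)
    (hR : heq_Rel M p 0 ψ) : ψ = 0 :=
  rr4_psi_eq_zero M p hp.ne' ψ hR

end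

end Fermat.Agent.S42x
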