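/-
S42x/TopLow92 (helper92, prefix `low92_`): the LOWER HALF of the S42 assembly, hypothesis-free.

`low92_iotaPkg M p` (`p ≥ 5` prime): the literal body of helper80's waist `top80_IotaPkg M p`:
an additive map `ι : lrL M →+ JZero M` from the lattice of integral parabolic homomorphisms of
`Γ₀(M)`, killed by `p`, with kernel `p • lrL M`, intertwining the Betti Hecke operators `lrtT M ℓ`
with `heckeOperatorBar M ℓ` for every prime `ℓ ∤ M`.

`ι := rlg_iota psiOf hR3 hR4 hR5` (helper47) for `psiOf χ := e ∘ χ`, `e n = ζ_p ^ n`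
(`= twp_psiAdd p χ`, helper12), with
* `hR3 := inj_cmp_hR3` (helper81/34) on helper29's realisation `cde29_ev`,
* `hR4 := rr4_psi_eq_zero` (helper67),
* `hR5 := r5f92_hR5` (S42x/R5Fin92, the `S_p^fin` chain),
* kernel: `twp_psiAdd_eq_zero_iff` (helper12) + `lrt_dvd_of_values` (S41x),
* Hecke: `rlg_iota_comm` + `heq_R6_comp` (helper54).
-/
import Mathlib
import Fermat.Agent.S42x.R5Fin92
import Fermat.Agent.S42x.RelGroup
import Fermat.Agent.S42x.RelR4
import Fermat.Agent.S42x.InjComp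
import Fermat.Agent.S42x.HeckeEqTop
import Fermat.Agent.S42x.TwEisPsi
import Fermat.Agent.S42x.CDictEv29
import Fermat.Agent.S41x.LRTopDefs

set_option autoImplicit false

namespace Fermat.Agent.S42x

open UpperHalfPlane ModularCurve AlgebraicCurve CongruenceSubgroup ModularCurve.Period
open Fermat.Agent.S24x Fermat.Agent.S23x Fermat.Agent.S41x Fermat.Agent.S16x
open scoped MatrixGroups

noncomputable section

/-- the character `n ↦ ζ_p ^ n` of `ℤ`, additive shape -/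
def low92_e (p : ℕ) : ℤ →+ Additive ℂˣ :=
  zmultiplesHom (Additive ℂˣ) (Additive.ofMul (twp_zeta p))

theorem low92_e_apply (p : ℕ) (n : ℤ) : low92_e p n = Additive.ofMul (twp_zeta p ^ n) := by
  rw [low92_e, zmultiplesHom_apply, ofMul_zpow]

theorem low92_e_comp {M : ℕ} (p : ℕ) (χ : Additive (Gamma0 M) →+ ℤ) :
    (low92_e p).comp χ = twp_psiAdd p χ := by
  refine AddMonoidHom.ext fun a => ?_
  rw [AddMonoidHom.comp_apply, low92_e_apply, twp_psiAdd_apply, twp_psi_apply_zpow]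
  rfl

variable (M : ℕ) [NeZero M]

/-- `χ ↦ ψ_χ = exp(2πi χ / p)` on the lattice, additive -/
def low92_psiOf (p : ℕ) : lrL M →+ (Additive (Gamma0 M) →+ Additive ℂˣ) where
  toFun χ := (low92_e p).comp χ.1
  map_zero' := by
    refine AddMonoidHom.ext fun a => ?_
    simp
  map_add' χ χ' := by
    refine AddMonoidHom.ext fun a => ?_
    simp

omit [NeZero M] in
theorem low92_psiOf_apply (p : ℕ) (χ : lrL M) :
    low92_psiOf M p χ = (low92_e p).comp χ.1 := rfl

omit [NeZero M] in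
theorem low92_psiOf_eq (p : ℕ) (χ : lrL M) : low92_psiOf M p χ = twp_psiAdd p χ.1 :=
  low92_e_comp p χ.1

/-- **the lower half of S42**: the comparison map `ι : H¹_par(Γ₀(M), ℤ) → J₀(M)[p]`. -/
theorem low92_iotaPkg (p : ℕ) (hp : p.Prime) (h5 : 5 ≤ p) :
    ∃ ι : lrL M →+ JZero M,
      (∀ v : lrL M, p • ι v = 0) ∧
      (∀ v : lrL M, ι v = 0 → ∃ w : lrL M, v = (p : ℤ) • w) ∧
      ∀ ℓ : Nat.Primes, ¬ (ℓ : ℕ) ∣ M → ∀ v : lrL M,
        ι (lrtT M ℓ v) = heckeOperatorBar M ℓ (ι v) := by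
  have hR3 : ∀ (x : JZero M) (χ : lrL M), heq_Rel M p x (low92_psiOf M p χ) →
      low92_psiOf M p χ = 0 → x = 0 :=
    inj_cmp_hR3 M (cde29_ev M) p hp.pos (cde29_evCompat M) (low92_psiOf M p)
  have hR4 : ∀ χ : lrL M, heq_Rel M p (0 : JZero M) (low92_psiOf M p χ) →
      low92_psiOf M p χ = 0 :=
    fun χ h => rr4_psi_eq_zero M p hp.ne_zero _ h
  have hR5 : ∀ χ : lrL M, ∃ x : JZero M, heq_Rel M p x (low92_psiOf M p χ) := by
    intro χ
    rw [low92_psiOf_eq]
    exact r5f92_hR5 M p hp h5 χ.1 (mem_parabolicHoms_iff.mp χ.2)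
  refine ⟨rlg_iota (low92_psiOf M p) hR3 hR4 hR5,
    fun v => rlg_iota_tors _ hR3 hR4 hR5 v, fun v hv => ?_, fun ℓ hℓM v => ?_⟩
  · rw [rlg_iota_eq_zero_iff, low92_psiOf_eq, twp_psiAdd_eq_zero_iff hp.ne_zero] at hv
    exact lrt_dvd_of_values M p hp.ne_zero v (fun γ => hv (Additive.toMul γ))
  · refine rlg_iota_comm (low92_psiOf M p) hR3 hR4 hR5 (heckeOperatorBar M ℓ) (lrtT M ℓ) ?_ v
    intro x χ hx
    exact heq_R6_comp M p ℓ hℓM x (low92_e p) χ.1 hx

end

end Fermat.Agent.S42x
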