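/-
S42 project, S29 / S30 support (helper90, prefix `tlap90_`): the LOWER HALF for an ARBITRARY
modulus `p > 0` (all-`p` twin of helper92's `low92_iotaPkg`, which needs `p ≥ 5` prime):

an additive map `ι : lrL M →+ JZero M` from the lattice of integral parabolic homomorphisms of
`Γ₀(M)`, killed by `p`, with kernel `p • lrL M`, intertwining the Betti Hecke operators `lrtT M ℓ`
with `heckeOperatorBar M ℓ` for every prime `ℓ ∤ M`.

Same proof as `low92_iotaPkg`, with `hR5 := r5fap90_hR5` (S42x/R5FinAllP90: exact ramification at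
the elliptic points instead of `gcd(e, p) = 1`).  In particular this covers `p = 2, 3` (S29) and
prime powers (S30, block T1).
-/
import Mathlib
import Fermat.Agent.S42x.TopLow92
import Fermat.Agent.S42x.R5FinAllP90

set_option autoImplicit false

namespace Fermat.Agent.S42x

open UpperHalfPlane ModularCurve AlgebraicCurve CongruenceSubgroup ModularCurve.Period
open Fermat.Agent.S24x Fermat.Agent.S23x Fermat.Agent.S41x Fermat.Agent.S16x
open scoped MatrixGroups

noncomputable section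

variable (M : ℕ) [NeZero M]

/-- **the lower half for an arbitrary modulus `p > 0`**: the comparison map
`ι : H¹_par(Γ₀(M), ℤ) → J₀(M)[p]`. -/
theorem tlap90_iotaPkg (p : ℕ) (hp : 0 < p) :
    ∃ ι : lrL M →+ JZero M,
      (∀ v : lrL M, p • ι v = 0) ∧
      (∀ v : lrL M, ι v = 0 → ∃ w : lrL M, v = (p : ℤ) • w) ∧
      ∀ ℓ : Nat.Primes, ¬ (ℓ : ℕ) ∣ M → ∀ v : lrL M,
        ι (lrtT M ℓ v) = heckeOperatorBar M ℓ (ι v) := by
  have hR3 : ∀ (x : JZero M) (χ : lrL M), heq_Rel M p x (low92_psiOf M p χ) →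
      low92_psiOf M p χ = 0 → x = 0 :=
    inj_cmp_hR3 M (cde29_ev M) p hp (cde29_evCompat M) (low92_psiOf M p)
  have hR4 : ∀ χ : lrL M, heq_Rel M p (0 : JZero M) (low92_psiOf M p χ) →
      low92_psiOf M p χ = 0 :=
    fun χ h => rr4_psi_eq_zero M p hp.ne' _ h
  have hR5 : ∀ χ : lrL M, ∃ x : JZero M, heq_Rel M p x (low92_psiOf M p χ) := by
    intro χ
    rw [low92_psiOf_eq]
    exact r5fap90_hR5 M p hp χ.1 (mem_parabolicHoms_iff.mp χ.2)
  refine ⟨rlg_iota (low92_psiOf M p) hR3 hR4 hR5,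
    fun v => rlg_iota_tors _ hR3 hR4 hR5 v, fun v hv => ?_, fun ℓ hℓM v => ?_⟩
  · rw [rlg_iota_eq_zero_iff, low92_psiOf_eq, twp_psiAdd_eq_zero_iff hp.ne'] at hv
    exact lrt_dvd_of_values M p hp.ne' v (fun γ => hv (Additive.toMul γ))
  · refine rlg_iota_comm (low92_psiOf M p) hR3 hR4 hR5 (heckeOperatorBar M ℓ) (lrtT M ℓ) ?_ v
    intro x χ hx
    exact heq_R6_comp M p ℓ hℓM x (low92_e p) χ.1 hx

/-- the prime case in the shape of `low92_iotaPkg`, without `5 ≤ p`. -/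
theorem tlap90_iotaPkg_prime (p : ℕ) (hp : p.Prime) :
    ∃ ι : lrL M →+ JZero M,
      (∀ v : lrL M, p • ι v = 0) ∧
      (∀ v : lrL M, ι v = 0 → ∃ w : lrL M, v = (p : ℤ) • w) ∧
      ∀ ℓ : Nat.Primes, ¬ (ℓ : ℕ) ∣ M → ∀ v : lrL M,
        ι (lrtT M ℓ v) = heckeOperatorBar M ℓ (ι v) :=
  tlap90_iotaPkg M p hp.pos

end

end Fermat.Agent.S42x
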