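/-
S42/S29 leaf (helper25, prefix `cyin_`): the mod-`n` cyclotomic character is unramified at `ℓ ∤ n`:
an element of the inertia group at a place over `ℓ` fixes every `n`-th root of unity.
Needed for the inertia clause of S29 in the reducible case (`ε σ = 1` for `σ` in inertia).
-/
import Mathlib
import Fermat.Prelude.Def_FLTPrelim_Ramification
import Fermat.Agent.S41x.BridgeCyc

set_option autoImplicit false

namespace Fermat.Agent.S42x

open ValuationSubring Fermat.Agent.S41x

/-- an element of the inertia group at `A | ℓ` fixes every `n`-th root of unity, `ℓ ∤ n`. -/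
theorem cyin_inertia_apply_root {n ℓ : ℕ} (hℓn : ¬ ℓ ∣ n) (hℓ : ℓ.Prime)
    (A : ValuationSubring (AlgebraicClosure ℚ)) (hA : A.LiesOverPrime ℓ)
    (σ : AlgebraicClosure ℚ ≃ₐ[ℚ] AlgebraicClosure ℚ) (hσ : σ ∈ A.inertiaSubgroupIn ℚ)
    {ζ : AlgebraicClosure ℚ} (hζ : ζ ^ n = 1) : σ ζ = ζ := by
  have hn : n ≠ 0 := by
    rintro rfl
    exact hℓn (dvd_zero ℓ)
  have hcop : Nat.Coprime n ℓ := (Nat.Coprime.symm ((Nat.Prime.coprime_iff_not_dvd hℓ).2 hℓn))
  obtain ⟨τ, hτ, rfl⟩ := hσ
  have hζA : ζ ∈ A := brcy_mem_of_pow_eq_one A hn hζ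
  set z : A := ⟨ζ, hζA⟩ with hz
  have hzn : z ^ n = 1 := Subtype.ext (by simpa using hζ)
  -- `τ` acts trivially on the residue field
  have hres : ∀ x : IsLocalRing.ResidueField A, τ • x = x := by
    intro x
    have := (MonoidHom.mem_ker).1 hτ
    have h2 := congrArg (fun f : RingAut (IsLocalRing.ResidueField A) => f x) this
    simpa using h2
  set z' : A := τ • z with hz'
  have hz'val : (z' : AlgebraicClosure ℚ) = (τ : AlgebraicClosure ℚ ≃ₐ[ℚ] AlgebraicClosure ℚ) ζ := rfl
  have hz'n : z' ^ n = 1 := by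
    rw [hz', ← smul_pow', hzn, smul_one]
  have hmem : z' - z ∈ IsLocalRing.maximalIdeal A := by
    rw [← IsLocalRing.residue_eq_zero_iff, map_sub, sub_eq_zero]
    have := hres (IsLocalRing.residue A z)
    rw [← this]
    rfl
  have hℓm : ((ℓ : ℕ) : A) ∈ IsLocalRing.maximalIdeal A := by
    obtain ⟨ha, hm⟩ := mem_nonunits_iff_exists_mem_maximalIdeal.1 hA
    have : (⟨(ℓ : AlgebraicClosure ℚ), ha⟩ : A) = ((ℓ : ℕ) : A) := Subtype.ext (by simp)
    rwa [this] at hm
  set w : A := z' * z ^ (n - 1) with hw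
  have hzz : z * z ^ (n - 1) = 1 := by
    rw [← pow_succ', Nat.sub_add_cancel (Nat.pos_of_ne_zero hn), hzn]
  have hwn : w ^ n = 1 := by
    rw [hw, mul_pow, hz'n, one_mul, ← pow_mul, mul_comm, pow_mul, hzn, one_pow]
  have hw1 : w - 1 ∈ IsLocalRing.maximalIdeal A := by
    have : w - 1 = (z' - z) * z ^ (n - 1) := by
      rw [sub_mul, hzz]
    rw [this]
    exact Ideal.mul_mem_right _ _ hmem
  have hw_one : w = 1 := brcy_eq_one_of_sub_one_mem hcop hℓm hwn hw1
  have hfin : z' = z := by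
    have h1 : w * z = z' := by
      rw [hw, mul_assoc, mul_comm (z ^ (n - 1)) z, hzz, mul_one]
    rw [← h1, hw_one, one_mul]
  have := congrArg (fun a : A => (a : AlgebraicClosure ℚ)) hfin
  simpa [hz'val, hz] using this

/-- the mod-`n` cyclotomic character is trivial on inertia at `ℓ ∤ n`. -/
theorem cyin_modularCyclotomicCharacter_inertia {n ℓ : ℕ} [NeZero n] (hℓn : ¬ ℓ ∣ n) (hℓ : ℓ.Prime)
    (hcard : Nat.card { x // x ∈ rootsOfUnity n (AlgebraicClosure ℚ) } = n)
    (A : ValuationSubring (AlgebraicClosure ℚ)) (hA : A.LiesOverPrime ℓ)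
    (σ : AlgebraicClosure ℚ ≃ₐ[ℚ] AlgebraicClosure ℚ) (hσ : σ ∈ A.inertiaSubgroupIn ℚ) :
    modularCyclotomicCharacter (AlgebraicClosure ℚ) hcard
      (σ : AlgebraicClosure ℚ ≃+* AlgebraicClosure ℚ) = 1 := by
  have h := modularCyclotomicCharacter.unique (AlgebraicClosure ℚ) hcard
    (σ : AlgebraicClosure ℚ ≃+* AlgebraicClosure ℚ) (c := (1 : ZMod n)) (by
      intro t ht
      have htn : ((t : (AlgebraicClosure ℚ)ˣ) : AlgebraicClosure ℚ) ^ n = 1 := by
        have := (mem_rootsOfUnity n t).1 ht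
        rw [← Units.val_pow_eq_pow_val, this, Units.val_one]
      have hfix := cyin_inertia_apply_root hℓn hℓ A hA σ hσ htn
      have hval : ((1 : ZMod n).val) % n = 1 % n := by
        rcases Nat.lt_or_ge 1 n with h1 | h1
        · have : Fact (1 < n) := ⟨h1⟩
          rw [ZMod.val_one]
        · have : n = 1 := le_antisymm h1 (Nat.pos_of_ne_zero (NeZero.ne n))
          subst this
          simp [Nat.mod_one]
      have hpow : ((t : (AlgebraicClosure ℚ)ˣ) : AlgebraicClosure ℚ) ^ (1 : ZMod n).val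
          = ((t : (AlgebraicClosure ℚ)ˣ) : AlgebraicClosure ℚ) ^ 1 := by
        rw [← Nat.mod_add_div ((1 : ZMod n).val) n, ← Nat.mod_add_div 1 n, hval]
        simp only [pow_add, pow_mul, htn, one_pow]
      rw [hpow, pow_one]
      exact hfix)
  exact Units.ext h.symm

end Fermat.Agent.S42x
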