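/-
S42x/InertiaCyc (helper7, prefix `icy_`): inertia at a prime `ℓ` acts trivially on the roots of
unity of order prime to `ℓ`; hence the mod-`n` cyclotomic character is trivial on inertia at
`ℓ ∤ n`.  (Needed for the unramifiedness clause of S29: the `2`-dimensional representation produced
by the algebra lemma is trivial on every `σ` acting trivially on `V` with `ω(σ) = 1`.)
Imports: Mathlib + S13x/GalInertiaBasic (`gi_mem_inertiaSubgroupIn_iff`) + S41x/BridgeCyc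
(`brcy_mem_of_pow_eq_one`, `brcy_eq_one_of_sub_one_mem`).
-/
import Mathlib
import Fermat.Agent.S13x.GalInertiaBasic
import Fermat.Agent.S41x.BridgeCyc

set_option autoImplicit false

namespace Fermat.Agent.S42x

open ValuationSubring Fermat.Agent.S13x Fermat.Agent.S41x

/-- **inertia fixes prime-to-`ℓ` roots of unity**: if `A` lies over `ℓ`, `ℓ ∤ M0`, `σ` is in the
inertia group of `A` and `ζ ^ M0 = 1`, then `σ ζ = ζ`. -/
theorem icy_inertia_apply_root {M0 ℓ : ℕ} (hℓ : ℓ.Prime) (hℓM : ¬ ℓ ∣ M0)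
    (A : ValuationSubring (AlgebraicClosure ℚ)) (hA : A.LiesOverPrime ℓ)
    (σ : AlgebraicClosure ℚ ≃ₐ[ℚ] AlgebraicClosure ℚ) (hσ : σ ∈ A.inertiaSubgroupIn ℚ)
    {ζ : AlgebraicClosure ℚ} (hζ : ζ ^ M0 = 1) : σ ζ = ζ := by
  have hM0 : M0 ≠ 0 := by
    rintro rfl
    exact hℓM (dvd_zero ℓ)
  have hcop : Nat.Coprime M0 ℓ :=
    Nat.Coprime.symm ((Nat.Prime.coprime_iff_not_dvd hℓ).2 hℓM)
  obtain ⟨-, hin⟩ := (gi_mem_inertiaSubgroupIn_iff A σ).1 hσ
  have hζA : ζ ∈ A := brcy_mem_of_pow_eq_one A hM0 hζ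
  have hσζ : (σ ζ) ^ M0 = 1 := by rw [← map_pow, hζ, map_one]
  have hσζA : σ ζ ∈ A := brcy_mem_of_pow_eq_one A hM0 hσζ
  set z : A := ⟨ζ, hζA⟩ with hz
  set u : A := ⟨σ ζ, hσζA⟩ with hu
  have hzM : z ^ M0 = 1 := Subtype.ext (by simpa using hζ)
  have huM : u ^ M0 = 1 := Subtype.ext (by simpa using hσζ)
  have hzz : z * z ^ (M0 - 1) = 1 := by
    rw [← pow_succ', Nat.sub_add_cancel (Nat.pos_of_ne_zero hM0), hzM]
  -- `ℓ ∈ 𝔪`
  have hℓm : ((ℓ : ℕ) : A) ∈ IsLocalRing.maximalIdeal A := by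
    obtain ⟨ha, hm⟩ := mem_nonunits_iff_exists_mem_maximalIdeal.1 hA
    have : (⟨(ℓ : AlgebraicClosure ℚ), ha⟩ : A) = ((ℓ : ℕ) : A) := Subtype.ext (by simp)
    rwa [this] at hm
  -- `u - z ∈ 𝔪`
  have huz : u - z ∈ IsLocalRing.maximalIdeal A := by
    have h1 := hin ζ hζA
    obtain ⟨ha, hm⟩ := mem_nonunits_iff_exists_mem_maximalIdeal.1 h1
    have : (⟨σ ζ - ζ, ha⟩ : A) = u - z := Subtype.ext (by simp [hu, hz])
    rwa [this] at hm
  set w : A := u * z ^ (M0 - 1) with hw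
  have hwM : w ^ M0 = 1 := by
    rw [hw, mul_pow, huM, one_mul, ← pow_mul, mul_comm, pow_mul, hzM, one_pow]
  have hw1 : w - 1 ∈ IsLocalRing.maximalIdeal A := by
    have h2 : w - 1 = (u - z) * z ^ (M0 - 1) := by
      rw [hw, sub_mul, hzz]
    rw [h2]
    exact Ideal.mul_mem_right _ _ huz
  have hw_one : w = 1 := brcy_eq_one_of_sub_one_mem hcop hℓm hwM hw1
  have huz' : u = z := by
    have h3 : u = w * z := by
      rw [hw, mul_assoc, mul_comm (z ^ (M0 - 1)) z, hzz, mul_one]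
    rw [h3, hw_one, one_mul]
  have := congrArg (fun a : A => (a : AlgebraicClosure ℚ)) huz'
  simpa [hu, hz] using this

/-- inertia at `ℓ ∤ n` fixes every element of `rootsOfUnity n ℚ̄`. -/
theorem icy_inertia_apply_rootsOfUnity {n ℓ : ℕ} (hℓ : ℓ.Prime) (hℓn : ¬ ℓ ∣ n)
    (A : ValuationSubring (AlgebraicClosure ℚ)) (hA : A.LiesOverPrime ℓ)
    (σ : AlgebraicClosure ℚ ≃ₐ[ℚ] AlgebraicClosure ℚ) (hσ : σ ∈ A.inertiaSubgroupIn ℚ)
    {t : (AlgebraicClosure ℚ)ˣ} (ht : t ∈ rootsOfUnity n (AlgebraicClosure ℚ)) :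
    σ (t : AlgebraicClosure ℚ) = t := by
  apply icy_inertia_apply_root hℓ hℓn A hA σ hσ
  have := (mem_rootsOfUnity n t).1 ht
  rw [← Units.val_pow_eq_pow_val, this, Units.val_one]

/-- **the mod-`n` cyclotomic character is trivial on inertia at `ℓ ∤ n`.** -/
theorem icy_modularCyclotomicCharacter_inertia {n ℓ : ℕ} [NeZero n] (hℓ : ℓ.Prime)
    (hℓn : ¬ ℓ ∣ n)
    (hn : Nat.card { x // x ∈ rootsOfUnity n (AlgebraicClosure ℚ) } = n)
    (A : ValuationSubring (AlgebraicClosure ℚ)) (hA : A.LiesOverPrime ℓ)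
    (σ : AlgebraicClosure ℚ ≃ₐ[ℚ] AlgebraicClosure ℚ) (hσ : σ ∈ A.inertiaSubgroupIn ℚ) :
    modularCyclotomicCharacter (AlgebraicClosure ℚ) hn (σ : AlgebraicClosure ℚ ≃+* AlgebraicClosure ℚ)
      = 1 := by
  have h := modularCyclotomicCharacter.unique (L := AlgebraicClosure ℚ) hn
    (σ : AlgebraicClosure ℚ ≃+* AlgebraicClosure ℚ) (c := (1 : ZMod n)) (fun t ht => by
      have h1 : (σ : AlgebraicClosure ℚ ≃+* AlgebraicClosure ℚ) (t : AlgebraicClosure ℚ) = t :=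
        icy_inertia_apply_rootsOfUnity hℓ hℓn A hA σ hσ ht
      rw [h1, ZMod.val_one_eq_one_mod]
      have htn : (t : AlgebraicClosure ℚ) ^ n = 1 := by
        have := (mem_rootsOfUnity n t).1 ht
        rw [← Units.val_pow_eq_pow_val, this, Units.val_one]
      rcases Nat.lt_or_ge 1 n with h1n | h1n
      · rw [Nat.mod_eq_of_lt h1n, pow_one]
      · have hn1 : n = 1 := le_antisymm h1n (Nat.pos_of_ne_zero (NeZero.ne n))
        subst hn1
        rw [Nat.mod_self, pow_zero]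
        simpa using htn)
  exact Units.ext h.symm

end Fermat.Agent.S42x
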