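/-
S42x/QuadRepRat97.lean (helper97, prefix `qrr97_`): RATIONAL form of the B10 algebra lemma
`alm_exists_two_dim` ("Lemma R" of `ROUTE_S30_helper88`, block T7).

`K` is an ARBITRARY field with `2 ≠ 0` (no algebraic closedness).  If every `g` satisfies
`ρ g ^ 2 - a g • ρ g + ε g = 0` on a nonzero finite dimensional representation and there is an
element `c` with `c * c = 1` and `ε c = -1` ("complex conjugation"), then an irreducible
subrepresentation has dimension `≤ 2`, and there is a two dimensional representation over `K`
ITSELF with the prescribed characteristic polynomials.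

Proof of `finrank ≤ 2` for an irreducible `V`: let `γ = ρ c` (`γ² = 1`).
* If `γ = s • 1` is scalar, the relations for `h` and `c * h` give `2 s • ρ h = (a (c h) + s a h) • 1`:
  every `ρ h` is scalar, so `V` is a line.
* Otherwise both eigenspaces `V₊, V₋` of `γ` are nonzero; for `w ∈ V₊` the relations for `g` and
  `c * g` give `(1 + γ) (ρ g w) = (a g + a (c g)) • w`, and `V = span {ρ g w}` by irreducibility, so
  `V₊ = K w`; likewise `V₋` is a line.
-/
import Mathlib
import Fermat.Agent.S42x.QuadRepMain

set_option autoImplicit false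

namespace Fermat.Agent.S42x

open Polynomial Module

section Core

variable {K : Type*} [Field K] {G : Type*} [Group G] {V : Type*} [AddCommGroup V] [Module K V]
variable {ρ : G →* Module.End K V} {ε : G →* K} {a : G → K}

/-- the span of the orbit of a nonzero vector of an irreducible representation is everything -/
lemma qrr97_span_orbit (hirr : qdr_Irred ρ) {w : V} (hw : w ≠ 0) :
    Submodule.span K (Set.range fun g : G => ρ g w) = ⊤ := by
  have hinv : ∀ g : G, ∀ v ∈ Submodule.span K (Set.range fun g : G => ρ g w),
      ρ g v ∈ Submodule.span K (Set.range fun g : G => ρ g w) := by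
    intro g v hv
    induction hv using Submodule.span_induction with
    | mem x hx =>
      obtain ⟨k, rfl⟩ := hx
      apply Submodule.subset_span
      refine ⟨g * k, ?_⟩
      show ρ (g * k) w = ρ g (ρ k w)
      rw [map_mul]; rfl
    | zero => rw [map_zero]; exact Submodule.zero_mem _
    | add x y _ _ hx hy => rw [map_add]; exact Submodule.add_mem _ hx hy
    | smul r x _ hx => rw [map_smul]; exact Submodule.smul_mem _ r hx
  rcases hirr _ hinv with h0 | h1
  · exfalso
    apply hw
    have hmem : w ∈ Submodule.span K (Set.range fun g : G => ρ g w) := by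
      apply Submodule.subset_span
      refine ⟨1, ?_⟩
      show ρ 1 w = w
      rw [map_one]; rfl
    rw [h0] at hmem
    exact (Submodule.mem_bot K).1 hmem
  · exact h1

/-- the two relations used: for `g` and for `c * g`, evaluated on a vector -/
lemma qrr97_star_apply (h : qdr_Rel ρ ε a) (g : G) (v : V) :
    ρ g v + ε g • ρ g⁻¹ v = a g • v := by
  have := congrArg (fun f : Module.End K V => f v) (qdr_star h g)
  simpa using this

lemma qrr97_star_c_apply (h : qdr_Rel ρ ε a) {c : G} (hc : c * c = 1) (hεc : ε c = -1)
    (g : G) (v : V) :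
    ρ c (ρ g v) - ε g • ρ g⁻¹ (ρ c v) = a (c * g) • v := by
  have h1 := qrr97_star_apply h (c * g) v
  have hcinv : c⁻¹ = c := inv_eq_of_mul_eq_one_left hc
  have hinv : (c * g)⁻¹ = g⁻¹ * c := by rw [mul_inv_rev, hcinv]
  rw [hinv, map_mul ρ c g, map_mul ρ g⁻¹ c, map_mul ε c g, hεc] at h1
  rw [← h1]
  simp only [Module.End.mul_apply, neg_mul, one_mul, neg_smul]
  abel

/-- **Lemma R, core**: an irreducible representation with the quadratic relation and a
"complex conjugation" `c` has dimension `≤ 2`, over any field with `2 ≠ 0`. -/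
theorem qrr97_irred_finrank_le_two (h2 : (2 : K) ≠ 0) (h : qdr_Rel ρ ε a) (hirr : qdr_Irred ρ)
    {c : G} (hc : c * c = 1) (hεc : ε c = -1) : finrank K V ≤ 2 := by
  classical
  have hγγ : ∀ v : V, ρ c (ρ c v) = v := by
    intro v
    have : ρ c * ρ c = 1 := by rw [← map_mul, hc, map_one]
    have := congrArg (fun f : Module.End K V => f v) this
    simpa using this
  by_cases hsc : ∃ s : K, ∀ v : V, ρ c v = s • v
  · -- scalar case: every `ρ g` is scalar
    obtain ⟨s, hs⟩ := hsc
    by_cases hV : ∀ v : V, v = 0
    · have : finrank K V = 0 := by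
        have : Subsingleton V := ⟨fun x y => by rw [hV x, hV y]⟩
        exact Module.finrank_zero_of_subsingleton
      omega
    push Not at hV
    obtain ⟨w, hw⟩ := hV
    have hs2 : s * s = 1 := by
      have := hγγ w
      rw [hs, hs, smul_smul] at this
      have h3 : (s * s - 1) • w = 0 := by rw [sub_smul, this, one_smul, sub_self]
      rcases smul_eq_zero.1 h3 with h4 | h4
      · exact sub_eq_zero.1 h4
      · exact absurd h4 hw
    have hs0 : s ≠ 0 := by
      rintro rfl
      rw [mul_zero] at hs2
      exact zero_ne_one hs2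
    have hscal : ∀ g : G, ∀ v : V, ρ g v = ((a (c * g) + s * a g) * (2 * s)⁻¹) • v := by
      intro g v
      have e1 := qrr97_star_apply h g v
      have e2 := qrr97_star_c_apply h hc hεc g v
      rw [hs, hs, map_smul] at e2
      have e3 : (2 * s) • ρ g v = (a (c * g) + s * a g) • v := by
        have : (2 * s) • ρ g v = (s • ρ g v - ε g • s • ρ g⁻¹ v) + s • (ρ g v + ε g • ρ g⁻¹ v) := by
          rw [smul_add, smul_comm s (ε g), two_mul, add_smul]
          abel
        rw [this, e1, e2, add_smul, mul_smul]
      have h2s : (2 * s) ≠ 0 := mul_ne_zero h2 hs0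
      rw [mul_comm, mul_smul, ← e3, smul_smul, inv_mul_cancel₀ h2s, one_smul]
    -- the line `K w` is invariant, hence everything
    have hinv : ∀ g : G, ∀ v ∈ Submodule.span K ({w} : Set V), ρ g v ∈ Submodule.span K ({w} : Set V) := by
      intro g v hv
      rw [hscal g v]
      exact Submodule.smul_mem _ _ hv
    rcases hirr _ hinv with h0 | h1
    · exfalso
      apply hw
      have hmem : w ∈ Submodule.span K ({w} : Set V) := Submodule.mem_span_singleton_self w
      rw [h0] at hmem
      exact (Submodule.mem_bot K).1 hmem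
    · have h3 : finrank K (Submodule.span K ({w} : Set V)) = 1 := finrank_span_singleton hw
      rw [h1, finrank_top] at h3
      omega
  · -- non-scalar case: both eigenspaces are lines
    push Not at hsc
    obtain ⟨u₁, hu₁⟩ := hsc 1
    obtain ⟨u₂, hu₂⟩ := hsc (-1)
    rw [one_smul] at hu₁
    rw [neg_one_smul] at hu₂
    -- eigenvectors
    set wm : V := u₁ - ρ c u₁ with hwm
    set wp : V := u₂ + ρ c u₂ with hwp
    have hwm0 : wm ≠ 0 := by
      intro h0
      apply hu₁
      rw [hwm, sub_eq_zero] at h0
      exact h0.symm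
    have hwp0 : wp ≠ 0 := by
      intro h0
      apply hu₂
      rw [hwp] at h0
      rw [eq_neg_iff_add_eq_zero, add_comm]
      exact h0
    have hγm : ρ c wm = -wm := by
      rw [hwm, map_sub, hγγ]; abel
    have hγp : ρ c wp = wp := by
      rw [hwp, map_add, hγγ]; abel
    -- projections of the orbit of `wp` / `wm`
    have hp : ∀ v : V, v + ρ c v ∈ Submodule.span K ({wp, wm} : Set V) := by
      have hle : Submodule.span K (Set.range fun g : G => ρ g wp) ≤
          Submodule.comap ((1 : Module.End K V) + ρ c) (Submodule.span K ({wp, wm} : Set V)) := by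
        rw [Submodule.span_le]
        rintro _ ⟨g, rfl⟩
        simp only [SetLike.mem_coe, Submodule.mem_comap]
        have e1 := qrr97_star_apply h g wp
        have e2 := qrr97_star_c_apply h hc hεc g wp
        rw [hγp] at e2
        have e3 : ((1 : Module.End K V) + ρ c) (ρ g wp) = (a g + a (c * g)) • wp := by
          rw [LinearMap.add_apply, Module.End.one_apply, add_smul, ← e1, ← e2]
          abel
        rw [e3]
        exact Submodule.smul_mem _ _ (Submodule.subset_span (by simp))
      intro v
      have hv : v ∈ Submodule.span K (Set.range fun g : G => ρ g wp) := by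
        rw [qrr97_span_orbit hirr hwp0]; exact Submodule.mem_top
      exact hle hv
    have hm : ∀ v : V, v - ρ c v ∈ Submodule.span K ({wp, wm} : Set V) := by
      have hle : Submodule.span K (Set.range fun g : G => ρ g wm) ≤
          Submodule.comap ((1 : Module.End K V) - ρ c) (Submodule.span K ({wp, wm} : Set V)) := by
        rw [Submodule.span_le]
        rintro _ ⟨g, rfl⟩
        simp only [SetLike.mem_coe, Submodule.mem_comap]
        have e1 := qrr97_star_apply h g wm
        have e2 := qrr97_star_c_apply h hc hεc g wm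
        rw [hγm, map_neg, smul_neg, sub_neg_eq_add] at e2
        have e3 : ((1 : Module.End K V) - ρ c) (ρ g wm) = (a g - a (c * g)) • wm := by
          rw [LinearMap.sub_apply, Module.End.one_apply, sub_smul, ← e1, ← e2]
          abel
        rw [e3]
        exact Submodule.smul_mem _ _ (Submodule.subset_span (by simp))
      intro v
      have hv : v ∈ Submodule.span K (Set.range fun g : G => ρ g wm) := by
        rw [qrr97_span_orbit hirr hwm0]; exact Submodule.mem_top
      exact hle hv
    have htop : (⊤ : Submodule K V) ≤ Submodule.span K ({wp, wm} : Set V) := by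
      intro v _
      have e : v = (2 : K)⁻¹ • ((v + ρ c v) + (v - ρ c v)) := by
        have : (v + ρ c v) + (v - ρ c v) = (2 : K) • v := by rw [two_smul]; abel
        rw [this, smul_smul, inv_mul_cancel₀ h2, one_smul]
      rw [e]
      exact Submodule.smul_mem _ _ (Submodule.add_mem _ (hp v) (hm v))
    have hfin : finrank K (Submodule.span K (({wp, wm} : Finset V) : Set V)) ≤
        ({wp, wm} : Finset V).card := finrank_span_finset_le_card _
    have hcoe : (({wp, wm} : Finset V) : Set V) = ({wp, wm} : Set V) := by
      simp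
    rw [hcoe] at hfin
    have htop' : Submodule.span K ({wp, wm} : Set V) = ⊤ := top_le_iff.1 htop
    rw [htop', finrank_top] at hfin
    exact hfin.trans Finset.card_le_two

end Core

section Final

variable {K : Type} [Field K] {G : Type*} [Group G] {V : Type} [AddCommGroup V] [Module K V]

/-- a minimal nonzero invariant subspace: it is irreducible of dimension `1` or `2`. -/
theorem qrr97_exists_irred_sub [Nontrivial V] [FiniteDimensional K V] (h2 : (2 : K) ≠ 0)
    (ρ : G →* Module.End K V) (ε : G →* K) (a : G → K)
    (h : ∀ g : G, ρ g * ρ g - a g • ρ g + ε g • (1 : Module.End K V) = 0)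
    {c : G} (hc : c * c = 1) (hεc : ε c = -1) :
    ∃ (U : Submodule K V) (hU : ∀ g : G, ∀ v ∈ U, ρ g v ∈ U), U ≠ ⊥ ∧
      qdr_Irred (qdr_restrict ρ U hU) ∧ qdr_Rel (qdr_restrict ρ U hU) ε a ∧
      (finrank K U = 1 ∨ finrank K U = 2) := by
  classical
  have hrel : qdr_Rel ρ ε a := h
  let S : Set (Submodule K V) := {U | U ≠ ⊥ ∧ ∀ g : G, ∀ v ∈ U, ρ g v ∈ U}
  have hS : S.Nonempty := ⟨⊤, top_ne_bot, fun _ _ _ => Submodule.mem_top⟩
  have hwf : WellFounded ((· < ·) : Submodule K V → Submodule K V → Prop) := wellFounded_lt
  have hUS : hwf.min S hS ∈ S := hwf.min_mem S hS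
  have hUmin : ∀ U' ∈ S, ¬ U' < hwf.min S hS := fun U' hU' => hwf.not_lt_min S hU'
  obtain ⟨hU0, hUinv⟩ := hUS
  have hrelU : qdr_Rel (qdr_restrict ρ (hwf.min S hS) hUinv) ε a :=
    qdr_restrict_rel hrel (hwf.min S hS) hUinv
  have hirr : qdr_Irred (qdr_restrict ρ (hwf.min S hS) hUinv) := by
    intro U' hU'
    by_cases h0 : U' = ⊥
    · exact Or.inl h0
    · right
      have hmapS : U'.map (hwf.min S hS).subtype ∈ S := by
        refine ⟨?_, ?_⟩
        · intro hb
          apply h0
          rw [Submodule.eq_bot_iff]
          intro v hv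
          have hv' : (v : V) ∈ U'.map (hwf.min S hS).subtype := ⟨v, hv, rfl⟩
          rw [hb] at hv'
          exact Subtype.ext ((Submodule.mem_bot K).1 hv')
        · rintro g _ ⟨v, hv, rfl⟩
          exact ⟨qdr_restrict ρ (hwf.min S hS) hUinv g v, hU' g v hv, rfl⟩
      have hle : U'.map (hwf.min S hS).subtype ≤ hwf.min S hS :=
        Submodule.map_subtype_le (hwf.min S hS) U'
      have heq : U'.map (hwf.min S hS).subtype = hwf.min S hS :=
        eq_of_le_of_not_lt hle (hUmin _ hmapS)
      rw [eq_top_iff]
      intro v _
      have hv : (v : V) ∈ U'.map (hwf.min S hS).subtype := by rw [heq]; exact v.2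
      obtain ⟨v', hv', hvv⟩ := hv
      have : v' = v := Subtype.ext hvv
      exact this ▸ hv'
  have hle2 : finrank K (hwf.min S hS) ≤ 2 :=
    qrr97_irred_finrank_le_two h2 hrelU hirr hc hεc
  have hpos : 0 < finrank K (hwf.min S hS) := by
    have : Nontrivial (hwf.min S hS) := Submodule.nontrivial_iff_ne_bot.2 hU0
    exact Module.finrank_pos
  exact ⟨hwf.min S hS, hUinv, hU0, hirr, hrelU, by omega⟩

/-- **Lemma R** (rational form of `alm_exists_two_dim`): over ANY field `K` with `2 ≠ 0`, given a
"complex conjugation" `c` (`c * c = 1`, `ε c = -1`). -/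
theorem qrr97_exists_two_dim [Nontrivial V] [FiniteDimensional K V] (h2 : (2 : K) ≠ 0)
    (ρ : G →* Module.End K V) (ε : G →* K) (a : G → K)
    (h : ∀ g : G, ρ g * ρ g - a g • ρ g + ε g • (1 : Module.End K V) = 0)
    {c : G} (hc : c * c = 1) (hεc : ε c = -1) :
    ∃ (W : Type) (_ : AddCommGroup W) (_ : Module K W) (_ : Module.Finite K W)
      (ρ' : G →* Module.End K W),
      finrank K W = 2 ∧
      (∀ g : G, LinearMap.charpoly (ρ' g) = X ^ 2 - C (a g) * X + C (ε g)) ∧
      (∀ g : G, ρ g = 1 → ε g = 1 → ρ' g = 1) := by
  classical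
  obtain ⟨U, hUinv, hU0, hirr, hrelU, hcases⟩ := qrr97_exists_irred_sub h2 ρ ε a h hc hεc
  rcases hcases with h1 | h2'
  · -- one-dimensional: `lam ⊕ ε/lam`
    have hρlam : ∀ g : G, qdr_restrict ρ U hUinv g =
        ((LinearMap.det : Module.End K U →* K).comp (qdr_restrict ρ U hUinv)) g •
          (1 : Module.End K U) := fun g =>
      qdr_eq_det_smul_of_finrank_one h1 (qdr_restrict ρ U hUinv g)
    have hlam0 : ∀ g : G,
        ((LinearMap.det : Module.End K U →* K).comp (qdr_restrict ρ U hUinv)) g ≠ 0 := fun g =>
      qdr_eps_ne_zero' _ g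
    have hnt : Nontrivial U := Submodule.nontrivial_iff_ne_bot.2 hU0
    have hquad : ∀ g : G,
        ((LinearMap.det : Module.End K U →* K).comp (qdr_restrict ρ U hUinv)) g *
          ((LinearMap.det : Module.End K U →* K).comp (qdr_restrict ρ U hUinv)) g -
          a g * ((LinearMap.det : Module.End K U →* K).comp (qdr_restrict ρ U hUinv)) g +
          ε g = 0 := by
      intro g
      have hg := hrelU g
      rw [hρlam g] at hg
      generalize ((LinearMap.det : Module.End K U →* K).comp (qdr_restrict ρ U hUinv)) g = l at hg ⊢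
      have e2 : (l • (1 : Module.End K U)) * (l • (1 : Module.End K U))
          - a g • (l • (1 : Module.End K U)) + ε g • (1 : Module.End K U)
          = (l * l - a g * l + ε g) • (1 : Module.End K U) := by
        simp only [smul_mul_assoc, mul_smul_comm, smul_smul, one_mul, sub_smul, add_smul]
      rw [e2] at hg
      rcases smul_eq_zero.1 hg with h7 | h7
      · exact h7
      · exact absurd h7 one_ne_zero
    refine ⟨Fin 2 → K, inferInstance, inferInstance, inferInstance,
      qdr_diagRep ((LinearMap.det : Module.End K U →* K).comp (qdr_restrict ρ U hUinv))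
        (qdr_mu ((LinearMap.det : Module.End K U →* K).comp (qdr_restrict ρ U hUinv)) ε),
      ?_, ?_, ?_⟩
    · simp
    · intro g
      rw [qdr_diagRep_charpoly]
      have hmu : qdr_mu ((LinearMap.det : Module.End K U →* K).comp (qdr_restrict ρ U hUinv)) ε g
          = ε g * (((LinearMap.det : Module.End K U →* K).comp (qdr_restrict ρ U hUinv)) g)⁻¹ :=
        rfl
      have hl0 := hlam0 g
      have hq := hquad g
      rw [hmu]
      generalize ((LinearMap.det : Module.End K U →* K).comp (qdr_restrict ρ U hUinv)) g = l
        at hl0 hq ⊢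
      have e1 : l + ε g * l⁻¹ = a g := by
        have h3 : l * (l + ε g * l⁻¹) = l * a g := by
          rw [mul_add, ← mul_assoc, mul_comm l (ε g), mul_assoc, mul_inv_cancel₀ hl0, mul_one]
          linear_combination hq
        exact mul_left_cancel₀ hl0 h3
      have e2 : l * (ε g * l⁻¹) = ε g := by
        rw [mul_comm (ε g), ← mul_assoc, mul_inv_cancel₀ hl0, one_mul]
      rw [e1, e2]
    · intro g hg hε
      have hl : ((LinearMap.det : Module.End K U →* K).comp (qdr_restrict ρ U hUinv)) g = 1 := by
        have : qdr_restrict ρ U hUinv g = 1 := by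
          apply LinearMap.ext; intro v; apply Subtype.ext
          rw [qdr_restrict_apply, hg]; rfl
        rw [MonoidHom.comp_apply, this, map_one]
      apply qdr_diagRep_eq_one _ _ _ hl
      change ε g * (((LinearMap.det : Module.End K U →* K).comp (qdr_restrict ρ U hUinv)) g)⁻¹ = 1
      rw [hl, hε, inv_one, mul_one]
  · -- two-dimensional: `U` itself
    refine ⟨U, inferInstance, inferInstance, inferInstance, qdr_restrict ρ U hUinv, h2', ?_, ?_⟩
    · intro g
      exact qdr_charpoly_irred hrelU hirr h2' g
    · intro g hg _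
      apply LinearMap.ext; intro v; apply Subtype.ext
      rw [qdr_restrict_apply, hg]; rfl

end Final

end Fermat.Agent.S42x
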