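/-
S42 project, block B8 (helper4, prefix `eslg_`): GALOIS-EQUIVARIANCE OF THE HECKE OPERATORS on
`JZero N`:  `heckeOperatorBar N ℓ (σ • x) = σ • heckeOperatorBar N ℓ x`  for `σ ∈ Gal(Q̄/ℚ)`.

Abstract part: for a tower `F → F'` of function fields over `K` and semilinear automorphisms
`g` of `F`, `g'` of `F'` compatible with `algebraMap F F'`: `restrict`, `ramificationIndex`,
`inertiaDeg`, `pullback`, `pushforward` are equivariant; hence `Divisor.correspondence φ ψ` and
`Pic0.correspondence φ ψ` commute with `(g, g')` compatible with both `φ` and `ψ`.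
Instance: `arithmeticGalois` at levels `N`, `N ℓ`, `φ = heckeBetaBar`, `ψ = heckeAlphaBar`.
-/
import Mathlib
import Fermat.Prelude.Def_ModularCurve_HeckeModule
import Fermat.Prelude.Thm_ModularCurve_coeffMap_qExpand

set_option autoImplicit false
set_option linter.style.haveILetI false

namespace Fermat.Agent.S42x

open AlgebraicCurve ModularCurve
open scoped Pointwise

noncomputable section

section Abstract

variable {K F F' : Type*} [Field K] [Field F] [Field F']
  [Algebra K F] [Algebra K F'] [Algebra F F'] [IsScalarTower K F F']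
  [Algebra.IsIntegral F F']
variable (g : SemilinearAut K F) (g' : SemilinearAut K F')

/-- compatibility of a pair of semilinear automorphisms with `algebraMap F F'`. -/
def eslg_Compat : Prop := ∀ f : F, g' • algebraMap F F' f = algebraMap F F' (g • f)

variable {g g'}

theorem eslg_Compat.inv (h : eslg_Compat g g') : eslg_Compat g⁻¹ g'⁻¹ := by
  intro f
  have h1 := h (g⁻¹ • f)
  rw [smul_inv_smul] at h1
  rw [← h1, inv_smul_smul]

/-- `restrict` is equivariant. -/
theorem eslg_restrict_smul (h : eslg_Compat g g') (w : Place K F') :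
    (g' • w).restrict F = g • (w.restrict F) := by
  ext f
  rw [Place.mem_restrict_iff, SemilinearAut.smul_toValuationSubring,
    SemilinearAut.smul_toValuationSubring,
    ValuationSubring.mem_pointwise_smul_iff_inv_smul_mem,
    ValuationSubring.mem_pointwise_smul_iff_inv_smul_mem, Place.mem_restrict_iff, h.inv f]

/-- `ord` after `algebraMap` is equivariant. -/
theorem eslg_ord_algebraMap_smul (h : eslg_Compat g g') (w : Place K F') (f : F) :
    (g' • w).ord (algebraMap F F' (g • f)) = w.ord (algebraMap F F' f) := by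
  rw [← h f, SemilinearAut.ord_smul]

/-- `ramificationIndex` is invariant. -/
theorem eslg_ramificationIndex_smul (h : eslg_Compat g g') (w : Place K F') :
    (g' • w).ramificationIndex F = w.ramificationIndex F := by
  unfold Place.ramificationIndex
  congr 1
  ext n
  constructor
  · rintro ⟨hn, f, hf, hfn⟩
    refine ⟨hn, g⁻¹ • f, ?_, ?_⟩
    · intro h0
      apply hf
      have := congrArg (g • ·) h0
      simpa using this
    · rw [← hfn, ← eslg_ord_algebraMap_smul h w (g⁻¹ • f), smul_inv_smul]
  · rintro ⟨hn, f, hf, hfn⟩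
    refine ⟨hn, g • f, ?_, ?_⟩
    · intro h0
      apply hf
      have := congrArg (g⁻¹ • ·) h0
      simpa using this
    · rw [eslg_ord_algebraMap_smul h w f, hfn]

/-- `inertiaDeg` is invariant (when places of `F` have nonzero degree). -/
theorem eslg_inertiaDeg_smul (h : eslg_Compat g g') (hdeg : ∀ v : Place K F, v.deg ≠ 0)
    (w : Place K F') : (g' • w).inertiaDeg F = w.inertiaDeg F := by
  have h1 := (g' • w).deg_restrict_mul_inertiaDeg (F := F)
  have h2 := w.deg_restrict_mul_inertiaDeg (F := F)
  rw [eslg_restrict_smul h, SemilinearAut.deg_smul, SemilinearAut.deg_smul, ← h2] at h1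
  exact Nat.eq_of_mul_eq_mul_left (Nat.pos_of_ne_zero (hdeg _)) h1

/-- `pushforward` is equivariant. -/
theorem eslg_pushforward_smul (h : eslg_Compat g g') (hdeg : ∀ v : Place K F, v.deg ≠ 0)
    (D : Divisor K F') :
    Divisor.pushforward F (g' • D) = g • Divisor.pushforward F D := by
  induction D using Finsupp.induction with
  | zero => simp
  | single_add w n D _ _ ih =>
    rw [smul_add, map_add, map_add, smul_add, ih, SemilinearAut.smul_single,
      Divisor.pushforward_single, Divisor.pushforward_single, SemilinearAut.smul_single,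
      eslg_restrict_smul h, eslg_inertiaDeg_smul h hdeg]

/-- `pullback` is equivariant. -/
theorem eslg_pullback_smul [HasPrincipalDivisors K F'] (h : eslg_Compat g g')
    (D : Divisor K F) :
    Divisor.pullback F' (g • D) = g' • Divisor.pullback F' D := by
  ext w
  rw [Divisor.pullback_apply, SemilinearAut.divisor_smul_apply, SemilinearAut.divisor_smul_apply,
    Divisor.pullback_apply, eslg_restrict_smul h.inv, eslg_ramificationIndex_smul h.inv]

end Abstract

section Along

variable {K F F' : Type*} [Field K] [Field F] [Field F'] [Algebra K F] [Algebra K F']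
variable [HasPrincipalDivisors K F']
variable (φ ψ : F →ₐ[K] F') (hφ : φ.toRingHom.IsIntegral) (hψ : ψ.toRingHom.IsIntegral)
variable (g : SemilinearAut K F) (g' : SemilinearAut K F')

/-- a correspondence `ψ_* φ^*` commutes with a pair `(g, g')` compatible with `φ` and `ψ`. -/
theorem eslg_correspondence_smul (hgφ : ∀ f, g' • φ f = φ (g • f))
    (hgψ : ∀ f, g' • ψ f = ψ (g • f)) (hdeg : ∀ v : Place K F, v.deg ≠ 0) (D : Divisor K F) :
    Divisor.correspondence φ ψ hφ hψ (g • D) = g • Divisor.correspondence φ ψ hφ hψ D := by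
  rw [Divisor.correspondence_apply, Divisor.correspondence_apply]
  have h1 : Divisor.pullbackAlong φ hφ (g • D) = g' • Divisor.pullbackAlong φ hφ D := by
    letI := algebraAlong φ
    haveI := isScalarTower_along φ
    haveI := isIntegral_along φ hφ
    exact eslg_pullback_smul (g := g) (g' := g') hgφ D
  have h2 : ∀ D' : Divisor K F',
      Divisor.pushforwardAlong ψ hψ (g' • D') = g • Divisor.pushforwardAlong ψ hψ D' := by
    intro D'
    letI := algebraAlong ψ
    haveI := isScalarTower_along ψ
    haveI := isIntegral_along ψ hψ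
    exact eslg_pushforward_smul (g := g) (g' := g') hgψ hdeg D'
  rw [h1, h2]

/-- the same on `Pic0`. -/
theorem eslg_pic0_correspondence_smul (hFI : FundamentalIdentityAlong K φ hφ)
    (hfin : FiniteAlong K ψ) (hN : NormFormulaAlong K ψ hfin)
    (hgφ : ∀ f, g' • φ f = φ (g • f))
    (hgψ : ∀ f, g' • ψ f = ψ (g • f)) (hdeg : ∀ v : Place K F, v.deg ≠ 0) (x : Pic0 K F) :
    Pic0.correspondence φ ψ hφ hψ hFI hfin hN (g • x) =
      g • Pic0.correspondence φ ψ hφ hψ hFI hfin hN x := by
  obtain ⟨D, rfl⟩ := Pic0.mk_surjective x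
  rw [SemilinearAut.pic0_smul_mk, Pic0.correspondence_mk, Pic0.correspondence_mk,
    SemilinearAut.pic0_smul_mk]
  refine congrArg Pic0.mk (Subtype.ext ?_)
  rw [Pic0.coe_degZeroCorrespondence, SemilinearAut.coe_degZeroSMulHom,
    SemilinearAut.coe_degZeroSMulHom, Pic0.coe_degZeroCorrespondence]
  exact eslg_correspondence_smul φ ψ hφ hψ g g' hgφ hgψ hdeg (D : Divisor K F)

end Along

section Modular

local notation "Q̄" => AlgebraicClosure ℚ

variable (N : ℕ) [NeZero N] (ℓ : ℕ) [NeZero ℓ]

/-- the arithmetic Galois action commutes with `α` (inclusion of levels). -/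
theorem eslg_alpha_compat (σ : Q̄ ≃ₐ[ℚ] Q̄) (f : modularFunctionFieldBar N) :
    arithmeticGalois (modularFunctionFieldFull (N * ℓ)) σ • heckeAlphaBar Q̄ N ℓ f =
      heckeAlphaBar Q̄ N ℓ (arithmeticGalois (modularFunctionFieldFull N) σ • f) := by
  apply Subtype.ext
  rw [coe_arithmeticGalois_smul, coe_heckeAlphaBar, coe_heckeAlphaBar, coe_arithmeticGalois_smul]

/-- the arithmetic Galois action commutes with `β` (`q ↦ q^ℓ`). -/
theorem eslg_beta_compat (σ : Q̄ ≃ₐ[ℚ] Q̄) (f : modularFunctionFieldBar N) :
    arithmeticGalois (modularFunctionFieldFull (N * ℓ)) σ • heckeBetaBar Q̄ N ℓ f =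
      heckeBetaBar Q̄ N ℓ (arithmeticGalois (modularFunctionFieldFull N) σ • f) := by
  apply Subtype.ext
  rw [coe_arithmeticGalois_smul, coe_heckeBetaBar, coe_heckeBetaBar, coe_arithmeticGalois_smul,
    ModularCurve.coeffMap_qExpand]

/-- **Galois-equivariance of `heckeOperatorAlong`** on `JZero N` (places of degree `≠ 0`). -/
theorem eslg_heckeOperatorAlong_smul
    (hdeg : ∀ v : Place Q̄ (modularFunctionFieldBar N), v.deg ≠ 0)
    (σ : Q̄ ≃ₐ[ℚ] Q̄) (x : JZero N) :
    heckeOperatorAlong Q̄ N ℓ (σ • x) = σ • heckeOperatorAlong Q̄ N ℓ x := by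
  by_cases h : HeckeInputsAlong Q̄ N ℓ
  · obtain ⟨hα, hβ, hP, hfin, hFI, hN⟩ := h
    haveI := hP
    rw [heckeOperatorAlong_eq hα hβ hFI hfin hN]
    exact eslg_pic0_correspondence_smul (heckeBetaBar Q̄ N ℓ) (heckeAlphaBar Q̄ N ℓ) hβ hα
      (arithmeticGalois (modularFunctionFieldFull N) σ)
      (arithmeticGalois (modularFunctionFieldFull (N * ℓ)) σ) hFI hfin hN
      (eslg_beta_compat N ℓ σ) (eslg_alpha_compat N ℓ σ) hdeg x
  · rw [heckeOperatorAlong_of_not h, AddMonoidHom.zero_apply, AddMonoidHom.zero_apply]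
    exact (map_zero (DistribSMul.toAddMonoidHom (JZero N) σ)).symm

/-- **Galois-equivariance of `heckeOperatorBar`** on `JZero N` (places of degree `≠ 0`). -/
theorem eslg_heckeOperatorBar_smul_of_deg (p : Nat.Primes)
    (hdeg : ∀ v : Place Q̄ (modularFunctionFieldBar N), v.deg ≠ 0)
    (σ : Q̄ ≃ₐ[ℚ] Q̄) (x : JZero N) :
    heckeOperatorBar N p (σ • x) = σ • heckeOperatorBar N p x := by
  haveI : NeZero (p : ℕ) := ⟨p.2.ne_zero⟩
  rw [heckeOperatorBar_apply, heckeOperatorBar_apply]
  exact eslg_heckeOperatorAlong_smul N (p : ℕ) hdeg σ x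

end Modular

end

end Fermat.Agent.S42x
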