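/-
S42 project, block B8 (helper4, prefix `esl_`): the two facts on prime-to-`ℓ` torsion of
`J₀(N)(Q̄)` that the S18/S37 machinery gives for `ℓ ∤ N`, WITHOUT the commutation hypotheses of the
packaged S37 statement:

* `esl_hES`              : per `(ℓ, A)` the three clauses (inertia-invariance, Frobenius-equivariance,
                            Eichler–Shimura) of the reduction map, closed (all inputs from main);
* `esl_inertia_trivial`  : inertia at `A` acts trivially on prime-to-`ℓ` torsion;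
* `esl_frob_quadratic`   : `σ² x - T_ℓ (σ x) + ℓ x = 0` for every Frobenius element `σ` at `A` and
                            every prime-to-`ℓ` torsion point `x`, given that `T_ℓ` commutes with `σ`.
-/
import Mathlib
import Fermat.Agent.S18
import Fermat.Agent.S37x.S37Final
import Fermat.Agent.S37x.CtmHRClosed

set_option autoImplicit false
set_option synthInstance.maxHeartbeats 400000
set_option linter.style.haveILetI false

namespace Fermat.Agent.S42x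

open ModularCurve AlgebraicCurve ValuationSubring
open Fermat.Agent.S18x Fermat.Agent.S24x Fermat.Agent.S28x Fermat.Agent.S37x

local notation "Q̄" => AlgebraicClosure ℚ

noncomputable section

/-- the closed Eichler–Shimura package at `(ℓ, A)`, `ℓ ∤ N`. -/
theorem esl_hES (N : ℕ) [NeZero N] (ℓ : ℕ) (hℓ : ℓ.Prime) (hℓN : ¬ ℓ ∣ N)
    (A : ValuationSubring Q̄) (hA : A.LiesOverPrime ℓ) :
    ∃ φ : JZeroC (IsLocalRing.ResidueField A) N ≃+ JZeroC (IsLocalRing.ResidueField A) N,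
      (∀ τ ∈ A.inertiaSubgroupIn ℚ, ∀ x : JZero N,
        reductionModL A N (τ • x) = reductionModL A N x) ∧
      (∀ σ : Q̄ ≃ₐ[ℚ] Q̄, A.IsFrobeniusAt σ ℓ →
        ∀ x : JZero N, reductionModL A N (σ • x) = φ (reductionModL A N x)) ∧
      (∀ x : JZero N, reductionModL A N (heckeOperatorBar N ⟨ℓ, hℓ⟩ x) =
        φ (reductionModL A N x) + ℓ • φ.symm (reductionModL A N x)) := by
  haveI : Fact ℓ.Prime := ⟨hℓ⟩
  haveI : NeZero ℓ := ⟨hℓ.ne_zero⟩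
  haveI := glu_charP A hℓ hA
  haveI := s37t_perfectRing A ℓ
  have hTwo : ∀ (A : ValuationSubring Q̄) (hA : A.LiesOverPrime 2) (h29 : ¬ 2 ∣ 9 * N),
      haveI : Fact (Nat.Prime 2) := ⟨Nat.prime_two⟩
      nrmt_HY (9 * N) A 2 h29 hA := fun A hA h29 => cthf_HY_two N A hA h29
  have hOdd : ∀ (ℓ : ℕ) [Fact ℓ.Prime], ℓ ≠ 2 →
      ∀ (A : ValuationSubring Q̄) (hA : A.LiesOverPrime ℓ) (h4 : ¬ ℓ ∣ 4 * N),
        nrmt_HY (4 * N) A ℓ h4 hA := fun ℓ _ hl A hA h4 => cthf_HY_odd ℓ hl N A hA h4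
  have hH : HeckeInputsAlong Q̄ N ((⟨ℓ, hℓ⟩ : Nat.Primes) : ℕ) :=
    hif_heckeInputsAlong N ((⟨ℓ, hℓ⟩ : Nat.Primes) : ℕ)
  obtain ⟨hα, hβ, hP, hfin, hFI, hN⟩ := hH
  haveI := hP
  exact es7_hES ⟨ℓ, hℓ⟩ (cthf_hR N ℓ hℓ hℓN A hA) (cfb_frob (IsLocalRing.ResidueField A) N ℓ)
    hα hβ hP hFI hfin hN
    (gcf_hI _ hℓN hA (s37f_normality N hTwo hOdd ℓ hℓN A hA _))
    (gcf_hF _ hℓN hA (s37f_normality N hTwo hOdd ℓ hℓN A hA _))
    (fun P => s37f_hT N A _ ℓ hℓN hA (s37f_HY N hTwo hOdd ℓ hℓN A hA) P)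

/-- abstract computation behind `esl_frob_quadratic`. -/
theorem esl_abstract_red {J G : Type*} [AddCommGroup J] [AddCommGroup G] (r : J →+ G)
    (φ : G ≃+ G) (ℓ : ℕ) (x sx ssx tsx : J) (h1 : r sx = φ (r x)) (h2 : r ssx = φ (r sx))
    (h3 : r tsx = φ (r sx) + ℓ • φ.symm (r sx)) : r (ssx - tsx + ℓ • x) = 0 := by
  rw [map_add, map_sub, map_nsmul, h2, h3, h1, AddEquiv.symm_apply_apply]
  abel

/-- abstract computation behind the torsion clause. -/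
theorem esl_abstract_tors {J : Type*} [AddCommGroup J] (m ℓ : ℕ) (x ssx tsx : J)
    (h1 : m • ssx = 0) (h2 : m • tsx = 0) (hx : m • x = 0) : m • (ssx - tsx + ℓ • x) = 0 := by
  rw [nsmul_add, nsmul_sub, h1, h2, smul_comm, hx, nsmul_zero, sub_zero, add_zero]

/-- Galois elements act additively: compatibility with `ℕ`-multiples. -/
theorem esl_smul_nsmul (N : ℕ) (σ : Q̄ ≃ₐ[ℚ] Q̄) (m : ℕ) (x : JZero N) :
    σ • (m • x) = m • (σ • x) :=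
  map_nsmul (DistribSMul.toAddMonoidHom (JZero N) σ) m x

theorem esl_smul_zero (N : ℕ) (σ : Q̄ ≃ₐ[ℚ] Q̄) : σ • (0 : JZero N) = 0 :=
  map_zero (DistribSMul.toAddMonoidHom (JZero N) σ)

/-- **inertia at `A` acts trivially on prime-to-`ℓ` torsion** (`ℓ ∤ N`). -/
theorem esl_inertia_trivial (N : ℕ) [NeZero N] (ℓ : ℕ) (hℓ : ℓ.Prime) (hℓN : ¬ ℓ ∣ N)
    (A : ValuationSubring Q̄) (hA : A.LiesOverPrime ℓ) (m : ℕ) (hm : ¬ ℓ ∣ m)
    (x : JZero N) (hx : m • x = 0) (τ : Q̄ ≃ₐ[ℚ] Q̄) (hτ : τ ∈ A.inertiaSubgroupIn ℚ) :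
    τ • x = x := by
  haveI : Fact ℓ.Prime := ⟨hℓ⟩
  obtain ⟨φ, hb, -, -⟩ := esl_hES N ℓ hℓ hℓN A hA
  have h0 : τ • x - x = 0 := by
    refine Fermat.Agent.S18.result N hℓN A hA (cthf_hR N ℓ hℓ hℓN A hA) m hm _ ?_ ?_
    · rw [nsmul_sub, ← esl_smul_nsmul, hx, esl_smul_zero, sub_self]
    · rw [map_sub, hb τ hτ x, sub_self]
  exact sub_eq_zero.mp h0

/-- **Eichler–Shimura on prime-to-`ℓ` torsion**: `σ² x - T_ℓ (σ x) + ℓ x = 0` for every Frobenius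
element `σ` at `A` (`ℓ ∤ N`); no commutation hypothesis. -/
theorem esl_frob_quadratic (N : ℕ) [NeZero N] (ℓ : ℕ) (hℓ : ℓ.Prime) (hℓN : ¬ ℓ ∣ N)
    (A : ValuationSubring Q̄) (hA : A.LiesOverPrime ℓ) (m : ℕ) (hm : ¬ ℓ ∣ m)
    (x : JZero N) (hx : m • x = 0) (σ : Q̄ ≃ₐ[ℚ] Q̄) (hσ : A.IsFrobeniusAt σ ℓ) :
    σ • σ • x - heckeOperatorBar N ⟨ℓ, hℓ⟩ (σ • x) + ℓ • x = 0 := by
  haveI : Fact ℓ.Prime := ⟨hℓ⟩
  obtain ⟨φ, -, hc, he⟩ := esl_hES N ℓ hℓ hℓN A hA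
  refine Fermat.Agent.S18.result N hℓN A hA (cthf_hR N ℓ hℓ hℓN A hA) m hm _ ?_ ?_
  · have h1 : m • (σ • σ • x) = 0 := by
      rw [← esl_smul_nsmul, ← esl_smul_nsmul, hx, esl_smul_zero, esl_smul_zero]
    have h2 : m • (heckeOperatorBar N ⟨ℓ, hℓ⟩ (σ • x)) = 0 := by
      rw [← map_nsmul, ← esl_smul_nsmul, hx, esl_smul_zero, map_zero]
    exact esl_abstract_tors m ℓ x _ _ h1 h2 hx
  · exact esl_abstract_red (reductionModL A N) φ ℓ x (σ • x) (σ • σ • x)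
      (heckeOperatorBar N ⟨ℓ, hℓ⟩ (σ • x)) (hc σ hσ x) (hc σ hσ (σ • x)) (he (σ • x))

/-- the same with `T_ℓ` moved outside, when `T_ℓ` commutes with `σ`. -/
theorem esl_frob_quadratic' (N : ℕ) [NeZero N] (ℓ : ℕ) (hℓ : ℓ.Prime) (hℓN : ¬ ℓ ∣ N)
    (A : ValuationSubring Q̄) (hA : A.LiesOverPrime ℓ) (m : ℕ) (hm : ¬ ℓ ∣ m)
    (x : JZero N) (hx : m • x = 0) (σ : Q̄ ≃ₐ[ℚ] Q̄) (hσ : A.IsFrobeniusAt σ ℓ)
    (hcomm : heckeOperatorBar N ⟨ℓ, hℓ⟩ (σ • x) = σ • heckeOperatorBar N ⟨ℓ, hℓ⟩ x) :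
    σ • σ • x - σ • heckeOperatorBar N ⟨ℓ, hℓ⟩ x + ℓ • x = 0 := by
  rw [← hcomm]
  exact esl_frob_quadratic N ℓ hℓ hℓN A hA m hm x hx σ hσ

end

end Fermat.Agent.S42x
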