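/-
S42 project, block B8 FINAL EXPORTS (helper4, prefix `esl_`), all hypothesis-free:

* `esl_heckeOperatorBar_smul` : `T_ℓ (σ • x) = σ • T_ℓ x` on `JZero N` for all `σ ∈ Gal(Q̄/ℚ)`, all primes;
* `esl_frob_quadratic_closed` : `σ² x - σ (T_ℓ x) + ℓ x = 0` for every Frobenius element `σ` at a place
  `A` over `ℓ ∤ N` and every `x ∈ JZero N` killed by some `m` prime to `ℓ`;
* `esl_frob_quadratic_ppow`   : the same for `x` killed by `p ^ n`, `p ≠ ℓ` prime;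
* `esl_inertia_trivial_ppow`  : inertia at `A` acts trivially on `p`-power torsion, `p ≠ ℓ`.
(`esl_inertia_trivial`, `esl_frob_quadratic`, `esl_hES` are in `ESlQuad`.)
-/
import Mathlib
import Fermat.Agent.S42x.ESlQuad
import Fermat.Agent.S42x.ESlGalois

set_option autoImplicit false
set_option synthInstance.maxHeartbeats 400000
set_option linter.style.haveILetI false

namespace Fermat.Agent.S42x

open ModularCurve AlgebraicCurve ValuationSubring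
open Fermat.Agent.S37x

local notation "Q̄" => AlgebraicClosure ℚ

noncomputable section

/-- **Galois-equivariance of the Hecke operators on `JZero N`** (hypothesis-free). -/
theorem esl_heckeOperatorBar_smul (N : ℕ) [NeZero N] (p : Nat.Primes) (σ : Q̄ ≃ₐ[ℚ] Q̄)
    (x : JZero N) : heckeOperatorBar N p (σ • x) = σ • heckeOperatorBar N p x :=
  eslg_heckeOperatorBar_smul_of_deg N p
    (fun v => by rw [hif_deg_eq_one N v]; exact one_ne_zero) σ x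

/-- **Eichler–Shimura on prime-to-`ℓ` torsion, final form**: `σ² x - σ (T_ℓ x) + ℓ x = 0`. -/
theorem esl_frob_quadratic_closed (N : ℕ) [NeZero N] (ℓ : ℕ) (hℓ : ℓ.Prime) (hℓN : ¬ ℓ ∣ N)
    (A : ValuationSubring Q̄) (hA : A.LiesOverPrime ℓ) (m : ℕ) (hm : ¬ ℓ ∣ m)
    (x : JZero N) (hx : m • x = 0) (σ : Q̄ ≃ₐ[ℚ] Q̄) (hσ : A.IsFrobeniusAt σ ℓ) :
    σ • σ • x - σ • heckeOperatorBar N ⟨ℓ, hℓ⟩ x + ℓ • x = 0 :=
  esl_frob_quadratic' N ℓ hℓ hℓN A hA m hm x hx σ hσ (esl_heckeOperatorBar_smul N ⟨ℓ, hℓ⟩ σ x)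

theorem esl_not_dvd_pow {ℓ p : ℕ} (hℓ : ℓ.Prime) (hp : p.Prime) (hℓp : ℓ ≠ p) (n : ℕ) :
    ¬ ℓ ∣ p ^ n := fun h =>
  hℓp ((Nat.prime_dvd_prime_iff_eq hℓ hp).mp (hℓ.dvd_of_dvd_pow h))

/-- the same on `p`-power torsion, `p ≠ ℓ`. -/
theorem esl_frob_quadratic_ppow (N : ℕ) [NeZero N] (ℓ : ℕ) (hℓ : ℓ.Prime) (hℓN : ¬ ℓ ∣ N)
    (A : ValuationSubring Q̄) (hA : A.LiesOverPrime ℓ) (p : ℕ) (hp : p.Prime) (hℓp : ℓ ≠ p)
    (n : ℕ) (x : JZero N) (hx : p ^ n • x = 0) (σ : Q̄ ≃ₐ[ℚ] Q̄) (hσ : A.IsFrobeniusAt σ ℓ) :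
    σ • σ • x - σ • heckeOperatorBar N ⟨ℓ, hℓ⟩ x + ℓ • x = 0 :=
  esl_frob_quadratic_closed N ℓ hℓ hℓN A hA (p ^ n) (esl_not_dvd_pow hℓ hp hℓp n) x hx σ hσ

/-- inertia at `A` (over `ℓ ∤ N`) acts trivially on `p`-power torsion, `p ≠ ℓ`. -/
theorem esl_inertia_trivial_ppow (N : ℕ) [NeZero N] (ℓ : ℕ) (hℓ : ℓ.Prime) (hℓN : ¬ ℓ ∣ N)
    (A : ValuationSubring Q̄) (hA : A.LiesOverPrime ℓ) (p : ℕ) (hp : p.Prime) (hℓp : ℓ ≠ p)
    (n : ℕ) (x : JZero N) (hx : p ^ n • x = 0) (τ : Q̄ ≃ₐ[ℚ] Q̄)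
    (hτ : τ ∈ A.inertiaSubgroupIn ℚ) : τ • x = x :=
  esl_inertia_trivial N ℓ hℓ hℓN A hA (p ^ n) (esl_not_dvd_pow hℓ hp hℓp n) x hx τ hτ

end

end Fermat.Agent.S42x
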