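/-
S42x/OpenStab (helper36; S42 project, block B11, leaf X2; prefix `ost_`): OPEN STABILISERS.

Every class `x : JZero N` is fixed by `Gal(ℚ̄/E)` for a NUMBER FIELD `E ⊆ ℚ̄`
(`ost_jzero_fixed`, in the shape of the Prelude's `GaloisFactorsThroughFiniteLevel`).
This is what turns "finite image" into "factors through a number field" (a finite-index subgroup
of `G_ℚ` need not be open).

Generic core (any function field `F/K` with a coordinate `t`, `K` of characteristic zero):
* `ost_place_fixed_of_mem` : for a place `v` with `t ∈ O_v` there is a FINITE set `s ⊆ F` such that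
  every semilinear automorphism `g` of `F/K` fixing `s` pointwise fixes `v`
  (`v` is the place of the Dedekind ring `ringB K t` at a finitely generated prime `P`);
* `ost_place_fixed` : the same for every place (use `t⁻¹` at the poles of `t`);
* `ost_divisor_fixed`, `ost_pic0_fixed` : the same for divisors and classes.

Arithmetic part: `ost_elt_fixed` : every `y ∈ laurentBaseChange L F₀` (`L/ℚ` algebraic) is fixed by
`Gal(L/E)`, `E/ℚ` finite (adjoin induction).
-/
import Mathlib
import Fermat.Prelude.Def_ModularCurve_ArithmeticGalois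
import Fermat.Agent.S24x.PlacePrime
import Fermat.Agent.S24x.PlaceDedekind
import Fermat.Agent.S24x.CoveringDedekind
import Fermat.Agent.S24x.CoveringRing
import Fermat.Agent.S24x.FBarFinite

set_option autoImplicit false
set_option linter.style.haveILetI false

namespace Fermat.Agent.S42x

open AlgebraicCurve IsDedekindDomain IntermediateField ModularCurve Fermat.Agent.S24x

noncomputable section

/-! ### Generic core -/

section Generic

variable {K F : Type*} [Field K] [CharZero K] [Field F] [Algebra K F]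

/-- a place `v` with `t ∈ O_v` is fixed by every semilinear automorphism fixing a suitable finite
subset of `F` (containing `t`). -/
theorem ost_place_fixed_of_mem (t : F) [FFData K F t] (v : Place K F)
    (ht : t ∈ v.toValuationSubring) :
    ∃ s : Finset F, ∀ g : SemilinearAut K F, (∀ y ∈ s, g • y = y) → g • v = v := by
  classical
  obtain ⟨P, hP⟩ := exists_ofHeightOneSpectrum_of_le (ringB K t) v (cr_mem_place t v ht)
  -- generators of `P`
  have hfg : P.asIdeal.FG := IsNoetherian.noetherian P.asIdeal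
  obtain ⟨s0, hs0⟩ := hfg
  refine ⟨insert t (s0.image fun r : ringB K t => algebraMap (ringB K t) F r), ?_⟩
  intro g hg
  have hgt : g • t = t := hg t (Finset.mem_insert_self _ _)
  have hgs : ∀ r ∈ s0, g • algebraMap (ringB K t) F r = algebraMap (ringB K t) F r := by
    intro r hr
    exact hg _ (Finset.mem_insert_of_mem (Finset.mem_image_of_mem _ hr))
  -- `t ∈ O_{g v}`
  have ht' : t ∈ (g • v).toValuationSubring := by
    rw [SemilinearAut.smul_toValuationSubring, ← hgt]
    exact ValuationSubring.smul_mem_pointwise_smul g t v.toValuationSubring ht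
  obtain ⟨P', hP'⟩ := exists_ofHeightOneSpectrum_of_le (ringB K t) (g • v)
    (cr_mem_place t (g • v) ht')
  -- `P ⊆ P'`
  have hle : P.asIdeal ≤ P'.asIdeal := by
    rw [← hs0, Ideal.span_le]
    intro r hr
    have hrP : r ∈ P.asIdeal := by
      rw [← hs0]; exact Ideal.subset_span hr
    rcases eq_or_ne r 0 with rfl | hr0
    · exact zero_mem _
    have h1 : 0 < v.ord (algebraMap (ringB K t) F r) := by
      rw [hP]; exact (cov_ord_pos_iff (K := K) (F := F) (ringB K t) P r).mpr ⟨hrP, hr0⟩
    have h2 : 0 < (g • v).ord (algebraMap (ringB K t) F r) := by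
      have := SemilinearAut.ord_smul g v (algebraMap (ringB K t) F r)
      rw [hgs r hr] at this
      rw [this]; exact h1
    rw [hP'] at h2
    exact ((cov_ord_pos_iff (K := K) (F := F) (ringB K t) P' r).mp h2).1
  have heq : P.asIdeal = P'.asIdeal :=
    P.isMaximal.eq_of_le P'.isPrime.ne_top hle
  have hPP' : P = P' := HeightOneSpectrum.ext heq
  rw [hP', ← hPP', ← hP]

/-- every place of a function field with a coordinate is fixed by every semilinear automorphism
fixing a suitable finite subset of `F`. -/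
theorem ost_place_fixed {t : F} (ht : IsCoordinate K F t) (v : Place K F) :
    ∃ s : Finset F, ∀ g : SemilinearAut K F, (∀ y ∈ s, g • y = y) → g • v = v := by
  by_cases hmem : t ∈ v.toValuationSubring
  · haveI : FFData K F t := cr_ffData ht
    exact ost_place_fixed_of_mem t v hmem
  · haveI : FFData K F t⁻¹ := cr_ffData_inv ht
    have hinv : t⁻¹ ∈ v.toValuationSubring :=
      (v.toValuationSubring.mem_or_inv_mem t).resolve_left hmem
    exact ost_place_fixed_of_mem t⁻¹ v hinv

/-- the same for divisors. -/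
theorem ost_divisor_fixed {t : F} (ht : IsCoordinate K F t) (D : Divisor K F) :
    ∃ s : Finset F, ∀ g : SemilinearAut K F, (∀ y ∈ s, g • y = y) → g • D = D := by
  classical
  induction D using Finsupp.induction with
  | zero => exact ⟨∅, fun g _ => smul_zero g⟩
  | single_add v n D _ _ ih =>
    obtain ⟨s1, h1⟩ := ost_place_fixed ht v
    obtain ⟨s2, h2⟩ := ih
    refine ⟨s1 ∪ s2, fun g hg => ?_⟩
    rw [smul_add, SemilinearAut.smul_single,
      h1 g (fun y hy => hg y (Finset.mem_union_left _ hy)),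
      h2 g (fun y hy => hg y (Finset.mem_union_right _ hy))]

/-- the same for divisor classes of degree zero. -/
theorem ost_pic0_fixed {t : F} (ht : IsCoordinate K F t) (x : Pic0 K F) :
    ∃ s : Finset F, ∀ g : SemilinearAut K F, (∀ y ∈ s, g • y = y) → g • x = x := by
  obtain ⟨D, rfl⟩ := Pic0.mk_surjective x
  obtain ⟨s, hs⟩ := ost_divisor_fixed ht (D : Divisor K F)
  refine ⟨s, fun g hg => ?_⟩
  rw [SemilinearAut.pic0_smul_mk]
  exact congrArg Pic0.mk (Subtype.ext (by rw [SemilinearAut.coe_degZeroSMulHom, hs g hg]))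

end Generic

/-! ### Arithmetic part: elements of `laurentBaseChange L F₀` have open stabilisers -/

section Arithmetic

variable {L : Type*} [Field L] [Algebra ℚ L] [Algebra.IsAlgebraic ℚ L]

/-- the predicate "fixed by `Gal(L/E)` for some finite `E/ℚ`" on Laurent series. -/
def ost_Fixed (x : LaurentSeries L) : Prop :=
  ∃ E : IntermediateField ℚ L, FiniteDimensional ℚ E ∧
    ∀ σ : L ≃ₐ[ℚ] L, (∀ a ∈ E, σ a = a) → coeffMap (σ : L →+* L) x = x

omit [Algebra.IsAlgebraic ℚ L] in
theorem ost_Fixed.sup {x y : LaurentSeries L} (hx : ost_Fixed x) (hy : ost_Fixed y) :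
    ∃ E : IntermediateField ℚ L, FiniteDimensional ℚ E ∧
      ∀ σ : L ≃ₐ[ℚ] L, (∀ a ∈ E, σ a = a) →
        coeffMap (σ : L →+* L) x = x ∧ coeffMap (σ : L →+* L) y = y := by
  obtain ⟨E1, hE1, h1⟩ := hx
  obtain ⟨E2, hE2, h2⟩ := hy
  haveI := hE1
  haveI := hE2
  refine ⟨E1 ⊔ E2, IntermediateField.finiteDimensional_sup E1 E2, fun σ hσ => ⟨?_, ?_⟩⟩
  · exact h1 σ fun a ha => hσ a ((le_sup_left : E1 ≤ E1 ⊔ E2) ha)
  · exact h2 σ fun a ha => hσ a ((le_sup_right : E2 ≤ E1 ⊔ E2) ha)

/-- every element of `laurentBaseChange L F₀` is fixed by `Gal(L/E)` for a finite `E/ℚ`. -/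
theorem ost_elt_fixed (F₀ : IntermediateField ℚ (LaurentSeries ℚ)) {x : LaurentSeries L}
    (hx : x ∈ laurentBaseChange L F₀) : ost_Fixed x := by
  unfold laurentBaseChange at hx
  induction hx using IntermediateField.adjoin_induction with
  | mem y hy =>
    obtain ⟨z, -, rfl⟩ := hy
    exact ⟨⊥, inferInstance, fun σ _ => coeffMap_coeffEmb σ z⟩
  | algebraMap c =>
    refine ⟨ℚ⟮c⟯, IntermediateField.adjoin.finiteDimensional
      (Algebra.IsIntegral.isIntegral c), fun σ hσ => ?_⟩
    rw [coeffMap_algebraMap]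
    congr 1
    exact hσ c (IntermediateField.mem_adjoin_simple_self ℚ c)
  | add y z _ _ hy hz =>
    obtain ⟨E, hE, h⟩ := hy.sup hz
    exact ⟨E, hE, fun σ hσ => by rw [map_add, (h σ hσ).1, (h σ hσ).2]⟩
  | inv y _ hy =>
    obtain ⟨E, hE, h⟩ := hy
    exact ⟨E, hE, fun σ hσ => by rw [map_inv₀, h σ hσ]⟩
  | mul y z _ _ hy hz =>
    obtain ⟨E, hE, h⟩ := hy.sup hz
    exact ⟨E, hE, fun σ hσ => by rw [map_mul, (h σ hσ).1, (h σ hσ).2]⟩

/-- finitely many elements of `laurentBaseChange L F₀` are simultaneously fixed by `Gal(L/E)`. -/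
theorem ost_finset_fixed (F₀ : IntermediateField ℚ (LaurentSeries ℚ))
    (s : Finset (laurentBaseChange L F₀)) :
    ∃ E : IntermediateField ℚ L, FiniteDimensional ℚ E ∧
      ∀ σ : L ≃ₐ[ℚ] L, (∀ a ∈ E, σ a = a) → ∀ y ∈ s, arithmeticGalois F₀ σ • y = y := by
  classical
  induction s using Finset.induction_on with
  | empty => exact ⟨⊥, inferInstance, fun _ _ y hy => absurd hy (Finset.notMem_empty y)⟩
  | insert y s _ ih =>
    obtain ⟨E1, hE1, h1⟩ := ost_elt_fixed F₀ y.2
    obtain ⟨E2, hE2, h2⟩ := ih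
    haveI := hE1
    haveI := hE2
    refine ⟨E1 ⊔ E2, IntermediateField.finiteDimensional_sup E1 E2, fun σ hσ z hz => ?_⟩
    rcases Finset.mem_insert.mp hz with rfl | hz
    · apply Subtype.ext
      rw [coe_arithmeticGalois_smul]
      exact h1 σ fun a ha => hσ a ((le_sup_left : E1 ≤ E1 ⊔ E2) ha)
    · exact h2 σ (fun a ha => hσ a ((le_sup_right : E2 ≤ E1 ⊔ E2) ha)) z hz

/-- **open stabilisers on `Pic⁰`** of `laurentBaseChange L F₀` (with a coordinate, `L` of
characteristic zero, algebraic over `ℚ`). -/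
theorem ost_pic0_galois_fixed [CharZero L] (F₀ : IntermediateField ℚ (LaurentSeries ℚ))
    {t : laurentBaseChange L F₀} (ht : IsCoordinate L (laurentBaseChange L F₀) t)
    (x : Pic0 L (laurentBaseChange L F₀)) :
    ∃ E : IntermediateField ℚ L, FiniteDimensional ℚ E ∧
      ∀ σ : L ≃ₐ[ℚ] L, (∀ a ∈ E, σ a = a) → σ • x = x := by
  obtain ⟨s, hs⟩ := ost_pic0_fixed ht x
  obtain ⟨E, hE, h⟩ := ost_finset_fixed F₀ s
  exact ⟨E, hE, fun σ hσ => hs (arithmeticGalois F₀ σ) (h σ hσ)⟩

end Arithmetic

/-! ### The modular case -/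

/-- `ℚ̄/ℚ` is algebraic, for the `ℚ`-algebra structure found by instance search. -/
theorem ost_isAlgebraic_qbar : Algebra.IsAlgebraic ℚ (AlgebraicClosure ℚ) := by
  have h : @Algebra.IsAlgebraic ℚ (AlgebraicClosure ℚ) _ _
      (AlgebraicClosure.instAlgebra (k := ℚ)) := inferInstance
  convert h
  exact Subsingleton.elim _ _

/-- **OPEN STABILISERS on `J₀(N)(ℚ̄)`**: every class is fixed by `Gal(ℚ̄/E)` for a number field
`E ⊆ ℚ̄` (shape of the Prelude's `GaloisFactorsThroughFiniteLevel`). -/
theorem ost_jzero_fixed (N : ℕ) [NeZero N] (x : JZero N) :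
    ∃ E : IntermediateField ℚ (AlgebraicClosure ℚ), FiniteDimensional ℚ E ∧
      ∀ σ : AlgebraicClosure ℚ ≃ₐ[ℚ] AlgebraicClosure ℚ, (∀ a ∈ E, σ a = a) → σ • x = x :=
  haveI := ost_isAlgebraic_qbar
  ost_pic0_galois_fixed (modularFunctionFieldFull N) (fbf_isCoordinate_jBar N) x

/-- finitely many classes at once. -/
theorem ost_jzero_finset_fixed (N : ℕ) [NeZero N] (s : Finset (JZero N)) :
    ∃ E : IntermediateField ℚ (AlgebraicClosure ℚ), FiniteDimensional ℚ E ∧
      ∀ σ : AlgebraicClosure ℚ ≃ₐ[ℚ] AlgebraicClosure ℚ, (∀ a ∈ E, σ a = a) →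
        ∀ x ∈ s, σ • x = x := by
  classical
  induction s using Finset.induction_on with
  | empty => exact ⟨⊥, inferInstance, fun _ _ y hy => absurd hy (Finset.notMem_empty y)⟩
  | insert y s _ ih =>
    obtain ⟨E1, hE1, h1⟩ := ost_jzero_fixed N y
    obtain ⟨E2, hE2, h2⟩ := ih
    haveI := hE1
    haveI := hE2
    refine ⟨E1 ⊔ E2, IntermediateField.finiteDimensional_sup E1 E2, fun σ hσ z hz => ?_⟩
    rcases Finset.mem_insert.mp hz with rfl | hz
    · exact h1 σ fun a ha => hσ a ((le_sup_left : E1 ≤ E1 ⊔ E2) ha)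
    · exact h2 σ (fun a ha => hσ a ((le_sup_right : E2 ≤ E1 ⊔ E2) ha)) z hz

end

end Fermat.Agent.S42x
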