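/-
S42 project, block B3, leaf B3.3 CUSPUNIT (helper55, prefix `cdu55_`).

`f = (A / E₄)^p` is a UNIT at every pole place of `j`, for a weight-4 function `A` all of whose
slashes are holomorphic, bounded at `i∞` and have a NONZERO limit along the imaginary axis
(an Eisenstein series non-vanishing at every cusp).  No cusp places are needed: the conjugates of
`f` over `ℂ(j)` are `(A∣g)^p / E₄^p`, the coefficients of their characteristic polynomial are
`SL(2,ℤ)`-invariant, of the form `G / E₄^k` with `G` holomorphic and bounded, hence polynomials in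
`j⁻¹` (level-one invariants, S24x `exists_polynomial_jFun_of_discriminant_pow`), and the constant
coefficient does not vanish at `j⁻¹ = 0`.
-/
import Fermat.Agent.S42x.CDictDefs
import Fermat.Agent.S42x.TwEis55
import Fermat.Agent.S24x.CoveringCusp
import Fermat.Agent.S24x.LevelOneInvariant
import Fermat.Agent.S24x.LevelOneJ

set_option autoImplicit false
set_option linter.unusedSectionVars false

namespace Fermat.Agent.S42x

open UpperHalfPlane Polynomial AlgebraicCurve CongruenceSubgroup Filter Topology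
  Fermat.Agent.S24x ModularForm
open scoped MatrixGroups Manifold

noncomputable section

local notation "Δ" => ModularForm.discriminant

/-! ## Basic holomorphic functions -/

theorem cdu55_bdd_pow {f : ℍ → ℂ} (hf : IsBoundedAtImInfty f) (n : ℕ) :
    IsBoundedAtImInfty (f ^ n) := by
  induction n with
  | zero =>
    rw [pow_zero]
    exact Filter.const_boundedAtFilter _ (1 : ℂ)
  | succ n ih =>
    rw [pow_succ]
    exact ih.mul hf

/-- `Δ` as an element of `Hol`. -/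
def cdu55_DeltaHol : Hol := ⟨(Δ : ℍ → ℂ), jo_mdiff_Δ⟩

/-- `Δ⁻¹` as an element of `Hol`. -/
def cdu55_DeltaInvHol : Hol :=
  ⟨fun z => 1 / Δ z, jf_mdiff_div (jf_mdiff_const 1) jo_mdiff_Δ (fun z => discriminant_ne_zero z)⟩

theorem cdu55_Delta_mul_inv : cdu55_DeltaHol * cdu55_DeltaInvHol = 1 := by
  apply Subtype.ext
  funext z
  show Δ z * (1 / Δ z) = 1
  rw [mul_one_div, div_self (discriminant_ne_zero z)]

theorem cdu55_jHol_mul_Delta : jHol * cdu55_DeltaHol = cdc_E4Hol ^ 3 := by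
  apply Subtype.ext
  funext z
  show jFun z * Δ z = E₄ z ^ 3
  exact jFun_mul_discriminant z

theorem cdu55_E4_tendsto_axis : Tendsto (fun y : ℝ => E₄ (twe55_iy y)) atTop (𝓝 1) := by
  refine tendsto_E₄_atImInfty.comp ?_
  rw [atImInfty, tendsto_comap_iff]
  have : Tendsto (fun y : ℝ => max y 1) atTop atTop :=
    tendsto_atTop_mono (fun y => le_max_left y 1) tendsto_id
  exact this

theorem cdu55_E4Hol_ne_zero : cdc_E4Hol ≠ 0 := by
  intro h
  have h1 := cdu55_E4_tendsto_axis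
  have h2 : (fun y : ℝ => E₄ (twe55_iy y)) = fun _ => 0 := by
    funext y
    have := congrArg (fun a : Hol => (a : ℍ → ℂ) (twe55_iy y)) h
    exact this
  rw [h2] at h1
  have := tendsto_nhds_unique h1 tendsto_const_nhds
  norm_num at this

theorem cdu55_mk_ne_zero {a : Hol} (ha : a ≠ 0) : algebraMap Hol Mer a ≠ 0 := by
  rw [Ne, map_eq_zero_iff _ (IsFractionRing.injective Hol Mer)]
  exact ha

theorem cdu55_mk_injective : Function.Injective (algebraMap Hol Mer) :=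
  IsFractionRing.injective Hol Mer

theorem cdu55_E4_bdd : IsBoundedAtImInfty (cdc_E4Hol : ℍ → ℂ) :=
  jf_isBoundedAtImInfty_of_tendsto tendsto_E₄_atImInfty

/-! ## The subring `T` of `Mer` -/

/-- elements of the form `G / E₄^k` with `G` holomorphic and bounded at `i∞`. -/
def cdu55_T : Subring Mer where
  carrier := {e | ∃ (k : ℕ) (G : Hol), e * algebraMap Hol Mer cdc_E4Hol ^ k = algebraMap Hol Mer G ∧
    IsBoundedAtImInfty (G : ℍ → ℂ)}
  mul_mem' := by
    rintro a b ⟨k, G, hG, hb⟩ ⟨k', G', hG', hb'⟩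
    refine ⟨k + k', G * G', ?_, hb.mul hb'⟩
    rw [map_mul, ← hG, ← hG', pow_add]
    ring
  one_mem' := ⟨0, 1, by rw [pow_zero, mul_one, map_one], by
    exact Filter.const_boundedAtFilter _ (1 : ℂ)⟩
  add_mem' := by
    rintro a b ⟨k, G, hG, hb⟩ ⟨k', G', hG', hb'⟩
    refine ⟨k + k', G * cdc_E4Hol ^ k' + G' * cdc_E4Hol ^ k, ?_, ?_⟩
    · rw [map_add, map_mul, map_mul, map_pow, map_pow, ← hG, ← hG', pow_add]
      ring
    · have h1 : IsBoundedAtImInfty ((cdc_E4Hol ^ k' : Hol) : ℍ → ℂ) := by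
        have : ((cdc_E4Hol ^ k' : Hol) : ℍ → ℂ) = (cdc_E4Hol : ℍ → ℂ) ^ k' := rfl
        rw [this]
        exact cdu55_bdd_pow cdu55_E4_bdd k'
      have h2 : IsBoundedAtImInfty ((cdc_E4Hol ^ k : Hol) : ℍ → ℂ) := by
        have : ((cdc_E4Hol ^ k : Hol) : ℍ → ℂ) = (cdc_E4Hol : ℍ → ℂ) ^ k := rfl
        rw [this]
        exact cdu55_bdd_pow cdu55_E4_bdd k
      exact (hb.mul h1).add (hb'.mul h2)
  zero_mem' := ⟨0, 0, by rw [zero_mul, map_zero], by
    exact Filter.const_boundedAtFilter _ (0 : ℂ)⟩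
  neg_mem' := by
    rintro a ⟨k, G, hG, hb⟩
    exact ⟨k, -G, by rw [neg_mul, hG, map_neg], hb.neg⟩

/-! ## Invariant elements of `T` are polynomials in `j⁻¹` -/

theorem cdu55_jHol_eq : jHol = cdc_E4Hol ^ 3 * cdu55_DeltaInvHol := by
  apply Subtype.ext
  funext z
  show jFun z = E₄ z ^ 3 * (1 / Δ z)
  rw [jFun, mul_one_div]

/-- `p(x) * x⁻¹ ^ m` is a polynomial in `x⁻¹` when `deg p ≤ m`. -/
theorem cdu55_aeval_mul_inv_pow_mem {x : Mer} (hx : x ≠ 0) (p : ℂ[X]) (m : ℕ)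
    (hp : p.natDegree ≤ m) : ∃ R : ℂ[X], aeval x⁻¹ R = aeval x p * x⁻¹ ^ m := by
  refine ⟨∑ i ∈ Finset.range (p.natDegree + 1), monomial (m - i) (p.coeff i), ?_⟩
  rw [map_sum, aeval_eq_sum_range, Finset.sum_mul]
  refine Finset.sum_congr rfl (fun i hi => ?_)
  have hi' : i ≤ m := (Nat.lt_succ_iff.1 (Finset.mem_range.1 hi)).trans hp
  rw [aeval_monomial, Algebra.smul_def, mul_assoc]
  congr 1
  rw [← pow_sub_mul_pow x⁻¹ hi', inv_pow x i, ← mul_assoc, mul_comm (x ^ i), mul_assoc,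
    mul_inv_cancel₀ (pow_ne_zero i hx), mul_one]

/-- **Level-one invariants of the form `G / E₄^k` are polynomials in `j⁻¹`.** -/
theorem cdu55_inv_poly (e : Mer) (hinv : ∀ γ : SL(2, ℤ), γ • e = e) (k : ℕ) (G : Hol)
    (hG : e * algebraMap Hol Mer cdc_E4Hol ^ k = algebraMap Hol Mer G)
    (hb : IsBoundedAtImInfty (G : ℍ → ℂ)) :
    ∃ R : ℂ[X], e = aeval jMer⁻¹ R := by
  set H : Hol := G * cdc_E4Hol ^ (2 * k) * cdu55_DeltaInvHol ^ k with hH
  -- `e * j^k = H`
  have h1 : e * jMer ^ k = algebraMap Hol Mer H := by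
    rw [hH, map_mul, map_mul, ← hG, jMer, cdu55_jHol_eq, map_mul, map_pow, map_pow, map_pow,
      mul_pow, ← pow_mul]
    ring
  -- invariance of `H`
  have hHinv : ∀ (γ : SL(2, ℤ)) (z : ℍ), (H : ℍ → ℂ) (γ • z) = (H : ℍ → ℂ) z := by
    intro γ z
    have h2 : γ⁻¹ • algebraMap Hol Mer H = algebraMap Hol Mer H := by
      rw [← h1, smul_mul', smul_pow', cov_jMer_smul, hinv]
    rw [smul_algebraMap_Mer] at h2
    have h3 := cdu55_mk_injective h2
    have h4 := congrArg (fun f : Hol => (f : ℍ → ℂ) z) h3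
    simp only [smul_Hol_apply, inv_inv] at h4
    exact h4
  -- boundedness of `Δ^k H`
  have hbd : IsBoundedAtImInfty (fun z => Δ z ^ k * (H : ℍ → ℂ) z) := by
    have e1 : (fun z => Δ z ^ k * (H : ℍ → ℂ) z) =
        (G : ℍ → ℂ) * ((cdc_E4Hol : ℍ → ℂ) ^ (2 * k)) := by
      funext z
      show Δ z ^ k * ((G : ℍ → ℂ) z * E₄ z ^ (2 * k) * (1 / Δ z) ^ k) =
        (G : ℍ → ℂ) z * E₄ z ^ (2 * k)
      have hΔ := discriminant_ne_zero z
      rw [one_div, inv_pow]
      field_simp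
    rw [e1]
    exact hb.mul (cdu55_bdd_pow cdu55_E4_bdd _)
  obtain ⟨P, hPd, hP⟩ := exists_polynomial_jFun_of_discriminant_pow k (H : ℍ → ℂ) H.2 hHinv hbd
  have h5 : algebraMap Hol Mer H = aeval jMer P := by
    rw [cov_aeval_jMer]
    congr 1
    apply Subtype.ext
    funext z
    rw [hP z, cov_aeval_jHol_apply]
  obtain ⟨R, hR⟩ := cdu55_aeval_mul_inv_pow_mem cov_jMer_ne_zero P k hPd
  refine ⟨R, ?_⟩
  rw [hR, ← h5, ← h1, mul_assoc, ← mul_pow, mul_inv_cancel₀ cov_jMer_ne_zero, one_pow, mul_one]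

theorem cdu55_jFun_inv_tendsto_axis :
    Tendsto (fun y : ℝ => (jFun (twe55_iy y))⁻¹) atTop (𝓝 0) := by
  obtain ⟨A, hA⟩ := cov_jFun_norm_ge
  rw [tendsto_zero_iff_norm_tendsto_zero]
  have h1 : Tendsto (fun y : ℝ => y⁻¹) atTop (𝓝 0) := tendsto_inv_atTop_zero
  refine squeeze_zero' (Eventually.of_forall fun y => norm_nonneg _) ?_ h1
  filter_upwards [eventually_ge_atTop (max A 1)] with y hy
  have hy1 : (1 : ℝ) ≤ y := (le_max_right A 1).trans hy
  have him : (twe55_iy y).im = y := by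
    show max y 1 = y
    exact max_eq_left hy1
  have h2 := hA (twe55_iy y) (by rw [him]; exact (le_max_left A 1).trans hy)
  rw [him] at h2
  rw [norm_inv]
  have hy0 : 0 < y := lt_of_lt_of_le one_pos hy1
  exact inv_anti₀ hy0 h2

theorem cdu55_jFun_ne_zero_axis : ∀ᶠ y : ℝ in atTop, jFun (twe55_iy y) ≠ 0 := by
  obtain ⟨A, hA⟩ := cov_jFun_norm_ge
  filter_upwards [eventually_ge_atTop (max A 1)] with y hy
  have hy1 : (1 : ℝ) ≤ y := (le_max_right A 1).trans hy
  have him : (twe55_iy y).im = y := by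
    show max y 1 = y
    exact max_eq_left hy1
  have h2 := hA (twe55_iy y) (by rw [him]; exact (le_max_left A 1).trans hy)
  rw [him] at h2
  intro h0
  rw [h0, norm_zero] at h2
  linarith

/-- the value at `j⁻¹ = 0` of a polynomial in `j⁻¹` of the form `G / E₄^k` is the limit of `G`
along the imaginary axis. -/
theorem cdu55_eval_zero_eq_lim (R : ℂ[X]) (k : ℕ) (G : Hol)
    (hG : aeval jMer⁻¹ R * algebraMap Hol Mer cdc_E4Hol ^ k = algebraMap Hol Mer G) (l : ℂ)
    (hl : Tendsto (fun y : ℝ => (G : ℍ → ℂ) (twe55_iy y)) atTop (𝓝 l)) : R.eval 0 = l := by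
  set d := R.natDegree with hd
  -- the identity in `Hol`
  have h1 : (∑ i ∈ Finset.range (d + 1), algebraMap ℂ Hol (R.coeff i) * jHol ^ (d - i)) *
      cdc_E4Hol ^ k = G * jHol ^ d := by
    apply cdu55_mk_injective
    rw [map_mul, map_mul, map_pow, map_pow, ← hG, map_sum]
    have h2 := cov_aeval_inv_mul_pow R d le_rfl
    have h3 : ∑ i ∈ Finset.range (d + 1), algebraMap Hol Mer
        (algebraMap ℂ Hol (R.coeff i) * jHol ^ (d - i)) =
        ∑ i ∈ Finset.range (R.natDegree + 1), algebraMap ℂ Mer (R.coeff i) * jMer ^ (d - i) := by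
      refine Finset.sum_congr rfl (fun i _ => ?_)
      rw [map_mul, map_pow, ← IsScalarTower.algebraMap_apply ℂ Hol Mer]
      rfl
    rw [h3, ← h2]
    show aeval jMer⁻¹ R * jMer ^ d * _ = aeval jMer⁻¹ R * _ * jMer ^ d
    ring
  -- pointwise
  have h4 : ∀ᶠ y : ℝ in atTop, (G : ℍ → ℂ) (twe55_iy y) =
      R.eval ((jFun (twe55_iy y))⁻¹) * E₄ (twe55_iy y) ^ k := by
    filter_upwards [cdu55_jFun_ne_zero_axis] with y hy
    have h5 := congrArg (fun f : Hol => (f : ℍ → ℂ) (twe55_iy y)) h1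
    have h6 : (∑ i ∈ Finset.range (d + 1), R.coeff i * jFun (twe55_iy y) ^ (d - i)) *
        E₄ (twe55_iy y) ^ k = (G : ℍ → ℂ) (twe55_iy y) * jFun (twe55_iy y) ^ d := by
      have : ((∑ i ∈ Finset.range (d + 1), algebraMap ℂ Hol (R.coeff i) * jHol ^ (d - i) : Hol) :
          ℍ → ℂ) (twe55_iy y) = ∑ i ∈ Finset.range (d + 1),
            R.coeff i * jFun (twe55_iy y) ^ (d - i) := by
        rw [← cov_evalAt_apply, map_sum]
        refine Finset.sum_congr rfl (fun i _ => ?_)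
        rw [map_mul, map_pow]
        rfl
      rw [← this]
      exact h5
    have hjd : jFun (twe55_iy y) ^ d ≠ 0 := pow_ne_zero d hy
    rw [eval_eq_sum_range, Finset.sum_mul]
    rw [Finset.sum_mul] at h6
    apply mul_right_cancel₀ hjd
    rw [← h6, Finset.sum_mul]
    refine Finset.sum_congr rfl (fun i hi => ?_)
    have hi' : i ≤ d := Nat.lt_succ_iff.1 (Finset.mem_range.1 hi)
    rw [inv_pow, ← pow_sub_mul_pow (jFun (twe55_iy y)) hi']
    field_simp
  have h7 : Tendsto (fun y : ℝ => R.eval ((jFun (twe55_iy y))⁻¹) * E₄ (twe55_iy y) ^ k) atTop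
      (𝓝 (R.eval 0 * 1 ^ k)) :=
    ((R.continuous.tendsto 0).comp cdu55_jFun_inv_tendsto_axis).mul (cdu55_E4_tendsto_axis.pow k)
  rw [one_pow, mul_one] at h7
  exact tendsto_nhds_unique (h7.congr' (h4.mono fun y hy => hy.symm)) hl

/-! ## The valuation-theoretic endgame (pure algebra) -/

section algebra

variable {F : Type*} [Field F] [Algebra ℂ F]

theorem cdu55_aeval_mem (v : Place ℂ F) {t : F} (ht : t ∈ v.toValuationSubring) (a : ℂ[X]) :
    aeval t a ∈ v.toValuationSubring := by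
  rw [aeval_eq_sum_range]
  refine Subring.sum_mem v.toValuationSubring.toSubring (fun i _ => ?_)
  rw [Algebra.smul_def]
  exact v.toValuationSubring.mul_mem _ _ (v.algebraMap_mem' _) (pow_mem ht i)

theorem cdu55_aeval_decomp (t : F) (a : ℂ[X]) :
    aeval t a = algebraMap ℂ F (a.eval 0) + t * aeval t a.divX := by
  conv_lhs => rw [← Polynomial.divX_mul_X_add a]
  rw [map_add, map_mul, aeval_X, aeval_C, coeff_zero_eq_eval_zero]
  ring

/-- a polynomial in `t` (`ord t > 0`) with nonzero constant term is nonzero of order `0`. -/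
theorem cdu55_ord_aeval_eq_zero (v : Place ℂ F) {t : F} (ht : 0 < v.ord t) (a : ℂ[X])
    (ha : a.eval 0 ≠ 0) : aeval t a ≠ 0 ∧ v.ord (aeval t a) = 0 := by
  have ht0 : t ≠ 0 := by
    rintro rfl
    rw [Place.ord_zero] at ht
    exact lt_irrefl _ ht
  have htm : t ∈ v.toValuationSubring := (ord_nonneg_iff v ht0).1 ht.le
  have h1 := cdu55_aeval_decomp t a
  have hc : algebraMap ℂ F (a.eval 0) ≠ 0 := by
    rw [Ne, map_eq_zero]
    exact ha
  have hlt : t * aeval t a.divX = 0 ∨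
      v.ord (algebraMap ℂ F (a.eval 0)) < v.ord (t * aeval t a.divX) := by
    by_cases hs : aeval t a.divX = 0
    · left
      rw [hs, mul_zero]
    · right
      rw [ord_algebraMap, v.ord_mul ht0 hs]
      have := ord_nonneg_of_mem v (cdu55_aeval_mem v htm a.divX)
      omega
  refine ⟨?_, ?_⟩
  · intro h
    rw [h] at h1
    rcases hlt with h2 | h2
    · rw [h2, add_zero] at h1
      exact hc h1.symm
    · have h3 : t * aeval t a.divX = -algebraMap ℂ F (a.eval 0) := by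
        have := h1.symm
        exact eq_neg_of_add_eq_zero_right this
      rw [h3, ← map_neg, ord_algebraMap, ord_algebraMap] at h2
      exact lt_irrefl _ h2
  · rw [h1, ord_add_of_lt v hc hlt, ord_algebraMap]

/-- **Endgame.**  A root `f` of a monic polynomial over `ℂ[t]` (`ord t > 0`) whose constant
coefficient does not vanish at `t = 0` is a unit at `v`. -/
theorem cdu55_ord_eq_zero_of_root (v : Place ℂ F) (t f : F) (ht : 0 < v.ord t) (Q : ℂ[X][X])
    (hQm : Q.Monic)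
    (hroot : (Q.map ((aeval t : ℂ[X] →ₐ[ℂ] F) : ℂ[X] →+* F)).eval f = 0)
    (h0 : (Q.coeff 0).eval 0 ≠ 0) : v.ord f = 0 := by
  set φ : ℂ[X] →+* F := ((aeval t : ℂ[X] →ₐ[ℂ] F) : ℂ[X] →+* F) with hφ
  have ht0 : t ≠ 0 := by
    rintro rfl
    rw [Place.ord_zero] at ht
    exact lt_irrefl _ ht
  have htm : t ∈ v.toValuationSubring := (ord_nonneg_iff v ht0).1 ht.le
  have hφm : ∀ a, φ a ∈ v.toValuationSubring := fun a => cdu55_aeval_mem v htm a
  -- `f ∈ O_v`
  have hfm : f ∈ v.toValuationSubring := by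
    rw [← adicValuation_le_one_iff]
    refine cov_val_le_one_of_isIntegralElem v.adicValuation φ (fun a => ?_) ⟨Q, hQm, ?_⟩
    · rw [adicValuation_le_one_iff]
      exact hφm a
    · rw [← eval_map]
      exact hroot
  -- the constant coefficient
  have hc0 : v.ord (φ (Q.coeff 0)) = 0 := (cdu55_ord_aeval_eq_zero v ht (Q.coeff 0) h0).2
  have hc0ne : φ (Q.coeff 0) ≠ 0 := (cdu55_ord_aeval_eq_zero v ht (Q.coeff 0) h0).1
  -- `f * w = - c₀`
  set w : F := (Q.divX.map φ).eval f with hw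
  have hwm : w ∈ v.toValuationSubring := by
    rw [hw, eval_map, eval₂_eq_sum_range]
    refine Subring.sum_mem v.toValuationSubring.toSubring (fun i _ => ?_)
    exact v.toValuationSubring.mul_mem _ _ (hφm _) (pow_mem hfm i)
  have hfw : w * f + φ (Q.coeff 0) = 0 := by
    rw [← hroot]
    conv_rhs => rw [← Polynomial.divX_mul_X_add Q]
    rw [Polynomial.map_add, Polynomial.map_mul, map_X, map_C, eval_add, eval_mul, eval_X, eval_C]
  have hf0 : f ≠ 0 := by
    rintro rfl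
    rw [mul_zero, zero_add] at hfw
    exact hc0ne hfw
  have hw0 : w ≠ 0 := by
    rintro h
    rw [h, zero_mul, zero_add] at hfw
    exact hc0ne hfw
  have h7 : v.ord (w * f) = 0 := by
    have : w * f = -φ (Q.coeff 0) := eq_neg_of_add_eq_zero_left hfw
    rw [this, ← neg_one_mul, v.ord_mul (by norm_num) hc0ne, hc0]
    have h6 : v.ord (-1 : F) = 0 := by
      have := ord_algebraMap v (-1 : ℂ) (F := F)
      rwa [map_neg, map_one] at this
    rw [h6, add_zero]
  rw [v.ord_mul hw0 hf0] at h7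
  have h8 := ord_nonneg_of_mem v hwm
  have h9 := ord_nonneg_of_mem v hfm
  omega

end algebra

/-! ## The conjugates of `f` -/

section family

variable {F : Type*} [Field F] [Algebra ℂ F] {M : ℕ} [NeZero M] {jF : F} (D : cdc_Real F M jF)

/-- the family of conjugates `(out x) • φ f`, `x ∈ SL(2,ℤ) ⧸ Γ₀(M)`. -/
def cdu55_fam (f : F) (x : Q M) : Mer := (Quotient.out x : SL(2, ℤ)) • D.φ f

theorem cdu55_fam_eq_of_mk (f : F) (g : SL(2, ℤ)) (x : Q M) (hx : (g : Q M) = x) :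
    cdu55_fam D f x = g • D.φ f := by
  subst hx
  obtain ⟨h, hh⟩ := QuotientGroup.mk_out_eq_mul (Gamma0 M) g
  unfold cdu55_fam
  have : (Quotient.out (g : Q M) : SL(2, ℤ)) = g * h := hh
  rw [this, mul_smul, D.inv h h.2]

theorem cdu55_fam_smul (f : F) (γ : SL(2, ℤ)) (x : Q M) :
    γ • cdu55_fam D f x = cdu55_fam D f (γ • x) := by
  show γ • ((Quotient.out x : SL(2, ℤ)) • D.φ f) = _
  rw [← mul_smul]
  symm
  apply cdu55_fam_eq_of_mk
  conv_rhs => rw [← QuotientGroup.out_eq' x]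
  rfl

theorem cdu55_fam_one (f : F) : cdu55_fam D f ((1 : SL(2, ℤ)) : Q M) = D.φ f := by
  rw [cdu55_fam_eq_of_mk D f 1 _ rfl, one_smul]

variable {A : Hol} {p : ℕ} (hhol : ∀ g : SL(2, ℤ), MDiff ((A : ℍ → ℂ) ∣[(4 : ℤ)] g))

/-- the slashes of `A` as elements of `Hol`. -/
def cdu55_AS (g : SL(2, ℤ)) : Hol := ⟨(A : ℍ → ℂ) ∣[(4 : ℤ)] g, hhol g⟩

/-- cross relation between translates and slashes. -/
theorem cdu55_cross (g : SL(2, ℤ)) :
    (g • A) * cdc_E4Hol = cdu55_AS hhol g⁻¹ * (g • cdc_E4Hol) := by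
  apply Subtype.ext
  funext τ
  show (A : ℍ → ℂ) (g⁻¹ • τ) * E₄ τ = ((A : ℍ → ℂ) ∣[(4 : ℤ)] g⁻¹) τ * E₄ (g⁻¹ • τ)
  have h1 : E₄ τ = ((⇑E₄ : ℍ → ℂ) ∣[(4 : ℤ)] g⁻¹) τ := by rw [ram_slash_SL E₄ g⁻¹]
  rw [h1, ModularForm.SL_slash_apply, ModularForm.SL_slash_apply]
  ring

include hhol in
/-- the translate of `φ f` by `g` is `(A∣g⁻¹)^p / E₄^p`. -/
theorem cdu55_smul_eq (f : F)
    (hf : D.φ f * algebraMap Hol Mer cdc_E4Hol ^ p = algebraMap Hol Mer A ^ p) (g : SL(2, ℤ)) :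
    g • D.φ f * algebraMap Hol Mer cdc_E4Hol ^ p = algebraMap Hol Mer (cdu55_AS hhol g⁻¹) ^ p := by
  have h1 : g • D.φ f * algebraMap Hol Mer (g • cdc_E4Hol) ^ p =
      algebraMap Hol Mer (g • A) ^ p := by
    have := congrArg (fun x : Mer => g • x) hf
    simp only [smul_mul', smul_pow', smul_algebraMap_Mer] at this
    exact this
  have hne : algebraMap Hol Mer (g • cdc_E4Hol) ^ p ≠ 0 := by
    apply pow_ne_zero
    apply cdu55_mk_ne_zero
    rw [Ne, smul_eq_zero_iff_eq]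
    exact cdu55_E4Hol_ne_zero
  apply mul_right_cancel₀ hne
  have h2 := congrArg (algebraMap Hol Mer) (cdu55_cross hhol g)
  rw [map_mul, map_mul] at h2
  calc g • D.φ f * algebraMap Hol Mer cdc_E4Hol ^ p * algebraMap Hol Mer (g • cdc_E4Hol) ^ p
      = (g • D.φ f * algebraMap Hol Mer (g • cdc_E4Hol) ^ p) *
          algebraMap Hol Mer cdc_E4Hol ^ p := by ring
    _ = (algebraMap Hol Mer (g • A) * algebraMap Hol Mer cdc_E4Hol) ^ p := by
        rw [h1, mul_pow]
    _ = algebraMap Hol Mer (cdu55_AS hhol g⁻¹) ^ p * algebraMap Hol Mer (g • cdc_E4Hol) ^ p := by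
        rw [h2, mul_pow]

end family

/-! ## The characteristic polynomial and the main theorem -/

section main

variable {F : Type*} [Field F] [Algebra ℂ F] {M : ℕ} [NeZero M] {jF : F} (D : cdc_Real F M jF)

theorem cdu55_coe_prod {ι : Type*} (s : Finset ι) (h : ι → Hol) (τ : ℍ) :
    ((∏ x ∈ s, h x : Hol) : ℍ → ℂ) τ = ∏ x ∈ s, (h x : ℍ → ℂ) τ := by
  rw [← cov_evalAt_apply, map_prod]
  rfl

/-- **The characteristic polynomial of `f` over `ℂ[j⁻¹]`.** -/
theorem cdu55_exists_poly (A : Hol) (p : ℕ)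
    (hhol : ∀ g : SL(2, ℤ), MDiff ((A : ℍ → ℂ) ∣[(4 : ℤ)] g))
    (hbdd : ∀ g : SL(2, ℤ), IsBoundedAtImInfty ((A : ℍ → ℂ) ∣[(4 : ℤ)] g))
    (hlim : ∀ g : SL(2, ℤ), ∃ l : ℂ, l ≠ 0 ∧
      Tendsto (fun y : ℝ => ((A : ℍ → ℂ) ∣[(4 : ℤ)] g) (twe55_iy y)) atTop (𝓝 l))
    (f : F) (hf : D.φ f * algebraMap Hol Mer cdc_E4Hol ^ p = algebraMap Hol Mer A ^ p) :
    ∃ Qp : ℂ[X][X], Qp.Monic ∧
      Qp.map ((aeval jMer⁻¹ : ℂ[X] →ₐ[ℂ] Mer) : ℂ[X] →+* Mer) =
        ∏ x : Q M, (X - C (cdu55_fam D f x)) ∧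
      (Qp.coeff 0).eval 0 ≠ 0 := by
  classical
  set φm : ℂ[X] →+* Mer := ((aeval jMer⁻¹ : ℂ[X] →ₐ[ℂ] Mer) : ℂ[X] →+* Mer) with hφm
  set a : Q M → Mer := cdu55_fam D f with ha
  set g : Q M → SL(2, ℤ) := fun x => ((Quotient.out x : SL(2, ℤ)))⁻¹ with hg
  have hwit : ∀ x, a x * algebraMap Hol Mer cdc_E4Hol ^ p =
      algebraMap Hol Mer (cdu55_AS hhol (g x) ^ p) := by
    intro x
    rw [map_pow]
    exact cdu55_smul_eq D hhol f hf (Quotient.out x : SL(2, ℤ))
  have hbddx : ∀ x, IsBoundedAtImInfty ((cdu55_AS hhol (g x) ^ p : Hol) : ℍ → ℂ) := by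
    intro x
    have : ((cdu55_AS hhol (g x) ^ p : Hol) : ℍ → ℂ) = ((A : ℍ → ℂ) ∣[(4 : ℤ)] g x) ^ p := rfl
    rw [this]
    exact cdu55_bdd_pow (hbdd _) p
  have haT : ∀ x, a x ∈ cdu55_T := fun x => ⟨p, cdu55_AS hhol (g x) ^ p, hwit x, hbddx x⟩
  set Pm : Mer[X] := ∏ x : Q M, (X - C (a x)) with hPm
  -- the coefficients lie in `T`
  have hcoefT : ∀ k, Pm.coeff k ∈ cdu55_T := by
    intro k
    have hprod : Pm = (∏ x : Q M, (X - C (⟨a x, haT x⟩ : cdu55_T)) : (cdu55_T)[X]).map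
        cdu55_T.subtype := by
      rw [Polynomial.map_prod]
      refine Finset.prod_congr rfl (fun x _ => ?_)
      rw [Polynomial.map_sub, map_X, map_C]
      rfl
    rw [hprod, coeff_map]
    exact ((∏ x : Q M, (X - C (⟨a x, haT x⟩ : cdu55_T)) : (cdu55_T)[X]).coeff k).2
  -- the coefficients are invariant
  have hcoefInv : ∀ (k : ℕ) (γ : SL(2, ℤ)), γ • Pm.coeff k = Pm.coeff k := by
    intro k γ
    have h1 : Pm.map (MulSemiringAction.toRingHom SL(2, ℤ) Mer γ) = Pm := by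
      rw [hPm, Polynomial.map_prod]
      have h2 : ∀ x, ((X - C (a x) : Mer[X])).map (MulSemiringAction.toRingHom SL(2, ℤ) Mer γ) =
          X - C (a (γ • x)) := by
        intro x
        rw [Polynomial.map_sub, map_X, map_C, MulSemiringAction.toRingHom_apply, ha,
          cdu55_fam_smul]
      simp only [h2]
      exact Fintype.prod_equiv (MulAction.toPerm γ) _ _ (fun x => rfl)
    have h3 := congrArg (fun q : Mer[X] => q.coeff k) h1
    simp only [coeff_map, MulSemiringAction.toRingHom_apply] at h3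
    exact h3
  have hlifts : Pm ∈ lifts φm := by
    rw [lifts_iff_coeff_lifts]
    intro k
    obtain ⟨kk, G, hG, hb⟩ := hcoefT k
    obtain ⟨R, hR⟩ := cdu55_inv_poly _ (hcoefInv k) kk G hG hb
    exact ⟨R, hR.symm⟩
  have hmonic : Pm.Monic := monic_prod_of_monic _ _ (fun x _ => monic_X_sub_C _)
  obtain ⟨Qp, hQmap, -, hQm⟩ := lifts_and_natDegree_eq_and_monic hlifts hmonic
  refine ⟨Qp, hQm, hQmap, ?_⟩
  -- the constant coefficient
  have hc0 : φm (Qp.coeff 0) = ∏ x : Q M, (-(a x)) := by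
    rw [← coeff_map, hQmap, hPm, coeff_zero_eq_eval_zero, eval_prod]
    refine Finset.prod_congr rfl (fun x _ => ?_)
    rw [eval_sub, eval_X, eval_C, zero_sub]
  set G0 : Hol := ∏ x : Q M, (-(cdu55_AS hhol (g x) ^ p)) with hG0
  have hG0eq : aeval jMer⁻¹ (Qp.coeff 0) *
      algebraMap Hol Mer cdc_E4Hol ^ (p * Fintype.card (Q M)) = algebraMap Hol Mer G0 := by
    have : aeval jMer⁻¹ (Qp.coeff 0) = φm (Qp.coeff 0) := rfl
    rw [this, hc0, hG0, map_prod, pow_mul, ← Finset.card_univ, ← Finset.prod_const,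
      ← Finset.prod_mul_distrib]
    refine Finset.prod_congr rfl (fun x _ => ?_)
    rw [map_neg, ← hwit x, neg_mul]
  choose l hl0 hl using fun x : Q M => hlim (g x)
  have hlimG0 : Tendsto (fun y : ℝ => (G0 : ℍ → ℂ) (twe55_iy y)) atTop
      (𝓝 (∏ x : Q M, (-(l x ^ p)))) := by
    have h1 : ∀ y : ℝ, (G0 : ℍ → ℂ) (twe55_iy y) =
        ∏ x : Q M, (-(((A : ℍ → ℂ) ∣[(4 : ℤ)] g x) (twe55_iy y) ^ p)) := by
      intro y
      rw [hG0, cdu55_coe_prod]
      rfl
    simp only [h1]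
    exact tendsto_finsetProd _ (fun x _ => ((hl x).pow p).neg)
  have hL : (∏ x : Q M, (-(l x ^ p))) ≠ 0 := by
    rw [Finset.prod_ne_zero_iff]
    intro x _
    exact neg_ne_zero.mpr (pow_ne_zero p (hl0 x))
  rw [cdu55_eval_zero_eq_lim (Qp.coeff 0) _ G0 hG0eq _ hlimG0]
  exact hL

/-- **B3.3 CUSPUNIT.**  If `φ f = (A / E₄)^p` where every slash of the weight-4 function `A` is
holomorphic, bounded at `i∞` and has a nonzero limit along the imaginary axis, then `f` is a unit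
at every pole place of `jF`. -/
theorem cdu55_ord_eq_zero (A : Hol) (p : ℕ)
    (hhol : ∀ g : SL(2, ℤ), MDiff ((A : ℍ → ℂ) ∣[(4 : ℤ)] g))
    (hbdd : ∀ g : SL(2, ℤ), IsBoundedAtImInfty ((A : ℍ → ℂ) ∣[(4 : ℤ)] g))
    (hlim : ∀ g : SL(2, ℤ), ∃ l : ℂ, l ≠ 0 ∧
      Tendsto (fun y : ℝ => ((A : ℍ → ℂ) ∣[(4 : ℤ)] g) (twe55_iy y)) atTop (𝓝 l))
    (f : F) (hf : D.φ f * algebraMap Hol Mer cdc_E4Hol ^ p = algebraMap Hol Mer A ^ p)
    (v : Place ℂ F) (hv : v ∈ polePlaces ℂ F jF) : v.ord f = 0 := by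
  classical
  obtain ⟨Qp, hQm, hQmap, h0⟩ := cdu55_exists_poly D A p hhol hbdd hlim f hf
  have ht := cov_inv_of_ord_neg v hv
  refine cdu55_ord_eq_zero_of_root v jF⁻¹ f ht.2 Qp hQm ?_ h0
  apply cdc_φ_injective D
  rw [map_zero, eval_map, Polynomial.hom_eval₂]
  have hcomp : D.φ.comp ((aeval jF⁻¹ : ℂ[X] →ₐ[ℂ] F) : ℂ[X] →+* F) =
      ((aeval jMer⁻¹ : ℂ[X] →ₐ[ℂ] Mer) : ℂ[X] →+* Mer) := by
    apply Polynomial.ringHom_ext
    · intro c
      simp only [RingHom.coe_comp, RingHom.coe_coe, Function.comp_apply, aeval_C]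
      exact D.map_const c
    · simp only [RingHom.coe_comp, RingHom.coe_coe, Function.comp_apply, aeval_X]
      rw [map_inv₀, D.map_j]
  rw [hcomp, ← eval_map, hQmap, eval_prod]
  refine Finset.prod_eq_zero (Finset.mem_univ ((1 : SL(2, ℤ)) : Q M)) ?_
  rw [eval_sub, eval_X, eval_C, cdu55_fam_one, sub_self]

end main

end

end Fermat.Agent.S42x
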