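/-
S42x/HomFinite (helper30; S42 block B4 leaf (f), prefix `hmf_`): finiteness of the TARGET of the
Kummer-type map `kappa_C : Pic0(FC)[p] → Hom(Gamma0(M), mu_p)` (S42_LEAD_NOTES N3).

* `hmf_finite_monoidHom`     : `G` finitely generated, `H` finite ⟹ `G →* H` is finite;
* `hmf_fg_Gamma0`            : `Gamma0 M` is finitely generated (`M ≠ 0`);
* `hmf_finite_hom_Gamma0`    : `Gamma0 M →* H` is finite for every finite group `H`;
* `hmf_finite_hom_rootsOfUnity` : `Gamma0 M →* rootsOfUnity p ℂ` is finite (`p ≠ 0`);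
* `hmf_finite_torsionHoms`   : the set of `ψ : Gamma0 M →* ℂˣ` with `ψ γ ^ p = 1` for all `γ` is finite;
* `hmf_finite_of_injOn`      : a set mapping injectively into such characters is finite.

Mathlib only.
-/
import Mathlib

set_option autoImplicit false
set_option linter.style.haveILetI false

open scoped MatrixGroups

namespace Fermat.Agent.S42x

/-- Homomorphisms from a finitely generated group to a finite group form a finite set. -/
theorem hmf_finite_monoidHom (G H : Type*) [Group G] [Group H] [Group.FG G] [Finite H] :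
    Finite (G →* H) := by
  classical
  obtain ⟨S, hS⟩ := Group.fg_def.mp (inferInstance : Group.FG G)
  let r : (G →* H) → (↥S → H) := fun f s => f s.1
  have hr : Function.Injective r := by
    intro f g hfg
    apply MonoidHom.eq_of_eqOn_dense hS
    intro s hs
    exact congrFun hfg ⟨s, hs⟩
  exact Finite.of_injective r hr

/-- `SL(2, ℤ)` is finitely generated (by `S` and `T`). -/
theorem hmf_fg_SL2Z : Group.FG SL(2, ℤ) := by
  classical
  rw [Group.fg_def]
  exact ⟨{ModularGroup.S, ModularGroup.T}, by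
    rw [Finset.coe_insert, Finset.coe_singleton]
    exact SpecialLinearGroup.SL2Z_generators⟩

/-- `Gamma0 M` is finitely generated for `M ≠ 0`. -/
theorem hmf_fg_Gamma0 (M : ℕ) [NeZero M] : Group.FG (CongruenceSubgroup.Gamma0 M) := by
  have := hmf_fg_SL2Z
  exact Subgroup.fg_of_index_ne_zero _

/-- Homomorphisms from `Gamma0 M` to a finite group form a finite set. -/
theorem hmf_finite_hom_Gamma0 (M : ℕ) [NeZero M] (H : Type*) [Group H] [Finite H] :
    Finite (CongruenceSubgroup.Gamma0 M →* H) := by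
  haveI := hmf_fg_Gamma0 M
  exact hmf_finite_monoidHom _ H

/-- Characters of `Gamma0 M` with values in the `p`-th roots of unity of `ℂ` form a finite set. -/
theorem hmf_finite_hom_rootsOfUnity (M : ℕ) [NeZero M] (p : ℕ) [NeZero p] :
    Finite (CongruenceSubgroup.Gamma0 M →* rootsOfUnity p ℂ) :=
  hmf_finite_hom_Gamma0 M _

/-- Characters `ψ : Gamma0 M →* ℂˣ` killed by `p` form a finite set. -/
theorem hmf_finite_torsionHoms (M : ℕ) [NeZero M] (p : ℕ) [NeZero p] :
    Set.Finite {ψ : CongruenceSubgroup.Gamma0 M →* ℂˣ | ∀ γ, ψ γ ^ p = 1} := by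
  haveI := hmf_finite_hom_rootsOfUnity M p
  let e : (CongruenceSubgroup.Gamma0 M →* rootsOfUnity p ℂ) →
      (CongruenceSubgroup.Gamma0 M →* ℂˣ) := fun f => (rootsOfUnity p ℂ).subtype.comp f
  refine (Set.finite_range e).subset ?_
  intro ψ hψ
  refine ⟨ψ.codRestrict (rootsOfUnity p ℂ) (fun γ => (mem_rootsOfUnity p (ψ γ)).mpr (hψ γ)), ?_⟩
  ext γ
  rfl

/-- Variant for plain functions: multiplier systems `c : Gamma0 M → ℂ` which are multiplicative and
`p`-torsion form a finite set. -/
theorem hmf_finite_multipliers (M : ℕ) [NeZero M] (p : ℕ) [NeZero p] :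
    Set.Finite {c : CongruenceSubgroup.Gamma0 M → ℂ |
      (∀ γ δ, c (γ * δ) = c γ * c δ) ∧ ∀ γ, c γ ^ p = 1} := by
  have h := hmf_finite_torsionHoms M p
  let e : (CongruenceSubgroup.Gamma0 M →* ℂˣ) → (CongruenceSubgroup.Gamma0 M → ℂ) :=
    fun ψ γ => ((ψ γ : ℂˣ) : ℂ)
  refine (h.image e).subset ?_
  rintro c ⟨hmul, hpow⟩
  have hp : p ≠ 0 := NeZero.ne p
  have hne : ∀ γ, c γ ≠ 0 := fun γ h0 => by
    have := hpow γ
    rw [h0, zero_pow hp] at this
    exact zero_ne_one this
  have hone : c 1 = 1 := by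
    have h1 := hmul 1 1
    rw [mul_one] at h1
    have := hne 1
    field_simp at h1
    exact h1.symm ▸ rfl
  let ψ : CongruenceSubgroup.Gamma0 M →* ℂˣ :=
    { toFun := fun γ => Units.mk0 (c γ) (hne γ)
      map_one' := by
        apply Units.ext
        simpa using hone
      map_mul' := fun γ δ => by
        apply Units.ext
        simpa using hmul γ δ }
  refine ⟨ψ, ?_, ?_⟩
  · intro γ
    apply Units.ext
    simpa [ψ] using hpow γ
  · funext γ
    rfl

/-- A set which maps injectively into the `p`-torsion characters of `Gamma0 M` is finite. -/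
theorem hmf_finite_of_injOn (M : ℕ) [NeZero M] (p : ℕ) [NeZero p] {α : Type*} (s : Set α)
    (κ : α → (CongruenceSubgroup.Gamma0 M →* ℂˣ)) (hκ : ∀ a ∈ s, ∀ γ, κ a γ ^ p = 1)
    (hinj : Set.InjOn κ s) : s.Finite := by
  refine Set.Finite.of_finite_image ((hmf_finite_torsionHoms M p).subset ?_) hinj
  rintro _ ⟨a, ha, rfl⟩
  exact hκ a ha

end Fermat.Agent.S42x
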