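/-
S42 project, block B2 (p-th roots in Mer(ℍ)), ANALYTIC CORE (helper65).  Mathlib only.  Prefix `prtc_`.

* `prtc_exists_root_zeroFree_ball` : a zero-free holomorphic function on an open ball has a
  holomorphic `p`-th root (primitive of the logarithmic derivative).
* `prtc_exists_root_ball` : a holomorphic function on a neighbourhood of a closed ball, all of whose
  zero orders there are finite and divisible by `p`, has a holomorphic `p`-th root on the open ball
  (divide out the finitely many zeros with `MeromorphicOn.extract_zeros_poles`).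
* `prtc_exists_root_upperHalfPlane` : the same on the upper half plane (exhaustion by balls,
  normalisation at a base point, identity theorem).
-/
import Mathlib

set_option autoImplicit false

namespace Fermat.Agent.S42x

open Complex Metric Set Filter Topology

/-- A zero-free holomorphic function on an open ball has a holomorphic `p`-th root. -/
theorem prtc_exists_root_zeroFree_ball (p : ℕ) (hp : 0 < p) {g : ℂ → ℂ} {c : ℂ} {r : ℝ}
    (hg : AnalyticOnNhd ℂ g (ball c r)) (hg0 : ∀ z ∈ ball c r, g z ≠ 0) :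
    ∃ v : ℂ → ℂ, AnalyticOnNhd ℂ v (ball c r) ∧ ∀ z ∈ ball c r, v z ^ p = g z := by
  by_cases hr : 0 < r
  swap
  · refine ⟨fun _ => 0, fun z hz => ?_, fun z hz => ?_⟩ <;>
    · exfalso
      rw [ball_eq_empty.mpr (not_lt.mp hr)] at hz
      exact hz
  have hcb : c ∈ ball c r := mem_ball_self hr
  -- logarithmic derivative
  have hdg : DifferentiableOn ℂ g (ball c r) := hg.differentiableOn
  have hderiv : AnalyticOnNhd ℂ (deriv g) (ball c r) := hg.deriv
  have hld : DifferentiableOn ℂ (fun z => deriv g z / g z) (ball c r) :=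
    hderiv.differentiableOn.div hdg hg0
  obtain ⟨L, hL⟩ := hld.isExactOn_ball
  -- g * exp (-L) is constant
  have hLd : DifferentiableOn ℂ L (ball c r) := fun z hz => (hL z hz).differentiableAt.differentiableWithinAt
  set F : ℂ → ℂ := fun z => g z * Complex.exp (-L z) with hF
  have hFd : ∀ z ∈ ball c r, HasDerivAt F 0 z := by
    intro z hz
    have h1 : HasDerivAt g (deriv g z) z :=
      (hg z hz).differentiableAt.hasDerivAt
    have h2 : HasDerivAt (fun z => Complex.exp (-L z)) (Complex.exp (-L z) * -(deriv g z / g z)) z :=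
      ((hL z hz).neg).cexp
    have h3 := h1.mul h2
    have : deriv g z * Complex.exp (-L z) + g z * (Complex.exp (-L z) * -(deriv g z / g z)) = 0 := by
      have := hg0 z hz
      field_simp
      ring
    rw [this] at h3
    exact h3
  have hconst : ∀ z ∈ ball c r, F z = F c := by
    intro z hz
    have hFdiff : DifferentiableOn ℂ F (ball c r) :=
      fun w hw => (hFd w hw).differentiableAt.differentiableWithinAt
    exact (convex_ball c r).is_const_of_fderivWithin_eq_zero hFdiff
      (fun w hw => by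
        rw [fderivWithin_eq_fderiv (isOpen_ball.uniqueDiffWithinAt hw)
          (hFd w hw).differentiableAt]
        ext
        simp [(hFd w hw).hasFDerivAt.fderiv]) hz hcb
  have hFc : F c ≠ 0 := mul_ne_zero (hg0 c hcb) (Complex.exp_ne_zero _)
  obtain ⟨w0, hw0⟩ : ∃ w0 : ℂ, w0 ^ p = F c := IsAlgClosed.exists_pow_nat_eq _ hp
  refine ⟨fun z => w0 * Complex.exp (L z / p), ?_, ?_⟩
  · have : DifferentiableOn ℂ (fun z => w0 * Complex.exp (L z / p)) (ball c r) :=
      (differentiableOn_const _).mul ((hLd.div_const _).cexp)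
    exact this.analyticOnNhd isOpen_ball
  · intro z hz
    have hpne : (p : ℂ) ≠ 0 := by exact_mod_cast hp.ne'
    rw [mul_pow, hw0, ← Complex.exp_nat_mul, mul_div_cancel₀ _ hpne, ← hconst z hz, hF]
    simp only
    rw [mul_assoc, ← Complex.exp_add, neg_add_cancel, Complex.exp_zero, mul_one]


/-- `p`-th power of a factorized rational function. -/
theorem prtc_factorized_pow (p : ℕ) {d : ℂ → ℤ} (hd : d.support.Finite) :
    (∏ᶠ u, (fun z : ℂ => z - u) ^ d u) ^ p = ∏ᶠ u, (fun z : ℂ => z - u) ^ (d u * p) := by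
  have hfin : (Function.mulSupport fun u => (fun z : ℂ => z - u) ^ d u).Finite := by
    rw [Function.FactorizedRational.mulSupport]; exact hd
  rw [finprod_pow hfin]
  congr 1
  funext u
  rw [zpow_mul, zpow_natCast]

/-- A holomorphic function on a neighbourhood of a closed ball all of whose zero orders in the
closed ball are finite and divisible by `p` has a holomorphic `p`-th root on the open ball. -/
theorem prtc_exists_root_ball (p : ℕ) (hp : 0 < p) {W : ℂ → ℂ} {c : ℂ} {r : ℝ}
    (hW : AnalyticOnNhd ℂ W (closedBall c r))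
    (hord : ∀ z ∈ closedBall c r, ∃ m : ℕ, analyticOrderAt W z = ((p * m : ℕ) : ℕ∞)) :
    ∃ u : ℂ → ℂ, AnalyticOnNhd ℂ u (ball c r) ∧ ∀ z ∈ ball c r, u z ^ p = W z := by
  classical
  set K : Set ℂ := closedBall c r with hK
  have hmero : MeromorphicOn W K := hW.meromorphicOn
  have hordm : ∀ z ∈ K, ∃ m : ℕ, meromorphicOrderAt W z = ((p * m : ℕ) : ℤ) := by
    intro z hz
    obtain ⟨m, hm⟩ := hord z hz
    refine ⟨m, ?_⟩
    rw [(hW z hz).meromorphicOrderAt_eq, hm]
    rfl
  have h₂ : ∀ u : K, meromorphicOrderAt W u ≠ ⊤ := by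
    intro u
    obtain ⟨m, hm⟩ := hordm u u.2
    rw [hm]
    exact WithTop.coe_ne_top
  have h₃ : (MeromorphicOn.divisor W K).support.Finite :=
    (MeromorphicOn.divisor W K).finiteSupport (isCompact_closedBall c r)
  obtain ⟨g, hg, hg0, hEq⟩ := hmero.extract_zeros_poles h₂ h₃
  set D : ℂ → ℤ := fun u => MeromorphicOn.divisor W K u with hD
  -- the exponents are nonnegative multiples of `p`
  have hDp : ∀ u, ∃ m : ℕ, D u = (m : ℤ) * p := by
    intro u
    by_cases hu : u ∈ K
    · obtain ⟨m, hm⟩ := hordm u hu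
      refine ⟨m, ?_⟩
      simp only [hD, MeromorphicOn.divisor_apply hmero hu, hm]
      rw [WithTop.untop₀_coe]
      push_cast
      ring
    · refine ⟨0, ?_⟩
      simp only [hD]
      rw [Function.locallyFinsuppWithin.apply_eq_zero_of_notMem _ hu]
      simp
  choose m hm using hDp
  set d' : ℂ → ℤ := fun u => (m u : ℤ) with hd'
  have hd'supp : d'.support.Finite := by
    refine h₃.subset ?_
    intro u hu
    simp only [Function.mem_support, hd', ne_eq, Int.natCast_eq_zero] at hu
    simp only [Function.mem_support, ne_eq]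
    have := hm u
    simp only [hD] at this
    rw [this]
    have hp' : (p : ℤ) ≠ 0 := by exact_mod_cast hp.ne'
    exact mul_ne_zero (by exact_mod_cast hu) hp'
  set ψ : ℂ → ℂ := ∏ᶠ u, (fun z : ℂ => z - u) ^ d' u with hψ
  set φ : ℂ → ℂ := ∏ᶠ u, (fun z : ℂ => z - u) ^ D u with hφ
  have hψφ : ψ ^ p = φ := by
    rw [hψ, prtc_factorized_pow p hd'supp, hφ]
    congr 1
    funext u
    rw [hm u]
  have hψan : ∀ x, AnalyticAt ℂ ψ x := fun x =>
    Function.FactorizedRational.analyticAt (d := d') (by simp [hd'])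
  have hφan : ∀ x, AnalyticAt ℂ φ x := fun x =>
    Function.FactorizedRational.analyticAt (d := D) (by rw [hm x]; positivity)
  -- root of the zero-free part
  have hgb : AnalyticOnNhd ℂ g (ball c r) := hg.mono ball_subset_closedBall
  obtain ⟨g₁, hg₁, hg₁p⟩ := prtc_exists_root_zeroFree_ball p hp hgb
    (fun z hz => hg0 ⟨z, ball_subset_closedBall hz⟩)
  refine ⟨fun z => ψ z * g₁ z, fun z hz => (hψan z).mul (hg₁ z hz), fun z hz => ?_⟩
  -- `W = φ * g` on the open ball, by continuity
  have hzK : z ∈ K := ball_subset_closedBall hz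
  have hev : ∀ᶠ x in 𝓝[≠] z, W x = φ x * g x := by
    have h1 : {x | W x = (φ • g) x} ∈ codiscreteWithin K := hEq
    rw [mem_codiscreteWithin] at h1
    have h2 := h1 z hzK
    rw [Filter.disjoint_principal_right] at h2
    have h3 : K ∈ 𝓝[≠] z :=
      nhdsWithin_le_nhds (closedBall_mem_nhds_of_mem hz)
    filter_upwards [h2, h3] with x hx hxK
    simp only [mem_compl_iff, Set.mem_sdiff, not_and, not_not] at hx
    have := hx hxK
    simpa [Pi.smul_apply', smul_eq_mul] using this
  have hcont1 : ContinuousAt W z := (hW z hzK).continuousAt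
  have hcont2 : ContinuousAt (fun x => φ x * g x) z :=
    ((hφan z).continuousAt).mul (hg z hzK).continuousAt
  have hWz : W z = φ z * g z :=
    (eventuallyEq_nhds_of_eventuallyEq_nhdsNE hev
      (by
        have := tendsto_nhds_unique_of_eventuallyEq (hcont1.tendsto.mono_left nhdsWithin_le_nhds)
          (hcont2.tendsto.mono_left nhdsWithin_le_nhds) hev
        exact this)).self_of_nhds
  rw [mul_pow, hg₁p z hz, hWz]
  congr 1
  have := congrFun hψφ z
  simpa using this


/-! ### Exhaustion of the upper half plane by balls -/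

/-- centre of the `n`-th ball -/
noncomputable def prtc_ctr (n : ℕ) : ℂ := ((n : ℝ) + 2 : ℝ) * Complex.I

/-- radius of the `n`-th ball -/
noncomputable def prtc_rad (n : ℕ) : ℝ := ((n : ℝ) + 2) - 1 / ((n : ℝ) + 2)

theorem prtc_closedBall_subset (n : ℕ) :
    closedBall (prtc_ctr n) (prtc_rad n) ⊆ {z : ℂ | 0 < z.im} := by
  intro z hz
  rw [mem_closedBall, Complex.dist_eq] at hz
  have h1 : |(z - prtc_ctr n).im| ≤ prtc_rad n := (Complex.abs_im_le_norm _).trans hz
  have h2 : (z - prtc_ctr n).im = z.im - ((n : ℝ) + 2) := by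
    simp [prtc_ctr]
  rw [h2] at h1
  have h3 := (abs_le.mp h1).1
  have hn : (0 : ℝ) < (n : ℝ) + 2 := by positivity
  have h4 : 0 < 1 / ((n : ℝ) + 2) := by positivity
  simp only [prtc_rad] at h3
  show 0 < z.im
  linarith

theorem prtc_ball_mono {n k : ℕ} (h : n ≤ k) :
    ball (prtc_ctr n) (prtc_rad n) ⊆ ball (prtc_ctr k) (prtc_rad k) := by
  induction k, h using Nat.le_induction with
  | base => exact le_rfl
  | succ k _ ih =>
    refine ih.trans ?_
    apply ball_subset_ball'
    have hd : dist (prtc_ctr k) (prtc_ctr (k + 1)) = 1 := by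
      rw [Complex.dist_eq]
      have : prtc_ctr k - prtc_ctr (k + 1) = -Complex.I := by
        simp only [prtc_ctr]; push_cast; ring
      rw [this]; simp
    rw [hd]
    simp only [prtc_rad]
    push_cast
    have hk : (0 : ℝ) < (k : ℝ) + 2 := by positivity
    have hk1 : (0 : ℝ) < (k : ℝ) + 1 + 2 := by positivity
    have : 1 / ((k : ℝ) + 1 + 2) ≤ 1 / ((k : ℝ) + 2) :=
      one_div_le_one_div_of_le hk (by linarith)
    linarith

theorem prtc_exists_mem_ball {z : ℂ} (hz : 0 < z.im) :
    ∃ n : ℕ, z ∈ ball (prtc_ctr n) (prtc_rad n) := by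
  obtain ⟨n, hn⟩ := exists_nat_gt ((z.re ^ 2 + z.im ^ 2 + 2) / (2 * z.im))
  refine ⟨n, ?_⟩
  rw [mem_ball, Complex.dist_eq]
  have hN : (0 : ℝ) < (n : ℝ) + 2 := by positivity
  have hrad : 0 < prtc_rad n := by
    simp only [prtc_rad]
    have : 1 / ((n : ℝ) + 2) < 1 := by
      rw [div_lt_one hN]; linarith [Nat.cast_nonneg (α := ℝ) n]
    linarith [Nat.cast_nonneg (α := ℝ) n]
  rw [← abs_of_pos hrad, ← abs_of_nonneg (norm_nonneg (z - prtc_ctr n)), ← sq_lt_sq,
    Complex.sq_norm, Complex.normSq_apply]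
  have hre : (z - prtc_ctr n).re = z.re := by simp [prtc_ctr]
  have him : (z - prtc_ctr n).im = z.im - ((n : ℝ) + 2) := by simp [prtc_ctr]
  rw [hre, him]
  simp only [prtc_rad]
  have h1 : (z.re ^ 2 + z.im ^ 2 + 2) < (n : ℝ) * (2 * z.im) := by
    rwa [div_lt_iff₀ (by positivity)] at hn
  have h2 : 0 ≤ (1 / ((n : ℝ) + 2)) ^ 2 := by positivity
  have h3 : ((n : ℝ) + 2) * (1 / ((n : ℝ) + 2)) = 1 := by field_simp
  nlinarith [h1, h2, h3, hz]


/-- Two continuous `p`-th roots of the same function which agree and are nonzero at a point agree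
near that point. -/
theorem prtc_root_unique_near (p : ℕ) (hp : 0 < p) {f g : ℂ → ℂ} {z₀ : ℂ}
    (hf : ContinuousAt f z₀) (hg : ContinuousAt g z₀) (h0 : g z₀ ≠ 0) (heq : f z₀ = g z₀)
    (hpow : ∀ᶠ z in 𝓝 z₀, f z ^ p = g z ^ p) : f =ᶠ[𝓝 z₀] g := by
  classical
  set S : Finset ℂ := (Polynomial.nthRootsFinset p (1 : ℂ)).erase 1 with hS
  have hSc : IsClosed (S : Set ℂ) := S.finite_toSet.isClosed
  have h1 : (1 : ℂ) ∉ (S : Set ℂ) := by simp [hS]
  have hρ : ContinuousAt (fun z => f z / g z) z₀ := hf.div hg h0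
  have hρ0 : (fun z => f z / g z) z₀ = 1 := by simp [heq, h0]
  have hopen : (S : Set ℂ)ᶜ ∈ 𝓝 ((fun z => f z / g z) z₀) := by
    rw [hρ0]; exact hSc.isOpen_compl.mem_nhds h1
  have hev := hρ.preimage_mem_nhds hopen
  have hg0 : ∀ᶠ z in 𝓝 z₀, g z ≠ 0 := hg.eventually_ne h0
  filter_upwards [hev, hg0, hpow] with z hz hgz hzp
  have hroot : (f z / g z) ^ p = 1 := by
    rw [div_pow, hzp, div_self (pow_ne_zero _ hgz)]
  have hmem : f z / g z ∈ Polynomial.nthRootsFinset p (1 : ℂ) := by
    rw [Polynomial.mem_nthRootsFinset hp]; exact hroot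
  have : f z / g z = 1 := by
    by_contra hne
    exact hz (by simp [hS, hne, hmem])
  field_simp at this
  exact this

/-- **B2 analytic core.**  A holomorphic function on the upper half plane, not identically zero,
all of whose zero orders are divisible by `p`, has a holomorphic `p`-th root. -/
theorem prtc_exists_root_upperHalfPlane (p : ℕ) (hp : 0 < p) {W : ℂ → ℂ}
    (hW : AnalyticOnNhd ℂ W {z : ℂ | 0 < z.im}) (hne : ∃ z : ℂ, 0 < z.im ∧ W z ≠ 0)
    (hord : ∀ z : ℂ, 0 < z.im → ∃ m : ℕ, analyticOrderAt W z = ((p * m : ℕ) : ℕ∞)) :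
    ∃ u : ℂ → ℂ, AnalyticOnNhd ℂ u {z : ℂ | 0 < z.im} ∧ ∀ z : ℂ, 0 < z.im → u z ^ p = W z := by
  classical
  obtain ⟨z₀, hz₀, hWz₀⟩ := hne
  obtain ⟨n₀, hn₀⟩ := prtc_exists_mem_ball hz₀
  obtain ⟨w₀, hw₀⟩ : ∃ w₀ : ℂ, w₀ ^ p = W z₀ := IsAlgClosed.exists_pow_nat_eq _ hp
  have hw₀ne : w₀ ≠ 0 := by
    rintro rfl
    rw [zero_pow hp.ne'] at hw₀
    exact hWz₀ hw₀.symm
  set B : ℕ → Set ℂ := fun k => ball (prtc_ctr (n₀ + k)) (prtc_rad (n₀ + k)) with hB
  have hBmono : ∀ {k j : ℕ}, k ≤ j → B k ⊆ B j := fun h => prtc_ball_mono (by omega)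
  have hz₀B : ∀ k, z₀ ∈ B k := fun k => prtc_ball_mono (Nat.le_add_right n₀ k) hn₀
  have hBH : ∀ k, B k ⊆ {z : ℂ | 0 < z.im} := fun k =>
    ball_subset_closedBall.trans (prtc_closedBall_subset _)
  have hBopen : ∀ k, IsOpen (B k) := fun k => isOpen_ball
  -- normalised roots on every ball
  have hex : ∀ k, ∃ v : ℂ → ℂ, AnalyticOnNhd ℂ v (B k) ∧ (∀ z ∈ B k, v z ^ p = W z) ∧
      v z₀ = w₀ := by
    intro k
    obtain ⟨u, hu, hup⟩ := prtc_exists_root_ball p hp
      (hW.mono (prtc_closedBall_subset (n₀ + k)))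
      (fun z hz => hord z (prtc_closedBall_subset (n₀ + k) hz))
    have hu0 : u z₀ ≠ 0 := by
      intro h
      have := hup z₀ (hz₀B k)
      rw [h, zero_pow hp.ne'] at this
      exact hWz₀ this.symm
    refine ⟨fun z => w₀ / u z₀ * u z, fun z hz => analyticAt_const.mul (hu z hz),
      fun z hz => ?_, by field_simp⟩
    rw [mul_pow, div_pow, hw₀, hup z hz, hup z₀ (hz₀B k), div_self hWz₀, one_mul]
  choose v hvan hvpow hvz₀ using hex
  -- consecutive roots agree
  have hstep : ∀ k, ∀ z ∈ B k, v (k + 1) z = v k z := by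
    intro k
    have h1 : AnalyticOnNhd ℂ (v (k + 1)) (B k) := (hvan (k + 1)).mono (hBmono (Nat.le_succ k))
    have hnear : v (k + 1) =ᶠ[𝓝 z₀] v k := by
      apply prtc_root_unique_near p hp (h1 z₀ (hz₀B k)).continuousAt
        ((hvan k) z₀ (hz₀B k)).continuousAt
      · rw [hvz₀]; exact hw₀ne
      · rw [hvz₀, hvz₀]
      · filter_upwards [(hBopen k).mem_nhds (hz₀B k)] with z hz
        rw [hvpow k z hz, hvpow (k + 1) z (hBmono (Nat.le_succ k) hz)]
    exact h1.eqOn_of_preconnected_of_eventuallyEq (hvan k)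
      (convex_ball _ _).isPreconnected (hz₀B k) hnear
  have hagree : ∀ k j, k ≤ j → ∀ z ∈ B k, v j z = v k z := by
    intro k j hkj
    induction j, hkj using Nat.le_induction with
    | base => intro z _; rfl
    | succ j hj ih =>
      intro z hz
      rw [hstep j z (hBmono hj hz), ih z hz]
  have hcover : ∀ z : ℂ, 0 < z.im → ∃ k, z ∈ B k := by
    intro z hz
    obtain ⟨n, hn⟩ := prtc_exists_mem_ball hz
    exact ⟨n, prtc_ball_mono (Nat.le_add_left n n₀) hn⟩
  set N : ℂ → ℕ := fun z => if h : ∃ k, z ∈ B k then Nat.find h else 0 with hN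
  have hu_eq : ∀ k, ∀ z ∈ B k, v (N z) z = v k z := by
    intro k z hz
    have hex : ∃ k, z ∈ B k := ⟨k, hz⟩
    have hNz : N z = Nat.find hex := by simp only [hN, dif_pos hex]
    have hle : N z ≤ k := by rw [hNz]; exact Nat.find_min' hex hz
    have hmem : z ∈ B (N z) := by rw [hNz]; exact Nat.find_spec hex
    exact (hagree (N z) k hle z hmem).symm
  refine ⟨fun z => v (N z) z, fun z hz => ?_, fun z hz => ?_⟩
  · obtain ⟨k, hk⟩ := hcover z hz
    have hev : (fun z => v (N z) z) =ᶠ[𝓝 z] v k := by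
      filter_upwards [(hBopen k).mem_nhds hk] with x hx
      exact hu_eq k x hx
    exact (hvan k z hk).congr hev.symm
  · obtain ⟨k, hk⟩ := hcover z hz
    show v (N z) z ^ p = W z
    rw [hu_eq k z hk, hvpow k z hk]

end Fermat.Agent.S42x
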