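/-
S42 project, block B2 (p-th roots in Mer(ℍ)), Hol/Mer WRAPPER of the analytic core
`S42x/RootCore.lean` (helper65).  Prefix `prtm_`.

* `prtm_exists_root_hol` : `W : Hol`, `W ≠ 0`, `p ∣ holOrdZ W τ` for all `τ`  ⟹  `∃ w : Hol, w ^ p = W`.
* `prtm_exists_root_mer` : `F : Mer`, `F ≠ 0`, `p ∣ ordAt τ F` for all `τ`  ⟹  `∃ h : Mer, h ^ p = F`
  (= B2 TOP).
-/
import Mathlib
import Fermat.Agent.S24x.PointPlaces
import Fermat.Agent.S42x.RootCore

set_option autoImplicit false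

namespace Fermat.Agent.S42x

open UpperHalfPlane Fermat.Agent.S24x
open scoped MatrixGroups Manifold

/-- `ordAt` of a power. -/
theorem prtm_ordAt_pow (τ : ℍ) {x : Mer} (hx : x ≠ 0) (n : ℕ) :
    ordAt τ (x ^ n) = n * ordAt τ x := by
  induction n with
  | zero =>
    have h1 : ordAt τ (1 : Mer) = 0 := by
      have := ordAt_const τ 1
      rwa [map_one] at this
    simp [h1]
  | succ n ih =>
    rw [pow_succ, ordAt_mul τ (pow_ne_zero n hx) hx, ih]
    push_cast
    ring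

/-- Holomorphic `p`-th root of a holomorphic function on `ℍ` all of whose zero orders are
divisible by `p`. -/
theorem prtm_exists_root_hol (p : ℕ) (hp : 0 < p) (W : Hol) (hW : W ≠ 0)
    (hord : ∀ τ : ℍ, (p : ℤ) ∣ holOrdZ W τ) : ∃ w : Hol, w ^ p = W := by
  set Wc : ℂ → ℂ := (W : ℍ → ℂ) ∘ ofComplex with hWc
  have hWan : AnalyticOnNhd ℂ Wc {z : ℂ | 0 < z.im} := Hol.analyticOnNhd W
  have hne : ∃ z : ℂ, 0 < z.im ∧ Wc z ≠ 0 := by
    by_contra hcon
    simp only [not_exists, not_and, not_not] at hcon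
    apply hW
    apply Subtype.ext
    funext τ
    have := hcon (τ : ℂ) τ.im_pos
    simpa [hWc] using this
  have hordc : ∀ z : ℂ, 0 < z.im → ∃ m : ℕ, analyticOrderAt Wc z = ((p * m : ℕ) : ℕ∞) := by
    intro z hz
    set τ : ℍ := ⟨z, hz⟩ with hτ
    obtain ⟨k, hk⟩ := hord τ
    have hk0 : 0 ≤ k := by
      have h1 : 0 ≤ holOrdZ W τ := holOrdZ_nonneg W τ
      have hp' : (0 : ℤ) < p := by exact_mod_cast hp
      rw [hk] at h1
      exact nonneg_of_mul_nonneg_right h1 hp'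
    refine ⟨k.toNat, ?_⟩
    have h2 : holOrder W τ = ((holOrder W τ).toNat : ℕ∞) := holOrder_eq_coe_toNat hW τ
    have h3 : ((holOrder W τ).toNat : ℤ) = p * k := hk
    have h4 : (holOrder W τ).toNat = p * k.toNat := by
      have : ((p * k.toNat : ℕ) : ℤ) = p * k := by
        push_cast
        rw [Int.toNat_of_nonneg hk0]
      exact_mod_cast h3.trans this.symm
    show analyticOrderAt ((W : ℍ → ℂ) ∘ ofComplex) ((τ : ℍ) : ℂ) = _
    have h5 : holOrder W τ = analyticOrderAt ((W : ℍ → ℂ) ∘ ofComplex) ((τ : ℍ) : ℂ) := rfl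
    rw [← h5, h2, h4]
  obtain ⟨u, hu, hup⟩ := prtc_exists_root_upperHalfPlane p hp hWan hne hordc
  have hmd : MDiff (fun τ : ℍ => u (τ : ℂ)) := by
    rw [UpperHalfPlane.mdifferentiable_iff]
    refine hu.differentiableOn.congr ?_
    intro z hz
    simp only [Function.comp_apply]
    rw [ofComplex_apply_of_im_pos hz]
  refine ⟨⟨fun τ : ℍ => u (τ : ℂ), hmd⟩, ?_⟩
  apply Subtype.ext
  funext τ
  have := hup (τ : ℂ) τ.im_pos
  simpa [hWc] using this

/-- **B2 TOP.**  A nonzero meromorphic function on `ℍ` all of whose orders are divisible by `p`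
is a `p`-th power in `Mer`. -/
theorem prtm_exists_root_mer (p : ℕ) (hp : 0 < p) (F : Mer) (hF : F ≠ 0)
    (hord : ∀ τ : ℍ, (p : ℤ) ∣ ordAt τ F) : ∃ h : Mer, h ^ p = F := by
  obtain ⟨a, b, hb, hab⟩ := IsFractionRing.div_surjective (A := Hol) F
  have hb0 : b ≠ 0 := nonZeroDivisors.ne_zero hb
  have hbM : algebraMap Hol Mer b ≠ 0 := by
    intro h
    exact hb0 ((IsFractionRing.injective Hol Mer) (by rw [h, map_zero]))
  have ha0 : a ≠ 0 := by
    rintro rfl
    rw [map_zero, zero_div] at hab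
    exact hF hab.symm
  set W : Hol := a * b ^ (p - 1) with hWdef
  have hW0 : W ≠ 0 := mul_ne_zero ha0 (pow_ne_zero _ hb0)
  have hWF : algebraMap Hol Mer W = F * (algebraMap Hol Mer b) ^ p := by
    rw [hWdef, map_mul, map_pow, ← hab]
    have hp1 : p = (p - 1) + 1 := by omega
    conv_rhs => rw [hp1, pow_succ]
    field_simp
  have hWord : ∀ τ : ℍ, (p : ℤ) ∣ holOrdZ W τ := by
    intro τ
    rw [← ordAt_algebraMap_eq_holOrdZ τ hW0, hWF, ordAt_mul τ hF (pow_ne_zero _ hbM),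
      prtm_ordAt_pow τ hbM]
    exact dvd_add (hord τ) (dvd_mul_right _ _)
  obtain ⟨w, hw⟩ := prtm_exists_root_hol p hp W hW0 hWord
  refine ⟨algebraMap Hol Mer w / algebraMap Hol Mer b, ?_⟩
  rw [div_pow, ← map_pow, hw, hWF]
  field_simp

end Fermat.Agent.S42x
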