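/-
S42 project, glue leaf JFIN (helper85, prefix `jtf85_`): **finiteness of `J₀(M)(Q̄)[p]`**, needed by the
abstract top (`tpa_core`/`top_core`: `[Finite Jp]`).

Route: TOTALITY of `κ` over `Q̄` (cheap once B2 is landed):
* `jtf85_total` : every `x : JZero M` with `p • x = 0` satisfies `heq_Rel M p x ψ` for some `p`-torsion
  multiplier `ψ` (write `x = [Dt]`, `p • Dt = div f`; `p ∣ ord_τ (evF f)` for EVERY `τ ∈ ℍ` by the S24x
  point-place dictionary `MerReal.exists_ordAt_eq_mul_placeAt_ord` (order `0` at non-points);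
  `prtm_exists_root_mer` (B2) gives `h` with `h ^ p = evF f`; `inj_char_exists_additive` gives `ψ`);
* `jtf85_finite` : given (R3) `∀ x, heq_Rel M p x 0 → x = 0`, the set `{x | p • x = 0}` is finite
  (`x ↦ ψ_x` is injective by `rlg_rel_add`/`rlg_rel_neg` + (R3), target finite by
  `hmf_finite_torsionHoms`);
* `jtf85_finite_torsionBy`, `jtf85_finite_torsion` : the same for `Submodule.torsionBy ℤ (JZero M) p`
  and `Pic0.torsion Q̄ F̄_M p`.
-/
import Mathlib
import Fermat.Agent.S24x.VPt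
import Fermat.Agent.S42x.HeckeEqDefs
import Fermat.Agent.S42x.RelGroup
import Fermat.Agent.S42x.RootMer
import Fermat.Agent.S42x.InjChar
import Fermat.Agent.S42x.HomFinite

set_option autoImplicit false
set_option linter.style.haveILetI false

namespace Fermat.Agent.S42x

open UpperHalfPlane ModularCurve AlgebraicCurve CongruenceSubgroup
open Fermat.Agent.S24x
open scoped MatrixGroups

noncomputable section

variable (M p : ℕ) [NeZero M]

omit [NeZero M] in
/-- `p ∣ ord_τ (evF f)` for every `τ ∈ ℍ` as soon as `p ∣ v_P(f)` for every place `P` of `F̄_M`. -/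
theorem jtf85_dvd_ordAt (f : FBar M)
    (hdiv : ∀ P : Place Qbar (modularFunctionFieldBar M), (p : ℤ) ∣ P.ord f) (τ : ℍ) :
    (p : ℤ) ∣ ordAt τ (evF M f) := by
  by_cases hpt : (evReal M).IsPt τ
  · obtain ⟨g, -, -, hall⟩ := (evReal M).exists_ordAt_eq_mul_placeAt_ord τ hpt
    have h1 := hall f
    rw [evReal_φ] at h1
    rw [h1]
    exact Dvd.dvd.mul_left (hdiv _) _
  · by_cases hf : f = 0
    · rw [hf, map_zero, ordAt_zero]
      exact dvd_zero _
    · have h0 : ordAt τ (evF M f) = 0 := by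
        by_contra hne
        exact hpt ⟨f, hf, hne⟩
      rw [h0]
      exact dvd_zero _

/-- **totality of `κ` over `Q̄`**: every `p`-torsion class is related to some `p`-torsion multiplier. -/
theorem jtf85_total (hp : p ≠ 0) (x : JZero M) (hx : p • x = 0) :
    ∃ ψ : Additive (Gamma0 M) →+ Additive ℂˣ, heq_Rel M p x ψ ∧
      ∀ γ : Gamma0 M, ((ψ (Additive.ofMul γ)).toMul : ℂˣ) ^ p = 1 := by
  obtain ⟨Dt, rfl⟩ := Pic0.mk_surjective x
  have h1 : p • Pic0.mk Dt = Pic0.mk (p • Dt) := rfl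
  rw [h1] at hx
  have h2 := (QuotientAddGroup.eq_zero_iff _).mp hx
  rw [AddSubgroup.mem_addSubgroupOf, Divisor.mem_principal] at h2
  obtain ⟨f, hf, hfD⟩ := h2
  have hdivD : ∀ P : Place Qbar (modularFunctionFieldBar M),
      (p : ℤ) * (Dt : Divisor Qbar (modularFunctionFieldBar M)) P = P.ord f := by
    intro P
    rw [← hfD P, AddSubgroup.coe_nsmul, Finsupp.smul_apply, nsmul_eq_mul]
  have hdiv : ∀ P : Place Qbar (modularFunctionFieldBar M), (p : ℤ) ∣ P.ord f :=
    fun P => ⟨_, (hdivD P).symm⟩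
  have hF : evF M f ≠ 0 := (map_ne_zero (evF M)).mpr hf
  obtain ⟨h, hh⟩ := prtm_exists_root_mer p (Nat.pos_of_ne_zero hp) (evF M f) hF
    (jtf85_dvd_ordAt M p f hdiv)
  have h0 : h ≠ 0 := by
    rintro rfl
    rw [zero_pow hp] at hh
    exact hF hh.symm
  obtain ⟨ψ, hψ, hψp⟩ := inj_char_exists_additive M hp h0 (fun g => by
    rw [hh]
    exact evF_smul_of_mem_Gamma0 M (g : SL(2, ℤ)) g.2 f)
  exact ⟨ψ, ⟨f, Dt, h, hf, rfl, hdivD, hh, hψ⟩, hψp⟩

/-- the multiplier chosen for a `p`-torsion class. -/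
def jtf85_psi (hp : p ≠ 0) (x : {x : JZero M // p • x = 0}) :
    Additive (Gamma0 M) →+ Additive ℂˣ :=
  (jtf85_total M p hp x.1 x.2).choose

theorem jtf85_psi_rel (hp : p ≠ 0) (x : {x : JZero M // p • x = 0}) :
    heq_Rel M p x.1 (jtf85_psi M p hp x) :=
  (jtf85_total M p hp x.1 x.2).choose_spec.1

theorem jtf85_psi_pow (hp : p ≠ 0) (x : {x : JZero M // p • x = 0}) (γ : Gamma0 M) :
    ((jtf85_psi M p hp x (Additive.ofMul γ)).toMul : ℂˣ) ^ p = 1 :=
  (jtf85_total M p hp x.1 x.2).choose_spec.2 γ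

/-- `x ↦ ψ_x` is injective, given (R3). -/
theorem jtf85_psi_injective (hp : p ≠ 0)
    (hR3 : ∀ x : JZero M, heq_Rel M p x 0 → x = 0) :
    Function.Injective (jtf85_psi M p hp) := by
  intro x y hxy
  have h1 := rlg_rel_add M p (jtf85_psi_rel M p hp x) (rlg_rel_neg M p (jtf85_psi_rel M p hp y))
  rw [hxy] at h1
  have h1' : heq_Rel M p (x.1 + -y.1) 0 := by
    have e : jtf85_psi M p hp y + -jtf85_psi M p hp y = 0 :=
      add_neg_cancel (jtf85_psi M p hp y)
    rw [← e]
    exact h1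
  have h2 := hR3 _ h1'
  exact Subtype.ext (by rwa [← sub_eq_add_neg, sub_eq_zero] at h2)

/-- **finiteness of `J₀(M)(Q̄)[p]`**, given (R3). -/
theorem jtf85_finite_subtype (hp : p ≠ 0)
    (hR3 : ∀ x : JZero M, heq_Rel M p x 0 → x = 0) :
    Finite {x : JZero M // p • x = 0} := by
  haveI : NeZero p := ⟨hp⟩
  have hfin := hmf_finite_torsionHoms M p
  let κ : {x : JZero M // p • x = 0} → (Gamma0 M →* ℂˣ) :=
    fun x => MonoidHom.toAdditive.symm (jtf85_psi M p hp x)
  have hκinj : Function.Injective κ := by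
    intro x y hxy
    apply jtf85_psi_injective M p hp hR3
    apply AddMonoidHom.ext
    intro γ
    exact DFunLike.congr_fun hxy (Additive.toMul γ)
  have hκmem : ∀ x, κ x ∈ {ψ : Gamma0 M →* ℂˣ | ∀ γ, ψ γ ^ p = 1} :=
    fun x γ => jtf85_psi_pow M p hp x γ
  haveI : Finite {ψ : Gamma0 M →* ℂˣ | ∀ γ, ψ γ ^ p = 1} := hfin
  exact Finite.of_injective (fun x => (⟨κ x, hκmem x⟩ : {ψ : Gamma0 M →* ℂˣ | ∀ γ, ψ γ ^ p = 1}))
    (fun x y hxy => hκinj (congrArg Subtype.val hxy))

theorem jtf85_finite (hp : p ≠ 0)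
    (hR3 : ∀ x : JZero M, heq_Rel M p x 0 → x = 0) :
    {x : JZero M | p • x = 0}.Finite := by
  exact Set.finite_coe_iff.mp (jtf85_finite_subtype M p hp hR3)

/-- the `Submodule.torsionBy` form. -/
theorem jtf85_finite_torsionBy (hp : p ≠ 0)
    (hR3 : ∀ x : JZero M, heq_Rel M p x 0 → x = 0) :
    Finite (Submodule.torsionBy ℤ (JZero M) (p : ℤ)) := by
  haveI := jtf85_finite_subtype M p hp hR3
  refine Finite.of_injective
    (fun x : Submodule.torsionBy ℤ (JZero M) (p : ℤ) =>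
      (⟨x.1, by
        have := (Submodule.mem_torsionBy_iff _ _).mp x.2
        rwa [natCast_zsmul] at this⟩ : {x : JZero M // p • x = 0})) ?_
  intro x y hxy
  exact Subtype.ext (congrArg Subtype.val hxy)

/-- the `Pic0.torsion` form. -/
theorem jtf85_finite_torsion (hp : p ≠ 0)
    (hR3 : ∀ x : JZero M, heq_Rel M p x 0 → x = 0) :
    Finite (Pic0.torsion Qbar (modularFunctionFieldBar M) p) :=
  jtf85_finite_torsionBy M p hp hR3

end

end Fermat.Agent.S42x
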