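/-
S42 project, block B4 (injectivity + finiteness), leaf L4 (helper81): multiplier of a `p`-th root
in `Mer` and finiteness of the classes of `p`-divisible functions modulo `p`-th powers.

* `inj_eq_const_of_pow_eq_one` : `x ∈ Mer`, `x ^ p = 1` ⇒ `x` is a constant `p`-th root of unity.
* `inj_exists_multiplier` : `h ≠ 0` in `Mer` with `(γ • h) ^ p = h ^ p` for all `γ ∈ Γ₀(M)` has a
  multiplier `c : Γ₀(M) → ℂ`, multiplicative and `p`-torsion, with `γ • h = c γ * h`.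
* `inj_finite_classes` (abstract field `F`, realisation `ev : F →+* Mer`) : if every `f ∈ S` has a
  `p`-th root of `ev f` in `Mer`, every `ev x` is `Γ₀(M)`-invariant, and roots with equal multipliers
  differ by `p`-th powers, then `S` has finitely many classes modulo `p`-th powers.
* `inj_finite_classes_ratioField` : the instance `F = S23x.ratioField M` (from `InjEv`).
-/
import Mathlib
import Fermat.Agent.S42x.InjEv
import Fermat.Agent.S42x.HomFinite

set_option autoImplicit false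

namespace Fermat.Agent.S42x

open Fermat.Agent.S24x Fermat.Agent.S23x
open UpperHalfPlane CongruenceSubgroup Polynomial
open scoped MatrixGroups Manifold

/-- `SL(2,ℤ)` acts trivially on the constants of `Mer` -/
theorem inj_smul_const (γ : SL(2, ℤ)) (c : ℂ) :
    γ • algebraMap ℂ Mer c = algebraMap ℂ Mer c := by
  rw [IsScalarTower.algebraMap_apply ℂ Hol Mer, smul_algebraMap_Mer]
  rfl

theorem inj_algebraMap_complex_injective : Function.Injective (algebraMap ℂ Mer) :=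
  (algebraMap ℂ Mer).injective

/-- a `p`-th root of unity in the field `Mer` is a constant -/
theorem inj_eq_const_of_pow_eq_one {p : ℕ} (hp : 0 < p) {x : Mer} (hx : x ^ p = 1) :
    ∃ ζ : ℂ, ζ ^ p = 1 ∧ x = algebraMap ℂ Mer ζ := by
  classical
  have hprim := Complex.isPrimitiveRoot_exp p hp.ne'
  have hfac := X_pow_sub_one_eq_prod hp hprim
  have h1 : aeval x (X ^ p - 1 : ℂ[X]) = 0 := by
    rw [map_sub, map_pow, aeval_X, map_one, hx, sub_self]
  rw [hfac, map_prod] at h1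
  obtain ⟨ζ, hζ, h0⟩ := Finset.prod_eq_zero_iff.mp h1
  refine ⟨ζ, ?_, ?_⟩
  · exact ((mem_nthRootsFinset hp (1 : ℂ)).mp hζ)
  · rw [map_sub, aeval_X, aeval_C] at h0
    exact sub_eq_zero.mp h0

/-- the multiplier of a `p`-th root -/
theorem inj_exists_multiplier (M : ℕ) {p : ℕ} (hp : 0 < p) {h : Mer} (hh : h ≠ 0)
    (hpow : ∀ γ : Gamma0 M, ((γ : SL(2, ℤ)) • h) ^ p = h ^ p) :
    ∃ c : Gamma0 M → ℂ, (∀ γ δ, c (γ * δ) = c γ * c δ) ∧ (∀ γ, c γ ^ p = 1) ∧
      ∀ γ : Gamma0 M, (γ : SL(2, ℤ)) • h = algebraMap ℂ Mer (c γ) * h := by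
  have hex : ∀ γ : Gamma0 M, ∃ ζ : ℂ, ζ ^ p = 1 ∧
      (γ : SL(2, ℤ)) • h = algebraMap ℂ Mer ζ * h := by
    intro γ
    have h1 : (((γ : SL(2, ℤ)) • h) * h⁻¹) ^ p = 1 := by
      rw [mul_pow, hpow γ, inv_pow, mul_inv_cancel₀ (pow_ne_zero p hh)]
    obtain ⟨ζ, hζ, hx⟩ := inj_eq_const_of_pow_eq_one hp h1
    refine ⟨ζ, hζ, ?_⟩
    rw [← hx, mul_assoc, inv_mul_cancel₀ hh, mul_one]
  choose c hc1 hc2 using hex
  refine ⟨c, ?_, hc1, hc2⟩
  intro γ δ
  have e : ((γ * δ : Gamma0 M) : SL(2, ℤ)) • h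
      = algebraMap ℂ Mer (c γ * c δ) * h := by
    rw [Subgroup.coe_mul, mul_smul, hc2 δ, smul_mul', inj_smul_const, hc2 γ, map_mul]
    ring
  rw [hc2 (γ * δ)] at e
  exact inj_algebraMap_complex_injective (mul_right_cancel₀ hh e)

/-- **finiteness of the classes, abstract form** -/
theorem inj_finite_classes (M : ℕ) [NeZero M] {F : Type*} [Field F] (ev : F →+* Mer) {p : ℕ}
    (hp : 0 < p) (S : Set F) (hS0 : ∀ f ∈ S, f ≠ 0)
    (hroot : ∀ f ∈ S, ∃ h : Mer, h ^ p = ev f)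
    (hinv : ∀ (x : F) (γ : SL(2, ℤ)), γ ∈ Gamma0 M → γ • ev x = ev x)
    (hcls : ∀ f f' : F, f ≠ 0 → ∀ h h' : Mer, h ^ p = ev f → h' ^ p = ev f' →
      ∀ c : Gamma0 M → ℂ, (∀ γ : Gamma0 M, (γ : SL(2, ℤ)) • h = algebraMap ℂ Mer (c γ) * h) →
        (∀ γ : Gamma0 M, (γ : SL(2, ℤ)) • h' = algebraMap ℂ Mer (c γ) * h') →
          ∃ w : F, f' = f * w ^ p) :
    ∃ (T : Type) (_ : Finite T) (κ : S → T),
      ∀ f f' : S, κ f = κ f' → ∃ w : F, (f' : F) = (f : F) * w ^ p := by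
  classical
  have : NeZero p := ⟨hp.ne'⟩
  have hfin := hmf_finite_multipliers M p
  let T : Type := ↥{c : Gamma0 M → ℂ | (∀ γ δ, c (γ * δ) = c γ * c δ) ∧ ∀ γ, c γ ^ p = 1}
  have : Finite T := hfin.to_subtype
  -- choose roots and multipliers
  have hdata : ∀ f : S, ∃ (h : Mer) (c : Gamma0 M → ℂ), h ^ p = ev (f : F) ∧
      (∀ γ δ, c (γ * δ) = c γ * c δ) ∧ (∀ γ, c γ ^ p = 1) ∧
      ∀ γ : Gamma0 M, (γ : SL(2, ℤ)) • h = algebraMap ℂ Mer (c γ) * h := by
    intro f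
    obtain ⟨h, hh⟩ := hroot f f.2
    have hevf : ev (f : F) ≠ 0 := (map_ne_zero ev).mpr (hS0 f f.2)
    have hh0 : h ≠ 0 := by
      rintro rfl
      rw [zero_pow hp.ne'] at hh
      exact hevf hh.symm
    have hpw : ∀ γ : Gamma0 M, ((γ : SL(2, ℤ)) • h) ^ p = h ^ p := by
      intro γ
      rw [← smul_pow', hh, hinv _ _ γ.2]
    obtain ⟨c, hc1, hc2, hc3⟩ := inj_exists_multiplier M hp hh0 hpw
    exact ⟨h, c, hh, hc1, hc2, hc3⟩
  choose h c hh hc1 hc2 hc3 using hdata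
  refine ⟨T, inferInstance, fun f => ⟨c f, hc1 f, hc2 f⟩, ?_⟩
  intro f f' hff
  have hceq : c f = c f' := congrArg Subtype.val hff
  refine hcls f f' (hS0 f f.2) (h f) (h f') (hh f) (hh f') (c f) (hc3 f) ?_
  rw [hceq]
  exact hc3 f'

/-- **finiteness of the classes for `FC = ratioField M`.** -/
theorem inj_finite_classes_ratioField (M : ℕ) [NeZero M] (ev : ratioField M →+* Mer)
    (hev : inj_EvCompat M ev) {p : ℕ} (hp : 0 < p) (S : Set (ratioField M))
    (hS0 : ∀ f ∈ S, f ≠ 0) (hroot : ∀ f ∈ S, ∃ h : Mer, h ^ p = ev f) :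
    ∃ (T : Type) (_ : Finite T) (κ : S → T),
      ∀ f f' : S, κ f = κ f' → ∃ w : ratioField M, (f' : ratioField M) = (f : ratioField M) * w ^ p :=
  inj_finite_classes M ev hp S hS0 hroot (inj_ev_invariant M ev hev)
    (fun f f' hf h h' hh hh' c hc hc' => inj_ev_class M ev hev hp f f' hf h h' hh hh' c hc hc')

end Fermat.Agent.S42x
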