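/-
S42 project, block B4 (finiteness), export in the shape consumed by B7 (`dsct_top`, helper74):
a FINITE set `T0 ⊆ FC` meeting every class of `p`-divisible functions modulo `ℂˣ · FCˣᵖ`.

* `inj_exists_T0` : abstract form, for any predicate `Sp` on `FC = ratioField M` such that `Sp f`
  implies `f ≠ 0` and `p ∣ ordAt τ (ev f)` for every `τ` (then `ev f` has a `p`-th root in `Mer` by
  helper65's `prtm_exists_root_mer`, block B2).
* `inj_exists_T0_of_dict` : `Sp f := f ≠ 0 ∧ ∀ P ∈ PP, p ∣ P.ord f` for a set of places `PP`, from the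
  order dictionary `ordAt τ (ev f) = e * P_τ.ord f` with `P_τ ∈ PP` (block B3); `PP = univ` gives the
  literal hypothesis `hcls` of `dsct_top'`, `PP = {P | 0 ≤ P.ord j}` gives helper57's variant.
-/
import Mathlib
import Fermat.Agent.S42x.InjFinite
import Fermat.Agent.S42x.RootMer
import Fermat.Prelude.Def_AlgebraicCurve_DivisorClassGroup

set_option autoImplicit false

namespace Fermat.Agent.S42x

open Fermat.Agent.S24x Fermat.Agent.S23x AlgebraicCurve
open UpperHalfPlane CongruenceSubgroup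
open scoped MatrixGroups Manifold

/-- **finite set of representatives, abstract predicate.** -/
theorem inj_exists_T0 (M : ℕ) [NeZero M] (ev : ratioField M →+* Mer) (hev : inj_EvCompat M ev)
    {p : ℕ} (hp : 0 < p) (Sp : ratioField M → Prop)
    (hSp : ∀ f, Sp f → f ≠ 0 ∧ ∀ τ : ℍ, (p : ℤ) ∣ ordAt τ (ev f)) :
    ∃ T0 : Set (ratioField M), T0.Finite ∧ (∀ t ∈ T0, Sp t) ∧
      ∀ f : ratioField M, Sp f → ∃ t ∈ T0, ∃ (c : ℂ) (u : ratioField M), c ≠ 0 ∧ u ≠ 0 ∧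
        f = algebraMap ℂ (ratioField M) c * t * u ^ p := by
  classical
  have hS0 : ∀ f ∈ {f | Sp f}, f ≠ 0 := fun f hf => (hSp f hf).1
  have hroot : ∀ f ∈ {f | Sp f}, ∃ h : Mer, h ^ p = ev f := by
    intro f hf
    have hevf : ev f ≠ 0 := (map_ne_zero ev).mpr (hSp f hf).1
    exact prtm_exists_root_mer p hp (ev f) hevf (hSp f hf).2
  obtain ⟨T, hT, κ, hκ⟩ := inj_finite_classes_ratioField M ev hev hp {f | Sp f} hS0 hroot
  -- one representative per value of `κ`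
  have hrep : ∀ t : Set.range κ, ∃ f : {f | Sp f}, κ f = t := fun t => t.2
  choose rep hrepκ using hrep
  refine ⟨Set.range (fun t : Set.range κ => ((rep t : {f | Sp f}) : ratioField M)), ?_, ?_, ?_⟩
  · have hT' : Finite T := hT
    have : Finite (Set.range κ) := Subtype.finite
    exact Set.finite_range _
  · rintro _ ⟨t, rfl⟩
    exact (rep t).2
  · intro f hf
    set t : Set.range κ := ⟨κ ⟨f, hf⟩, ⟨f, hf⟩, rfl⟩ with ht
    have hk : κ (rep t) = κ ⟨f, hf⟩ := hrepκ t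
    obtain ⟨w, hw⟩ := hκ (rep t) ⟨f, hf⟩ hk
    refine ⟨((rep t : {f | Sp f}) : ratioField M), ⟨t, rfl⟩, 1, w, one_ne_zero, ?_, ?_⟩
    · rintro rfl
      rw [zero_pow hp.ne', mul_zero] at hw
      exact (hSp f hf).1 hw
    · rw [map_one, one_mul]
      exact hw

/-- **finite set of representatives from the order dictionary.** -/
theorem inj_exists_T0_of_dict (M : ℕ) [NeZero M] (ev : ratioField M →+* Mer)
    (hev : inj_EvCompat M ev) {p : ℕ} (hp : 0 < p) (PP : Set (Place ℂ (ratioField M)))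
    (hdict : ∀ τ : ℍ, ∃ (P : Place ℂ (ratioField M)) (e : ℤ), P ∈ PP ∧
      ∀ f : ratioField M, f ≠ 0 → ordAt τ (ev f) = e * P.ord f) :
    ∃ T0 : Set (ratioField M), T0.Finite ∧
      (∀ t ∈ T0, t ≠ 0 ∧ ∀ P ∈ PP, (p : ℤ) ∣ P.ord t) ∧
      ∀ f : ratioField M, f ≠ 0 → (∀ P ∈ PP, (p : ℤ) ∣ P.ord f) →
        ∃ t ∈ T0, ∃ (c : ℂ) (u : ratioField M), c ≠ 0 ∧ u ≠ 0 ∧
          f = algebraMap ℂ (ratioField M) c * t * u ^ p := by
  obtain ⟨T0, hfin, hT0, hcls⟩ := inj_exists_T0 M ev hev hp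
    (fun f => f ≠ 0 ∧ ∀ P ∈ PP, (p : ℤ) ∣ P.ord f) (by
      rintro f ⟨hf0, hdiv⟩
      refine ⟨hf0, fun τ => ?_⟩
      obtain ⟨P, e, hP, hd⟩ := hdict τ
      rw [hd f hf0]
      exact Dvd.dvd.mul_left (hdiv P hP) e)
  exact ⟨T0, hfin, hT0, fun f hf0 hdiv => hcls f ⟨hf0, hdiv⟩⟩

/-- the literal `hcls` of `dsct_top'` (all places) -/
theorem inj_exists_T0_univ (M : ℕ) [NeZero M] (ev : ratioField M →+* Mer)
    (hev : inj_EvCompat M ev) {p : ℕ} (hp : 0 < p)
    (hdict : ∀ τ : ℍ, ∃ (P : Place ℂ (ratioField M)) (e : ℤ),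
      ∀ f : ratioField M, f ≠ 0 → ordAt τ (ev f) = e * P.ord f) :
    ∃ T0 : Set (ratioField M), T0.Finite ∧
      ∀ f : ratioField M, f ≠ 0 → (∀ P : Place ℂ (ratioField M), (p : ℤ) ∣ P.ord f) →
        ∃ t ∈ T0, ∃ (c : ℂ) (u : ratioField M), c ≠ 0 ∧ u ≠ 0 ∧
          f = algebraMap ℂ (ratioField M) c * t * u ^ p := by
  obtain ⟨T0, hfin, -, hcls⟩ := inj_exists_T0_of_dict M ev hev hp Set.univ (fun τ => by
    obtain ⟨P, e, hd⟩ := hdict τ
    exact ⟨P, e, Set.mem_univ _, hd⟩)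
  exact ⟨T0, hfin, fun f hf0 hdiv => hcls f hf0 (fun P _ => hdiv P)⟩

end Fermat.Agent.S42x
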