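/-
S42x/DescGlue74 (helper74, B7 captain; prefix `dsg74_`): GLUE B4 + B7 on the carrier
`FC = S23x.ratioField M`.

From the B3 package on `ratioField M` only (a realisation `ev : ratioField M →+* Mer` satisfying
helper81's `inj_EvCompat`, and the point-place order dictionary `hdict`), every `f ∈ S_p(FC)`
descends to `FBar M` up to `ℂ^* · FC^{*p}`:  `coeffMap iotaQ f0 = c * f * u ^ p`.
(= `inj_exists_T0_univ` (B4, S42x/InjT0) fed into `dsct_top'` (B7, S42x/DescFinal) along
`cdcb_fullC_eq` (helper2, S42x/CDictBridge).)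
-/
import Fermat.Agent.S42x.DescFinal
import Fermat.Agent.S42x.InjT0
import Fermat.Agent.S42x.CDictBridge

set_option autoImplicit false

namespace Fermat.Agent.S42x

open AlgebraicCurve ModularCurve UpperHalfPlane Fermat.Agent.S23x Fermat.Agent.S24x

/-- **B4 + B7**: descent `ℂ → Q̄` on `ratioField M`, from the B3 package `(ev, hev, hdict)`. -/
theorem dsg74_descend (M : ℕ) [NeZero M] (ev : ratioField M →+* Mer) (hev : inj_EvCompat M ev)
    {p : ℕ} (hp : 0 < p)
    (hdict : ∀ τ : ℍ, ∃ (P : Place ℂ (ratioField M)) (e : ℤ),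
      ∀ f : ratioField M, f ≠ 0 → ordAt τ (ev f) = e * P.ord f)
    (f : ratioField M) (hf : f ≠ 0) (hdiv : ∀ P : Place ℂ (ratioField M), (p : ℤ) ∣ P.ord f) :
    ∃ (f0 : FBar M) (c : ℂ) (u : ratioField M), c ≠ 0 ∧ u ≠ 0 ∧
      coeffMap iotaQ (f0 : LaurentSeries Qbar) =
        ((algebraMap ℂ (ratioField M) c * f * u ^ p : ratioField M) : LaurentSeries ℂ) := by
  obtain ⟨T0, hfin, hcls⟩ := inj_exists_T0_univ M ev hev hp hdict
  exact dsct_top' M p hp (ratioField M) (cdcb_fullC_eq M).symm T0 hfin hcls f hf hdiv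

end Fermat.Agent.S42x
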