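/-
S42x/R5Inst81 (helper81, S42 glue, prefix `r5i81_`): the CONCRETE instance of helper60's
`r5a_of_descended` on `FC = S23x.ratioField M`: every block-top hypothesis is discharged by the
landed block tops, so that (R5) needs ONLY

* B3.1: one realisation `ev : ratioField M →+* Mer` with the door `inj_EvCompat M ev`,
* B3 point dictionary `hdict` (conclusion of `cdc_exists_ordAt_eq_mul`),
* B1 + B3.5: the data `(h₁, fC)` with `h₁ ^ p = ev fC`, multiplier `ψ`, and `p ∣ div_ℂ fC`.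

Used: `inj_cmp_const`, `inj_cmp_hcomp` (S42x/InjComp), `inj_ev_invariant` (S42x/InjEv),
`dsg74_descend` (helper74: B4 finiteness + B7 descent), `dsdq_dvd_ord` (helper11: R5c over `ℚ̄`).
-/
import Mathlib
import Fermat.Agent.S42x.R5Asm
import Fermat.Agent.S42x.InjComp
import Fermat.Agent.S42x.DescGlue74
import Fermat.Agent.S42x.DescDivFinal
import Fermat.Agent.S42x.TwEisPsi

set_option autoImplicit false

namespace Fermat.Agent.S42x

open UpperHalfPlane ModularCurve AlgebraicCurve CongruenceSubgroup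
open Fermat.Agent.S24x Fermat.Agent.S23x
open scoped MatrixGroups

noncomputable section

/-- `Γ₀(M)`-invariance of the values of `ev`, in the `γ⁻¹` form used by `r5a_of_descended`. -/
theorem r5i81_inv (M : ℕ) [NeZero M] (ev : ratioField M →+* Mer) (hev : inj_EvCompat M ev)
    (γ : Gamma0 M) (u : ratioField M) : ((γ : SL(2, ℤ))⁻¹ • ev u : Mer) = ev u :=
  inj_ev_invariant M ev hev u _ (inv_mem γ.2)

/-- `ψ_χ = exp(2πi χ/p)` is parabolic (in the additive shape of `heq_Rel`) when `χ` is. -/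
theorem r5i81_parabolic {M : ℕ} (p : ℕ) {χ : Additive (Gamma0 M) →+ ℤ}
    (hχ : ModularCurve.Period.IsParabolicHom (Gamma0 M) χ) :
    ModularCurve.Period.IsParabolicHom (Gamma0 M) (twp_psiAdd p χ) := by
  intro γ hγ
  rw [twp_psiAdd_apply]
  show Additive.ofMul (twp_psi p χ γ) = 0
  rw [twp_psi_of_trace p hχ γ hγ]
  rfl

/-- the door on a ratio of `q`-expansions of forms: `ev (qL A / qL B) = mk A / mk B`
(the interface lemma asked for by B1, helper76). -/
theorem r5i81_ev_ratio (M : ℕ) [NeZero M] (ev : ratioField M →+* Mer) (hev : inj_EvCompat M ev)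
    {m : ℤ} (A B : Hol) (hA : IsMF M m (A : ℍ → ℂ)) (hB : IsMF M m (B : ℍ → ℂ)) (hB0 : B ≠ 0)
    (x : ratioField M) (hx : (x : LS) = qL (A : ℍ → ℂ) / qL (B : ℍ → ℂ)) :
    ev x = algebraMap Hol Mer A / algebraMap Hol Mer B := by
  have hqB : qL (B : ℍ → ℂ) ≠ 0 := m04_qL_ne_zero hB (inj_coe_ne_zero hB0)
  have h1 := hev x m A B hA hB hB0 (by rw [hx, div_mul_cancel₀ _ hqB])
  rw [eq_div_iff (inj_algebraMap_ne_zero hB0), h1]

/-- **(R5), concrete.**  From a realisation with the door, the point dictionary, and the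
Eisenstein data `(h₁, fC)`, a point of `JZero M` in relation with `ψ`. -/
theorem r5i81_main (M p : ℕ) [NeZero M] (hp6 : Nat.Coprime p 6)
    (ev : ratioField M →+* Mer) (hev : inj_EvCompat M ev)
    (hdict : ∀ τ : ℍ, ∃ (P : Place ℂ (ratioField M)) (e : ℤ),
      ∀ f : ratioField M, f ≠ 0 → ordAt τ (ev f) = e * P.ord f)
    (ψ : Additive (Gamma0 M) →+ Additive ℂˣ)
    (hψ : ModularCurve.Period.IsParabolicHom (Gamma0 M) ψ)
    (h₁ : Mer) (fC : ratioField M) (hfC : fC ≠ 0)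
    (hroot : h₁ ^ p = ev fC) (hchar : r5a_HasChar M ψ h₁)
    (hdivC : ∀ P : Place ℂ (ratioField M), (p : ℤ) ∣ P.ord fC) :
    ∃ x : JZero M, heq_Rel M p x ψ := by
  have hp : 0 < p := by
    rcases Nat.eq_zero_or_pos p with rfl | hp
    · simp at hp6
    · exact hp
  exact r5a_of_descended M p hp ψ (ratioField M) ev (inj_cmp_const M ev hev)
    (r5i81_inv M ev hev) (inj_cmp_hcomp M ev hev) h₁ fC hfC hroot hchar
    (dsg74_descend M ev hev hp hdict fC hfC hdivC)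
    (fun f₀ hf₀ h hh hc => dsdq_dvd_ord M hp6 f₀ hf₀ h hh ψ hψ hc)

/-- a ratio of `q`-expansions of two forms of the same weight lies in `ratioField M`. -/
theorem r5i81_ratio_mem (M : ℕ) [NeZero M] {m : ℤ} (A B : Hol) (hA : IsMF M m (A : ℍ → ℂ))
    (hB : IsMF M m (B : ℍ → ℂ)) (hB0 : B ≠ 0) :
    qL (A : ℍ → ℂ) / qL (B : ℍ → ℂ) ∈ ratioField M := by
  have hqB : qL (B : ℍ → ℂ) ≠ 0 := m04_qL_ne_zero hB (inj_coe_ne_zero hB0)
  exact mem_ratioField_iff.mpr ⟨m, (A : ℍ → ℂ), (B : ℍ → ℂ), hA.cast (add_zero m).symm, hB,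
    inj_coe_ne_zero hB0, div_mul_cancel₀ _ hqB⟩

/-- **(R5) from forms.**  `A, B` forms of the same weight on `Γ₀(M)`, `h₁ ∈ Mer` with multiplier
`ψ` and `h₁ ^ p = mk A / mk B` (B1), and `p ∣ div_ℂ (qL A / qL B)` (B3 FINAL). -/
theorem r5i81_of_forms (M p : ℕ) [NeZero M] (hp6 : Nat.Coprime p 6)
    (ev : ratioField M →+* Mer) (hev : inj_EvCompat M ev)
    (hdict : ∀ τ : ℍ, ∃ (P : Place ℂ (ratioField M)) (e : ℤ),
      ∀ f : ratioField M, f ≠ 0 → ordAt τ (ev f) = e * P.ord f)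
    (ψ : Additive (Gamma0 M) →+ Additive ℂˣ)
    (hψ : ModularCurve.Period.IsParabolicHom (Gamma0 M) ψ)
    {m : ℤ} (A B : Hol) (hA : IsMF M m (A : ℍ → ℂ)) (hB : IsMF M m (B : ℍ → ℂ))
    (hA0 : A ≠ 0) (hB0 : B ≠ 0)
    (h₁ : Mer) (hroot : h₁ ^ p = algebraMap Hol Mer A / algebraMap Hol Mer B)
    (hchar : r5a_HasChar M ψ h₁)
    (hdivC : ∀ P : Place ℂ (ratioField M),
      (p : ℤ) ∣ P.ord (⟨_, r5i81_ratio_mem M A B hA hB hB0⟩ : ratioField M)) :
    ∃ x : JZero M, heq_Rel M p x ψ := by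
  have hqA : qL (A : ℍ → ℂ) ≠ 0 := m04_qL_ne_zero hA (inj_coe_ne_zero hA0)
  have hqB : qL (B : ℍ → ℂ) ≠ 0 := m04_qL_ne_zero hB (inj_coe_ne_zero hB0)
  have hfC : (⟨_, r5i81_ratio_mem M A B hA hB hB0⟩ : ratioField M) ≠ 0 := by
    intro h0
    exact div_ne_zero hqA hqB (congrArg Subtype.val h0)
  exact r5i81_main M p hp6 ev hev hdict ψ hψ h₁ _ hfC
    (hroot.trans (r5i81_ev_ratio M ev hev A B hA hB hB0 _ rfl).symm) hchar hdivC

end

end Fermat.Agent.S42x
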