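/-
S42x/R5Final81 (helper81, S42 glue, prefix `r5f81_`): **(R5), FULLY CONCRETE, NO HYPOTHESES.**

For a prime `p ≥ 5` and every parabolic `χ : Γ₀(M) → ℤ` there is `x ∈ J₀(M)(ℚ̄)` in relation
`heq_Rel M p x ψ_χ` with the character `ψ_χ = exp(2πi χ/p)`.

Assembly of the landed block tops:
* B1 (helper76/helper99): `twx76_*` — the all-cusp Eisenstein series `A_χ`, `h = A_χ / E₄`;
* B3.1 (helper29): `cde29_realR M` — the realisation bundle on `ratioField M` with the door;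
* B3.2 (helper38): `cdf_covering_finite`;  B3.3 (helper55): `cdu55_ord_eq_zero`;
* B3.4 (helper21): `cdfin21_dvd_ord_all`;
* B4 + B7 + R5c + R5-ASM: `r5i81_of_forms` (S42x/R5Inst81).
-/
import Mathlib
import Fermat.Agent.S42x.R5Inst81
import Fermat.Agent.S42x.CDictEvR29
import Fermat.Agent.S42x.CDictCovFin
import Fermat.Agent.S42x.CDictFinal21
import Fermat.Agent.S42x.CDictCuspUnit55
import Fermat.Agent.S42x.TwEisAllTop76
import Fermat.Agent.S42x.JTorsFin85

set_option autoImplicit false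

namespace Fermat.Agent.S42x

open UpperHalfPlane ModularCurve AlgebraicCurve CongruenceSubgroup ModularForm EisensteinSeries
open ModularCurve.Period
open Fermat.Agent.S24x Fermat.Agent.S23x
open scoped MatrixGroups

noncomputable section

/-- the point dictionary of the bundle `cde29_realR M`, in the `hdict` shape of B4/B7. -/
theorem r5f81_hdict (M : ℕ) [NeZero M] (τ : ℍ) :
    ∃ (P : Place ℂ (ratioField M)) (e : ℤ),
      ∀ f : ratioField M, f ≠ 0 → ordAt τ (cde29_ev M f) = e * P.ord f := by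
  obtain ⟨e, -, he⟩ := cdc_exists_ordAt_eq_mul (cde29_realR M) τ
  exact ⟨cdc_vPt (cde29_realR M) τ, (e : ℤ), fun f _ => he f⟩

theorem r5f81_coprime_six {p : ℕ} (hp : p.Prime) (hp5 : 5 ≤ p) : Nat.Coprime p 6 := by
  have h2 : Nat.Coprime p 2 := by
    rw [Nat.coprime_comm, Nat.coprime_primes Nat.prime_two hp]
    omega
  have h3 : Nat.Coprime p 3 := by
    rw [Nat.coprime_comm, Nat.coprime_primes Nat.prime_three hp]
    omega
  have : (6 : ℕ) = 2 * 3 := by norm_num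
  rw [this]
  exact Nat.Coprime.mul_right h2 h3

/-- **(R5)** for `ψ_χ`, `χ` parabolic, `p ≥ 5` prime. -/
theorem r5f81_hR5 (M p : ℕ) [NeZero M] (hp : p.Prime) (hp5 : 5 ≤ p)
    {χ : Additive (Gamma0 M) →+ ℤ} (hχ : IsParabolicHom (Gamma0 M) χ) :
    ∃ x : JZero M, heq_Rel M p x (twp_psiAdd p χ) := by
  have hcoord := cde29_isCoordinateR M
  have hcov : ∀ (c : ℂ) (τ₀ : ℍ), jFun τ₀ = c →
      ∀ v : Place ℂ (ratioField M), v ∈ placesOver ℂ (ratioField M) (cde29_jR M) c →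
      ∃ g : SL(2, ℤ), v = cdc_vPt (cde29_realR M) (g • τ₀) :=
    fun c τ₀ hτ₀ v hv => cdf_covering_finite (cde29_realR M) hcoord c τ₀ hτ₀ v hv
  -- the forms
  have hA : IsMF M ((p : ℤ) * 4) ((twx76_AHol p hχ ^ p : Hol) : ℍ → ℂ) := twx76_isMF_pow p hχ
  have hB : IsMF M ((p : ℤ) * 4) ((cdc_E4Hol ^ p : Hol) : ℍ → ℂ) := twb76_isMF_E4_pow M p
  have hA0 : (twx76_AHol p hχ ^ p : Hol) ≠ 0 := by
    intro h0
    have h1 := twx76_ratio_ne_zero (M := M) p hχ
    apply h1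
    have h2 : (twx76_A p χ ^ p : ℍ → ℂ) = 0 := congrArg Subtype.val h0
    rw [h2, m04_qL_zero, zero_div]
  have hB0 : (cdc_E4Hol ^ p : Hol) ≠ 0 := by
    intro h0
    have h2 : ((⇑E₄ : ℍ → ℂ) ^ p) = 0 := congrArg Subtype.val h0
    have h3 := twx76_ratio_ne_zero (M := M) p hχ
    apply h3
    rw [h2, m04_qL_zero, div_zero]
  have hroot : twx76_h p hχ ^ p =
      algebraMap Hol Mer (twx76_AHol p hχ ^ p) / algebraMap Hol Mer (cdc_E4Hol ^ p) :=
    twx76_h_pow p hχ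
  refine r5i81_of_forms M p (r5f81_coprime_six hp hp5) (cde29_ev M) (cde29_evCompat M)
    (r5f81_hdict M) (twp_psiAdd p χ) (r5i81_parabolic p hχ) (twx76_AHol p hχ ^ p)
    (cdc_E4Hol ^ p) hA hB hA0 hB0 (twx76_h p hχ) hroot (twx76_h_char p hχ) ?_
  -- divisibility of the divisor over `ℂ`
  set fC : ratioField M := ⟨_, r5i81_ratio_mem M (twx76_AHol p hχ ^ p) (cdc_E4Hol ^ p) hA hB hB0⟩
    with hfC
  have hpow : twx76_h p hχ ^ p = (cde29_realR M).φ fC :=
    hroot.trans (r5i81_ev_ratio M (cde29_ev M) (cde29_evCompat M) _ _ hA hB hB0 fC rfl).symm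
  have hpole : ∀ v ∈ polePlaces ℂ (ratioField M) (cde29_jR M), v.ord fC = 0 := by
    intro v hv
    refine cdu55_ord_eq_zero (cde29_realR M) (twx76_AHol p hχ) p (twx76_hhol p hχ)
      (twx76_hbdd p hχ) (twx76_hlim p hχ) fC ?_ v hv
    rw [← hpow]
    exact twx76_h_pow_mul p hχ
  exact cdfin21_dvd_ord_all (cde29_realR M) hcoord hcov hp hp5 fC (twx76_h p hχ) hpow hpole

/-- **(R3)**, concrete: a class related to the trivial multiplier is zero. -/
theorem r5f81_R3 (M p : ℕ) [NeZero M] (hp : 0 < p)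
    {x : JZero M} {ψ : Additive (Gamma0 M) →+ Additive ℂˣ}
    (hrel : heq_Rel M p x ψ) (hψ : ψ = 0) : x = 0 :=
  inj_cmp_R3 M (cde29_ev M) p hp (cde29_evCompat M) hrel hψ

theorem r5f81_R3_zero (M p : ℕ) [NeZero M] (hp : 0 < p) :
    ∀ x : JZero M, heq_Rel M p x 0 → x = 0 :=
  inj_cmp_R3_zero M (cde29_ev M) p hp (cde29_evCompat M)

/-- the `hR3` binder of `rlg_iotHyp`, concrete. -/
theorem r5f81_hR3 (M p : ℕ) [NeZero M] (hp : 0 < p)
    {L : Type*} [AddCommGroup L] (psiOf : L →+ (Additive (Gamma0 M) →+ Additive ℂˣ)) :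
    ∀ (x : JZero M) (χ : L), heq_Rel M p x (psiOf χ) → psiOf χ = 0 → x = 0 :=
  inj_cmp_hR3 M (cde29_ev M) p hp (cde29_evCompat M) psiOf

/-- **finiteness of `J₀(M)[p](ℚ̄)`**, concrete (helper85's `jtf85_finite_torsion` + (R3)). -/
theorem r5f81_finite_torsion (M p : ℕ) [NeZero M] (hp : p ≠ 0) :
    Finite (Pic0.torsion Qbar (modularFunctionFieldBar M) p) :=
  jtf85_finite_torsion M p hp (r5f81_R3_zero M p (Nat.pos_of_ne_zero hp))

end

end Fermat.Agent.S42x
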