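/-
S42 block B11, leaf (L2) in the TORSION form (helper14; sketch by helper49/helper16): every torsion
class of `JZero N` is fixed by the absolute Galois group of a number field.

No place theory: write `x = [D]`, `m • D = div f`; `f ∈ laurentBaseChange Q̄ F₀` has a finite field of
definition `L0` (closure induction: constants `a` are fixed by `Gal(Q̄/ℚ(a))`, rational `q`-series by
everything); for `σ` fixing `L0`: `σ f = f`, so `m • (σ D) = div (σ f) = m • D`, and divisors are a
torsion-free group, hence `σ D = D`.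

Prelude + Mathlib only.  Prefix `finl_`.  Main theorems: `finl_exists_fixed`, `finl_stab_open`,
`finl_stab_open_finset`, `finl_stab_open_torsion`.
-/
import Mathlib
import Fermat.Prelude.Def_ModularCurve_ArithmeticGalois

set_option autoImplicit false

namespace Fermat.Agent.S42x

open AlgebraicCurve ModularCurve IntermediateField

section FieldOfDef

variable {L : Type*} [Field L] [Algebra ℚ L] [Algebra.IsAlgebraic ℚ L]
variable (F₀ : IntermediateField ℚ (LaurentSeries ℚ))

/-- every element of `laurentBaseChange L F₀` (`L/ℚ` algebraic) has a finite field of definition. -/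
theorem finl_exists_fixed {x : LaurentSeries L} (hx : x ∈ laurentBaseChange L F₀) :
    ∃ L0 : IntermediateField ℚ L, FiniteDimensional ℚ L0 ∧
      ∀ σ : L ≃ₐ[ℚ] L, σ ∈ L0.fixingSubgroup → coeffMap (σ : L →+* L) x = x := by
  rw [mem_laurentBaseChange_iff] at hx
  induction hx using Subfield.closure_induction with
  | mem y hy =>
      rcases hy with ⟨a, rfl⟩ | ⟨z, _, rfl⟩
      · refine ⟨ℚ⟮a⟯, IntermediateField.adjoin.finiteDimensional
          (Algebra.IsIntegral.isIntegral a), fun σ hσ => ?_⟩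
        rw [coeffMap_algebraMap]
        congr 1
        exact (IntermediateField.mem_fixingSubgroup_iff _ σ).mp hσ a
          (IntermediateField.mem_adjoin_simple_self ℚ a)
      · exact ⟨⊥, inferInstance, fun σ _ => coeffMap_coeffEmb σ z⟩
  | one => exact ⟨⊥, inferInstance, fun σ _ => map_one _⟩
  | add x y _ _ hx hy =>
      obtain ⟨L1, h1, h1'⟩ := hx
      obtain ⟨L2, h2, h2'⟩ := hy
      refine ⟨L1 ⊔ L2, IntermediateField.finiteDimensional_sup L1 L2, fun σ hσ => ?_⟩
      rw [map_add, h1' σ (IntermediateField.fixingSubgroup_antitone le_sup_left hσ),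
        h2' σ (IntermediateField.fixingSubgroup_antitone le_sup_right hσ)]
  | neg x _ hx =>
      obtain ⟨L1, h1, h1'⟩ := hx
      exact ⟨L1, h1, fun σ hσ => by rw [map_neg, h1' σ hσ]⟩
  | inv x _ hx =>
      obtain ⟨L1, h1, h1'⟩ := hx
      exact ⟨L1, h1, fun σ hσ => by rw [map_inv₀, h1' σ hσ]⟩
  | mul x y _ _ hx hy =>
      obtain ⟨L1, h1, h1'⟩ := hx
      obtain ⟨L2, h2, h2'⟩ := hy
      refine ⟨L1 ⊔ L2, IntermediateField.finiteDimensional_sup L1 L2, fun σ hσ => ?_⟩
      rw [map_mul, h1' σ (IntermediateField.fixingSubgroup_antitone le_sup_left hσ),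
        h2' σ (IntermediateField.fixingSubgroup_antitone le_sup_right hσ)]

/-- the same for the arithmetic Galois action on the function field. -/
theorem finl_exists_fixed_smul (f : laurentBaseChange L F₀) :
    ∃ L0 : IntermediateField ℚ L, FiniteDimensional ℚ L0 ∧
      ∀ σ : L ≃ₐ[ℚ] L, σ ∈ L0.fixingSubgroup → arithmeticGalois F₀ σ • f = f := by
  obtain ⟨L0, h0, h0'⟩ := finl_exists_fixed F₀ f.2
  exact ⟨L0, h0, fun σ hσ => Subtype.ext (h0' σ hσ)⟩

end FieldOfDef

section Generic

variable {K F : Type*} [Field K] [Field F] [Algebra K F]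

/-- a semilinear automorphism fixing `f` fixes every divisor `D` with `m • D = div f`, `m ≠ 0`. -/
theorem finl_smul_divisor_eq (g : SemilinearAut K F) {f : F} (hgf : g • f = f) {m : ℤ} (hm : m ≠ 0)
    (D : Divisor K F) (hD : ∀ v : Place K F, (m • D) v = v.ord f) : g • D = D := by
  have h2 : g • (m • D) = m • D := by
    ext w
    rw [SemilinearAut.divisor_smul_apply, hD, hD]
    have := SemilinearAut.ord_smul g (g⁻¹ • w) f
    rw [smul_inv_smul, hgf] at this
    exact this.symm
  rw [smul_comm] at h2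
  exact smul_right_injective (Divisor K F) hm h2

/-- a semilinear automorphism fixing `f` fixes every class `x` with `m • x = 0` witnessed by `f`. -/
theorem finl_smul_pic0_eq (g : SemilinearAut K F) {m : ℤ} (hm : m ≠ 0)
    (D : Divisor.degZero (K := K) (F := F)) {f : F} (hgf : g • f = f)
    (hD : ∀ v : Place K F, (m • (D : Divisor K F)) v = v.ord f) :
    g • (Pic0.mk D) = Pic0.mk D := by
  rw [SemilinearAut.pic0_smul_mk]
  congr 1
  apply Subtype.ext
  rw [SemilinearAut.coe_degZeroSMulHom]
  exact finl_smul_divisor_eq g hgf hm _ hD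

/-- a torsion class is witnessed by a function. -/
theorem finl_exists_function {m : ℤ} (D : Divisor.degZero (K := K) (F := F))
    (hx : m • (Pic0.mk D) = 0) :
    ∃ f : F, f ≠ 0 ∧ ∀ v : Place K F, (m • (D : Divisor K F)) v = v.ord f := by
  have h1 : (Pic0.mk (m • D) : Pic0 K F) = 0 := by
    rw [← hx]; rfl
  have h2 := (QuotientAddGroup.eq_zero_iff _).mp h1
  rw [AddSubgroup.mem_addSubgroupOf] at h2
  obtain ⟨f, hf0, hf⟩ := h2
  exact ⟨f, hf0, fun v => by rw [← hf v]; rfl⟩

end Generic

section Main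

variable {L : Type*} [Field L] [Algebra ℚ L] [Algebra.IsAlgebraic ℚ L]
variable (F₀ : IntermediateField ℚ (LaurentSeries ℚ))

/-- generic form: torsion classes of `Pic0 L (laurentBaseChange L F₀)` have open stabilisers. -/
theorem finl_stab_open_gen (m : ℤ) (hm : m ≠ 0) (x : Pic0 L (laurentBaseChange L F₀))
    (hx : m • x = 0) :
    ∃ L0 : IntermediateField ℚ L, FiniteDimensional ℚ L0 ∧
      ∀ σ : L ≃ₐ[ℚ] L, σ ∈ L0.fixingSubgroup → σ • x = x := by
  obtain ⟨D, rfl⟩ := Pic0.mk_surjective x
  obtain ⟨f, -, hf⟩ := finl_exists_function D hx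
  obtain ⟨L0, hfin, hfix⟩ := finl_exists_fixed_smul F₀ f
  refine ⟨L0, hfin, fun σ hσ => ?_⟩
  rw [galois_smul_pic0_def]
  exact finl_smul_pic0_eq _ hm D (hfix σ hσ) hf

end Main

/-- **B11 (L2), torsion form**: every torsion class of `JZero N` is fixed by `Gal(Q̄/L0)` for a
number field `L0 ⊆ Q̄`. -/
theorem finl_stab_open (N : ℕ) (m : ℤ) (hm : m ≠ 0) (x : ModularCurve.JZero N) (hx : m • x = 0) :
    ∃ L0 : IntermediateField ℚ (AlgebraicClosure ℚ), FiniteDimensional ℚ L0 ∧
      ∀ σ : AlgebraicClosure ℚ ≃ₐ[ℚ] AlgebraicClosure ℚ, σ ∈ L0.fixingSubgroup → σ • x = x :=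
  have : Algebra.IsAlgebraic ℚ (AlgebraicClosure ℚ) := AlgebraicClosure.isAlgebraic ℚ
  finl_stab_open_gen (modularFunctionFieldFull N) m hm x hx

/-- finitely many torsion classes at once. -/
theorem finl_stab_open_finset (N : ℕ) (m : ℤ) (hm : m ≠ 0) (S : Finset (ModularCurve.JZero N))
    (hS : ∀ x ∈ S, m • x = 0) :
    ∃ L0 : IntermediateField ℚ (AlgebraicClosure ℚ), FiniteDimensional ℚ L0 ∧
      ∀ σ : AlgebraicClosure ℚ ≃ₐ[ℚ] AlgebraicClosure ℚ, σ ∈ L0.fixingSubgroup →
        ∀ x ∈ S, σ • x = x := by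
  classical
  induction S using Finset.induction_on with
  | empty => exact ⟨⊥, inferInstance, fun _ _ x hx => absurd hx (Finset.notMem_empty x)⟩
  | insert a S _ ih =>
      obtain ⟨L1, h1, h1'⟩ := ih (fun x hx => hS x (Finset.mem_insert_of_mem hx))
      obtain ⟨L2, h2, h2'⟩ := finl_stab_open N m hm a (hS a (Finset.mem_insert_self a S))
      refine ⟨L1 ⊔ L2, IntermediateField.finiteDimensional_sup L1 L2, fun σ hσ x hx => ?_⟩
      rcases Finset.mem_insert.mp hx with rfl | hx
      · exact h2' σ (IntermediateField.fixingSubgroup_antitone le_sup_right hσ)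
      · exact h1' σ (IntermediateField.fixingSubgroup_antitone le_sup_left hσ) x hx

/-- uniform version on the whole `m`-torsion, given its finiteness (block B4). -/
theorem finl_stab_open_torsion (N : ℕ) (m : ℤ) (hm : m ≠ 0)
    (hfin : {x : ModularCurve.JZero N | m • x = 0}.Finite) :
    ∃ L0 : IntermediateField ℚ (AlgebraicClosure ℚ), FiniteDimensional ℚ L0 ∧
      ∀ σ : AlgebraicClosure ℚ ≃ₐ[ℚ] AlgebraicClosure ℚ, σ ∈ L0.fixingSubgroup →
        ∀ x : ModularCurve.JZero N, m • x = 0 → σ • x = x := by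
  obtain ⟨L0, h0, h0'⟩ := finl_stab_open_finset N m hm hfin.toFinset
    (fun x hx => by simpa using hx)
  exact ⟨L0, h0, fun σ hσ x hx => h0' σ hσ x (by simpa using hx)⟩

end Fermat.Agent.S42x
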