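/-
S42 (route `ROUTE_S42_helper55` + `S42_LEAD_NOTES`), block B6 (Betti eigenvector), leaf LIN (helper52),
prefix `bel52_`.  Mathlib only.

PURE LINEAR ALGEBRA: for a commuting family of endomorphisms of a finite dimensional vector space, a common
eigen-FUNCTIONAL (common eigenvector of the transposes) with eigenvalues `c i` forces a common eigen-VECTOR
with the same eigenvalues.

* `bel52_eigvec_of_eigfun`  : over one field `K`;
* `bel52_eigvec_baseChange` : `F ⊆ K` fields, `W` finite dimensional over `F` with commuting `S i`,
  `θ : W →ₗ[F] K` nonzero with `θ (S i w) = c i * θ w` (`c i ∈ K`)  ⟹  a nonzero `u ∈ K ⊗[F] W` with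
  `(S i).baseChange K u = c i • u`.
-/
import Mathlib

set_option autoImplicit false

namespace Fermat.Agent.S42x

open TensorProduct

universe u

/-- **eigen-functional ⟹ eigen-vector** (commuting family on a finite dimensional space). -/
theorem bel52_eigvec_of_eigfun {K : Type*} [Field K] {I : Type*} (c : I → K) :
    ∀ (n : ℕ) (U : Type u) [AddCommGroup U] [Module K U] [FiniteDimensional K U]
      (S : I → Module.End K U) (_ : ∀ i j, S i * S j = S j * S i)
      (π : U →ₗ[K] K) (_ : π ≠ 0) (_ : ∀ i x, π (S i x) = c i * π x),
      Module.finrank K U = n → ∃ x : U, x ≠ 0 ∧ ∀ i, S i x = c i • x := by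
  intro n
  induction n using Nat.strong_induction_on with
  | _ n ih =>
    intro U _ _ _ S hcomm π hπ hπS hn
    -- a vector on which `π` does not vanish
    obtain ⟨x₀, hx₀⟩ : ∃ x, π x ≠ 0 := by
      by_contra hcon
      push Not at hcon
      exact hπ (LinearMap.ext fun x => by rw [hcon x, LinearMap.zero_apply])
    by_cases hall : ∀ i x, S i x = c i • x
    · refine ⟨x₀, ?_, fun i => hall i x₀⟩
      rintro rfl
      exact hx₀ (map_zero π)
    · push Not at hall
      obtain ⟨i₀, y₀, hy₀⟩ := hall
      -- the operator `N = S i₀ - c i₀`
      set N : Module.End K U := S i₀ - c i₀ • (1 : Module.End K U) with hN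
      have hNapp : ∀ x, N x = S i₀ x - c i₀ • x := fun x => by
        rw [hN, LinearMap.sub_apply, LinearMap.smul_apply, Module.End.one_apply]
      have hNcomm : ∀ j x, N (S j x) = S j (N x) := by
        intro j x
        rw [hNapp, hNapp, map_sub, map_smul]
        congr 1
        rw [← Module.End.mul_apply, hcomm, Module.End.mul_apply]
      have hπN : ∀ x, π (N x) = 0 := by
        intro x
        rw [hNapp, map_sub, map_smul, hπS, smul_eq_mul, sub_self]
      have hNy : N y₀ ≠ 0 := by
        rw [hNapp]
        exact sub_ne_zero.mpr hy₀
      by_cases hker : ∃ x ∈ LinearMap.ker N, π x ≠ 0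
      · -- restrict to `ker N`
        obtain ⟨x₁, hx₁, hπx₁⟩ := hker
        have hstab : ∀ j, ∀ x ∈ LinearMap.ker N, S j x ∈ LinearMap.ker N := by
          intro j x hx
          rw [LinearMap.mem_ker] at hx ⊢
          rw [hNcomm, hx, map_zero]
        have hlt : Module.finrank K (LinearMap.ker N) < n := by
          rw [← hn]
          apply Submodule.finrank_lt
          intro htop
          apply hNy
          have : y₀ ∈ LinearMap.ker N := by rw [htop]; exact Submodule.mem_top
          exact LinearMap.mem_ker.mp this
        obtain ⟨x, hx0, hx⟩ := ih _ hlt (LinearMap.ker N)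
          (fun j => (S j).restrict (hstab j))
          (fun i j => by
            apply LinearMap.ext
            intro x
            apply Subtype.ext
            simp only [Module.End.mul_apply, LinearMap.coe_restrict_apply]
            rw [← Module.End.mul_apply, hcomm, Module.End.mul_apply])
          (π ∘ₗ (LinearMap.ker N).subtype)
          (fun h0 => hπx₁ (by
            have := LinearMap.congr_fun h0 ⟨x₁, hx₁⟩
            simpa using this))
          (fun i x => by
            simp only [LinearMap.coe_comp, Function.comp_apply, Submodule.coe_subtype,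
              LinearMap.coe_restrict_apply]
            exact hπS i x)
          rfl
        refine ⟨(x : U), fun h0 => hx0 (Subtype.ext h0), fun i => ?_⟩
        have := congrArg Subtype.val (hx i)
        simpa using this
      · -- `π` kills `ker N`: pass to `range N ≃ U / ker N`
        push Not at hker
        have hle : LinearMap.ker N ≤ LinearMap.ker π := fun x hx => LinearMap.mem_ker.mpr (hker x hx)
        have hstab : ∀ j, ∀ x ∈ LinearMap.range N, S j x ∈ LinearMap.range N := by
          rintro j _ ⟨y, rfl⟩
          exact ⟨S j y, hNcomm j y⟩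
        have hlt : Module.finrank K (LinearMap.range N) < n := by
          rw [← hn]
          apply Submodule.finrank_lt
          intro htop
          apply hx₀
          have : x₀ ∈ LinearMap.range N := by rw [htop]; exact Submodule.mem_top
          obtain ⟨y, rfl⟩ := this
          exact hπN y
        let π' : LinearMap.range N →ₗ[K] K :=
          ((LinearMap.ker N).liftQ π hle) ∘ₗ (N.quotKerEquivRange.symm : _ →ₗ[K] _)
        have hπ' : ∀ y, π' ⟨N y, LinearMap.mem_range_self N y⟩ = π y := by
          intro y
          show ((LinearMap.ker N).liftQ π hle) (N.quotKerEquivRange.symm ⟨N y, _⟩) = π y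
          have h1 : N.quotKerEquivRange.symm ⟨N y, LinearMap.mem_range_self N y⟩ =
              (LinearMap.ker N).mkQ y := by
            rw [LinearEquiv.symm_apply_eq]
            apply Subtype.ext
            rfl
          rw [h1, Submodule.mkQ_apply, Submodule.liftQ_apply]
        obtain ⟨x, hx0, hx⟩ := ih _ hlt (LinearMap.range N)
          (fun j => (S j).restrict (hstab j))
          (fun i j => by
            apply LinearMap.ext
            intro x
            apply Subtype.ext
            simp only [Module.End.mul_apply, LinearMap.coe_restrict_apply]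
            rw [← Module.End.mul_apply, hcomm, Module.End.mul_apply])
          π'
          (fun h0 => hx₀ (by
            rw [← hπ' x₀, h0, LinearMap.zero_apply]))
          (fun i x => by
            obtain ⟨x, y, rfl⟩ := x
            have h2 : (S i).restrict (hstab i) ⟨N y, LinearMap.mem_range_self N y⟩ =
                ⟨N (S i y), LinearMap.mem_range_self N (S i y)⟩ := by
              apply Subtype.ext
              rw [LinearMap.coe_restrict_apply]
              exact (hNcomm i y).symm
            rw [h2, hπ', hπ', hπS])
          rfl
        refine ⟨(x : U), fun h0 => hx0 (Subtype.ext h0), fun i => ?_⟩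
        have := congrArg Subtype.val (hx i)
        simpa using this

/-- **base change form**: `F ⊆ K`, `W` finite dimensional over `F`, commuting `S i`, a nonzero `F`-linear
`θ : W → K` with `θ ∘ S i = c i • θ`.  Then `K ⊗[F] W` contains a nonzero common eigenvector of the
`(S i).baseChange K` with eigenvalues `c i`. -/
theorem bel52_eigvec_baseChange {F K : Type*} [Field F] [Field K] [Algebra F K]
    {W : Type*} [AddCommGroup W] [Module F W] [Module.Finite F W] {I : Type*}
    (S : I → Module.End F W) (hcomm : ∀ i j, S i * S j = S j * S i) (c : I → K)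
    (θ : W →ₗ[F] K) (hθ : θ ≠ 0) (hθS : ∀ i w, θ (S i w) = c i * θ w) :
    ∃ x : K ⊗[F] W, x ≠ 0 ∧ ∀ i, LinearMap.baseChange K (S i) x = c i • x := by
  obtain ⟨w₀, hw₀⟩ : ∃ w, θ w ≠ 0 := by
    by_contra hcon
    push Not at hcon
    exact hθ (LinearMap.ext fun x => by rw [hcon x, LinearMap.zero_apply])
  let π : K ⊗[F] W →ₗ[K] K := LinearMap.liftBaseChange K θ
  have hπt : ∀ (a : K) (w : W), π (a ⊗ₜ[F] w) = a * θ w := by
    intro a w
    show LinearMap.liftBaseChange K θ (a ⊗ₜ[F] w) = a * θ w
    rw [LinearMap.liftBaseChange_tmul, smul_eq_mul]
  refine bel52_eigvec_of_eigfun c _ (K ⊗[F] W) (fun i => LinearMap.baseChange K (S i))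
    (fun i j => ?_) π (fun h0 => hw₀ ?_) (fun i x => ?_) rfl
  · rw [Module.End.mul_eq_comp, Module.End.mul_eq_comp, ← LinearMap.baseChange_comp,
      ← LinearMap.baseChange_comp, ← Module.End.mul_eq_comp, ← Module.End.mul_eq_comp, hcomm]
  · have := hπt 1 w₀
    rw [h0, LinearMap.zero_apply, one_mul] at this
    exact this.symm
  · induction x using TensorProduct.induction_on with
    | zero => simp
    | tmul a w =>
      rw [LinearMap.baseChange_tmul, hπt, hπt, hθS]
      ring
    | add a b ha hb => rw [map_add, map_add, map_add, ha, hb, mul_add]

end Fermat.Agent.S42x
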