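import Mathlib

/-!
# S42x / block (I2): the quadratic-relation algebra lemma, part A (any field)

`G` a group acting on a `K`-vector space `V` through `ρ`, `ε : G →* Kˣ` a character, and every
`g : G` satisfies a relation `g² - t g + ε(g) = 0` on `V` (`qd86_Rel ρ ε g t`) for some scalar `t`.
Then EVERY element `b` of the `K`-span of `ρ(G)` satisfies a monic quadratic relation
`b² - s b + n = 0` (`qd86_span_quadratic`).  The proof uses the companions `g* = ε(g) g⁻¹ = t - g`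
and works in every characteristic (no division by `2`), and needs no well-definedness of `b ↦ b*`.

Also: `qd86_rel_pow` (the relation passes to powers), `qd86_add_quadratic` (the precise linear
coefficient for `ρ g + ρ h`).
-/

set_option autoImplicit false

namespace Fermat.Agent.S42x

noncomputable section

variable {K : Type} [Field K] {G : Type} [Group G] {V : Type} [AddCommGroup V] [Module K V]

/-- `g² - t g + ε(g) = 0` on `V`. -/
def qd86_Rel (ρ : G →* Module.End K V) (ε : G →* Kˣ) (g : G) (t : K) : Prop :=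
  ρ g * ρ g - t • ρ g + ((ε g : Kˣ) : K) • (1 : Module.End K V) = 0

/-- the companion `g* = ε(g) g⁻¹`. -/
def qd86_comp (ρ : G →* Module.End K V) (ε : G →* Kˣ) (g : G) : Module.End K V :=
  ((ε g : Kˣ) : K) • ρ g⁻¹

variable (ρ : G →* Module.End K V) (ε : G →* Kˣ)

theorem qd86_rho_mul_inv (g : G) : ρ g * ρ g⁻¹ = 1 := by
  rw [← map_mul, mul_inv_cancel, map_one]

theorem qd86_rho_inv_mul (g : G) : ρ g⁻¹ * ρ g = 1 := by
  rw [← map_mul, inv_mul_cancel, map_one]

/-- under the relation, `g* = t - g`. -/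
theorem qd86_comp_eq {g : G} {t : K} (h : qd86_Rel ρ ε g t) :
    qd86_comp ρ ε g = t • (1 : Module.End K V) - ρ g := by
  unfold qd86_Rel at h
  unfold qd86_comp
  have h2 := congrArg (fun x => x * ρ g⁻¹) h
  simp only [add_mul, sub_mul, zero_mul, smul_mul_assoc, one_mul, mul_assoc,
    qd86_rho_mul_inv, mul_one] at h2
  -- h2 : ρ g - t • 1 + ε • ρ g⁻¹ = 0
  rw [eq_sub_iff_add_eq]
  have : ((ε g : Kˣ) : K) • ρ g⁻¹ + ρ g = (ρ g - t • (1 : Module.End K V) +
      ((ε g : Kˣ) : K) • ρ g⁻¹) + t • (1 : Module.End K V) := by abel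
  rw [this, h2, zero_add]

theorem qd86_mul_comp (g : G) :
    ρ g * qd86_comp ρ ε g = ((ε g : Kˣ) : K) • (1 : Module.End K V) := by
  unfold qd86_comp
  rw [mul_smul_comm, qd86_rho_mul_inv]

/-- the cross term of two group elements is a multiple of `x + x*`, `x = g h⁻¹`. -/
theorem qd86_cross (g h : G) :
    ρ g * qd86_comp ρ ε h + ρ h * qd86_comp ρ ε g =
      ((ε h : Kˣ) : K) • (ρ (g * h⁻¹) + qd86_comp ρ ε (g * h⁻¹)) := by
  unfold qd86_comp
  have e1 : ((ε g : Kˣ) : K) = ((ε h : Kˣ) : K) * ((ε (g * h⁻¹) : Kˣ) : K) := by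
    rw [← Units.val_mul, mul_comm (ε h), ← map_mul, inv_mul_cancel_right]
  have e2 : (g * h⁻¹)⁻¹ = h * g⁻¹ := by rw [mul_inv_rev, inv_inv]
  rw [e2, mul_smul_comm, mul_smul_comm, ← map_mul, ← map_mul, smul_add, smul_smul, ← e1]

/-- the submodule of companion pairs. -/
def qd86_pairs : Submodule K (Module.End K V × Module.End K V) :=
  Submodule.span K (Set.range fun g : G => (ρ g, qd86_comp ρ ε g))

variable {ρ ε}

theorem qd86_pairs_add (hq : ∀ g : G, ∃ t : K, qd86_Rel ρ ε g t)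
    {p : Module.End K V × Module.End K V} (hp : p ∈ qd86_pairs ρ ε) :
    ∃ s : K, p.1 + p.2 = s • (1 : Module.End K V) := by
  unfold qd86_pairs at hp
  induction hp using Submodule.span_induction with
  | mem x hx =>
    obtain ⟨g, rfl⟩ := hx
    obtain ⟨t, ht⟩ := hq g
    refine ⟨t, ?_⟩
    simp only
    rw [qd86_comp_eq ρ ε ht]
    abel
  | zero => exact ⟨0, by simp⟩
  | add x y _ _ hx hy =>
    obtain ⟨s1, h1⟩ := hx
    obtain ⟨s2, h2⟩ := hy
    refine ⟨s1 + s2, ?_⟩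
    rw [Prod.fst_add, Prod.snd_add, add_smul, ← h1, ← h2]
    abel
  | smul c x _ hx =>
    obtain ⟨s, h1⟩ := hx
    refine ⟨c * s, ?_⟩
    rw [Prod.smul_fst, Prod.smul_snd, ← smul_add, h1, smul_smul]

theorem qd86_pairs_cross (hq : ∀ g : G, ∃ t : K, qd86_Rel ρ ε g t)
    {p q : Module.End K V × Module.End K V} (hp : p ∈ qd86_pairs ρ ε) (hq' : q ∈ qd86_pairs ρ ε) :
    ∃ m : K, p.1 * q.2 + q.1 * p.2 = m • (1 : Module.End K V) := by
  unfold qd86_pairs at hp hq'
  induction hp, hq' using Submodule.span_induction₂ with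
  | mem_mem x y hx hy =>
    obtain ⟨g, rfl⟩ := hx
    obtain ⟨h, rfl⟩ := hy
    obtain ⟨t, ht⟩ := hq (g * h⁻¹)
    refine ⟨((ε h : Kˣ) : K) * t, ?_⟩
    simp only
    rw [qd86_cross, qd86_comp_eq ρ ε ht, add_sub_cancel, smul_smul]
  | zero_left y _ => exact ⟨0, by simp⟩
  | zero_right x _ => exact ⟨0, by simp⟩
  | add_left x y z _ _ _ hx hy =>
    obtain ⟨m1, h1⟩ := hx
    obtain ⟨m2, h2⟩ := hy
    refine ⟨m1 + m2, ?_⟩
    rw [Prod.fst_add, Prod.snd_add, add_mul, mul_add, add_smul, ← h1, ← h2]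
    abel
  | add_right x y z _ _ _ hx hy =>
    obtain ⟨m1, h1⟩ := hx
    obtain ⟨m2, h2⟩ := hy
    refine ⟨m1 + m2, ?_⟩
    rw [Prod.fst_add, Prod.snd_add, add_mul, mul_add, add_smul, ← h1, ← h2]
    abel
  | smul_left c x y _ _ hx =>
    obtain ⟨m, h1⟩ := hx
    refine ⟨c * m, ?_⟩
    rw [Prod.smul_fst, Prod.smul_snd, smul_mul_assoc, mul_smul_comm, ← smul_add, h1, smul_smul]
  | smul_right c x y _ _ hx =>
    obtain ⟨m, h1⟩ := hx
    refine ⟨c * m, ?_⟩
    rw [Prod.smul_fst, Prod.smul_snd, smul_mul_assoc, mul_smul_comm, ← smul_add, h1, smul_smul]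

theorem qd86_pairs_mul (hq : ∀ g : G, ∃ t : K, qd86_Rel ρ ε g t)
    {p : Module.End K V × Module.End K V} (hp : p ∈ qd86_pairs ρ ε) :
    ∃ n : K, p.1 * p.2 = n • (1 : Module.End K V) := by
  have hp0 := hp
  unfold qd86_pairs at hp
  induction hp using Submodule.span_induction with
  | mem x hx =>
    obtain ⟨g, rfl⟩ := hx
    exact ⟨((ε g : Kˣ) : K), qd86_mul_comp ρ ε g⟩
  | zero => exact ⟨0, by simp⟩
  | add x y hx' hy' hx hy =>
    obtain ⟨n1, h1⟩ := hx hx'
    obtain ⟨n2, h2⟩ := hy hy'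
    obtain ⟨m, h3⟩ := qd86_pairs_cross hq (p := x) (q := y) hx' hy'
    refine ⟨n1 + n2 + m, ?_⟩
    rw [Prod.fst_add, Prod.snd_add, add_mul, mul_add, mul_add, add_smul, add_smul, ← h1, ← h2,
      ← h3]
    abel
  | smul c x hx' hx =>
    obtain ⟨n, h1⟩ := hx hx'
    refine ⟨c * c * n, ?_⟩
    rw [Prod.smul_fst, Prod.smul_snd, smul_mul_assoc, mul_smul_comm, h1, smul_smul, smul_smul,
      mul_assoc]

theorem qd86_exists_pair {b : Module.End K V}
    (hb : b ∈ Submodule.span K (Set.range ρ)) :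
    ∃ b' : Module.End K V, (b, b') ∈ qd86_pairs ρ ε := by
  induction hb using Submodule.span_induction with
  | mem x hx =>
    obtain ⟨g, rfl⟩ := hx
    exact ⟨qd86_comp ρ ε g, Submodule.subset_span ⟨g, rfl⟩⟩
  | zero => exact ⟨0, (qd86_pairs ρ ε).zero_mem⟩
  | add x y _ _ hx hy =>
    obtain ⟨x', h1⟩ := hx
    obtain ⟨y', h2⟩ := hy
    exact ⟨x' + y', (qd86_pairs ρ ε).add_mem h1 h2⟩
  | smul c x _ hx =>
    obtain ⟨x', h1⟩ := hx
    exact ⟨c • x', (qd86_pairs ρ ε).smul_mem c h1⟩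

/-- a pair `(b, b')` with `b + b' = s`, `b b' = n` gives `b² - s b + n = 0`. -/
theorem qd86_quadratic_of_pair {b b' : Module.End K V} {s n : K}
    (h1 : b + b' = s • (1 : Module.End K V)) (h2 : b * b' = n • (1 : Module.End K V)) :
    b * b - s • b + n • (1 : Module.End K V) = 0 := by
  have hb' : b' = s • (1 : Module.End K V) - b := by rw [← h1]; abel
  rw [hb', mul_sub, mul_smul_comm, mul_one] at h2
  rw [← h2]
  abel

/-- **every element of the span of `ρ(G)` is quadratic over `K`.** -/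
theorem qd86_span_quadratic (hq : ∀ g : G, ∃ t : K, qd86_Rel ρ ε g t) {b : Module.End K V}
    (hb : b ∈ Submodule.span K (Set.range ρ)) :
    ∃ s n : K, b * b - s • b + n • (1 : Module.End K V) = 0 := by
  obtain ⟨b', hp⟩ := qd86_exists_pair (ε := ε) hb
  obtain ⟨s, h1⟩ := qd86_pairs_add hq hp
  obtain ⟨n, h2⟩ := qd86_pairs_mul hq hp
  exact ⟨s, n, qd86_quadratic_of_pair h1 h2⟩

/-- the sum of two group elements: the linear coefficient is the sum of the two. -/
theorem qd86_add_quadratic (hq : ∀ g : G, ∃ t : K, qd86_Rel ρ ε g t) {g h : G} {t a : K}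
    (hg : qd86_Rel ρ ε g t) (hh : qd86_Rel ρ ε h a) :
    ∃ n : K, (ρ g + ρ h) * (ρ g + ρ h) - (t + a) • (ρ g + ρ h) +
      n • (1 : Module.End K V) = 0 := by
  have hp : (ρ g + ρ h, qd86_comp ρ ε g + qd86_comp ρ ε h) ∈ qd86_pairs ρ ε :=
    (qd86_pairs ρ ε).add_mem (Submodule.subset_span ⟨g, rfl⟩) (Submodule.subset_span ⟨h, rfl⟩)
  obtain ⟨n, h2⟩ := qd86_pairs_mul hq hp
  refine ⟨n, qd86_quadratic_of_pair ?_ h2⟩
  rw [qd86_comp_eq ρ ε hg, qd86_comp_eq ρ ε hh, add_smul, add_add_add_comm, add_sub_cancel,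
    add_sub_cancel]

end

end Fermat.Agent.S42x
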