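import Mathlib
import Fermat.Agent.S42x.QuadRepA86

/-!
# S42x / block (I2), part B: Schur and Burnside for a simple submodule, algebraically closed field

`A` a `K`-algebra acting on the finite dimensional `K`-space `V` (`K` algebraically closed),
`U` a simple `A`-submodule of `V`.  Then every `A`-endomorphism of `U` is a scalar (`qd86_schur`)
and every `K`-linear endomorphism of `U` is induced by an element of `A` (`qd86_burnside`;
Mathlib's `jacobson_density`).
-/

set_option autoImplicit false
set_option linter.style.haveILetI false

namespace Fermat.Agent.S42x

noncomputable section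

variable {K : Type} [Field K] {A : Type} [Ring A] [Algebra K A] {V : Type} [AddCommGroup V]
  [Module K V] [Module A V] [IsScalarTower K A V]

theorem qd86_finiteDimensional_sub [FiniteDimensional K V] (U : Submodule A V) :
    FiniteDimensional K U :=
  Module.Finite.of_injective (U.subtype.restrictScalars K) U.injective_subtype

/-- **Schur**: an `A`-endomorphism of a simple submodule is a scalar. -/
theorem qd86_schur [IsAlgClosed K] [FiniteDimensional K V] (U : Submodule A V)
    [IsSimpleModule A U] (d : Module.End A U) : ∃ c : K, ∀ u : U, d u = c • u := by
  haveI := qd86_finiteDimensional_sub (K := K) U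
  haveI : Nontrivial U := IsSimpleModule.nontrivial A U
  obtain ⟨c, hc⟩ := Module.End.exists_eigenvalue (K := K) (V := U) (d.restrictScalars K)
  refine ⟨c, ?_⟩
  let cm : Module.End A U :=
    { toFun := fun u => c • u
      map_add' := smul_add c
      map_smul' := fun r u => smul_comm c r u }
  let e : Module.End A U := d - cm
  have he : e = 0 := by
    rcases LinearMap.bijective_or_eq_zero (R := A) (M := U) (N := U) e with hb | h0
    · exfalso
      obtain ⟨v, hv⟩ := hc.exists_hasEigenvector
      have h1 : e v = 0 := by
        have := hv.apply_eq_smul
        show d v - c • v = 0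
        rw [sub_eq_zero]
        exact this
      exact hv.2 (hb.1 (by rw [h1, map_zero]))
    · exact h0
  intro u
  have h2 : e u = 0 := by rw [he]; rfl
  have h3 : d u - c • u = 0 := h2
  exact sub_eq_zero.mp h3

/-- **Burnside**: every `K`-endomorphism of a simple submodule comes from `A`. -/
theorem qd86_burnside [IsAlgClosed K] [FiniteDimensional K V] (U : Submodule A V)
    [IsSimpleModule A U] (f : U →ₗ[K] U) : ∃ a : A, ∀ u : U, a • u = f u := by
  haveI := qd86_finiteDimensional_sub (K := K) U
  let f' : Module.End (Module.End A U) U :=
    { toFun := f
      map_add' := f.map_add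
      map_smul' := by
        intro d u
        obtain ⟨c, hc⟩ := qd86_schur (K := K) U d
        simp only [RingHom.id_apply]
        rw [Module.End.smul_def, Module.End.smul_def, hc, hc, map_smul] }
  obtain ⟨s, hs⟩ := (Module.Finite.fg_top : (⊤ : Submodule K U).FG)
  obtain ⟨r, hr⟩ := jacobson_density f' s
  refine ⟨r, fun u => ?_⟩
  have hu : u ∈ Submodule.span K (s : Set U) := by rw [hs]; trivial
  induction hu using Submodule.span_induction with
  | mem x hx => exact (hr x hx).symm
  | zero => rw [smul_zero, map_zero]
  | add x y _ _ hx hy => rw [smul_add, map_add, hx, hy]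
  | smul c x _ hx => rw [smul_comm, map_smul, hx]

/-- a nonzero finite dimensional module has a simple submodule. -/
theorem qd86_exists_simple [FiniteDimensional K V] [Nontrivial V] :
    ∃ U : Submodule A V, IsSimpleModule A U := by
  haveI : IsArtinian A V := isArtinian_of_tower K (inferInstance : IsArtinian K V)
  obtain ⟨U, hU⟩ := IsAtomic.exists_atom (Submodule A V)
  exact ⟨U, isSimpleModule_iff_isAtom.mpr hU⟩

end

end Fermat.Agent.S42x
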