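/-
S42 (route `ROUTE_S42_helper55` + `S42_LEAD_NOTES`), block B6 (Betti eigenvector), leaf INT (helper52),
prefix `bei52_`.  Mathlib only.

INTEGRAL PART.  A lattice `V` (finite `ℤ`-module) with a commuting family `T i`, an equivariant additive map
`ι : V → Vc` to a complex vector space whose image spans, and a complex simultaneous eigenvector `ξ ≠ 0`
of the `Tc i` with eigenvalues `c i`.  Then

* the eigenvalues `c i` are algebraic integers (`bei52_isIntegral`);
* for every ring homomorphism `ψ : ℤ̄ → K` to a field with `ψ p = 0` (`p` prime) there is a NONZERO additive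
  `θ : V → K` with `θ (T i v) = ψ (c i) * θ v` (a mod `𝔪` eigen-FUNCTIONAL on the lattice)
  (`bei52_exists_functional`).

Abstract core: `bei52_core` (a commutative ring acting faithfully on the pair `(V, Vc)`).
Generalises the Nakayama argument of `S41x/EigenModP` (helper73) from integer targets to arbitrary residue
fields.
-/
import Mathlib

set_option autoImplicit false

namespace Fermat.Agent.S42x

open Polynomial

section Core

variable {A : Type*} [CommRing A] {V : Type*} [AddCommGroup V] [Module.Finite ℤ V]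
  {Vc : Type*} [AddCommGroup Vc] [Module ℂ Vc]

/-- Core: a commutative ring `A` acting compatibly on a lattice `V` and on a complex vector space `Vc`
spanned by the image of `V`, faithfully on the pair; a complex eigenvector `ξ`.  Then the eigenvalues
define a ring homomorphism `lam : A → ℤ̄`, and for every `ψ : ℤ̄ → K` (field, `ψ p = 0`) there is a nonzero
additive `θ : V → K` with `θ (x v) = ψ (lam x) * θ v`. -/
theorem bei52_core (φ : A →+* Module.End ℤ V) (φc : A →+* Module.End ℂ Vc) (ι : V →+ Vc)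
    (hι : ∀ x v, ι (φ x v) = φc x (ι v))
    (hspan : Submodule.span ℂ (Set.range ι) = ⊤)
    (hfaith : ∀ x, φ x = 0 → φc x = 0 → x = 0)
    (ξ : Vc) (hξ : ξ ≠ 0) (hev : ∀ x, ∃ z : ℂ, φc x ξ = z • ξ) :
    ∃ lam : A →+* integralClosure ℤ ℂ, (∀ x, φc x ξ = ((lam x : integralClosure ℤ ℂ) : ℂ) • ξ) ∧
      ∀ {K : Type*} [Field K] (ψ : integralClosure ℤ ℂ →+* K) {p : ℕ}, p.Prime →
        ψ (p : integralClosure ℤ ℂ) = 0 →
        ∃ θ : V →+ K, θ ≠ 0 ∧ ∀ x v, θ (φ x v) = ψ (lam x) * θ v := by
  classical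
  let _ : Module A V := Module.compHom V φ
  have hsmul : ∀ (x : A) (v : V), x • v = φ x v := fun _ _ => rfl
  have : IsScalarTower ℤ A V := ⟨fun n x v => by
    rw [hsmul, hsmul, zsmul_eq_mul, map_mul, map_intCast, Module.End.mul_apply,
      Module.End.intCast_apply]⟩
  have : Module.Finite A V := Module.Finite.of_restrictScalars_finite ℤ A V
  -- `φ x = 0 ⟹ φc x = 0 ⟹ x = 0`
  have hker : ∀ x, φ x = 0 → φc x = 0 := by
    intro x hx
    apply LinearMap.ext_on hspan
    rintro _ ⟨v, rfl⟩
    rw [← hι, hx, LinearMap.zero_apply, map_zero, LinearMap.zero_apply]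
  have hfaith' : ∀ x, φ x = 0 → x = 0 := fun x hx => hfaith x hx (hker x hx)
  -- `A` is integral over `ℤ`
  have hintA : Algebra.IsIntegral ℤ A := by
    refine ⟨fun x => ?_⟩
    obtain ⟨P, hP, hP0⟩ := (Module.End.isIntegral (R := ℤ) (M := V)).isIntegral (φ x)
    refine ⟨P, hP, ?_⟩
    apply hfaith'
    have h1 : (aeval (φ.toIntAlgHom x)) P = φ.toIntAlgHom ((aeval x) P) :=
      aeval_algHom_apply φ.toIntAlgHom x P
    rw [← aeval_def]
    have h2 : φ ((aeval x) P) = (aeval (φ x)) P := h1.symm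
    rw [h2, aeval_def]
    exact hP0
  -- the eigenvalue character
  have huniq : ∀ a b : ℂ, a • ξ = b • ξ → a = b := fun a b h => smul_left_injective ℂ hξ h
  choose z hz using hev
  let lamC : A →+* ℂ :=
    { toFun := z
      map_one' := by
        apply huniq
        rw [← hz, map_one, Module.End.one_apply, one_smul]
      map_mul' := by
        intro x y
        apply huniq
        rw [← hz, map_mul, Module.End.mul_apply, hz y, map_smul, hz x, smul_smul, mul_comm]
      map_zero' := by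
        apply huniq
        rw [← hz, map_zero, LinearMap.zero_apply, zero_smul]
      map_add' := by
        intro x y
        apply huniq
        rw [← hz, map_add, LinearMap.add_apply, hz x, hz y, add_smul] }
  have hlamC : ∀ x, lamC x = z x := fun _ => rfl
  have hmem : ∀ x, lamC x ∈ integralClosure ℤ ℂ := by
    intro x
    exact (hintA.isIntegral x).map lamC.toIntAlgHom
  let lam : A →+* integralClosure ℤ ℂ := lamC.codRestrict (integralClosure ℤ ℂ) hmem
  have hlam : ∀ x, ((lam x : integralClosure ℤ ℂ) : ℂ) = z x := fun _ => rfl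
  refine ⟨lam, fun x => by rw [hlam]; exact hz x, ?_⟩
  intro K _ ψ p hp hpψ
  have : Fact p.Prime := ⟨hp⟩
  let χ : A →+* K := ψ.comp lam
  let 𝔫 : Ideal A := RingHom.ker χ
  have hχp : χ (p : A) = 0 := by
    show ψ (lam (p : A)) = 0
    rw [map_natCast]
    exact hpψ
  have hprime : 𝔫.IsPrime := RingHom.ker_isPrime χ
  -- `𝔫` is maximal
  have hmax : 𝔫.IsMaximal := by
    apply Ideal.isMaximal_of_isIntegral_of_isMaximal_comap (R := ℤ) 𝔫
    have hle : Ideal.span {(p : ℤ)} ≤ Ideal.comap (algebraMap ℤ A) 𝔫 := by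
      rw [Ideal.span_le, Set.singleton_subset_iff]
      show algebraMap ℤ A (p : ℤ) ∈ 𝔫
      rw [RingHom.mem_ker, map_natCast]
      exact hχp
    have hne : Ideal.comap (algebraMap ℤ A) 𝔫 ≠ ⊤ := by
      intro htop
      have h1 : (1 : ℤ) ∈ Ideal.comap (algebraMap ℤ A) 𝔫 := by rw [htop]; exact Submodule.mem_top
      rw [Ideal.mem_comap, map_one, RingHom.mem_ker, map_one] at h1
      exact one_ne_zero h1
    rw [← (Int.ideal_span_isMaximal_of_prime p).eq_of_le hne hle]
    exact Int.ideal_span_isMaximal_of_prime p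
  -- Nakayama: `𝔫 V ≠ V`
  have hne : 𝔫 • (⊤ : Submodule A V) ≠ ⊤ := by
    intro htop
    obtain ⟨r, hr1, hr⟩ := Submodule.exists_sub_one_mem_and_smul_eq_zero_of_fg_of_le_smul 𝔫
      (⊤ : Submodule A V) Module.Finite.fg_top (by rw [htop])
    have hr0 : r = 0 := by
      apply hfaith'
      apply LinearMap.ext
      intro v
      rw [← hsmul, hr v Submodule.mem_top, LinearMap.zero_apply]
    rw [hr0, zero_sub, RingHom.mem_ker, map_neg, map_one, neg_eq_zero] at hr1
    exact one_ne_zero hr1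
  -- the quotient `V / 𝔫 V` is a nonzero vector space over the field `A / 𝔫`
  let _ : Field (A ⧸ 𝔫) := Ideal.Quotient.field 𝔫
  have : Nontrivial (V ⧸ (𝔫 • (⊤ : Submodule A V))) := Submodule.Quotient.nontrivial_iff.mpr hne
  obtain ⟨q, hq⟩ := exists_ne (0 : V ⧸ (𝔫 • (⊤ : Submodule A V)))
  obtain ⟨f, hf⟩ : ∃ f : Module.Dual (A ⧸ 𝔫) (V ⧸ (𝔫 • (⊤ : Submodule A V))), f q ≠ 0 := by
    by_contra hcon
    push Not at hcon
    exact hq ((Module.forall_dual_apply_eq_zero_iff (A ⧸ 𝔫) q).mp hcon)
  obtain ⟨v₀, rfl⟩ := Submodule.Quotient.mk_surjective _ q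
  let σ : A ⧸ 𝔫 →+* K := Ideal.Quotient.lift 𝔫 χ (fun a ha => ha)
  have hσ : ∀ a, σ (Ideal.Quotient.mk 𝔫 a) = χ a := fun a => Ideal.Quotient.lift_mk 𝔫 χ _
  let θ : V →+ K :=
    { toFun := fun v => σ (f (Submodule.Quotient.mk v))
      map_zero' := by rw [Submodule.Quotient.mk_zero, map_zero, map_zero]
      map_add' := fun v w => by rw [Submodule.Quotient.mk_add, map_add, map_add] }
  have hθ : ∀ v, θ v = σ (f (Submodule.Quotient.mk v)) := fun _ => rfl
  refine ⟨θ, ?_, ?_⟩
  · intro h0
    have h1 : θ v₀ = 0 := by rw [h0, AddMonoidHom.zero_apply]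
    rw [hθ] at h1
    exact hf ((map_eq_zero_iff σ (RingHom.injective σ)).mp h1)
  · intro x v
    rw [hθ, hθ, ← hsmul, ← Module.Quotient.mk_smul_mk V 𝔫 x v, map_smul, smul_eq_mul, map_mul, hσ]
    rfl

end Core

section Main

variable {I : Type*} {V : Type*} [AddCommGroup V] [Module.Finite ℤ V]
  {Vc : Type*} [AddCommGroup Vc] [Module ℂ Vc]

open scoped IsMulCommutative in
/-- **Integrality + mod `𝔪` eigen-functional on the lattice.**
`V` a finite `ℤ`-module with a commuting family `T i`; `ι : V → Vc` an equivariant additive map to a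
complex vector space whose image spans; `ξ ≠ 0` a simultaneous eigenvector of the `Tc i` with
eigenvalues `c i`.  Then there are algebraic integers `b i = c i`, and for every `ψ : ℤ̄ → K`
(field, `ψ p = 0`, `p` prime) a nonzero additive `θ : V → K` with `θ (T i v) = ψ (b i) * θ v`. -/
theorem bei52_exists_functional
    (T : I → Module.End ℤ V) (hcomm : ∀ i j, T i * T j = T j * T i)
    (Tc : I → Module.End ℂ Vc)
    (ι : V →+ Vc) (hι : ∀ i v, ι (T i v) = Tc i (ι v))
    (hspan : Submodule.span ℂ (Set.range ι) = ⊤)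
    (ξ : Vc) (hξ : ξ ≠ 0) (c : I → ℂ) (heig : ∀ i, Tc i ξ = c i • ξ) :
    ∃ b : I → integralClosure ℤ ℂ, (∀ i, ((b i : integralClosure ℤ ℂ) : ℂ) = c i) ∧
      ∀ {K : Type*} [Field K] (ψ : integralClosure ℤ ℂ →+* K) {p : ℕ}, p.Prime →
        ψ (p : integralClosure ℤ ℂ) = 0 →
        ∃ θ : V →+ K, θ ≠ 0 ∧ ∀ i v, θ (T i v) = ψ (b i) * θ v := by
  classical
  have huniq : ∀ a b : ℂ, a • ξ = b • ξ → a = b := fun a b h => smul_left_injective ℂ hξ h
  -- the `Tc i` commute
  have hcommC : ∀ i j, Tc i * Tc j = Tc j * Tc i := by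
    intro i j
    apply LinearMap.ext_on hspan
    rintro _ ⟨v, rfl⟩
    simp only [Module.End.mul_apply]
    rw [← hι, ← hι, ← hι, ← hι, ← Module.End.mul_apply, hcomm, Module.End.mul_apply]
  let gen : I → Module.End ℤ V × Module.End ℂ Vc := fun i => (T i, Tc i)
  have hgc : ∀ x ∈ Set.range gen, ∀ y ∈ Set.range gen, x * y = y * x := by
    rintro _ ⟨i, rfl⟩ _ ⟨j, rfl⟩
    exact Prod.ext (hcomm i j) (hcommC i j)
  have hmc := Algebra.isMulCommutative_adjoin ℤ hgc
  let φ : Algebra.adjoin ℤ (Set.range gen) →+* Module.End ℤ V :=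
    (RingHom.fst _ _).comp (Algebra.adjoin ℤ (Set.range gen)).val.toRingHom
  let φc : Algebra.adjoin ℤ (Set.range gen) →+* Module.End ℂ Vc :=
    (RingHom.snd _ _).comp (Algebra.adjoin ℤ (Set.range gen)).val.toRingHom
  have hφ : ∀ x : Algebra.adjoin ℤ (Set.range gen), φ x = (x : Module.End ℤ V × Module.End ℂ Vc).1 :=
    fun _ => rfl
  have hφc : ∀ x : Algebra.adjoin ℤ (Set.range gen),
      φc x = (x : Module.End ℤ V × Module.End ℂ Vc).2 := fun _ => rfl
  -- equivariance
  have hequiv : ∀ x ∈ Algebra.adjoin ℤ (Set.range gen), ∀ v, ι (x.1 v) = x.2 (ι v) := by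
    intro x hx
    induction hx using Algebra.adjoin_induction with
    | mem x hx =>
      obtain ⟨i, rfl⟩ := hx
      exact hι i
    | algebraMap r =>
      intro v
      simp only [Prod.algebraMap_apply, Module.algebraMap_end_apply, map_zsmul]
    | add x y _ _ hx hy =>
      intro v
      simp only [Prod.fst_add, Prod.snd_add, LinearMap.add_apply, map_add, hx v, hy v]
    | mul x y _ _ hx hy =>
      intro v
      simp only [Prod.fst_mul, Prod.snd_mul, Module.End.mul_apply, hx, hy]
  -- every element has `ξ` as an eigenvector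
  have hev : ∀ x ∈ Algebra.adjoin ℤ (Set.range gen), ∃ z : ℂ, x.2 ξ = z • ξ := by
    intro x hx
    induction hx using Algebra.adjoin_induction with
    | mem x hx =>
      obtain ⟨i, rfl⟩ := hx
      exact ⟨c i, heig i⟩
    | algebraMap r =>
      refine ⟨(r : ℂ), ?_⟩
      simp only [Prod.algebraMap_apply, Module.algebraMap_end_apply]
      rw [← Int.cast_smul_eq_zsmul ℂ r ξ]
    | add x y _ _ hx hy =>
      obtain ⟨z, hz⟩ := hx
      obtain ⟨z', hz'⟩ := hy
      refine ⟨z + z', ?_⟩
      rw [Prod.snd_add, LinearMap.add_apply, hz, hz', ← add_smul]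
    | mul x y _ _ hx hy =>
      obtain ⟨z, hz⟩ := hx
      obtain ⟨z', hz'⟩ := hy
      refine ⟨z' * z, ?_⟩
      rw [Prod.snd_mul, Module.End.mul_apply, hz', map_smul, hz, smul_smul]
  let genA : I → Algebra.adjoin ℤ (Set.range gen) :=
    fun i => ⟨gen i, Algebra.subset_adjoin ⟨i, rfl⟩⟩
  obtain ⟨lam, hlam, hmain⟩ := bei52_core φ φc ι
    (fun x v => by rw [hφ, hφc]; exact hequiv _ x.2 v) hspan
    (fun x h1 h2 => by
      apply Subtype.ext
      rw [hφ] at h1
      rw [hφc] at h2
      exact Prod.ext h1 h2)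
    ξ hξ (fun x => by rw [hφc]; exact hev _ x.2)
  have hb : ∀ i, ((lam (genA i) : integralClosure ℤ ℂ) : ℂ) = c i := by
    intro i
    apply huniq
    rw [← hlam (genA i), hφc]
    exact heig i
  refine ⟨fun i => lam (genA i), hb, ?_⟩
  intro K _ ψ p hp hpψ
  obtain ⟨θ, hθ0, hθ⟩ := hmain ψ hp hpψ
  exact ⟨θ, hθ0, fun i v => hθ (genA i) v⟩

end Main

end Fermat.Agent.S42x
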