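/-
S42 (route `ROUTE_S42_helper55` + `S42_LEAD_NOTES`), block B6 (Betti eigenvector), leaf GLUE/TOP (helper52),
prefix `bet52_`.

For a normalised eigenform `g` of level `M` (weight 2):

* `bet52_lattice_functional` : the `a_ℓ(g)` (`ℓ` prime) are algebraic integers `b ℓ`, and for every
  `ψ : ℤ̄ → K` (field, `ψ p = 0`) there is a nonzero additive `θ : lrL M → K` on the Betti lattice
  `lrL M = Hom_par(Γ₀(M), ℤ)` with `θ (T_ℓ v) = ψ (b ℓ) * θ v` for ALL primes `ℓ` (`T_ℓ = lrtT M ℓ`);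
* `bet52_qCoeff_integral`    : `∀ ℓ prime, ∃ a : ℤ̄, (a : ℂ) = qCoeff g ℓ`;
* `bet52_top`                : THE B6 DELIVERABLE.  `X` any `ZMod p`-module with operators `TX ℓ`,
  `ι : lrL M →+ X` additive with `ker ι ⊆ p · lrL M` and `ι ∘ T_ℓ = TX ℓ ∘ ι` for the primes in a set `P`.
  Then `K ⊗[ZMod p] X` contains a NONZERO `x` with `(TX ℓ ⊗ K) x = ψ (a_ℓ(g)) • x` for all `ℓ ∈ P`.
  (No commutation of the `TX ℓ` is assumed; `K` any field over `ZMod p`, `ψ : ℤ̄ → K` any ring hom.)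

Generic layer (Mathlib + LIN + helper47 `IotaAbs`): `bet52_transport` (lattice `V` with commuting `T i`,
eigen-functional `θ : V →+ K`, `ι : V →+ X` with `ker ι ⊆ pV`, equivariant ⟹ eigenvector in `K ⊗ X`).

Ingredients: `bei52_exists_functional` (INT), `bel52_eigvec_baseChange` (LIN), helper47 `iot_exists_eigenvector`
(flatness transport), S41x lattice API (helper73 `emp_*`, helper26 `lrf26_*`, helper92 `emq_*`, helper20 `lrtT`).
-/
import Fermat.Agent.S41x.EigenLRVec
import Fermat.Agent.S42x.BettiEigenLin52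
import Fermat.Agent.S42x.BettiEigenInt52
import Fermat.Agent.S42x.IotaAbs

set_option autoImplicit false

namespace Fermat.Agent.S42x

open TensorProduct

section Quot

variable {p : ℕ} [Fact p.Prime] {V X : Type*} [AddCommGroup V] [AddCommGroup X] [Module (ZMod p) X]
  (ι : V →+ X)

theorem bet52_nsmul_quot (w : V ⧸ ι.ker) : p • w = 0 := by
  obtain ⟨v, rfl⟩ := QuotientAddGroup.mk_surjective w
  rw [← QuotientAddGroup.mk_nsmul, QuotientAddGroup.eq_zero_iff, AddMonoidHom.mem_ker, map_nsmul,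
    ← Nat.cast_smul_eq_nsmul (ZMod p), ZMod.natCast_self, zero_smul]

/-- the `ZMod p`-module structure on `V / ker ι` (`ι` with values in a `ZMod p`-module) -/
@[reducible] noncomputable def bet52_quotModule : Module (ZMod p) (V ⧸ ι.ker) :=
  AddCommGroup.zmodModule (bet52_nsmul_quot ι)

attribute [local instance] bet52_quotModule

/-- **Generic transport**: a lattice `V` with a commuting family `T i`, a nonzero eigen-functional
`θ : V →+ K` (`K` a field over `ZMod p`), an additive `ι : V →+ X` into a `ZMod p`-module with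
`ker ι ⊆ p V`, intertwining `T i` and `TX i`.  Then `K ⊗[ZMod p] X` contains a nonzero common eigenvector
of the `TX i ⊗ K` with the eigenvalues of `θ`. -/
theorem bet52_transport [Module.Finite ℤ V] {K : Type*} [Field K] [Algebra (ZMod p) K] {I : Type*}
    (T : I → Module.End ℤ V) (hcomm : ∀ i j, T i * T j = T j * T i) (c : I → K)
    (θ : V →+ K) (hθ0 : θ ≠ 0) (hθ : ∀ i v, θ (T i v) = c i * θ v)
    (TX : I → Module.End (ZMod p) X)
    (hker : ∀ v, ι v = 0 → ∃ w : V, v = (p : ℤ) • w)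
    (hequiv : ∀ i v, ι (T i v) = TX i (ι v)) :
    ∃ x : K ⊗[ZMod p] X, x ≠ 0 ∧ ∀ i, LinearMap.baseChange K (TX i) x = c i • x := by
  classical
  have hpK : (p : K) = 0 := by
    have h1 : (p : K) = algebraMap (ZMod p) K (p : ZMod p) := by rw [map_natCast]
    rw [h1, ZMod.natCast_self, map_zero]
  have hWfin : Module.Finite (ZMod p) (V ⧸ ι.ker) := by
    have h1 : Module.Finite ℤ (V ⧸ ι.ker) :=
      Module.Finite.of_surjective (QuotientAddGroup.mk' ι.ker).toIntLinearMap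
        (QuotientAddGroup.mk'_surjective ι.ker)
    exact Module.Finite.of_restrictScalars_finite ℤ (ZMod p) _
  -- the operators on `W = V / ker ι`
  have hstab : ∀ i : I, ι.ker ≤ ι.ker.comap (T i : V →ₗ[ℤ] V).toAddMonoidHom := by
    intro i v hv
    rw [AddSubgroup.mem_comap, AddMonoidHom.mem_ker]
    rw [AddMonoidHom.mem_ker] at hv
    show ι (T i v) = 0
    rw [hequiv i, hv, map_zero]
  let S : I → ((V ⧸ ι.ker) →ₗ[ZMod p] (V ⧸ ι.ker)) := fun i =>
    (QuotientAddGroup.map ι.ker ι.ker (T i : V →ₗ[ℤ] V).toAddMonoidHom (hstab i)).toZModLinearMap p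
  have hS : ∀ (i : I) (v : V),
      S i (QuotientAddGroup.mk' ι.ker v) = QuotientAddGroup.mk' ι.ker (T i v) := fun i v => rfl
  have hScomm : ∀ i j, S i * S j = S j * S i := by
    intro i j
    apply LinearMap.ext
    intro w
    obtain ⟨v, rfl⟩ := QuotientAddGroup.mk'_surjective ι.ker w
    rw [Module.End.mul_apply, Module.End.mul_apply, hS, hS, hS, hS, ← Module.End.mul_apply,
      hcomm, Module.End.mul_apply]
  -- the functional on `W`
  have hle : ι.ker ≤ θ.ker := by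
    intro v hv
    rw [AddMonoidHom.mem_ker] at hv ⊢
    obtain ⟨w, rfl⟩ := hker v hv
    rw [map_zsmul, zsmul_eq_mul, Int.cast_natCast, hpK, zero_mul]
  let θW : (V ⧸ ι.ker) →ₗ[ZMod p] K := (QuotientAddGroup.lift ι.ker θ hle).toZModLinearMap p
  have hθW : ∀ v : V, θW (QuotientAddGroup.mk' ι.ker v) = θ v := fun v => rfl
  have hθW0 : θW ≠ 0 := by
    intro h0
    apply hθ0
    apply AddMonoidHom.ext
    intro v
    rw [← hθW, h0, LinearMap.zero_apply, AddMonoidHom.zero_apply]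
  have hθWS : ∀ (i : I) (w : V ⧸ ι.ker), θW (S i w) = c i * θW w := by
    intro i w
    obtain ⟨v, rfl⟩ := QuotientAddGroup.mk'_surjective ι.ker w
    rw [hS, hθW, hθW, hθ]
  -- LIN: eigenvector in `K ⊗ W`
  obtain ⟨u, hu0, hu⟩ := bel52_eigvec_baseChange (F := ZMod p) (K := K) S hScomm c θW hθW0 hθWS
  -- transport through the injective `W → X`
  exact iot_exists_eigenvector (p := p) K (QuotientAddGroup.kerLift ι)
    (QuotientAddGroup.kerLift_injective ι) TX S
    (fun i w => by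
      obtain ⟨v, rfl⟩ := QuotientAddGroup.mk'_surjective ι.ker w
      rw [hS]
      show ι (T i v) = TX i (ι v)
      exact hequiv i v)
    c u hu0 hu

end Quot

open scoped MatrixGroups
open CongruenceSubgroup ModularFormClass ModularCurve ModularCurve.Period
open Fermat.Agent.S41x

/-- **Integrality and the mod `𝔪` eigen-functional on the Betti lattice.** -/
theorem bet52_lattice_functional {M : ℕ} [NeZero M] (g : CuspForm (Gamma0 M) 2)
    (hg : g.IsNormalizedEigenform) :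
    ∃ b : Nat.Primes → integralClosure ℤ ℂ,
      (∀ ℓ : Nat.Primes, ((b ℓ : integralClosure ℤ ℂ) : ℂ) = qCoeff g (ℓ : ℕ)) ∧
      ∀ {K : Type*} [Field K] (ψ : integralClosure ℤ ℂ →+* K) {p : ℕ}, p.Prime →
        ψ (p : integralClosure ℤ ℂ) = 0 →
        ∃ θ : lrL M →+ K, θ ≠ 0 ∧ ∀ (ℓ : Nat.Primes) (v : lrL M),
          θ (lrtT M ℓ v) = ψ (b ℓ) * θ v := by
  have hfg := emp_fg_Gamma0 M
  have hfin : Module.Finite ℤ (lrL M) := emp_finite_parabolicHoms (Gamma0 M)
  exact bei52_exists_functional (V := lrL M) (Vc := parabolicHoms ℂ (Gamma0 M) ℂ)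
    (fun ℓ => lrtT M ℓ) (fun i j => lrtT_comm M i j) (fun ℓ => emq_TC M ℓ)
    (emp_castPar (Gamma0 M)) (fun i x => emq_castPar_lrtT M i x)
    (emp_span_parabolicHoms (Gamma0 M))
    ⟨periodHomPair M (g, 0), lrf26_periodHomPair_mem (g, 0)⟩
    (fun h => lrf26_periodHomPair_ne_zero hg (congrArg Subtype.val h))
    (fun ℓ => qCoeff g (ℓ : ℕ))
    (fun i => Subtype.ext (lrf26_cohOpGen_periodHomPair hg i))

/-- the prime-index Fourier coefficients of a normalised eigenform are algebraic integers -/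
theorem bet52_qCoeff_integral {M : ℕ} [NeZero M] (g : CuspForm (Gamma0 M) 2)
    (hg : g.IsNormalizedEigenform) (ℓ : ℕ) (hℓ : ℓ.Prime) :
    ∃ a : integralClosure ℤ ℂ, (a : ℂ) = qCoeff g ℓ := by
  obtain ⟨b, hb, -⟩ := bet52_lattice_functional.{0} g hg
  exact ⟨b ⟨ℓ, hℓ⟩, hb ⟨ℓ, hℓ⟩⟩

/-- **B6 TOP: the Betti eigenvector, transported through an abstract comparison map.** -/
theorem bet52_top {M p : ℕ} [NeZero M] [Fact p.Prime] (g : CuspForm (Gamma0 M) 2)
    (hg : g.IsNormalizedEigenform)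
    {K : Type*} [Field K] [Algebra (ZMod p) K] (ψ : integralClosure ℤ ℂ →+* K)
    {X : Type*} [AddCommGroup X] [Module (ZMod p) X] (TX : Nat.Primes → Module.End (ZMod p) X)
    (ι : lrL M →+ X) (hker : ∀ v, ι v = 0 → ∃ w : lrL M, v = (p : ℤ) • w)
    (P : Nat.Primes → Prop) (hequiv : ∀ ℓ, P ℓ → ∀ v, ι (lrtT M ℓ v) = TX ℓ (ι v)) :
    ∃ x : K ⊗[ZMod p] X, x ≠ 0 ∧ ∀ ℓ : Nat.Primes, P ℓ → ∀ a : integralClosure ℤ ℂ,
      (a : ℂ) = qCoeff g (ℓ : ℕ) → LinearMap.baseChange K (TX ℓ) x = ψ a • x := by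
  classical
  have hp : p.Prime := Fact.out
  have hpK : (p : K) = 0 := by
    have h1 : (p : K) = algebraMap (ZMod p) K (p : ZMod p) := by rw [map_natCast]
    rw [h1, ZMod.natCast_self, map_zero]
  have hpψ : ψ (p : integralClosure ℤ ℂ) = 0 := by rw [map_natCast]; exact hpK
  obtain ⟨b, hb, hmain⟩ := bet52_lattice_functional g hg
  obtain ⟨θ, hθ0, hθ⟩ := hmain ψ hp hpψ
  have hfg := emp_fg_Gamma0 M
  have hfin : Module.Finite ℤ (lrL M) := emp_finite_parabolicHoms (Gamma0 M)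
  obtain ⟨x, hx0, hx⟩ := bet52_transport (p := p) (K := K) ι
    (fun i : {ℓ : Nat.Primes // P ℓ} => lrtT M i.1) (fun i j => lrtT_comm M i.1 j.1)
    (fun i => ψ (b i.1)) θ hθ0 (fun i v => hθ i.1 v) (fun i => TX i.1) hker
    (fun i v => hequiv i.1 i.2 v)
  refine ⟨x, hx0, fun ℓ hℓ a ha => ?_⟩
  have hab : a = b ℓ := Subtype.ext (by rw [ha, hb])
  rw [hab]
  exact hx ⟨ℓ, hℓ⟩

end Fermat.Agent.S42x
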