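/-
S42 project, block B11, leaf L7 (helper45, prefix `fint_`): the `G_ℚ`-representation on `K ⊗[ZMod p] J[p]`,
`J = JZero M`, `J[p] = Pic0.torsion Q̄ (modularFunctionFieldBar M) p` (the Prelude presentation, a `ZMod p`-module
with the Prelude Galois representation `JZero.torsionGaloisRep M p`).

* `fint_Jp M p`            : the carrier `J[p]` (abbrev);
* `fint_Tp M p ℓ`          : the Hecke operator `T_ℓ` restricted to `J[p]`, `ZMod p`-linear (`fint_coe_Tp`);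
* `fint_Tp_rho`            : `T_ℓ` commutes with the Galois action on `J[p]` (`esl_heckeOperatorBar_smul`);
* `fint_rho M p K`         : `G_ℚ →* Module.End K (K ⊗[ZMod p] J[p])`, `σ (c ⊗ x) = c ⊗ σ x`
                             (`fint_rho_eq : fint_rho M p K σ = LinearMap.baseChange K (JZero.torsionGaloisRep M p σ)`, rfl);
* `fint_T M p K ℓ`         : `T_ℓ ⊗ K` (`fint_T_eq : = LinearMap.baseChange K (fint_Tp M p ℓ)`, rfl);
* `fint_T_rho`             : `T_ℓ ⊗ K` commutes with `fint_rho σ`;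
* `fint_open`              : every tensor is fixed by `Gal(Q̄/E)` for a number field `E ⊆ Q̄` (open stabilisers);
* `fint_orbit_finite`      : the Galois orbit of every tensor is finite (shape `horb` of `tpa_core_orbit'`);
* `fint_frob_Jp(')`, `fint_frob_end`, `fint_frob_mul`, `fint_frob` : Eichler–Shimura `φ² - φ T_ℓ + ℓ = 0` on `J[p]`
  and on `K ⊗ J[p]` for Frobenius lifts `φ` at `ℓ ∤ M`, `ℓ ≠ p` (`esl_frob_quadratic_ppow`, `n = 1`);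
* `fint_inertia_Jp`, `fint_inertia` : inertia at `ℓ ∤ M`, `ℓ ≠ p` acts trivially;
* `fint_T_rho_eigen`, `fint_frob_eigen`, `fint_frob_orbit` : `φ² w - a φ w + ℓ w = 0` on the Galois orbit of an
  eigenvector `T_ℓ w = a w`;
* `fint_eigen M p K S a`   : the simultaneous eigenspace (a Galois stable `K`-submodule: `fint_eigen_rho_mem`);
* `fint_hopen`, `fint_hfrob`, `fint_hfrob'` : the inputs `hopen`, `hfrob` of `fin_attach` (B11 TOP, helper61)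
  VERBATIM, for `ρ := fint_rho M p K` and `v := w` an eigenvector with eigenvalues `ψ (a_ℓ(g))`.
-/
import Mathlib
import Fermat.Agent.S42x.ESlFinal
import Fermat.Agent.S42x.OpenStab

set_option autoImplicit false
set_option synthInstance.maxHeartbeats 400000

namespace Fermat.Agent.S42x

open ModularCurve AlgebraicCurve ValuationSubring TensorProduct

local notation "Q̄" => AlgebraicClosure ℚ

noncomputable section

variable (M : ℕ) [NeZero M] (p : ℕ)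

/-- the `p`-torsion `J[p]` of `J = JZero M` in the Prelude presentation -/
abbrev fint_Jp : Type := Pic0.torsion Q̄ (modularFunctionFieldBar M) p

variable {M p} in
theorem fint_nsmul_eq_zero (x : fint_Jp M p) : p • (x : JZero M) = 0 := by
  have h := Pic0.mem_torsion.mp x.2
  rwa [natCast_zsmul] at h

variable {M p} in
theorem fint_hecke_mem (ℓ : Nat.Primes) {x : JZero M}
    (hx : x ∈ Pic0.torsion Q̄ (modularFunctionFieldBar M) p) :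
    heckeOperatorBar M ℓ x ∈ Pic0.torsion Q̄ (modularFunctionFieldBar M) p := by
  rw [Pic0.mem_torsion] at hx ⊢
  rw [← map_zsmul, hx, map_zero]

/-- `T_ℓ` restricted to `J[p]`, as an additive map -/
def fint_TpAdd (ℓ : Nat.Primes) : fint_Jp M p →+ fint_Jp M p where
  toFun x := ⟨heckeOperatorBar M ℓ (x : JZero M), fint_hecke_mem ℓ x.2⟩
  map_zero' := Subtype.ext (map_zero (heckeOperatorBar M ℓ))
  map_add' x y := Subtype.ext (map_add (heckeOperatorBar M ℓ) (x : JZero M) (y : JZero M))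

/-- `T_ℓ` restricted to `J[p]`, `ZMod p`-linear -/
def fint_Tp (ℓ : Nat.Primes) : fint_Jp M p →ₗ[ZMod p] fint_Jp M p :=
  (fint_TpAdd M p ℓ).toZModLinearMap p

@[simp]
theorem fint_coe_Tp (ℓ : Nat.Primes) (x : fint_Jp M p) :
    ((fint_Tp M p ℓ x : fint_Jp M p) : JZero M) = heckeOperatorBar M ℓ (x : JZero M) := rfl

/-- `T_ℓ` commutes with the Galois action on `J[p]`. -/
theorem fint_Tp_rho (ℓ : Nat.Primes) (σ : Q̄ ≃ₐ[ℚ] Q̄) (x : fint_Jp M p) :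
    fint_Tp M p ℓ (JZero.torsionGaloisRep M p σ x) =
      JZero.torsionGaloisRep M p σ (fint_Tp M p ℓ x) := by
  apply Subtype.ext
  rw [fint_coe_Tp, JZero.coe_torsionGaloisRep_apply, JZero.coe_torsionGaloisRep_apply, fint_coe_Tp]
  exact esl_heckeOperatorBar_smul M ℓ σ (x : JZero M)

theorem fint_Tp_mul_rho (ℓ : Nat.Primes) (σ : Q̄ ≃ₐ[ℚ] Q̄) :
    fint_Tp M p ℓ * JZero.torsionGaloisRep M p σ = JZero.torsionGaloisRep M p σ * fint_Tp M p ℓ :=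
  LinearMap.ext fun x => fint_Tp_rho M p ℓ σ x

variable (K : Type*) [Field K] [Algebra (ZMod p) K]

/-- the `G_ℚ`-representation on `K ⊗[ZMod p] J[p]` -/
def fint_rho : (Q̄ ≃ₐ[ℚ] Q̄) →* Module.End K (K ⊗[ZMod p] fint_Jp M p) :=
  ((Module.End.baseChangeHom (ZMod p) K (fint_Jp M p)).toRingHom.toMonoidHom).comp
    (JZero.torsionGaloisRep M p)

theorem fint_rho_eq (σ : Q̄ ≃ₐ[ℚ] Q̄) :
    fint_rho M p K σ = LinearMap.baseChange K (JZero.torsionGaloisRep M p σ) := rfl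

theorem fint_rho_tmul (σ : Q̄ ≃ₐ[ℚ] Q̄) (c : K) (x : fint_Jp M p) :
    fint_rho M p K σ (c ⊗ₜ[ZMod p] x) = c ⊗ₜ[ZMod p] (JZero.torsionGaloisRep M p σ x) := by
  rw [fint_rho_eq, LinearMap.baseChange_tmul]

/-- `T_ℓ ⊗ K` -/
def fint_T (ℓ : Nat.Primes) : Module.End K (K ⊗[ZMod p] fint_Jp M p) :=
  LinearMap.baseChange K (fint_Tp M p ℓ)

theorem fint_T_eq (ℓ : Nat.Primes) : fint_T M p K ℓ = LinearMap.baseChange K (fint_Tp M p ℓ) := rfl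

theorem fint_T_tmul (ℓ : Nat.Primes) (c : K) (x : fint_Jp M p) :
    fint_T M p K ℓ (c ⊗ₜ[ZMod p] x) = c ⊗ₜ[ZMod p] (fint_Tp M p ℓ x) := by
  rw [fint_T_eq, LinearMap.baseChange_tmul]

/-- `T_ℓ ⊗ K` commutes with the Galois action. -/
theorem fint_T_mul_rho (ℓ : Nat.Primes) (σ : Q̄ ≃ₐ[ℚ] Q̄) :
    fint_T M p K ℓ * fint_rho M p K σ = fint_rho M p K σ * fint_T M p K ℓ := by
  rw [fint_T_eq, fint_rho_eq, ← LinearMap.baseChange_mul, ← LinearMap.baseChange_mul,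
    fint_Tp_mul_rho]

theorem fint_T_rho (ℓ : Nat.Primes) (σ : Q̄ ≃ₐ[ℚ] Q̄) (w : K ⊗[ZMod p] fint_Jp M p) :
    fint_T M p K ℓ (fint_rho M p K σ w) = fint_rho M p K σ (fint_T M p K ℓ w) :=
  LinearMap.congr_fun (fint_T_mul_rho M p K ℓ σ) w

/-- **open stabilisers**: every tensor is fixed by `Gal(Q̄/E)` for some number field `E ⊆ Q̄`. -/
theorem fint_open (w : K ⊗[ZMod p] fint_Jp M p) :
    ∃ E : IntermediateField ℚ Q̄, FiniteDimensional ℚ E ∧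
      ∀ σ : Q̄ ≃ₐ[ℚ] Q̄, (∀ a ∈ E, σ a = a) → fint_rho M p K σ w = w := by
  induction w using TensorProduct.induction_on with
  | zero => exact ⟨⊥, inferInstance, fun σ _ => map_zero _⟩
  | tmul c x =>
    obtain ⟨E, hE, h⟩ := ost_jzero_fixed M (x : JZero M)
    refine ⟨E, hE, fun σ hσ => ?_⟩
    rw [fint_rho_tmul]
    congr 1
    exact Subtype.ext (h σ hσ)
  | add w₁ w₂ h₁ h₂ =>
    obtain ⟨E1, hE1, h1⟩ := h₁
    obtain ⟨E2, hE2, h2⟩ := h₂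
    have := hE1
    have := hE2
    refine ⟨E1 ⊔ E2, IntermediateField.finiteDimensional_sup E1 E2, fun σ hσ => ?_⟩
    rw [map_add, h1 σ fun a ha => hσ a ((le_sup_left : E1 ≤ E1 ⊔ E2) ha),
      h2 σ fun a ha => hσ a ((le_sup_right : E2 ≤ E1 ⊔ E2) ha)]


end

/-! ## Frobenius, inertia, eigenvectors, orbits -/

noncomputable section

section Abstract

theorem fint_abs_end_of_apply {R : Type*} [Semiring R] {V : Type*} [AddCommGroup V] [Module R V]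
    (a b : Module.End R V) (n : ℕ) (h : ∀ x, a (a x) - a (b x) + n • x = 0) :
    a * a - a * b + (n : Module.End R V) = 0 := by
  apply LinearMap.ext
  intro x
  rw [LinearMap.add_apply, LinearMap.sub_apply, Module.End.mul_apply, Module.End.mul_apply,
    Module.End.natCast_apply, LinearMap.zero_apply]
  exact h x

theorem fint_abs_apply_of_end {R : Type*} [Semiring R] {V : Type*} [AddCommGroup V] [Module R V]
    (a b : Module.End R V) (n : ℕ) (h : a * a - a * b + (n : Module.End R V) = 0) (x : V) :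
    a (a x) - a (b x) + n • x = 0 := by
  have h' := LinearMap.congr_fun h x
  rw [LinearMap.add_apply, LinearMap.sub_apply, Module.End.mul_apply, Module.End.mul_apply,
    Module.End.natCast_apply, LinearMap.zero_apply] at h'
  exact h'

theorem fint_abs_coe {J : Type*} [AddCommGroup J] (S : AddSubgroup J) (u v x : S) (n : ℕ)
    (h : (u : J) - (v : J) + n • (x : J) = 0) : u - v + n • x = 0 := by
  apply Subtype.ext
  rw [AddSubgroup.coe_add, AddSubgroup.coe_sub, AddSubgroup.coe_nsmul, AddSubgroup.coe_zero]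
  exact h

theorem fint_abs_baseChange {R A V : Type*} [CommRing R] [CommRing A] [Algebra R A]
    [AddCommGroup V] [Module R V] (a b : Module.End R V) (n : ℕ)
    (h : a * a - a * b + (n : Module.End R V) = 0) :
    a.baseChange A * a.baseChange A - a.baseChange A * b.baseChange A
      + (n : Module.End A (A ⊗[R] V)) = 0 := by
  have h' := congrArg (Module.End.baseChangeHom R A V) h
  rw [map_add, map_sub, map_mul, map_mul, map_natCast, map_zero] at h'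
  exact h'

end Abstract

variable (M : ℕ) [NeZero M] (p : ℕ) [Fact p.Prime]

theorem fint_frob_Jp (ℓ : ℕ) (hℓ : ℓ.Prime) (hℓM : ¬ ℓ ∣ M) (hℓp : ℓ ≠ p)
    (A : ValuationSubring Q̄) (hA : A.LiesOverPrime ℓ) (φ : Q̄ ≃ₐ[ℚ] Q̄)
    (hφ : A.IsFrobeniusAt φ ℓ) (x : fint_Jp M p) :
    JZero.torsionGaloisRep M p φ (JZero.torsionGaloisRep M p φ x)
      - JZero.torsionGaloisRep M p φ (fint_Tp M p ⟨ℓ, hℓ⟩ x) + ℓ • x = 0 :=
  fint_abs_coe _ _ _ _ ℓ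
    (esl_frob_quadratic_ppow M ℓ hℓ hℓM A hA p (Fact.out : p.Prime) hℓp 1 (x : JZero M)
      (by rw [pow_one]; exact fint_nsmul_eq_zero x) φ hφ)

/-- **Eichler–Shimura on `J[p]`**, as an identity in `Module.End (ZMod p) J[p]`. -/
theorem fint_frob_end (ℓ : ℕ) (hℓ : ℓ.Prime) (hℓM : ¬ ℓ ∣ M) (hℓp : ℓ ≠ p)
    (A : ValuationSubring Q̄) (hA : A.LiesOverPrime ℓ) (φ : Q̄ ≃ₐ[ℚ] Q̄)
    (hφ : A.IsFrobeniusAt φ ℓ) :
    JZero.torsionGaloisRep M p φ * JZero.torsionGaloisRep M p φ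
      - JZero.torsionGaloisRep M p φ * fint_Tp M p ⟨ℓ, hℓ⟩
      + (ℓ : Module.End (ZMod p) (fint_Jp M p)) = 0 :=
  fint_abs_end_of_apply _ _ ℓ (fint_frob_Jp M p ℓ hℓ hℓM hℓp A hA φ hφ)

variable (K : Type*) [Field K] [Algebra (ZMod p) K]

/-- **Eichler–Shimura on `K ⊗ J[p]`**: `φ² - φ T_ℓ + ℓ = 0` for Frobenius lifts at `ℓ ∤ M`, `ℓ ≠ p`. -/
theorem fint_frob_mul (ℓ : ℕ) (hℓ : ℓ.Prime) (hℓM : ¬ ℓ ∣ M) (hℓp : ℓ ≠ p)
    (A : ValuationSubring Q̄) (hA : A.LiesOverPrime ℓ) (φ : Q̄ ≃ₐ[ℚ] Q̄)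
    (hφ : A.IsFrobeniusAt φ ℓ) :
    fint_rho M p K φ * fint_rho M p K φ - fint_rho M p K φ * fint_T M p K ⟨ℓ, hℓ⟩
      + (ℓ : Module.End K (K ⊗[ZMod p] fint_Jp M p)) = 0 :=
  fint_abs_baseChange _ _ ℓ (fint_frob_end M p ℓ hℓ hℓM hℓp A hA φ hφ)

theorem fint_frob (ℓ : ℕ) (hℓ : ℓ.Prime) (hℓM : ¬ ℓ ∣ M) (hℓp : ℓ ≠ p)
    (A : ValuationSubring Q̄) (hA : A.LiesOverPrime ℓ) (φ : Q̄ ≃ₐ[ℚ] Q̄)
    (hφ : A.IsFrobeniusAt φ ℓ) (w : K ⊗[ZMod p] fint_Jp M p) :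
    fint_rho M p K φ (fint_rho M p K φ w) - fint_rho M p K φ (fint_T M p K ⟨ℓ, hℓ⟩ w)
      + (ℓ : K) • w = 0 := by
  rw [Nat.cast_smul_eq_nsmul]
  exact fint_abs_apply_of_end _ _ ℓ (fint_frob_mul M p K ℓ hℓ hℓM hℓp A hA φ hφ) w

/-- variant of `fint_frob_Jp` with the scalar `(ℓ : ZMod p)` (shape of `tpa_core_orbit'`) -/
theorem fint_frob_Jp' (ℓ : ℕ) (hℓ : ℓ.Prime) (hℓM : ¬ ℓ ∣ M) (hℓp : ℓ ≠ p)
    (A : ValuationSubring Q̄) (hA : A.LiesOverPrime ℓ) (φ : Q̄ ≃ₐ[ℚ] Q̄)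
    (hφ : A.IsFrobeniusAt φ ℓ) (x : fint_Jp M p) :
    JZero.torsionGaloisRep M p φ (JZero.torsionGaloisRep M p φ x)
      - JZero.torsionGaloisRep M p φ (fint_Tp M p ⟨ℓ, hℓ⟩ x) + (ℓ : ZMod p) • x = 0 := by
  rw [Nat.cast_smul_eq_nsmul]
  exact fint_frob_Jp M p ℓ hℓ hℓM hℓp A hA φ hφ x

/-- inertia at `ℓ ∤ M`, `ℓ ≠ p` acts trivially on `J[p]` -/
theorem fint_inertia_Jp (ℓ : ℕ) (hℓ : ℓ.Prime) (hℓM : ¬ ℓ ∣ M) (hℓp : ℓ ≠ p)
    (A : ValuationSubring Q̄) (hA : A.LiesOverPrime ℓ) (τ : Q̄ ≃ₐ[ℚ] Q̄)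
    (hτ : τ ∈ A.inertiaSubgroupIn ℚ) : JZero.torsionGaloisRep M p τ = 1 := by
  apply LinearMap.ext
  intro x
  apply Subtype.ext
  rw [JZero.coe_torsionGaloisRep_apply]
  exact esl_inertia_trivial_ppow M ℓ hℓ hℓM A hA p (Fact.out : p.Prime) hℓp 1 (x : JZero M)
    (by rw [pow_one]; exact fint_nsmul_eq_zero x) τ hτ

theorem fint_rho_eq_one {σ : Q̄ ≃ₐ[ℚ] Q̄} (h : JZero.torsionGaloisRep M p σ = 1) :
    fint_rho M p K σ = 1 := by
  rw [fint_rho_eq, h, LinearMap.baseChange_one]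

/-- inertia at `ℓ ∤ M`, `ℓ ≠ p` acts trivially on `K ⊗ J[p]` -/
theorem fint_inertia (ℓ : ℕ) (hℓ : ℓ.Prime) (hℓM : ¬ ℓ ∣ M) (hℓp : ℓ ≠ p)
    (A : ValuationSubring Q̄) (hA : A.LiesOverPrime ℓ) (τ : Q̄ ≃ₐ[ℚ] Q̄)
    (hτ : τ ∈ A.inertiaSubgroupIn ℚ) : fint_rho M p K τ = 1 :=
  fint_rho_eq_one M p K (fint_inertia_Jp M p ℓ hℓ hℓM hℓp A hA τ hτ)

/-! ### Eigenvectors -/

/-- Galois translates of an eigenvector of `T_ℓ ⊗ K` are eigenvectors with the same eigenvalue. -/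
theorem fint_T_rho_eigen (ℓ : Nat.Primes) (σ : Q̄ ≃ₐ[ℚ] Q̄) {w : K ⊗[ZMod p] fint_Jp M p} {a : K}
    (hw : fint_T M p K ℓ w = a • w) :
    fint_T M p K ℓ (fint_rho M p K σ w) = a • fint_rho M p K σ w := by
  rw [fint_T_rho, hw, map_smul]

/-- **Eichler–Shimura on an eigenvector**: `φ² w - a φ w + ℓ w = 0` if `T_ℓ w = a w`. -/
theorem fint_frob_eigen (ℓ : ℕ) (hℓ : ℓ.Prime) (hℓM : ¬ ℓ ∣ M) (hℓp : ℓ ≠ p)
    (A : ValuationSubring Q̄) (hA : A.LiesOverPrime ℓ) (φ : Q̄ ≃ₐ[ℚ] Q̄)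
    (hφ : A.IsFrobeniusAt φ ℓ) {w : K ⊗[ZMod p] fint_Jp M p} {a : K}
    (hw : fint_T M p K ⟨ℓ, hℓ⟩ w = a • w) :
    fint_rho M p K φ (fint_rho M p K φ w) - a • fint_rho M p K φ w + (ℓ : K) • w = 0 := by
  have h := fint_frob M p K ℓ hℓ hℓM hℓp A hA φ hφ w
  rw [hw, map_smul] at h
  exact h

/-- the same on the whole Galois orbit of the eigenvector -/
theorem fint_frob_orbit (ℓ : ℕ) (hℓ : ℓ.Prime) (hℓM : ¬ ℓ ∣ M) (hℓp : ℓ ≠ p)
    (A : ValuationSubring Q̄) (hA : A.LiesOverPrime ℓ) (φ : Q̄ ≃ₐ[ℚ] Q̄)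
    (hφ : A.IsFrobeniusAt φ ℓ) {w : K ⊗[ZMod p] fint_Jp M p} {a : K}
    (hw : fint_T M p K ⟨ℓ, hℓ⟩ w = a • w) (σ : Q̄ ≃ₐ[ℚ] Q̄) :
    fint_rho M p K φ (fint_rho M p K φ (fint_rho M p K σ w))
      - a • fint_rho M p K φ (fint_rho M p K σ w) + (ℓ : K) • fint_rho M p K σ w = 0 :=
  fint_frob_eigen M p K ℓ hℓ hℓM hℓp A hA φ hφ (fint_T_rho_eigen M p K ⟨ℓ, hℓ⟩ σ hw)

/-- the simultaneous eigenspace of the `T_ℓ ⊗ K`, `ℓ ∈ S`, with eigenvalues `a ℓ` -/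
def fint_eigen (S : Set Nat.Primes) (a : Nat.Primes → K) :
    Submodule K (K ⊗[ZMod p] fint_Jp M p) where
  carrier := {w | ∀ ℓ ∈ S, fint_T M p K ℓ w = a ℓ • w}
  add_mem' := by
    intro u v hu hv ℓ hℓ
    rw [map_add, hu ℓ hℓ, hv ℓ hℓ, smul_add]
  zero_mem' := by
    intro ℓ _
    rw [map_zero, smul_zero]
  smul_mem' := by
    intro c u hu ℓ hℓ
    rw [map_smul, hu ℓ hℓ, smul_comm]

theorem fint_mem_eigen {S : Set Nat.Primes} {a : Nat.Primes → K} {w : K ⊗[ZMod p] fint_Jp M p} :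
    w ∈ fint_eigen M p K S a ↔ ∀ ℓ ∈ S, fint_T M p K ℓ w = a ℓ • w := Iff.rfl

/-- the eigenspace is Galois stable -/
theorem fint_eigen_rho_mem {S : Set Nat.Primes} {a : Nat.Primes → K} (σ : Q̄ ≃ₐ[ℚ] Q̄)
    {w : K ⊗[ZMod p] fint_Jp M p} (hw : w ∈ fint_eigen M p K S a) :
    fint_rho M p K σ w ∈ fint_eigen M p K S a :=
  fun ℓ hℓ => fint_T_rho_eigen M p K ℓ σ (hw ℓ hℓ)

/-! ### The Galois orbit of a tensor is finite -/

/-- **finite orbits**: the `G_ℚ`-orbit of every tensor is finite (shape `horb` of `tpa_core_orbit'`). -/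
theorem fint_orbit_finite (w : K ⊗[ZMod p] fint_Jp M p) :
    (Set.range fun σ : Q̄ ≃ₐ[ℚ] Q̄ => fint_rho M p K σ w).Finite := by
  obtain ⟨E, hE, h⟩ := fint_open M p K w
  have := hE
  -- the orbit map factors through restriction to `E`
  let r : (Q̄ ≃ₐ[ℚ] Q̄) → (E →ₐ[ℚ] Q̄) := fun σ => (σ : Q̄ →ₐ[ℚ] Q̄).comp E.val
  have hfac : Function.FactorsThrough (fun σ : Q̄ ≃ₐ[ℚ] Q̄ => fint_rho M p K σ w) r := by
    intro σ σ' hσ
    have hfix : ∀ a ∈ E, (σ⁻¹ * σ') a = a := by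
      intro a ha
      have h1 : σ a = σ' a := by
        have := DFunLike.congr_fun hσ ⟨a, ha⟩
        exact this
      rw [AlgEquiv.mul_apply, ← h1]
      exact σ.symm_apply_apply a
    have h2 := h (σ⁻¹ * σ') hfix
    show fint_rho M p K σ w = fint_rho M p K σ' w
    have h3 : σ' = σ * (σ⁻¹ * σ') := by rw [mul_inv_cancel_left]
    rw [h3, map_mul, Module.End.mul_apply, h2]
  obtain ⟨o, ho⟩ := Function.factorsThrough_iff _ |>.mp hfac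
  rw [ho]
  exact (Set.finite_range o).subset (Set.range_comp_subset_range r o)

/-! ### The inputs `hopen`, `hfrob` of `fin_attach` (block B11 TOP) for an eigenvector -/

/-- `hopen` of `fin_attach` for `ρ := fint_rho M p K`, `v := w` (any tensor). -/
theorem fint_hopen (w : K ⊗[ZMod p] fint_Jp M p) :
    ∃ E : IntermediateField ℚ (AlgebraicClosure ℚ), FiniteDimensional ℚ E ∧
      ∀ σ : AlgebraicClosure ℚ ≃ₐ[ℚ] AlgebraicClosure ℚ, (∀ a ∈ E, σ a = a) →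
        fint_rho M p K σ w = w :=
  fint_open M p K w

/-- `hfrob` of `fin_attach` for `ρ := fint_rho M p K`, `v := w` an eigenvector of the `T_ℓ ⊗ K`, `ℓ ∤ M`,
`ℓ ≠ p`, with eigenvalues `ψ (a_ℓ)`, `a_ℓ ∈ ℤ̄` the `ℓ`-th `q`-coefficient of `g`. -/
theorem fint_hfrob (g : CuspForm (CongruenceSubgroup.Gamma0 M) 2)
    (ψ : integralClosure ℤ ℂ →+* K) (w : K ⊗[ZMod p] fint_Jp M p)
    (hev : ∀ (ℓ : ℕ) (hℓ : ℓ.Prime), ¬ ℓ ∣ M → ℓ ≠ p →
      ∃ a : integralClosure ℤ ℂ, (a : ℂ) = ModularFormClass.qCoeff g ℓ ∧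
        fint_T M p K ⟨ℓ, hℓ⟩ w = ψ a • w) :
    ∀ ℓ : ℕ, ℓ.Prime → ¬ ℓ ∣ M → ℓ ≠ p →
      ∀ A : ValuationSubring (AlgebraicClosure ℚ), A.LiesOverPrime ℓ →
        ∀ τ : AlgebraicClosure ℚ ≃ₐ[ℚ] AlgebraicClosure ℚ, A.IsFrobeniusAt τ ℓ →
          ∃ a : integralClosure ℤ ℂ, (a : ℂ) = ModularFormClass.qCoeff g ℓ ∧
            ∀ σ, fint_rho M p K τ (fint_rho M p K τ (fint_rho M p K σ w))
              - ψ a • fint_rho M p K τ (fint_rho M p K σ w) + (ℓ : K) • fint_rho M p K σ w = 0 := by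
  intro ℓ hℓ hℓM hℓp A hA τ hτ
  obtain ⟨a, ha, hw⟩ := hev ℓ hℓ hℓM hℓp
  exact ⟨a, ha, fun σ => fint_frob_orbit M p K ℓ hℓ hℓM hℓp A hA τ hτ hw σ⟩

/-- the same from the `iot_exists_eigenvector` shape (`LinearMap.baseChange K (T i) w = a i • w` with
`T ℓ := fint_Tp M p ℓ` indexed by ALL primes; only the primes `ℓ ∤ M`, `ℓ ≠ p` are used). -/
theorem fint_hfrob' (g : CuspForm (CongruenceSubgroup.Gamma0 M) 2)
    (ψ : integralClosure ℤ ℂ →+* K) (w : K ⊗[ZMod p] fint_Jp M p)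
    (b : Nat.Primes → integralClosure ℤ ℂ)
    (hb : ∀ ℓ : Nat.Primes, ¬ (ℓ : ℕ) ∣ M → (ℓ : ℕ) ≠ p →
      ((b ℓ : integralClosure ℤ ℂ) : ℂ) = ModularFormClass.qCoeff g ℓ)
    (hev : ∀ ℓ : Nat.Primes, ¬ (ℓ : ℕ) ∣ M → (ℓ : ℕ) ≠ p →
      LinearMap.baseChange K (fint_Tp M p ℓ) w = ψ (b ℓ) • w) :
    ∀ ℓ : ℕ, ℓ.Prime → ¬ ℓ ∣ M → ℓ ≠ p →
      ∀ A : ValuationSubring (AlgebraicClosure ℚ), A.LiesOverPrime ℓ →
        ∀ τ : AlgebraicClosure ℚ ≃ₐ[ℚ] AlgebraicClosure ℚ, A.IsFrobeniusAt τ ℓ →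
          ∃ a : integralClosure ℤ ℂ, (a : ℂ) = ModularFormClass.qCoeff g ℓ ∧
            ∀ σ, fint_rho M p K τ (fint_rho M p K τ (fint_rho M p K σ w))
              - ψ a • fint_rho M p K τ (fint_rho M p K σ w) + (ℓ : K) • fint_rho M p K σ w = 0 :=
  fint_hfrob M p K g ψ w fun ℓ hℓ hℓM hℓp =>
    ⟨b ⟨ℓ, hℓ⟩, hb ⟨ℓ, hℓ⟩ hℓM hℓp, hev ⟨ℓ, hℓ⟩ hℓM hℓp⟩

end

end Fermat.Agent.S42x
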