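/-
S42x/ZbarQuot (helper30; S42 leaf X4 shared by B10/B11/B12/B13, prefix `zbq_`): the coefficient field
`K := integralClosure ℤ ℂ ⧸ 𝔪` of the S42 / S29 tops.

* `zbq_exists_root_of_monic` : a monic non-constant polynomial over `ℤ̄` has a root in `ℤ̄`;
* `zbq_isAlgClosed`          : `ℤ̄ ⧸ 𝔪` is ALGEBRAICALLY CLOSED (w.r.t. `Ideal.Quotient.field 𝔪`), as needed
                               by `alm_exists_two_dim [IsAlgClosed K]`;
* `zbq_charP`                : `CharP (ℤ̄ ⧸ 𝔪) p` when `(p : ℤ̄) ∈ 𝔪`;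
* `zbq_algebraZMod`          : the resulting `Algebra (ZMod p) (ℤ̄ ⧸ 𝔪)` (S42 asks for one);
* `zbq_ker_isMaximal`        : for `φ : ℤ̄ →+* k`, `k` a field of characteristic `p`: `ker φ` is maximal and
                               contains `p` (S29: take `𝔪 := ker φ`, then `RingHom.kerLift φ : ℤ̄ ⧸ 𝔪 →+* k`).

Mathlib only.
-/
import Mathlib

set_option autoImplicit false
set_option linter.style.haveILetI false

open Polynomial

namespace Fermat.Agent.S42x

/-- Every monic polynomial of positive degree over `ℤ̄ = integralClosure ℤ ℂ` has a root in `ℤ̄`. -/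
theorem zbq_exists_root_of_monic (F : (integralClosure ℤ ℂ)[X]) (hF : F.Monic)
    (hdeg : F.natDegree ≠ 0) : ∃ a : integralClosure ℤ ℂ, F.eval a = 0 := by
  -- a complex root of the image polynomial
  set G : ℂ[X] := F.map (algebraMap (integralClosure ℤ ℂ) ℂ) with hG
  have hGm : G.Monic := hF.map _
  have hGdeg : G.degree ≠ 0 := by
    rw [hG, degree_map_eq_of_injective (FaithfulSMul.algebraMap_injective _ _)]
    intro h
    apply hdeg
    exact natDegree_eq_zero_iff_degree_le_zero.mpr h.le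
  obtain ⟨α, hα⟩ := IsAlgClosed.exists_root G hGdeg
  -- α is integral over ℤ̄, hence over ℤ
  have hαint : IsIntegral (integralClosure ℤ ℂ) α := ⟨F, hF, by
    rw [← eval_map]; exact hα⟩
  have hαZ : IsIntegral ℤ α := isIntegral_trans (A := integralClosure ℤ ℂ) α hαint
  refine ⟨⟨α, hαZ⟩, ?_⟩
  apply FaithfulSMul.algebraMap_injective (integralClosure ℤ ℂ) ℂ
  rw [map_zero, ← Polynomial.eval₂_hom]
  have h1 : (algebraMap (integralClosure ℤ ℂ) ℂ) ⟨α, hαZ⟩ = α := rfl
  rw [h1, ← eval_map]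
  exact hα

/-- The residue fields of `ℤ̄ = integralClosure ℤ ℂ` are algebraically closed. -/
theorem zbq_isAlgClosed (m : Ideal (integralClosure ℤ ℂ)) [hm : m.IsMaximal] :
    @IsAlgClosed (integralClosure ℤ ℂ ⧸ m) (Ideal.Quotient.field m) := by
  letI : Field (integralClosure ℤ ℂ ⧸ m) := Ideal.Quotient.field m
  refine IsAlgClosed.of_exists_root _ ?_
  intro f hf hirr
  have hsurj : Function.Surjective (Ideal.Quotient.mk m) := Ideal.Quotient.mk_surjective
  obtain ⟨F, hFmap, hFdeg, hFm⟩ :=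
    Polynomial.lifts_and_natDegree_eq_and_monic
      ((Polynomial.mem_lifts f).mpr (Polynomial.map_surjective _ hsurj f)) hf
  have hdeg : F.natDegree ≠ 0 := by
    rw [hFdeg]
    exact (Polynomial.natDegree_pos_iff_degree_pos.mpr (Polynomial.degree_pos_of_irreducible hirr)).ne'
  obtain ⟨a, ha⟩ := zbq_exists_root_of_monic F hFm hdeg
  refine ⟨Ideal.Quotient.mk m a, ?_⟩
  rw [← hFmap, Polynomial.eval_map, Polynomial.eval₂_hom, ha, map_zero]

/-- If `p ∈ m` then `ℤ̄ / m` has characteristic `p`. -/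
theorem zbq_charP (m : Ideal (integralClosure ℤ ℂ)) [hm : m.IsMaximal] (p : ℕ) [hp : Fact p.Prime]
    (hpm : (p : integralClosure ℤ ℂ) ∈ m) : CharP (integralClosure ℤ ℂ ⧸ m) p := by
  letI : Field (integralClosure ℤ ℂ ⧸ m) := Ideal.Quotient.field m
  have h0 : ((p : ℕ) : integralClosure ℤ ℂ ⧸ m) = 0 := by
    have : Ideal.Quotient.mk m (p : integralClosure ℤ ℂ) = 0 := Ideal.Quotient.eq_zero_iff_mem.mpr hpm
    simpa using this
  exact (CharP.charP_iff_prime_eq_zero hp.out).mpr h0

/-- The kernel of a ring hom from `ℤ̄` to a field of characteristic `p` is a maximal ideal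
containing `p`. -/
theorem zbq_ker_isMaximal {k : Type*} [Field k] (p : ℕ) [hp : Fact p.Prime] [CharP k p]
    (φ : integralClosure ℤ ℂ →+* k) :
    (RingHom.ker φ).IsMaximal ∧ (p : integralClosure ℤ ℂ) ∈ RingHom.ker φ := by
  have hpk : (p : integralClosure ℤ ℂ) ∈ RingHom.ker φ := by
    rw [RingHom.mem_ker, map_natCast]
    exact CharP.cast_eq_zero k p
  refine ⟨?_, hpk⟩
  have hprime : (RingHom.ker φ).IsPrime := RingHom.ker_isPrime φ
  have hne : RingHom.ker φ ≠ ⊥ := by
    intro h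
    rw [h, Ideal.mem_bot] at hpk
    have : (p : ℂ) = 0 := by
      have := congrArg (algebraMap (integralClosure ℤ ℂ) ℂ) hpk
      simpa using this
    exact hp.out.ne_zero (Nat.cast_eq_zero.mp this)
  -- `ℤ̄` is integral over `ℤ`, so nonzero primes are maximal
  have hint : Algebra.IsIntegral ℤ (integralClosure ℤ ℂ) := inferInstance
  have hcomap : ((RingHom.ker φ).comap (algebraMap ℤ (integralClosure ℤ ℂ))).IsMaximal := by
    have hpr : ((RingHom.ker φ).comap (algebraMap ℤ (integralClosure ℤ ℂ))).IsPrime :=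
      Ideal.comap_isPrime _ _
    refine Ideal.IsPrime.isMaximal hpr ?_
    intro h
    have : ((p : ℤ)) ∈ (RingHom.ker φ).comap (algebraMap ℤ (integralClosure ℤ ℂ)) := by
      rw [Ideal.mem_comap]
      simp only [eq_intCast, Int.cast_natCast]
      exact hpk
    rw [h, Ideal.mem_bot] at this
    exact hp.out.ne_zero (Int.natCast_eq_zero.mp this)
  exact Ideal.isMaximal_of_isIntegral_of_isMaximal_comap (R := ℤ) (RingHom.ker φ) hcomap

/-- The `ZMod p`-algebra structure of `ℤ̄ ⧸ 𝔪` when `p ∈ 𝔪`. -/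
@[reducible] noncomputable def zbq_algebraZMod (m : Ideal (integralClosure ℤ ℂ)) [hm : m.IsMaximal] (p : ℕ)
    [hp : Fact p.Prime] (hpm : (p : integralClosure ℤ ℂ) ∈ m) :
    Algebra (ZMod p) (integralClosure ℤ ℂ ⧸ m) :=
  haveI := zbq_charP m p hpm
  ZMod.algebra _ p

end Fermat.Agent.S42x
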