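/-
S42x/FinUpper61 (helper61; S42 project, UPPER HALF twin, prefix `fup61_`).

From the comparison map `ι : lrL M →+ JZero M` (`p • ι = 0`, `ker ι ⊆ p · lrL M`, Hecke-equivariant at the
primes `ℓ ∤ M`) to the frozen `P.EigenformResidualAttachmentAt M`:
  B6 (`bet52_top`, `bet52_qCoeff_integral`) → eigenvector in `K ⊗ J[p]`, `K := ℤ̄ ⧸ 𝔪` (`zbq_`);
  B11/L7 (`fint_rho`, `fint_hopen`, `fint_hfrob`) → inputs of `fin_attach`;
  B11 TOP (`fin_attach_closed`, with B8/B9/B10 inside) → `fin_Body P M g 𝔪`.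
-/
import Mathlib
import Fermat.Agent.S42x.FinAttachB9
import Fermat.Agent.S42x.FinTensor
import Fermat.Agent.S42x.BettiEigenTop52
import Fermat.Agent.S42x.ZbarQuot

set_option autoImplicit false
set_option linter.style.haveILetI false

open FreyPackage ModularCurve AlgebraicCurve TensorProduct Fermat.Agent.S41x

namespace Fermat.Agent.S42x

noncomputable section

/-- corestriction of the comparison map to `J[p]` -/
def fup61_iota (M : ℕ) [NeZero M] (p : ℕ) (ι : lrL M →+ JZero M) (htors : ∀ v, p • ι v = 0) :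
    lrL M →+ fint_Jp M p where
  toFun v := ⟨ι v, Pic0.mem_torsion.mpr (by rw [natCast_zsmul]; exact htors v)⟩
  map_zero' := Subtype.ext (map_zero ι)
  map_add' x y := Subtype.ext (map_add ι x y)

@[simp] theorem fup61_iota_coe (M : ℕ) [NeZero M] (p : ℕ) (ι : lrL M →+ JZero M)
    (htors : ∀ v, p • ι v = 0) (v : lrL M) :
    ((fup61_iota M p ι htors v : fint_Jp M p) : JZero M) = ι v := rfl

/-- **UPPER HALF**: the frozen S42 statement at level `M` from the comparison map. -/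
theorem fup61_upper (P : FreyPackage) (M : ℕ) (hM : 0 < M) [NeZero M]
    (ι : lrL M →+ JZero M) (htors : ∀ v, P.p • ι v = 0)
    (hker : ∀ v, ι v = 0 → ∃ w : lrL M, v = (P.p : ℤ) • w)
    (hequiv : ∀ ℓ : Nat.Primes, ¬ (ℓ : ℕ) ∣ M → (ℓ : ℕ) ≠ P.p →
      ∀ v, ι (lrtT M ℓ v) = heckeOperatorBar M ℓ (ι v)) :
    P.EigenformResidualAttachmentAt M := by
  rw [fin_attachmentAt_iff]
  intro g hg 𝔪 h𝔪 hp𝔪
  haveI : Fact P.p.Prime := ⟨P.pp⟩
  haveI := h𝔪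
  letI : Field (integralClosure ℤ ℂ ⧸ 𝔪) := Ideal.Quotient.field 𝔪
  haveI : IsAlgClosed (integralClosure ℤ ℂ ⧸ 𝔪) := zbq_isAlgClosed 𝔪
  letI : Algebra (ZMod P.p) (integralClosure ℤ ℂ ⧸ 𝔪) := zbq_algebraZMod 𝔪 P.p hp𝔪
  set ψ : integralClosure ℤ ℂ →+* (integralClosure ℤ ℂ ⧸ 𝔪) := Ideal.Quotient.mk 𝔪 with hψdef
  have hψ : 𝔪 ≤ RingHom.ker ψ := by rw [hψdef, Ideal.mk_ker]
  -- B6: the eigenvector
  obtain ⟨x, hx0, hx⟩ := bet52_top (p := P.p) g hg ψ (fun ℓ => fint_Tp M P.p ℓ)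
    (fup61_iota M P.p ι htors)
    (fun v hv => hker v (by
      have := congrArg (fun y : fint_Jp M P.p => (y : JZero M)) hv
      simpa using this))
    (fun ℓ : Nat.Primes => ¬ (ℓ : ℕ) ∣ M ∧ (ℓ : ℕ) ≠ P.p)
    (fun ℓ hℓ v => Subtype.ext (by
      rw [fup61_iota_coe, hequiv ℓ hℓ.1 hℓ.2 v]
      rfl))
  -- B11
  refine fin_attach_closed P M hM g 𝔪 ψ hψ (fint_rho M P.p (integralClosure ℤ ℂ ⧸ 𝔪)) x hx0
    (fint_hopen M P.p _ x) (fint_hfrob M P.p _ g ψ x ?_)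
  intro ℓ hℓ hℓM hℓp
  obtain ⟨a, ha⟩ := bet52_qCoeff_integral g hg ℓ hℓ
  exact ⟨a, ha, hx ⟨ℓ, hℓ⟩ ⟨hℓM, hℓp⟩ a ha⟩

end

end Fermat.Agent.S42x
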