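/-
S42x/AutFixedQ (helper87; S42 project, block B7; prefix `afq_`):
* `afq_subset_range_of_finite_stable` : a finite subset of `K` stable under all `K ≃ₐ[k] K` lies in
  `k` (the corollary asked for by the B7 captain);
* `afq_exists_preimage` : LEAF Q of `S42_B7_SPEC_helper74` with LITERALLY the spec type
  (`dscq_exists_preimage`): a finite set of complex Laurent series stable under all coefficientwise
  automorphisms consists of series `coeffMap iotaQ y`, `y` over `Q̄`.
-/
import Mathlib
import Fermat.Agent.S24x.Iota
import Fermat.Agent.S42x.AutFixedSeries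

set_option autoImplicit false
set_option linter.unusedSectionVars false

namespace Fermat.Agent.S42x

open ModularCurve Fermat.Agent.S24x

/-- a finite subset of `K` stable under all `k`-automorphisms of `K` lies in `k`. -/
theorem afq_subset_range_of_finite_stable {k K : Type*} [Field k] [Field K] [Algebra k K]
    [IsAlgClosed k] [IsAlgClosed K] [CharZero K] (T : Set K) (hT : T.Finite)
    (hstab : ∀ σ : K ≃ₐ[k] K, ∀ t ∈ T, σ t ∈ T) : T ⊆ Set.range (algebraMap k K) := by
  intro t ht
  refine afr_mem_range_of_finite_orbit t (hT.subset ?_)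
  rintro _ ⟨σ, rfl⟩
  exact hstab σ t ht

/-- ring-hom form: a finite subset of `K` stable under all ring automorphisms of `K` (or only those
fixing `ι(k)`) lies in `ι(k)`. -/
theorem afq_subset_range_of_finite_stable_ringHom {k K : Type*} [Field k] [Field K]
    [IsAlgClosed k] [IsAlgClosed K] [CharZero K] (ι : k →+* K) (T : Set K) (hT : T.Finite)
    (hstab : ∀ σ : K ≃+* K, (∀ r : k, σ (ι r) = ι r) → ∀ t ∈ T, σ t ∈ T) :
    T ⊆ Set.range ι := by
  intro t ht
  refine afr_mem_range_of_finite_orbit_ringHom ι t (hT.subset ?_)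
  rintro _ ⟨σ, hσ, rfl⟩
  exact hstab σ hσ t ht

/-- **LEAF Q** (`dscq_exists_preimage` of `S42_B7_SPEC_helper74`, literal type): a finite set of
complex Laurent series stable under all coefficientwise automorphisms consists of series with
coefficients in `iotaQ(Q̄)`. -/
theorem afq_exists_preimage (T : Set (LaurentSeries ℂ)) (hT : T.Finite)
    (hstab : ∀ φ : ℂ ≃+* ℂ, ∀ t ∈ T, coeffMap (φ : ℂ →+* ℂ) t ∈ T) :
    ∀ t ∈ T, ∃ y : LaurentSeries Qbar, coeffMap iotaQ y = t := by
  intro t ht
  refine afs_exists_of_finite_orbit iotaQ t (hT.subset ?_)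
  rintro _ ⟨σ, -, rfl⟩
  exact hstab σ t ht

end Fermat.Agent.S42x
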