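/-
S42x/AutFixedSeries (helper87; S42 project, block B7 glue; prefix `afs_`): series-level corollaries
of `AutFixedRel`: a Laurent series over `K` whose orbit under the coefficientwise action of the
automorphisms of `K` fixing `ι(k)` is finite (or which is fixed by a "power-cofinal" set of such
automorphisms) has all its coefficients in `ι(k)`, i.e. it is `coeffMap ι y` for a series `y`
over `k` (`k ⊆ K` algebraically closed, characteristic zero; e.g. `ι = iotaQ : Q̄ →+* ℂ`).

Also `afs_exists_pow_smul_eq`: in an action on a FINITE set every element has a positive power in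
the stabiliser of any point (the "power-cofinal" hypothesis for stabilisers).
-/
import Mathlib
import Fermat.Prelude.Def_ModularCurve_LaurentCoeff
import Fermat.Agent.S42x.AutFixedRel

set_option autoImplicit false
set_option linter.unusedSectionVars false

namespace Fermat.Agent.S42x

open ModularCurve

section

variable {k K : Type*} [Field k] [Field K] [IsAlgClosed k] [IsAlgClosed K] [CharZero K]
  (ι : k →+* K)

/-- a Laurent series all of whose coefficients lie in `ι(k)` comes from a series over `k`. -/
theorem afs_exists_of_coeff_mem (z : LaurentSeries K) (hz : ∀ n : ℤ, z.coeff n ∈ Set.range ι) :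
    ∃ y : LaurentSeries k, coeffMap ι y = z := by
  classical
  choose c hc using hz
  have hsupp : (Function.support c) ⊆ z.support := by
    intro n hn
    rw [HahnSeries.mem_support]
    rw [Function.mem_support] at hn
    intro h0
    apply hn
    apply ι.injective
    rw [hc n, h0, map_zero]
  refine ⟨⟨c, z.isPWO_support.mono hsupp⟩, ?_⟩
  ext n
  rw [coeffMap_coeff]
  exact hc n

/-- **finite orbit ⇒ defined over `k`** (series form). -/
theorem afs_exists_of_finite_orbit (z : LaurentSeries K)
    (hz : {w : LaurentSeries K | ∃ σ : K ≃+* K, (∀ r : k, σ (ι r) = ι r) ∧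
      coeffMap (σ : K →+* K) z = w}.Finite) :
    ∃ y : LaurentSeries k, coeffMap ι y = z := by
  refine afs_exists_of_coeff_mem ι z fun n => ?_
  refine afr_mem_range_of_finite_orbit_ringHom ι (z.coeff n) ?_
  refine (hz.image fun w : LaurentSeries K => w.coeff n).subset ?_
  rintro w ⟨σ, hσ, rfl⟩
  exact ⟨coeffMap (σ : K →+* K) z, ⟨σ, hσ, rfl⟩, by simp⟩

/-- **fixed by a power-cofinal set of automorphisms ⇒ defined over `k`** (series form). -/
theorem afs_exists_of_fixed (H : Set (K ≃+* K))
    (hH : ∀ σ : K ≃+* K, (∀ r : k, σ (ι r) = ι r) → ∃ n : ℕ, 0 < n ∧ σ ^ n ∈ H)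
    (z : LaurentSeries K) (hz : ∀ σ ∈ H, coeffMap (σ : K →+* K) z = z) :
    ∃ y : LaurentSeries k, coeffMap ι y = z := by
  refine afs_exists_of_coeff_mem ι z fun n => ?_
  refine afr_mem_range_of_fixed_ringHom ι H hH (z.coeff n) fun σ hσ => ?_
  have h1 := congrArg (fun w : LaurentSeries K => w.coeff n) (hz σ hσ)
  simpa using h1

end

section Action

/-- in an action of a group on a finite set, every group element has a positive power fixing a
given point. -/
theorem afs_exists_pow_smul_eq {G X : Type*} [Group G] [MulAction G X] [Finite X] (g : G)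
    (x : X) : ∃ n : ℕ, 0 < n ∧ g ^ n • x = x := by
  have hfin : IsOfFinOrder (MulAction.toPermHom G X g) := isOfFinOrder_of_finite _
  obtain ⟨n, hn0, hn⟩ := hfin.exists_pow_eq_one
  refine ⟨n, hn0, ?_⟩
  have h1 : MulAction.toPermHom G X (g ^ n) = 1 := by rw [map_pow, hn]
  have h2 := congrArg (fun e : Equiv.Perm X => e x) h1
  simpa using h2

/-- the same when only the orbit of `x` is finite. -/
theorem afs_exists_pow_smul_eq_of_finite_orbit {G X : Type*} [Group G] [MulAction G X] (g : G)
    (x : X) (hx : (MulAction.orbit G x).Finite) : ∃ n : ℕ, 0 < n ∧ g ^ n • x = x := by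
  have : Finite (MulAction.orbit G x) := hx
  obtain ⟨n, hn0, hn⟩ := afs_exists_pow_smul_eq (G := G) (X := MulAction.orbit G x) g
    ⟨x, MulAction.mem_orbit_self x⟩
  refine ⟨n, hn0, ?_⟩
  have := congrArg (fun y : MulAction.orbit G x => (y : X)) hn
  simpa using this

end Action

end Fermat.Agent.S42x
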