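/-
S42 (route `ROUTE_S42_helper55` + `S42_LEAD_NOTES`), block B6 (Betti eigenvector), leaf (I) (helper26),
prefix `betc_`.  Mathlib only.

EIGEN-CHARACTER AND EIGEN-FUNCTIONAL.  Same setting as `S41x/EigenModP` (`emp_exists_mod_p_eigen`):
a lattice `V` (finite `ℤ`-module) with a commuting family `T i`, an equivariant additive map `ι` to a
complex vector space `Vc` whose image spans, and a complex simultaneous eigenvector `ξ` with eigenvalues
`c i`.  Then

* the `c i` are algebraic integers (`b i : integralClosure ℤ ℂ`), and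
* for EVERY ring homomorphism `ψ : integralClosure ℤ ℂ →+* K` to a field of characteristic `p`
  there is a NONZERO additive `θ : V →+ K` with `θ (T i v) = ψ (b i) * θ v`
  (an eigen-functional for the reduced eigensystem; no integrality/rationality of `ψ (b i)` needed).

Exports: `betc_core` (commutative ring `A` acting, eigencharacter given), `betc_exists_functional`.
-/
import Mathlib

set_option autoImplicit false

namespace Fermat.Agent.S42x

section Aux

/-- A commutative ring `A`, integral over `ℤ`; `χ : A →+* K`, `K` a field of characteristic `p`; an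
`A`-module `V` with `(ker χ) V ≠ V`.  Then there is a nonzero additive `θ : V →+ K` with
`θ (x • v) = χ x * θ v`. -/
theorem betc_aux {A : Type*} [CommRing A] {V : Type*} [AddCommGroup V] [Module A V]
    (hA : Algebra.IsIntegral ℤ A) {K : Type*} [Field K] (p : ℕ) [Fact p.Prime] [CharP K p]
    (χ : A →+* K) (hne : RingHom.ker χ • (⊤ : Submodule A V) ≠ ⊤) :
    ∃ θ : V →+ K, θ ≠ 0 ∧ ∀ (x : A) (v : V), θ (x • v) = χ x * θ v := by
  classical
  have hn'prime : (RingHom.ker χ).IsPrime := RingHom.ker_isPrime χ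
  -- the residue ring `A ⧸ ker χ` is a field
  have hinj : Function.Injective (RingHom.kerLift χ) := RingHom.kerLift_injective χ
  have hchar : CharP (A ⧸ RingHom.ker χ) p := RingHom.charP (RingHom.kerLift χ) hinj p
  let _ : Algebra (ZMod p) (A ⧸ RingHom.ker χ) := ZMod.algebra (A ⧸ RingHom.ker χ) p
  have hintQ : Algebra.IsIntegral (ZMod p) (A ⧸ RingHom.ker χ) := by
    refine ⟨fun y => ?_⟩
    obtain ⟨x, rfl⟩ := Ideal.Quotient.mk_surjective y
    have hx : IsIntegral ℤ x := Algebra.IsIntegral.isIntegral x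
    have hx' : IsIntegral ℤ (Ideal.Quotient.mk (RingHom.ker χ) x) :=
      hx.map (Ideal.Quotient.mkₐ ℤ (RingHom.ker χ))
    exact hx'.tower_top
  have hfield : IsField (A ⧸ RingHom.ker χ) :=
    isField_of_isIntegral_of_isField' (R := ZMod p) (Field.toIsField (ZMod p))
  have hmax : (RingHom.ker χ).IsMaximal := Ideal.Quotient.maximal_of_isField _ hfield
  let _ : Field (A ⧸ RingHom.ker χ) := Ideal.Quotient.field (RingHom.ker χ)
  -- a nonzero vector of the `A ⧸ ker χ`-vector space `V ⧸ (ker χ) V`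
  obtain ⟨v₀, hv₀⟩ : ∃ v₀ : V, v₀ ∉ RingHom.ker χ • (⊤ : Submodule A V) := by
    by_contra hcon
    push Not at hcon
    exact hne (eq_top_iff.mpr fun v _ => hcon v)
  have hq₀ : (Submodule.Quotient.mk v₀ : V ⧸ RingHom.ker χ • (⊤ : Submodule A V)) ≠ 0 := by
    rw [Ne, Submodule.Quotient.mk_eq_zero]
    exact hv₀
  obtain ⟨f, hf⟩ := Module.Projective.exists_dual_ne_zero (A ⧸ RingHom.ker χ) hq₀
  -- the functional
  let θ : V →+ K :=
    ((RingHom.kerLift χ).toAddMonoidHom.comp f.toAddMonoidHom).comp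
      (Submodule.mkQ (RingHom.ker χ • (⊤ : Submodule A V))).toAddMonoidHom
  have hθ : ∀ v, θ v = RingHom.kerLift χ (f (Submodule.Quotient.mk v)) := fun _ => rfl
  refine ⟨θ, ?_, ?_⟩
  · intro h0
    have : θ v₀ = 0 := by rw [h0]; rfl
    rw [hθ] at this
    exact hf ((map_eq_zero_iff _ hinj).mp this)
  · intro x v
    rw [hθ, hθ]
    have h1 : (Submodule.Quotient.mk (x • v) : V ⧸ RingHom.ker χ • (⊤ : Submodule A V)) =
        Ideal.Quotient.mk (RingHom.ker χ) x • (Submodule.Quotient.mk v :
          V ⧸ RingHom.ker χ • (⊤ : Submodule A V)) := rfl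
    rw [h1, map_smul, smul_eq_mul, map_mul]
    rfl

end Aux

section Core

variable {A : Type*} [CommRing A] {V : Type*} [AddCommGroup V] [Module.Finite ℤ V]
  {Vc : Type*} [AddCommGroup Vc] [Module ℂ Vc]

/-- Core: a commutative ring `A`, integral over `ℤ`, acting compatibly on a lattice `V` and on a complex
vector space `Vc` spanned by the image of `V`; a complex eigenvector `ξ` with eigencharacter
`lam : A →+* ℤ̄`; `ψ : ℤ̄ →+* K`, `K` a field of characteristic `p`.  Then there is a nonzero additive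
`θ : V →+ K` with `θ (x v) = ψ (lam x) * θ v`. -/
theorem betc_core (φ : A →+* Module.End ℤ V) (φc : A →+* Module.End ℂ Vc) (ι : V →+ Vc)
    (hι : ∀ x v, ι (φ x v) = φc x (ι v))
    (hspan : Submodule.span ℂ (Set.range ι) = ⊤)
    (ξ : Vc) (hξ : ξ ≠ 0) (hA : Algebra.IsIntegral ℤ A)
    (lam : A →+* integralClosure ℤ ℂ) (hlam : ∀ x, φc x ξ = ((lam x : integralClosure ℤ ℂ) : ℂ) • ξ)
    {K : Type*} [Field K] (p : ℕ) [Fact p.Prime] [CharP K p]
    (ψ : integralClosure ℤ ℂ →+* K) :
    ∃ θ : V →+ K, θ ≠ 0 ∧ ∀ x v, θ (φ x v) = ψ (lam x) * θ v := by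
  classical
  let _ : Module A V := Module.compHom V φ
  have hsmul : ∀ (x : A) (v : V), x • v = φ x v := fun _ _ => rfl
  have : IsScalarTower ℤ A V := ⟨fun n x v => by
    rw [hsmul, hsmul, zsmul_eq_mul, map_mul, map_intCast, Module.End.mul_apply,
      Module.End.intCast_apply]⟩
  have : Module.Finite A V := Module.Finite.of_restrictScalars_finite ℤ A V
  -- Nakayama: `(ker (ψ ∘ lam)) V ≠ V`
  have hne : RingHom.ker (ψ.comp lam) • (⊤ : Submodule A V) ≠ ⊤ := by
    intro htop
    obtain ⟨r, hr1, hr⟩ := Submodule.exists_sub_one_mem_and_smul_eq_zero_of_fg_of_le_smul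
      (RingHom.ker (ψ.comp lam)) (⊤ : Submodule A V) Module.Finite.fg_top (by rw [htop])
    have hr0 : φc r = 0 := by
      apply LinearMap.ext_on hspan
      rintro _ ⟨v, rfl⟩
      rw [← hι, ← hsmul, hr v Submodule.mem_top, map_zero, LinearMap.zero_apply]
    have h1 : ((lam r : integralClosure ℤ ℂ) : ℂ) • ξ = 0 := by
      rw [← hlam, hr0, LinearMap.zero_apply]
    have h2 : ((lam r : integralClosure ℤ ℂ) : ℂ) = 0 := by
      rcases smul_eq_zero.mp h1 with h | h
      · exact h
      · exact absurd h hξ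
    have h3 : lam r = 0 := Subtype.ext (by simpa using h2)
    have h4 : (ψ.comp lam) r = 0 := by
      rw [RingHom.comp_apply, h3, map_zero]
    have h5 : (ψ.comp lam) (r - 1) = 0 := (RingHom.mem_ker).mp hr1
    rw [map_sub, h4, map_one, zero_sub, neg_eq_zero] at h5
    exact one_ne_zero h5
  obtain ⟨θ, hθ0, hθ⟩ := betc_aux hA p (ψ.comp lam) hne
  exact ⟨θ, hθ0, fun x v => by rw [← hsmul, hθ]; rfl⟩

end Core

section Main

variable {I : Type*} {V : Type*} [AddCommGroup V] [Module.Finite ℤ V]
  {Vc : Type*} [AddCommGroup Vc] [Module ℂ Vc]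

open scoped IsMulCommutative in
/-- **Eigen-character and eigen-functional.**  `V` a finite `ℤ`-module with a commuting family `T i`;
`ι : V → Vc` an equivariant additive map to a complex vector space whose image spans; `ξ ≠ 0` a
simultaneous eigenvector of the `Tc i` with eigenvalues `c i`.  Then the `c i` are algebraic integers
`b i`, and for every ring homomorphism `ψ : ℤ̄ →+* K` to a field of characteristic `p` there is a nonzero
additive `θ : V →+ K` with `θ (T i v) = ψ (b i) * θ v` for all `i`, `v`. -/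
theorem betc_exists_functional
    (T : I → Module.End ℤ V) (hcomm : ∀ i j, T i * T j = T j * T i)
    (Tc : I → Module.End ℂ Vc)
    (ι : V →+ Vc) (hι : ∀ i v, ι (T i v) = Tc i (ι v))
    (hspan : Submodule.span ℂ (Set.range ι) = ⊤)
    (ξ : Vc) (hξ : ξ ≠ 0) (c : I → ℂ) (heig : ∀ i, Tc i ξ = c i • ξ)
    {K : Type*} [Field K] (p : ℕ) [Fact p.Prime] [CharP K p]
    (ψ : integralClosure ℤ ℂ →+* K) :
    ∃ b : I → integralClosure ℤ ℂ, (∀ i, ((b i : integralClosure ℤ ℂ) : ℂ) = c i) ∧
      ∃ θ : V →+ K, θ ≠ 0 ∧ ∀ i v, θ (T i v) = ψ (b i) * θ v := by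
  classical
  -- the `Tc i` commute
  have hcommC : ∀ i j, Tc i * Tc j = Tc j * Tc i := by
    intro i j
    apply LinearMap.ext_on hspan
    rintro _ ⟨v, rfl⟩
    simp only [Module.End.mul_apply]
    rw [← hι, ← hι, ← hι, ← hι, ← Module.End.mul_apply, hcomm, Module.End.mul_apply]
  let gen : I → Module.End ℤ V × Module.End ℂ Vc := fun i => (T i, Tc i)
  have hgc : ∀ x ∈ Set.range gen, ∀ y ∈ Set.range gen, x * y = y * x := by
    rintro _ ⟨i, rfl⟩ _ ⟨j, rfl⟩
    exact Prod.ext (hcomm i j) (hcommC i j)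
  have hmc := Algebra.isMulCommutative_adjoin ℤ hgc
  let φ : Algebra.adjoin ℤ (Set.range gen) →+* Module.End ℤ V :=
    (RingHom.fst _ _).comp (Algebra.adjoin ℤ (Set.range gen)).val.toRingHom
  let φc : Algebra.adjoin ℤ (Set.range gen) →+* Module.End ℂ Vc :=
    (RingHom.snd _ _).comp (Algebra.adjoin ℤ (Set.range gen)).val.toRingHom
  have hφ : ∀ x : Algebra.adjoin ℤ (Set.range gen), φ x = (x : Module.End ℤ V × Module.End ℂ Vc).1 :=
    fun _ => rfl
  have hφc : ∀ x : Algebra.adjoin ℤ (Set.range gen),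
      φc x = (x : Module.End ℤ V × Module.End ℂ Vc).2 := fun _ => rfl
  -- equivariance
  have hequiv : ∀ x ∈ Algebra.adjoin ℤ (Set.range gen), ∀ v, ι (x.1 v) = x.2 (ι v) := by
    intro x hx
    induction hx using Algebra.adjoin_induction with
    | mem x hx =>
      obtain ⟨i, rfl⟩ := hx
      exact hι i
    | algebraMap r =>
      intro v
      simp only [Prod.algebraMap_apply, Module.algebraMap_end_apply, map_zsmul]
    | add x y _ _ hx hy =>
      intro v
      simp only [Prod.fst_add, Prod.snd_add, LinearMap.add_apply, map_add, hx v, hy v]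
    | mul x y _ _ hx hy =>
      intro v
      simp only [Prod.fst_mul, Prod.snd_mul, Module.End.mul_apply, hx, hy]
  -- every element of the pair algebra has `ξ` as an eigenvector
  have heigA : ∀ x ∈ Algebra.adjoin ℤ (Set.range gen), ∃ z : ℂ, x.2 ξ = z • ξ := by
    intro x hx
    induction hx using Algebra.adjoin_induction with
    | mem x hx =>
      obtain ⟨i, rfl⟩ := hx
      exact ⟨c i, heig i⟩
    | algebraMap r =>
      refine ⟨(r : ℂ), ?_⟩
      simp only [Prod.algebraMap_apply, Module.algebraMap_end_apply]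
      rw [← Int.cast_smul_eq_zsmul ℂ r ξ]
    | add x y _ _ hx hy =>
      obtain ⟨z, hz⟩ := hx
      obtain ⟨z', hz'⟩ := hy
      exact ⟨z + z', by rw [Prod.snd_add, LinearMap.add_apply, hz, hz', ← add_smul]⟩
    | mul x y _ _ hx hy =>
      obtain ⟨z, hz⟩ := hx
      obtain ⟨z', hz'⟩ := hy
      exact ⟨z' * z, by rw [Prod.snd_mul, Module.End.mul_apply, hz', map_smul, hz, smul_smul]⟩
  -- the pair algebra is integral over `ℤ`
  have hA : Algebra.IsIntegral ℤ (Algebra.adjoin ℤ (Set.range gen)) := by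
    refine ⟨fun x => ?_⟩
    obtain ⟨P, hPm, hP⟩ : IsIntegral ℤ (φ x) := Algebra.IsIntegral.isIntegral _
    refine ⟨P, hPm, ?_⟩
    -- `y = P(x)` has first component `0`, hence (equivariance + span) second component `0`
    have hP' : Polynomial.aeval (φ x) P = 0 := hP
    have hy1 : φ (Polynomial.aeval x P) = 0 := by
      have := Polynomial.aeval_algHom_apply (φ.toIntAlgHom) x P
      rw [← hP']
      exact this.symm
    have hy2 : φc (Polynomial.aeval x P) = 0 := by
      apply LinearMap.ext_on hspan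
      rintro _ ⟨v, rfl⟩
      rw [hφc, ← hequiv _ (Polynomial.aeval x P).2, ← hφ, hy1, LinearMap.zero_apply, map_zero,
        LinearMap.zero_apply]
    show Polynomial.aeval x P = 0
    apply Subtype.ext
    apply Prod.ext
    · exact hy1
    · exact hy2
  -- the eigencharacter with values in `ℂ`
  have hex : ∀ x : Algebra.adjoin ℤ (Set.range gen), ∃ z : ℂ, φc x ξ = z • ξ :=
    fun x => heigA _ x.2
  choose eig heigv using hex
  have huniq : ∀ z z' : ℂ, z • ξ = z' • ξ → z = z' := fun z z' h => smul_left_injective ℂ hξ h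
  let eigH : Algebra.adjoin ℤ (Set.range gen) →+* ℂ :=
    { toFun := eig
      map_one' := huniq _ _ (by rw [← heigv, map_one, Module.End.one_apply, one_smul])
      map_mul' := fun x y => huniq _ _ (by
        rw [← heigv, map_mul, Module.End.mul_apply, heigv y, map_smul, heigv x, smul_smul, mul_comm])
      map_zero' := huniq _ _ (by rw [← heigv, map_zero, LinearMap.zero_apply, zero_smul])
      map_add' := fun x y => huniq _ _ (by
        rw [← heigv, map_add, LinearMap.add_apply, heigv x, heigv y, add_smul]) }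
  have heigH : ∀ x, φc x ξ = eigH x • ξ := heigv
  have hmem : ∀ x, eigH x ∈ integralClosure ℤ ℂ := fun x =>
    (Algebra.IsIntegral.isIntegral (R := ℤ) x).map eigH.toIntAlgHom
  let lam : Algebra.adjoin ℤ (Set.range gen) →+* integralClosure ℤ ℂ :=
    eigH.codRestrict (integralClosure ℤ ℂ) hmem
  have hlam : ∀ x, φc x ξ = ((lam x : integralClosure ℤ ℂ) : ℂ) • ξ := fun x => heigH x
  let genA : I → Algebra.adjoin ℤ (Set.range gen) :=
    fun i => ⟨gen i, Algebra.subset_adjoin ⟨i, rfl⟩⟩
  obtain ⟨θ, hθ0, hθ⟩ := betc_core φ φc ι (fun x v => by rw [hφ, hφc]; exact hequiv _ x.2 v) hspan ξ hξ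
    hA lam hlam p ψ
  refine ⟨fun i => lam (genA i), fun i => ?_, θ, hθ0, fun i v => ?_⟩
  · apply huniq
    rw [← hlam, ← heig i]
    rfl
  · exact hθ (genA i) v

end Main

end Fermat.Agent.S42x
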