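/-
S42, block B6 (Betti side), small leaf requested by helper52 (helper26, prefix `beti_`).

INTEGRALITY OF THE HECKE EIGENVALUES, standalone: for a normalised weight-2 eigenform `g` on `Γ₀(M)` and
EVERY prime `ℓ`, the coefficient `a_ℓ(g) = qCoeff g ℓ` is an algebraic integer.  (Proof: `a_ℓ(g)` is an
eigenvalue of `T_ℓ`/`U_ℓ` on `Hom_par(Γ₀(M), ℂ)`, which is spanned by the Hecke-stable lattice
`lrL M = Hom_par(Γ₀(M), ℤ)`, a finite `ℤ`-module; Cayley–Hamilton.)

* `beti_isIntegral_eigenvalue` : abstract single-operator statement (Mathlib only);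
* `beti_qCoeff_isIntegral`     : `IsIntegral ℤ (qCoeff g ℓ)`;
* `beti_exists_qCoeff`         : `∃ a : integralClosure ℤ ℂ, (a : ℂ) = qCoeff g ℓ`.
-/
import Fermat.Agent.S41x.EigenLRVec

set_option autoImplicit false

namespace Fermat.Agent.S42x

open scoped MatrixGroups
open CongruenceSubgroup ModularFormClass ModularCurve ModularCurve.Period
open Fermat.Agent.S41x

/-- An eigenvalue (on a complex vector space spanned by the image of a lattice) of an operator that
preserves the lattice is an algebraic integer. -/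
theorem beti_isIntegral_eigenvalue {V : Type*} [AddCommGroup V] [Module.Finite ℤ V]
    {Vc : Type*} [AddCommGroup Vc] [Module ℂ Vc]
    (T : Module.End ℤ V) (Tc : Module.End ℂ Vc) (ι : V →+ Vc) (hι : ∀ v, ι (T v) = Tc (ι v))
    (hspan : Submodule.span ℂ (Set.range ι) = ⊤)
    (ξ : Vc) (hξ : ξ ≠ 0) (c : ℂ) (heig : Tc ξ = c • ξ) : IsIntegral ℤ c := by
  obtain ⟨P, hPm, hP⟩ : IsIntegral ℤ T := Algebra.IsIntegral.isIntegral _
  have hP' : Polynomial.aeval T P = 0 := hP
  refine ⟨P, hPm, ?_⟩
  -- `ι (Q(T) v) = Q(Tc) (ι v)` for every integer polynomial `Q`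
  have hpoly : ∀ Q : Polynomial ℤ, ∀ v, ι (Polynomial.aeval T Q v) = Polynomial.aeval Tc Q (ι v) := by
    intro Q
    induction Q using Polynomial.induction_on' with
    | add Q R hQ hR =>
      intro v
      rw [map_add, map_add, LinearMap.add_apply, LinearMap.add_apply, map_add, hQ, hR]
    | monomial n a =>
      intro v
      rw [Polynomial.aeval_monomial, Polynomial.aeval_monomial]
      simp only [Module.End.mul_apply, Module.algebraMap_end_apply]
      rw [map_zsmul]
      congr 1
      induction n generalizing v with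
      | zero => simp
      | succ n ih => rw [pow_succ, pow_succ, Module.End.mul_apply, Module.End.mul_apply, ih, hι]
  have hTc : Polynomial.aeval Tc P = 0 := by
    apply LinearMap.ext_on hspan
    rintro _ ⟨v, rfl⟩
    rw [← hpoly, hP', LinearMap.zero_apply, map_zero, LinearMap.zero_apply]
  -- `Q(Tc) ξ = Q(c) ξ`
  have hev : ∀ Q : Polynomial ℤ, Polynomial.aeval Tc Q ξ = Polynomial.aeval c Q • ξ := by
    intro Q
    induction Q using Polynomial.induction_on' with
    | add Q R hQ hR => rw [map_add, map_add, LinearMap.add_apply, hQ, hR, add_smul]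
    | monomial n a =>
      rw [Polynomial.aeval_monomial, Polynomial.aeval_monomial]
      simp only [Module.End.mul_apply, Module.algebraMap_end_apply]
      have hpow : ∀ n : ℕ, (Tc ^ n) ξ = c ^ n • ξ := by
        intro n
        induction n with
        | zero => simp
        | succ n ih => rw [pow_succ, Module.End.mul_apply, heig, map_smul, ih, smul_smul, pow_succ, mul_comm]
      rw [hpow, ← Int.cast_smul_eq_zsmul ℂ a, smul_smul]
      simp
  have h0 : Polynomial.aeval c P • ξ = 0 := by rw [← hev, hTc, LinearMap.zero_apply]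
  rcases smul_eq_zero.mp h0 with h | h
  · exact h
  · exact absurd h hξ

/-- `a_ℓ(g)` is an algebraic integer, for every prime `ℓ` (dividing the level or not). -/
theorem beti_qCoeff_isIntegral {M : ℕ} [NeZero M] (g : CuspForm (Gamma0 M) 2)
    (hg : g.IsNormalizedEigenform) (ℓ : Nat.Primes) : IsIntegral ℤ (qCoeff g (ℓ : ℕ)) := by
  have hfin : Module.Finite ℤ (lrL M) := by
    have := emp_fg_Gamma0 M
    exact emp_finite_parabolicHoms (Gamma0 M)
  refine beti_isIntegral_eigenvalue (V := lrL M) (Vc := parabolicHoms ℂ (Gamma0 M) ℂ)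
    (lrtT M ℓ) (emq_TC M ℓ) (emp_castPar (Gamma0 M)) (fun x => emq_castPar_lrtT M ℓ x)
    (by have := emp_fg_Gamma0 M; exact emp_span_parabolicHoms (Gamma0 M))
    ⟨periodHomPair M (g, 0), lrf26_periodHomPair_mem (g, 0)⟩ ?_ (qCoeff g (ℓ : ℕ)) ?_
  · intro h
    exact lrf26_periodHomPair_ne_zero hg (congrArg Subtype.val h)
  · apply Subtype.ext
    exact lrf26_cohOpGen_periodHomPair hg ℓ

/-- `a_ℓ(g)` as an element of `ℤ̄ = integralClosure ℤ ℂ`. -/
theorem beti_exists_qCoeff {M : ℕ} [NeZero M] (g : CuspForm (Gamma0 M) 2)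
    (hg : g.IsNormalizedEigenform) (ℓ : Nat.Primes) :
    ∃ a : integralClosure ℤ ℂ, ((a : integralClosure ℤ ℂ) : ℂ) = qCoeff g (ℓ : ℕ) :=
  ⟨⟨qCoeff g (ℓ : ℕ), beti_qCoeff_isIntegral g hg ℓ⟩, rfl⟩

end Fermat.Agent.S42x
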