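/-
S42 project, glue leaf PSI-KER (helper47), prefix `psk_`.  Mathlib + Prelude (PeriodMap) only.

The kernel of `χ ↦ ε ∘ χ` on `Hom(Γ, ℤ)` and on the parabolic lattice `L = parabolicHoms ℤ Γ ℤ`, for ANY additive
`ε : ℤ →+ A` with `ε n = 0 ↔ p ∣ n` (e.g. `n ↦ exp(2πi n/p)` into `Additive ℂˣ`):
`ε ∘ χ = 0 ↔ χ ∈ p • L`.   This identifies the kernel `{χ | psiOf χ = 0}` of the comparison map `rlg_iota` with `pL`.

* `psk_divHom χ p h`     : the homomorphism `χ / p` when all values of `χ` are divisible by `p`;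
* `psk_comp_eq_zero_iff` : `ε.comp χ = 0 ↔ ∃ χ', χ = p • χ'`;
* `psk_psiOf ε Γ`        : `L →+ (Additive Γ →+ A)`, `χ ↦ ε.comp χ` (additive in `χ`);
* `psk_psiOf_eq_zero_iff`: `psk_psiOf ε Γ χ = 0 ↔ ∃ χ' : L, χ = p • χ'`  (parabolic version).
-/
import Mathlib
import Fermat.Prelude.Def_ModularCurve_PeriodMap

set_option autoImplicit false

namespace Fermat.Agent.S42x

open scoped MatrixGroups
open ModularCurve.Period

section General

variable {G : Type*} [AddZeroClass G] {A : Type*} [AddCommGroup A]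

/-- `χ / p` as a homomorphism, when `p ≠ 0` divides every value of `χ` -/
noncomputable def psk_divHom (χ : G →+ ℤ) (p : ℕ) (_hp : p ≠ 0) (h : ∀ g, (p : ℤ) ∣ χ g) :
    G →+ ℤ where
  toFun g := χ g / (p : ℤ)
  map_zero' := by rw [map_zero, Int.zero_ediv]
  map_add' a b := by
    rw [map_add]
    exact Int.add_ediv_of_dvd_left (h a)

theorem psk_divHom_apply (χ : G →+ ℤ) (p : ℕ) (hp : p ≠ 0) (h : ∀ g, (p : ℤ) ∣ χ g) (g : G) :
    (p : ℤ) * psk_divHom χ p hp h g = χ g :=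
  Int.mul_ediv_cancel' (h g)

theorem psk_nsmul_divHom (χ : G →+ ℤ) (p : ℕ) (hp : p ≠ 0) (h : ∀ g, (p : ℤ) ∣ χ g) :
    p • psk_divHom χ p hp h = χ := by
  refine DFunLike.ext _ _ fun g => ?_
  rw [AddMonoidHom.nsmul_apply, nsmul_eq_mul]
  exact psk_divHom_apply χ p hp h g

theorem psk_comp_eq_zero_iff (ε : ℤ →+ A) (p : ℕ) (hp : p ≠ 0)
    (hε : ∀ n : ℤ, ε n = 0 ↔ (p : ℤ) ∣ n) (χ : G →+ ℤ) :
    ε.comp χ = 0 ↔ ∃ χ' : G →+ ℤ, χ = p • χ' := by
  constructor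
  · intro h0
    have hdiv : ∀ g, (p : ℤ) ∣ χ g := by
      intro g
      rw [← hε]
      have := DFunLike.congr_fun h0 g
      exact this
    exact ⟨psk_divHom χ p hp hdiv, (psk_nsmul_divHom χ p hp hdiv).symm⟩
  · rintro ⟨χ', rfl⟩
    refine DFunLike.ext _ _ fun g => ?_
    rw [AddMonoidHom.comp_apply, AddMonoidHom.nsmul_apply, AddMonoidHom.zero_apply, hε,
      nsmul_eq_mul]
    exact dvd_mul_right _ _

end General

section Parabolic

variable (Γ : Subgroup SL(2, ℤ)) {A : Type*} [AddCommGroup A]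

/-- `χ ↦ ε ∘ χ` on the parabolic lattice, additive in `χ` -/
def psk_psiOf (ε : ℤ →+ A) : parabolicHoms ℤ Γ ℤ →+ (Additive Γ →+ A) where
  toFun χ := ε.comp χ.1
  map_zero' := by
    refine DFunLike.ext _ _ fun g => ?_
    simp
  map_add' χ χ' := by
    refine DFunLike.ext _ _ fun g => ?_
    simp

@[simp] theorem psk_psiOf_apply (ε : ℤ →+ A) (χ : parabolicHoms ℤ Γ ℤ) (g : Additive Γ) :
    psk_psiOf Γ ε χ g = ε (χ.1 g) := rfl

/-- the quotient `χ / p` of a parabolic hom is parabolic -/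
theorem psk_divHom_mem (χ : Additive Γ →+ ℤ) (hχ : χ ∈ parabolicHoms ℤ Γ ℤ) (p : ℕ) (hp : p ≠ 0)
    (h : ∀ g, (p : ℤ) ∣ χ g) : psk_divHom χ p hp h ∈ parabolicHoms ℤ Γ ℤ := by
  rw [mem_parabolicHoms_iff] at hχ ⊢
  intro γ hγ
  show χ (Additive.ofMul γ) / (p : ℤ) = 0
  rw [hχ γ hγ, Int.zero_ediv]

/-- **the kernel of `χ ↦ ε ∘ χ` on the parabolic lattice is `p L`** -/
theorem psk_psiOf_eq_zero_iff (ε : ℤ →+ A) (p : ℕ) (hp : p ≠ 0)
    (hε : ∀ n : ℤ, ε n = 0 ↔ (p : ℤ) ∣ n) (χ : parabolicHoms ℤ Γ ℤ) :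
    psk_psiOf Γ ε χ = 0 ↔ ∃ χ' : parabolicHoms ℤ Γ ℤ, χ = p • χ' := by
  constructor
  · intro h0
    have hdiv : ∀ g, (p : ℤ) ∣ χ.1 g := by
      intro g
      rw [← hε]
      have := DFunLike.congr_fun h0 g
      exact this
    refine ⟨⟨psk_divHom χ.1 p hp hdiv, psk_divHom_mem Γ χ.1 χ.2 p hp hdiv⟩, ?_⟩
    apply Subtype.ext
    rw [Submodule.coe_smul_of_tower]
    exact (psk_nsmul_divHom χ.1 p hp hdiv).symm
  · rintro ⟨χ', rfl⟩
    refine DFunLike.ext _ _ fun g => ?_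
    rw [psk_psiOf_apply, Submodule.coe_smul_of_tower, AddMonoidHom.nsmul_apply,
      AddMonoidHom.zero_apply, hε, nsmul_eq_mul]
    exact dvd_mul_right _ _

end Parabolic

end Fermat.Agent.S42x
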