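/-
S42, junction B6 × (B4/B5/B7 via `heq_Rel`) (helper52), prefix `bj52_`.

`bj52_eigenvector`: THE EIGENVECTOR IN `K ⊗ J₀(M)[p]`.  From
* the three block outputs (R3), (R4'), (R5) on helper54's relation `heq_Rel M p` for the characters
  `psk_psiOf (Gamma0 M) ε χ = ε ∘ χ` (`χ ∈ lrL M = Hom_par(Γ₀(M), ℤ)`, `ε : ℤ →+ Additive ℂˣ` with kernel `pℤ`,
  e.g. `n ↦ ζ_p^n`), exactly the binders of helper47's `rlg_iota`,
* ANY presentation `X` of `J₀(M)[p]` as a `ZMod p`-module: an injective additive `emb : X →+ JZero M` whose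
  range is the `p`-torsion, with operators `TX ℓ` lifting `heckeOperatorBar M ℓ` (`ℓ ∤ M`),
we get, for a normalised eigenform `g` of level `M`, a field `K` over `ZMod p` and `ψ : ℤ̄ →+* K`, a NONZERO
`x ∈ K ⊗[ZMod p] X` with `(TX ℓ ⊗ K) x = ψ (a_ℓ(g)) • x` for every prime `ℓ ∤ M`.

Glue of `rlg_iota` (helper47), `psk_psiOf_eq_zero_iff` (helper47), `heq_R6_comp` (helper54) and `bet52_top`.
-/
import Fermat.Agent.S42x.BettiEigenTop52
import Fermat.Agent.S42x.RelGroup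
import Fermat.Agent.S42x.PsiKer
import Fermat.Agent.S42x.HeckeEqTop

set_option autoImplicit false

namespace Fermat.Agent.S42x

open scoped MatrixGroups
open CongruenceSubgroup ModularFormClass ModularCurve ModularCurve.Period TensorProduct
open Fermat.Agent.S41x

/-- **Junction: the mod `𝔪` eigenvector of `g` in `K ⊗ J₀(M)[p]`.** -/
theorem bj52_eigenvector {M p : ℕ} [NeZero M] [Fact p.Prime] (g : CuspForm (Gamma0 M) 2)
    (hg : g.IsNormalizedEigenform)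
    {K : Type*} [Field K] [Algebra (ZMod p) K] (ψ : integralClosure ℤ ℂ →+* K)
    (ε : ℤ →+ Additive ℂˣ) (hε : ∀ n : ℤ, ε n = 0 ↔ (p : ℤ) ∣ n)
    (hR3 : ∀ (x : JZero M) (χ : lrL M), heq_Rel M p x (psk_psiOf (Gamma0 M) ε χ) →
      psk_psiOf (Gamma0 M) ε χ = 0 → x = 0)
    (hR4 : ∀ χ : lrL M, heq_Rel M p (0 : JZero M) (psk_psiOf (Gamma0 M) ε χ) →
      psk_psiOf (Gamma0 M) ε χ = 0)
    (hR5 : ∀ χ : lrL M, ∃ x : JZero M, heq_Rel M p x (psk_psiOf (Gamma0 M) ε χ))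
    {X : Type*} [AddCommGroup X] [Module (ZMod p) X] (emb : X →+ JZero M)
    (hemb : Function.Injective emb) (hsurj : ∀ x : JZero M, p • x = 0 → ∃ y, emb y = x)
    (TX : Nat.Primes → Module.End (ZMod p) X)
    (hTX : ∀ ℓ : Nat.Primes, ¬ (ℓ : ℕ) ∣ M → ∀ y, emb (TX ℓ y) = heckeOperatorBar M ℓ (emb y)) :
    ∃ x : K ⊗[ZMod p] X, x ≠ 0 ∧ ∀ ℓ : Nat.Primes, ¬ (ℓ : ℕ) ∣ M → ∀ a : integralClosure ℤ ℂ,
      (a : ℂ) = qCoeff g (ℓ : ℕ) → LinearMap.baseChange K (TX ℓ) x = ψ a • x := by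
  classical
  have hp0 : p ≠ 0 := (Fact.out : p.Prime).ne_zero
  set ι : lrL M →+ JZero M := rlg_iota (psk_psiOf (Gamma0 M) ε) hR3 hR4 hR5 with hι
  have htors : ∀ χ, p • ι χ = 0 := fun χ => rlg_iota_tors (psk_psiOf (Gamma0 M) ε) hR3 hR4 hR5 χ
  -- lift `ι` to `X`
  choose lift hlift using fun χ : lrL M => hsurj (ι χ) (htors χ)
  let ι' : lrL M →+ X :=
    { toFun := lift
      map_zero' := by
        apply hemb
        rw [hlift, map_zero, map_zero]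
      map_add' := fun a b => by
        apply hemb
        rw [hlift, map_add, map_add, hlift, hlift] }
  have hι' : ∀ χ, emb (ι' χ) = ι χ := hlift
  refine bet52_top g hg ψ TX ι' ?_ (fun ℓ => ¬ (ℓ : ℕ) ∣ M) ?_
  · intro v hv
    have h0 : ι v = 0 := by rw [← hι', hv, map_zero]
    have h1 : psk_psiOf (Gamma0 M) ε v = 0 :=
      (rlg_iota_eq_zero_iff (psk_psiOf (Gamma0 M) ε) hR3 hR4 hR5 v).mp h0
    obtain ⟨w, hw⟩ := (psk_psiOf_eq_zero_iff (Gamma0 M) ε p hp0 hε v).mp h1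
    exact ⟨w, by rw [hw, natCast_zsmul]⟩
  · intro ℓ hℓ v
    apply hemb
    rw [hι', hTX ℓ hℓ, hι']
    exact rlg_iota_comm (psk_psiOf (Gamma0 M) ε) hR3 hR4 hR5 (fun x => heckeOperatorBar M ℓ x)
      (fun χ => lrtT M ℓ χ)
      (fun x χ hx => heq_R6_comp M p ℓ hℓ x ε χ.1 hx) v

end Fermat.Agent.S42x
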