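/-
S42 project, glue leaf IOTA-QUOT (helper47), prefix `iotq_`.  Mathlib + S42x/IotaAbs only.

ADAPTERS from an additive comparison map `ι : L →+ J` with `p • ι χ = 0` and `ker ι = p L` to the
`ZMod p`-LINEAR picture used by `iot_tensor` / `iot_exists_eigenvector` (S42x/IotaAbs) and by the Betti block:

* `iotq_Lp L p := L ⧸ (range of χ ↦ p • χ)`                       with its `ZMod p`-module structure,
* `iotq_Jp J p := (Submodule.torsionBy ℤ J p).toAddSubgroup`       with its `ZMod p`-module structure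
  (for `J = Pic0 K F` this is DEFINITIONALLY `Pic0.torsion K F p`),
* `iotq_bar ι : iotq_Lp L p →+ iotq_Jp J p`, injective (`iotq_bar_injective`),
* operators: `T : J →+ J`, `TB : L →+ L` induce `iotq_T T : Jp →ₗ[ZMod p] Jp`, `iotq_TB TB : Lp →ₗ[ZMod p] Lp`,
  and `ι ∘ TB = T ∘ ι` passes to `iotq_bar` (`iotq_bar_comm`),
* `iotq_exists_eigenvector` : a nonzero simultaneous eigenvector of the `TB i ⊗ K` in `K ⊗ Lp` gives a nonzero
  simultaneous eigenvector of the `T i ⊗ K` in `K ⊗ Jp` with the same eigenvalues (`K` a field over `ZMod p`).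
-/
import Mathlib
import Fermat.Agent.S42x.IotaAbs

set_option autoImplicit false

namespace Fermat.Agent.S42x

open TensorProduct

section Defs

variable (J L : Type*) [AddCommGroup J] [AddCommGroup L] (p : ℕ)

/-- `L / pL` -/
abbrev iotq_Lp : Type _ := L ⧸ (nsmulAddMonoidHom p : L →+ L).range

/-- `J[p]` as an additive subgroup (for `J = Pic0 K F` this is `Pic0.torsion K F p` by `rfl`) -/
abbrev iotq_Jp : AddSubgroup J := (Submodule.torsionBy ℤ J (p : ℤ)).toAddSubgroup

variable {J L p}

theorem iotq_mem_Jp {x : J} : x ∈ iotq_Jp J p ↔ p • x = 0 := by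
  show x ∈ Submodule.torsionBy ℤ J (p : ℤ) ↔ _
  rw [Submodule.mem_torsionBy_iff, natCast_zsmul]

theorem iotq_Lp_nsmul (x : iotq_Lp L p) : p • x = 0 := by
  induction x using QuotientAddGroup.induction_on with
  | H χ =>
    show ((p • χ : L) : iotq_Lp L p) = 0
    rw [QuotientAddGroup.eq_zero_iff]
    exact ⟨χ, rfl⟩

theorem iotq_Jp_nsmul (x : iotq_Jp J p) : p • x = 0 := by
  apply Subtype.ext
  rw [AddSubgroup.coe_nsmul]
  exact iotq_mem_Jp.mp x.2

end Defs

section Modules

variable {J L : Type*} [AddCommGroup J] [AddCommGroup L] {p : ℕ}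

/-- the `ZMod p`-module structure on `L / pL` (a `def`, NOT a global instance: activate it with
`attribute [local instance] iotq_moduleLp iotq_moduleJp` or `letI`) -/
@[instance_reducible] noncomputable def iotq_moduleLp : Module (ZMod p) (iotq_Lp L p) :=
  AddCommGroup.zmodModule iotq_Lp_nsmul

/-- the `ZMod p`-module structure on `J[p]` (a `def`, NOT a global instance) -/
@[instance_reducible] noncomputable def iotq_moduleJp : Module (ZMod p) (iotq_Jp J p) :=
  AddCommGroup.zmodModule iotq_Jp_nsmul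

attribute [local instance] iotq_moduleLp iotq_moduleJp

variable (ι : L →+ J) (htors : ∀ χ, p • ι χ = 0)

/-- `ι` with values in `J[p]` -/
def iotq_toJp : L →+ iotq_Jp J p where
  toFun χ := ⟨ι χ, iotq_mem_Jp.mpr (htors χ)⟩
  map_zero' := Subtype.ext (map_zero ι)
  map_add' a b := Subtype.ext (map_add ι a b)

@[simp] theorem iotq_toJp_coe (χ : L) : ((iotq_toJp ι htors χ : iotq_Jp J p) : J) = ι χ := rfl

theorem iotq_range_le_ker : (nsmulAddMonoidHom p : L →+ L).range ≤ (iotq_toJp ι htors).ker := by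
  rintro _ ⟨χ, rfl⟩
  rw [AddMonoidHom.mem_ker]
  apply Subtype.ext
  rw [iotq_toJp_coe]
  show ι (p • χ) = 0
  rw [map_nsmul]
  exact htors χ

/-- **the induced map** `L / pL →+ J[p]` -/
def iotq_bar : iotq_Lp L p →+ iotq_Jp J p :=
  QuotientAddGroup.lift _ (iotq_toJp ι htors) (iotq_range_le_ker ι htors)

@[simp] theorem iotq_bar_mk (χ : L) :
    iotq_bar ι htors (QuotientAddGroup.mk χ) = iotq_toJp ι htors χ := rfl

theorem iotq_bar_coe_mk (χ : L) :
    ((iotq_bar ι htors (QuotientAddGroup.mk χ) : iotq_Jp J p) : J) = ι χ := rfl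

/-- **injectivity** when `ker ι = p L` -/
theorem iotq_bar_injective (hker : ∀ χ, ι χ = 0 → ∃ χ', χ = p • χ') :
    Function.Injective (iotq_bar ι htors) := by
  rw [injective_iff_map_eq_zero]
  intro x hx
  induction x using QuotientAddGroup.induction_on with
  | H χ =>
    have h0 : ι χ = 0 := by
      have := congrArg (Subtype.val) hx
      exact this
    obtain ⟨χ', rfl⟩ := hker χ h0
    rw [QuotientAddGroup.eq_zero_iff]
    exact ⟨χ', rfl⟩

/-! ### operators -/

/-- an additive endomorphism of `J` restricted to `J[p]`, `ZMod p`-linear -/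
noncomputable def iotq_T (T : J →+ J) : iotq_Jp J p →ₗ[ZMod p] iotq_Jp J p :=
  AddMonoidHom.toZModLinearMap p
    { toFun := fun x => ⟨T (x : J), iotq_mem_Jp.mpr (by
        rw [← map_nsmul, iotq_mem_Jp.mp x.2, map_zero])⟩
      map_zero' := Subtype.ext (map_zero T)
      map_add' := fun a b => Subtype.ext (map_add T (a : J) (b : J)) }

@[simp] theorem iotq_T_coe (T : J →+ J) (x : iotq_Jp J p) :
    ((iotq_T T x : iotq_Jp J p) : J) = T (x : J) := rfl

/-- an additive endomorphism of `L` induced on `L / pL`, `ZMod p`-linear -/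
noncomputable def iotq_TB (TB : L →+ L) : iotq_Lp L p →ₗ[ZMod p] iotq_Lp L p :=
  AddMonoidHom.toZModLinearMap p
    (QuotientAddGroup.map _ _ TB (by
      rintro _ ⟨χ, rfl⟩
      refine ⟨TB χ, ?_⟩
      show p • TB χ = TB (p • χ)
      rw [map_nsmul]))

@[simp] theorem iotq_TB_mk (TB : L →+ L) (χ : L) :
    iotq_TB (p := p) TB (QuotientAddGroup.mk χ) = QuotientAddGroup.mk (TB χ) := rfl

/-- equivariance passes to the quotient -/
theorem iotq_bar_comm (T : J →+ J) (TB : L →+ L) (h : ∀ χ, ι (TB χ) = T (ι χ))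
    (x : iotq_Lp L p) : iotq_bar ι htors (iotq_TB TB x) = iotq_T T (iotq_bar ι htors x) := by
  induction x using QuotientAddGroup.induction_on with
  | H χ =>
    apply Subtype.ext
    rw [iotq_TB_mk, iotq_bar_coe_mk, iotq_T_coe, iotq_bar_coe_mk, h]

/-- **eigenvector transport** (`K` a field over `ZMod p`). -/
theorem iotq_exists_eigenvector [Fact p.Prime] (K : Type*) [Field K] [Algebra (ZMod p) K]
    (ι : L →+ J) (htors : ∀ χ, p • ι χ = 0)
    (hker : ∀ χ, ι χ = 0 → ∃ χ', χ = p • χ')
    {I : Type*} (T : I → J →+ J) (TB : I → L →+ L) (h : ∀ i χ, ι (TB i χ) = T i (ι χ))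
    (a : I → K) (v : K ⊗[ZMod p] iotq_Lp L p) (hv : v ≠ 0)
    (hev : ∀ i, LinearMap.baseChange K (iotq_TB (TB i)) v = a i • v) :
    ∃ w : K ⊗[ZMod p] iotq_Jp J p, w ≠ 0 ∧
      ∀ i, LinearMap.baseChange K (iotq_T (T i)) w = a i • w :=
  iot_exists_eigenvector K (iotq_bar ι htors) (iotq_bar_injective ι htors hker)
    (fun i => iotq_T (T i)) (fun i => iotq_TB (TB i))
    (fun i x => iotq_bar_comm ι htors (T i) (TB i) (h i) x) a v hv hev

end Modules

end Fermat.Agent.S42x
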