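/-
S42 project (route `ROUTE_S42_helper55` + `S42_LEAD_NOTES`), block B6 (Betti eigenvector), TOP / GLUE.
(helper20, B6 captain; prefix `bet20_`.)

Inputs (all on main): helper52 `bei52_exists_functional` (S42x/BettiEigenInt52: integrality of the
eigenvalues + mod `𝔪` eigen-FUNCTIONAL on a lattice), helper52 `bel52_eigvec_baseChange`
(S42x/BettiEigenLin52: eigen-functional ⟹ eigen-VECTOR after base change), helper47 `iot_exists_eigenvector`
(S42x/IotaAbs) + `iotq_*` (S42x/IotaQuot), and the S41x period lattice API (`lrL`, `lrtT`, `lrtT_comm`,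
`emq_TC`, `emq_castPar_lrtT`, `emp_span_parabolicHoms`, `lrf26_*`).

Exports (`g` a normalised eigenform of level `Γ₀(M)`, weight 2; `L := lrL M = Hom_par(Γ₀(M), ℤ)`):
* `bet20_integral`   : `a_ℓ(g) ∈ ℤ̄` for EVERY prime `ℓ`;
* `bet20_functional` : `b ℓ : ℤ̄` with `b ℓ = a_ℓ(g)` and, for every field `K` and `ψ : ℤ̄ →+* K` with `ψ p = 0`,
                        a nonzero additive `θ : L →+ K` with `θ (T_ℓ v) = ψ (b ℓ) * θ v` (ALL primes `ℓ`);
* `bet20_Lp`         : a nonzero `x ∈ K ⊗[𝔽_p] (L / pL)` with `(T_ℓ ⊗ K) x = ψ(a_ℓ) x` for ALL primes `ℓ`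
                        (`L / pL = iotq_Lp (lrL M) p`, operators `iotq_TB (lrtT M ℓ)` of helper47's IotaQuot);
* `bet20_top`        : **B6 TOP** (abstract target `X`, `ι : L →+ X` with kernel `pL`, equivariant for the good
                        `ℓ`): a nonzero `x ∈ K ⊗[𝔽_p] X` with `(TX ℓ ⊗ K) x = ψ(a_ℓ) x` for `ℓ ∤ M`, `ℓ ≠ p`;
* `bet20_top_Jp`     : the same for `X = J[p] = iotq_Jp J p` and additive `T ℓ : J →+ J`, `ι : L →+ J`
                        (`p • ι χ = 0`, `ker ι = pL`) — the shape produced by helper47's `rlg_iota`.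
-/
import Mathlib
import Fermat.Agent.S41x.EigenLRVec
import Fermat.Agent.S42x.BettiEigenInt52
import Fermat.Agent.S42x.BettiEigenLin52
import Fermat.Agent.S42x.IotaQuot

set_option autoImplicit false

namespace Fermat.Agent.S42x

open scoped MatrixGroups TensorProduct
open CongruenceSubgroup ModularFormClass ModularCurve ModularCurve.Period Fermat.Agent.S41x

attribute [local instance] iotq_moduleLp iotq_moduleJp

section lattice

variable {M : ℕ} [NeZero M]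

/-- **Integrality + eigen-functional** on the period lattice `lrL M`, for ALL primes `ℓ`. -/
theorem bet20_functional.{u} (g : CuspForm (Gamma0 M) 2) (hg : g.IsNormalizedEigenform) :
    ∃ b : Nat.Primes → integralClosure ℤ ℂ,
      (∀ ℓ : Nat.Primes, ((b ℓ : integralClosure ℤ ℂ) : ℂ) = qCoeff g (ℓ : ℕ)) ∧
      ∀ {K : Type u} [Field K] (ψ : integralClosure ℤ ℂ →+* K) {p : ℕ}, p.Prime →
        ψ (p : integralClosure ℤ ℂ) = 0 →
        ∃ θ : lrL M →+ K, θ ≠ 0 ∧ ∀ (ℓ : Nat.Primes) (v : lrL M),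
          θ (lrtT M ℓ v) = ψ (b ℓ) * θ v := by
  haveI : Group.FG (Gamma0 M) := emp_fg_Gamma0 M
  haveI : Module.Finite ℤ (lrL M) := emp_finite_parabolicHoms (Gamma0 M)
  refine bei52_exists_functional (I := Nat.Primes) (V := lrL M)
    (Vc := parabolicHoms ℂ (Gamma0 M) ℂ)
    (fun ℓ => lrtT M ℓ) (fun ℓ ℓ' => lrtT_comm M ℓ ℓ')
    (fun ℓ => emq_TC M ℓ) (emp_castPar (Gamma0 M))
    (fun ℓ x => emq_castPar_lrtT M ℓ x) (emp_span_parabolicHoms (Gamma0 M))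
    ⟨periodHomPair M (g, 0), lrf26_periodHomPair_mem (g, 0)⟩ ?_
    (fun ℓ => qCoeff g (ℓ : ℕ)) ?_
  · intro h
    exact lrf26_periodHomPair_ne_zero hg (congrArg Subtype.val h)
  · intro ℓ
    apply Subtype.ext
    exact lrf26_cohOpGen_periodHomPair hg ℓ

/-- the prime Fourier coefficients of a normalised eigenform are algebraic integers -/
theorem bet20_integral (g : CuspForm (Gamma0 M) 2) (hg : g.IsNormalizedEigenform)
    (ℓ : Nat.Primes) : ∃ a : integralClosure ℤ ℂ, (a : ℂ) = qCoeff g (ℓ : ℕ) := by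
  obtain ⟨b, hb, -⟩ := bet20_functional.{0} g hg
  exact ⟨b ℓ, hb ℓ⟩

end lattice

section modp

variable {M p : ℕ} [NeZero M] [Fact p.Prime]

/-- `L / pL` is finite over `𝔽_p` -/
theorem bet20_finite_Lp : Module.Finite (ZMod p) (iotq_Lp (lrL M) p) := by
  haveI : Group.FG (Gamma0 M) := emp_fg_Gamma0 M
  haveI : Module.Finite ℤ (lrL M) := emp_finite_parabolicHoms (Gamma0 M)
  haveI : Module.Finite ℤ (iotq_Lp (lrL M) p) :=
    Module.Finite.of_surjective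
      (QuotientAddGroup.mk' (nsmulAddMonoidHom p : lrL M →+ lrL M).range).toIntLinearMap
      (QuotientAddGroup.mk'_surjective _)
  exact Module.Finite.of_restrictScalars_finite ℤ (ZMod p) (iotq_Lp (lrL M) p)

/-- **Betti eigenvector in `K ⊗ (L / pL)`**, all primes `ℓ`. -/
theorem bet20_Lp (g : CuspForm (Gamma0 M) 2) (hg : g.IsNormalizedEigenform)
    {K : Type*} [Field K] [Algebra (ZMod p) K] (ψ : integralClosure ℤ ℂ →+* K)
    (hψp : ψ (p : integralClosure ℤ ℂ) = 0) :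
    ∃ x : K ⊗[ZMod p] iotq_Lp (lrL M) p, x ≠ 0 ∧ ∀ ℓ : Nat.Primes,
      ∀ a : integralClosure ℤ ℂ, (a : ℂ) = qCoeff g (ℓ : ℕ) →
        LinearMap.baseChange K (iotq_TB (p := p) (lrtT M ℓ).toAddMonoidHom) x = ψ a • x := by
  classical
  obtain ⟨b, hb, hfun⟩ := bet20_functional g hg
  obtain ⟨θ, hθ0, hθ⟩ := hfun ψ (Fact.out : p.Prime) hψp
  haveI : CharP K p := charP_of_injective_algebraMap (algebraMap (ZMod p) K).injective p
  -- `θ` kills `pL`
  have hθp : (nsmulAddMonoidHom p : lrL M →+ lrL M).range ≤ θ.ker := by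
    rintro _ ⟨v, rfl⟩
    rw [AddMonoidHom.mem_ker]
    show θ (p • v) = 0
    rw [map_nsmul, nsmul_eq_mul, CharP.cast_eq_zero, zero_mul]
  let θ' : iotq_Lp (lrL M) p →+ K := QuotientAddGroup.lift _ θ hθp
  have hθ'mk : ∀ v : lrL M, θ' (QuotientAddGroup.mk v) = θ v := fun _ => rfl
  let θl : iotq_Lp (lrL M) p →ₗ[ZMod p] K := θ'.toZModLinearMap p
  have hθl : ∀ w, θl w = θ' w := fun _ => rfl
  have hθl0 : θl ≠ 0 := by
    intro h0
    apply hθ0
    refine AddMonoidHom.ext fun v => ?_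
    have := congrArg (fun f : iotq_Lp (lrL M) p →ₗ[ZMod p] K => f (QuotientAddGroup.mk v)) h0
    simpa [hθl, hθ'mk] using this
  haveI := bet20_finite_Lp (M := M) (p := p)
  have hcomm : ∀ ℓ ℓ' : Nat.Primes,
      iotq_TB (p := p) (lrtT M ℓ).toAddMonoidHom * iotq_TB (p := p) (lrtT M ℓ').toAddMonoidHom =
        iotq_TB (p := p) (lrtT M ℓ').toAddMonoidHom * iotq_TB (p := p) (lrtT M ℓ).toAddMonoidHom := by
    intro ℓ ℓ'
    refine LinearMap.ext fun w => ?_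
    induction w using QuotientAddGroup.induction_on with
    | H v =>
      show iotq_TB (p := p) (lrtT M ℓ).toAddMonoidHom
          (iotq_TB (p := p) (lrtT M ℓ').toAddMonoidHom (QuotientAddGroup.mk v)) =
        iotq_TB (p := p) (lrtT M ℓ').toAddMonoidHom
          (iotq_TB (p := p) (lrtT M ℓ).toAddMonoidHom (QuotientAddGroup.mk v))
      rw [iotq_TB_mk, iotq_TB_mk, iotq_TB_mk, iotq_TB_mk]
      have := congrArg (fun f : Module.End ℤ (lrL M) => f v) (lrtT_comm M ℓ ℓ')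
      exact congrArg _ this
  have hθS : ∀ (ℓ : Nat.Primes) (w : iotq_Lp (lrL M) p),
      θl (iotq_TB (p := p) (lrtT M ℓ).toAddMonoidHom w) = ψ (b ℓ) * θl w := by
    intro ℓ w
    induction w using QuotientAddGroup.induction_on with
    | H v =>
      rw [iotq_TB_mk, hθl, hθl, hθ'mk, hθ'mk]
      exact hθ ℓ v
  obtain ⟨x, hx0, hx⟩ := bel52_eigvec_baseChange (F := ZMod p) (K := K)
    (W := iotq_Lp (lrL M) p) (I := Nat.Primes)
    (fun ℓ => iotq_TB (p := p) (lrtT M ℓ).toAddMonoidHom) hcomm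
    (fun ℓ => ψ (b ℓ)) θl hθl0 hθS
  refine ⟨x, hx0, fun ℓ a ha => ?_⟩
  have hab : a = b ℓ := Subtype.ext (ha.trans (hb ℓ).symm)
  rw [hab]
  exact hx ℓ

end modp

section top

variable {M p : ℕ} [NeZero M] [Fact p.Prime]

/-- **B6 TOP (Betti eigenvector).**  The eigensystem of `g` mod `𝔪` occurs in `K ⊗ X` for every
`𝔽_p`-space `X` receiving the Betti lattice `lrL M = Hom_par(Γ₀(M), ℤ)` Hecke-equivariantly with kernel
`p · lrL M`. -/
theorem bet20_top (g : CuspForm (Gamma0 M) 2) (hg : g.IsNormalizedEigenform)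
    (𝔪 : Ideal (integralClosure ℤ ℂ)) (h𝔪 : 𝔪 ≠ ⊤) (hp𝔪 : (p : integralClosure ℤ ℂ) ∈ 𝔪)
    {K : Type*} [Field K] [Algebra (ZMod p) K] (ψ : integralClosure ℤ ℂ →+* K)
    (hψ : 𝔪 ≤ RingHom.ker ψ)
    {X : Type*} [AddCommGroup X] [Module (ZMod p) X] (TX : Nat.Primes → Module.End (ZMod p) X)
    (ι : lrL M →+ X) (hker : ∀ v, ι v = 0 → ∃ w, v = (p : ℤ) • w)
    (hequiv : ∀ ℓ : Nat.Primes, ¬ (ℓ : ℕ) ∣ M → (ℓ : ℕ) ≠ p → ∀ v, ι (lrtT M ℓ v) = TX ℓ (ι v)) :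
    (∀ ℓ : Nat.Primes, ∃ a : integralClosure ℤ ℂ, (a : ℂ) = qCoeff g (ℓ : ℕ)) ∧
    ∃ x : K ⊗[ZMod p] X, x ≠ 0 ∧ ∀ ℓ : Nat.Primes, ¬ (ℓ : ℕ) ∣ M → (ℓ : ℕ) ≠ p →
      ∀ a : integralClosure ℤ ℂ, (a : ℂ) = qCoeff g (ℓ : ℕ) →
        (TX ℓ).baseChange K x = ψ a • x := by
  classical
  have _ := h𝔪
  refine ⟨bet20_integral g hg, ?_⟩
  have hψp : ψ (p : integralClosure ℤ ℂ) = 0 := hψ hp𝔪
  obtain ⟨v, hv0, hv⟩ := bet20_Lp (M := M) (p := p) g hg ψ hψp
  obtain ⟨b, hb⟩ : ∃ b : Nat.Primes → integralClosure ℤ ℂ,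
      ∀ ℓ : Nat.Primes, ((b ℓ : integralClosure ℤ ℂ) : ℂ) = qCoeff g (ℓ : ℕ) :=
    ⟨fun ℓ => (bet20_integral g hg ℓ).choose, fun ℓ => (bet20_integral g hg ℓ).choose_spec⟩
  -- `ι` kills `pL` since `X` is an `𝔽_p`-space
  have hXp : ∀ y : X, p • y = 0 := fun y => by
    have h1 : ((p : ZMod p)) • y = 0 := by rw [ZMod.natCast_self, zero_smul]
    rwa [Nat.cast_smul_eq_nsmul] at h1
  have hιp : (nsmulAddMonoidHom p : lrL M →+ lrL M).range ≤ ι.ker := by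
    rintro _ ⟨v, rfl⟩
    rw [AddMonoidHom.mem_ker]
    show ι (p • v) = 0
    rw [map_nsmul]
    exact hXp _
  let ιb : iotq_Lp (lrL M) p →+ X := QuotientAddGroup.lift _ ι hιp
  have hιb_mk : ∀ v : lrL M, ιb (QuotientAddGroup.mk v) = ι v := fun _ => rfl
  have hιb_inj : Function.Injective ιb := by
    rw [injective_iff_map_eq_zero]
    intro w hw
    induction w using QuotientAddGroup.induction_on with
    | H v =>
      rw [hιb_mk] at hw
      obtain ⟨w, rfl⟩ := hker v hw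
      rw [QuotientAddGroup.eq_zero_iff]
      exact ⟨w, by
        show p • w = (p : ℤ) • w
        rw [natCast_zsmul]⟩
  let S := {ℓ : Nat.Primes // ¬ (ℓ : ℕ) ∣ M ∧ (ℓ : ℕ) ≠ p}
  obtain ⟨x, hx0, hx⟩ := iot_exists_eigenvector (p := p) K (I := S) ιb hιb_inj
    (fun s => TX s.1) (fun s => iotq_TB (p := p) (lrtT M s.1).toAddMonoidHom)
    (fun s w => by
      induction w using QuotientAddGroup.induction_on with
      | H v =>
        rw [iotq_TB_mk, hιb_mk, hιb_mk]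
        exact hequiv s.1 s.2.1 s.2.2 v)
    (fun s => ψ (b s.1)) v hv0 (fun s => hv s.1 (b s.1) (hb s.1))
  refine ⟨x, hx0, fun ℓ h1 h2 a ha => ?_⟩
  have hab : a = b ℓ := Subtype.ext (ha.trans (hb ℓ).symm)
  rw [hab]
  exact hx ⟨ℓ, h1, h2⟩

/-- **B6 TOP, `J[p]` form**: `ι : lrL M →+ J` with `p`-torsion values and kernel `p · lrL M`, additive
operators `T ℓ : J →+ J` intertwined with `lrtT M ℓ` for the good `ℓ` (the shape produced by helper47's
`rlg_iota` / `rlg_iota_comm`); eigenvector in `K ⊗ J[p]`, `J[p] = iotq_Jp J p`, operators `iotq_T (T ℓ)`. -/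
theorem bet20_top_Jp (g : CuspForm (Gamma0 M) 2) (hg : g.IsNormalizedEigenform)
    {K : Type*} [Field K] [Algebra (ZMod p) K] (ψ : integralClosure ℤ ℂ →+* K)
    (hψp : ψ (p : integralClosure ℤ ℂ) = 0)
    {J : Type*} [AddCommGroup J] (T : Nat.Primes → J →+ J)
    (ι : lrL M →+ J) (htors : ∀ v, p • ι v = 0) (hker : ∀ v, ι v = 0 → ∃ w, v = p • w)
    (hequiv : ∀ ℓ : Nat.Primes, ¬ (ℓ : ℕ) ∣ M → (ℓ : ℕ) ≠ p → ∀ v, ι (lrtT M ℓ v) = T ℓ (ι v)) :
    ∃ x : K ⊗[ZMod p] iotq_Jp J p, x ≠ 0 ∧ ∀ ℓ : Nat.Primes, ¬ (ℓ : ℕ) ∣ M → (ℓ : ℕ) ≠ p →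
      ∀ a : integralClosure ℤ ℂ, (a : ℂ) = qCoeff g (ℓ : ℕ) →
        LinearMap.baseChange K (iotq_T (p := p) (T ℓ)) x = ψ a • x := by
  classical
  obtain ⟨v, hv0, hv⟩ := bet20_Lp (M := M) (p := p) g hg ψ hψp
  obtain ⟨b, hb⟩ : ∃ b : Nat.Primes → integralClosure ℤ ℂ,
      ∀ ℓ : Nat.Primes, ((b ℓ : integralClosure ℤ ℂ) : ℂ) = qCoeff g (ℓ : ℕ) :=
    ⟨fun ℓ => (bet20_integral g hg ℓ).choose, fun ℓ => (bet20_integral g hg ℓ).choose_spec⟩
  let S := {ℓ : Nat.Primes // ¬ (ℓ : ℕ) ∣ M ∧ (ℓ : ℕ) ≠ p}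
  obtain ⟨x, hx0, hx⟩ := iotq_exists_eigenvector (p := p) K ι htors hker (I := S)
    (fun s => T s.1) (fun s => (lrtT M s.1).toAddMonoidHom)
    (fun s χ => hequiv s.1 s.2.1 s.2.2 χ)
    (fun s => ψ (b s.1)) v hv0 (fun s => hv s.1 (b s.1) (hb s.1))
  refine ⟨x, hx0, fun ℓ h1 h2 a ha => ?_⟩
  have hab : a = b ℓ := Subtype.ext (ha.trans (hb ℓ).symm)
  rw [hab]
  exact hx ⟨ℓ, h1, h2⟩

end top

end Fermat.Agent.S42x
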