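/-
S42 project, block B3 (dictionary over `ℂ`), leaf COMPAT (helper4, ARCH-3 (R3) items (d)+(c)),
prefix `cdk4_`.

For ANY realisation bundle `D : cdc_Real FC M jC` of `FC = modularFunctionFieldFullC ℂ M`
(`jC = pls_jb ℂ M`) which sends the generators `j(q^d)`, `d ∣ M`, to `jdHol d`:

* `cdk4_iotaL_mem`  : `iotaL f ∈ modularFunctionFieldFullC ℂ M` for `f ∈ FBar M`;
* `cdk4_iF M : FBar M →+* FC` : the coefficientwise embedding (`cdk4_coe_iF`, injective);
* `cdk4_phi_iF`     : `D.φ (cdk4_iF M f) = evF M f`       (compatibility of the two realisations);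
* `cdk4_compat`     : the same in the form `(y : LS ℂ) = iotaL f → D.φ y = evF M f`;
* `cdk4_iF_jdBar`, `cdk4_iF_jBar`, `cdk4_iF_algebraMap`: values on generators and constants.
-/
import Mathlib
import Fermat.Agent.S42x.CDictDefs
import Fermat.Agent.S24x.Realize
import Fermat.Agent.S18x.PlsFbar

set_option autoImplicit false

namespace Fermat.Agent.S42x

open UpperHalfPlane ModularCurve AlgebraicCurve CongruenceSubgroup
open Fermat.Agent.S24x Fermat.Agent.S18x
open scoped MatrixGroups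

noncomputable section

/-- `iotaL` of a constant is a constant -/
theorem cdk4_iotaL_algebraMap (c : Qbar) :
    iotaL (algebraMap Qbar (LaurentSeries Qbar) c) =
      algebraMap ℂ (LaurentSeries ℂ) (iotaQ c) := by
  rw [iotaL_algebraMap, algebraMap_laurentSeries_eq_single, HahnSeries.C_apply]

/-- `iotaL` maps `Q̄ · F_M` into `ℂ · F_M`. -/
theorem cdk4_iotaL_mem_of_mem (M : ℕ) {a : LaurentSeries Qbar}
    (ha : a ∈ modularFunctionFieldBar M) : iotaL a ∈ modularFunctionFieldFullC ℂ M := by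
  rw [modularFunctionFieldBar_eq_adjoin] at ha
  induction ha using IntermediateField.adjoin_induction with
  | mem x hx =>
    obtain ⟨d, hne, hd, rfl⟩ := hx
    haveI := hne
    rw [iotaL_gen]
    exact jqModCd_mem_full ℂ M hd
  | algebraMap c =>
    rw [cdk4_iotaL_algebraMap]
    exact IntermediateField.algebraMap_mem _ _
  | add x y _ _ hx hy =>
    rw [map_add]
    exact add_mem hx hy
  | inv x _ hx =>
    rw [map_inv₀]
    exact inv_mem hx
  | mul x y _ _ hx hy =>
    rw [map_mul]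
    exact mul_mem hx hy

theorem cdk4_iotaL_mem (M : ℕ) (f : FBar M) :
    iotaL (f : LaurentSeries Qbar) ∈ modularFunctionFieldFullC ℂ M :=
  cdk4_iotaL_mem_of_mem M f.2

/-- the coefficientwise embedding `FBar M → FC` -/
def cdk4_iF (M : ℕ) : FBar M →+* ↥(modularFunctionFieldFullC ℂ M) :=
  RingHom.codRestrict (iotaL.comp (modularFunctionFieldBar M).val.toRingHom)
    (modularFunctionFieldFullC ℂ M) (fun f => cdk4_iotaL_mem M f)

@[simp] theorem cdk4_coe_iF (M : ℕ) (f : FBar M) :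
    ((cdk4_iF M f : ↥(modularFunctionFieldFullC ℂ M)) : LaurentSeries ℂ) =
      iotaL (f : LaurentSeries Qbar) := rfl

theorem cdk4_iF_injective (M : ℕ) : Function.Injective (cdk4_iF M) := (cdk4_iF M).injective

theorem cdk4_iF_algebraMap (M : ℕ) (c : Qbar) :
    cdk4_iF M (algebraMap Qbar (FBar M) c) =
      algebraMap ℂ ↥(modularFunctionFieldFullC ℂ M) (iotaQ c) := by
  apply Subtype.ext
  rw [cdk4_coe_iF]
  exact cdk4_iotaL_algebraMap c

theorem cdk4_iF_jdBar (M : ℕ) [NeZero M] (d : ℕ) [NeZero d] (hd : d ∣ M) :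
    cdk4_iF M (jdBar M d hd) = pls_jdb ℂ M d hd := by
  apply Subtype.ext
  rw [cdk4_coe_iF, coe_jdBar]
  exact iotaL_gen d

theorem cdk4_iF_jBar (M : ℕ) [NeZero M] : cdk4_iF M (jBar M) = pls_jb ℂ M := by
  apply Subtype.ext
  rw [cdk4_coe_iF, jBar, coe_jdBar, iotaL_gen, pls_coe_jb, qExpand_one_apply]

/-- **(d)** compatibility of the two realisations: `D.φ ∘ iotaL = evF M`. -/
theorem cdk4_phi_iF (M : ℕ) [NeZero M]
    (D : cdc_Real ↥(modularFunctionFieldFullC ℂ M) M (pls_jb ℂ M))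
    (hgen : ∀ (d : ℕ) [NeZero d] (hd : d ∣ M),
      D.φ (pls_jdb ℂ M d hd) = algebraMap Hol Mer (jdHol d))
    (f : FBar M) : D.φ (cdk4_iF M f) = evF M f := by
  obtain ⟨a, ha⟩ := f
  have ha' := ha
  rw [modularFunctionFieldBar_eq_adjoin] at ha'
  suffices h : ∀ h' : a ∈ modularFunctionFieldBar M,
      D.φ (cdk4_iF M ⟨a, h'⟩) = evF M ⟨a, h'⟩ from h ha
  clear ha
  induction ha' using IntermediateField.adjoin_induction with
  | mem x hx =>
    intro h'
    obtain ⟨d, hne, hd, rfl⟩ := hx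
    haveI := hne
    have e : (⟨_, h'⟩ : FBar M) = jdBar M d hd := Subtype.ext rfl
    rw [e, cdk4_iF_jdBar, hgen d hd, evF_jdBar]
  | algebraMap c =>
    intro h'
    have e : (⟨_, h'⟩ : FBar M) = algebraMap Qbar (FBar M) c := Subtype.ext rfl
    rw [e, cdk4_iF_algebraMap, D.map_const, evF_algebraMap]
  | add x y hx hy ihx ihy =>
    intro h'
    have hx' : x ∈ modularFunctionFieldBar M := by
      rw [modularFunctionFieldBar_eq_adjoin]; exact hx
    have hy' : y ∈ modularFunctionFieldBar M := by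
      rw [modularFunctionFieldBar_eq_adjoin]; exact hy
    have e : (⟨x + y, h'⟩ : FBar M) = ⟨x, hx'⟩ + ⟨y, hy'⟩ := Subtype.ext rfl
    rw [e, map_add, map_add, map_add, ihx hx', ihy hy']
  | inv x hx ihx =>
    intro h'
    have hx' : x ∈ modularFunctionFieldBar M := by
      rw [modularFunctionFieldBar_eq_adjoin]; exact hx
    have e : (⟨x⁻¹, h'⟩ : FBar M) = (⟨x, hx'⟩ : FBar M)⁻¹ := Subtype.ext rfl
    rw [e, map_inv₀, map_inv₀, map_inv₀, ihx hx']
  | mul x y hx hy ihx ihy =>
    intro h'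
    have hx' : x ∈ modularFunctionFieldBar M := by
      rw [modularFunctionFieldBar_eq_adjoin]; exact hx
    have hy' : y ∈ modularFunctionFieldBar M := by
      rw [modularFunctionFieldBar_eq_adjoin]; exact hy
    have e : (⟨x * y, h'⟩ : FBar M) = ⟨x, hx'⟩ * ⟨y, hy'⟩ := Subtype.ext rfl
    rw [e, map_mul, map_mul, map_mul, ihx hx', ihy hy']

/-- **(d)**, `hcomp` form (as consumed by `injr_R3`): an element of `FC` whose `q`-expansion is
`iotaL f`, `f ∈ FBar M`, is realised by `evF M f`. -/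
theorem cdk4_compat (M : ℕ) [NeZero M]
    (D : cdc_Real ↥(modularFunctionFieldFullC ℂ M) M (pls_jb ℂ M))
    (hgen : ∀ (d : ℕ) [NeZero d] (hd : d ∣ M),
      D.φ (pls_jdb ℂ M d hd) = algebraMap Hol Mer (jdHol d))
    (f : FBar M) (y : ↥(modularFunctionFieldFullC ℂ M))
    (hy : (y : LaurentSeries ℂ) = iotaL (f : LaurentSeries Qbar)) : D.φ y = evF M f := by
  have : y = cdk4_iF M f := Subtype.ext hy
  rw [this, cdk4_phi_iF M D hgen]

end

end Fermat.Agent.S42x
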