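/-
S42 project, block B3 (dictionary over `ℂ`), leaf COMPAT (helper4, ARCH-3 (R3) item (c)),
prefix `cdk4_`.

For ANY realisation bundle `D : cdc_Real FC M jC` of `FC = modularFunctionFieldFullC ℂ M`
(`jC = pls_jb ℂ M`) which sends the generators `j(q^d)`, `d ∣ M`, to `jdHol d`, the transported
realisation `cdk4_ev M D : S23x.ratioField M →+* Mer` (along `cdcb_fullC_eq`) satisfies

* `cdk4_evCompat`  : `inj_EvCompat M (cdk4_ev M D)`   (compatibility with `q`-expansions of forms,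
  helper81's `inj_evCompat_of_generators`);
* `cdk4_ev_compat` : `(y : LS) = iotaL f → cdk4_ev M D y = evF M f`   (`hcomp` of `injr_R3`);
* `cdk4_ev_const`, `cdk4_ev_inv` (constants, `Γ₀(M)`-invariance), `cdk4_ev_apply`.
-/
import Mathlib
import Fermat.Agent.S42x.CDictCompat4
import Fermat.Agent.S42x.InjEvGen
import Fermat.Agent.S42x.CDictBridge

set_option autoImplicit false

namespace Fermat.Agent.S42x

open UpperHalfPlane ModularCurve AlgebraicCurve CongruenceSubgroup ModularForm EisensteinSeries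
open Fermat.Agent.S24x Fermat.Agent.S18x Fermat.Agent.S23x
open scoped MatrixGroups

noncomputable section

variable (M : ℕ) [NeZero M] (D : cdc_Real ↥(modularFunctionFieldFullC ℂ M) M (pls_jb ℂ M))

/-- the realisation transported to `S23x.ratioField M` -/
def cdk4_ev : ratioField M →+* Mer :=
  D.φ.comp (IntermediateField.inclusion (le_of_eq (cdcb_fullC_eq M).symm)).toRingHom

theorem cdk4_ev_apply (x : ratioField M) (hx : (x : LS) ∈ modularFunctionFieldFullC ℂ M) :
    cdk4_ev M D x = D.φ ⟨(x : LS), hx⟩ := rfl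

theorem cdk4_ev_const (c : ℂ) :
    cdk4_ev M D (algebraMap ℂ (ratioField M) c) = algebraMap ℂ Mer c := by
  unfold cdk4_ev
  rw [RingHom.comp_apply]
  have : (IntermediateField.inclusion (le_of_eq (cdcb_fullC_eq M).symm)).toRingHom
      (algebraMap ℂ (ratioField M) c) = algebraMap ℂ ↥(modularFunctionFieldFullC ℂ M) c :=
    (IntermediateField.inclusion (le_of_eq (cdcb_fullC_eq M).symm)).commutes c
  rw [this, D.map_const]

theorem cdk4_ev_inv (γ : SL(2, ℤ)) (hγ : γ ∈ Gamma0 M) (x : ratioField M) :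
    γ • cdk4_ev M D x = cdk4_ev M D x :=
  D.inv γ hγ _

/-- the value on an element given by its `q`-expansion -/
theorem cdk4_ev_of_coe (x : ratioField M) (y : ↥(modularFunctionFieldFullC ℂ M))
    (h : (x : LS) = (y : LaurentSeries ℂ)) : cdk4_ev M D x = D.φ y := by
  have hx : (x : LS) ∈ modularFunctionFieldFullC ℂ M := by rw [h]; exact y.2
  rw [cdk4_ev_apply M D x hx]
  congr 1
  exact Subtype.ext h

theorem cdk4_ev_jL (hjL : jL ∈ ratioField M) : cdk4_ev M D ⟨jL, hjL⟩ = jMer := by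
  rw [cdk4_ev_of_coe M D ⟨jL, hjL⟩ (pls_jb ℂ M) (by rw [pls_coe_jb]; exact dl_jqModC_eq_jL.symm),
    D.map_j]

theorem cdk4_ev_jNL
    (hgen : ∀ (d : ℕ) [NeZero d] (hd : d ∣ M),
      D.φ (pls_jdb ℂ M d hd) = algebraMap Hol Mer (jdHol d))
    (d : ℕ) [NeZero d] (hd : d ∣ M) (hmem : jNL d ∈ ratioField M) :
    cdk4_ev M D ⟨jNL d, hmem⟩ = algebraMap Hol Mer (jdHol d) := by
  rw [cdk4_ev_of_coe M D ⟨jNL d, hmem⟩ (pls_jdb ℂ M d hd)
    (by rw [pls_coe_jdb, dl_jqModC_eq_jL]; exact dl_jNL_eq d), hgen d hd]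

/-- **(d)** on `ratioField M`: `hcomp` of `injr_R3`. -/
theorem cdk4_ev_compat
    (hgen : ∀ (d : ℕ) [NeZero d] (hd : d ∣ M),
      D.φ (pls_jdb ℂ M d hd) = algebraMap Hol Mer (jdHol d))
    (f : FBar M) (y : ratioField M)
    (hy : (y : LS) = iotaL (f : LaurentSeries Qbar)) : cdk4_ev M D y = evF M f := by
  rw [cdk4_ev_of_coe M D y (cdk4_iF M f) (by rw [cdk4_coe_iF]; exact hy),
    cdk4_phi_iF M D hgen]

/-! ### compatible representations of the two generators -/

theorem cdk4_hasRep_jL (hjL : jL ∈ ratioField M) :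
    inj_HasRep M (cdk4_ev M D) ⟨jL, hjL⟩ := by
  have hE : IsMF M 4 (⇑E₄) := IsMF1.isMF M m08_isMF1_E4
  have hD : IsMF M 12 ModularForm.discriminant := IsMF1.isMF M m08_isMF1_discriminant
  have hE3 : IsMF M 12 ((⇑E₄) ^ 3) := m08_isMF_cast (IsMF.pow hE 3) (by norm_num)
  obtain ⟨A, hA⟩ := inj_exists_hol hE3
  obtain ⟨B, hB⟩ := inj_exists_hol hD
  have hB0 : B ≠ 0 := by
    intro h
    have h1 : (B : ℍ → ℂ) UpperHalfPlane.I = 0 := by rw [h]; rfl
    rw [hB] at h1
    exact ModularForm.discriminant_ne_zero _ h1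
  refine ⟨12, A, B, hA ▸ hE3, hB ▸ hD, hB0, ?_, ?_⟩
  · rw [hA, hB, qL_pow (IsMF.isNice hE) 3]
    show E4L ^ 3 / DeltaL * DeltaL = E4L ^ 3
    exact div_mul_cancel₀ _ DeltaL_ne_zero
  · rw [cdk4_ev_jL, jMer, ← map_mul]
    congr 1
    apply Subtype.ext
    funext z
    show jFun z * (B : ℍ → ℂ) z = (A : ℍ → ℂ) z
    rw [hA, hB]
    exact jFun_mul_discriminant z

theorem cdk4_hasRep_jNL
    (hgen : ∀ (d : ℕ) [NeZero d] (hd : d ∣ M),
      D.φ (pls_jdb ℂ M d hd) = algebraMap Hol Mer (jdHol d))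
    (hmem : jNL M ∈ ratioField M) :
    inj_HasRep M (cdk4_ev M D) ⟨jNL M, hmem⟩ := by
  have hE : IsMF M 4 (fun z => E₄ (mulN M z)) := isMF_comp_mulN M m08_isMF1_E4
  have hD : IsMF M 12 (fun z => ModularForm.discriminant (mulN M z)) :=
    isMF_comp_mulN M m08_isMF1_discriminant
  have hD0 : (fun z => ModularForm.discriminant (mulN M z)) ≠ 0 := by
    intro h
    have := congrFun h UpperHalfPlane.I
    exact ModularForm.discriminant_ne_zero _ this
  have hqD : qL (fun z => ModularForm.discriminant (mulN M z)) ≠ 0 := by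
    intro h
    exact hD0 ((qL_eq_zero_iff (IsMF.isNice hD)).mp h)
  have hE3 : IsMF M 12 ((fun z => E₄ (mulN M z)) ^ 3) :=
    m08_isMF_cast (IsMF.pow hE 3) (by norm_num)
  obtain ⟨A, hA⟩ := inj_exists_hol hE3
  obtain ⟨B, hB⟩ := inj_exists_hol hD
  have hB0 : B ≠ 0 := by
    intro h
    apply hD0
    rw [← hB, h]
    rfl
  refine ⟨12, A, B, hA ▸ hE3, hB ▸ hD, hB0, ?_, ?_⟩
  · rw [hA, hB, qL_pow (IsMF.isNice hE) 3]
    show jNL M * _ = _
    unfold jNL
    exact div_mul_cancel₀ _ hqD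
  · rw [cdk4_ev_jNL M D hgen M dvd_rfl, ← map_mul]
    congr 1
    apply Subtype.ext
    funext z
    show (jdHol M : ℍ → ℂ) z * (B : ℍ → ℂ) z = (A : ℍ → ℂ) z
    rw [hA, hB, jdHol_eq]
    have hz : dmulH M z = mulN M z := rfl
    rw [hz]
    exact jFun_mul_discriminant (mulN M z)

/-- **(c)** the transported realisation is compatible with `q`-expansions of forms. -/
theorem cdk4_evCompat
    (hgen : ∀ (d : ℕ) [NeZero d] (hd : d ∣ M),
      D.φ (pls_jdb ℂ M d hd) = algebraMap Hol Mer (jdHol d)) :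
    inj_EvCompat M (cdk4_ev M D) :=
  inj_evCompat_of_generators (cdk4_ev_const M D) (cdk4_hasRep_jL M D _)
    (cdk4_hasRep_jNL M D hgen _)

end

end Fermat.Agent.S42x
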