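/-
S42 project, block B3, leaf B3.3 CUSPUNIT (helper18, prefix `cdu18_`; twin of helper55's `cdu55_`).

For a realisation bundle `D : cdc_Real F M jF` and a holomorphic `A` of "weight 4 with character",
all of whose slashes are holomorphic, bounded at `i∞` and have a NON-ZERO limit along `i y`,
an element `f` of `F` with `φ f = (A / E₄) ^ p` is a unit at every pole place of `jF`.
-/
import Fermat.Agent.S42x.CDictDefs
import Fermat.Agent.S42x.TwEis55
import Fermat.Agent.S42x.TwEisCusp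
import Fermat.Agent.S24x.CoveringInv
import Fermat.Agent.S24x.CoveringCusp
import Fermat.Agent.S24x.CombDefs
import Fermat.Agent.S24x.LevelOneInvariant
import Fermat.Agent.S24x.LocalDiff

set_option autoImplicit false

namespace Fermat.Agent.S42x

open UpperHalfPlane AlgebraicCurve CongruenceSubgroup Fermat.Agent.S24x Polynomial Filter Topology
open scoped MatrixGroups Manifold ModularForm

noncomputable section

/-! ### Stage 1: pure valuation algebra -/

section Val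

variable {F : Type*} [Field F] [Algebra ℂ F]

theorem cdu18_aeval_mem (v : Place ℂ F) {t : F} (ht : t ∈ v.toValuationSubring) (R : ℂ[X]) :
    aeval t R ∈ v.toValuationSubring := by
  rw [aeval_eq_sum_range]
  refine Subring.sum_mem v.toValuationSubring.toSubring (fun k _ => ?_)
  rw [Algebra.smul_def]
  exact v.toValuationSubring.mul_mem _ _ (v.algebraMap_mem' _) (pow_mem ht k)

theorem cdu18_ord_aeval_eq_zero (v : Place ℂ F) {t : F} (ht : 0 < v.ord t) (R : ℂ[X])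
    (h0 : R.eval 0 ≠ 0) : v.ord (aeval t R) = 0 := by
  have ht0 : t ≠ 0 := by
    rintro rfl
    rw [v.ord_zero] at ht
    exact lt_irrefl _ ht
  have htm : t ∈ v.toValuationSubring := (ord_nonneg_iff v ht0).1 ht.le
  have hdec : aeval t R = algebraMap ℂ F (R.coeff 0) + t * aeval t R.divX := by
    conv_lhs => rw [← Polynomial.divX_mul_X_add R]
    rw [map_add, map_mul, aeval_X, aeval_C]
    ring
  have hc0 : R.coeff 0 ≠ 0 := by
    rw [Polynomial.coeff_zero_eq_eval_zero]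
    exact h0
  have ha : algebraMap ℂ F (R.coeff 0) ≠ 0 := by
    rw [Ne, map_eq_zero]
    exact hc0
  rw [hdec, ord_add_of_lt v ha, ord_algebraMap]
  by_cases hw : aeval t R.divX = 0
  · left
    rw [hw, mul_zero]
  · right
    rw [ord_algebraMap, v.ord_mul ht0 hw]
    have := ord_nonneg_of_mem v (cdu18_aeval_mem v htm R.divX)
    omega

/-- the valuation-theoretic core of CUSPUNIT. -/
theorem cdu18_val (v : Place ℂ F) (t f : F) (ht : 0 < v.ord t) (n : ℕ) (hn : 0 < n)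
    (R : ℕ → ℂ[X])
    (hroot : f ^ n + ∑ k ∈ Finset.range n, aeval t (R k) * f ^ k = 0)
    (h0 : (R 0).eval 0 ≠ 0) : v.ord f = 0 := by
  have ht0 : t ≠ 0 := by
    rintro rfl
    rw [v.ord_zero] at ht
    exact lt_irrefl _ ht
  have htm : t ∈ v.toValuationSubring := (ord_nonneg_iff v ht0).1 ht.le
  set O := v.toValuationSubring with hO
  -- `f` is integral over `O`
  have hfO : f ∈ O := by
    have hint : IsIntegral O f := by
      refine ⟨X ^ n + ∑ k ∈ Finset.range n,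
        C (⟨aeval t (R k), cdu18_aeval_mem v htm (R k)⟩ : O) * X ^ k, ?_, ?_⟩
      · apply Polynomial.monic_X_pow_add
        refine lt_of_le_of_lt (Polynomial.degree_sum_le _ _)
          ((Finset.sup_lt_iff (WithBot.bot_lt_coe n)).2 ?_)
        intro k hk
        refine lt_of_le_of_lt (Polynomial.degree_C_mul_X_pow_le _ _) ?_
        exact WithBot.coe_lt_coe.2 (Finset.mem_range.1 hk)
      · rw [eval₂_add, eval₂_X_pow, eval₂_finsetSum]
        simp only [eval₂_mul, eval₂_C, eval₂_X_pow]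
        exact hroot
    obtain ⟨y, hy⟩ := (IsIntegrallyClosed.isIntegral_iff (R := O) (K := F)).1 hint
    rw [← hy]
    exact y.2
  -- `f * w = - c₀`
  have hc0 : v.ord (aeval t (R 0)) = 0 := cdu18_ord_aeval_eq_zero v ht (R 0) h0
  have hc0ne : aeval t (R 0) ≠ 0 := by
    intro h
    have h1 := cdu18_ord_aeval_eq_zero v ht (R 0) h0
    -- ord 0 = 0 is consistent, so argue through the decomposition instead
    have hdec : aeval t (R 0) = algebraMap ℂ F ((R 0).coeff 0) + t * aeval t (R 0).divX := by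
      conv_lhs => rw [← Polynomial.divX_mul_X_add (R 0)]
      rw [map_add, map_mul, aeval_X, aeval_C]
      ring
    have hcc : (R 0).coeff 0 ≠ 0 := by
      rw [Polynomial.coeff_zero_eq_eval_zero]
      exact h0
    have ha : algebraMap ℂ F ((R 0).coeff 0) ≠ 0 := by
      rw [Ne, map_eq_zero]; exact hcc
    rw [hdec] at h
    have h2 : t * aeval t (R 0).divX = -algebraMap ℂ F ((R 0).coeff 0) := by
      linear_combination h
    have h3 := congrArg v.ord h2
    have hw : aeval t (R 0).divX ≠ 0 := by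
      intro hw
      rw [hw, mul_zero] at h2
      exact ha (neg_eq_zero.1 h2.symm)
    rw [v.ord_mul ht0 hw, ← map_neg, ord_algebraMap] at h3
    have := ord_nonneg_of_mem v (cdu18_aeval_mem v htm (R 0).divX)
    omega
  obtain ⟨m, rfl⟩ : ∃ m, n = m + 1 := ⟨n - 1, by omega⟩
  set w : F := f ^ m + ∑ k ∈ Finset.range m, aeval t (R (k + 1)) * f ^ k with hw
  have hfw : f * w = -aeval t (R 0) := by
    rw [Finset.sum_range_succ'] at hroot
    have : f * w = f ^ (m + 1) + ∑ k ∈ Finset.range m, aeval t (R (k + 1)) * f ^ (k + 1) := by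
      rw [hw, mul_add, Finset.mul_sum, pow_succ']
      congr 1
      refine Finset.sum_congr rfl (fun k _ => ?_)
      rw [pow_succ']
      ring
    rw [this]
    rw [pow_zero, mul_one] at hroot
    linear_combination hroot
  have hwO : w ∈ O := by
    rw [hw]
    refine O.add_mem _ _ (pow_mem hfO m) ?_
    refine Subring.sum_mem O.toSubring (fun k _ => ?_)
    exact O.mul_mem _ _ (cdu18_aeval_mem v htm _) (pow_mem hfO k)
  have hf0 : f ≠ 0 := by
    rintro rfl
    rw [zero_mul] at hfw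
    exact hc0ne (neg_eq_zero.1 hfw.symm)
  have hw0 : w ≠ 0 := by
    intro h
    rw [h, mul_zero] at hfw
    exact hc0ne (neg_eq_zero.1 hfw.symm)
  have h3 := congrArg v.ord hfw
  rw [v.ord_mul hf0 hw0] at h3
  have h4 : v.ord (-aeval t (R 0)) = 0 := by
    have : -aeval t (R 0) = algebraMap ℂ F (-1) * aeval t (R 0) := by
      rw [map_neg, map_one]; ring
    rw [this, v.ord_mul (by rw [Ne, map_eq_zero]; norm_num) hc0ne, ord_algebraMap, hc0]
    rfl
  rw [h4] at h3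
  have h5 := ord_nonneg_of_mem v hfO
  have h6 := ord_nonneg_of_mem v hwO
  omega

end Val

/-! ### Stage 2: the subring `T` of "`E₄`-bounded" elements of `Mer` -/

/-- abbreviation: `Hol → Mer`. -/
local notation "mk18" => algebraMap Hol Mer

theorem cdu18_bdd_E4 : IsBoundedAtImInfty (cdc_E4Hol : ℍ → ℂ) :=
  jf_isBoundedAtImInfty_of_tendsto jf_tendsto_E₄

theorem cdu18_bdd_mul {f g : ℍ → ℂ} (hf : IsBoundedAtImInfty f) (hg : IsBoundedAtImInfty g) :
    IsBoundedAtImInfty (f * g) := Filter.BoundedAtFilter.mul hf hg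

theorem cdu18_bdd_pow {f : ℍ → ℂ} (hf : IsBoundedAtImInfty f) (n : ℕ) :
    IsBoundedAtImInfty (f ^ n) := by
  induction n with
  | zero =>
    rw [pow_zero]
    exact Filter.const_boundedAtFilter _ (1 : ℂ)
  | succ n ih =>
    rw [pow_succ]
    exact cdu18_bdd_mul ih hf

theorem cdu18_bdd_add {f g : ℍ → ℂ} (hf : IsBoundedAtImInfty f) (hg : IsBoundedAtImInfty g) :
    IsBoundedAtImInfty (f + g) := Filter.BoundedAtFilter.add hf hg

theorem cdu18_bdd_neg {f : ℍ → ℂ} (hf : IsBoundedAtImInfty f) :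
    IsBoundedAtImInfty (-f) := Filter.BoundedAtFilter.neg hf

/-- elements `e` of `Mer` with `e * E₄ ^ k` holomorphic and bounded at `i∞` for some `k`. -/
def cdu18_T : Subring Mer where
  carrier := {e | ∃ (k : ℕ) (G : Hol), e * mk18 cdc_E4Hol ^ k = mk18 G ∧
    IsBoundedAtImInfty (G : ℍ → ℂ)}
  mul_mem' := by
    rintro a b ⟨k₁, G₁, h₁, hb₁⟩ ⟨k₂, G₂, h₂, hb₂⟩
    refine ⟨k₁ + k₂, G₁ * G₂, ?_, cdu18_bdd_mul hb₁ hb₂⟩
    rw [map_mul, ← h₁, ← h₂, pow_add]
    ring
  one_mem' := ⟨0, 1, by rw [pow_zero, mul_one, map_one], Filter.const_boundedAtFilter _ (1 : ℂ)⟩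
  add_mem' := by
    rintro a b ⟨k₁, G₁, h₁, hb₁⟩ ⟨k₂, G₂, h₂, hb₂⟩
    refine ⟨k₁ + k₂, G₁ * cdc_E4Hol ^ k₂ + G₂ * cdc_E4Hol ^ k₁, ?_,
      cdu18_bdd_add (cdu18_bdd_mul hb₁ (cdu18_bdd_pow cdu18_bdd_E4 k₂))
        (cdu18_bdd_mul hb₂ (cdu18_bdd_pow cdu18_bdd_E4 k₁))⟩
    rw [map_add, map_mul, map_mul, map_pow, map_pow, ← h₁, ← h₂, pow_add]
    ring
  zero_mem' := ⟨0, 0, by rw [zero_mul, map_zero], Filter.const_boundedAtFilter _ (0 : ℂ)⟩
  neg_mem' := by
    rintro a ⟨k, G, h, hb⟩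
    exact ⟨k, -G, by rw [map_neg, ← h, neg_mul], cdu18_bdd_neg hb⟩

theorem cdu18_mem_T {e : Mer} : e ∈ cdu18_T ↔ ∃ (k : ℕ) (G : Hol),
    e * mk18 cdc_E4Hol ^ k = mk18 G ∧ IsBoundedAtImInfty (G : ℍ → ℂ) := Iff.rfl

/-! ### Stage 3: invariant elements of `T` are polynomials in `j⁻¹` -/

/-- `Δ` as an element of `Hol`. -/
def cdu18_DeltaHol : Hol := ⟨ModularForm.discriminant, jf_mdiff_discriminant⟩

theorem cdu18_DeltaHol_ne_zero : cdu18_DeltaHol ≠ 0 := by
  intro h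
  have := congrArg (fun f : Hol => (f : ℍ → ℂ) UpperHalfPlane.I) h
  exact ModularForm.discriminant_ne_zero UpperHalfPlane.I this

theorem cdu18_mk_injective : Function.Injective (mk18) := IsFractionRing.injective Hol Mer

theorem cdu18_jHol_mul_Delta : jHol * cdu18_DeltaHol = cdc_E4Hol ^ 3 := by
  apply Subtype.ext
  funext z
  exact jFun_mul_discriminant z

theorem cdu18_inv_poly (e : Mer) (hinv : ∀ γ : SL(2, ℤ), γ • e = e) (k : ℕ) (G : Hol)
    (he : e * mk18 cdc_E4Hol ^ k = mk18 G) (hG : IsBoundedAtImInfty (G : ℍ → ℂ)) :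
    ∃ R : ℂ[X], e = aeval jMer⁻¹ R ∧
      ∀ l : ℂ, Tendsto (fun y : ℝ => (G : ℍ → ℂ) (twe55_iy y)) atTop (𝓝 l) → R.eval 0 = l := by
  have hΔ : ∀ z : ℍ, ModularForm.discriminant z ≠ 0 := ModularForm.discriminant_ne_zero
  -- the holomorphic function `H = G E₄^(2k) / Δ^k`
  let Hf : ℍ → ℂ := fun z => ((G : ℍ → ℂ) z * ModularForm.E₄ z ^ (2 * k)) /
    ModularForm.discriminant z ^ k
  have hHol : MDiff Hf :=
    jf_mdiff_div (jf_mdiff_mul G.2 (jf_mdiff_pow jf_mdiff_E₄ (2 * k)))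
      (jf_mdiff_pow jf_mdiff_discriminant k) (fun z => pow_ne_zero k (hΔ z))
  let H : Hol := ⟨Hf, hHol⟩
  have hHΔ : H * cdu18_DeltaHol ^ k = G * cdc_E4Hol ^ (2 * k) := by
    apply Subtype.ext
    funext z
    show Hf z * ModularForm.discriminant z ^ k = (G : ℍ → ℂ) z * ModularForm.E₄ z ^ (2 * k)
    simp only [Hf]
    rw [div_mul_cancel₀ _ (pow_ne_zero k (hΔ z))]
  have hΔm : mk18 cdu18_DeltaHol ^ k ≠ 0 := by
    apply pow_ne_zero
    rw [Ne, map_eq_zero_iff _ cdu18_mk_injective]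
    exact cdu18_DeltaHol_ne_zero
  -- Claim 1
  have hjd : jMer * mk18 cdu18_DeltaHol = mk18 cdc_E4Hol ^ 3 := by
    rw [jMer, ← map_mul, cdu18_jHol_mul_Delta, map_pow]
  have h1 : e * jMer ^ k = mk18 H := by
    apply mul_right_cancel₀ hΔm
    calc e * jMer ^ k * mk18 cdu18_DeltaHol ^ k
        = e * (jMer * mk18 cdu18_DeltaHol) ^ k := by rw [mul_pow]; ring
      _ = e * mk18 cdc_E4Hol ^ (3 * k) := by rw [hjd, ← pow_mul]
      _ = (e * mk18 cdc_E4Hol ^ k) * mk18 cdc_E4Hol ^ (2 * k) := by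
          rw [mul_assoc, ← pow_add]
          congr 2
          ring
      _ = mk18 G * mk18 cdc_E4Hol ^ (2 * k) := by rw [he]
      _ = mk18 (G * cdc_E4Hol ^ (2 * k)) := by rw [map_mul, map_pow]
      _ = mk18 (H * cdu18_DeltaHol ^ k) := by rw [hHΔ]
      _ = mk18 H * mk18 cdu18_DeltaHol ^ k := by rw [map_mul, map_pow]
  -- Claim 2: invariance of `H`
  have hHinv : ∀ (γ : SL(2, ℤ)) (z : ℍ), Hf (γ • z) = Hf z := by
    intro γ z
    have h2 : γ⁻¹ • (e * jMer ^ k) = e * jMer ^ k := by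
      rw [smul_mul', smul_pow', cov_jMer_smul, hinv]
    rw [h1, smul_algebraMap_Mer] at h2
    have h3 := congrArg (fun f : Hol => (f : ℍ → ℂ) z) (cdu18_mk_injective h2)
    simp only [smul_Hol_apply, inv_inv] at h3
    exact h3
  -- Claim 3: boundedness
  have hbd : IsBoundedAtImInfty (fun z => ModularForm.discriminant z ^ k * Hf z) := by
    have e1 : (fun z => ModularForm.discriminant z ^ k * Hf z) =
        (G : ℍ → ℂ) * (cdc_E4Hol : ℍ → ℂ) ^ (2 * k) := by
      funext z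
      simp only [Hf, Pi.mul_apply, Pi.pow_apply, cdc_E4Hol_apply]
      rw [mul_div_cancel₀ _ (pow_ne_zero k (hΔ z))]
    rw [e1]
    exact cdu18_bdd_mul hG (cdu18_bdd_pow cdu18_bdd_E4 _)
  obtain ⟨P, hPdeg, hP⟩ := exists_polynomial_jFun_of_discriminant_pow k Hf hHol hHinv hbd
  -- Claim 4
  have h4 : mk18 H = aeval jMer P := by
    rw [cov_aeval_jMer]
    congr 1
    apply Subtype.ext
    funext z
    rw [cov_aeval_jHol_apply]
    exact hP z
  -- Claim 5
  have hj := cov_jMer_ne_zero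
  let _ : Invertible jMer := invertibleOfNonzero hj
  have h5 : aeval jMer⁻¹ (reflect k P) * jMer ^ k = aeval jMer P := by
    have := eval₂_reflect_mul_pow (algebraMap ℂ Mer) jMer k P hPdeg
    rw [invOf_eq_inv] at this
    exact this
  refine ⟨reflect k P, ?_, ?_⟩
  · apply mul_right_cancel₀ (pow_ne_zero k hj)
    rw [h1, h4, h5]
  · intro l hl
    -- limits along `i y`
    have hE4 : Tendsto (fun y : ℝ => ModularForm.E₄ (twe55_iy y)) atTop (𝓝 1) :=
      jf_tendsto_E₄.comp twk_tendsto_iy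
    have hquot : Tendsto (fun y : ℝ => (G : ℍ → ℂ) (twe55_iy y) / ModularForm.E₄ (twe55_iy y) ^ k)
        atTop (𝓝 l) := by
      have := hl.div (hE4.pow k) (by rw [one_pow]; exact one_ne_zero)
      rwa [one_pow, div_one] at this
    have hjinv : Tendsto (fun y : ℝ => (jFun (twe55_iy y))⁻¹) atTop (𝓝 0) := by
      obtain ⟨A, hA⟩ := cov_jFun_norm_ge
      rw [tendsto_zero_iff_norm_tendsto_zero]
      refine squeeze_zero' (Filter.Eventually.of_forall fun y => norm_nonneg _) ?_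
        tendsto_inv_atTop_zero
      filter_upwards [Filter.eventually_ge_atTop (max A 1)] with y hy
      have hy1 : (1 : ℝ) ≤ y := (le_max_right A 1).trans hy
      have hyA : A ≤ y := (le_max_left A 1).trans hy
      have him : (twe55_iy y).im = y := by
        show max y 1 = y
        exact max_eq_left hy1
      have h6 := hA (twe55_iy y) (by rw [him]; exact hyA)
      rw [him] at h6
      rw [norm_inv]
      exact inv_anti₀ (by linarith) h6
    have hev : Tendsto (fun y : ℝ => (reflect k P).eval ((jFun (twe55_iy y))⁻¹)) atTop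
        (𝓝 ((reflect k P).eval 0)) :=
      ((reflect k P).continuous.tendsto 0).comp hjinv
    have heq : ∀ᶠ y : ℝ in atTop, (reflect k P).eval ((jFun (twe55_iy y))⁻¹) =
        (G : ℍ → ℂ) (twe55_iy y) / ModularForm.E₄ (twe55_iy y) ^ k := by
      have hne : ∀ᶠ y : ℝ in atTop, ModularForm.E₄ (twe55_iy y) ≠ 0 :=
        hE4.eventually_ne one_ne_zero
      filter_upwards [hne] with y hy
      set z := twe55_iy y with hz
      have hjz : jFun z ≠ 0 := by
        rw [jFun]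
        exact div_ne_zero (pow_ne_zero 3 hy) (hΔ z)
      let _ : Invertible (jFun z) := invertibleOfNonzero hjz
      have h7 := eval₂_reflect_mul_pow (RingHom.id ℂ) (jFun z) k P hPdeg
      rw [invOf_eq_inv, eval₂_id, eval₂_id, ← hP z] at h7
      set ev : ℂ := (reflect k P).eval ((jFun z)⁻¹) with hevdef
      have h8 : Hf z = (G : ℍ → ℂ) z * ModularForm.E₄ z ^ (2 * k) /
          ModularForm.discriminant z ^ k := rfl
      have hΔk := pow_ne_zero k (hΔ z)
      rw [h8, jFun, div_pow, ← mul_div_assoc] at h7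
      have h9 : ev * (ModularForm.E₄ z ^ 3) ^ k = (G : ℍ → ℂ) z * ModularForm.E₄ z ^ (2 * k) :=
        (div_left_inj' hΔk).1 h7
      rw [eq_div_iff (pow_ne_zero k hy)]
      apply mul_right_cancel₀ (pow_ne_zero (2 * k) hy)
      rw [← h9, ← pow_mul, mul_assoc, ← pow_add]
      congr 2
      ring
    exact tendsto_nhds_unique (hev.congr' heq) hquot

/-! ### Stage 4: the conjugates of `φ f` and the slash formula -/

/-- the automorphy factor `τ ↦ denom g τ` as an element of `Hol`. -/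
def cdu18_JHol (g : SL(2, ℤ)) : Hol :=
  ⟨fun τ => denom g τ, mdifferentiable_denom _⟩

theorem cdu18_JHol_apply (g : SL(2, ℤ)) (τ : ℍ) : (cdu18_JHol g : ℍ → ℂ) τ = denom g τ := rfl

theorem cdu18_JHol_ne_zero (g : SL(2, ℤ)) : cdu18_JHol g ≠ 0 := by
  intro h
  have := congrArg (fun f : Hol => (f : ℍ → ℂ) UpperHalfPlane.I) h
  exact jf_denom_SL_ne_zero g UpperHalfPlane.I this

theorem cdu18_smul_E4 (g : SL(2, ℤ)) :
    g • cdc_E4Hol = cdu18_JHol g⁻¹ ^ 4 * cdc_E4Hol := by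
  apply Subtype.ext
  funext z
  rw [smul_Hol_apply]
  show ModularForm.E₄ (g⁻¹ • z) = (cdu18_JHol g⁻¹ : ℍ → ℂ) z ^ 4 * ModularForm.E₄ z
  rw [cdu18_JHol_apply]
  have h := jf_levelOne_smul ModularForm.E₄ g⁻¹ z
  rw [h]
  norm_cast

theorem cdu18_smul_A (g : SL(2, ℤ)) (A A' : Hol)
    (hA' : (A' : ℍ → ℂ) = (A : ℍ → ℂ) ∣[(4 : ℤ)] g⁻¹) :
    g • A = cdu18_JHol g⁻¹ ^ 4 * A' := by
  apply Subtype.ext
  funext z
  rw [smul_Hol_apply]
  show (A : ℍ → ℂ) (g⁻¹ • z) = (cdu18_JHol g⁻¹ : ℍ → ℂ) z ^ 4 * (A' : ℍ → ℂ) z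
  rw [cdu18_JHol_apply, hA', jf_slash_apply_SL]
  have hd := jf_denom_SL_ne_zero g⁻¹ z
  have h4 : ∀ d : ℂ, d ≠ 0 → d ^ 4 * d ^ (-4 : ℤ) = 1 := by
    intro d hd
    rw [zpow_neg]
    exact mul_inv_cancel₀ (pow_ne_zero 4 hd)
  rw [mul_comm ((A : ℍ → ℂ) (g⁻¹ • z)), ← mul_assoc, h4 _ hd, one_mul]

/-- the slash formula in `Mer`. -/
theorem cdu18_smul_eq (g : SL(2, ℤ)) (A A' : Hol)
    (hA' : (A' : ℍ → ℂ) = (A : ℍ → ℂ) ∣[(4 : ℤ)] g⁻¹) (p : ℕ) (e : Mer)
    (he : e * mk18 cdc_E4Hol ^ p = mk18 A ^ p) :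
    g • e * mk18 cdc_E4Hol ^ p = mk18 A' ^ p := by
  have h1 := congrArg (fun y : Mer => g • y) he
  simp only [smul_mul', smul_pow', smul_algebraMap_Mer] at h1
  rw [cdu18_smul_E4, cdu18_smul_A g A A' hA', map_mul, map_mul, mul_pow, mul_pow] at h1
  have hJ : mk18 (cdu18_JHol g⁻¹ ^ 4) ^ p ≠ 0 := by
    apply pow_ne_zero
    rw [Ne, map_eq_zero_iff _ cdu18_mk_injective]
    exact pow_ne_zero 4 (cdu18_JHol_ne_zero _)
  apply mul_left_cancel₀ hJ
  rw [← h1]
  ring

section Main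

variable {F : Type*} [Field F] [Algebra ℂ F] {M : ℕ} [NeZero M] {jF : F}

/-- the family of conjugates. -/
def cdu18_a (D : cdc_Real F M jF) (f : F) (x : Q M) : Mer :=
  (Quotient.out x : SL(2, ℤ)) • D.φ f

theorem cdu18_a_eq_of_mk (D : cdc_Real F M jF) (f : F) (g : SL(2, ℤ)) (x : Q M)
    (hx : (g : Q M) = x) : cdu18_a D f x = g • D.φ f := by
  subst hx
  obtain ⟨h, hh⟩ := QuotientGroup.mk_out_eq_mul (Gamma0 M) g
  have : (Quotient.out (g : Q M) : SL(2, ℤ)) = g * h := hh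
  rw [cdu18_a, this, mul_smul, D.inv h h.2]

theorem cdu18_a_smul (D : cdc_Real F M jF) (f : F) (γ : SL(2, ℤ)) (x : Q M) :
    γ • cdu18_a D f x = cdu18_a D f (γ • x) := by
  rw [cdu18_a, ← mul_smul]
  symm
  apply cdu18_a_eq_of_mk
  conv_rhs => rw [← QuotientGroup.out_eq' x]
  rfl

theorem cdu18_a_one (D : cdc_Real F M jF) (f : F) :
    cdu18_a D f ((1 : SL(2, ℤ)) : Q M) = D.φ f := by
  rw [cdu18_a_eq_of_mk D f 1 _ rfl, one_smul]

/-- `φ` as a `ℂ`-algebra homomorphism. -/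
def cdu18_φA (D : cdc_Real F M jF) : F →ₐ[ℂ] Mer :=
  { D.φ with commutes' := D.map_const }

theorem cdu18_φA_apply (D : cdc_Real F M jF) (f : F) : cdu18_φA D f = D.φ f := rfl

theorem cdu18_φ_aeval (D : cdc_Real F M jF) (R : ℂ[X]) :
    D.φ (aeval jF⁻¹ R) = aeval jMer⁻¹ R := by
  rw [← cdu18_φA_apply, ← aeval_algHom_apply, cdu18_φA_apply, map_inv₀, D.map_j]

/-- **B3.3 CUSPUNIT**: `f` is a unit at every pole place of `jF`. -/
theorem cdu18_ord_eq_zero (D : cdc_Real F M jF) (hcoord : IsCoordinate ℂ F jF) (A : Hol)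
    (p : ℕ) (hp : 0 < p)
    (hhol : ∀ g : SL(2, ℤ), MDiff ((A : ℍ → ℂ) ∣[(4 : ℤ)] g))
    (hbdd : ∀ g : SL(2, ℤ), IsBoundedAtImInfty ((A : ℍ → ℂ) ∣[(4 : ℤ)] g))
    (hlim : ∀ g : SL(2, ℤ), ∃ l : ℂ, l ≠ 0 ∧
      Tendsto (fun y : ℝ => ((A : ℍ → ℂ) ∣[(4 : ℤ)] g) (twe55_iy y)) atTop (𝓝 l))
    (f : F) (hf : D.φ f * algebraMap Hol Mer cdc_E4Hol ^ p = algebraMap Hol Mer A ^ p)
    (v : Place ℂ F) (hv : v ∈ polePlaces ℂ F jF) : v.ord f = 0 := by
  classical
  -- the conjugates and their numerators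
  set a : Q M → Mer := cdu18_a D f with ha
  let A' : Q M → Hol := fun x => ⟨(A : ℍ → ℂ) ∣[(4 : ℤ)] (Quotient.out x : SL(2, ℤ))⁻¹, hhol _⟩
  have hax : ∀ x, a x * mk18 cdc_E4Hol ^ p = mk18 (A' x) ^ p := fun x =>
    cdu18_smul_eq (Quotient.out x) A (A' x) rfl p _ hf
  have hbA' : ∀ x, IsBoundedAtImInfty ((A' x : Hol) : ℍ → ℂ) := fun x => hbdd _
  have haT : ∀ x, a x ∈ cdu18_T := fun x =>
    ⟨p, A' x ^ p, by rw [hax x, map_pow], cdu18_bdd_pow (hbA' x) p⟩
  set PP : Mer[X] := ∏ x, (X - C (a x)) with hPP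
  set n : ℕ := Fintype.card (Q M) with hn
  have hn0 : 0 < n := Fintype.card_pos_iff.2 ⟨((1 : SL(2, ℤ)) : Q M)⟩
  have hPPm : PP.Monic := monic_prod_of_monic _ _ (fun x _ => monic_X_sub_C (a x))
  have hPPd : PP.natDegree = n := by
    rw [hPP, natDegree_finsetProd_X_sub_C_eq_card, Finset.card_univ]
  -- invariance of the coefficients
  have hcoefInv : ∀ (k : ℕ) (γ : SL(2, ℤ)), γ • PP.coeff k = PP.coeff k := by
    intro k γ
    have h1 : PP.map (MulSemiringAction.toRingHom SL(2, ℤ) Mer γ) = PP := by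
      rw [hPP, Polynomial.map_prod]
      have h2 : ∀ x, ((X - C (a x) : Mer[X])).map (MulSemiringAction.toRingHom SL(2, ℤ) Mer γ) =
          X - C (a (γ • x)) := by
        intro x
        rw [Polynomial.map_sub, map_X, map_C, MulSemiringAction.toRingHom_apply, ha,
          cdu18_a_smul]
      simp only [h2]
      exact Fintype.prod_equiv (MulAction.toPerm γ) _ _ (fun x => rfl)
    have h3 := congrArg (fun q : Mer[X] => q.coeff k) h1
    simp only [coeff_map, MulSemiringAction.toRingHom_apply] at h3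
    exact h3
  -- the coefficients lie in `T`
  have hcoefT : ∀ k : ℕ, PP.coeff k ∈ cdu18_T := by
    intro k
    have hprod : PP = (∏ x, (X - C (⟨a x, haT x⟩ : cdu18_T)) : cdu18_T[X]).map cdu18_T.subtype := by
      rw [hPP, Polynomial.map_prod]
      refine Finset.prod_congr rfl (fun x _ => ?_)
      rw [Polynomial.map_sub, map_X, map_C]
      rfl
    rw [hprod, coeff_map]
    exact ((∏ x, (X - C (⟨a x, haT x⟩ : cdu18_T)) : cdu18_T[X]).coeff k).2
  -- the constant coefficient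
  have hc0 : ∃ R : ℂ[X], PP.coeff 0 = aeval jMer⁻¹ R ∧ R.eval 0 ≠ 0 := by
    have h1 : PP.coeff 0 = ∏ x, (-a x) := by
      rw [coeff_zero_eq_eval_zero, hPP, eval_prod]
      refine Finset.prod_congr rfl (fun x _ => ?_)
      rw [eval_sub, eval_X, eval_C, zero_sub]
    have h2 : PP.coeff 0 * mk18 cdc_E4Hol ^ (p * n) = mk18 (∏ x, (-(A' x ^ p))) := by
      rw [h1, map_prod, hn, ← Finset.card_univ, pow_mul, ← Finset.prod_const,
        ← Finset.prod_mul_distrib]
      refine Finset.prod_congr rfl (fun x _ => ?_)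
      rw [map_neg, map_pow, ← hax x, neg_mul]
    have hfun : ((∏ x, (-(A' x ^ p)) : Hol) : ℍ → ℂ) =
        fun z => ∏ x, (-(((A' x : Hol) : ℍ → ℂ) z ^ p)) := by
      funext z
      have : ((∏ x, (-(A' x ^ p)) : Hol) : ℍ → ℂ) = ∏ x, ((-(A' x ^ p) : Hol) : ℍ → ℂ) :=
        map_prod Hol.subtype _ _
      rw [this, Finset.prod_apply]
      rfl
    have hbd : IsBoundedAtImInfty ((∏ x, (-(A' x ^ p)) : Hol) : ℍ → ℂ) := by
      have : ((∏ x, (-(A' x ^ p)) : Hol) : ℍ → ℂ) = ∏ x, ((-(A' x ^ p) : Hol) : ℍ → ℂ) :=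
        map_prod Hol.subtype _ _
      rw [this]
      exact Filter.BoundedAtFilter.prod _ (fun x _ => cdu18_bdd_neg (cdu18_bdd_pow (hbA' x) p))
    obtain ⟨R, hR, hRl⟩ := cdu18_inv_poly _ (hcoefInv 0) _ _ h2 hbd
    refine ⟨R, hR, ?_⟩
    choose l hl0 hl using fun x : Q M => hlim (Quotient.out x : SL(2, ℤ))⁻¹
    have hlimprod : Tendsto (fun y : ℝ => ((∏ x, (-(A' x ^ p)) : Hol) : ℍ → ℂ) (twe55_iy y)) atTop
        (𝓝 (∏ x, (-(l x ^ p)))) := by
      rw [hfun]
      exact tendsto_finsetProd _ (fun x _ => ((hl x).pow p).neg)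
    rw [hRl _ hlimprod]
    exact Finset.prod_ne_zero_iff.2 (fun x _ => neg_ne_zero.2 (pow_ne_zero p (hl0 x)))
  -- all coefficients
  have hcoef : ∀ k : ℕ, ∃ R : ℂ[X], PP.coeff k = aeval jMer⁻¹ R ∧ (k = 0 → R.eval 0 ≠ 0) := by
    intro k
    rcases Nat.eq_zero_or_pos k with rfl | hk
    · obtain ⟨R, hR, hR0⟩ := hc0
      exact ⟨R, hR, fun _ => hR0⟩
    · obtain ⟨k', G, hG, hGb⟩ := hcoefT k
      obtain ⟨R, hR, -⟩ := cdu18_inv_poly _ (hcoefInv k) k' G hG hGb
      exact ⟨R, hR, fun h => absurd h hk.ne'⟩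
  choose R hR hR0 using hcoef
  -- `φ f` is a root of `PP`
  have hroot : PP.eval (D.φ f) = 0 := by
    rw [hPP, eval_prod]
    refine Finset.prod_eq_zero (Finset.mem_univ (((1 : SL(2, ℤ)) : Q M))) ?_
    rw [eval_sub, eval_X, eval_C, ha, cdu18_a_one, sub_self]
  -- pull back to `F`
  have hF : f ^ n + ∑ k ∈ Finset.range n, aeval jF⁻¹ (R k) * f ^ k = 0 := by
    apply cdc_φ_injective D
    rw [map_zero, map_add, map_pow, map_sum, ← hroot, eval_eq_sum_range, hPPd,
      Finset.sum_range_succ, ← hPPd, hPPm.coeff_natDegree, one_mul, add_comm]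
    congr 1
    refine Finset.sum_congr rfl (fun k _ => ?_)
    rw [map_mul, map_pow, cdu18_φ_aeval, ← hR k]
  have ht : 0 < v.ord jF⁻¹ := by
    rw [v.ord_inv]
    have := (mem_polePlaces (K := ℂ)).1 hv
    omega
  exact cdu18_val v jF⁻¹ f ht n hn0 R hF (hR0 0 rfl)

end Main

end

end Fermat.Agent.S42x
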