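/-
S42 project, block B3, leaf B3.3 CUSPUNIT (insurance twin, helper40, prefix `cdu40_`): the purely
algebraic pieces.

* `cdu40_val_eq_one` : `w` a valuation on a field `F ⊇ K`, trivial on `K`, `w t < 1`, `f` a root of a
  monic `Q ∈ K[t][X]` whose constant coefficient `Q₀(t)` has `Q₀(0) ≠ 0`  ⇒  `w f = 1`.
* `cdu40_ord_eq_zero_of_root` : the same for a place of a function field.
* `cdu40_exists_monic_lift` : a monic polynomial whose lower coefficients are given images can be
  lifted to a monic polynomial with those prescribed coefficients.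
-/
import Fermat.Agent.S24x.LocalDiff

set_option autoImplicit false

namespace Fermat.Agent.S42x

open Polynomial AlgebraicCurve Fermat.Agent.S24x

/-- a polynomial expression in an element of valuation `≤ 1` has valuation `≤ 1`. -/
theorem cdu40_val_aeval_le_one {K F Γ₀ : Type*} [Field K] [Field F] [Algebra K F]
    [LinearOrderedCommGroupWithZero Γ₀] (w : Valuation F Γ₀)
    (hK : ∀ c : K, w (algebraMap K F c) ≤ 1) {t : F} (ht : w t ≤ 1) (r : K[X]) :
    w (aeval t r) ≤ 1 := by
  induction r using Polynomial.induction_on' with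
  | add p q hp hq =>
    rw [map_add]
    exact Valuation.map_add_le w hp hq
  | monomial n a =>
    rw [aeval_monomial, map_mul, map_pow]
    calc w (algebraMap K F a) * w t ^ n ≤ 1 * 1 ^ n :=
          mul_le_mul' (hK a) (pow_le_pow_left' ht n)
      _ = 1 := by rw [one_pow, mul_one]

/-- evaluation of a polynomial with coefficients of valuation `≤ 1` at a point of valuation `≤ 1`. -/
theorem cdu40_val_eval_le_one {F Γ₀ : Type*} [Field F]
    [LinearOrderedCommGroupWithZero Γ₀] (w : Valuation F Γ₀) (P : F[X])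
    (hP : ∀ i, w (P.coeff i) ≤ 1) {f : F} (hf : w f ≤ 1) : w (P.eval f) ≤ 1 := by
  rw [Polynomial.eval_eq_sum_range]
  refine Valuation.map_sum_le w (fun i _ => ?_)
  rw [map_mul, map_pow]
  calc w (P.coeff i) * w f ^ i ≤ 1 * 1 ^ i := mul_le_mul' (hP i) (pow_le_pow_left' hf i)
    _ = 1 := by rw [one_pow, mul_one]

/-- **the valuation step of CUSPUNIT.** -/
theorem cdu40_val_eq_one {K F Γ₀ : Type*} [Field K] [Field F] [Algebra K F]
    [LinearOrderedCommGroupWithZero Γ₀] (w : Valuation F Γ₀)
    (hK : ∀ c : K, c ≠ 0 → w (algebraMap K F c) = 1) (t f : F) (ht : w t < 1)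
    (Q : K[X][X]) (hQm : Q.Monic)
    (hroot : (Q.map ((aeval t : K[X] →ₐ[K] F) : K[X] →+* F)).eval f = 0)
    (h0 : (Q.coeff 0).eval 0 ≠ 0) : w f = 1 := by
  set g : K[X] →+* F := ((aeval t : K[X] →ₐ[K] F) : K[X] →+* F) with hg
  have hK' : ∀ c : K, w (algebraMap K F c) ≤ 1 := by
    intro c
    rcases eq_or_ne c 0 with rfl | hc
    · rw [map_zero, map_zero]; exact zero_le_one
    · exact (hK c hc).le
  have hgle : ∀ r : K[X], w (g r) ≤ 1 := fun r => cdu40_val_aeval_le_one w hK' ht.le r
  -- `f` is integral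
  have hfle : w f ≤ 1 := by
    let g' : K[X] →+* w.integer := g.codRestrict w.integer (fun a => hgle a)
    have hI : IsIntegral w.integer f := by
      refine ⟨Q.map g', hQm.map _, ?_⟩
      rw [Polynomial.eval₂_map]
      rw [Polynomial.eval_map] at hroot
      exact hroot
    exact (Valuation.integer.integers w).mem_of_integral hI
  by_contra hne
  have hflt : w f < 1 := lt_of_le_of_ne hfle hne
  -- split off the constant terms
  set Q' : F[X] := Q.map g with hQ'
  set R₀ : K[X] := Q.coeff 0 with hR₀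
  have h1 : Q'.divX.eval f * f + g R₀ = 0 := by
    have := congrArg (Polynomial.eval f) (Polynomial.divX_mul_X_add Q')
    rw [eval_add, eval_mul, eval_X, eval_C, hroot, hQ', coeff_map] at this
    exact this
  have h2 : g R₀ = g R₀.divX * t + algebraMap K F (R₀.coeff 0) := by
    conv_lhs => rw [← Polynomial.divX_mul_X_add R₀]
    rw [map_add, map_mul, hg, RingHom.coe_coe, aeval_X, aeval_C]
  have hs : w (Q'.divX.eval f) ≤ 1 := by
    refine cdu40_val_eval_le_one w _ (fun i => ?_) hfle
    rw [coeff_divX, hQ', coeff_map]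
    exact hgle _
  have hc0 : R₀.coeff 0 ≠ 0 := by
    rw [Polynomial.coeff_zero_eq_eval_zero]
    exact h0
  have ha : w (algebraMap K F (R₀.coeff 0)) = 1 := hK _ hc0
  have hb : w (Q'.divX.eval f * f + g R₀.divX * t) < 1 := by
    refine Valuation.map_add_lt w ?_ ?_
    · rw [map_mul]
      calc w (Q'.divX.eval f) * w f ≤ 1 * w f := mul_le_mul' hs le_rfl
        _ = w f := one_mul _
        _ < 1 := hflt
    · rw [map_mul]
      calc w (g R₀.divX) * w t ≤ 1 * w t := mul_le_mul' (hgle _) le_rfl
        _ = w t := one_mul _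
        _ < 1 := ht
  have hsum : algebraMap K F (R₀.coeff 0) + (Q'.divX.eval f * f + g R₀.divX * t) = 0 := by
    rw [h2] at h1
    linear_combination h1
  have hcontra := Valuation.map_add_eq_of_lt_left w (x := algebraMap K F (R₀.coeff 0))
    (y := Q'.divX.eval f * f + g R₀.divX * t) (by rw [ha]; exact hb)
  rw [hsum, map_zero, ha] at hcontra
  exact zero_ne_one hcontra

/-- **the valuation step of CUSPUNIT for places.** -/
theorem cdu40_ord_eq_zero_of_root {K F : Type*} [Field K] [Field F] [Algebra K F]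
    (v : Place K F) (t f : F) (ht : 0 < v.ord t) (Q : K[X][X]) (hQm : Q.Monic)
    (hroot : (Q.map ((aeval t : K[X] →ₐ[K] F) : K[X] →+* F)).eval f = 0)
    (h0 : (Q.coeff 0).eval 0 ≠ 0) : v.ord f = 0 := by
  have ht0 : t ≠ 0 := by
    intro h
    rw [h, Place.ord_zero] at ht
    exact lt_irrefl _ ht
  have hK : ∀ c : K, c ≠ 0 → v.adicValuation (algebraMap K F c) = 1 := by
    intro c hc
    have hne : algebraMap K F c ≠ 0 := by
      rw [Ne, map_eq_zero]
      exact hc
    rw [adicValuation_eq_exp v hne, ord_algebraMap, neg_zero, WithZero.exp_zero]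
  have htlt : v.adicValuation t < 1 := by
    rw [adicValuation_eq_exp v ht0, ← WithZero.exp_zero, WithZero.exp_lt_exp]
    omega
  have h := cdu40_val_eq_one v.adicValuation hK t f htlt Q hQm hroot h0
  rw [Place.ord, h, WithZero.log_one, neg_zero]

/-- lifting a monic polynomial with prescribed lifts of its lower coefficients. -/
theorem cdu40_exists_monic_lift {A B : Type*} [CommRing A] [CommRing B] [Nontrivial A]
    (φ : A →+* B) (P : B[X]) (hP : P.Monic) (R : ℕ → A)
    (hR : ∀ k, k < P.natDegree → P.coeff k = φ (R k)) (hn : 0 < P.natDegree) :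
    ∃ Q : A[X], Q.Monic ∧ Q.map φ = P ∧ Q.coeff 0 = R 0 := by
  set n := P.natDegree with hn'
  refine ⟨X ^ n + ∑ i : Fin n, C (R i) * X ^ (i : ℕ), ?_, ?_, ?_⟩
  · exact Polynomial.monic_X_pow_add (Polynomial.degree_sum_fin_lt _)
  · rw [Polynomial.map_add, Polynomial.map_pow, map_X, Polynomial.map_sum]
    conv_rhs => rw [hP.as_sum, ← hn']
    congr 1
    rw [← Fin.sum_univ_eq_sum_range (fun i => C (P.coeff i) * X ^ i) n]
    refine Finset.sum_congr rfl (fun i _ => ?_)
    rw [Polynomial.map_mul, Polynomial.map_pow, map_X, map_C, hR i i.2]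
  · rw [coeff_add, coeff_X_pow, if_neg hn.ne, zero_add, finsetSum_coeff]
    rw [Finset.sum_eq_single (⟨0, hn⟩ : Fin n)]
    · rw [coeff_C_mul, coeff_X_pow]
      simp
    · intro i _ hi
      rw [coeff_C_mul, coeff_X_pow, if_neg, mul_zero]
      intro h
      apply hi
      exact Fin.ext h.symm
    · intro h
      exact absurd (Finset.mem_univ _) h

end Fermat.Agent.S42x
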