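/-
S42 project, block B3, leaf B3.3 CUSPUNIT (insurance twin of `cdu55_`; helper40, prefix `cdu40_`).

`cdu40_ord_eq_zero` : let `D : cdc_Real F M jF` be a realisation bundle, `A : Hol` such that every
slash `A ∣[4] g` (`g : SL(2,ℤ)`) is holomorphic, bounded at `i∞` and tends to a NON-ZERO limit along
the imaginary axis, and let `f : F` with `D.φ f * E₄^p = A^p` in `Mer`.  Then `f` is a unit at every
pole place of `jF`.

Proof (helper2/helper55, ARCH-2): the conjugates `a x = (out x) • D.φ f`, `x ∈ SL(2,ℤ)/Γ₀(M)`, satisfy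
`a x * E₄^p = (A ∣[4] (out x)⁻¹)^p`.  The coefficients of `∏ (X - a x)` are `SL(2,ℤ)`-invariant and of the
shape `G / E₄^k` with `G` holomorphic and bounded at `i∞`, hence polynomials in `1/j` (helper30's
`cui30_invariant_eq_aeval_inv`); the constant one has non-zero value at `1/j = 0`.  The valuation
argument is `cdu40_ord_eq_zero_of_root`.
-/
import Fermat.Agent.S42x.CuspUnitVal40
import Fermat.Agent.S42x.CDictCovFin
import Fermat.Agent.S42x.CuspUnitInv30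

set_option autoImplicit false

namespace Fermat.Agent.S42x

open UpperHalfPlane Polynomial CongruenceSubgroup AlgebraicCurve Fermat.Agent.S24x Filter Topology
open ModularForm
open scoped MatrixGroups Manifold

noncomputable section

/-! ## The slash identity -/

/-- `A ∣[4] g` as an element of `Hol`. -/
def cdu40_slashHol (A : Hol) (g : SL(2, ℤ)) (h : MDiff ((A : ℍ → ℂ) ∣[(4 : ℤ)] g)) : Hol :=
  ⟨(A : ℍ → ℂ) ∣[(4 : ℤ)] g, h⟩

theorem cdu40_slashHol_coe (A : Hol) (g : SL(2, ℤ)) (h : MDiff ((A : ℍ → ℂ) ∣[(4 : ℤ)] g)) :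
    ((cdu40_slashHol A g h : Hol) : ℍ → ℂ) = (A : ℍ → ℂ) ∣[(4 : ℤ)] g := rfl

theorem cdu40_slash_cross (A : Hol) (g : SL(2, ℤ)) (h : MDiff ((A : ℍ → ℂ) ∣[(4 : ℤ)] g)) :
    (g⁻¹ • A) * cdc_E4Hol = cdu40_slashHol A g h * (g⁻¹ • cdc_E4Hol) := by
  apply Subtype.ext
  funext τ
  show ((g⁻¹ • A : Hol) : ℍ → ℂ) τ * (cdc_E4Hol : ℍ → ℂ) τ =
    ((A : ℍ → ℂ) ∣[(4 : ℤ)] g) τ * ((g⁻¹ • cdc_E4Hol : Hol) : ℍ → ℂ) τ
  rw [smul_Hol_apply, smul_Hol_apply, inv_inv, cdc_E4Hol_apply, cdc_E4Hol_apply,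
    jf_slash_apply_SL, jf_levelOne_smul E₄ g τ]
  have hd := jf_denom_SL_ne_zero g τ
  rw [zpow_neg]
  field_simp

theorem cdu40_mk_ne_zero {h : Hol} (hh : h ≠ 0) : algebraMap Hol Mer h ≠ 0 := by
  rw [Ne, map_eq_zero_iff _ (IsFractionRing.injective Hol Mer)]
  exact hh

theorem cdu40_E4Hol_ne_zero : cdc_E4Hol ≠ 0 := cui30_E4Hol_ne_zero

/-- if `u * E₄^p = A^p` then `(g⁻¹ • u) * E₄^p = (A ∣[4] g)^p`. -/
theorem cdu40_smul_root (A : Hol) (g : SL(2, ℤ)) (h : MDiff ((A : ℍ → ℂ) ∣[(4 : ℤ)] g)) (p : ℕ)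
    (u : Mer) (hu : u * algebraMap Hol Mer cdc_E4Hol ^ p = algebraMap Hol Mer A ^ p) :
    (g⁻¹ • u) * algebraMap Hol Mer cdc_E4Hol ^ p =
      algebraMap Hol Mer (cdu40_slashHol A g h) ^ p := by
  have hE0 : g⁻¹ • cdc_E4Hol ≠ 0 := by
    intro h0
    apply cdu40_E4Hol_ne_zero
    have := congrArg (fun x => g • x) h0
    simpa using this
  have hE : algebraMap Hol Mer (g⁻¹ • cdc_E4Hol) ≠ 0 := cdu40_mk_ne_zero hE0
  have h1 : g⁻¹ • u * algebraMap Hol Mer (g⁻¹ • cdc_E4Hol) ^ p =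
      algebraMap Hol Mer (g⁻¹ • A) ^ p := by
    have := congrArg (fun x => g⁻¹ • x) hu
    simp only [smul_mul', smul_pow', smul_algebraMap_Mer] at this
    exact this
  have h2 := congrArg (algebraMap Hol Mer) (cdu40_slash_cross A g h)
  rw [map_mul, map_mul] at h2
  apply mul_right_cancel₀ (pow_ne_zero p hE)
  calc g⁻¹ • u * algebraMap Hol Mer cdc_E4Hol ^ p * algebraMap Hol Mer (g⁻¹ • cdc_E4Hol) ^ p
      = (g⁻¹ • u * algebraMap Hol Mer (g⁻¹ • cdc_E4Hol) ^ p) *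
          algebraMap Hol Mer cdc_E4Hol ^ p := by ring
    _ = algebraMap Hol Mer (g⁻¹ • A) ^ p * algebraMap Hol Mer cdc_E4Hol ^ p := by rw [h1]
    _ = (algebraMap Hol Mer (g⁻¹ • A) * algebraMap Hol Mer cdc_E4Hol) ^ p := by rw [mul_pow]
    _ = (algebraMap Hol Mer (cdu40_slashHol A g h) * algebraMap Hol Mer (g⁻¹ • cdc_E4Hol)) ^ p := by
        rw [h2]
    _ = algebraMap Hol Mer (cdu40_slashHol A g h) ^ p *
          algebraMap Hol Mer (g⁻¹ • cdc_E4Hol) ^ p := mul_pow _ _ _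

/-! ## Boundedness at `i∞` -/

theorem cdu40_bdd_E4 : IsBoundedAtImInfty ((cdc_E4Hol : Hol) : ℍ → ℂ) :=
  jf_isBoundedAtImInfty_of_tendsto jf_tendsto_E₄

theorem cdu40_bdd_pow {h : ℍ → ℂ} (hh : IsBoundedAtImInfty h) (k : ℕ) :
    IsBoundedAtImInfty (h ^ k) := by
  induction k with
  | zero =>
    rw [pow_zero]
    exact Filter.const_boundedAtFilter _ (1 : ℂ)
  | succ n ih =>
    rw [pow_succ]
    exact ih.mul hh

theorem cdu40_bdd_prod {ι : Type*} (s : Finset ι) (h : ι → ℍ → ℂ)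
    (hh : ∀ i ∈ s, IsBoundedAtImInfty (h i)) : IsBoundedAtImInfty (∏ i ∈ s, h i) := by
  classical
  induction s using Finset.induction_on with
  | empty =>
    rw [Finset.prod_empty]
    exact Filter.const_boundedAtFilter _ (1 : ℂ)
  | insert a s ha ih =>
    rw [Finset.prod_insert ha]
    exact (hh a (Finset.mem_insert_self a s)).mul
      (ih (fun i hi => hh i (Finset.mem_insert_of_mem hi)))

/-! ## The subring `T` -/

/-- elements `G / E₄^k` with `G` holomorphic and bounded at `i∞`. -/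
def cdu40_T : Subring Mer where
  carrier := {e | ∃ (k : ℕ) (G : Hol), e * algebraMap Hol Mer cdc_E4Hol ^ k = algebraMap Hol Mer G ∧
    IsBoundedAtImInfty ((G : Hol) : ℍ → ℂ)}
  mul_mem' := by
    rintro a b ⟨k₁, G₁, h₁, b₁⟩ ⟨k₂, G₂, h₂, b₂⟩
    refine ⟨k₁ + k₂, G₁ * G₂, ?_, ?_⟩
    · rw [map_mul, ← h₁, ← h₂, pow_add]
      ring
    · exact b₁.mul b₂
  one_mem' := ⟨0, 1, by rw [pow_zero, mul_one, map_one], Filter.const_boundedAtFilter _ (1 : ℂ)⟩
  add_mem' := by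
    rintro a b ⟨k₁, G₁, h₁, b₁⟩ ⟨k₂, G₂, h₂, b₂⟩
    refine ⟨k₁ + k₂, G₁ * cdc_E4Hol ^ k₂ + G₂ * cdc_E4Hol ^ k₁, ?_, ?_⟩
    · rw [map_add, map_mul, map_mul, map_pow, map_pow, ← h₁, ← h₂, pow_add]
      ring
    · exact (b₁.mul (cdu40_bdd_pow cdu40_bdd_E4 k₂)).add (b₂.mul (cdu40_bdd_pow cdu40_bdd_E4 k₁))
  zero_mem' := ⟨0, 0, by rw [zero_mul, map_zero], Filter.const_boundedAtFilter _ (0 : ℂ)⟩
  neg_mem' := by
    rintro a ⟨k, G, h, b⟩
    refine ⟨k, -G, ?_, ?_⟩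
    · rw [map_neg, ← h, neg_mul]
    · exact b.neg

theorem cdu40_mem_T {e : Mer} : e ∈ cdu40_T ↔ ∃ (k : ℕ) (G : Hol),
    e * algebraMap Hol Mer cdc_E4Hol ^ k = algebraMap Hol Mer G ∧
      IsBoundedAtImInfty ((G : Hol) : ℍ → ℂ) := Iff.rfl

/-! ## The symmetric polynomial -/

/-- coefficients of `∏ (X - a x)` for an equivariant family `a` in `T`: they are invariant and lie
in `T`. -/
theorem cdu40_coeff_prod {I : Type*} [Fintype I] [MulAction SL(2, ℤ) I] (a : I → Mer)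
    (hperm : ∀ (γ : SL(2, ℤ)) (x : I), γ • a x = a (γ • x)) (ha : ∀ x, a x ∈ cdu40_T) (k : ℕ) :
    (∏ x, (X - C (a x)) : Mer[X]).coeff k ∈ cdu40_T ∧
      ∀ γ : SL(2, ℤ), γ • ((∏ x, (X - C (a x)) : Mer[X]).coeff k) =
        (∏ x, (X - C (a x)) : Mer[X]).coeff k := by
  classical
  constructor
  · have hprod : (∏ x, (X - C (a x)) : Mer[X]) =
        (∏ x, (X - C (⟨a x, ha x⟩ : cdu40_T)) : cdu40_T[X]).map cdu40_T.subtype := by
      rw [Polynomial.map_prod]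
      refine Finset.prod_congr rfl (fun x _ => ?_)
      rw [Polynomial.map_sub, map_X, map_C]
      rfl
    rw [hprod, coeff_map]
    exact ((∏ x, (X - C (⟨a x, ha x⟩ : cdu40_T)) : cdu40_T[X]).coeff k).2
  · intro γ
    have h1 : (∏ x, (X - C (a x)) : Mer[X]).map (MulSemiringAction.toRingHom SL(2, ℤ) Mer γ) =
        ∏ x, (X - C (a x)) := by
      rw [Polynomial.map_prod]
      have h2 : ∀ x, ((X - C (a x) : Mer[X])).map (MulSemiringAction.toRingHom SL(2, ℤ) Mer γ) =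
          X - C (a (γ • x)) := by
        intro x
        rw [Polynomial.map_sub, map_X, map_C, MulSemiringAction.toRingHom_apply, hperm]
      simp only [h2]
      exact Fintype.prod_equiv (MulAction.toPerm γ) _ _ (fun x => rfl)
    have h3 := congrArg (fun p : Mer[X] => p.coeff k) h1
    simp only [coeff_map, MulSemiringAction.toRingHom_apply] at h3
    exact h3

/-- **the monic polynomial over `ℂ[1/j]`.** -/
theorem cdu40_exists_Q {I : Type*} [Fintype I] [Nonempty I] [MulAction SL(2, ℤ) I] (a : I → Mer)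
    (hperm : ∀ (γ : SL(2, ℤ)) (x : I), γ • a x = a (γ • x)) (p : ℕ) (B : I → Hol)
    (hB : ∀ x, a x * algebraMap Hol Mer cdc_E4Hol ^ p = algebraMap Hol Mer (B x) ^ p)
    (hbdd : ∀ x, IsBoundedAtImInfty ((B x : Hol) : ℍ → ℂ))
    (hlim : ∀ x, ∃ l : ℂ, l ≠ 0 ∧
      Tendsto (fun y : ℝ => ((B x : Hol) : ℍ → ℂ) (twe55_iy y)) atTop (𝓝 l)) :
    ∃ Q : ℂ[X][X], Q.Monic ∧
      Q.map ((aeval jMer⁻¹ : ℂ[X] →ₐ[ℂ] Mer) : ℂ[X] →+* Mer) = ∏ x, (X - C (a x)) ∧
      (Q.coeff 0).eval 0 ≠ 0 := by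
  classical
  have haT : ∀ x, a x ∈ cdu40_T := fun x =>
    ⟨p, B x ^ p, by rw [map_pow]; exact hB x, cdu40_bdd_pow (hbdd x) p⟩
  set P : Mer[X] := ∏ x, (X - C (a x)) with hP
  have hPm : P.Monic := Polynomial.monic_prod_of_monic _ _ (fun x _ => Polynomial.monic_X_sub_C _)
  have hPdeg : P.natDegree = Fintype.card I := by
    rw [hP, Polynomial.natDegree_prod_of_monic _ _ (fun x _ => Polynomial.monic_X_sub_C _)]
    simp
  have hcard : 0 < Fintype.card I := Fintype.card_pos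
  -- the general coefficients
  have hgen : ∀ k, ∃ R : ℂ[X], P.coeff k = aeval jMer⁻¹ R := by
    intro k
    obtain ⟨hT, hinv⟩ := cdu40_coeff_prod a hperm haT k
    obtain ⟨m, G, hG, hGb⟩ := hT
    obtain ⟨R, hR, -⟩ := cui30_invariant_eq_aeval_inv _ hinv m G hG hGb
    exact ⟨R, hR⟩
  -- the constant coefficient
  choose l hl0 hl using hlim
  have hconst : ∃ R : ℂ[X], P.coeff 0 = aeval jMer⁻¹ R ∧ R.eval 0 ≠ 0 := by
    obtain ⟨-, hinv⟩ := cdu40_coeff_prod a hperm haT 0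
    have hc0 : P.coeff 0 = ∏ x, (-(a x)) := by
      rw [Polynomial.coeff_zero_eq_eval_zero, hP, Polynomial.eval_prod]
      refine Finset.prod_congr rfl (fun x _ => ?_)
      rw [eval_sub, eval_X, eval_C, zero_sub]
    have hG : P.coeff 0 * algebraMap Hol Mer cdc_E4Hol ^ (p * Fintype.card I) =
        algebraMap Hol Mer (∏ x, (-(B x ^ p))) := by
      rw [hc0, map_prod, pow_mul, ← Finset.card_univ, ← Finset.prod_const, ← Finset.prod_mul_distrib]
      refine Finset.prod_congr rfl (fun x _ => ?_)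
      rw [map_neg, map_pow, neg_mul, hB x]
    have hcoe : ((∏ x, (-(B x ^ p)) : Hol) : ℍ → ℂ) = ∏ x, (-(((B x : Hol) : ℍ → ℂ) ^ p)) := by
      rw [← Subring.coe_subtype, map_prod]
      rfl
    have hGb : IsBoundedAtImInfty ((∏ x, (-(B x ^ p)) : Hol) : ℍ → ℂ) := by
      rw [hcoe]
      exact cdu40_bdd_prod _ _ (fun x _ => (cdu40_bdd_pow (hbdd x) p).neg)
    have hGl : Tendsto (fun y : ℝ => ((∏ x, (-(B x ^ p)) : Hol) : ℍ → ℂ) (twe55_iy y)) atTop
        (𝓝 (∏ x, (-(l x ^ p)))) := by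
      rw [hcoe]
      have : (fun y : ℝ => (∏ x, (-(((B x : Hol) : ℍ → ℂ) ^ p))) (twe55_iy y)) =
          fun y : ℝ => ∏ x, (-((((B x : Hol) : ℍ → ℂ) (twe55_iy y)) ^ p)) := by
        funext y
        rw [Finset.prod_apply]
        rfl
      rw [this]
      exact tendsto_finsetProd _ (fun x _ => ((hl x).pow p).neg)
    obtain ⟨R, hR, hR0⟩ := cui30_invariant_eq_aeval_inv_iy _ hinv _ _ hG hGb _ hGl
    refine ⟨R, hR, ?_⟩
    rw [hR0]
    exact Finset.prod_ne_zero_iff.2 (fun x _ => neg_ne_zero.2 (pow_ne_zero p (hl0 x)))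
  obtain ⟨R₀, hR₀, hR₀0⟩ := hconst
  choose Rg hRg using hgen
  set R : ℕ → ℂ[X] := fun k => if k = 0 then R₀ else Rg k with hRdef
  have hRk : ∀ k, k < P.natDegree →
      P.coeff k = ((aeval jMer⁻¹ : ℂ[X] →ₐ[ℂ] Mer) : ℂ[X] →+* Mer) (R k) := by
    intro k _
    rw [RingHom.coe_coe, hRdef]
    by_cases hk : k = 0
    · subst hk
      simp only [if_true]
      exact hR₀
    · simp only [if_neg hk]
      exact hRg k
  obtain ⟨Q, hQm, hQmap, hQ0⟩ := cdu40_exists_monic_lift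
    ((aeval jMer⁻¹ : ℂ[X] →ₐ[ℂ] Mer) : ℂ[X] →+* Mer) P hPm R hRk (by rw [hPdeg]; exact hcard)
  refine ⟨Q, hQm, hQmap, ?_⟩
  rw [hQ0, hRdef]
  simp only [if_true]
  exact hR₀0

/-! ## The main theorem -/

/-- **B3.3 CUSPUNIT**: `f` with `D.φ f * E₄^p = A^p` is a unit at every pole place of `jF`, provided
every slash of `A` is holomorphic, bounded at `i∞`, with non-zero limit along the imaginary axis. -/
theorem cdu40_ord_eq_zero {F : Type*} [Field F] [Algebra ℂ F] {M : ℕ} [NeZero M] {jF : F}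
    (D : cdc_Real F M jF) (hcoord : IsCoordinate ℂ F jF) (A : Hol) (p : ℕ) (hp : 0 < p)
    (hhol : ∀ g : SL(2, ℤ), MDiff ((A : ℍ → ℂ) ∣[(4 : ℤ)] g))
    (hbdd : ∀ g : SL(2, ℤ), IsBoundedAtImInfty ((A : ℍ → ℂ) ∣[(4 : ℤ)] g))
    (hlim : ∀ g : SL(2, ℤ), ∃ l : ℂ, l ≠ 0 ∧
      Tendsto (fun y : ℝ => ((A : ℍ → ℂ) ∣[(4 : ℤ)] g) (twe55_iy y)) atTop (𝓝 l))
    (f : F) (hf : D.φ f * algebraMap Hol Mer cdc_E4Hol ^ p = algebraMap Hol Mer A ^ p)
    (v : Place ℂ F) (hv : v ∈ polePlaces ℂ F jF) : v.ord f = 0 := by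
  classical
  -- the equivariant family
  set a : Q M → Mer := fun x => cdf_ev D F x f with ha
  have hax : ∀ x, a x = (Quotient.out x : SL(2, ℤ)) • D.φ f := by
    intro x
    rw [ha]
    show cdf_ev D F x f = _
    rw [cdf_ev_apply]
    rfl
  have hperm : ∀ (γ : SL(2, ℤ)) (x : Q M), γ • a x = a (γ • x) := fun γ x => cdf_ev_smul D F γ x f
  set B : Q M → Hol := fun x =>
    cdu40_slashHol A (Quotient.out x : SL(2, ℤ))⁻¹ (hhol (Quotient.out x : SL(2, ℤ))⁻¹) with hB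
  have hBx : ∀ x, a x * algebraMap Hol Mer cdc_E4Hol ^ p = algebraMap Hol Mer (B x) ^ p := by
    intro x
    have := cdu40_smul_root A (Quotient.out x : SL(2, ℤ))⁻¹ (hhol _) p (D.φ f) hf
    rw [inv_inv] at this
    rw [hax x]
    exact this
  have hne : Nonempty (Q M) := ⟨((1 : SL(2, ℤ)) : Q M)⟩
  obtain ⟨Q', hQm, hQmap, hQ0⟩ := cdu40_exists_Q a hperm p B hBx
    (fun x => hbdd (Quotient.out x : SL(2, ℤ))⁻¹) (fun x => hlim (Quotient.out x : SL(2, ℤ))⁻¹)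
  -- the root
  set x0 : Q M := ((1 : SL(2, ℤ)) : Q M) with hx0
  have hax0 : a x0 = D.φ f := by
    rw [ha]
    show cdf_ev D F x0 f = _
    rw [cdf_ev_one D F x0 rfl]
    rfl
  have hroot1 : (Q'.map ((aeval jMer⁻¹ : ℂ[X] →ₐ[ℂ] Mer) : ℂ[X] →+* Mer)).eval (D.φ f) = 0 := by
    rw [hQmap, Polynomial.eval_prod]
    refine Finset.prod_eq_zero (Finset.mem_univ x0) ?_
    rw [eval_sub, eval_X, eval_C, hax0, sub_self]
  -- transport to `F`
  have hcomp : ((aeval jMer⁻¹ : ℂ[X] →ₐ[ℂ] Mer) : ℂ[X] →+* Mer) =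
      (D.φ).comp ((aeval jF⁻¹ : ℂ[X] →ₐ[ℂ] F) : ℂ[X] →+* F) := by
    apply Polynomial.ringHom_ext
    · intro c
      simp only [RingHom.coe_comp, RingHom.coe_coe, Function.comp_apply, aeval_C]
      rw [D.map_const]
    · simp only [RingHom.coe_comp, RingHom.coe_coe, Function.comp_apply, aeval_X]
      rw [map_inv₀, D.map_j]
  have hroot : (Q'.map ((aeval jF⁻¹ : ℂ[X] →ₐ[ℂ] F) : ℂ[X] →+* F)).eval f = 0 := by
    apply D.φ.injective
    rw [map_zero, ← hroot1, hcomp, ← Polynomial.map_map]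
    rw [Polynomial.eval_map (D.φ), Polynomial.eval₂_hom]
  -- the valuation step
  have ht : 0 < v.ord jF⁻¹ := by
    rw [Place.ord_inv]
    have : v.ord jF < 0 := hv
    omega
  exact cdu40_ord_eq_zero_of_root v jF⁻¹ f ht Q' hQm hroot hQ0

end

end Fermat.Agent.S42x
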