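/-
S42x/CDictDoor (helper21): block B3, the analytic core of the "DOOR from forms" (B3.1).

For a function `f : ℍ → ℂ` that is holomorphic, `1`-periodic and bounded at `i∞` (`S23x.IsNice`,
e.g. any modular form on `Γ₀(N)`), the Laurent series `S23x.qL f` (Mathlib `qExpansion 1 f`)
converges in the sense of `S24x.LConv` and `lEval (qL f) (qOf τ) = f τ`.  Consequently an identity
`r * qL B = s * qL A` between CONVERGENT Laurent series `r, s` and `q`-expansions of nice functions
`A, B` evaluates pointwise: `lEval r (qOf τ) * B τ = lEval s (qOf τ) * A τ` (`cdd_door_fun`).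
-/
import Fermat.Agent.S24x.Realize
import Fermat.Agent.S23x.QRing

set_option autoImplicit false

namespace Fermat.Agent.S42x

open Fermat.Agent.S24x Fermat.Agent.S23x UpperHalfPlane

/-- the `q`-expansion of a nice function sums to the function -/
theorem cdd_hasSum {f : ℍ → ℂ} (hf : IsNice f) (τ : ℍ) :
    HasSum (fun m : ℕ => PowerSeries.coeff m (qExpansion 1 f) * qOf τ ^ m) (f τ) := by
  have h := hasSum_qExpansion one_pos hf.periodic_comp_ofComplex hf.1 hf.2.2 τ
  simpa [qOf, smul_eq_mul] using h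

theorem cdd_psConv {f : ℍ → ℂ} (hf : IsNice f) : PSConv (qExpansion 1 f) :=
  psConv_of_summable _ fun τ => (cdd_hasSum hf τ).summable

theorem cdd_qL_eq (f : ℍ → ℂ) : qL f = HahnSeries.ofPowerSeries ℤ ℂ (qExpansion 1 f) := rfl

/-- `qL f` converges on the punctured unit disc -/
theorem cdd_lconv_qL {f : ℍ → ℂ} (hf : IsNice f) : LConv (qL f) := by
  rw [cdd_qL_eq]
  exact lconv_ofPowerSeries (cdd_psConv hf)

/-- `qL f` evaluates to `f` -/
theorem cdd_lEval_qL {f : ℍ → ℂ} (hf : IsNice f) (τ : ℍ) : lEval (qL f) (qOf τ) = f τ := by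
  rw [cdd_qL_eq, lEval_ofPowerSeries]
  exact (cdd_hasSum hf τ).tsum_eq

/-- **the door, pointwise**: an identity of convergent Laurent series against `q`-expansions of
nice functions evaluates pointwise. -/
theorem cdd_door_fun {r s : LaurentSeries ℂ} (hr : LConv r) (hs : LConv s) {A B : ℍ → ℂ}
    (hA : IsNice A) (hB : IsNice B) (h : r * qL B = s * qL A) (τ : ℍ) :
    lEval r (qOf τ) * B τ = lEval s (qOf τ) * A τ := by
  have h1 := lEval_mul hr (cdd_lconv_qL hB) (qOf_ne_zero τ) (norm_qOf_lt_one τ)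
  have h2 := lEval_mul hs (cdd_lconv_qL hA) (qOf_ne_zero τ) (norm_qOf_lt_one τ)
  rw [cdd_lEval_qL hB] at h1
  rw [cdd_lEval_qL hA] at h2
  rw [← h1, ← h2, h]

/-- modular forms on `Γ₀(N)` are convergent and evaluate to themselves -/
theorem cdd_lEval_qL_of_isMF {N : ℕ} [NeZero N] {k : ℤ} {f : ℍ → ℂ} (hf : IsMF N k f) (τ : ℍ) :
    LConv (qL f) ∧ lEval (qL f) (qOf τ) = f τ :=
  ⟨cdd_lconv_qL hf.isNice, cdd_lEval_qL hf.isNice τ⟩

end Fermat.Agent.S42x
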