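/-
S42 project, block B3 (dictionary over `ℂ`), leaf B3.1 EV (twin by helper54), prefix `cde54_`.

The realisation of `F_ℂ = modularFunctionFieldFullC ℂ M = ℂ(j(q^d) : d ∣ M) ⊆ ℂ((q))` inside
`Mer = Frac Hol`: port of `S24x/Realize.lean` (`evF`) from `Q̄` (through `iotaQ`) to `ℂ`.

* `cde54_evConv : convLaurent →+* Hol`  (evaluation of convergent Laurent series at `qOf τ`);
* `cde54_R0 M = ℂ[j(q^d) : d ∣ M]`, `cde54_ev M : F_ℂ →+* Mer` (fraction-field lift);
* `cde54_ev_of_conv` : a convergent element of `F_ℂ` is realised by its evaluation;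
* `cde54_real M : cdc_Real F_ℂ M (pls_jb ℂ M)` (constants, `j ↦ jMer`, `Γ₀(M)`-invariance).
-/
import Mathlib
import Fermat.Agent.S42x.CDictDefs
import Fermat.Agent.S24x.Realize
import Fermat.Agent.S18x.PlsFbar

set_option autoImplicit false
set_option linter.style.haveILetI false
set_option linter.unusedSectionVars false
set_option maxHeartbeats 400000

namespace Fermat.Agent.S42x

open UpperHalfPlane HahnSeries ModularCurve AlgebraicCurve CongruenceSubgroup IntermediateField
open Fermat.Agent.S24x Fermat.Agent.S18x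
open scoped MatrixGroups Manifold

noncomputable section

/-! ### evaluation of convergent Laurent series -/

/-- evaluation of convergent Laurent series over `ℂ` as holomorphic functions on `ℍ` -/
def cde54_evConv : convLaurent →+* Hol where
  toFun a := ⟨fun τ => lEval (a : LaurentSeries ℂ) (qOf τ), LConv.mdifferentiable a.2⟩
  map_one' := by
    apply Subtype.ext; funext τ
    show lEval ((1 : convLaurent) : LaurentSeries ℂ) (qOf τ) = 1
    rw [OneMemClass.coe_one, lEval_one]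
  map_mul' a b := by
    apply Subtype.ext; funext τ
    show lEval ((a * b : convLaurent) : LaurentSeries ℂ) (qOf τ)
      = lEval (a : LaurentSeries ℂ) (qOf τ) * lEval (b : LaurentSeries ℂ) (qOf τ)
    rw [MulMemClass.coe_mul, lEval_mul a.2 b.2 (qOf_ne_zero τ) (norm_qOf_lt_one τ)]
  map_zero' := by
    apply Subtype.ext; funext τ
    show lEval ((0 : convLaurent) : LaurentSeries ℂ) (qOf τ) = 0
    rw [ZeroMemClass.coe_zero, lEval_zero]
  map_add' a b := by
    apply Subtype.ext; funext τ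
    show lEval ((a + b : convLaurent) : LaurentSeries ℂ) (qOf τ)
      = lEval (a : LaurentSeries ℂ) (qOf τ) + lEval (b : LaurentSeries ℂ) (qOf τ)
    rw [AddMemClass.coe_add, lEval_add a.2 b.2 (qOf_ne_zero τ) (norm_qOf_lt_one τ)]

theorem cde54_evConv_apply (a : convLaurent) (τ : ℍ) :
    (cde54_evConv a : ℍ → ℂ) τ = lEval (a : LaurentSeries ℂ) (qOf τ) := rfl

theorem cde54_evConv_injective : Function.Injective cde54_evConv := by
  rw [injective_iff_map_eq_zero]
  intro a ha
  have h1 : (a : LaurentSeries ℂ) = 0 := by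
    refine LConv.eq_zero_of_forall_uhp a.2 fun τ => ?_
    rw [← cde54_evConv_apply, ha]; rfl
  exact Subtype.ext (by rw [h1, ZeroMemClass.coe_zero])

theorem cde54_evConv_algebraMap (c : ℂ) :
    cde54_evConv (algebraMap ℂ convLaurent c) = algebraMap ℂ Hol c := by
  apply Subtype.ext; funext τ
  show lEval (algebraMap ℂ (LaurentSeries ℂ) c) (qOf τ) = c
  rw [LaurentSeries.algebraMap_apply]
  exact lEval_C c (qOf τ)

/-! ### the ring `R₀ = ℂ[j(q^d) : d ∣ M]` and its fraction field -/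

theorem cde54_gens_subset_conv (M : ℕ) : divisorExpansionsC ℂ M ⊆ convLaurent := by
  rintro x ⟨d, hne, _, rfl⟩
  haveI := hne
  exact lconv_jqModC.qExpand d

/-- `R₀ = ℂ[j(q^d) : d ∣ M]` (sealed below) -/
def cde54_R0 (M : ℕ) : Subalgebra ℂ (LaurentSeries ℂ) :=
  Algebra.adjoin ℂ (divisorExpansionsC ℂ M)

theorem cde54_R0_le_conv (M : ℕ) : cde54_R0 M ≤ convLaurent :=
  Algebra.adjoin_le (cde54_gens_subset_conv M)

theorem cde54_R0_le_F (M : ℕ) : cde54_R0 M ≤ (modularFunctionFieldFullC ℂ M).toSubalgebra := by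
  rw [modularFunctionFieldFullC]
  exact IntermediateField.algebra_adjoin_le_adjoin _ _

theorem cde54_jd_mem_R0 (M d : ℕ) [NeZero d] (hd : d ∣ M) :
    qExpand ℂ d (jqModC ℂ) ∈ cde54_R0 M :=
  Algebra.subset_adjoin (mem_divisorExpansionsC ℂ M hd)

/-- every element of `F_ℂ` is a quotient of elements of `R₀` -/
theorem cde54_exists_div (M : ℕ) (z : LaurentSeries ℂ) (hz : z ∈ modularFunctionFieldFullC ℂ M) :
    ∃ r ∈ cde54_R0 M, ∃ s ∈ cde54_R0 M, z = r / s :=
  IntermediateField.mem_adjoin_iff_div.mp hz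

/-- `Γ₀(M)`-invariance of the evaluation of elements of `R₀` -/
theorem cde54_R0_invariant (M : ℕ) {γ : SL(2, ℤ)} (hγ : γ ∈ Gamma0 M) {x : LaurentSeries ℂ}
    (hx : x ∈ cde54_R0 M) :
    ∀ τ : ℍ, lEval x (qOf (γ • τ)) = lEval x (qOf τ) := by
  have key : LConv x ∧ ∀ τ : ℍ, lEval x (qOf (γ • τ)) = lEval x (qOf τ) := by
    induction hx using Algebra.adjoin_induction with
    | mem x hx =>
      obtain ⟨d, hne, hd, rfl⟩ := hx
      haveI := hne
      refine ⟨lconv_jqModC.qExpand d, fun τ => ?_⟩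
      exact jdHol_smul_of_mem_Gamma0 M d hd hγ τ
    | algebraMap r =>
      rw [LaurentSeries.algebraMap_apply]
      exact ⟨lconv_C r, fun τ => by rw [lEval_C, lEval_C]⟩
    | add x y _ _ ihx ihy =>
      refine ⟨ihx.1.add ihy.1, fun τ => ?_⟩
      rw [lEval_add ihx.1 ihy.1 (qOf_ne_zero _) (norm_qOf_lt_one _),
        lEval_add ihx.1 ihy.1 (qOf_ne_zero _) (norm_qOf_lt_one _), ihx.2, ihy.2]
    | mul x y _ _ ihx ihy =>
      refine ⟨ihx.1.mul ihy.1, fun τ => ?_⟩
      rw [lEval_mul ihx.1 ihy.1 (qOf_ne_zero _) (norm_qOf_lt_one _),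
        lEval_mul ihx.1 ihy.1 (qOf_ne_zero _) (norm_qOf_lt_one _), ihx.2, ihy.2]
  exact key.2

attribute [irreducible] cde54_R0

variable (M : ℕ) [NeZero M]

/-- `F_ℂ` as an algebra over `R₀` -/
instance cde54_algebraR0F : Algebra (cde54_R0 M) (pls_Fb ℂ M) :=
  (Subalgebra.inclusion (cde54_R0_le_F M)).toAlgebra

theorem cde54_coe_algebraMap (a : cde54_R0 M) :
    ((algebraMap (cde54_R0 M) (pls_Fb ℂ M) a : pls_Fb ℂ M) : LaurentSeries ℂ) = a := rfl

instance cde54_faithfulSMul : FaithfulSMul (cde54_R0 M) (pls_Fb ℂ M) :=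
  Subalgebra.inclusion.faithfulSMul (cde54_R0_le_F M)

instance cde54_isFractionRing : IsFractionRing (cde54_R0 M) (pls_Fb ℂ M) :=
  @IsFractionRing.of_field (cde54_R0 M) _ (pls_Fb ℂ M) _ (cde54_algebraR0F M)
    (cde54_faithfulSMul M) (by
    intro z
    obtain ⟨r, hr, s, hs, h⟩ := cde54_exists_div M (z : LaurentSeries ℂ) z.2
    refine ⟨⟨r, hr⟩, ⟨s, hs⟩, Subtype.ext ?_⟩
    rw [h]
    rfl)

/-- evaluation on `R₀` -/
def cde54_evR0 : cde54_R0 M →+* Hol :=
  cde54_evConv.comp (Subalgebra.inclusion (cde54_R0_le_conv M)).toRingHom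

theorem cde54_evR0_apply (a : cde54_R0 M) (τ : ℍ) :
    (cde54_evR0 M a : ℍ → ℂ) τ = lEval (a : LaurentSeries ℂ) (qOf τ) := rfl

theorem cde54_evR0_injective : Function.Injective (cde54_evR0 M) :=
  cde54_evConv_injective.comp (Subalgebra.inclusion_injective (cde54_R0_le_conv M))

theorem cde54_evR0_mer_injective :
    Function.Injective ((algebraMap Hol Mer).comp (cde54_evR0 M)) :=
  (IsFractionRing.injective Hol Mer).comp (cde54_evR0_injective M)

/-- THE REALISATION of `F_ℂ` inside `Mer`. -/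
def cde54_ev : pls_Fb ℂ M →+* Mer :=
  IsFractionRing.lift (A := cde54_R0 M) (K := pls_Fb ℂ M) (L := Mer)
    (g := (algebraMap Hol Mer).comp (cde54_evR0 M)) (cde54_evR0_mer_injective M)

theorem cde54_ev_algebraMap_R0 (a : cde54_R0 M) :
    cde54_ev M (algebraMap (cde54_R0 M) (pls_Fb ℂ M) a) = algebraMap Hol Mer (cde54_evR0 M a) :=
  by
  unfold cde54_ev
  rw [IsFractionRing.lift_algebraMap]
  rfl

/-! ### constants and generators -/

theorem cde54_evR0_algebraMap (c : ℂ) :
    cde54_evR0 M (algebraMap ℂ (cde54_R0 M) c) = algebraMap ℂ Hol c := by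
  apply Subtype.ext; funext τ
  show lEval (algebraMap ℂ (LaurentSeries ℂ) c) (qOf τ) = c
  rw [LaurentSeries.algebraMap_apply]
  exact lEval_C c (qOf τ)

theorem cde54_ev_algebraMap (c : ℂ) :
    cde54_ev M (algebraMap ℂ (pls_Fb ℂ M) c) = algebraMap ℂ Mer c := by
  have h1 : algebraMap ℂ (pls_Fb ℂ M) c
      = algebraMap (cde54_R0 M) (pls_Fb ℂ M) (algebraMap ℂ (cde54_R0 M) c) := Subtype.ext rfl
  rw [h1, cde54_ev_algebraMap_R0, cde54_evR0_algebraMap, IsScalarTower.algebraMap_apply ℂ Hol Mer]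

/-- the generator `j(q^d)` as an element of `R₀` -/
def cde54_jdR0 (d : ℕ) [NeZero d] (hd : d ∣ M) : cde54_R0 M :=
  ⟨qExpand ℂ d (jqModC ℂ), cde54_jd_mem_R0 M d hd⟩

theorem cde54_evR0_jdR0 (d : ℕ) [NeZero d] (hd : d ∣ M) :
    cde54_evR0 M (cde54_jdR0 M d hd) = jdHol d := rfl

theorem cde54_ev_jdb (d : ℕ) [NeZero d] (hd : d ∣ M) :
    cde54_ev M (pls_jdb ℂ M d hd) = algebraMap Hol Mer (jdHol d) := by
  have h1 : pls_jdb ℂ M d hd = algebraMap (cde54_R0 M) (pls_Fb ℂ M) (cde54_jdR0 M d hd) :=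
    Subtype.ext rfl
  rw [h1, cde54_ev_algebraMap_R0, cde54_evR0_jdR0]

theorem cde54_ev_jb : cde54_ev M (pls_jb ℂ M) = jMer := by
  have h1 : pls_jb ℂ M = pls_jdb ℂ M 1 (one_dvd M) := by
    apply Subtype.ext
    show jqModC ℂ = qExpand ℂ 1 (jqModC ℂ)
    rw [qExpand_one_apply]
  rw [h1, cde54_ev_jdb, jdHol_one]; rfl

/-! ### `Γ₀(M)`-invariance -/

theorem cde54_evR0_smul_of_mem_Gamma0 {γ : SL(2, ℤ)} (hγ : γ ∈ Gamma0 M) (a : cde54_R0 M)
    (τ : ℍ) : (cde54_evR0 M a : ℍ → ℂ) (γ • τ) = (cde54_evR0 M a : ℍ → ℂ) τ :=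
  cde54_R0_invariant M hγ a.2 τ

theorem cde54_ev_smul_of_mem_Gamma0 (γ : SL(2, ℤ)) (hγ : γ ∈ Gamma0 M) (f : pls_Fb ℂ M) :
    γ • cde54_ev M f = cde54_ev M f := by
  have key : (MulSemiringAction.toRingHom SL(2, ℤ) Mer γ).comp (cde54_ev M) = cde54_ev M := by
    apply IsLocalization.ringHom_ext (nonZeroDivisors (cde54_R0 M))
    ext a
    show γ • cde54_ev M (algebraMap (cde54_R0 M) (pls_Fb ℂ M) a)
      = cde54_ev M (algebraMap (cde54_R0 M) (pls_Fb ℂ M) a)
    rw [cde54_ev_algebraMap_R0, smul_algebraMap_Mer]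
    congr 1
    apply Subtype.ext; funext τ
    rw [smul_Hol_apply]
    exact cde54_evR0_smul_of_mem_Gamma0 M (inv_mem hγ) a τ
  exact congrArg (fun φ : pls_Fb ℂ M →+* Mer => φ f) key

/-! ### the bundle -/

/-- **B3.1**: the realisation bundle of `F_ℂ = modularFunctionFieldFullC ℂ M`. -/
def cde54_real : cdc_Real (pls_Fb ℂ M) M (pls_jb ℂ M) where
  φ := cde54_ev M
  map_const := cde54_ev_algebraMap M
  map_j := cde54_ev_jb M
  inv := fun γ hγ f => cde54_ev_smul_of_mem_Gamma0 M γ hγ f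

@[simp] theorem cde54_real_φ : (cde54_real M).φ = cde54_ev M := rfl

/-! ### convergent elements -/

/-- a convergent element of `F_ℂ` is realised by its evaluation. -/
theorem cde54_ev_of_conv (x : pls_Fb ℂ M) (hx : LConv (x : LaurentSeries ℂ)) :
    cde54_ev M x = algebraMap Hol Mer (cde54_evConv ⟨(x : LaurentSeries ℂ), hx⟩) := by
  obtain ⟨⟨r, s⟩, hrs⟩ := IsLocalization.surj (nonZeroDivisors (cde54_R0 M)) x
  have hs0 : (s : cde54_R0 M) ≠ 0 := nonZeroDivisors.ne_zero s.2
  have hser : (x : LaurentSeries ℂ) * ((s : cde54_R0 M) : LaurentSeries ℂ) =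
      (r : LaurentSeries ℂ) := by
    have := congrArg (fun y : pls_Fb ℂ M => (y : LaurentSeries ℂ)) hrs
    exact this
  set X : convLaurent := ⟨(x : LaurentSeries ℂ), hx⟩ with hX
  have hconv : X * (Subalgebra.inclusion (cde54_R0_le_conv M) (s : cde54_R0 M)) =
      Subalgebra.inclusion (cde54_R0_le_conv M) r := Subtype.ext hser
  have hHol : cde54_evConv X * cde54_evR0 M (s : cde54_R0 M) = cde54_evR0 M r := by
    have := congrArg cde54_evConv hconv
    rw [map_mul] at this
    exact this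
  have hMer1 : algebraMap Hol Mer (cde54_evConv X) *
      algebraMap Hol Mer (cde54_evR0 M (s : cde54_R0 M)) =
      algebraMap Hol Mer (cde54_evR0 M r) := by
    rw [← map_mul, hHol]
  have hMer2 : cde54_ev M x * algebraMap Hol Mer (cde54_evR0 M (s : cde54_R0 M)) =
      algebraMap Hol Mer (cde54_evR0 M r) := by
    have := congrArg (cde54_ev M) hrs
    rw [map_mul, cde54_ev_algebraMap_R0, cde54_ev_algebraMap_R0] at this
    exact this
  have hne : algebraMap Hol Mer (cde54_evR0 M (s : cde54_R0 M)) ≠ 0 := by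
    intro h
    apply hs0
    exact (cde54_evR0_mer_injective M) (by rw [RingHom.comp_apply, h, map_zero])
  exact mul_right_cancel₀ hne (hMer2.trans hMer1.symm)

/-- the key compatibility: if `x * b = a` in `ℂ((q))` with `a b` convergent, then
`ev x * ev b = ev a` in `Mer`. -/
theorem cde54_ev_mul_conv (x : pls_Fb ℂ M) (a b : convLaurent)
    (h : (x : LaurentSeries ℂ) * (b : LaurentSeries ℂ) = (a : LaurentSeries ℂ)) :
    cde54_ev M x * algebraMap Hol Mer (cde54_evConv b) = algebraMap Hol Mer (cde54_evConv a) := by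
  obtain ⟨⟨r, s⟩, hrs⟩ := IsLocalization.surj (nonZeroDivisors (cde54_R0 M)) x
  have hs0 : (s : cde54_R0 M) ≠ 0 := nonZeroDivisors.ne_zero s.2
  have hser : (x : LaurentSeries ℂ) * ((s : cde54_R0 M) : LaurentSeries ℂ) =
      (r : LaurentSeries ℂ) := by
    have := congrArg (fun y : pls_Fb ℂ M => (y : LaurentSeries ℂ)) hrs
    exact this
  -- `r * b = a * s` as convergent series
  have hconv : Subalgebra.inclusion (cde54_R0_le_conv M) r * b =
      a * Subalgebra.inclusion (cde54_R0_le_conv M) (s : cde54_R0 M) := by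
    apply Subtype.ext
    show (r : LaurentSeries ℂ) * (b : LaurentSeries ℂ) =
      (a : LaurentSeries ℂ) * ((s : cde54_R0 M) : LaurentSeries ℂ)
    rw [← hser, ← h]; ring
  have hHol : cde54_evR0 M r * cde54_evConv b = cde54_evConv a * cde54_evR0 M (s : cde54_R0 M) := by
    have := congrArg cde54_evConv hconv
    rw [map_mul, map_mul] at this
    exact this
  have hMer2 : cde54_ev M x * algebraMap Hol Mer (cde54_evR0 M (s : cde54_R0 M)) =
      algebraMap Hol Mer (cde54_evR0 M r) := by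
    have := congrArg (cde54_ev M) hrs
    rw [map_mul, cde54_ev_algebraMap_R0, cde54_ev_algebraMap_R0] at this
    exact this
  have hne : algebraMap Hol Mer (cde54_evR0 M (s : cde54_R0 M)) ≠ 0 := by
    intro h
    apply hs0
    exact (cde54_evR0_mer_injective M) (by rw [RingHom.comp_apply, h, map_zero])
  apply mul_right_cancel₀ hne
  calc cde54_ev M x * algebraMap Hol Mer (cde54_evConv b) *
        algebraMap Hol Mer (cde54_evR0 M (s : cde54_R0 M))
      = (cde54_ev M x * algebraMap Hol Mer (cde54_evR0 M (s : cde54_R0 M))) *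
          algebraMap Hol Mer (cde54_evConv b) := by ring
    _ = algebraMap Hol Mer (cde54_evR0 M r * cde54_evConv b) := by rw [hMer2, map_mul]
    _ = algebraMap Hol Mer (cde54_evConv a) *
          algebraMap Hol Mer (cde54_evR0 M (s : cde54_R0 M)) := by rw [hHol, map_mul]

end

end Fermat.Agent.S42x
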