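/-
S42 project, block B3, leaf B3.1 EV — TWIN by helper87 (prefix `cde87_`), route WITHOUT convergent
series.

On `S23x.ratioField M` (= `{x | IsRatio M 0 x}`, the `q`-expansions of weight-0 ratios of
`Γ₀(M)`-forms) the realisation is defined directly on representations:
`x * qL B = qL A  ↦  mk A / mk B`.
It is well defined and a ring homomorphism because `qL` is injective on nice functions, and
`inj_EvCompat` (the DOOR from forms) holds by construction.

Main results:
* `cde87_ev M : ratioField M →+* Mer`, `cde87_evCompat : inj_EvCompat M (cde87_ev M)`;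
* `cde87_real M : cdc_Real ↥(modularFunctionFieldFullC ℂ M) M (pls_jb ℂ M)` (B3.1 of ARCH-2);
* `cde87_real_door` : the DOOR on `modularFunctionFieldFullC ℂ M`;
* `cde87_iotaF M : FBar M →+* ↥(modularFunctionFieldFullC ℂ M)` (coefficientwise `iotaQ`) and
  `cde87_real_iotaF : (cde87_real M).φ (cde87_iotaF M f0) = evF M f0` (compatibility with the
  realisation of S24x over `Qbar`), `cde87_real_of_coe_eq` for an arbitrary element with the
  right `q`-expansion.
-/
import Fermat.Agent.S42x.CDictDefs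
import Fermat.Agent.S42x.CDictBridge
import Fermat.Agent.S42x.InjEv
import Fermat.Agent.S42x.InjQbar
import Fermat.Agent.S24x.Realize
import Fermat.Agent.S24x.DegreeLowerCore

set_option autoImplicit false
set_option linter.unusedSectionVars false

namespace Fermat.Agent.S42x

open UpperHalfPlane ModularCurve AlgebraicCurve CongruenceSubgroup ModularForm
open Fermat.Agent.S24x Fermat.Agent.S23x Fermat.Agent.S18x
open scoped MatrixGroups Manifold

noncomputable section

variable (M : ℕ) [NeZero M]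

local notation "mk" => algebraMap Hol Mer

/-- `e : Mer` is the value of the Laurent series `x` through some representation of `x` as a
ratio of two forms of the same weight. -/
def cde87_Rep (x : LS) (e : Mer) : Prop :=
  ∃ (m : ℤ) (A B : Hol), IsMF M m (A : ℍ → ℂ) ∧ IsMF M m (B : ℍ → ℂ) ∧ B ≠ 0 ∧
    x * qL (B : ℍ → ℂ) = qL (A : ℍ → ℂ) ∧ e * mk B = mk A

variable {M}

theorem cde87_rep_unique {x : LS} {e e' : Mer} (h : cde87_Rep M x e) (h' : cde87_Rep M x e') :
    e = e' := by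
  obtain ⟨m, A, B, hA, hB, hB0, hq, he⟩ := h
  obtain ⟨m', A', B', hA', hB', hB'0, hq', he'⟩ := h'
  have hfun : (A : ℍ → ℂ) * (B' : ℍ → ℂ) = (A' : ℍ → ℂ) * (B : ℍ → ℂ) := by
    apply qL_injective (hA.isNice.mul hB'.isNice) (hA'.isNice.mul hB.isNice)
    rw [qL_mul hA.isNice hB'.isNice, qL_mul hA'.isNice hB.isNice, ← hq, ← hq']
    ring
  have hHol : A * B' = A' * B := Subtype.ext hfun
  have hBm := inj_algebraMap_ne_zero hB0
  have hBm' := inj_algebraMap_ne_zero hB'0
  apply mul_right_cancel₀ (mul_ne_zero hBm hBm')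
  calc e * (mk B * mk B') = (e * mk B) * mk B' := by ring
    _ = mk (A * B') := by rw [he, map_mul]
    _ = mk (A' * B) := by rw [hHol]
    _ = (e' * mk B') * mk B := by rw [he', map_mul]
    _ = e' * (mk B * mk B') := by ring

theorem cde87_rep_of_forms {x : LS} {m : ℤ} {A B : Hol} (hA : IsMF M m (A : ℍ → ℂ))
    (hB : IsMF M m (B : ℍ → ℂ)) (hB0 : B ≠ 0) (hq : x * qL (B : ℍ → ℂ) = qL (A : ℍ → ℂ)) :
    cde87_Rep M x (mk A / mk B) :=
  ⟨m, A, B, hA, hB, hB0, hq, div_mul_cancel₀ _ (inj_algebraMap_ne_zero hB0)⟩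

theorem cde87_rep_exists {x : LS} (hx : IsRatio M 0 x) : ∃ e, cde87_Rep M x e := by
  obtain ⟨m, f, g, hf, hg, hg0, hxe⟩ := hx
  obtain ⟨A, rfl⟩ := inj_exists_hol hf
  obtain ⟨B, rfl⟩ := inj_exists_hol hg
  have hB0 : B ≠ 0 := by
    rintro rfl
    exact hg0 rfl
  exact ⟨_, cde87_rep_of_forms (hf.cast (add_zero m)) hg hB0 hxe⟩

theorem cde87_rep_const (c : ℂ) : cde87_Rep M (algebraMap ℂ LS c) (algebraMap ℂ Mer c) := by
  refine ⟨0, algebraMap ℂ Hol c, 1, isMF_const M c, isMF_const M 1, one_ne_zero, ?_, ?_⟩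
  · show algebraMap ℂ LS c * qL (fun _ : ℍ => (1 : ℂ)) = qL (fun _ : ℍ => c)
    rw [m04_qL_one, mul_one, qL_const]
  · rw [map_one, mul_one, IsScalarTower.algebraMap_apply ℂ Hol Mer]

theorem cde87_rep_add {x y : LS} {e e' : Mer} (hx : cde87_Rep M x e) (hy : cde87_Rep M y e') :
    cde87_Rep M (x + y) (e + e') := by
  obtain ⟨m, A, B, hA, hB, hB0, hq, he⟩ := hx
  obtain ⟨m', A', B', hA', hB', hB'0, hq', he'⟩ := hy
  have h1 : IsMF M (m + m') ((A : ℍ → ℂ) * (B' : ℍ → ℂ)) := hA.mul hB'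
  have h2 : IsMF M (m + m') ((A' : ℍ → ℂ) * (B : ℍ → ℂ)) := (hA'.mul hB).cast (add_comm _ _)
  refine ⟨m + m', A * B' + A' * B, B * B', h1.add h2, hB.mul hB', mul_ne_zero hB0 hB'0, ?_, ?_⟩
  · show (x + y) * qL ((B : ℍ → ℂ) * (B' : ℍ → ℂ))
      = qL ((A : ℍ → ℂ) * (B' : ℍ → ℂ) + (A' : ℍ → ℂ) * (B : ℍ → ℂ))
    rw [qL_add h1.isNice h2.isNice, qL_mul hA.isNice hB'.isNice, qL_mul hA'.isNice hB.isNice,
      qL_mul hB.isNice hB'.isNice, ← hq, ← hq']
    ring
  · rw [map_add, map_mul, map_mul, map_mul, ← he, ← he']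
    ring

theorem cde87_rep_mul {x y : LS} {e e' : Mer} (hx : cde87_Rep M x e) (hy : cde87_Rep M y e') :
    cde87_Rep M (x * y) (e * e') := by
  obtain ⟨m, A, B, hA, hB, hB0, hq, he⟩ := hx
  obtain ⟨m', A', B', hA', hB', hB'0, hq', he'⟩ := hy
  refine ⟨m + m', A * A', B * B', hA.mul hA', hB.mul hB', mul_ne_zero hB0 hB'0, ?_, ?_⟩
  · show (x * y) * qL ((B : ℍ → ℂ) * (B' : ℍ → ℂ)) = qL ((A : ℍ → ℂ) * (A' : ℍ → ℂ))
    rw [qL_mul hA.isNice hA'.isNice, qL_mul hB.isNice hB'.isNice, ← hq, ← hq']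
    ring
  · rw [map_mul, map_mul, ← he, ← he']
    ring

theorem cde87_rep_zero : cde87_Rep M 0 0 := by
  have h := cde87_rep_const (M := M) 0
  rwa [map_zero, map_zero] at h

theorem cde87_rep_one : cde87_Rep M 1 1 := by
  have h := cde87_rep_const (M := M) 1
  rwa [map_one, map_one] at h

theorem cde87_rep_inv {x : LS} {e : Mer} (hx : cde87_Rep M x e) : cde87_Rep M x⁻¹ e⁻¹ := by
  by_cases hx0 : x = 0
  · have he0 : e = 0 := cde87_rep_unique hx (hx0 ▸ cde87_rep_zero)
    rw [hx0, he0, inv_zero, inv_zero]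
    exact cde87_rep_zero
  obtain ⟨m, A, B, hA, hB, hB0, hq, he⟩ := hx
  have hqB : qL (B : ℍ → ℂ) ≠ 0 := m04_qL_ne_zero hB (fun h0 => hB0 (Subtype.ext h0))
  have hA0 : A ≠ 0 := by
    rintro rfl
    have : qL ((0 : Hol) : ℍ → ℂ) = 0 := m04_qL_zero
    rw [this] at hq
    exact mul_ne_zero hx0 hqB hq
  have hBm := inj_algebraMap_ne_zero hB0
  have hAm := inj_algebraMap_ne_zero hA0
  have he0 : e ≠ 0 := by
    rintro rfl
    rw [zero_mul] at he
    exact hAm he.symm
  refine ⟨m, B, A, hB, hA, hA0, ?_, ?_⟩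
  · rw [← hq, ← mul_assoc, inv_mul_cancel₀ hx0, one_mul]
  · rw [← he, ← mul_assoc, inv_mul_cancel₀ he0, one_mul]

theorem cde87_rep_div {x y : LS} {e e' : Mer} (hx : cde87_Rep M x e) (hy : cde87_Rep M y e') :
    cde87_Rep M (x / y) (e / e') := by
  rw [div_eq_mul_inv, div_eq_mul_inv]
  exact cde87_rep_mul hx (cde87_rep_inv hy)

variable (M)

/-- the value of an element of `ratioField M` -/
def cde87_evFun (x : ratioField M) : Mer :=
  Classical.choose (cde87_rep_exists (mem_ratioField_iff.mp x.2))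

theorem cde87_evFun_spec (x : ratioField M) : cde87_Rep M (x : LS) (cde87_evFun M x) :=
  Classical.choose_spec (cde87_rep_exists (mem_ratioField_iff.mp x.2))

variable {M}

theorem cde87_evFun_eq {x : ratioField M} {e : Mer} (h : cde87_Rep M (x : LS) e) :
    cde87_evFun M x = e :=
  cde87_rep_unique (cde87_evFun_spec M x) h

variable (M)

/-- **the realisation of `ratioField M` in `Mer`**: `qL A / qL B ↦ mk A / mk B`. -/
def cde87_ev : ratioField M →+* Mer where
  toFun := cde87_evFun M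
  map_one' := cde87_evFun_eq cde87_rep_one
  map_mul' x y := cde87_evFun_eq (cde87_rep_mul (cde87_evFun_spec M x) (cde87_evFun_spec M y))
  map_zero' := cde87_evFun_eq cde87_rep_zero
  map_add' x y := cde87_evFun_eq (cde87_rep_add (cde87_evFun_spec M x) (cde87_evFun_spec M y))

theorem cde87_ev_spec (x : ratioField M) : cde87_Rep M (x : LS) (cde87_ev M x) :=
  cde87_evFun_spec M x

variable {M}

theorem cde87_ev_eq {x : ratioField M} {e : Mer} (h : cde87_Rep M (x : LS) e) :
    cde87_ev M x = e :=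
  cde87_evFun_eq h

variable (M)

/-- **the DOOR from forms** holds by construction. -/
theorem cde87_evCompat : inj_EvCompat M (cde87_ev M) := by
  intro x m A B hA hB hB0 hq
  rw [cde87_ev_eq (cde87_rep_of_forms hA hB hB0 hq),
    div_mul_cancel₀ _ (inj_algebraMap_ne_zero hB0)]

theorem cde87_ev_const (c : ℂ) :
    cde87_ev M (algebraMap ℂ (ratioField M) c) = algebraMap ℂ Mer c :=
  cde87_ev_eq (cde87_rep_const c)

theorem cde87_ev_invariant (x : ratioField M) (γ : SL(2, ℤ)) (hγ : γ ∈ Gamma0 M) :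
    γ • cde87_ev M x = cde87_ev M x :=
  inj_ev_invariant M (cde87_ev M) (cde87_evCompat M) x γ hγ

/-! ### the generators -/

variable {M} in
/-- a representation given by raw functions and an explicit holomorphic value. -/
theorem cde87_rep_of_fun {x : LS} {m : ℤ} {f g : ℍ → ℂ} (hf : IsMF M m f) (hg : IsMF M m g)
    (hg0 : g ≠ 0) (hq : x * qL g = qL f) (e : Hol) (he : ∀ τ, (e : ℍ → ℂ) τ * g τ = f τ) :
    cde87_Rep M x (mk e) := by
  obtain ⟨A, rfl⟩ := inj_exists_hol hf
  obtain ⟨B, rfl⟩ := inj_exists_hol hg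
  have hB0 : B ≠ 0 := by
    rintro rfl
    exact hg0 rfl
  refine ⟨m, A, B, hf, hg, hB0, hq, ?_⟩
  rw [← map_mul]
  congr 1
  apply Subtype.ext
  funext τ
  exact he τ

/-- `j = E₄³ / Δ`. -/
theorem cde87_rep_jL : cde87_Rep M jL jMer := by
  have hE : IsMF M 4 (⇑E₄) := m09c_isMF1_E4.isMF M
  have hD : IsMF M 12 ModularForm.discriminant := m09c_isMF1_discriminant.isMF M
  have hE3 : IsMF M 12 ((⇑E₄) ^ 3) := (hE.pow 3).cast (by norm_num)
  have hD0 : (ModularForm.discriminant : ℍ → ℂ) ≠ 0 := by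
    intro h
    have := congrFun h UpperHalfPlane.I
    exact ModularForm.discriminant_ne_zero _ this
  have hq : jL * qL ModularForm.discriminant = qL ((⇑E₄) ^ 3) := by
    rw [qL_pow hE.isNice 3]
    unfold jL E4L DeltaL
    exact div_mul_cancel₀ _ m09c_DeltaL_ne_zero
  exact cde87_rep_of_fun hE3 hD hD0 hq jHol (fun τ => jFun_mul_discriminant τ)

/-- `j(dτ) = E₄(dτ)³ / Δ(dτ)` for `d ∣ M`. -/
theorem cde87_rep_jNL {d : ℕ} [NeZero d] (hd : d ∣ M) :
    cde87_Rep M (jNL d) (mk (jdHol d)) := by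
  have hE : IsMF M 4 (fun z => E₄ (mulN d z)) :=
    cdcb_isMF_of_dvd hd (isMF_comp_mulN d m09c_isMF1_E4)
  have hD : IsMF M 12 (fun z => ModularForm.discriminant (mulN d z)) :=
    cdcb_isMF_of_dvd hd (isMF_comp_mulN d m09c_isMF1_discriminant)
  have hE3 : IsMF M 12 ((fun z => E₄ (mulN d z)) ^ 3) := (hE.pow 3).cast (by norm_num)
  have hD0 : (fun z => ModularForm.discriminant (mulN d z)) ≠ 0 := by
    intro h
    have := congrFun h UpperHalfPlane.I
    exact ModularForm.discriminant_ne_zero _ this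
  have hqD : qL (fun z => ModularForm.discriminant (mulN d z)) ≠ 0 := by
    intro h
    exact hD0 ((qL_eq_zero_iff hD.isNice).mp h)
  have hq : jNL d * qL (fun z => ModularForm.discriminant (mulN d z))
      = qL ((fun z => E₄ (mulN d z)) ^ 3) := by
    rw [qL_pow hE.isNice 3]
    unfold jNL
    exact div_mul_cancel₀ _ hqD
  refine cde87_rep_of_fun hE3 hD hD0 hq (jdHol d) (fun τ => ?_)
  rw [jdHol_eq]
  exact jFun_mul_discriminant (mulN d τ)

/-- the formal generator `j(q^d)` of the Prelude. -/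
theorem cde87_rep_gen {d : ℕ} [NeZero d] (hd : d ∣ M) :
    cde87_Rep M (qExpand ℂ d (jqModC ℂ)) (mk (jdHol d)) := by
  rw [dl_jqModC_eq_jL, ← dl_jNL_eq d]
  exact cde87_rep_jNL M hd

/-! ### the bundle on `modularFunctionFieldFullC ℂ M` -/

/-- `modularFunctionFieldFullC ℂ M → ratioField M` (the two fields are equal). -/
def cde87_incl : ↥(modularFunctionFieldFullC ℂ M) →+* ↥(ratioField M) :=
  (IntermediateField.inclusion (le_of_eq (cdcb_fullC_eq M))).toRingHom

@[simp] theorem cde87_coe_incl (x : ↥(modularFunctionFieldFullC ℂ M)) :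
    ((cde87_incl M x : ratioField M) : LS) = (x : LaurentSeries ℂ) := rfl

/-- **B3.1**: the realisation bundle of `FC = modularFunctionFieldFullC ℂ M`. -/
def cde87_real : cdc_Real ↥(modularFunctionFieldFullC ℂ M) M (pls_jb ℂ M) where
  φ := (cde87_ev M).comp (cde87_incl M)
  map_const c := by
    rw [RingHom.comp_apply]
    exact cde87_ev_eq (cde87_rep_const c)
  map_j := by
    rw [RingHom.comp_apply]
    apply cde87_ev_eq
    show cde87_Rep M (jqModC ℂ) jMer
    rw [dl_jqModC_eq_jL]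
    exact cde87_rep_jL M
  inv γ hγ f := cde87_ev_invariant M _ γ hγ

theorem cde87_real_spec (x : ↥(modularFunctionFieldFullC ℂ M)) :
    cde87_Rep M (x : LaurentSeries ℂ) ((cde87_real M).φ x) :=
  cde87_ev_spec M (cde87_incl M x)

variable {M}

theorem cde87_real_eq {x : ↥(modularFunctionFieldFullC ℂ M)} {e : Mer}
    (h : cde87_Rep M (x : LaurentSeries ℂ) e) : (cde87_real M).φ x = e :=
  cde87_rep_unique (cde87_real_spec M x) h

variable (M)

/-- **the DOOR from forms on `FC`** (B3.1 of ARCH-2). -/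
theorem cde87_real_door (x : ↥(modularFunctionFieldFullC ℂ M)) (m : ℤ) (A B : Hol)
    (hA : IsMF M m (A : ℍ → ℂ)) (hB : IsMF M m (B : ℍ → ℂ)) (hB0 : B ≠ 0)
    (hq : (x : LaurentSeries ℂ) * qL (B : ℍ → ℂ) = qL (A : ℍ → ℂ)) :
    (cde87_real M).φ x * mk B = mk A :=
  cde87_evCompat M (cde87_incl M x) m A B hA hB hB0 hq

/-- the generators `j(q^d)`, `d ∣ M`, are realised by `τ ↦ j(dτ)`. -/
theorem cde87_real_jdb {d : ℕ} [NeZero d] (hd : d ∣ M) :
    (cde87_real M).φ (pls_jdb ℂ M d hd) = mk (jdHol d) :=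
  cde87_real_eq (cde87_rep_gen M hd)

/-! ### compatibility with the realisation `evF` over `Qbar` -/

theorem cde87_iotaL_mem (f0 : FBar M) :
    iotaL (f0 : LaurentSeries Qbar) ∈ modularFunctionFieldFullC ℂ M := by
  rw [← cdcb_laurentBaseChange_eq_fullC ℂ M]
  exact inj_qb_FC_of_FBar M f0

/-- coefficientwise `iotaQ` as a ring homomorphism `FBar M → FC`. -/
def cde87_iotaF : FBar M →+* ↥(modularFunctionFieldFullC ℂ M) :=
  (iotaL.comp (modularFunctionFieldBar M).toSubring.subtype).codRestrict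
    (modularFunctionFieldFullC ℂ M) (cde87_iotaL_mem M)

@[simp] theorem cde87_coe_iotaF (f0 : FBar M) :
    ((cde87_iotaF M f0 : ↥(modularFunctionFieldFullC ℂ M)) : LaurentSeries ℂ) =
      coeffMap iotaQ (f0 : LaurentSeries Qbar) := rfl

/-- the two realisations agree on the convergent series `x` over `Qbar`. -/
def cde87_Agree (x : LaurentSeries Qbar) : Prop :=
  ∃ a : convBar, (a : LaurentSeries Qbar) = x ∧ cde87_Rep M (iotaL x) (mk (evBar a))

variable {M} in
theorem cde87_agree_mul {x y : LaurentSeries Qbar} (hx : cde87_Agree M x)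
    (hy : cde87_Agree M y) : cde87_Agree M (x * y) := by
  obtain ⟨a, rfl, ra⟩ := hx
  obtain ⟨b, rfl, rb⟩ := hy
  refine ⟨a * b, rfl, ?_⟩
  rw [map_mul evBar, map_mul (algebraMap Hol Mer), map_mul iotaL]
  exact cde87_rep_mul ra rb

variable {M} in
theorem cde87_agree_add {x y : LaurentSeries Qbar} (hx : cde87_Agree M x)
    (hy : cde87_Agree M y) : cde87_Agree M (x + y) := by
  obtain ⟨a, rfl, ra⟩ := hx
  obtain ⟨b, rfl, rb⟩ := hy
  refine ⟨a + b, rfl, ?_⟩
  rw [map_add evBar, map_add (algebraMap Hol Mer), map_add iotaL]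
  exact cde87_rep_add ra rb

theorem cde87_agree_algebraMap (c : Qbar) :
    cde87_Agree M (algebraMap Qbar (LaurentSeries Qbar) c) := by
  refine ⟨algebraMap Qbar convBar c, rfl, ?_⟩
  rw [evBar_algebraMap, iotaL_algebraMap, ← IsScalarTower.algebraMap_apply ℂ Hol Mer,
    ← qr_algebraMap_eq_C]
  exact cde87_rep_const (iotaQ c)

/-- the subalgebra of convergent series over `Qbar` on which the two realisations agree. -/
def cde87_agree : Subalgebra Qbar (LaurentSeries Qbar) where
  carrier := {x | cde87_Agree M x}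
  mul_mem' ha hb := cde87_agree_mul ha hb
  add_mem' ha hb := cde87_agree_add ha hb
  algebraMap_mem' c := cde87_agree_algebraMap M c

theorem cde87_mem_agree {x : LaurentSeries Qbar} : x ∈ cde87_agree M ↔ cde87_Agree M x :=
  Iff.rfl

theorem cde87_gen_mem_agree {d : ℕ} [NeZero d] (hd : d ∣ M) :
    coeffEmb Qbar (qExpand ℚ d jq) ∈ cde87_agree M := by
  rw [cde87_mem_agree]
  refine ⟨⟨coeffEmb Qbar (qExpand ℚ d jq), gen_mem_convBar d⟩, rfl, ?_⟩
  have e : evBar ⟨coeffEmb Qbar (qExpand ℚ d jq), gen_mem_convBar d⟩ = jdHol d := by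
    apply Subtype.ext
    funext τ
    show lEval (iotaL (coeffEmb Qbar (qExpand ℚ d jq))) (qOf τ)
      = lEval (qExpand ℂ d (jqModC ℂ)) (qOf τ)
    rw [iotaL_gen]
  rw [e, iotaL_gen]
  exact cde87_rep_gen M hd

theorem cde87_ringR0_le_agree : ringR0 M ≤ cde87_agree M := by
  apply Algebra.adjoin_le
  rintro x ⟨d, hne, hd, rfl⟩
  have := hne
  exact cde87_gen_mem_agree M hd

/-- on the ring `R₀ = Qbar[j(q^d)]` the two realisations agree. -/
theorem cde87_rep_R0 (a : ringR0 M) :
    cde87_Rep M (iotaL (a : LaurentSeries Qbar)) (mk (evR0 M a)) := by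
  obtain ⟨b, hb, r⟩ := (cde87_mem_agree M).mp (cde87_ringR0_le_agree M a.2)
  have e : evR0 M a = evBar b := by
    have hb' : b = Subalgebra.inclusion (ringR0_le_convBar M) a := Subtype.ext hb
    rw [hb']
    rfl
  rw [e]
  exact r

/-- **compatibility**: `evC ∘ iotaL = evF`. -/
theorem cde87_real_iotaF (f0 : FBar M) : (cde87_real M).φ (cde87_iotaF M f0) = evF M f0 := by
  have key : ((cde87_real M).φ.comp (cde87_iotaF M)) = evF M := by
    apply IsLocalization.ringHom_ext (nonZeroDivisors (ringR0 M))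
    apply RingHom.ext
    intro a
    rw [RingHom.comp_apply, RingHom.comp_apply, RingHom.comp_apply, evF_algebraMap_R0]
    apply cde87_real_eq
    exact cde87_rep_R0 M a
  exact congrArg (fun ψ : FBar M →+* Mer => ψ f0) key

/-- the same for an arbitrary element of `FC` with the right `q`-expansion (shape of the output
of `dsct_top`). -/
theorem cde87_real_of_coe_eq (f0 : FBar M) (y : ↥(modularFunctionFieldFullC ℂ M))
    (hy : coeffMap iotaQ (f0 : LaurentSeries Qbar) = (y : LaurentSeries ℂ)) :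
    (cde87_real M).φ y = evF M f0 := by
  have e : y = cde87_iotaF M f0 := Subtype.ext hy.symm
  rw [e, cde87_real_iotaF]

end

end Fermat.Agent.S42x
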