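/-
S42x/TwEisCusp (helper71; S42 block B1, leaf B1.2 CUSP, row 51; prefix `twk_`).

ABSTRACT in `F : ℍ → ℂ`, `k : ℤ` (Mathlib + `TwEis55` for the axis `twe55_iy` only).

* `twk_slash_T_zpow` : `(F ∣[k] T^n) z = F (n +ᵥ z)`;
* `twk_slash_periodic` : if `F ∣[k] g = ψ g • F` on `Γ₀(M)` and `A T^n A⁻¹ ∈ Γ₀(M)` is killed by `ψ`,
  then `F ∣[k] A` is invariant under `z ↦ z + n` (periodicity at the cusp `A • ∞`);
* `twk_periodic_comp_ofComplex` : `1`-periodic on `ℍ` ⇒ `Function.Periodic (F ∘ ofComplex) 1`;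
* `twk_tendsto_atImInfty` : holomorphic + `1`-periodic + bounded at `i∞` + limit `c` along the axis
  `i y` ⇒ `F → c` along the full filter `atImInfty`;
* `twk_valueAtInfty_eq`, `twk_qExpansion_coeff_zero` : `valueAtInfty F = c`, constant term of the
  `q`-expansion is `c`.
-/
import Mathlib
import Fermat.Agent.S42x.TwEis55

set_option autoImplicit false

noncomputable section

namespace Fermat.Agent.S42x

open ModularForm UpperHalfPlane Complex Matrix CongruenceSubgroup Set Filter Topology Function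

open scoped MatrixGroups Manifold

/-- `denom (T^n) z = 1`. -/
theorem twk_denom_T_zpow (n : ℤ) (z : ℍ) : denom (ModularGroup.T ^ n : SL(2, ℤ)) z = 1 := by
  rw [ModularGroup.denom_apply]
  simp [ModularGroup.coe_T_zpow]

/-- slashing with `T^n` is translation by `n`. -/
theorem twk_slash_T_zpow (F : ℍ → ℂ) (k n : ℤ) (z : ℍ) :
    (F ∣[k] (ModularGroup.T ^ n : SL(2, ℤ))) z = F ((n : ℝ) +ᵥ z) := by
  rw [SL_slash_apply, twk_denom_T_zpow, _root_.one_zpow, mul_one, modular_T_zpow_smul]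

/-- **periodicity at a cusp**: if `F` transforms under `Γ₀(M)` by `ψ`, and the parabolic element
`A T^n A⁻¹` of `Γ₀(M)` is killed by `ψ`, then `F ∣[k] A` is invariant under `z ↦ z + n`. -/
theorem twk_slash_periodic {M : ℕ} (F : ℍ → ℂ) (k : ℤ) (ψ : Gamma0 M → ℂ)
    (hsl : ∀ g : Gamma0 M, F ∣[k] (g : SL(2, ℤ)) = ψ g • F) (A : SL(2, ℤ)) (n : ℤ)
    (hmem : A * ModularGroup.T ^ n * A⁻¹ ∈ Gamma0 M) (h1 : ψ ⟨_, hmem⟩ = 1) (z : ℍ) :
    (F ∣[k] A) ((n : ℝ) +ᵥ z) = (F ∣[k] A) z := by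
  rw [← twk_slash_T_zpow (F ∣[k] A) k n z, ← SlashAction.slash_mul]
  have hAB : A * ModularGroup.T ^ n = (A * ModularGroup.T ^ n * A⁻¹) * A := by group
  rw [hAB, SlashAction.slash_mul]
  have h2 := hsl ⟨_, hmem⟩
  rw [h1, one_smul] at h2
  have h3 : F ∣[k] (A * ModularGroup.T ^ n * A⁻¹) = F := h2
  rw [h3]

/-- a `1`-periodic function on `ℍ` gives a `1`-periodic function on `ℂ`. -/
theorem twk_periodic_comp_ofComplex {F : ℍ → ℂ} (hper : ∀ z : ℍ, F ((1 : ℝ) +ᵥ z) = F z) :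
    Periodic (F ∘ ofComplex) (1 : ℝ) := by
  intro w
  by_cases hw : 0 < Complex.im w
  · have h2 : 0 < Complex.im (w + ((1 : ℝ) : ℂ)) := by simp [hw]
    simp only [Function.comp_apply, ofComplex_apply_of_im_pos h2, ofComplex_apply_of_im_pos hw]
    rw [← hper ⟨w, hw⟩]
    congr 1
    ext
    simp [add_comm]
  · have hw' : Complex.im w ≤ 0 := not_lt.mp hw
    have h2 : Complex.im (w + ((1 : ℝ) : ℂ)) ≤ 0 := by simpa using hw'
    simp only [Function.comp_apply]
    rw [ofComplex_apply_of_im_nonpos h2, ofComplex_apply_of_im_nonpos hw']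

/-- the axis `i y` tends to `i∞`. -/
theorem twk_tendsto_iy : Tendsto twe55_iy atTop atImInfty := by
  rw [atImInfty, tendsto_comap_iff]
  have h : (UpperHalfPlane.im ∘ twe55_iy) = fun y : ℝ => max y 1 := by
    funext y
    rfl
  rw [h]
  exact tendsto_atTop_mono (fun y => le_max_left y 1) tendsto_id

/-- **limit on the full filter**: a holomorphic, `1`-periodic function on `ℍ`, bounded at `i∞`,
with limit `c` along the axis `i y`, tends to `c` at `i∞`. -/
theorem twk_tendsto_atImInfty {F : ℍ → ℂ} {c : ℂ} (hF : MDiff F)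
    (hper : ∀ z : ℍ, F ((1 : ℝ) +ᵥ z) = F z) (hb : IsBoundedAtImInfty F)
    (hax : Tendsto (fun y : ℝ => F (twe55_iy y)) atTop (𝓝 c)) :
    Tendsto F atImInfty (𝓝 c) := by
  have hfper := twk_periodic_comp_ofComplex hper
  have han : AnalyticAt ℂ (cuspFunction 1 F) 0 :=
    analyticAt_cuspFunction_zero one_pos hfper hF hb
  have hcomp : (cuspFunction 1 F ∘ fun τ : ℍ ↦ Periodic.qParam 1 τ : ℍ → ℂ) = F := by
    funext τ
    simpa using eq_cuspFunction τ one_ne_zero hfper
  have hlim : Tendsto F atImInfty (𝓝 (cuspFunction 1 F 0)) := by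
    have := han.continuousAt.tendsto.comp (qParam_tendsto_atImInfty (h := 1) one_pos)
    rwa [hcomp] at this
  have hax' : Tendsto (fun y : ℝ => F (twe55_iy y)) atTop (𝓝 (cuspFunction 1 F 0)) :=
    hlim.comp twk_tendsto_iy
  rw [tendsto_nhds_unique hax hax']
  exact hlim

/-- the value at `i∞` is the limit along the axis. -/
theorem twk_valueAtInfty_eq {F : ℍ → ℂ} {c : ℂ} (hF : MDiff F)
    (hper : ∀ z : ℍ, F ((1 : ℝ) +ᵥ z) = F z) (hb : IsBoundedAtImInfty F)
    (hax : Tendsto (fun y : ℝ => F (twe55_iy y)) atTop (𝓝 c)) :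
    valueAtInfty F = c :=
  (twk_tendsto_atImInfty hF hper hb hax).limUnder_eq

/-- the constant term of the `q`-expansion is the limit along the axis. -/
theorem twk_qExpansion_coeff_zero {F : ℍ → ℂ} {c : ℂ} (hF : MDiff F)
    (hper : ∀ z : ℍ, F ((1 : ℝ) +ᵥ z) = F z) (hb : IsBoundedAtImInfty F)
    (hax : Tendsto (fun y : ℝ => F (twe55_iy y)) atTop (𝓝 c)) :
    (qExpansion 1 F).coeff 0 = c := by
  have hfper := twk_periodic_comp_ofComplex hper
  rw [qExpansion_coeff_zero one_pos (analyticAt_cuspFunction_zero one_pos hfper hF hb) hfper]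
  exact twk_valueAtInfty_eq hF hper hb hax

end Fermat.Agent.S42x
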