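/-
S42 project, block B1, leaf (b) part 2 (helper16, prefix `twc_`): the Eisenstein series of weight `4`
with character `ψ : Γ₀(M) →* ℂˣ` (trivial on `± T^n`, unitary), built from helper55's generic
weighted Eisenstein sums `twe55_E` (S42x/TwEis55) and the coefficient function `twc_coeff ψ`
(S42x/TwEisChar):
  `twc_E ψ ∣[4] γ = ψ γ • twc_E ψ` (`γ ∈ Γ₀(M)`), holomorphic, every slash translate bounded at `i∞`,
  `twc_E ψ (i y) → 2` as `y → ∞` (so `twc_E ψ ≠ 0`), periodicity of the slash translates at cusps,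
  and the slash invariance of `(twc_E ψ) ^ p` in weight `4 p` when `ψ ^ p = 1`.
-/
import Fermat.Agent.S42x.TwEis55
import Fermat.Agent.S42x.TwEisChar

set_option autoImplicit false

namespace Fermat.Agent.S42x

open EisensteinSeries UpperHalfPlane ModularForm Matrix CongruenceSubgroup Filter Topology
open scoped MatrixGroups Manifold

noncomputable section

variable {M : ℕ} {ψ : ↥(Gamma0 M) →* ℂˣ}

variable (ψ) in
/-- the Eisenstein series of weight `4` with character `ψ` (normalised with constant term `2`). -/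
def twc_E : ℍ → ℂ := twe55_E (twc_coeff ψ) 4

theorem twc_bdd (hT : twc_TrivUnip ψ) (hU : twc_Unitary ψ) : twe55_Bdd (twc_coeff ψ) :=
  fun v => twc_norm_coeff_le hT hU v

/-- holomorphy. -/
theorem twc_E_mdiff (hT : twc_TrivUnip ψ) (hU : twc_Unitary ψ) : MDiff (twc_E ψ) :=
  twe55_mdiff (twc_bdd hT hU) (by norm_num)

/-- every slash translate is bounded at `i∞` (boundedness at every cusp). -/
theorem twc_E_isBoundedAtImInfty_slash (hT : twc_TrivUnip ψ) (hU : twc_Unitary ψ) (A : SL(2, ℤ)) :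
    IsBoundedAtImInfty (twc_E ψ ∣[(4 : ℤ)] A) :=
  twe55_isBoundedAtImInfty_slash (twc_bdd hT hU) (by norm_num) A

/-- **the transformation law**: `E_ψ ∣[4] γ = ψ γ • E_ψ` for `γ ∈ Γ₀(M)`. -/
theorem twc_E_slash (hT : twc_TrivUnip ψ) (g : Gamma0 M) :
    twc_E ψ ∣[(4 : ℤ)] (g : SL(2, ℤ)) = ((ψ g : ℂˣ) : ℂ) • twc_E ψ := by
  unfold twc_E
  rw [twe55_slash]
  funext z
  simp only [twe55_E, twe55_tr, Pi.smul_apply, smul_eq_mul]
  rw [← tsum_mul_left]
  refine tsum_congr fun v => ?_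
  rw [twc_coeff_vecMul_inv hT g v, mul_assoc]

/-- pointwise form of the transformation law. -/
theorem twc_E_smul_apply (hT : twc_TrivUnip ψ) (g : Gamma0 M) (z : ℍ) :
    twc_E ψ ((g : SL(2, ℤ)) • z) =
      ((ψ g : ℂˣ) : ℂ) * denom ((g : SL(2, ℤ)) : GL (Fin 2) ℝ) z ^ (4 : ℤ) * twc_E ψ z := by
  have h := congrFun (twc_E_slash hT g) z
  rw [SL_slash_apply, Pi.smul_apply, smul_eq_mul] at h
  have hd : denom ((g : SL(2, ℤ)) : GL (Fin 2) ℝ) z ^ (4 : ℤ) ≠ 0 :=
    zpow_ne_zero _ (denom_ne_zero _ z)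
  rw [_root_.zpow_neg, mul_inv_eq_iff_eq_mul₀ hd] at h
  rw [h]
  ring

/-- the limit value is `2`. -/
theorem twc_lim_eq (hT : twc_TrivUnip ψ) : twe55_lim (twc_coeff ψ) 4 = 2 := by
  classical
  unfold twe55_lim
  have hne : (![0, 1] : Fin 2 → ℤ) ≠ ![0, -1] := by
    intro h
    have := congrFun h 1
    simp at this
  rw [tsum_eq_sum (s := {![0, 1], ![0, -1]})]
  · rw [Finset.sum_pair hne]
    have h1 : (![0, 1] : Fin 2 → ℤ) ∈ twc_rows M :=
      (twc_rows_zero_iff (M := M) (v := ![0, 1]) rfl).mpr (Or.inl rfl)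
    have h2 : (![0, -1] : Fin 2 → ℤ) ∈ twc_rows M :=
      (twc_rows_zero_iff (M := M) (v := ![0, -1]) rfl).mpr (Or.inr rfl)
    rw [if_pos (by rfl), if_pos (by rfl), twc_coeff_of_zero hT (by rfl) h1,
      twc_coeff_of_zero hT (by rfl) h2]
    norm_num
  · intro v hv
    by_cases h0 : v 0 = 0
    · rw [if_pos h0]
      have hv' : v ∉ twc_rows M := by
        intro hmem
        apply hv
        rcases (twc_rows_zero_iff h0).mp hmem with h1 | h1
        · have : v = ![0, 1] := by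
            funext i
            fin_cases i
            · exact h0
            · exact h1
          rw [this]
          simp
        · have : v = ![0, -1] := by
            funext i
            fin_cases i
            · exact h0
            · exact h1
          rw [this]
          simp
      rw [twc_coeff_of_notMem hv', zero_mul]
    · rw [if_neg h0]

/-- `E_ψ (i y) → 2` as `y → ∞`. -/
theorem twc_E_tendsto (hT : twc_TrivUnip ψ) (hU : twc_Unitary ψ) :
    Tendsto (fun y : ℝ => twc_E ψ (twe55_iy y)) atTop (𝓝 2) := by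
  have h := twe55_tendsto_axis (twc_bdd hT hU) (k := 4) (by norm_num)
  rwa [twc_lim_eq hT] at h

/-- `E_ψ` is not identically zero. -/
theorem twc_E_ne_zero (hT : twc_TrivUnip ψ) (hU : twc_Unitary ψ) : twc_E ψ ≠ 0 := by
  intro h
  have h1 := twc_E_tendsto hT hU
  rw [h] at h1
  simp only [Pi.zero_apply] at h1
  have := tendsto_nhds_unique h1 tendsto_const_nhds
  norm_num at this

/-- periodicity of the slash translates at a cusp: if `A T^n A⁻¹ = γ ∈ Γ₀(M)` and `ψ γ = 1`, then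
`E_ψ ∣[4] A` is invariant under `T^n`. -/
theorem twc_E_slash_periodic (hT : twc_TrivUnip ψ) (A B : SL(2, ℤ)) (g : Gamma0 M)
    (hg : A * B = (g : SL(2, ℤ)) * A) (hψ : ψ g = 1) :
    (twc_E ψ ∣[(4 : ℤ)] A) ∣[(4 : ℤ)] B = twc_E ψ ∣[(4 : ℤ)] A := by
  rw [← SlashAction.slash_mul, hg, SlashAction.slash_mul, twc_E_slash hT g, hψ,
    Units.val_one, one_smul]

/-- slash invariance of the `p`-th power in weight `4 p` when `ψ ^ p = 1`. -/
theorem twc_E_pow_slash (hT : twc_TrivUnip ψ) (p : ℕ) (hp : ∀ g : Gamma0 M, ψ g ^ p = 1)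
    (g : Gamma0 M) :
    (twc_E ψ ^ p) ∣[((4 * p : ℕ) : ℤ)] (g : SL(2, ℤ)) = twc_E ψ ^ p := by
  funext z
  rw [SL_slash_apply, Pi.pow_apply, twc_E_smul_apply hT g z, Pi.pow_apply, mul_pow, mul_pow,
    ← Units.val_pow_eq_pow_val, hp g, Units.val_one, one_mul]
  have hd : denom ((g : SL(2, ℤ)) : GL (Fin 2) ℝ) z ≠ 0 := denom_ne_zero _ z
  rw [_root_.zpow_neg, ← zpow_natCast (denom _ z ^ (4 : ℤ)) p, ← _root_.zpow_mul]
  have : ((4 : ℤ) * (p : ℤ)) = ((4 * p : ℕ) : ℤ) := by push_cast; ring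
  rw [this]
  have hd' : denom ((g : SL(2, ℤ)) : GL (Fin 2) ℝ) z ^ ((4 * p : ℕ) : ℤ) ≠ 0 := zpow_ne_zero _ hd
  field_simp

end

end Fermat.Agent.S42x
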