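/-
S42 project, block B1, leaf (d) (helper16, prefix `twc_`): the `Mer(ℍ)` interface of the Eisenstein
series with character.

`twc_u ψ = E_ψ / E_1 ∈ Mer` (S24x `Mer = Frac Hol`) is a nonzero meromorphic function on `ℍ` with
`γ⁻¹ • u = ψ(γ) · u` for `γ ∈ Γ₀(M)` (S24x action `(g • f)(τ) = f(g⁻¹ τ)`, i.e. `u(γ z) = ψ(γ) u(z)`),
in the EXACT shape of the last clause of `heq_Rel` (S42x/HeckeEqDefs), also for the official
character type `Additive (Gamma0 M) →+ Additive ℂˣ`.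
-/
import Fermat.Agent.S42x.TwEisCharSlash
import Fermat.Agent.S24x.Defs

set_option autoImplicit false

namespace Fermat.Agent.S42x

open EisensteinSeries UpperHalfPlane ModularForm Matrix CongruenceSubgroup Filter Topology
open Fermat.Agent.S24x
open scoped MatrixGroups Manifold

noncomputable section

variable {M : ℕ} {ψ : ↥(Gamma0 M) →* ℂˣ}

theorem twc_one_trivUnip (M : ℕ) : twc_TrivUnip (1 : ↥(Gamma0 M) →* ℂˣ) := fun _ _ => rfl

theorem twc_one_unitary (M : ℕ) : twc_Unitary (1 : ↥(Gamma0 M) →* ℂˣ) := fun _ => by simp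

variable (ψ) in
/-- `E_ψ` as an element of `Hol`. -/
def twc_EHol (hT : twc_TrivUnip ψ) (hU : twc_Unitary ψ) : Hol := ⟨twc_E ψ, twc_E_mdiff hT hU⟩

@[simp] theorem twc_EHol_coe (hT : twc_TrivUnip ψ) (hU : twc_Unitary ψ) :
    ((twc_EHol ψ hT hU : Hol) : ℍ → ℂ) = twc_E ψ := rfl

theorem twc_EHol_ne_zero (hT : twc_TrivUnip ψ) (hU : twc_Unitary ψ) : twc_EHol ψ hT hU ≠ 0 := by
  intro h
  exact twc_E_ne_zero hT hU (congrArg Subtype.val h)

/-- the transformation law in `Hol`, cross-multiplied against the trivial character. -/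
theorem twc_EHol_cross (hT : twc_TrivUnip ψ) (hU : twc_Unitary ψ) (g : Gamma0 M) :
    ((g : SL(2, ℤ))⁻¹ • twc_EHol ψ hT hU) *
        twc_EHol 1 (twc_one_trivUnip M) (twc_one_unitary M) =
      algebraMap ℂ Hol ((ψ g : ℂˣ) : ℂ) * twc_EHol ψ hT hU *
        ((g : SL(2, ℤ))⁻¹ • twc_EHol 1 (twc_one_trivUnip M) (twc_one_unitary M)) := by
  apply Subtype.ext
  funext τ
  show ((((g : SL(2, ℤ))⁻¹ • twc_EHol ψ hT hU : Hol) : ℍ → ℂ) τ) *
      ((twc_EHol 1 (twc_one_trivUnip M) (twc_one_unitary M) : Hol) : ℍ → ℂ) τ =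
    ((algebraMap ℂ Hol ((ψ g : ℂˣ) : ℂ) : Hol) : ℍ → ℂ) τ *
      ((twc_EHol ψ hT hU : Hol) : ℍ → ℂ) τ *
      ((((g : SL(2, ℤ))⁻¹ • twc_EHol 1 (twc_one_trivUnip M) (twc_one_unitary M) : Hol) :
        ℍ → ℂ) τ)
  rw [smul_Hol_apply, smul_Hol_apply, inv_inv, algebraMap_Hol_apply, twc_EHol_coe, twc_EHol_coe,
    twc_E_smul_apply hT g τ, twc_E_smul_apply (twc_one_trivUnip M) g τ, MonoidHom.one_apply,
    Units.val_one]
  ring

variable (ψ) in
/-- the meromorphic function `u_ψ = E_ψ / E_1` on `ℍ`. -/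
def twc_u (hT : twc_TrivUnip ψ) (hU : twc_Unitary ψ) : Mer :=
  algebraMap Hol Mer (twc_EHol ψ hT hU) /
    algebraMap Hol Mer (twc_EHol 1 (twc_one_trivUnip M) (twc_one_unitary M))

theorem twc_algebraMap_ne_zero {f : Hol} (hf : f ≠ 0) : algebraMap Hol Mer f ≠ 0 := by
  intro h
  apply hf
  exact (IsFractionRing.injective Hol Mer) (by rw [h, map_zero])

theorem twc_u_ne_zero (hT : twc_TrivUnip ψ) (hU : twc_Unitary ψ) : twc_u ψ hT hU ≠ 0 :=
  div_ne_zero (twc_algebraMap_ne_zero (twc_EHol_ne_zero hT hU))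
    (twc_algebraMap_ne_zero (twc_EHol_ne_zero _ _))

/-- **the character law in `Mer`**: `γ⁻¹ • u_ψ = ψ(γ) · u_ψ`, i.e. `u_ψ(γ z) = ψ(γ) u_ψ(z)`. -/
theorem twc_u_char (hT : twc_TrivUnip ψ) (hU : twc_Unitary ψ) (g : Gamma0 M) :
    ((g : SL(2, ℤ))⁻¹ • twc_u ψ hT hU : Mer) =
      algebraMap ℂ Mer ((ψ g : ℂˣ) : ℂ) * twc_u ψ hT hU := by
  unfold twc_u
  set a := twc_EHol ψ hT hU with ha
  set b := twc_EHol 1 (twc_one_trivUnip M) (twc_one_unitary M) with hb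
  have hb0 : algebraMap Hol Mer b ≠ 0 := twc_algebraMap_ne_zero (twc_EHol_ne_zero _ _)
  have hgb0 : algebraMap Hol Mer ((g : SL(2, ℤ))⁻¹ • b) ≠ 0 := by
    apply twc_algebraMap_ne_zero
    intro h
    apply twc_EHol_ne_zero (twc_one_trivUnip M) (twc_one_unitary M)
    have := congrArg (fun x => (g : SL(2, ℤ)) • x) h
    simpa using this
  have hcross := congrArg (algebraMap Hol Mer) (twc_EHol_cross hT hU g)
  rw [map_mul, map_mul, map_mul, ← IsScalarTower.algebraMap_apply ℂ Hol Mer, ← ha, ← hb] at hcross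
  have hdiv : ((g : SL(2, ℤ))⁻¹ • (algebraMap Hol Mer a / algebraMap Hol Mer b) : Mer) =
      ((g : SL(2, ℤ))⁻¹ • algebraMap Hol Mer a) / ((g : SL(2, ℤ))⁻¹ • algebraMap Hol Mer b) :=
    map_div₀ (MulSemiringAction.toRingHom SL(2, ℤ) Mer (g : SL(2, ℤ))⁻¹) _ _
  rw [hdiv, smul_algebraMap_Mer, smul_algebraMap_Mer, div_eq_iff hgb0]
  field_simp
  linear_combination hcross

/-- `u_ψ ^ p` as a quotient of the `p`-th powers. -/
theorem twc_u_pow (hT : twc_TrivUnip ψ) (hU : twc_Unitary ψ) (p : ℕ) :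
    twc_u ψ hT hU ^ p = algebraMap Hol Mer (twc_EHol ψ hT hU ^ p) /
      algebraMap Hol Mer (twc_EHol 1 (twc_one_trivUnip M) (twc_one_unitary M) ^ p) := by
  unfold twc_u
  rw [div_pow, map_pow, map_pow]

/-! ### the official character type `Additive (Gamma0 M) →+ Additive ℂˣ` -/

/-- the multiplicative character attached to an additive one. -/
def twc_ofAdd (psi : Additive (Gamma0 M) →+ Additive ℂˣ) : ↥(Gamma0 M) →* ℂˣ :=
  MonoidHom.toAdditive.symm psi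

@[simp] theorem twc_ofAdd_apply (psi : Additive (Gamma0 M) →+ Additive ℂˣ) (g : Gamma0 M) :
    twc_ofAdd psi g = (psi (Additive.ofMul g)).toMul := rfl

/-- **B1 → R5 interface**: for an additive character `psi` (S16x `cohOpGen` type) which kills the
matrices with vanishing lower-left entry and is unitary, there is a nonzero `h ∈ Mer` with
`γ⁻¹ • h = psi(γ) · h` for all `γ ∈ Γ₀(M)` (last clause of `heq_Rel`), namely `h = E_psi / E_1`. -/
theorem twc_exists_mer (psi : Additive (Gamma0 M) →+ Additive ℂˣ)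
    (hT : ∀ g : Gamma0 M, (g : SL(2, ℤ)) 1 0 = 0 → psi (Additive.ofMul g) = 0)
    (hU : ∀ g : Gamma0 M, ‖(((psi (Additive.ofMul g)).toMul : ℂˣ) : ℂ)‖ = 1) :
    ∃ h : Mer, h ≠ 0 ∧ ∀ γ : Gamma0 M, ((γ : SL(2, ℤ))⁻¹ • h : Mer) =
      algebraMap ℂ Mer (((psi (Additive.ofMul γ)).toMul : ℂˣ) : ℂ) * h := by
  have hT' : twc_TrivUnip (twc_ofAdd psi) := by
    intro g hg
    rw [twc_ofAdd_apply, hT g hg]
    rfl
  have hU' : twc_Unitary (twc_ofAdd psi) := fun g => hU g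
  exact ⟨twc_u (twc_ofAdd psi) hT' hU', twc_u_ne_zero hT' hU', fun γ => twc_u_char hT' hU' γ⟩

end

end Fermat.Agent.S42x
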