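/-
S42 project, block B1, leaf B1.6 part A (helper76), prefix `twt_`.

Concrete consequences for the Eisenstein series `twc_E ψ` with character `ψ : Γ₀(M) →* ℂˣ`
(helper16, `TwEisCharSlash`) of the abstract packaging `TwEisMF`:
* `twt_isMF_pow`   : `(twc_E ψ) ^ p` is a modular form of weight `p * 4` on `Γ₀(M)` if `ψ ^ p = 1`;
* `twt_one_*`      : the trivial character satisfies all hypotheses;
* `twt_ratio_mem`  : `qL ((twc_E ψ) ^ p) / qL ((twc_E 1) ^ p) ∈ S23x.ratioField M = ℂ(j, j_M)`;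
* `twt_ratio_ne_zero`.
-/
import Fermat.Agent.S42x.TwEisCharSlash
import Fermat.Agent.S42x.TwEisMF

set_option autoImplicit false

namespace Fermat.Agent.S42x

open UpperHalfPlane ModularForm CongruenceSubgroup Filter
open scoped MatrixGroups Manifold Topology

variable {M : ℕ}

/-- The trivial character is trivial on `± T^n`. -/
theorem twt_one_trivUnip : twc_TrivUnip (1 : ↥(Gamma0 M) →* ℂˣ) := fun _ _ => rfl

/-- The trivial character is unitary. -/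
theorem twt_one_unitary : twc_Unitary (1 : ↥(Gamma0 M) →* ℂˣ) := fun _ => by simp

/-- `E_1`, the Eisenstein series with trivial character on `Γ₀(M)` (constant term `2`). -/
noncomputable def twt_E1 (M : ℕ) : ℍ → ℂ := twc_E (1 : ↥(Gamma0 M) →* ℂˣ)

theorem twt_E1_mdiff : MDiff (twt_E1 M) := twc_E_mdiff twt_one_trivUnip twt_one_unitary

theorem twt_E1_ne_zero : twt_E1 M ≠ 0 := twc_E_ne_zero twt_one_trivUnip twt_one_unitary

theorem twt_E1_slash (g : ↥(Gamma0 M)) : twt_E1 M ∣[(4 : ℤ)] (g : SL(2, ℤ)) = twt_E1 M := by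
  have h := twc_E_slash (ψ := (1 : ↥(Gamma0 M) →* ℂˣ)) twt_one_trivUnip g
  simpa [twt_E1] using h

theorem twt_E1_bdd (A : SL(2, ℤ)) : IsBoundedAtImInfty (twt_E1 M ∣[(4 : ℤ)] A) :=
  twc_E_isBoundedAtImInfty_slash twt_one_trivUnip twt_one_unitary A

variable {ψ : ↥(Gamma0 M) →* ℂˣ}

/-- **`E_ψ ^ p` is a modular form of weight `4 p` on `Γ₀(M)`** when `ψ ^ p = 1`. -/
theorem twt_isMF_pow [NeZero M] (hT : twc_TrivUnip ψ) (hU : twc_Unitary ψ) (p : ℕ)
    (hp : ∀ g : ↥(Gamma0 M), ψ g ^ p = 1) :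
    S23x.IsMF M ((p : ℤ) * 4) (twc_E ψ ^ p) :=
  twm_isMF_pow (twc_E_mdiff hT hU) (fun g => ((ψ g : ℂˣ) : ℂ)) (fun g => twc_E_slash hT g)
    (fun A => twc_E_isBoundedAtImInfty_slash hT hU A) p
    (fun g => by rw [← Units.val_pow_eq_pow_val, hp g, Units.val_one])

/-- `E_1 ^ p` is a modular form of weight `4 p` on `Γ₀(M)`. -/
theorem twt_isMF_E1_pow [NeZero M] (p : ℕ) : S23x.IsMF M ((p : ℤ) * 4) (twt_E1 M ^ p) :=
  twt_isMF_pow twt_one_trivUnip twt_one_unitary p (fun _ => one_pow p)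

/-- **The modular function `(E_ψ / E_1) ^ p` lies in `ℂ(j, j_M)`** (as a `q`-expansion). -/
theorem twt_ratio_mem [NeZero M] (hT : twc_TrivUnip ψ) (hU : twc_Unitary ψ) (p : ℕ)
    (hp : ∀ g : ↥(Gamma0 M), ψ g ^ p = 1) :
    S23x.qL (twc_E ψ ^ p) / S23x.qL (twt_E1 M ^ p) ∈ S23x.ratioField M :=
  twm_qL_div_mem (twt_isMF_pow hT hU p hp) (twt_isMF_E1_pow p) (twm_pow_ne_zero twt_E1_ne_zero p)

/-- The modular function `(E_ψ / E_1) ^ p` is not zero. -/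
theorem twt_ratio_ne_zero [NeZero M] (hT : twc_TrivUnip ψ) (hU : twc_Unitary ψ) (p : ℕ)
    (hp : ∀ g : ↥(Gamma0 M), ψ g ^ p = 1) :
    S23x.qL (twc_E ψ ^ p) / S23x.qL (twt_E1 M ^ p) ≠ 0 := by
  have h1 : S23x.qL (twc_E ψ ^ p) ≠ 0 := fun h =>
    twm_pow_ne_zero (twc_E_ne_zero hT hU) p
      ((S23x.qL_eq_zero_iff (twt_isMF_pow hT hU p hp).isNice).mp h)
  have h2 : S23x.qL (twt_E1 M ^ p) ≠ 0 := fun h =>
    twm_pow_ne_zero twt_E1_ne_zero p ((S23x.qL_eq_zero_iff (twt_isMF_E1_pow p).isNice).mp h)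
  exact div_ne_zero h1 h2

end Fermat.Agent.S42x
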