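/-
S42 project, block B1, leaf B1.6 part B = **B1 TOP** (helper76), prefix `twt_`.

Assembly of block B1 for the character `ψ_χ = exp(2 π i χ / p)` of a parabolic homomorphism
`χ : Γ₀(M) → ℤ` (`twp_psi p χ`, helper12), on top of
`TwEis55` (helper55), `TwEisChar`/`TwEisCharSlash`/`TwEisMer` (helper16), `TwEisCusp` (helper71),
`TwEisMF`/`TwEisRatio` (helper76):

* `twt_Echi p χ : ℍ → ℂ`                the weight-4 Eisenstein series with character `ψ_χ`;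
* `twt_Echi_mdiff`, `twt_Echi_slash`, `twt_Echi_bdd`   holomorphy, transformation law, boundedness of
  every `SL(2,ℤ)`-slash at `i∞`;
* `twt_Echi_cusp_periodic`              `(E ∣[4] A)(z + n) = (E ∣[4] A)(z)` when `A T^n A⁻¹ ∈ Γ₀(M)`;
* `twt_Echi_periodic`, `twt_Echi_tendsto` (`→ 2` at `i∞`), `twt_Echi_coeff_zero`, `twt_Echi_ne_zero`;
* `twt_Echi_isMF_pow`                   `E ^ p` is a modular form of weight `4 p` on `Γ₀(M)`;
* `twt_chi_ratio_mem`, `twt_chi_ratio_ne_zero`   `(E_χ / E_1) ^ p ∈ S23x.ratioField M = ℂ(j, j_M)`;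
* `twt_chi_mer`                         the meromorphic `p`-th root `h = E_χ / E_1 ∈ Mer` with
  `γ⁻¹ • h = ψ_χ(γ) h` (the last clause of `heq_Rel`) and `h ^ p = mk (E_χ ^ p) / mk (E_1 ^ p)`.
-/
import Fermat.Agent.S42x.TwEisRatio
import Fermat.Agent.S42x.TwEisMer
import Fermat.Agent.S42x.TwEisCusp
import Fermat.Agent.S42x.TwEisPsi

set_option autoImplicit false

namespace Fermat.Agent.S42x

open UpperHalfPlane ModularForm CongruenceSubgroup Filter ModularCurve.Period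
open Fermat.Agent.S24x
open scoped MatrixGroups Manifold Topology

variable {M : ℕ}

/-! ### general unitary characters trivial on `± T^n` -/

section general

variable {ψ : ↥(Gamma0 M) →* ℂˣ}

theorem twt_T_mem (M : ℕ) : ModularGroup.T ∈ Gamma0 M := by
  rw [Gamma0_mem]
  simp [ModularGroup.T]

/-- `E_ψ` is `1`-periodic. -/
theorem twt_E_periodic (hT : twc_TrivUnip ψ) (z : ℍ) : twc_E ψ ((1 : ℝ) +ᵥ z) = twc_E ψ z := by
  have h := twc_E_smul_apply hT ⟨ModularGroup.T, twt_T_mem M⟩ z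
  have hψ : ψ ⟨ModularGroup.T, twt_T_mem M⟩ = 1 := hT _ (by simp [ModularGroup.T])
  have hd : denom ((ModularGroup.T : SL(2, ℤ)) : GL (Fin 2) ℝ) z = 1 := by
    have := twk_denom_T_zpow 1 z
    simpa using this
  rw [hψ, Units.val_one, one_mul] at h
  simp only [] at h
  rw [hd, one_zpow, one_mul, modular_T_smul] at h
  exact h

/-- `E_ψ` is bounded at `i∞`. -/
theorem twt_E_bdd (hT : twc_TrivUnip ψ) (hU : twc_Unitary ψ) : IsBoundedAtImInfty (twc_E ψ) := by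
  have h := twc_E_isBoundedAtImInfty_slash hT hU 1
  rwa [SlashAction.slash_one] at h

/-- `E_ψ → 2` at `i∞`. -/
theorem twt_E_tendsto (hT : twc_TrivUnip ψ) (hU : twc_Unitary ψ) :
    Tendsto (twc_E ψ) atImInfty (𝓝 2) :=
  twk_tendsto_atImInfty (twc_E_mdiff hT hU) (twt_E_periodic hT) (twt_E_bdd hT hU)
    (twc_E_tendsto hT hU)

/-- The constant term of the `q`-expansion of `E_ψ` is `2`. -/
theorem twt_E_coeff_zero (hT : twc_TrivUnip ψ) (hU : twc_Unitary ψ) :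
    (qExpansion 1 (twc_E ψ)).coeff 0 = 2 :=
  twk_qExpansion_coeff_zero (twc_E_mdiff hT hU) (twt_E_periodic hT) (twt_E_bdd hT hU)
    (twc_E_tendsto hT hU)

/-- `E_ψ` is "nice" (holomorphic, `1`-periodic, bounded at `i∞`): `S23x.qL` is multiplicative on
it. -/
theorem twt_E_isNice (hT : twc_TrivUnip ψ) (hU : twc_Unitary ψ) : S23x.IsNice (twc_E ψ) :=
  ⟨twc_E_mdiff hT hU, twt_E_periodic hT, twt_E_bdd hT hU⟩

end general

/-! ### the character `ψ_χ` -/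

section chi

variable (p : ℕ) (χ : Additive ↥(Gamma0 M) →+ ℤ)

theorem twt_chi_trivUnip {χ : Additive ↥(Gamma0 M) →+ ℤ} (hχ : IsParabolicHom (Gamma0 M) χ) :
    twc_TrivUnip (twp_psi p χ) :=
  fun g hg => twp_psi_of_lower_left p hχ g hg

theorem twt_chi_unitary : twc_Unitary (twp_psi p χ) := fun g => twp_norm_psi p χ g

/-- **The Eisenstein series of weight `4` with character `ψ_χ = exp(2 π i χ / p)`.** -/
noncomputable def twt_Echi : ℍ → ℂ := twc_E (twp_psi p χ)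

variable {χ} (hχ : IsParabolicHom (Gamma0 M) χ)

include hχ

theorem twt_Echi_mdiff : MDiff (twt_Echi p χ) :=
  twc_E_mdiff (twt_chi_trivUnip p hχ) (twt_chi_unitary p χ)

theorem twt_Echi_slash (g : ↥(Gamma0 M)) :
    twt_Echi p χ ∣[(4 : ℤ)] (g : SL(2, ℤ)) = ((twp_psi p χ g : ℂˣ) : ℂ) • twt_Echi p χ :=
  twc_E_slash (twt_chi_trivUnip p hχ) g

theorem twt_Echi_bdd (A : SL(2, ℤ)) : IsBoundedAtImInfty (twt_Echi p χ ∣[(4 : ℤ)] A) :=
  twc_E_isBoundedAtImInfty_slash (twt_chi_trivUnip p hχ) (twt_chi_unitary p χ) A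

/-- **Periodicity at every cusp**: if `A T^n A⁻¹ ∈ Γ₀(M)` then `E_χ ∣[4] A` has period `n`. -/
theorem twt_Echi_cusp_periodic (A : SL(2, ℤ)) (n : ℤ)
    (hmem : A * ModularGroup.T ^ n * A⁻¹ ∈ Gamma0 M) (z : ℍ) :
    (twt_Echi p χ ∣[(4 : ℤ)] A) ((n : ℝ) +ᵥ z) = (twt_Echi p χ ∣[(4 : ℤ)] A) z :=
  twk_slash_periodic (twt_Echi p χ) 4 (fun g => ((twp_psi p χ g : ℂˣ) : ℂ))
    (twt_Echi_slash p hχ) A n hmem (twp_psi_coe_conj_T_zpow p hχ A n hmem) z

theorem twt_Echi_periodic (z : ℍ) : twt_Echi p χ ((1 : ℝ) +ᵥ z) = twt_Echi p χ z :=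
  twt_E_periodic (twt_chi_trivUnip p hχ) z

theorem twt_Echi_tendsto : Tendsto (twt_Echi p χ) atImInfty (𝓝 2) :=
  twt_E_tendsto (twt_chi_trivUnip p hχ) (twt_chi_unitary p χ)

theorem twt_Echi_coeff_zero : (qExpansion 1 (twt_Echi p χ)).coeff 0 = 2 :=
  twt_E_coeff_zero (twt_chi_trivUnip p hχ) (twt_chi_unitary p χ)

theorem twt_Echi_ne_zero : twt_Echi p χ ≠ 0 :=
  twc_E_ne_zero (twt_chi_trivUnip p hχ) (twt_chi_unitary p χ)

theorem twt_Echi_isNice : S23x.IsNice (twt_Echi p χ) :=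
  twt_E_isNice (twt_chi_trivUnip p hχ) (twt_chi_unitary p χ)

/-- **`E_χ ^ p` is a modular form of weight `4 p` on `Γ₀(M)`.** -/
theorem twt_Echi_isMF_pow [NeZero M] : S23x.IsMF M ((p : ℤ) * 4) (twt_Echi p χ ^ p) :=
  twt_isMF_pow (twt_chi_trivUnip p hχ) (twt_chi_unitary p χ) p (fun g => twp_psi_pow p χ g)

/-- **The modular function `f_χ = (E_χ / E_1) ^ p` lies in `ℂ(j, j_M)`.** -/
theorem twt_chi_ratio_mem [NeZero M] :
    S23x.qL (twt_Echi p χ ^ p) / S23x.qL (twt_E1 M ^ p) ∈ S23x.ratioField M :=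
  twt_ratio_mem (twt_chi_trivUnip p hχ) (twt_chi_unitary p χ) p (fun g => twp_psi_pow p χ g)

theorem twt_chi_ratio_ne_zero [NeZero M] :
    S23x.qL (twt_Echi p χ ^ p) / S23x.qL (twt_E1 M ^ p) ≠ 0 :=
  twt_ratio_ne_zero (twt_chi_trivUnip p hχ) (twt_chi_unitary p χ) p (fun g => twp_psi_pow p χ g)

/-- `E_χ ^ p` as an element of `Hol`. -/
noncomputable def twt_EchiPowHol : Hol :=
  ⟨twt_Echi p χ ^ p, (twt_Echi_mdiff p hχ).pow p⟩

omit hχ in
/-- `E_1 ^ p` as an element of `Hol`. -/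
noncomputable def twt_E1PowHol (M p : ℕ) : Hol := ⟨twt_E1 M ^ p, twt_E1_mdiff.pow p⟩

/-- **The meromorphic `p`-th root**: `h = E_χ / E_1 ∈ Mer` is nonzero, has character `ψ_χ`
(in the exact shape of the last clause of `heq_Rel`), and `h ^ p = mk (E_χ ^ p) / mk (E_1 ^ p)`. -/
theorem twt_chi_mer :
    ∃ h : Mer, h ≠ 0 ∧
      (∀ γ : ↥(Gamma0 M), ((γ : SL(2, ℤ))⁻¹ • h : Mer) =
        algebraMap ℂ Mer (((twp_psiAdd p χ (Additive.ofMul γ)).toMul : ℂˣ) : ℂ) * h) ∧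
      h ^ p = algebraMap Hol Mer (twt_EchiPowHol p hχ) / algebraMap Hol Mer (twt_E1PowHol M p) := by
  refine ⟨twc_u (twp_psi p χ) (twt_chi_trivUnip p hχ) (twt_chi_unitary p χ),
    twc_u_ne_zero _ _, fun γ => ?_, ?_⟩
  · rw [twp_psiAdd_toMul]
    exact twc_u_char (twt_chi_trivUnip p hχ) (twt_chi_unitary p χ) γ
  · rw [twc_u_pow]
    rfl

end chi

end Fermat.Agent.S42x
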