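/-
S42x/CDictTop57 (helper57, prefix `cdt57_`): block B3, leaf B3.5 TOP-GLUE — the producer of the
B1+B3 input of R5, and the complete R5 for the "finite places" chain.

Carrier: any presentation `FC` of the level `M` function field over `ℂ` inside `ℂ((q))` with
`hFC : FC = S23x.ratioField M` (for `modularFunctionFieldFullC ℂ M` use `(cdcb_fullC_eq M).symm`),
with a realisation bundle `D : cdc_Real FC M jF` (B3.1 EV) which is compatible with
`q`-expansions of modular forms (`cdt57_Compat`, = helper81's `inj_EvCompat`).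

* `cdt57_of_forms` : forms `A, B` of equal weight on `Γ₀(M)` and `h₁ ∈ Mer` with
  `h₁ ^ p = mk A / mk B`, `gcd (p, 6) = 1`  ⟹  `fC := qL A / qL B ∈ FC`, `h₁ ^ p = D.φ fC` and
  `p ∣ P.ord fC` at every place `P` where `jF` is finite (COVFIN + FINAL71).
  `cdt57_of_forms_all` : with `hpole` (conclusion of CUSPUNIT) at ALL places.
* `cdt57_chi_fin` : the same for `A = E_χ ^ p`, `B = E_1 ^ p` of block B1 (`twt_chi_mer`).
* `cdt57_R5_fin` : **R5 for the finite-places chain**: for every parabolic `χ : Γ₀(M) → ℤ` there is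
  `x : JZero M` with `heq_Rel M p x ψ_χ`; inputs: only the EV bundle `D`, its compatibility with forms,
  and `D.φ ∘ ι = evF` (B3.1 export (d)).  Chain: B1 (`twt_`) → COVFIN (`cdf_covering_finite`) →
  FINAL71 (`cdcf71_dvd_finite`, `cdcf71_dvd_ordAt_of_finite`) → B4 (`inj_exists_T0_of_dict`,
  `PP = {P | 0 ≤ P.ord jF}`) → B7 (`dsct57_top_fin'`) → R5c over `ℚ̄` (`dsdq_dvd_ord`) → R5-ASM
  (`r5a_of_descended`).  No information about the cusps of `FC` is used.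
-/
import Mathlib
import Fermat.Agent.S42x.CDictCovFin
import Fermat.Agent.S42x.CDictFinal71
import Fermat.Agent.S42x.CDictBridge
import Fermat.Agent.S42x.TwEisTop
import Fermat.Agent.S42x.InjT0
import Fermat.Agent.S42x.DescFinalFin57
import Fermat.Agent.S42x.DescDivFinal
import Fermat.Agent.S42x.R5Asm

set_option autoImplicit false

namespace Fermat.Agent.S42x

open UpperHalfPlane ModularCurve AlgebraicCurve CongruenceSubgroup ModularCurve.Period
open Fermat.Agent.S24x Fermat.Agent.S23x Fermat.Agent.S18x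
open scoped MatrixGroups Manifold

/-- compatibility of a realisation of `FC ⊆ ℂ((q))` in `Mer` with `q`-expansions of forms
(= `inj_EvCompat` when `FC = ratioField M`) -/
def cdt57_Compat (M : ℕ) [NeZero M] (FC : IntermediateField ℂ (LaurentSeries ℂ))
    (ev : FC →+* Mer) : Prop :=
  ∀ (x : FC) (m : ℤ) (A B : Hol), IsMF M m (A : ℍ → ℂ) → IsMF M m (B : ℍ → ℂ) →
    B ≠ 0 → (x : LS) * qL (B : ℍ → ℂ) = qL (A : ℍ → ℂ) →
      ev x * algebraMap Hol Mer B = algebraMap Hol Mer A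

theorem cdt57_compat_iff (M : ℕ) [NeZero M] (ev : ratioField M →+* Mer) :
    cdt57_Compat M (ratioField M) ev ↔ inj_EvCompat M ev := Iff.rfl

/-- `j` is a coordinate of every presentation of the function field. -/
theorem cdt57_isCoordinate (M : ℕ) [NeZero M] (FC : IntermediateField ℂ (LaurentSeries ℂ))
    (hFC : FC = modularFunctionFieldFullC ℂ M) (jF : FC)
    (hjF : (jF : LaurentSeries ℂ) = jqModC ℂ) : IsCoordinate ℂ FC jF := by
  subst hFC
  have hj : jF = pls_jb ℂ M := Subtype.ext hjF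
  subst hj
  exact pls_isCoordinate_jb ℂ M

section forms

variable {M : ℕ} [NeZero M] {FC : IntermediateField ℂ (LaurentSeries ℂ)}
  (hFC : FC = ratioField M) {jF : FC} (hjF : (jF : LaurentSeries ℂ) = jqModC ℂ)
  (D : cdc_Real FC M jF) (hev : cdt57_Compat M FC D.φ)

include hFC hjF hev

/-- **from forms to the function field, finite places.** -/
theorem cdt57_of_forms {p : ℕ} (hp6 : Nat.Coprime p 6) {m : ℤ} {A B : Hol}
    (hA : IsMF M m (A : ℍ → ℂ)) (hB : IsMF M m (B : ℍ → ℂ)) (hA0 : A ≠ 0) (hB0 : B ≠ 0)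
    {h₁ : Mer} (hpow : h₁ ^ p = algebraMap Hol Mer A / algebraMap Hol Mer B) :
    ∃ fC : FC, fC ≠ 0 ∧ (fC : LS) * qL (B : ℍ → ℂ) = qL (A : ℍ → ℂ) ∧ h₁ ^ p = D.φ fC ∧
      ∀ P : Place ℂ FC, 0 ≤ P.ord jF → (p : ℤ) ∣ P.ord fC := by
  have hqB : qL (B : ℍ → ℂ) ≠ 0 := m04_qL_ne_zero hB (fun h0 => hB0 (Subtype.ext h0))
  have hqA : qL (A : ℍ → ℂ) ≠ 0 := m04_qL_ne_zero hA (fun h0 => hA0 (Subtype.ext h0))
  have hmem : qL (A : ℍ → ℂ) * (qL (B : ℍ → ℂ))⁻¹ ∈ FC := by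
    rw [hFC, mem_ratioField_iff]
    refine ⟨m, (A : ℍ → ℂ), (B : ℍ → ℂ), hA.cast (add_zero m).symm, hB,
      fun h0 => hB0 (Subtype.ext h0), ?_⟩
    rw [mul_assoc, inv_mul_cancel₀ hqB, mul_one]
  set fC : FC := ⟨_, hmem⟩ with hfC
  have hx : (fC : LS) * qL (B : ℍ → ℂ) = qL (A : ℍ → ℂ) := by
    show qL (A : ℍ → ℂ) * (qL (B : ℍ → ℂ))⁻¹ * qL (B : ℍ → ℂ) = _
    rw [mul_assoc, inv_mul_cancel₀ hqB, mul_one]
  have hfC0 : fC ≠ 0 := by
    intro h0
    rw [h0] at hx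
    simp only [ZeroMemClass.coe_zero, zero_mul] at hx
    exact hqA hx.symm
  have hBm : algebraMap Hol Mer B ≠ 0 := inj_algebraMap_ne_zero hB0
  have hroot : h₁ ^ p = D.φ fC := by
    rw [hpow, div_eq_iff hBm]
    exact (hev fC m A B hA hB hB0 hx).symm
  have hcoord : IsCoordinate ℂ FC jF :=
    cdt57_isCoordinate M FC (hFC.trans (cdcb_fullC_eq M).symm) jF hjF
  refine ⟨fC, hfC0, hx, hroot, fun P hP => ?_⟩
  exact cdcf71_dvd_finite D hcoord (fun c τ₀ hτ₀ v hv => cdf_covering_finite D hcoord c τ₀ hτ₀ v hv)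
    hp6 hroot hP

/-- **from forms to the function field, all places** (given the conclusion of CUSPUNIT). -/
theorem cdt57_of_forms_all {p : ℕ} (hp6 : Nat.Coprime p 6) {m : ℤ} {A B : Hol}
    (hA : IsMF M m (A : ℍ → ℂ)) (hB : IsMF M m (B : ℍ → ℂ)) (hA0 : A ≠ 0) (hB0 : B ≠ 0)
    {h₁ : Mer} (hpow : h₁ ^ p = algebraMap Hol Mer A / algebraMap Hol Mer B)
    (hpole : ∀ fC : FC, h₁ ^ p = D.φ fC → ∀ v : Place ℂ FC, v ∈ polePlaces ℂ FC jF →
      v.ord fC = 0) :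
    ∃ fC : FC, fC ≠ 0 ∧ (fC : LS) * qL (B : ℍ → ℂ) = qL (A : ℍ → ℂ) ∧ h₁ ^ p = D.φ fC ∧
      ∀ P : Place ℂ FC, (p : ℤ) ∣ P.ord fC := by
  obtain ⟨fC, hfC0, hx, hroot, hfin⟩ := cdt57_of_forms hFC hjF D hev hp6 hA hB hA0 hB0 hpow
  refine ⟨fC, hfC0, hx, hroot, fun P => ?_⟩
  rcases lt_or_ge (P.ord jF) 0 with hv | hv
  · rw [hpole fC hroot P hv]
    exact dvd_zero _
  · exact hfin P hv

end forms

/-! ### the Eisenstein input of block B1 -/

section chi

variable {M : ℕ} [NeZero M] {FC : IntermediateField ℂ (LaurentSeries ℂ)}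
  (hFC : FC = ratioField M) {jF : FC} (hjF : (jF : LaurentSeries ℂ) = jqModC ℂ)
  (D : cdc_Real FC M jF) (hev : cdt57_Compat M FC D.φ)

theorem cdt57_EchiPowHol_ne_zero (p : ℕ) {χ : Additive ↥(Gamma0 M) →+ ℤ}
    (hχ : IsParabolicHom (Gamma0 M) χ) : twt_EchiPowHol p hχ ≠ 0 := by
  intro h0
  have h1 : (twt_Echi p χ ^ p : ℍ → ℂ) = 0 := congrArg Subtype.val h0
  apply twt_Echi_ne_zero p hχ
  funext z
  have := congrFun h1 z
  simp only [Pi.pow_apply, Pi.zero_apply] at this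
  exact eq_zero_of_pow_eq_zero this

theorem cdt57_E1PowHol_ne_zero (M p : ℕ) : twt_E1PowHol M p ≠ 0 := by
  intro h0
  have h1 : (twt_E1 M ^ p : ℍ → ℂ) = 0 := congrArg Subtype.val h0
  apply twt_E1_ne_zero (M := M)
  funext z
  have := congrFun h1 z
  simp only [Pi.pow_apply, Pi.zero_apply] at this
  exact eq_zero_of_pow_eq_zero this

/-- the character `ψ_χ` is parabolic when `χ` is. -/
theorem cdt57_psiAdd_parabolic (p : ℕ) {χ : Additive ↥(Gamma0 M) →+ ℤ}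
    (hχ : IsParabolicHom (Gamma0 M) χ) : IsParabolicHom (Gamma0 M) (twp_psiAdd p χ) := by
  intro γ hγ
  rw [twp_psiAdd_apply, toMul_ofMul, twp_psi_apply, hχ γ hγ]
  show Additive.ofMul (twp_zeta p ^ (0 : ℤ)) = 0
  rw [zpow_zero]
  rfl

include hFC hjF hev

/-- **B1 + B3, finite places**: the function `f_χ = (E_χ / E_1) ^ p` of `FC`, its root `h₁` with
character `ψ_χ`, and `p ∣ P.ord f_χ` at all places where `j` is finite. -/
theorem cdt57_chi_fin {p : ℕ} (hp6 : Nat.Coprime p 6) {χ : Additive ↥(Gamma0 M) →+ ℤ}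
    (hχ : IsParabolicHom (Gamma0 M) χ) :
    ∃ (fC : FC) (h₁ : Mer), fC ≠ 0 ∧ h₁ ≠ 0 ∧ r5a_HasChar M (twp_psiAdd p χ) h₁ ∧
      h₁ ^ p = D.φ fC ∧ ∀ P : Place ℂ FC, 0 ≤ P.ord jF → (p : ℤ) ∣ P.ord fC := by
  obtain ⟨h₁, hh0, hchar, hpow⟩ := twt_chi_mer p hχ
  obtain ⟨fC, hfC0, -, hroot, hdiv⟩ := cdt57_of_forms hFC hjF D hev hp6
    (A := twt_EchiPowHol p hχ) (B := twt_E1PowHol M p) (twt_Echi_isMF_pow p hχ)
    (twt_isMF_E1_pow p) (cdt57_EchiPowHol_ne_zero p hχ) (cdt57_E1PowHol_ne_zero M p) hpow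
  exact ⟨fC, h₁, hfC0, hh0, hchar, hroot, hdiv⟩

/-- **R5 for the finite-places chain.**  For every parabolic `χ : Γ₀(M) → ℤ` and `gcd (p, 6) = 1`
there is a point `x` of `JZero M` in relation with the character `ψ_χ = exp (2 π i χ / p)`.
Inputs: the realisation bundle `D` on (any presentation of) the function field over `ℂ`, its
compatibility with forms, and `D.φ ∘ ι = evF`. -/
theorem cdt57_R5_fin {p : ℕ} (hp6 : Nat.Coprime p 6)
    (hiota : ∀ (f₀ : FBar M) (y : FC),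
      (y : LaurentSeries ℂ) = coeffMap iotaQ (f₀ : LaurentSeries Qbar) → D.φ y = evF M f₀)
    {χ : Additive ↥(Gamma0 M) →+ ℤ} (hχ : IsParabolicHom (Gamma0 M) χ) :
    ∃ x : JZero M, heq_Rel M p x (twp_psiAdd p χ) := by
  have hp : 0 < p := by
    rcases Nat.eq_zero_or_pos p with rfl | hp
    · simp at hp6
    · exact hp
  obtain ⟨fC, h₁, hfC0, -, hchar, hroot, hdiv⟩ := cdt57_chi_fin hFC hjF D hev hp6 hχ
  subst hFC
  -- B4: finitely many classes (finite places)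
  have hdict : ∀ τ : ℍ, ∃ (P : Place ℂ (ratioField M)) (e : ℤ),
      P ∈ {P : Place ℂ (ratioField M) | 0 ≤ P.ord jF} ∧
      ∀ f : ratioField M, f ≠ 0 → ordAt τ (D.φ f) = e * P.ord f := by
    intro τ
    obtain ⟨e, -, he⟩ := cdc_exists_ordAt_eq_mul D τ
    refine ⟨cdc_vPt D τ, (e : ℤ), ?_, fun f _ => he f⟩
    -- `jF` is finite at a point place
    show 0 ≤ (cdc_vPt D τ).ord jF
    have hmem : jF ∈ (cdc_vPt D τ).toValuationSubring := by
      rw [cdc_mem_vPt_iff, D.map_j]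
      exact ordAt_algebraMap_nonneg τ jHol
    by_cases hj : jF = 0
    · have h0 : ∀ x : ratioField M, x = 0 → 0 ≤ (cdc_vPt D τ).ord x := by
        rintro x rfl
        rw [Place.ord_zero]
      exact h0 jF hj
    · exact (ord_nonneg_iff (cdc_vPt D τ) hj).2 hmem
  obtain ⟨T0, hT0fin, -, hcls⟩ := inj_exists_T0_of_dict M D.φ hev hp
    {P : Place ℂ (ratioField M) | 0 ≤ P.ord jF} hdict
  -- B7: descent
  have hdesc := dsct57_top_fin' M p hp (ratioField M) (cdcb_fullC_eq M).symm jF hjF T0 hT0fin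
    (fun f hf0 hd => hcls f hf0 (fun P hP => hd P hP)) fC hfC0 hdiv
  -- R5-ASM
  exact r5a_of_descended M p hp (twp_psiAdd p χ) (ratioField M) D.φ D.map_const
    (fun γ u => cdc_inv' D (γ : SL(2, ℤ)) γ.2 u) hiota h₁ fC hfC0 hroot hchar hdesc
    (fun f₀ hf₀ h hpow hch P =>
      dsdq_dvd_ord M hp6 f₀ hf₀ h hpow (twp_psiAdd p χ) (cdt57_psiAdd_parabolic p hχ) hch P)

end chi

end Fermat.Agent.S42x
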