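/-
S42/S29 route (lead's ROUTE_S42_S29_lead), block (F)/(H), leaf "GALOIS-EQUIVARIANCE OF T_ℓ"
(helper95, prefix `cgq_`): a correspondence `ψ_* φ^*` between function fields commutes with
semilinear automorphisms `g` of `F`, `g'` of `F'` that are intertwined by both `φ` and `ψ`.

Abstract part (this file, Prelude + Mathlib only):
* `cgq_restrict_smul`            : `(g' • w)|_F = g • (w|_F)`
* `cgq_ramificationIndex_smul`   : `e(g' • w) = e(w)`
* `cgq_pullback_smul`            : `pullback (g • D) = g' • pullback D`
* `cgq_pushforward_smul`         : `pushforward (g' • D') = g • pushforward D'` (places of degree one)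
* `cgq_correspondence_smul`      : `correspondence φ ψ (g • D) = g • correspondence φ ψ D`
* `cgq_pic0_correspondence_smul` : the same on `Pic0`.
-/
import Mathlib
import Fermat.Prelude.Def_AlgebraicCurve_Correspondence

set_option autoImplicit false

noncomputable section

namespace Fermat.Agent.S42x

open AlgebraicCurve
open scoped Pointwise

section Tower

variable {K F F' : Type*} [Field K] [Field F] [Field F'] [Algebra K F] [Algebra K F']
  [Algebra F F'] [IsScalarTower K F F']

/-- the intertwining relation passes to inverses. -/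
theorem cgq_inv_intertwine (g : SemilinearAut K F) (g' : SemilinearAut K F')
    (hint : ∀ x : F, algebraMap F F' (g • x) = g' • algebraMap F F' x) (x : F) :
    algebraMap F F' (g⁻¹ • x) = g'⁻¹ • algebraMap F F' x := by
  have h := hint (g⁻¹ • x)
  rw [smul_inv_smul] at h
  rw [h, inv_smul_smul]

variable [Algebra.IsIntegral F F']

/-- `(g' • w)|_F = g • (w|_F)`. -/
theorem cgq_restrict_smul (g : SemilinearAut K F) (g' : SemilinearAut K F')
    (hint : ∀ x : F, algebraMap F F' (g • x) = g' • algebraMap F F' x) (w : Place K F') :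
    (g' • w).restrict F = g • w.restrict F := by
  apply Place.ext
  ext x
  rw [Place.restrict_toValuationSubring, SemilinearAut.smul_toValuationSubring,
    SemilinearAut.smul_toValuationSubring, ValuationSubring.mem_comap,
    ValuationSubring.mem_pointwise_smul_iff_inv_smul_mem,
    ValuationSubring.mem_pointwise_smul_iff_inv_smul_mem, Place.restrict_toValuationSubring,
    ValuationSubring.mem_comap, cgq_inv_intertwine g g' hint]

/-- `ord_{g' • w}(x) = ord_w(g⁻¹ x)` for `x ∈ F`. -/
theorem cgq_ord_smul_algebraMap (g : SemilinearAut K F) (g' : SemilinearAut K F')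
    (hint : ∀ x : F, algebraMap F F' (g • x) = g' • algebraMap F F' x) (w : Place K F') (x : F) :
    (g' • w).ord (algebraMap F F' (g • x)) = w.ord (algebraMap F F' x) := by
  rw [hint, SemilinearAut.ord_smul]

/-- `e(g' • w) = e(w)`. -/
theorem cgq_ramificationIndex_smul (g : SemilinearAut K F) (g' : SemilinearAut K F')
    (hint : ∀ x : F, algebraMap F F' (g • x) = g' • algebraMap F F' x) (w : Place K F') :
    (g' • w).ramificationIndex F = w.ramificationIndex F := by
  unfold Place.ramificationIndex
  congr 1
  ext n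
  simp only [Set.mem_setOf_eq]
  constructor
  · rintro ⟨hn, f, hf, hfn⟩
    refine ⟨hn, g⁻¹ • f, ?_, ?_⟩
    · exact (smul_ne_zero_iff_ne _).mpr hf
    · rw [← hfn, ← cgq_ord_smul_algebraMap g g' hint w (g⁻¹ • f), smul_inv_smul]
  · rintro ⟨hn, f, hf, hfn⟩
    refine ⟨hn, g • f, ?_, ?_⟩
    · exact (smul_ne_zero_iff_ne _).mpr hf
    · rw [cgq_ord_smul_algebraMap g g' hint w f, hfn]

variable [HasPrincipalDivisors K F']

/-- `pullback (g • D) = g' • pullback D`. -/
theorem cgq_pullback_smul (g : SemilinearAut K F) (g' : SemilinearAut K F')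
    (hint : ∀ x : F, algebraMap F F' (g • x) = g' • algebraMap F F' x) (D : Divisor K F) :
    Divisor.pullback F' (g • D) = g' • Divisor.pullback F' D := by
  ext w
  rw [Divisor.pullback_apply, SemilinearAut.divisor_smul_apply, SemilinearAut.divisor_smul_apply,
    Divisor.pullback_apply,
    cgq_restrict_smul g⁻¹ g'⁻¹ (cgq_inv_intertwine g g' hint) w,
    cgq_ramificationIndex_smul g⁻¹ g'⁻¹ (cgq_inv_intertwine g g' hint) w]

omit [HasPrincipalDivisors K F'] in
/-- `pushforward (g' • D') = g • pushforward D'` when all places have degree one. -/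
theorem cgq_pushforward_smul (g : SemilinearAut K F) (g' : SemilinearAut K F')
    (hint : ∀ x : F, algebraMap F F' (g • x) = g' • algebraMap F F' x)
    (hdeg : ∀ v : Place K F, v.deg = 1) (hdeg' : ∀ w : Place K F', w.deg = 1)
    (D : Divisor K F') :
    Divisor.pushforward F (g' • D) = g • Divisor.pushforward F D := by
  have hin : ∀ w : Place K F', w.inertiaDeg F = 1 := by
    intro w
    have h := w.deg_restrict_mul_inertiaDeg (F := F)
    rw [hdeg, hdeg', one_mul] at h
    exact h
  induction D using Finsupp.induction with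
  | zero => simp
  | single_add w n D _ _ ih =>
    rw [smul_add, map_add, map_add, smul_add, ih, SemilinearAut.smul_single,
      Divisor.pushforward_single, Divisor.pushforward_single, SemilinearAut.smul_single,
      cgq_restrict_smul g g' hint w, hin, hin]

end Tower

section Along

variable {K F F' : Type*} [Field K] [Field F] [Field F'] [Algebra K F] [Algebra K F']
  [HasPrincipalDivisors K F']

/-- `φ^* (g • D) = g' • φ^* D`. -/
theorem cgq_pullbackAlong_smul (φ : F →ₐ[K] F') (hφ : φ.toRingHom.IsIntegral)
    (g : SemilinearAut K F) (g' : SemilinearAut K F')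
    (hint : ∀ x : F, φ (g • x) = g' • φ x) (D : Divisor K F) :
    Divisor.pullbackAlong φ hφ (g • D) = g' • Divisor.pullbackAlong φ hφ D := by
  letI := algebraAlong φ
  haveI := isScalarTower_along φ
  haveI := isIntegral_along φ hφ
  exact cgq_pullback_smul g g' hint D

omit [HasPrincipalDivisors K F'] in
/-- `ψ_* (g' • D') = g • ψ_* D'`. -/
theorem cgq_pushforwardAlong_smul (ψ : F →ₐ[K] F') (hψ : ψ.toRingHom.IsIntegral)
    (g : SemilinearAut K F) (g' : SemilinearAut K F')
    (hint : ∀ x : F, ψ (g • x) = g' • ψ x)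
    (hdeg : ∀ v : Place K F, v.deg = 1) (hdeg' : ∀ w : Place K F', w.deg = 1)
    (D : Divisor K F') :
    Divisor.pushforwardAlong ψ hψ (g' • D) = g • Divisor.pushforwardAlong ψ hψ D := by
  letI := algebraAlong ψ
  haveI := isScalarTower_along ψ
  haveI := isIntegral_along ψ hψ
  exact cgq_pushforward_smul g g' hint hdeg hdeg' D

/-- **the correspondence `ψ_* φ^*` commutes with intertwined semilinear automorphisms.** -/
theorem cgq_correspondence_smul (φ ψ : F →ₐ[K] F') (hφ : φ.toRingHom.IsIntegral)
    (hψ : ψ.toRingHom.IsIntegral) (g : SemilinearAut K F) (g' : SemilinearAut K F')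
    (hintφ : ∀ x : F, φ (g • x) = g' • φ x) (hintψ : ∀ x : F, ψ (g • x) = g' • ψ x)
    (hdeg : ∀ v : Place K F, v.deg = 1) (hdeg' : ∀ w : Place K F', w.deg = 1)
    (D : Divisor K F) :
    Divisor.correspondence φ ψ hφ hψ (g • D) = g • Divisor.correspondence φ ψ hφ hψ D := by
  rw [Divisor.correspondence_apply, Divisor.correspondence_apply,
    cgq_pullbackAlong_smul φ hφ g g' hintφ, cgq_pushforwardAlong_smul ψ hψ g g' hintψ hdeg hdeg']

/-- ... and on `Pic0`. -/
theorem cgq_pic0_correspondence_smul (φ ψ : F →ₐ[K] F') (hφ : φ.toRingHom.IsIntegral)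
    (hψ : ψ.toRingHom.IsIntegral) (hFI : FundamentalIdentityAlong K φ hφ)
    (hfin : FiniteAlong K ψ) (hN : NormFormulaAlong K ψ hfin)
    (g : SemilinearAut K F) (g' : SemilinearAut K F')
    (hintφ : ∀ x : F, φ (g • x) = g' • φ x) (hintψ : ∀ x : F, ψ (g • x) = g' • ψ x)
    (hdeg : ∀ v : Place K F, v.deg = 1) (hdeg' : ∀ w : Place K F', w.deg = 1)
    (x : Pic0 K F) :
    Pic0.correspondence φ ψ hφ hψ hFI hfin hN (g • x) =
      g • Pic0.correspondence φ ψ hφ hψ hFI hfin hN x := by
  obtain ⟨D, rfl⟩ := Pic0.mk_surjective x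
  rw [SemilinearAut.pic0_smul_mk, Pic0.correspondence_mk, Pic0.correspondence_mk,
    SemilinearAut.pic0_smul_mk]
  congr 1
  apply Subtype.ext
  rw [Pic0.coe_degZeroCorrespondence, SemilinearAut.coe_degZeroSMulHom,
    SemilinearAut.coe_degZeroSMulHom, Pic0.coe_degZeroCorrespondence]
  exact cgq_correspondence_smul φ ψ hφ hψ g g' hintφ hintψ hdeg hdeg' _

end Along

end Fermat.Agent.S42x
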