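/-
S42 project, block B3.3 CUSPUNIT, sub-lemma CU5 (pure valuation algebra), helper32, prefix `cua32_`
(independent twin of helper19's `cua19_`, same statement; first green is used).

`cua32_ord_eq_zero` : `v` a place of `F/ℂ`, `t ∈ F` with `ord_v t > 0`, `f ∈ F` a root of a monic
`Q ∈ ℂ[t][Y]` whose constant coefficient `r(t)` has `r(0) ≠ 0`; then `ord_v f = 0`.
(`f` is integral over `O_v`, hence in `O_v`; the constant coefficient is a unit of `O_v` and is divisible by
`f` in `O_v`.)   Mathlib + Prelude `Place` only.
-/
import Mathlib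
import Fermat.Prelude.Def_AlgebraicCurve_Repartitions

set_option autoImplicit false

namespace Fermat.Agent.S42x

open AlgebraicCurve Polynomial

section

variable {K F : Type*} [Field K] [Field F] [Algebra K F]

/-- polynomials in an element of `O_v` with constant coefficients have valuation `≤ 1`. -/
theorem cua32_val_aeval_le_one (v : Place K F) {t : F} (ht : v.adicValuation t ≤ 1) (r : K[X]) :
    v.adicValuation (aeval t r) ≤ 1 := by
  rw [aeval_eq_sum_range]
  refine Valuation.map_sum_le _ fun i _ => ?_
  rw [Algebra.smul_def, map_mul, map_pow]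
  exact mul_le_one' (v.adicValuation_le_one_of_mem (v.algebraMap_mem' _)) (pow_le_one' ht i)

/-- evaluation of a polynomial with coefficients of valuation `≤ 1` at a point of valuation `≤ 1`. -/
theorem cua32_val_eval_le_one (v : Place K F) (P : F[X]) (hP : ∀ i, v.adicValuation (P.coeff i) ≤ 1)
    {f : F} (hf : v.adicValuation f ≤ 1) : v.adicValuation (P.eval f) ≤ 1 := by
  rw [eval_eq_sum_range]
  refine Valuation.map_sum_le _ fun i _ => ?_
  rw [map_mul, map_pow]
  exact mul_le_one' (hP i) (pow_le_one' hf i)

/-- a root of a monic polynomial with coefficients of valuation `≤ 1` has valuation `≤ 1`. -/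
theorem cua32_val_le_one_of_root (v : Place K F) (P : F[X]) (hPm : P.Monic)
    (hP : ∀ i, v.adicValuation (P.coeff i) ≤ 1) {f : F} (hroot : P.eval f = 0) :
    v.adicValuation f ≤ 1 := by
  have hI : IsIntegral v.adicValuation.integer f := by
    have hmem : ∀ i, P.coeff i ∈ v.adicValuation.integer := fun i => hP i
    refine ⟨P.toSubring v.adicValuation.integer (by
      intro c hc
      obtain ⟨i, -, rfl⟩ := (Polynomial.mem_coeffs_iff.mp hc)
      exact hmem i), ?_, ?_⟩
    · exact (Polynomial.monic_toSubring _ _ _).mpr hPm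
    · rw [← hroot]
      conv_rhs => rw [← Polynomial.map_toSubring P v.adicValuation.integer (by
        intro c hc
        obtain ⟨i, -, rfl⟩ := (Polynomial.mem_coeffs_iff.mp hc)
        exact hmem i)]
      rw [eval_map]
      rfl
  exact (Valuation.integer.integers v.adicValuation).mem_of_integral hI

end

/-- **CU5**: a root `f` of a monic polynomial over `ℂ[t]` whose constant coefficient does not vanish at
`t = 0` is a unit at every place where `t` vanishes. -/
theorem cua32_ord_eq_zero {F : Type*} [Field F] [Algebra ℂ F] (v : Place ℂ F) (t f : F)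
    (ht : 0 < v.ord t) (Q : ℂ[X][X]) (hQm : Q.Monic)
    (hroot : (Q.map ((aeval t : ℂ[X] →ₐ[ℂ] F) : ℂ[X] →+* F)).eval f = 0)
    (h0 : (Q.coeff 0).eval 0 ≠ 0) : v.ord f = 0 := by
  set φ : ℂ[X] →+* F := ((aeval t : ℂ[X] →ₐ[ℂ] F) : ℂ[X] →+* F) with hφ
  have hφ_apply : ∀ r : ℂ[X], φ r = aeval t r := fun _ => rfl
  have ht0 : t ≠ 0 := by
    rintro rfl
    rw [Place.ord_zero] at ht
    exact lt_irrefl _ ht
  -- `v t < 1`
  have htlt : v.adicValuation t < 1 := by
    rw [v.adicValuation_eq_exp_neg_ord ht0, ← WithZero.exp_zero, WithZero.exp_lt_exp]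
    omega
  have htle : v.adicValuation t ≤ 1 := htlt.le
  -- coefficients of `Q.map φ` have valuation `≤ 1`
  have hcoef : ∀ i, v.adicValuation ((Q.map φ).coeff i) ≤ 1 := by
    intro i
    rw [coeff_map, hφ_apply]
    exact cua32_val_aeval_le_one v htle _
  have hQm' : (Q.map φ).Monic := hQm.map φ
  -- `v f ≤ 1`
  have hfle : v.adicValuation f ≤ 1 := cua32_val_le_one_of_root v _ hQm' hcoef hroot
  -- the constant coefficient is a unit
  set r := Q.coeff 0 with hr
  have hc0 : v.adicValuation (aeval t r) = 1 := by
    have hdec : aeval t r = aeval t r.divX * t + algebraMap ℂ F (r.coeff 0) := by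
      conv_lhs => rw [← divX_mul_X_add r]
      rw [map_add, map_mul, aeval_X, aeval_C]
    have hconst : v.adicValuation (algebraMap ℂ F (r.coeff 0)) = 1 := by
      have hne : r.coeff 0 ≠ 0 := by rwa [coeff_zero_eq_eval_zero]
      have hne' : algebraMap ℂ F (r.coeff 0) ≠ 0 :=
        (map_ne_zero_iff _ (algebraMap ℂ F).injective).mpr hne
      apply le_antisymm (v.adicValuation_le_one_of_mem (v.algebraMap_mem' _))
      have hinv := v.adicValuation_le_one_of_mem (v.algebraMap_mem' (r.coeff 0)⁻¹)
      rw [map_inv₀, map_inv₀] at hinv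
      exact (inv_le_one₀ (zero_lt_iff.mpr ((_root_.map_ne_zero _).mpr hne'))).mp hinv
    have hlt : v.adicValuation (aeval t r.divX * t) < 1 := by
      rw [map_mul]
      calc v.adicValuation (aeval t r.divX) * v.adicValuation t
          ≤ 1 * v.adicValuation t := mul_le_mul_left (cua32_val_aeval_le_one v htle _) _
        _ = v.adicValuation t := one_mul _
        _ < 1 := htlt
    rw [hdec, Valuation.map_add_eq_of_lt_right _ (by rw [hconst]; exact hlt), hconst]
  -- `f * g = - c₀`
  have hsplit : (Q.map φ).eval f = (Q.map φ).divX.eval f * f + aeval t r := by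
    conv_lhs => rw [← divX_mul_X_add (Q.map φ)]
    rw [eval_add, eval_mul, eval_X, eval_C, coeff_map, hφ_apply]
  have hgle : v.adicValuation ((Q.map φ).divX.eval f) ≤ 1 := by
    refine cua32_val_eval_le_one v _ (fun i => ?_) hfle
    rw [coeff_divX]
    exact hcoef _
  have hprod : (Q.map φ).divX.eval f * f = - aeval t r := by
    rw [hroot] at hsplit
    exact eq_neg_of_add_eq_zero_left hsplit.symm
  have hf0 : f ≠ 0 := by
    rintro rfl
    rw [mul_zero] at hprod
    have : aeval t r = 0 := by
      have := congrArg Neg.neg hprod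
      simpa using this.symm
    rw [this, map_zero] at hc0
    exact zero_ne_one hc0
  have hval : v.adicValuation ((Q.map φ).divX.eval f) * v.adicValuation f = 1 := by
    rw [← map_mul, hprod, Valuation.map_neg, hc0]
  have hfge : 1 ≤ v.adicValuation f := by
    have h1 := mul_le_mul_left hgle (v.adicValuation f)
    rw [hval, one_mul] at h1
    exact h1
  have hfeq : v.adicValuation f = 1 := le_antisymm hfle hfge
  rw [v.adicValuation_eq_exp_neg_ord hf0, ← WithZero.exp_zero, WithZero.exp_inj] at hfeq
  omega

end Fermat.Agent.S42x
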