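/-
S42x/CuspUnitInv30 (helper30; S42 block B3, sub-lemma B3.3b for CUSPUNIT; s42_plan row 98;
prefix `cui30_`).

Level-one invariant elements with an `E₄`-power denominator.  Let `e : Mer` be `SL(2,ℤ)`-invariant
with `e * E₄^k = G`, `G` holomorphic on `ℍ` and bounded at `i∞`.  Then

* `cui30_invariant_mul_pow` : `e * j^k = P(j)` with `P : ℂ[X]`, `natDegree P ≤ k`;
* `cui30_invariant_eq_aeval_inv` : `e = R(1/j)` (`R = reflect k P`), and pointwise
  `R(1/j z) * E₄ z ^ k = G z` wherever `E₄ z ≠ 0`;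
* `cui30_eval_zero_of_tendsto` : `R(0) = lim G` along any net tending to `i∞`;
* `cui30_invariant_eq_aeval_inv_iy` / `_atImInfty` : packaged forms (`∃ R, e = aeval jMer⁻¹ R ∧
  R.eval 0 = c`), with the limit taken along the axis `twe55_iy` resp. the full filter.

Uses only S24x (`exists_polynomial_jFun_of_discriminant_pow`, `cov_*`), `cdc_E4Hol`, `twk_tendsto_iy`.
-/
import Fermat.Agent.S24x.LevelOneInvariant
import Fermat.Agent.S24x.CoveringInv
import Fermat.Agent.S42x.CDictDefs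
import Fermat.Agent.S42x.TwEisCusp

set_option autoImplicit false

namespace Fermat.Agent.S42x

open UpperHalfPlane ModularForm ModularFormClass MatrixGroups EisensteinSeries
open Polynomial Fermat.Agent.S24x Filter Topology
open scoped Manifold

noncomputable section

/-- `E₄` as an element of `Hol` (local copy; definitionally the same as `cdc_E4Hol`). -/
def cui30_E4Hol : Hol := ⟨⇑E₄, jf_mdiff_E₄⟩

theorem cui30_E4Hol_apply (z : ℍ) : (cui30_E4Hol : ℍ → ℂ) z = E₄ z := rfl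

theorem cui30_E4Hol_ne_zero : cui30_E4Hol ≠ 0 := by
  intro h
  have h1 : Tendsto (⇑E₄) atImInfty (𝓝 1) := jf_tendsto_E₄
  have h2 : (⇑E₄ : ℍ → ℂ) = fun _ => 0 := by
    funext z
    have := congrArg (fun f : Hol => (f : ℍ → ℂ) z) h
    simpa [cui30_E4Hol_apply] using this
  rw [h2] at h1
  have := tendsto_nhds_unique h1 tendsto_const_nhds
  exact one_ne_zero this

/-- The holomorphic function `G * E₄^(2k) / Δ^k`. -/
def cui30_Hs (k : ℕ) (G : Hol) : Hol :=
  ⟨fun z => (G : ℍ → ℂ) z * E₄ z ^ (2 * k) / ModularForm.discriminant z ^ k,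
    jf_mdiff_div (jf_mdiff_mul G.2 (jf_mdiff_pow jf_mdiff_E₄ (2 * k)))
      (jf_mdiff_pow jf_mdiff_discriminant k) (fun z => pow_ne_zero k (discriminant_ne_zero z))⟩

theorem cui30_Hs_apply (k : ℕ) (G : Hol) (z : ℍ) :
    (cui30_Hs k G : ℍ → ℂ) z =
      (G : ℍ → ℂ) z * E₄ z ^ (2 * k) / ModularForm.discriminant z ^ k := rfl

/-- the key identity in `Hol`: `Hs * E₄^k = G * j^k`. -/
theorem cui30_Hs_mul (k : ℕ) (G : Hol) :
    cui30_Hs k G * cui30_E4Hol ^ k = G * jHol ^ k := by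
  apply Subtype.ext
  funext z
  show (cui30_Hs k G : ℍ → ℂ) z * (E₄ z) ^ k = (G : ℍ → ℂ) z * (jFun z) ^ k
  rw [cui30_Hs_apply, jFun, div_pow]
  have hΔ := pow_ne_zero k (discriminant_ne_zero z)
  field_simp
  ring

theorem cui30_mk_E4_ne_zero : algebraMap Hol Mer cui30_E4Hol ≠ 0 := by
  rw [Ne, map_eq_zero_iff _ (IsFractionRing.injective Hol Mer)]
  exact cui30_E4Hol_ne_zero

/-- **Invariant elements with an `E₄`-denominator and bounded numerator are polynomials in `j`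
divided by `j^k`.** -/
theorem cui30_invariant_mul_pow (e : Mer) (hinv : ∀ γ : SL(2, ℤ), γ • e = e) (k : ℕ) (G : Hol)
    (he : e * algebraMap Hol Mer cui30_E4Hol ^ k = algebraMap Hol Mer G)
    (hG : IsBoundedAtImInfty (G : ℍ → ℂ)) :
    ∃ P : ℂ[X], P.natDegree ≤ k ∧ e * jMer ^ k = aeval jMer P ∧
      ∀ z : ℍ, (G : ℍ → ℂ) z * E₄ z ^ (2 * k) / ModularForm.discriminant z ^ k =
        P.eval (jFun z) := by
  have hinj : Function.Injective (algebraMap Hol Mer) := IsFractionRing.injective Hol Mer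
  have hE4 := cui30_mk_E4_ne_zero
  -- `e * j^k` is holomorphic
  have h1 : e * jMer ^ k = algebraMap Hol Mer (cui30_Hs k G) := by
    apply mul_right_cancel₀ (pow_ne_zero k hE4)
    calc e * jMer ^ k * algebraMap Hol Mer cui30_E4Hol ^ k
        = (e * algebraMap Hol Mer cui30_E4Hol ^ k) * jMer ^ k := by ring
      _ = algebraMap Hol Mer G * jMer ^ k := by rw [he]
      _ = algebraMap Hol Mer (G * jHol ^ k) := by rw [map_mul, map_pow]; rfl
      _ = algebraMap Hol Mer (cui30_Hs k G * cui30_E4Hol ^ k) := by rw [cui30_Hs_mul]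
      _ = algebraMap Hol Mer (cui30_Hs k G) * algebraMap Hol Mer cui30_E4Hol ^ k := by
          rw [map_mul, map_pow]
  -- invariance
  have hinvH : ∀ (γ : SL(2, ℤ)) (z : ℍ),
      (cui30_Hs k G : ℍ → ℂ) (γ • z) = (cui30_Hs k G : ℍ → ℂ) z := by
    intro γ z
    have h2 : γ⁻¹ • (e * jMer ^ k) = e * jMer ^ k := by
      rw [smul_mul', smul_pow', cov_jMer_smul, hinv]
    rw [h1, smul_algebraMap_Mer] at h2
    have h3 := hinj h2
    have h4 := congrArg (fun f : Hol => (f : ℍ → ℂ) z) h3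
    simp only [smul_Hol_apply, inv_inv] at h4
    exact h4
  -- boundedness of `Δ^k * Hs = G * E₄^(2k)`
  have hbd : IsBoundedAtImInfty
      (fun z => ModularForm.discriminant z ^ k * (cui30_Hs k G : ℍ → ℂ) z) := by
    have hE : IsBoundedAtImInfty (⇑E₄ : ℍ → ℂ) := jf_isBoundedAtImInfty_of_tendsto jf_tendsto_E₄
    have hEp : IsBoundedAtImInfty (fun z : ℍ => E₄ z ^ (2 * k)) := by
      induction (2 * k) with
      | zero =>
        simp only [pow_zero]
        exact Filter.const_boundedAtFilter _ (1 : ℂ)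
      | succ n ih =>
        have : (fun z : ℍ => E₄ z ^ (n + 1)) = (fun z : ℍ => E₄ z ^ n) * (⇑E₄ : ℍ → ℂ) := by
          funext z; rw [Pi.mul_apply, pow_succ]
        rw [this]
        exact ih.mul hE
    have heq : (fun z => ModularForm.discriminant z ^ k * (cui30_Hs k G : ℍ → ℂ) z) =
        (G : ℍ → ℂ) * (fun z : ℍ => E₄ z ^ (2 * k)) := by
      funext z
      rw [cui30_Hs_apply, Pi.mul_apply]
      have hΔ := pow_ne_zero k (discriminant_ne_zero z)
      field_simp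
    rw [heq]
    exact hG.mul hEp
  obtain ⟨P, hPdeg, hP⟩ := exists_polynomial_jFun_of_discriminant_pow k _ (cui30_Hs k G).2
    hinvH hbd
  refine ⟨P, hPdeg, ?_, fun z => ?_⟩
  · rw [h1, cov_aeval_jMer]
    congr 1
    apply Subtype.ext
    funext z
    rw [cov_aeval_jHol_apply]
    exact hP z
  · rw [← hP z, cui30_Hs_apply]


/-- `cui30_E4Hol` is (definitionally) helper55's `cdc_E4Hol`. -/
theorem cui30_E4Hol_eq : cui30_E4Hol = cdc_E4Hol := rfl

/-- the inverse `1/j` tends to `0` at `i∞`. -/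
theorem cui30_tendsto_inv_jFun : Tendsto (fun z : ℍ => (jFun z)⁻¹) atImInfty (𝓝 0) := by
  have h1 : Tendsto (fun z : ℍ => ModularForm.discriminant z / E₄ z ^ 3) atImInfty
      (𝓝 (0 / (1 : ℂ) ^ 3)) :=
    jf_tendsto_discriminant.div (jf_tendsto_E₄.pow 3) (by norm_num)
  rw [zero_div] at h1
  refine h1.congr (fun z => ?_)
  rw [jFun, inv_div]

/-- eventually at `i∞`, `E₄ ≠ 0`. -/
theorem cui30_eventually_E4_ne_zero : ∀ᶠ z : ℍ in atImInfty, E₄ z ≠ 0 :=
  jf_tendsto_E₄.eventually_ne one_ne_zero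

/-- **Main form**: an `SL(2,ℤ)`-invariant `e : Mer` with `e * E₄^k = G`, `G` holomorphic and bounded
at `i∞`, is a polynomial `R` in `1/j`; moreover pointwise `R(1/j(z)) * E₄(z)^k = G(z)` wherever
`E₄ z ≠ 0`. -/
theorem cui30_invariant_eq_aeval_inv (e : Mer) (hinv : ∀ γ : SL(2, ℤ), γ • e = e) (k : ℕ) (G : Hol)
    (he : e * algebraMap Hol Mer cdc_E4Hol ^ k = algebraMap Hol Mer G)
    (hG : IsBoundedAtImInfty (G : ℍ → ℂ)) :
    ∃ R : ℂ[X], e = aeval jMer⁻¹ R ∧
      ∀ z : ℍ, E₄ z ≠ 0 → R.eval (jFun z)⁻¹ * E₄ z ^ k = (G : ℍ → ℂ) z := by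
  obtain ⟨P, hPdeg, hP1, hP2⟩ := cui30_invariant_mul_pow e hinv k G he hG
  refine ⟨P.reflect k, ?_, fun z hz => ?_⟩
  · have hj : jMer ^ k ≠ 0 := pow_ne_zero k cov_jMer_ne_zero
    apply mul_right_cancel₀ hj
    let _ : Invertible jMer := invertibleOfNonzero cov_jMer_ne_zero
    have h := Polynomial.eval₂_reflect_mul_pow (algebraMap ℂ Mer) jMer k P hPdeg
    rw [invOf_eq_inv] at h
    rw [hP1, Polynomial.aeval_def, Polynomial.aeval_def, h]
  · have hjz : jFun z ≠ 0 := by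
      rw [jFun]
      exact div_ne_zero (pow_ne_zero 3 hz) (discriminant_ne_zero z)
    let _ : Invertible (jFun z) := invertibleOfNonzero hjz
    have h := Polynomial.eval₂_reflect_mul_pow (RingHom.id ℂ) (jFun z) k P hPdeg
    rw [invOf_eq_inv] at h
    have h' : (P.reflect k).eval (jFun z)⁻¹ * jFun z ^ k = P.eval (jFun z) := h
    have h2 := hP2 z
    have hΔ := pow_ne_zero k (discriminant_ne_zero z)
    have hE := pow_ne_zero k hz
    -- `R(1/j) = P(j) / j^k = G E₄^(2k)/Δ^k / (E₄^3/Δ)^k = G / E₄^k`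
    have h3 : (P.reflect k).eval (jFun z)⁻¹ = P.eval (jFun z) / jFun z ^ k := by
      rw [← h', mul_div_assoc, div_self (pow_ne_zero k hjz), mul_one]
    rw [h3, ← h2, jFun, div_pow]
    field_simp
    ring

/-- **Constant term**: in `cui30_invariant_eq_aeval_inv`, if `G ∘ φ → c` along some net `φ → i∞`,
then `R(0) = c`. -/
theorem cui30_eval_zero_of_tendsto {α : Type*} {l : Filter α} [l.NeBot] (φ : α → ℍ)
    (hφ : Tendsto φ l atImInfty) (R : ℂ[X]) (k : ℕ) (G : ℍ → ℂ)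
    (hR : ∀ z : ℍ, E₄ z ≠ 0 → R.eval (jFun z)⁻¹ * E₄ z ^ k = G z)
    (c : ℂ) (hc : Tendsto (fun a => G (φ a)) l (𝓝 c)) : R.eval 0 = c := by
  have h1 : Tendsto (fun a => R.eval (jFun (φ a))⁻¹ * E₄ (φ a) ^ k) l (𝓝 (R.eval 0 * 1 ^ k)) := by
    have hA : Tendsto (fun a => (jFun (φ a))⁻¹) l (𝓝 0) := cui30_tendsto_inv_jFun.comp hφ
    have hB : Tendsto (fun a => R.eval (jFun (φ a))⁻¹) l (𝓝 (R.eval 0)) :=
      (R.continuous.tendsto 0).comp hA
    have hC : Tendsto (fun a => E₄ (φ a)) l (𝓝 1) := jf_tendsto_E₄.comp hφ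
    exact hB.mul (hC.pow k)
  rw [one_pow, mul_one] at h1
  have hev : ∀ᶠ a in l, R.eval (jFun (φ a))⁻¹ * E₄ (φ a) ^ k = G (φ a) :=
    (hφ.eventually cui30_eventually_E4_ne_zero).mono (fun a ha => hR (φ a) ha)
  exact tendsto_nhds_unique (h1.congr' hev) hc

/-- **Packaged form for CUSPUNIT** (helper55's request): `SL(2,ℤ)`-invariant `e` with
`e * E₄^k = G`, `G` holomorphic, bounded at `i∞`, `G(iy) → c` ⇒ `e = R(1/j)` with `R(0) = c`. -/
theorem cui30_invariant_eq_aeval_inv_iy (e : Mer) (hinv : ∀ γ : SL(2, ℤ), γ • e = e) (k : ℕ)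
    (G : Hol) (he : e * algebraMap Hol Mer cdc_E4Hol ^ k = algebraMap Hol Mer G)
    (hG : IsBoundedAtImInfty (G : ℍ → ℂ)) (c : ℂ)
    (hc : Tendsto (fun y : ℝ => (G : ℍ → ℂ) (twe55_iy y)) atTop (𝓝 c)) :
    ∃ R : ℂ[X], e = aeval jMer⁻¹ R ∧ R.eval 0 = c := by
  obtain ⟨R, hR1, hR2⟩ := cui30_invariant_eq_aeval_inv e hinv k G he hG
  exact ⟨R, hR1, cui30_eval_zero_of_tendsto twe55_iy twk_tendsto_iy R k _ hR2 c hc⟩

/-- Same, with the full-filter limit as hypothesis. -/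
theorem cui30_invariant_eq_aeval_inv_atImInfty (e : Mer) (hinv : ∀ γ : SL(2, ℤ), γ • e = e) (k : ℕ)
    (G : Hol) (he : e * algebraMap Hol Mer cdc_E4Hol ^ k = algebraMap Hol Mer G) (c : ℂ)
    (hc : Tendsto (G : ℍ → ℂ) atImInfty (𝓝 c)) :
    ∃ R : ℂ[X], e = aeval jMer⁻¹ R ∧ R.eval 0 = c := by
  have hG : IsBoundedAtImInfty (G : ℍ → ℂ) := jf_isBoundedAtImInfty_of_tendsto hc
  obtain ⟨R, hR1, hR2⟩ := cui30_invariant_eq_aeval_inv e hinv k G he hG
  exact ⟨R, hR1, cui30_eval_zero_of_tendsto id tendsto_id R k _ hR2 c hc⟩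

end

end Fermat.Agent.S42x
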