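/-
S42 project, block B3 (dictionary over `ℂ`), leaf B3.3c CUSPUNIT-SYM (helper1), prefix `cus1_`.

Generic sub-lemmas for CUSPUNIT (`f = (A/E₄)^p` is a unit at every pole place of `j`):

* `cus1_T : Subring Mer` : the `e ∈ Mer` with `e * mk(E₄)^k = mk(G)` for some `k` and some
  holomorphic `G` bounded at `i∞`;
* `cus1_smul_mk` : `g • mk(G) = mk(G ∣[k] g⁻¹) * mk(denom g⁻¹)^k`;
  `cus1_smul_root` : if `u * mk(E₄)^p = mk(A)^p` then `(g • u) * mk(E₄)^p = mk(A ∣[4] g⁻¹)^p`;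
  `cus1_smul_root_mem` : hence `g • u ∈ cus1_T` when `A ∣[4] g⁻¹` is bounded at `i∞`;
* `cus1_exists_Q` : for an equivariant finite family `a : I → T` (any subring `T` of `Mer` whose
  invariant elements are polynomials in `J'`), `∏ x, (X - C (a x))` is the image of a MONIC
  polynomial over `ℂ[J']`;
* `cus1_fam`, the orbit family `x ↦ (out x) • u` over `Q M = SL(2,ℤ) ⧸ Γ₀(M)` for a
  `Γ₀(M)`-invariant `u`, with `cus1_fam_smul`, `cus1_fam_one`, `cus1_fam_root`.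
-/
import Mathlib
import Fermat.Agent.S42x.CDictDefs
import Fermat.Agent.S42x.InjCore
import Fermat.Agent.S24x.JLocal
import Fermat.Agent.S24x.CombDefs

set_option autoImplicit false

namespace Fermat.Agent.S42x

open UpperHalfPlane CongruenceSubgroup Polynomial Filter Topology
open Fermat.Agent.S24x
open scoped MatrixGroups Manifold ModularForm

noncomputable section

/-! ### the subring `T` -/

/-- `mk E₄ ∈ Mer` -/
def cus1_E4 : Mer := algebraMap Hol Mer cdc_E4Hol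

theorem cus1_E4_bdd : IsBoundedAtImInfty (cdc_E4Hol : ℍ → ℂ) :=
  jl_tendsto_E₄.isBigO_one ℝ

theorem cus1_bdd_pow {f : ℍ → ℂ} (hf : IsBoundedAtImInfty f) (k : ℕ) :
    IsBoundedAtImInfty (f ^ k) := by
  induction k with
  | zero =>
    rw [pow_zero]
    exact const_boundedAtFilter _ (1 : ℂ)
  | succ k ih =>
    rw [pow_succ]
    exact ih.mul hf

theorem cus1_E4_ne_zero : cus1_E4 ≠ 0 := by
  intro h
  have h1 : cdc_E4Hol = 0 := IsFractionRing.injective Hol Mer (by rw [map_zero]; exact h)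
  have h2 : Tendsto (fun _ : ℍ => (0 : ℂ)) atImInfty (𝓝 1) := by
    have := jl_tendsto_E₄
    have e : (ModularForm.E₄ : ℍ → ℂ) = fun _ => (0 : ℂ) := by
      funext τ
      exact congrFun (congrArg Subtype.val h1) τ
    rwa [e] at this
  have h3 := tendsto_nhds_unique h2 tendsto_const_nhds
  exact one_ne_zero h3

/-- the subring of `Mer` of the `e` with `e * mk(E₄)^k = mk(G)`, `G` holomorphic and bounded
at `i∞`. -/
def cus1_T : Subring Mer where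
  carrier := {e | ∃ (k : ℕ) (G : Hol), e * cus1_E4 ^ k = algebraMap Hol Mer G ∧
    IsBoundedAtImInfty (G : ℍ → ℂ)}
  mul_mem' := by
    rintro e₁ e₂ ⟨k₁, G₁, h₁, b₁⟩ ⟨k₂, G₂, h₂, b₂⟩
    refine ⟨k₁ + k₂, G₁ * G₂, ?_, b₁.mul b₂⟩
    rw [map_mul, ← h₁, ← h₂, pow_add]
    ring
  one_mem' := ⟨0, 1, by rw [pow_zero, mul_one, map_one], const_boundedAtFilter _ (1 : ℂ)⟩
  add_mem' := by
    rintro e₁ e₂ ⟨k₁, G₁, h₁, b₁⟩ ⟨k₂, G₂, h₂, b₂⟩
    refine ⟨k₁ + k₂, G₁ * cdc_E4Hol ^ k₂ + G₂ * cdc_E4Hol ^ k₁, ?_,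
      (b₁.mul (cus1_bdd_pow cus1_E4_bdd k₂)).add (b₂.mul (cus1_bdd_pow cus1_E4_bdd k₁))⟩
    rw [map_add, map_mul, map_mul, map_pow, map_pow, ← h₁, ← h₂, pow_add]
    show _ = e₁ * cus1_E4 ^ k₁ * cus1_E4 ^ k₂ + e₂ * cus1_E4 ^ k₂ * cus1_E4 ^ k₁
    ring
  zero_mem' := ⟨0, 0, by rw [zero_mul, map_zero], const_boundedAtFilter _ (0 : ℂ)⟩
  neg_mem' := by
    rintro e ⟨k, G, h, b⟩
    exact ⟨k, -G, by rw [map_neg, ← h, neg_mul], b.neg⟩

theorem cus1_mem_T {e : Mer} : e ∈ cus1_T ↔ ∃ (k : ℕ) (G : Hol),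
    e * cus1_E4 ^ k = algebraMap Hol Mer G ∧ IsBoundedAtImInfty (G : ℍ → ℂ) := Iff.rfl

/-! ### the slash identity -/

/-- `τ ↦ denom γ τ` as an element of `Hol` -/
def cus1_denomHol (γ : SL(2, ℤ)) : Hol :=
  ⟨fun τ => denom (γ : GL (Fin 2) ℝ) τ, mdifferentiable_denom _⟩

theorem cus1_denomHol_apply (γ : SL(2, ℤ)) (τ : ℍ) :
    (cus1_denomHol γ : ℍ → ℂ) τ = denom (γ : GL (Fin 2) ℝ) τ := rfl

theorem cus1_denomHol_ne_zero (γ : SL(2, ℤ)) : algebraMap Hol Mer (cus1_denomHol γ) ≠ 0 := by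
  intro h
  have h1 : cus1_denomHol γ = 0 := IsFractionRing.injective Hol Mer (by rw [map_zero]; exact h)
  have h2 := congrFun (congrArg Subtype.val h1) UpperHalfPlane.I
  exact denom_ne_zero _ _ h2

/-- `g • G = (G ∣[k] g⁻¹) * (denom g⁻¹)^k` in `Hol` -/
theorem cus1_smul_hol (k : ℕ) (g : SL(2, ℤ)) (G : Hol) :
    g • G = inj_slashHol (k : ℤ) g⁻¹ G * cus1_denomHol g⁻¹ ^ k := by
  apply Subtype.ext
  funext τ
  show (G : ℍ → ℂ) (g⁻¹ • τ) =
    (inj_slashHol (k : ℤ) g⁻¹ G : ℍ → ℂ) τ * (cus1_denomHol g⁻¹ : ℍ → ℂ) τ ^ k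
  rw [inj_slashHol_apply, cus1_denomHol_apply, mul_assoc, zpow_neg, zpow_natCast,
    inv_mul_cancel₀ (pow_ne_zero _ (denom_ne_zero _ _)), mul_one]

theorem cus1_smul_mk (k : ℕ) (g : SL(2, ℤ)) (G : Hol) :
    g • algebraMap Hol Mer G =
      algebraMap Hol Mer (inj_slashHol (k : ℤ) g⁻¹ G) *
        algebraMap Hol Mer (cus1_denomHol g⁻¹) ^ k := by
  rw [smul_algebraMap_Mer, cus1_smul_hol k, map_mul, map_pow]

theorem cus1_slash_E4 (g : SL(2, ℤ)) : inj_slashHol ((4 : ℕ) : ℤ) g cdc_E4Hol = cdc_E4Hol := by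
  apply Subtype.ext
  funext τ
  rw [inj_slashHol_apply, cdc_E4Hol_apply, cdc_E4Hol_apply, jf_levelOne_smul ModularForm.E₄ g τ]
  have hd : denom (g : GL (Fin 2) ℝ) τ ≠ 0 := denom_ne_zero _ _
  rw [mul_comm, ← mul_assoc, ← zpow_add₀ hd]
  norm_num

theorem cus1_smul_E4 (g : SL(2, ℤ)) :
    g • cus1_E4 = cus1_E4 * algebraMap Hol Mer (cus1_denomHol g⁻¹) ^ 4 := by
  rw [cus1_E4, cus1_smul_mk 4, cus1_slash_E4]

/-- **the slash identity**: if `u * mk(E₄)^p = mk(A)^p` then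
`(g • u) * mk(E₄)^p = mk(A ∣[4] g⁻¹)^p`. -/
theorem cus1_smul_root (A : Hol) (p : ℕ) (u : Mer)
    (hu : u * cus1_E4 ^ p = algebraMap Hol Mer A ^ p) (g : SL(2, ℤ)) :
    (g • u) * cus1_E4 ^ p = algebraMap Hol Mer (inj_slashHol ((4 : ℕ) : ℤ) g⁻¹ A) ^ p := by
  have h1 : g • (u * cus1_E4 ^ p) = g • (algebraMap Hol Mer A ^ p) := by rw [hu]
  rw [smul_mul', smul_pow', smul_pow', cus1_smul_E4, cus1_smul_mk 4 g A, mul_pow, mul_pow,
    ← mul_assoc] at h1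
  exact mul_right_cancel₀ (pow_ne_zero _ (pow_ne_zero _ (cus1_denomHol_ne_zero g⁻¹))) h1

theorem cus1_smul_root_mem (A : Hol) (p : ℕ) (u : Mer)
    (hu : u * cus1_E4 ^ p = algebraMap Hol Mer A ^ p) (g : SL(2, ℤ))
    (hbdd : IsBoundedAtImInfty ((A : ℍ → ℂ) ∣[(4 : ℤ)] g⁻¹)) : g • u ∈ cus1_T := by
  refine ⟨p, inj_slashHol ((4 : ℕ) : ℤ) g⁻¹ A ^ p, ?_, ?_⟩
  · rw [cus1_smul_root A p u hu g, map_pow]
  · exact cus1_bdd_pow hbdd p

/-! ### the symmetric polynomial -/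

/-- **`cov_exists_Q` for an arbitrary subring**: for a finite `SL(2,ℤ)`-set `I` and an equivariant
family `a : I → Mer` with values in a subring `T` whose invariant elements are polynomials in `J'`,
the polynomial `∏ x, (X - C (a x))` is the image of a MONIC polynomial over `ℂ[J']`. -/
theorem cus1_exists_Q {I : Type*} [Fintype I] [MulAction SL(2, ℤ) I] (T : Subring Mer) (J' : Mer)
    (hINV : ∀ E ∈ T, (∀ γ : SL(2, ℤ), γ • E = E) → ∃ r : ℂ[X], E = aeval J' r)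
    (a : I → Mer) (hperm : ∀ (γ : SL(2, ℤ)) (x : I), γ • a x = a (γ • x))
    (haT : ∀ x, a x ∈ T) :
    ∃ Q : ℂ[X][X], Q.Monic ∧ Q.natDegree = Fintype.card I ∧
      Q.map ((aeval J' : ℂ[X] →ₐ[ℂ] Mer) : ℂ[X] →+* Mer) = ∏ x, (X - C (a x)) := by
  classical
  set f : ℂ[X] →+* Mer := ((aeval J' : ℂ[X] →ₐ[ℂ] Mer) : ℂ[X] →+* Mer) with hf
  have hmonic : (∏ x, (X - C (a x)) : Mer[X]).Monic := monic_prod_of_monic _ _ fun x _ => monic_X_sub_C _
  have hlift : (∏ x, (X - C (a x)) : Mer[X]) ∈ lifts f := by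
    rw [lifts_iff_coeff_lifts]
    intro k
    -- the coefficients lie in `T`
    have hcoefT : (∏ x, (X - C (a x)) : Mer[X]).coeff k ∈ T := by
      have hprod : (∏ x, (X - C (a x)) : Mer[X]) =
          (∏ x, (X - C (⟨a x, haT x⟩ : T)) : T[X]).map T.subtype := by
        rw [Polynomial.map_prod]
        refine Finset.prod_congr rfl (fun x _ => ?_)
        rw [Polynomial.map_sub, map_X, map_C]
        rfl
      rw [hprod, coeff_map]
      exact ((∏ x, (X - C (⟨a x, haT x⟩ : T)) : T[X]).coeff k).2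
    -- invariance of the coefficients
    have hcoefInv : ∀ γ : SL(2, ℤ),
        γ • ((∏ x, (X - C (a x)) : Mer[X]).coeff k) = (∏ x, (X - C (a x)) : Mer[X]).coeff k := by
      intro γ
      have h1 : (∏ x, (X - C (a x)) : Mer[X]).map (MulSemiringAction.toRingHom SL(2, ℤ) Mer γ) =
          ∏ x, (X - C (a x)) := by
        rw [Polynomial.map_prod]
        have h2 : ∀ x, ((X - C (a x) : Mer[X])).map (MulSemiringAction.toRingHom SL(2, ℤ) Mer γ) =
            X - C (a (γ • x)) := by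
          intro x
          rw [Polynomial.map_sub, map_X, map_C, MulSemiringAction.toRingHom_apply, hperm]
        simp only [h2]
        exact Fintype.prod_equiv (MulAction.toPerm γ) _ _ (fun x => rfl)
      have h3 := congrArg (fun p : Mer[X] => p.coeff k) h1
      simp only [coeff_map, MulSemiringAction.toRingHom_apply] at h3
      exact h3
    obtain ⟨r, hr⟩ := hINV _ hcoefT hcoefInv
    exact ⟨r, hr.symm⟩
  obtain ⟨Q, hQ, hdeg, hQm⟩ := lifts_and_natDegree_eq_and_monic hlift hmonic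
  refine ⟨Q, hQm, ?_, hQ⟩
  rw [hdeg, natDegree_prod_of_monic _ _ fun x _ => monic_X_sub_C _]
  simp

/-! ### the orbit family -/

/-- the family of conjugates `x ↦ (out x) • u`, `x ∈ Q M = SL(2,ℤ) ⧸ Γ₀(M)` -/
def cus1_fam (M : ℕ) (u : Mer) (x : Q M) : Mer := (Quotient.out x : SL(2, ℤ)) • u

theorem cus1_fam_eq_of_mk {M : ℕ} {u : Mer}
    (hinv : ∀ γ : SL(2, ℤ), γ ∈ Gamma0 M → γ • u = u) (g : SL(2, ℤ)) (x : Q M)
    (hx : (g : Q M) = x) : cus1_fam M u x = g • u := by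
  subst hx
  obtain ⟨h, hh⟩ := QuotientGroup.mk_out_eq_mul (Gamma0 M) g
  have : (Quotient.out (g : Q M) : SL(2, ℤ)) = g * h := hh
  rw [cus1_fam, this, mul_smul, hinv h h.2]

theorem cus1_fam_smul {M : ℕ} {u : Mer}
    (hinv : ∀ γ : SL(2, ℤ), γ ∈ Gamma0 M → γ • u = u) (γ : SL(2, ℤ)) (x : Q M) :
    γ • cus1_fam M u x = cus1_fam M u (γ • x) := by
  rw [cus1_fam, ← mul_smul]
  symm
  apply cus1_fam_eq_of_mk hinv
  conv_rhs => rw [← QuotientGroup.out_eq' x]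
  rfl

theorem cus1_fam_one {M : ℕ} {u : Mer}
    (hinv : ∀ γ : SL(2, ℤ), γ ∈ Gamma0 M → γ • u = u) :
    cus1_fam M u ((1 : SL(2, ℤ)) : Q M) = u := by
  rw [cus1_fam_eq_of_mk hinv 1 _ rfl, one_smul]

/-- `u` is a root of `∏ x, (X - C (a x))` -/
theorem cus1_fam_root {M : ℕ} [NeZero M] {u : Mer}
    (hinv : ∀ γ : SL(2, ℤ), γ ∈ Gamma0 M → γ • u = u) :
    (∏ x : Q M, (X - C (cus1_fam M u x)) : Mer[X]).eval u = 0 := by
  rw [eval_prod]
  refine Finset.prod_eq_zero (Finset.mem_univ ((1 : SL(2, ℤ)) : Q M)) ?_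
  rw [cus1_fam_one hinv, eval_sub, eval_X, eval_C, sub_self]

/-- the constant coefficient of `∏ x, (X - C (a x))` -/
theorem cus1_coeff_zero {I : Type*} [Fintype I] (a : I → Mer) :
    (∏ x, (X - C (a x)) : Mer[X]).coeff 0 = (-1) ^ Fintype.card I * ∏ x, a x := by
  rw [coeff_zero_eq_eval_zero, eval_prod]
  simp only [eval_sub, eval_X, eval_C, zero_sub]
  rw [Finset.prod_neg]
  simp

/-- the family lies in `cus1_T` and `(∏ a x) * mk(E₄)^(p n) = mk(∏ (A ∣[4] g_x⁻¹)^p)` -/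
theorem cus1_fam_mem {M : ℕ} (A : Hol) (p : ℕ) (u : Mer)
    (hu : u * cus1_E4 ^ p = algebraMap Hol Mer A ^ p)
    (hbdd : ∀ g : SL(2, ℤ), IsBoundedAtImInfty ((A : ℍ → ℂ) ∣[(4 : ℤ)] g)) (x : Q M) :
    cus1_fam M u x ∈ cus1_T :=
  cus1_smul_root_mem A p u hu _ (hbdd _)

theorem cus1_fam_prod {M : ℕ} [NeZero M] (A : Hol) (p : ℕ) (u : Mer)
    (hu : u * cus1_E4 ^ p = algebraMap Hol Mer A ^ p) :
    (∏ x : Q M, cus1_fam M u x) * cus1_E4 ^ (p * Fintype.card (Q M)) =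
      algebraMap Hol Mer
        (∏ x : Q M, inj_slashHol ((4 : ℕ) : ℤ) (Quotient.out x : SL(2, ℤ))⁻¹ A ^ p) := by
  rw [pow_mul, ← Finset.card_univ, ← Finset.prod_const, ← Finset.prod_mul_distrib, map_prod]
  refine Finset.prod_congr rfl fun x _ => ?_
  rw [cus1_fam, cus1_smul_root A p u hu, map_pow]

end

end Fermat.Agent.S42x
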