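/-
S42x/DescAbs (helper31, prefix `dsa_`): ABSTRACT CORE of the descent step N5 of the S42 route
(`S42_LEAD_NOTES`), generic in the function field `F / K`.

Setting: Prelude `Place K F`, `Divisor K F`, `SemilinearAut K F`; S18x Riemann–Roch spaces
`rmtL D` with the elementary hypotheses `RmtBase K F`.

* `dsa_tw D P n = D + n•P`.
* `dsa_exists_line` : if some `L(D + n•P)` is nonzero then for the MINIMAL such `n` the space
  `L(D + n•P)` is a line `K u` and `L(D + m•P) = 0` for `m < n`.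
  `dsa_exists_line_of_coord` : the same from Riemann's inequality (`RmtCoord`).
* `dsa_smul_mem` : a semilinear automorphism `g` maps `L(D)` to `L(g • D)`.
* `dsa_smul_divisor` : if `ord_v f = p * D v` for all `v` and `g • f = c * f * w ^ p` then
  `g • D = D + div w` (pointwise form).
* `dsa_semilinear_fix` : with `L(D + n•P) = K u` and `g • P = P`:
  `g • (u ^ p * f) = d * (u ^ p * f)` with `d ∈ Kˣ`.
-/
import Mathlib
import Fermat.Prelude.Def_AlgebraicCurve_BaseChangeGalois
import Fermat.Agent.S18x.RiemannBase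
import Fermat.Agent.S18x.RiemannThm

set_option autoImplicit false

namespace Fermat.Agent.S42x

open AlgebraicCurve Fermat.Agent.S18x Fermat.Agent.S24x

variable {K F : Type*} [Field K] [Field F] [Algebra K F]

/-- the twisted divisor `D + n • P`. -/
noncomputable abbrev dsa_tw (D : Divisor K F) (P : Place K F) (n : ℤ) : Divisor K F :=
  D + Finsupp.single P n

theorem dsa_tw_apply_self (D : Divisor K F) (P : Place K F) (n : ℤ) :
    dsa_tw D P n P = D P + n := by
  simp [dsa_tw]

theorem dsa_tw_apply_ne (D : Divisor K F) {P v : Place K F} (h : v ≠ P) (n : ℤ) :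
    dsa_tw D P n v = D v := by
  classical
  simp [dsa_tw, Ne.symm h]

theorem dsa_tw_succ (D : Divisor K F) (P : Place K F) (n : ℤ) :
    dsa_tw D P (n + 1) = rmtAddPlace (dsa_tw D P n) P := by
  simp only [dsa_tw, rmtAddPlace, Finsupp.single_add, add_assoc]

theorem dsa_degree_tw (hb : RmtBase K F) (D : Divisor K F) (P : Place K F) (n : ℤ) :
    Divisor.degree (dsa_tw D P n) = Divisor.degree D + n := by
  rw [dsa_tw, map_add, Divisor.degree_single, rmt_deg_one hb]
  simp

theorem dsa_tw_mono (D : Divisor K F) (P : Place K F) {m n : ℤ} (h : m ≤ n) :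
    dsa_tw D P m ≤ dsa_tw D P n := by
  classical
  rw [Finsupp.le_def]
  intro v
  by_cases hv : v = P
  · subst hv
    rw [dsa_tw_apply_self, dsa_tw_apply_self]
    omega
  · rw [dsa_tw_apply_ne D hv, dsa_tw_apply_ne D hv]

/-- `L(D + n•P) = 0` as soon as `deg D + n < 0`. -/
theorem dsa_L_eq_bot (hb : RmtBase K F) (D : Divisor K F) (P : Place K F) {n : ℤ}
    (hn : Divisor.degree D + n < 0) : rmtL (dsa_tw D P n) = ⊥ :=
  rmtL_eq_bot_of_degree_neg hb (by rw [dsa_degree_tw hb]; exact hn)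

/-- **canonical line**: for the minimal `n` with `L(D + n•P) ≠ 0` the space `L(D + n•P)` is a
line, and `L(D + m•P) = 0` below. -/
theorem dsa_exists_line (hb : RmtBase K F) (D : Divisor K F) (P : Place K F)
    (hex : ∃ n : ℤ, rmtL (dsa_tw D P n) ≠ ⊥) :
    ∃ (n : ℤ) (u : F), u ≠ 0 ∧ u ∈ rmtL (dsa_tw D P n) ∧
      (∀ w ∈ rmtL (dsa_tw D P n), ∃ c : K, w = c • u) ∧
      (∀ m : ℤ, m < n → rmtL (dsa_tw D P m) = ⊥) := by
  classical
  -- the set of good `n` is bounded below by `- deg D`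
  have hbdd : ∃ b : ℤ, ∀ z : ℤ, rmtL (dsa_tw D P z) ≠ ⊥ → b ≤ z := by
    refine ⟨-Divisor.degree D, fun z hz => ?_⟩
    by_contra hlt
    exact hz (dsa_L_eq_bot hb D P (by omega))
  obtain ⟨b, hb'⟩ := hbdd
  obtain ⟨n, hn, hmin⟩ := Int.exists_least_of_bdd (P := fun z => rmtL (dsa_tw D P z) ≠ ⊥)
    ⟨b, hb'⟩ hex
  have hbelow : ∀ m : ℤ, m < n → rmtL (dsa_tw D P m) = ⊥ := by
    intro m hm
    by_contra hne
    have := hmin m hne
    omega
  obtain ⟨u, hu, hu0⟩ := (Submodule.ne_bot_iff _).mp hn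
  refine ⟨n, u, hu0, hu, ?_, hbelow⟩
  intro w hw
  have hprev : rmtL (dsa_tw D P (n - 1)) = ⊥ := hbelow (n - 1) (by omega)
  have hsucc : dsa_tw D P n = rmtAddPlace (dsa_tw D P (n - 1)) P := by
    have := dsa_tw_succ D P (n - 1)
    rwa [sub_add_cancel] at this
  have hu' : u ∈ rmtL (rmtAddPlace (dsa_tw D P (n - 1)) P) := hsucc ▸ hu
  have hw' : w ∈ rmtL (rmtAddPlace (dsa_tw D P (n - 1)) P) := hsucc ▸ hw
  have hunot : u ∉ rmtL (dsa_tw D P (n - 1)) := by
    rw [hprev, Submodule.mem_bot]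
    exact hu0
  obtain ⟨c, hc⟩ := rmt_step hb hw' hu' hunot
  rw [hprev, Submodule.mem_bot, sub_eq_zero] at hc
  exact ⟨c, hc⟩

/-- the canonical line from Riemann's inequality. -/
theorem dsa_exists_line_of_coord (hb : RmtBase K F) {x : F} (hc : RmtCoord hb x)
    (D : Divisor K F) (P : Place K F) :
    ∃ (n : ℤ) (u : F), u ≠ 0 ∧ u ∈ rmtL (dsa_tw D P n) ∧
      (∀ w ∈ rmtL (dsa_tw D P n), ∃ c : K, w = c • u) ∧
      (∀ m : ℤ, m < n → rmtL (dsa_tw D P m) = ⊥) := by
  refine dsa_exists_line hb D P ⟨(rmtGenus K F : ℤ) - Divisor.degree D, ?_⟩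
  have h := rmt_riemann_ineq hb hc (dsa_tw D P ((rmtGenus K F : ℤ) - Divisor.degree D))
  rw [dsa_degree_tw hb] at h
  have hpos : 0 < rmtl (dsa_tw D P ((rmtGenus K F : ℤ) - Divisor.degree D)) := by
    have : (0 : ℤ) < rmtl (dsa_tw D P ((rmtGenus K F : ℤ) - Divisor.degree D)) := by omega
    exact_mod_cast this
  obtain ⟨f, hf0, hf⟩ := (rmtl_pos_iff hb).mp hpos
  exact (Submodule.ne_bot_iff _).mpr ⟨f, hf, hf0⟩

/-! ### semilinear automorphisms -/

/-- value of `g • D` at an arbitrary place. -/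
theorem dsa_smul_divisor_apply (g : SemilinearAut K F) (D : Divisor K F) (v : Place K F) :
    (g • D) v = D (g⁻¹ • v) := by
  have h := SemilinearAut.divisor_smul_apply_smul g D (g⁻¹ • v)
  rwa [smul_inv_smul] at h

/-- order of `g • f` at an arbitrary place. -/
theorem dsa_ord_smul (g : SemilinearAut K F) (v : Place K F) (f : F) :
    v.ord (g • f) = (g⁻¹ • v).ord f := by
  have h := SemilinearAut.ord_smul g (g⁻¹ • v) f
  rwa [smul_inv_smul] at h

/-- a semilinear automorphism maps `L(D)` into `L(g • D)`. -/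
theorem dsa_smul_mem (g : SemilinearAut K F) {D : Divisor K F} {w : F} (hw : w ∈ rmtL D) :
    g • w ∈ rmtL (g • D) := by
  rw [rmt_mem_iff] at hw ⊢
  intro v
  rcases hw (g⁻¹ • v) with h0 | h1
  · left
    rw [h0, smul_zero]
  · right
    rw [dsa_smul_divisor_apply, dsa_ord_smul]
    exact h1

/-- if `div f = p • D` and `g • f = c * f * w ^ p` then `g • D = D + div w` (pointwise). -/
theorem dsa_smul_divisor (g : SemilinearAut K F) {p : ℕ} (hp : p ≠ 0) {D : Divisor K F}
    {f w : F} {c : K} (hf : f ≠ 0) (hw : w ≠ 0) (hc : c ≠ 0)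
    (hdiv : ∀ v : Place K F, v.ord f = (p : ℤ) * D v)
    (hg : g • f = algebraMap K F c * f * w ^ p) (v : Place K F) :
    (g • D) v = D v + v.ord w := by
  have hcF : algebraMap K F c ≠ 0 := (map_ne_zero (algebraMap K F)).mpr hc
  have h1 : v.ord (g • f) = (p : ℤ) * D v + (p : ℤ) * v.ord w := by
    rw [hg, Place.ord_mul v (mul_ne_zero hcF hf) (pow_ne_zero p hw), Place.ord_mul v hcF hf,
      rmt_ord_algebraMap', zero_add, hdiv v]
    have : v.ord (w ^ p) = (p : ℤ) * v.ord w := by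
      have := Place.ord_zpow v w (p : ℤ)
      rwa [zpow_natCast] at this
    rw [this]
  have h2 : v.ord (g • f) = (p : ℤ) * (g • D) v := by
    rw [dsa_ord_smul, hdiv, dsa_smul_divisor_apply]
  have hp' : (p : ℤ) ≠ 0 := by exact_mod_cast hp
  have : (p : ℤ) * (g • D) v = (p : ℤ) * (D v + v.ord w) := by
    rw [← h2, h1]; ring
  exact mul_left_cancel₀ hp' this

/-- **semilinear invariance of the canonical representative.**  If `div f = p • D`, the space
`L(D + n•P)` is the line `K u`, the semilinear automorphism `g` fixes the place `P` and maps `f`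
into its own class modulo constants and `p`-th powers (`g • f = c * f * w ^ p`), then `g` fixes
`u ^ p * f` up to a nonzero constant. -/
theorem dsa_semilinear_fix (g : SemilinearAut K F) {p : ℕ} (hp : p ≠ 0) {D : Divisor K F}
    {P : Place K F} (hgP : g • P = P) {n : ℤ} {u : F} (hu0 : u ≠ 0)
    (hu : u ∈ rmtL (dsa_tw D P n))
    (hline : ∀ w ∈ rmtL (dsa_tw D P n), ∃ c : K, w = c • u)
    {f w : F} {c : K} (hf : f ≠ 0) (hw : w ≠ 0) (hc : c ≠ 0)
    (hdiv : ∀ v : Place K F, v.ord f = (p : ℤ) * D v)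
    (hg : g • f = algebraMap K F c * f * w ^ p) :
    ∃ d : K, d ≠ 0 ∧ g • (u ^ p * f) = algebraMap K F d * (u ^ p * f) := by
  classical
  have hgu0 : g • u ≠ 0 := by
    intro h
    apply hu0
    have := congrArg (g⁻¹ • ·) h
    simpa using this
  -- `(g • u) * w ∈ L(D + n•P)`
  have hmem : (g • u) * w ∈ rmtL (dsa_tw D P n) := by
    have h1 : g • u ∈ rmtL (g • dsa_tw D P n) := dsa_smul_mem g hu
    rw [rmt_mem_iff' hgu0] at h1
    rw [rmt_mem_iff' (mul_ne_zero hgu0 hw)]
    intro v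
    have h2 := h1 v
    rw [Place.ord_mul v hgu0 hw]
    have h3 : (g • dsa_tw D P n) v = dsa_tw D P n v + v.ord w := by
      rw [dsa_tw, smul_add, Finsupp.add_apply, SemilinearAut.smul_single, hgP,
        dsa_smul_divisor g hp hf hw hc hdiv hg v, Finsupp.add_apply]
      ring
    rw [h3] at h2
    omega
  obtain ⟨d, hd⟩ := hline _ hmem
  have hd0 : d ≠ 0 := by
    rintro rfl
    rw [zero_smul] at hd
    exact mul_ne_zero hgu0 hw hd
  refine ⟨c * d ^ p, mul_ne_zero hc (pow_ne_zero p hd0), ?_⟩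
  have hd' : (g • u) * w = algebraMap K F d * u := by rw [hd, Algebra.smul_def]
  calc g • (u ^ p * f) = (g • u) ^ p * (g • f) := by rw [smul_mul', smul_pow']
    _ = (g • u) ^ p * (algebraMap K F c * f * w ^ p) := by rw [hg]
    _ = algebraMap K F c * ((g • u) * w) ^ p * f := by ring
    _ = algebraMap K F c * (algebraMap K F d * u) ^ p * f := by rw [hd']
    _ = algebraMap K F (c * d ^ p) * (u ^ p * f) := by
        rw [map_mul, map_pow]; ring

end Fermat.Agent.S42x
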