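/-
S42x/DescAbs63 (helper63; S42 block B7, ABSTRACT CORE of the descent `ℂ → ℚ̄`, S42_LEAD_NOTES (N5);
prefix `dsca_`).  Pure algebra over the Prelude API (`Place`, `Divisor`, `riemannRochSpace`,
`SemilinearAut K F` with `ord_smul`) and the abstract Riemann package `rmn_Hyp K F` (S18x/RmnBasic).

Setting: `F / K` a function field (`H : rmn_Hyp K F`), `Pinf` a place, `p > 0`, `f ≠ 0` with
`div f = p • D` (pointwise: `hD : ∀ P, P.ord f = p * D P`).  `L n := L(D + n·Pinf)`.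

* `dsca_mem_iff_pow`  : `u ∈ L n ↔ div (u ^ p * f) ≥ - p n Pinf`  (the `L_n` of (N5));
* `dsca_exists_min`   : if some `L n ≠ 0` and `L n = 0` for `n ≪ 0`, there is a minimal `n₀` and
                        `L n₀ = K · u₀` is a LINE (`rmn_step_le`);
* `dsca_smul_mem`     : if `g : SemilinearAut K F` fixes `Pinf` and `g • f = c * f * w ^ p`, then
                        `u ∈ L n → (g • u) * w ∈ L n`;
* `dsca_fixed_up_to_const` : `g • (u₀ ^ p * f) = a * (u₀ ^ p * f)`, `a ∈ Kˣ`;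
* `dsca_main`         : with a normalisation `lc : F →*₀ K` (`lc (algebraMap c) = c`, e.g. the leading
                        `q`-coefficient) the function `f' := lc(u₀^p f)⁻¹ * u₀^p * f = c' * f * u₀^p`
                        has `lc f' = 1` and is FIXED by every `g` as above that is compatible with `lc`.
-/
import Mathlib
import Fermat.Prelude.Def_AlgebraicCurve_BaseChangeGalois
import Fermat.Prelude.Def_AlgebraicCurve_Repartitions
import Fermat.Agent.S18x.RmnBasic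

set_option autoImplicit false

namespace Fermat.Agent.S42x

open AlgebraicCurve Fermat.Agent.S18x

variable {K F : Type*} [Field K] [Field F] [Algebra K F]

/-- the divisor `D + n · Pinf`. -/
noncomputable def dsca_Dn (D : Divisor K F) (Pinf : Place K F) (n : ℤ) : Divisor K F :=
  D + Finsupp.single Pinf n

/-- `L_n := L(D + n · Pinf)`. -/
noncomputable def dsca_L (D : Divisor K F) (Pinf : Place K F) (n : ℤ) : Submodule K F :=
  riemannRochSpace (dsca_Dn D Pinf n)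

theorem dsca_Dn_apply [DecidableEq (Place K F)] (D : Divisor K F) (Pinf : Place K F) (n : ℤ)
    (P : Place K F) :
    dsca_Dn D Pinf n P = D P + (if P = Pinf then n else 0) := by
  rw [dsca_Dn, Finsupp.add_apply, Finsupp.single_apply]
  congr 1
  by_cases h : P = Pinf
  · rw [if_pos h, if_pos h.symm]
  · rw [if_neg h, if_neg (Ne.symm h)]

theorem dsca_Dn_succ (D : Divisor K F) (Pinf : Place K F) (n : ℤ) :
    dsca_Dn D Pinf n = dsca_Dn D Pinf (n - 1) + Finsupp.single Pinf 1 := by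
  rw [dsca_Dn, dsca_Dn, add_assoc, ← Finsupp.single_add]
  congr 2
  ring

theorem dsca_mem_L_iff [DecidableEq (Place K F)] {D : Divisor K F} {Pinf : Place K F} {n : ℤ}
    {u : F} :
    u ∈ dsca_L D Pinf n ↔
      ∀ P : Place K F, u = 0 ∨ -(D P + (if P = Pinf then n else 0)) ≤ P.ord u := by
  rw [dsca_L, mem_riemannRochSpace_iff]
  refine forall_congr' fun P => ?_
  rw [dsca_Dn_apply]

section Pow

variable {p : ℕ} (hp : 0 < p) {f : F} (hf : f ≠ 0) {D : Divisor K F}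
  (hD : ∀ P : Place K F, P.ord f = (p : ℤ) * D P) (Pinf : Place K F)

include hp hf hD

/-- `L_n` in the shape of (N5): `u ∈ L(D + n Pinf) ↔ div (u ^ p f) ≥ - p n Pinf`. -/
theorem dsca_mem_iff_pow [DecidableEq (Place K F)] {n : ℤ} {u : F} (hu : u ≠ 0) :
    u ∈ dsca_L D Pinf n ↔
      ∀ P : Place K F, -((p : ℤ) * (if P = Pinf then n else 0)) ≤ P.ord (u ^ p * f) := by
  rw [dsca_mem_L_iff]
  refine forall_congr' fun P => ?_
  have hup : u ^ p ≠ 0 := pow_ne_zero p hu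
  have h1 : P.ord (u ^ p * f) = (p : ℤ) * P.ord u + (p : ℤ) * D P := by
    rw [P.ord_mul hup hf, hD P]
    congr 1
    have := P.ord_zpow u (p : ℤ)
    rwa [zpow_natCast] at this
  rw [h1, or_iff_right hu]
  have hp' : (0 : ℤ) < (p : ℤ) := by exact_mod_cast hp
  constructor
  · intro h
    nlinarith
  · intro h
    by_contra hcon
    push Not at hcon
    nlinarith

end Pow

/-! ### the minimal `n₀` and the line `L n₀` -/

/-- **canonical line**: the minimal `n₀` with `L(D + n₀ Pinf) ≠ 0`, and `L(D + n₀ Pinf) = K u₀`. -/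
theorem dsca_exists_min (H : rmn_Hyp K F) (D : Divisor K F) (Pinf : Place K F)
    (hex : ∃ n : ℤ, ∃ u : F, u ≠ 0 ∧ u ∈ dsca_L D Pinf n)
    (hbdd : ∃ N0 : ℤ, ∀ n < N0, ∀ u ∈ dsca_L D Pinf n, u = 0) :
    ∃ (n0 : ℤ) (u0 : F), u0 ≠ 0 ∧ u0 ∈ dsca_L D Pinf n0 ∧
      (∀ n < n0, ∀ u ∈ dsca_L D Pinf n, u = 0) ∧
      ∀ u ∈ dsca_L D Pinf n0, ∃ c : K, u = algebraMap K F c * u0 := by
  classical
  obtain ⟨N0, hN0⟩ := hbdd
  obtain ⟨n1, hn1⟩ := hex
  -- least element of `{n | L n ≠ 0}`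
  have hbd : ∀ z : ℤ, (∃ u : F, u ≠ 0 ∧ u ∈ dsca_L D Pinf z) → N0 ≤ z := by
    intro z ⟨u, hu, huz⟩
    by_contra hlt
    push Not at hlt
    exact hu (hN0 z hlt u huz)
  obtain ⟨n0, ⟨u0, hu0, hu0n⟩, hmin⟩ :=
    Int.exists_least_of_bdd (P := fun z => ∃ u : F, u ≠ 0 ∧ u ∈ dsca_L D Pinf z)
      ⟨N0, hbd⟩ ⟨n1, hn1⟩
  have hzero : ∀ n < n0, ∀ u ∈ dsca_L D Pinf n, u = 0 := by
    intro n hn u hu
    by_contra hne
    have := hmin n ⟨u, hne, hu⟩
    omega
  refine ⟨n0, u0, hu0, hu0n, hzero, ?_⟩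
  intro u hu
  -- `L n₀ ≤ L (n₀ - 1) ⊔ K u₀ = K u₀`
  have hu0' : u0 ∈ riemannRochSpace (dsca_Dn D Pinf (n0 - 1) + Finsupp.single Pinf 1) := by
    rw [← dsca_Dn_succ]; exact hu0n
  have hu0'' : u0 ∉ riemannRochSpace (dsca_Dn D Pinf (n0 - 1)) := fun h =>
    hu0 (hzero (n0 - 1) (by omega) u0 h)
  have hle := rmn_step_le H (dsca_Dn D Pinf (n0 - 1)) Pinf hu0' hu0''
  have hu' : u ∈ riemannRochSpace (dsca_Dn D Pinf (n0 - 1) + Finsupp.single Pinf 1) := by
    rw [← dsca_Dn_succ]; exact hu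
  have hbot : riemannRochSpace (dsca_Dn D Pinf (n0 - 1)) = ⊥ := by
    rw [eq_bot_iff]
    intro x hx
    rw [Submodule.mem_bot]
    exact hzero (n0 - 1) (by omega) x hx
  have hmem := hle hu'
  rw [hbot, bot_sup_eq, Submodule.mem_span_singleton] at hmem
  obtain ⟨c, hc⟩ := hmem
  exact ⟨c, by rw [← hc, Algebra.smul_def]⟩

/-! ### equivariance -/

section Equivariance

variable {p : ℕ} (hp : 0 < p) {f : F} (hf : f ≠ 0) {D : Divisor K F}
  (hD : ∀ P : Place K F, P.ord f = (p : ℤ) * D P) {Pinf : Place K F}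
  (g : SemilinearAut K F) (hg : g • Pinf = Pinf) {c : K} {w : F} (hc : c ≠ 0) (hw : w ≠ 0)
  (hgf : g • f = algebraMap K F c * f * w ^ p)

include hp hf hD hg hc hw hgf

omit hg in
/-- the divisor `D` moves by `div w` under `g`. -/
theorem dsca_D_smul (Q : Place K F) : D (g⁻¹ • Q) = D Q + Q.ord w := by
  have hp' : (0 : ℤ) < (p : ℤ) := by exact_mod_cast hp
  have h1 : Q.ord (g • f) = (g⁻¹ • Q).ord f := by
    have := SemilinearAut.ord_smul g (g⁻¹ • Q) f
    rwa [smul_inv_smul] at this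
  have hcF : algebraMap K F c ≠ 0 := by simpa using hc
  have hwp : w ^ p ≠ 0 := pow_ne_zero p hw
  have h2 : Q.ord (algebraMap K F c * f * w ^ p) = (p : ℤ) * D Q + (p : ℤ) * Q.ord w := by
    rw [Q.ord_mul (mul_ne_zero hcF hf) hwp, Q.ord_mul hcF hf, rmn_ord_algebraMap, zero_add, hD Q]
    congr 1
    have := Q.ord_zpow w (p : ℤ)
    rwa [zpow_natCast] at this
  rw [hgf, h2, hD (g⁻¹ • Q)] at h1
  have h3 : (p : ℤ) * (D Q + Q.ord w) = (p : ℤ) * D (g⁻¹ • Q) := by rw [mul_add]; exact h1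
  exact (mul_left_cancel₀ hp'.ne' h3).symm

/-- `g (L n) · w ⊆ L n`. -/
theorem dsca_smul_mem {n : ℤ} {u : F} (hu : u ∈ dsca_L D Pinf n) :
    (g • u) * w ∈ dsca_L D Pinf n := by
  classical
  rcases eq_or_ne u 0 with rfl | hu0
  · rw [smul_zero, zero_mul]; exact Submodule.zero_mem _
  rw [dsca_mem_L_iff] at hu ⊢
  intro Q
  right
  have hgu : g • u ≠ 0 := by
    intro h
    apply hu0
    have := congrArg (g⁻¹ • ·) h
    simpa using this
  have h1 : Q.ord (g • u) = (g⁻¹ • Q).ord u := by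
    have := SemilinearAut.ord_smul g (g⁻¹ • Q) u
    rwa [smul_inv_smul] at this
  rw [Q.ord_mul hgu hw, h1]
  have h2 := (hu (g⁻¹ • Q)).resolve_left hu0
  rw [dsca_D_smul hp hf hD g hc hw hgf Q] at h2
  have h3 : (g⁻¹ • Q = Pinf) ↔ (Q = Pinf) := by
    constructor
    · intro h
      have := congrArg (g • ·) h
      simp only [smul_inv_smul] at this
      rw [this, hg]
    · intro h
      rw [h]
      have := congrArg (g⁻¹ • ·) hg
      simp only [inv_smul_smul] at this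
      exact this.symm
  by_cases hQ : Q = Pinf
  · rw [if_pos (h3.mpr hQ)] at h2
    rw [if_pos hQ]
    omega
  · rw [if_neg (fun h => hQ (h3.mp h))] at h2
    rw [if_neg hQ]
    omega

/-- the canonical function `u₀ ^ p * f` is `g`-fixed up to a constant. -/
theorem dsca_fixed_up_to_const {n0 : ℤ} {u0 : F} (hu0 : u0 ≠ 0) (hu0n : u0 ∈ dsca_L D Pinf n0)
    (hline : ∀ u ∈ dsca_L D Pinf n0, ∃ a : K, u = algebraMap K F a * u0) :
    ∃ a : K, a ≠ 0 ∧ g • (u0 ^ p * f) = algebraMap K F a * (u0 ^ p * f) := by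
  obtain ⟨a, ha⟩ := hline _ (dsca_smul_mem hp hf hD g hg hc hw hgf hu0n)
  have hgu : g • u0 ≠ 0 := by
    intro h
    apply hu0
    have := congrArg (g⁻¹ • ·) h
    simpa using this
  have ha0 : a ≠ 0 := by
    rintro rfl
    rw [map_zero, zero_mul] at ha
    exact (mul_ne_zero hgu hw) ha
  refine ⟨c * a ^ p, mul_ne_zero hc (pow_ne_zero p ha0), ?_⟩
  rw [smul_mul', smul_pow', hgf, map_mul, map_pow]
  calc (g • u0) ^ p * (algebraMap K F c * f * w ^ p)
      = algebraMap K F c * ((g • u0) * w) ^ p * f := by ring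
    _ = algebraMap K F c * (algebraMap K F a * u0) ^ p * f := by rw [ha]
    _ = algebraMap K F c * algebraMap K F a ^ p * (u0 ^ p * f) := by ring

end Equivariance

/-! ### the normalised canonical representative -/

/-- **(N5), abstract form.**  Under `rmn_Hyp`, if `div f = p D`, some `L(D + n Pinf) ≠ 0` and
`L(D + n Pinf) = 0` for `n ≪ 0`, there is `f' = c' * f * u₀ ^ p` (`c' ∈ Kˣ`, `u₀ ∈ Fˣ`), normalised
by `lc f' = 1`, which is FIXED by every semilinear automorphism `g` fixing `Pinf`, compatible with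
the normalisation `lc`, and moving `f` inside its class (`g • f = c * f * w ^ p`). -/
theorem dsca_main (H : rmn_Hyp K F) {p : ℕ} (hp : 0 < p) {f : F} (hf : f ≠ 0) {D : Divisor K F}
    (hD : ∀ P : Place K F, P.ord f = (p : ℤ) * D P) (Pinf : Place K F)
    (hex : ∃ n : ℤ, ∃ u : F, u ≠ 0 ∧ u ∈ dsca_L D Pinf n)
    (hbdd : ∃ N0 : ℤ, ∀ n < N0, ∀ u ∈ dsca_L D Pinf n, u = 0)
    (lc : F →*₀ K) (hlc : ∀ c : K, lc (algebraMap K F c) = c) :
    ∃ (f' u0 : F) (c' : K), c' ≠ 0 ∧ u0 ≠ 0 ∧ f' = algebraMap K F c' * f * u0 ^ p ∧ lc f' = 1 ∧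
      ∀ g : SemilinearAut K F, g • Pinf = Pinf →
        (∀ x : F, lc (g • x) = SemilinearAut.baseAut g (lc x)) →
        (∃ (c : K) (w : F), c ≠ 0 ∧ w ≠ 0 ∧ g • f = algebraMap K F c * f * w ^ p) →
        g • f' = f' := by
  obtain ⟨n0, u0, hu0, hu0n, -, hline⟩ := dsca_exists_min H D Pinf hex hbdd
  have hF0 : u0 ^ p * f ≠ 0 := mul_ne_zero (pow_ne_zero p hu0) hf
  set Lc : K := lc (u0 ^ p * f) with hLc
  have hLc0 : Lc ≠ 0 := (map_ne_zero lc).mpr hF0
  refine ⟨algebraMap K F Lc⁻¹ * f * u0 ^ p, u0, Lc⁻¹, inv_ne_zero hLc0, hu0, rfl, ?_, ?_⟩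
  · have : algebraMap K F Lc⁻¹ * f * u0 ^ p = algebraMap K F Lc⁻¹ * (u0 ^ p * f) := by ring
    rw [this, map_mul, hlc, ← hLc, inv_mul_cancel₀ hLc0]
  · rintro g hg hglc ⟨c, w, hc, hw, hgf⟩
    obtain ⟨a, ha0, ha⟩ := dsca_fixed_up_to_const hp hf hD g hg hc hw hgf hu0 hu0n hline
    -- compare leading coefficients: `baseAut g Lc = a * Lc`
    have h1 : SemilinearAut.baseAut g Lc = a * Lc := by
      calc SemilinearAut.baseAut g Lc = lc (g • (u0 ^ p * f)) := (hglc _).symm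
        _ = lc (algebraMap K F a * (u0 ^ p * f)) := by rw [ha]
        _ = a * Lc := by rw [map_mul, hlc]
    have e : algebraMap K F Lc⁻¹ * f * u0 ^ p = algebraMap K F Lc⁻¹ * (u0 ^ p * f) := by ring
    rw [e, smul_mul', SemilinearAut.smul_algebraMap, ha, map_inv₀, h1]
    have h2 : algebraMap K F (a * Lc)⁻¹ * algebraMap K F a = algebraMap K F Lc⁻¹ := by
      rw [← map_mul]
      congr 1
      field_simp
    rw [← mul_assoc, h2]

end Fermat.Agent.S42x
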