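/-
S42x/DescCoeff (helper72; S42 project, block B7 = descent ℂ → Q̄, leaf Q of
`S42_B7_SPEC_helper74`; prefix `dscq_`):

a FINITE set of complex Laurent series which is stable under the coefficientwise action of
EVERY ring automorphism of `ℂ` consists of series all of whose coefficients are algebraic, i.e.
each member is `coeffMap iotaQ y` for some `y : Q̄((q))`.

* `dscq_mem_range_of_finite_orbit` : a complex number with a finite `Aut(ℂ)`-orbit lies in
  `iotaQ(Q̄)` (from helper87's `afr_mem_range_of_finite_orbit_ringHom`);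
* `dscq_exists_lift` : generic lifting of a Laurent series along an injective ring hom when all
  coefficients are in the range;
* `dscq_coeff_mem_range`, `dscq_exists_preimage` : the leaf (exact signature of the spec).
-/
import Mathlib
import Fermat.Prelude.Def_ModularCurve_LaurentCoeff
import Fermat.Agent.S24x.Iota
import Fermat.Agent.S42x.AutFixedRel

set_option autoImplicit false

namespace Fermat.Agent.S42x

open ModularCurve Fermat.Agent.S24x

/-- A complex number whose orbit under ALL ring automorphisms of `ℂ` is finite lies in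
`iotaQ(Q̄)`. -/
theorem dscq_mem_range_of_finite_orbit (z : ℂ)
    (hz : {w : ℂ | ∃ σ : ℂ ≃+* ℂ, σ z = w}.Finite) : z ∈ Set.range iotaQ := by
  apply afr_mem_range_of_finite_orbit_ringHom iotaQ z
  refine hz.subset ?_
  rintro w ⟨σ, -, h⟩
  exact ⟨σ, h⟩

/-- Generic lifting: a Laurent series over `S` all of whose coefficients lie in the range of an
injective ring hom `ι : R →+* S` is `coeffMap ι y` for a Laurent series `y` over `R`. -/
theorem dscq_exists_lift {R S : Type*} [CommRing R] [CommRing S] (ι : R →+* S)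
    (t : LaurentSeries S) (h : ∀ n : ℤ, t.coeff n ∈ Set.range ι) :
    ∃ y : LaurentSeries R, coeffMap ι y = t := by
  classical
  have h' : ∀ n : ℤ, ∃ c : R, ι c = t.coeff n ∧ (t.coeff n = 0 → c = 0) := by
    intro n
    by_cases h0 : t.coeff n = 0
    · exact ⟨0, by rw [map_zero, h0], fun _ => rfl⟩
    · obtain ⟨c, hc⟩ := h n
      exact ⟨c, hc, fun h1 => absurd h1 h0⟩
  choose c hc hc0 using h'
  have hsupp : Function.support c ⊆ t.support := by
    intro n hn
    rw [Function.mem_support] at hn
    rw [HahnSeries.mem_support]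
    exact fun h0 => hn (hc0 n h0)
  refine ⟨⟨c, t.isPWO_support.mono hsupp⟩, ?_⟩
  ext n
  exact hc n

/-- Every coefficient of a member of a finite `Aut(ℂ)`-stable set of complex Laurent series is
algebraic. -/
theorem dscq_coeff_mem_range (T : Set (LaurentSeries ℂ)) (hT : T.Finite)
    (hstab : ∀ φ : ℂ ≃+* ℂ, ∀ t ∈ T, coeffMap (φ : ℂ →+* ℂ) t ∈ T)
    (t : LaurentSeries ℂ) (ht : t ∈ T) (n : ℤ) : t.coeff n ∈ Set.range iotaQ := by
  apply dscq_mem_range_of_finite_orbit
  refine (hT.image fun s : LaurentSeries ℂ => s.coeff n).subset ?_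
  rintro w ⟨σ, rfl⟩
  exact ⟨coeffMap (σ : ℂ →+* ℂ) t, hstab σ t ht, rfl⟩

/-- **Leaf Q of B7**: a finite set of complex Laurent series stable under `coeffMap φ` for all
ring automorphisms `φ` of `ℂ` consists of series of the form `coeffMap iotaQ y`. -/
theorem dscq_exists_preimage (T : Set (LaurentSeries ℂ)) (hT : T.Finite)
    (hstab : ∀ φ : ℂ ≃+* ℂ, ∀ t ∈ T, coeffMap (φ : ℂ →+* ℂ) t ∈ T) :
    ∀ t ∈ T, ∃ y : LaurentSeries Qbar, coeffMap iotaQ y = t := fun t ht =>
  dscq_exists_lift iotaQ t (dscq_coeff_mem_range T hT hstab t ht)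

end Fermat.Agent.S42x
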