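/-
S42x/DescCore (helper96, S42 block B7, prefix `dscc_`): the ABSTRACT CORE of the descent
`ℂ → ℚ̄` (S42_LEAD_NOTES N5), in hypothesis form.  Mathlib + Prelude (`SemilinearAut`, `Place`,
`Divisor`, `coeffMap`) + S18x `RiemannBase` / `RiemannThm` only.

Setting: `F / C` a function field with the elementary Riemann package (`RmtBase`, `RmtCoord`),
`ι : F → C((q))` a `q`-expansion, `P∞` the place `ord_q`, `H` a set of semilinear automorphisms of
`F / C` acting coefficientwise on `q`-expansions.  If `div f = p • D` and every `g ∈ H` fixes the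
class of `f` modulo `C^× · F^{× p}`, then some `f' = c · f · u ^ p` is fixed by every `g ∈ H`.

(`f' = lc⁻¹ · f · u₀ ^ p`, `u₀` spanning `L(D + n₀ ∞)`, `n₀` minimal with `L(D + n₀ ∞) ≠ 0`.)
-/
import Mathlib
import Fermat.Prelude.Def_AlgebraicCurve_BaseChangeGalois
import Fermat.Prelude.Def_ModularCurve_LaurentCoeff
import Fermat.Agent.S18x.RiemannThm

set_option autoImplicit false
set_option linter.style.haveILetI false

namespace Fermat.Agent.S42x

open AlgebraicCurve Fermat.Agent.S18x Fermat.Agent.S24x ModularCurve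

variable {C F : Type*} [Field C] [Field F] [Algebra C F]

/-! ### generalities -/

/-- two places with the same `ord` function are equal. -/
theorem dscc_place_ext {v w : Place C F} (h : ∀ y : F, y ≠ 0 → v.ord y = w.ord y) : v = w := by
  apply Place.ext
  ext y
  rcases eq_or_ne y 0 with rfl | hy
  · simp
  · rw [pb_mem_iff v hy, pb_mem_iff w hy, h y hy]

/-- an injective coefficient map preserves the order of a Laurent series. -/
theorem dscc_order_coeffMap {A B : Type*} [CommRing A] [CommRing B] (φ : A →+* B)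
    (hφ : Function.Injective φ) (x : LaurentSeries A) :
    (coeffMap φ x).order = x.order := by
  rcases eq_or_ne x 0 with rfl | hx
  · simp
  have hx' : coeffMap φ x ≠ 0 := by
    intro h0
    apply hx
    ext k
    have := congrArg (fun z : LaurentSeries B => z.coeff k) h0
    simp only [coeffMap_coeff, HahnSeries.coeff_zero] at this
    rw [HahnSeries.coeff_zero]
    exact hφ (by rw [this, map_zero])
  apply le_antisymm
  · apply HahnSeries.order_le_of_coeff_ne_zero
    rw [coeffMap_coeff]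
    intro h0
    exact hx (HahnSeries.coeff_order_eq_zero.mp (hφ (by rw [h0, map_zero])))
  · apply HahnSeries.order_le_of_coeff_ne_zero
    intro h0
    apply hx'
    apply HahnSeries.coeff_order_eq_zero.mp
    rw [coeffMap_coeff, h0, map_zero]

/-- semilinear automorphisms transport Riemann–Roch spaces. -/
theorem dscc_smul_mem_rmtL (g : SemilinearAut C F) {D : Divisor C F} {u : F}
    (hu : u ∈ rmtL D) : g • u ∈ rmtL (g • D) := by
  rw [rmt_mem_iff] at hu ⊢
  intro w
  rcases hu (g⁻¹ • w) with h0 | h1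
  · left
    rw [h0, smul_zero]
  · right
    rw [SemilinearAut.divisor_smul_apply]
    have := SemilinearAut.ord_smul g (g⁻¹ • w) u
    rw [smul_inv_smul] at this
    rw [this]
    exact h1

/-! ### the place at infinity is fixed -/

section Core

variable (hb : RmtBase C F)
  (ι : F →+* LaurentSeries C) (hιC : ∀ c : C, ι (algebraMap C F c) = HahnSeries.C c)
  (Pinf : Place C F) (hPinf : ∀ y : F, y ≠ 0 → Pinf.ord y = (ι y).order)

include hPinf in
/-- a semilinear automorphism acting coefficientwise on `q`-expansions fixes the place `ord_q`. -/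
theorem dscc_smul_Pinf (g : SemilinearAut C F)
    (hg : ∀ y : F, ι (g • y) = coeffMap (SemilinearAut.baseAut g).toRingHom (ι y)) :
    g • Pinf = Pinf := by
  apply dscc_place_ext
  intro z hz
  have hzy : z = g • (g⁻¹ • z) := by rw [smul_inv_smul]
  have hy0 : g⁻¹ • z ≠ 0 := by
    intro h
    apply hz
    rw [hzy, h, smul_zero]
  rw [hPinf z hz]
  conv_lhs => rw [hzy]
  rw [SemilinearAut.ord_smul, hPinf _ hy0]
  conv_rhs => rw [hzy]
  rw [hg, dscc_order_coeffMap _ (RingEquiv.injective _)]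

/-- `g • f = c f u ^ p` and `div f = p D` give `g • D = D + div u`. -/
theorem dscc_smul_D (g : SemilinearAut C F) {p : ℕ} (hp : 0 < p) {f : F} (hf : f ≠ 0)
    {D : Divisor C F} (hD : ∀ v : Place C F, v.ord f = p * D v) {c : C} {u : F} (hc0 : c ≠ 0)
    (hu : u ≠ 0) (hgf : g • f = algebraMap C F c * f * u ^ p) :
    g • D = D + rmtDiv hb u := by
  ext w
  rw [SemilinearAut.divisor_smul_apply, Finsupp.add_apply, rmtDiv_apply]
  have h1 := SemilinearAut.ord_smul g (g⁻¹ • w) f
  rw [smul_inv_smul, hgf, hD] at h1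
  have hcF : algebraMap C F c ≠ 0 := by simpa using hc0
  have hup : u ^ p ≠ 0 := pow_ne_zero _ hu
  rw [Place.ord_mul w (mul_ne_zero hcF hf) hup, Place.ord_mul w hcF hf, pb_ord_algebraMap,
    hD, ← zpow_natCast, Place.ord_zpow] at h1
  have hp' : (0 : ℤ) < (p : ℤ) := by exact_mod_cast hp
  have h2 : (p : ℤ) * (D w + w.ord u) = (p : ℤ) * D (g⁻¹ • w) := by
    rw [← h1]; ring
  exact (mul_left_cancel₀ hp'.ne' h2).symm

/-- `D + n ∞`. -/
noncomputable abbrev dscc_E (Pinf : Place C F) (D : Divisor C F) (n : ℤ) : Divisor C F :=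
  D + Finsupp.single Pinf n

/-- **existence of the canonical representative**: `L(D + n₀ ∞)` is a line for the minimal `n₀`
with `L(D + n₀ ∞) ≠ 0` (when `deg D = 0`). -/
theorem dscc_exists_line {x : F} (hc : RmtCoord hb x) {D : Divisor C F}
    (hdeg : Divisor.degree D = 0) :
    ∃ (n₀ : ℤ) (u₀ : F), u₀ ≠ 0 ∧ u₀ ∈ rmtL (dscc_E Pinf D n₀) ∧
      ∀ w ∈ rmtL (dscc_E Pinf D n₀), ∃ a : C, a • u₀ = w := by
  classical
  have hdegE : ∀ n : ℤ, Divisor.degree (dscc_E Pinf D n) = n := by
    intro n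
    rw [dscc_E, map_add, hdeg, Divisor.degree_single, rmt_deg_one hb]
    simp
  -- the set of `n` with `l(D + n ∞) > 0` is nonempty and bounded below
  have hbdd : ∃ b : ℤ, ∀ z : ℤ, 0 < rmtl (dscc_E Pinf D z) → b ≤ z := by
    refine ⟨0, fun z hz => ?_⟩
    by_contra hneg
    push Not at hneg
    have := rmtl_eq_zero_of_degree_neg hb (D := dscc_E Pinf D z) (by rw [hdegE]; exact hneg)
    omega
  have hinh : ∃ z : ℤ, 0 < rmtl (dscc_E Pinf D z) := by
    refine ⟨(rmtGenus C F : ℤ), ?_⟩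
    have := rmt_riemann_ineq hb hc (dscc_E Pinf D (rmtGenus C F : ℤ))
    rw [hdegE] at this
    omega
  obtain ⟨n₀, hn₀, hmin⟩ := Int.exists_least_of_bdd hbdd hinh
  -- `l(D + (n₀ - 1) ∞) = 0`
  have hprev : rmtl (dscc_E Pinf D (n₀ - 1)) = 0 := by
    by_contra hne
    have := hmin (n₀ - 1) (Nat.pos_of_ne_zero hne)
    omega
  have hEq : dscc_E Pinf D n₀ = rmtAddPlace (dscc_E Pinf D (n₀ - 1)) Pinf := by
    rw [rmtAddPlace, dscc_E, dscc_E, add_assoc, ← Finsupp.single_add]
    congr 2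
    ring
  have hle : rmtl (dscc_E Pinf D n₀) ≤ 1 := by
    haveI := rmt_finite hb (dscc_E Pinf D (n₀ - 1))
    have := (rmt_finite_addPlace hb (dscc_E Pinf D (n₀ - 1)) Pinf).2
    rw [← hEq, hprev] at this
    exact this
  have hone : rmtl (dscc_E Pinf D n₀) = 1 := le_antisymm hle hn₀
  obtain ⟨u₀, hu₀, hu₀L⟩ := (rmtl_pos_iff hb).mp hn₀
  refine ⟨n₀, u₀, hu₀, hu₀L, fun w hw => ?_⟩
  have hne : (⟨u₀, hu₀L⟩ : rmtL (dscc_E Pinf D n₀)) ≠ 0 := fun h => hu₀ (congrArg Subtype.val h)
  obtain ⟨a, ha⟩ := (finrank_eq_one_iff_of_nonzero' (⟨u₀, hu₀L⟩ : rmtL (dscc_E Pinf D n₀)) hne).mp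
    hone ⟨w, hw⟩
  exact ⟨a, congrArg Subtype.val ha⟩

include hιC hPinf in
/-- **ABSTRACT DESCENT CORE.**  `div f = p • D`; every `g ∈ H` acts coefficientwise on
`q`-expansions and fixes the class of `f` modulo `C^× · F^{× p}`.  Then some representative
`c · f · u ^ p` of the class is fixed by every `g ∈ H`. -/
theorem dscc_exists_fixed {x : F} (hc : RmtCoord hb x)
    (H : Set (SemilinearAut C F))
    (hH : ∀ g ∈ H, ∀ y : F, ι (g • y) = coeffMap (SemilinearAut.baseAut g).toRingHom (ι y))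
    {p : ℕ} (hp : 0 < p) {f : F} (hf : f ≠ 0) {D : Divisor C F}
    (hD : ∀ v : Place C F, v.ord f = p * D v)
    (hcls : ∀ g ∈ H, ∃ (c : C) (u : F), c ≠ 0 ∧ u ≠ 0 ∧
      g • f = algebraMap C F c * f * u ^ p) :
    ∃ (c : C) (u : F), c ≠ 0 ∧ u ≠ 0 ∧
      ∀ g ∈ H, g • (algebraMap C F c * f * u ^ p) = algebraMap C F c * f * u ^ p := by
  classical
  -- `deg D = 0`
  have hpD : (p : ℤ) • D = rmtDiv hb f := by
    ext v
    rw [Finsupp.smul_apply, rmtDiv_apply, hD, smul_eq_mul]
  have hdeg : Divisor.degree D = 0 := by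
    have h := congrArg Divisor.degree hpD
    rw [map_zsmul, rmtDiv_degree, smul_eq_mul] at h
    have hp' : (p : ℤ) ≠ 0 := by exact_mod_cast hp.ne'
    exact (mul_eq_zero.mp h).resolve_left hp'
  obtain ⟨n₀, u₀, hu₀, hu₀L, hspan⟩ := dscc_exists_line hb Pinf hc hdeg
  -- the function `y = f u₀ ^ p`
  set y : F := f * u₀ ^ p with hy
  have hy0 : y ≠ 0 := mul_ne_zero hf (pow_ne_zero _ hu₀)
  have hιy : ι y ≠ 0 := (map_ne_zero ι).mpr hy0
  set lam : C := (ι y).coeff (ι y).order with hlam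
  have hlam0 : lam ≠ 0 := fun h => hιy (HahnSeries.coeff_order_eq_zero.mp h)
  -- every `g ∈ H` multiplies `y` by a constant
  have hscal : ∀ g ∈ H, ∃ b : C, b ≠ 0 ∧ g • y = algebraMap C F b * y := by
    intro g hg
    obtain ⟨c, u, hc0, hu, hgf⟩ := hcls g hg
    have hgD := dscc_smul_D hb g hp hf hD hc0 hu hgf
    have hgP := dscc_smul_Pinf ι Pinf hPinf g (hH g hg)
    have hgE : g • dscc_E Pinf D n₀ = dscc_E Pinf D n₀ + rmtDiv hb u := by
      rw [dscc_E, smul_add, SemilinearAut.smul_single, hgP, hgD]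
      abel
    have h1 : g • u₀ ∈ rmtL (dscc_E Pinf D n₀ + rmtDiv hb u) := by
      rw [← hgE]
      exact dscc_smul_mem_rmtL g hu₀L
    have h2 : u * (g • u₀) ∈ rmtL (dscc_E Pinf D n₀) := by
      rw [← rmtL_add_div hb (dscc_E Pinf D n₀) hu]
      exact ⟨g • u₀, h1, rfl⟩
    obtain ⟨a, ha⟩ := hspan _ h2
    have hgu₀ : g • u₀ ≠ 0 := by
      intro h0
      apply hu₀
      have := congrArg (fun z => g⁻¹ • z) h0
      simpa using this
    have ha0 : a ≠ 0 := by
      rintro rfl
      rw [zero_smul] at ha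
      exact mul_ne_zero hu hgu₀ ha.symm
    refine ⟨c * a ^ p, mul_ne_zero hc0 (pow_ne_zero _ ha0), ?_⟩
    rw [hy, smul_mul', smul_pow', hgf]
    have : algebraMap C F c * f * u ^ p * (g • u₀) ^ p =
        algebraMap C F c * f * (u * (g • u₀)) ^ p := by ring
    rw [this, ← ha, Algebra.smul_def, map_mul, map_pow]
    ring
  refine ⟨lam⁻¹, u₀, inv_ne_zero hlam0, hu₀, fun g hg => ?_⟩
  obtain ⟨b, hb0, hgy⟩ := hscal g hg
  -- compare leading coefficients
  have hcoeff : SemilinearAut.baseAut g lam = b * lam := by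
    have h1 := hH g hg y
    rw [hgy, map_mul, hιC] at h1
    have h2 := congrArg (fun z : LaurentSeries C => z.coeff (ι y).order) h1
    simp only [coeffMap_coeff] at h2
    rw [HahnSeries.C_mul_eq_smul, HahnSeries.coeff_smul, smul_eq_mul] at h2
    exact h2.symm
  have hassoc : algebraMap C F lam⁻¹ * f * u₀ ^ p = algebraMap C F lam⁻¹ * y := by
    rw [hy]; ring
  rw [hassoc, smul_mul', SemilinearAut.smul_algebraMap, hgy, map_inv₀, hcoeff, ← mul_assoc,
    ← map_mul]
  congr 2
  field_simp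

end Core

end Fermat.Agent.S42x
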