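/-
S42x/DescCoreA31 (helper31, prefix `dsa31_`): LEAF A of the B7 spec `S42_B7_SPEC_helper74`
(`dsc_core`, literally the stated type), derived in a few lines from helper21's canonical
representative `S42x/CanonRep` (`cnr_rep`, `cnr_rep_smul`, `cnr_rep_congr`, `cnr_rep_rel`).

`T := cnr_rep Pinf p lc '' {t ∈ T0 | t ∈ S_p(F)}`.
-/
import Mathlib
import Fermat.Agent.S42x.CanonRep

set_option autoImplicit false

namespace Fermat.Agent.S42x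

open AlgebraicCurve Fermat.Agent.S18x

variable {K F : Type*} [Field K] [Field F] [Algebra K F]

/-- **LEAF A (`dsc_core`)**: a finite `S`-stable set `T` of canonical representatives meeting
every class of `S_p(F)` modulo `Kˣ · Fˣᵖ`. -/
theorem dsa31_core (H : rmn_Hyp K F) (hB : rmn_Bound K F) (p : ℕ) (hp : 0 < p)
    (Pinf : Place K F) (lc : F → K)
    (hlc_mul : ∀ x y, lc (x * y) = lc x * lc y) (hlc_ne : ∀ x, x ≠ 0 → lc x ≠ 0)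
    (hlc_alg : ∀ c, lc (algebraMap K F c) = c)
    (S : Set (SemilinearAut K F))
    (hSinv : ∀ g ∈ S, g⁻¹ ∈ S)
    (hSinf : ∀ g ∈ S, g • Pinf = Pinf)
    (hSlc : ∀ g ∈ S, ∀ x, lc (g • x) = SemilinearAut.baseAut g (lc x))
    (T0 : Set F) (hT0 : T0.Finite)
    (hcls : ∀ f : F, f ≠ 0 → (∀ P : Place K F, (p : ℤ) ∣ P.ord f) →
      ∃ t ∈ T0, ∃ (c : K) (u : F), c ≠ 0 ∧ u ≠ 0 ∧ f = algebraMap K F c * t * u ^ p) :
    ∃ T : Set F, T.Finite ∧ (∀ g ∈ S, ∀ t ∈ T, g • t ∈ T) ∧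
      ∀ f : F, f ≠ 0 → (∀ P : Place K F, (p : ℤ) ∣ P.ord f) →
        ∃ t ∈ T, ∃ (c : K) (u : F), c ≠ 0 ∧ u ≠ 0 ∧ t = algebraMap K F c * f * u ^ p := by
  classical
  have _ := hSinv
  have hlc : cnr_Lead K F lc :=
    ⟨fun a x => by rw [hlc_mul, hlc_alg], hlc_ne⟩
  -- every `f ∈ S_p` is related to some `t ∈ T0 ∩ S_p`
  have hmeet : ∀ f : F, cnr_Sp K p f → ∃ t ∈ T0, cnr_Sp K p t ∧ cnr_Rel K p t f := by
    intro f hf
    obtain ⟨t, htT0, c, u, hc, hu, hfe⟩ := hcls f hf.1 hf.2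
    have hrel : cnr_Rel K p t f := ⟨c, u, hc, hu, hfe⟩
    exact ⟨t, htT0, cnr_sp_of_rel hf (cnr_rel_symm hrel), hrel⟩
  refine ⟨(fun t => cnr_rep Pinf p lc t) '' {t | t ∈ T0 ∧ cnr_Sp K p t},
    (hT0.subset fun t ht => ht.1).image _, ?_, ?_⟩
  · rintro g hg _ ⟨t, ⟨-, htSp⟩, rfl⟩
    have h1 : g • cnr_rep Pinf p lc t = cnr_rep Pinf p lc (g • t) :=
      cnr_rep_smul H hB hp hlc g (hSinf g hg) (hSlc g hg) htSp
    obtain ⟨t', ht'T0, ht'Sp, ht'rel⟩ := hmeet (g • t) (cnr_sp_smul g htSp)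
    refine ⟨t', ⟨ht'T0, ht'Sp⟩, ?_⟩
    show cnr_rep Pinf p lc t' = g • cnr_rep Pinf p lc t
    rw [h1, cnr_rep_congr Pinf lc ht'rel]
  · intro f hf0 hfdiv
    have hf : cnr_Sp K p f := ⟨hf0, hfdiv⟩
    obtain ⟨t, htT0, htSp, htrel⟩ := hmeet f hf
    refine ⟨cnr_rep Pinf p lc t, ⟨t, ⟨htT0, htSp⟩, rfl⟩, ?_⟩
    obtain ⟨a, h, ha, hh, he⟩ := (cnr_rep_rel H hB Pinf hp hlc hf).1
    exact ⟨a, h, ha, hh, by rw [cnr_rep_congr Pinf lc htrel]; exact he⟩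

end Fermat.Agent.S42x
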