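/-
S42x/DescFin60 (helper60, S42 block B7, prefix `dsf60_`): the B7 TOP (descent `ℂ → ℚ̄`,
`S42x/DescFinal.dsct_top`, helper74) for an ARBITRARY predicate `Sp` on
`FC = modularFunctionFieldFullC ℂ M` which is stable under the coefficientwise automorphisms and has
finitely many classes modulo `ℂ^* · FC^{*p}`; on top of helper57's `dscg_core`
(`S42x/DescTopGen57`, canonical representatives for every `f ≠ 0`).

Instance `dsf60_top_fin`: `Sp = dscg_SpFin ℂ j p` (`p ∣ ord_P f` at the places where `j` is finite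
only), i.e. the chain "no cusps over `ℂ`" of ARCH-3 (R1).
-/
import Mathlib
import Fermat.Agent.S42x.DescFinal
import Fermat.Agent.S42x.DescTopGen57

set_option autoImplicit false

namespace Fermat.Agent.S42x

open AlgebraicCurve ModularCurve Fermat.Agent.S18x Fermat.Agent.S24x Fermat.Agent.S37x

/-- **B7 TOP for an arbitrary predicate.** -/
theorem dsf60_top_gen (M : ℕ) [NeZero M] (p : ℕ) (hp : 0 < p)
    (Sp : modularFunctionFieldFullC ℂ M → Prop) (hSp0 : ∀ f, Sp f → f ≠ 0)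
    (hSpS : ∀ (φ : ℂ ≃+* ℂ) (f : modularFunctionFieldFullC ℂ M),
      Sp f → Sp (cfb_coeffAut ℂ M φ • f))
    (T0 : Set (modularFunctionFieldFullC ℂ M)) (hT0 : T0.Finite)
    (hcls : ∀ f : modularFunctionFieldFullC ℂ M, Sp f →
      ∃ t ∈ T0, ∃ (c : ℂ) (u : modularFunctionFieldFullC ℂ M), c ≠ 0 ∧ u ≠ 0 ∧
        f = algebraMap ℂ (modularFunctionFieldFullC ℂ M) c * t * u ^ p)
    (f : modularFunctionFieldFullC ℂ M) (hf : Sp f) :
    ∃ (f0 : FBar M) (c : ℂ) (u : modularFunctionFieldFullC ℂ M), c ≠ 0 ∧ u ≠ 0 ∧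
      coeffMap iotaQ (f0 : LaurentSeries Qbar) =
        ((algebraMap ℂ (modularFunctionFieldFullC ℂ M) c * f * u ^ p :
          modularFunctionFieldFullC ℂ M) : LaurentSeries ℂ) := by
  classical
  obtain ⟨T, hTfin, hTstab, hTcov⟩ := dscg_core (rmn_hyp_fb ℂ M) (rmn_bound_fb ℂ M) p hp
    (dsct_Pinf ℂ M) (dsct_lc ℂ M) (dsct_lc_mul ℂ M) (dsct_lc_ne ℂ M) (dsct_lc_algebraMap ℂ M)
    (Set.range (cfb_coeffAut ℂ M))
    (by rintro _ ⟨φ, rfl⟩; exact dsct_smul_Pinf ℂ M φ)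
    (by rintro _ ⟨φ, rfl⟩ x; exact dsct_lc_smul ℂ M φ x)
    Sp hSp0 (by rintro _ ⟨φ, rfl⟩ f hf; exact hSpS φ f hf)
    T0 hT0 hcls
  obtain ⟨t, htT, c, u, hc, hu, ht⟩ := hTcov f hf
  have hstab : ∀ φ : ℂ ≃+* ℂ, ∀ s ∈ (Subtype.val '' T : Set (LaurentSeries ℂ)),
      coeffMap (φ : ℂ →+* ℂ) s ∈ (Subtype.val '' T : Set (LaurentSeries ℂ)) := by
    rintro φ _ ⟨s, hs, rfl⟩
    exact ⟨cfb_coeffAut ℂ M φ • s, hTstab _ ⟨φ, rfl⟩ s hs, cfb_coe_coeffAut_smul ℂ M φ s⟩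
  obtain ⟨y, hy⟩ := dsct_exists_preimage _ (hTfin.image _) hstab (t : LaurentSeries ℂ)
    ⟨t, htT, rfl⟩
  have hmem : y ∈ modularFunctionFieldBar M := by
    show y ∈ laurentBaseChange Qbar (modularFunctionFieldFull M)
    rw [← injd_mem_iff_ringHom iotaQ (modularFunctionFieldFull M) y, hy,
      fci95_laurentBaseChange_eq ℂ M]
    exact t.2
  exact ⟨⟨y, hmem⟩, c, u, hc, hu, by rw [← ht]; exact hy⟩

/-- **B7 TOP, finite places only**: divisibility by `p` is only required (and the classes only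
need to be finitely many) at the places where `j` has no pole. -/
theorem dsf60_top_fin (M : ℕ) [NeZero M] (p : ℕ) (hp : 0 < p)
    (T0 : Set (modularFunctionFieldFullC ℂ M)) (hT0 : T0.Finite)
    (hcls : ∀ f : modularFunctionFieldFullC ℂ M, f ≠ 0 →
      (∀ P : Place ℂ (modularFunctionFieldFullC ℂ M), 0 ≤ P.ord (pls_jb ℂ M) → (p : ℤ) ∣ P.ord f) →
      ∃ t ∈ T0, ∃ (c : ℂ) (u : modularFunctionFieldFullC ℂ M), c ≠ 0 ∧ u ≠ 0 ∧
        f = algebraMap ℂ (modularFunctionFieldFullC ℂ M) c * t * u ^ p)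
    (f : modularFunctionFieldFullC ℂ M) (hf : f ≠ 0)
    (hdiv : ∀ P : Place ℂ (modularFunctionFieldFullC ℂ M),
      0 ≤ P.ord (pls_jb ℂ M) → (p : ℤ) ∣ P.ord f) :
    ∃ (f0 : FBar M) (c : ℂ) (u : modularFunctionFieldFullC ℂ M), c ≠ 0 ∧ u ≠ 0 ∧
      coeffMap iotaQ (f0 : LaurentSeries Qbar) =
        ((algebraMap ℂ (modularFunctionFieldFullC ℂ M) c * f * u ^ p :
          modularFunctionFieldFullC ℂ M) : LaurentSeries ℂ) :=
  dsf60_top_gen M p hp (dscg_SpFin ℂ (pls_jb ℂ M) p) (fun _ h => h.1)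
    (fun φ _ h => dscg_spFin_smul (cfb_coeffAut ℂ M φ) (cfb_coeffAut_smul_j ℂ M φ) h)
    T0 hT0 (fun f h => hcls f h.1 h.2) f ⟨hf, hdiv⟩

/-- the same for any presentation `FC` of the level `M` function field over `ℂ` (for instance
`S23x.ratioField M`), `j` any element of `FC` with `q`-expansion `jqModC ℂ`. -/
theorem dsf60_top_fin' (M : ℕ) [NeZero M] (p : ℕ) (hp : 0 < p)
    (FC : IntermediateField ℂ (LaurentSeries ℂ)) (hFC : FC = modularFunctionFieldFullC ℂ M)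
    (j : FC) (hj : (j : LaurentSeries ℂ) = jqModC ℂ)
    (T0 : Set FC) (hT0 : T0.Finite)
    (hcls : ∀ f : FC, f ≠ 0 → (∀ P : Place ℂ FC, 0 ≤ P.ord j → (p : ℤ) ∣ P.ord f) →
      ∃ t ∈ T0, ∃ (c : ℂ) (u : FC), c ≠ 0 ∧ u ≠ 0 ∧ f = algebraMap ℂ FC c * t * u ^ p)
    (f : FC) (hf : f ≠ 0) (hdiv : ∀ P : Place ℂ FC, 0 ≤ P.ord j → (p : ℤ) ∣ P.ord f) :
    ∃ (f0 : FBar M) (c : ℂ) (u : FC), c ≠ 0 ∧ u ≠ 0 ∧
      coeffMap iotaQ (f0 : LaurentSeries Qbar) =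
        ((algebraMap ℂ FC c * f * u ^ p : FC) : LaurentSeries ℂ) := by
  subst hFC
  have hjj : j = pls_jb ℂ M := Subtype.ext hj
  subst hjj
  exact dsf60_top_fin M p hp T0 hT0 hcls f hf hdiv

end Fermat.Agent.S42x
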