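/-
S42x/DescInf48 (helper48; S42 block B7, INSTANTIATION pieces of the descent `ℂ → ℚ̄`,
S42_LEAD_NOTES (N5); prefix `dinf48_`).  Generic field `k`, level `N`:
`F := modularFunctionFieldFullC k N ⊆ k((q))`.

* `dinf48_Pinf k N : Place k F`            the place at infinity `ord_q` (S24x `OrderFn.place`);
* `dinf48_ord`     : `(dinf48_Pinf k N).ord x = (x : k((q))).order`   (`order j = -1`);
* `dinf48_smul_Pinf` : `cfb_coeffAut k N φ • dinf48_Pinf k N = dinf48_Pinf k N`
                     (coefficientwise automorphisms fix the place at infinity);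
* `dinf48_lc : F →*₀ k`  the leading `q`-coefficient, `dinf48_lc_algebraMap`,
  `dinf48_lc_smul : lc (cfb_coeffAut k N φ • x) = φ (lc x)`, `dinf48_lead : cnr_Lead k F lc`.

With `rmn_hyp_fb ℂ M`, `rmn_bound_fb ℂ M` (S18x/RmnFbar, any algebraically closed `k`) these are the
inputs `H hB P0 lc hlc g hP0 hg` of `cnr_rep_fixed` / `dsca_main` at `(K, F) = (ℂ, FullC ℂ M)`,
`g = cfb_coeffAut ℂ M σ`.
-/
import Fermat.Agent.S24x.PlaceOfOrder
import Fermat.Agent.S37x.CoeffFrob
import Fermat.Agent.S42x.CanonRep
import Fermat.Agent.S18x.RmnFbar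

set_option autoImplicit false

noncomputable section

namespace Fermat.Agent.S42x

open AlgebraicCurve ModularCurve Fermat.Agent.S24x Fermat.Agent.S37x Fermat.Agent.S18x

/-! ### order and leading coefficient under an injective coefficient map -/

section CoeffMap

variable {R S : Type*} [CommRing R] [CommRing S]

theorem dinf48_coeffMap_eq_zero_iff (φ : R →+* S) (hφ : Function.Injective φ)
    (x : LaurentSeries R) : coeffMap φ x = 0 ↔ x = 0 := by
  constructor
  · intro h
    ext n
    have := congrArg (fun y : LaurentSeries S => y.coeff n) h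
    simp only [coeffMap_coeff, HahnSeries.coeff_zero] at this
    rw [HahnSeries.coeff_zero]
    exact hφ (by rw [this, map_zero])
  · rintro rfl
    exact map_zero _

theorem dinf48_order_coeffMap (φ : R →+* S) (hφ : Function.Injective φ) (x : LaurentSeries R) :
    (coeffMap φ x).order = x.order := by
  by_cases hx : x = 0
  · rw [hx, map_zero, HahnSeries.order_zero, HahnSeries.order_zero]
  have hx' : coeffMap φ x ≠ 0 := fun h => hx ((dinf48_coeffMap_eq_zero_iff φ hφ x).mp h)
  apply le_antisymm
  · apply HahnSeries.order_le_of_coeff_ne_zero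
    rw [coeffMap_coeff]
    intro h
    exact hx (HahnSeries.coeff_order_eq_zero.mp (hφ (by rw [h, map_zero])))
  · apply HahnSeries.order_le_of_coeff_ne_zero
    intro h
    apply hx'
    apply HahnSeries.coeff_order_eq_zero.mp
    rw [coeffMap_coeff, h, map_zero]

theorem dinf48_leadingCoeff_coeffMap (φ : R →+* S) (hφ : Function.Injective φ)
    (x : LaurentSeries R) : (coeffMap φ x).leadingCoeff = φ x.leadingCoeff := by
  rw [HahnSeries.leadingCoeff_eq, HahnSeries.leadingCoeff_eq, dinf48_order_coeffMap φ hφ,
    coeffMap_coeff]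

end CoeffMap

variable (k : Type*) [Field k] (N : ℕ)

/-! ### the place at infinity -/

theorem dinf48_order_jq : (jqModC k).order = -1 := by
  apply le_antisymm
  · apply HahnSeries.order_le_of_coeff_ne_zero
    rw [coeff_jqModC_neg_one]
    exact one_ne_zero
  · by_contra hlt
    rw [not_le] at hlt
    exact jqModC_ne_zero_of_nontrivial k
      (HahnSeries.coeff_order_eq_zero.mp (coeff_jqModC_of_lt k hlt))

/-- the `q`-order on `modularFunctionFieldFullC k N` as an `OrderFn` -/
def dinf48_orderFn : OrderFn k (modularFunctionFieldFullC k N) where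
  o x := (x : LaurentSeries k).order
  map_mul a b ha hb := by
    have ha' : (a : LaurentSeries k) ≠ 0 := fun h => ha (Subtype.ext h)
    have hb' : (b : LaurentSeries k) ≠ 0 := fun h => hb (Subtype.ext h)
    show ((a : LaurentSeries k) * (b : LaurentSeries k)).order = _
    exact HahnSeries.order_mul ha' hb'
  map_add a b _ _ hab := by
    have hab' : (a : LaurentSeries k) + (b : LaurentSeries k) ≠ 0 := fun h => hab (Subtype.ext h)
    show min _ _ ≤ ((a : LaurentSeries k) + (b : LaurentSeries k)).order
    exact HahnSeries.min_order_le_order_add hab'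
  map_const c hc := by
    show (algebraMap k (LaurentSeries k) c).order = 0
    rw [algebraMap_laurentSeries_eq_single, HahnSeries.order_single hc]
  nontrivial := by
    refine ⟨⟨jqModC k, jqModC_mem_full k N⟩, ?_, ?_⟩
    · intro h
      exact jqModC_ne_zero_of_nontrivial k (congrArg Subtype.val h)
    · show (jqModC k).order ≠ 0
      rw [dinf48_order_jq]
      decide

@[simp]
theorem dinf48_orderFn_o (x : modularFunctionFieldFullC k N) :
    (dinf48_orderFn k N).o x = (x : LaurentSeries k).order := rfl

/-- **the place at infinity** `ord_q` of `modularFunctionFieldFullC k N` -/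
def dinf48_Pinf : Place k (modularFunctionFieldFullC k N) := (dinf48_orderFn k N).place

theorem dinf48_mem_Pinf (x : modularFunctionFieldFullC k N) :
    x ∈ (dinf48_Pinf k N).toValuationSubring ↔ x = 0 ∨ 0 ≤ (x : LaurentSeries k).order :=
  Iff.rfl

/-- the normalised order at the place at infinity is the `q`-order -/
theorem dinf48_ord (x : modularFunctionFieldFullC k N) :
    (dinf48_Pinf k N).ord x = (x : LaurentSeries k).order := by
  rcases eq_or_ne x 0 with rfl | hx
  · rw [Place.ord_zero]
    exact HahnSeries.order_zero.symm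
  obtain ⟨g, hg, -, h⟩ := (dinf48_orderFn k N).exists_o_eq_mul_ord
  have hj0 : (⟨jqModC k, jqModC_mem_full k N⟩ : modularFunctionFieldFullC k N) ≠ 0 := fun h0 =>
    jqModC_ne_zero_of_nontrivial k (congrArg Subtype.val h0)
  have hj := h _ hj0
  rw [dinf48_orderFn_o] at hj
  change (jqModC k).order = _ at hj
  rw [dinf48_order_jq] at hj
  have hg1 : g = 1 := by
    have hdvd : g ∣ 1 := ⟨-(dinf48_orderFn k N).place.ord
        (⟨jqModC k, jqModC_mem_full k N⟩ : modularFunctionFieldFullC k N), by linarith⟩
    exact Int.eq_one_of_dvd_one hg.le hdvd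
  have hx' := h x hx
  rw [hg1, one_mul, dinf48_orderFn_o] at hx'
  exact hx'.symm

/-! ### coefficientwise automorphisms fix the place at infinity -/

theorem dinf48_order_smul (φ : k ≃+* k) (x : modularFunctionFieldFullC k N) :
    ((cfb_coeffAut k N φ • x : modularFunctionFieldFullC k N) : LaurentSeries k).order =
      (x : LaurentSeries k).order := by
  rw [cfb_coe_coeffAut_smul]
  exact dinf48_order_coeffMap (φ : k →+* k) φ.injective _

/-- **`σ • ∞ = ∞`** for the coefficientwise action of `σ ∈ Aut(k)` -/
theorem dinf48_smul_Pinf (φ : k ≃+* k) :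
    cfb_coeffAut k N φ • dinf48_Pinf k N = dinf48_Pinf k N := by
  apply Place.ext
  ext x
  rw [cfb_mem_smul_place_iff, ← map_inv, dinf48_mem_Pinf, dinf48_mem_Pinf, dinf48_order_smul]
  constructor
  · rintro (h | h)
    · left
      have := congrArg (fun y => cfb_coeffAut k N φ • y) h
      simpa using this
    · exact Or.inr h
  · rintro (h | h)
    · left
      rw [h, smul_zero]
    · exact Or.inr h

/-! ### the leading coefficient -/

/-- the leading `q`-coefficient as a monoid-with-zero homomorphism -/
def dinf48_lc : modularFunctionFieldFullC k N →*₀ k where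
  toFun x := (x : LaurentSeries k).leadingCoeff
  map_zero' := HahnSeries.leadingCoeff_zero
  map_one' := HahnSeries.leadingCoeff_one
  map_mul' _ _ := HahnSeries.leadingCoeff_mul _ _

@[simp]
theorem dinf48_lc_apply (x : modularFunctionFieldFullC k N) :
    dinf48_lc k N x = (x : LaurentSeries k).leadingCoeff := rfl

theorem dinf48_lc_algebraMap (c : k) :
    dinf48_lc k N (algebraMap k (modularFunctionFieldFullC k N) c) = c := by
  show (algebraMap k (LaurentSeries k) c).leadingCoeff = c
  rw [algebraMap_laurentSeries_eq_single, HahnSeries.leadingCoeff_of_single]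

/-- equivariance of the leading coefficient: the `hg` input of `cnr_rep_fixed` / `dsca_main` -/
theorem dinf48_lc_smul (φ : k ≃+* k) (x : modularFunctionFieldFullC k N) :
    dinf48_lc k N (cfb_coeffAut k N φ • x) =
      SemilinearAut.baseAut (cfb_coeffAut k N φ) (dinf48_lc k N x) := by
  rw [cfb_baseAut_coeffAut, dinf48_lc_apply, dinf48_lc_apply, cfb_coe_coeffAut_smul]
  exact dinf48_leadingCoeff_coeffMap (φ : k →+* k) φ.injective _

/-- `cnr_Lead` for the leading coefficient -/
theorem dinf48_lead : cnr_Lead k (modularFunctionFieldFullC k N) (dinf48_lc k N) where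
  mul a x := by rw [map_mul, dinf48_lc_algebraMap]
  ne_zero x hx := (map_ne_zero (dinf48_lc k N)).mpr hx

/-! ### LEAF P of `S42_B7_SPEC_helper74`, literal shapes -/

/-- LEAF P: a place fixed by all coefficientwise automorphisms -/
theorem dinf48_exists_placeInf :
    ∃ Pinf : Place k (modularFunctionFieldFullC k N),
      ∀ φ : k ≃+* k, cfb_coeffAut k N φ • Pinf = Pinf :=
  ⟨dinf48_Pinf k N, dinf48_smul_Pinf k N⟩

/-- leading `q`-coefficient (plain function, as in the B7 spec) -/
def dinf48_lcFun (x : modularFunctionFieldFullC k N) : k :=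
  (x : LaurentSeries k).leadingCoeff

theorem dinf48_lcFun_eq (x : modularFunctionFieldFullC k N) :
    dinf48_lcFun k N x = dinf48_lc k N x := rfl

theorem dinf48_lcFun_mul (x y : modularFunctionFieldFullC k N) :
    dinf48_lcFun k N (x * y) = dinf48_lcFun k N x * dinf48_lcFun k N y :=
  map_mul (dinf48_lc k N) x y

theorem dinf48_lcFun_ne (x : modularFunctionFieldFullC k N) (hx : x ≠ 0) :
    dinf48_lcFun k N x ≠ 0 :=
  (map_ne_zero (dinf48_lc k N)).mpr hx

theorem dinf48_lcFun_algebraMap (c : k) :
    dinf48_lcFun k N (algebraMap k (modularFunctionFieldFullC k N) c) = c :=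
  dinf48_lc_algebraMap k N c

theorem dinf48_lcFun_smul (φ : k ≃+* k) (x : modularFunctionFieldFullC k N) :
    dinf48_lcFun k N (cfb_coeffAut k N φ • x) = φ (dinf48_lcFun k N x) :=
  dinf48_lc_smul k N φ x

/-! ### the canonical representative is fixed by the stabiliser (instance of `cnr_rep_fixed`) -/

section Fixed

variable [IsAlgClosed k] [NeZero N]

/-- **(N5) at `F = modularFunctionFieldFullC k N`** (`k` algebraically closed, e.g. `k = ℂ`): the
normalised canonical representative `f₀ = cnr_rep ∞ p lc f` of the class of `f` (`p ∣ div f`) is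
fixed by every coefficientwise automorphism `σ` which keeps `f` in its class
(`σ f = c * f * w ^ p`). -/
theorem dinf48_rep_fixed {p : ℕ} (hp : 0 < p) (φ : k ≃+* k)
    {f : modularFunctionFieldFullC k N} (hf : cnr_Sp k p f)
    (hrel : cnr_Rel k p f (cfb_coeffAut k N φ • f)) :
    cfb_coeffAut k N φ • cnr_rep (dinf48_Pinf k N) p (dinf48_lc k N) f =
      cnr_rep (dinf48_Pinf k N) p (dinf48_lc k N) f :=
  cnr_rep_fixed (rmn_hyp_fb k N) (rmn_bound_fb k N) hp (dinf48_lead k N) _
    (dinf48_smul_Pinf k N φ) (dinf48_lc_smul k N φ) hf hrel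

/-- the representative is in the class of `f`, is again in `S_p`, and has leading coefficient `1` -/
theorem dinf48_rep_spec {p : ℕ} (hp : 0 < p)
    {f : modularFunctionFieldFullC k N} (hf : cnr_Sp k p f) :
    cnr_Rel k p f (cnr_rep (dinf48_Pinf k N) p (dinf48_lc k N) f) ∧
      cnr_Sp k p (cnr_rep (dinf48_Pinf k N) p (dinf48_lc k N) f) ∧
      dinf48_lc k N (cnr_rep (dinf48_Pinf k N) p (dinf48_lc k N) f) = 1 :=
  ⟨(cnr_rep_rel (rmn_hyp_fb k N) (rmn_bound_fb k N) _ hp (dinf48_lead k N) hf).1,
    (cnr_rep_rel (rmn_hyp_fb k N) (rmn_bound_fb k N) _ hp (dinf48_lead k N) hf).2,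
    (cnr_rep_spec (rmn_hyp_fb k N) (rmn_bound_fb k N) _ hp (dinf48_lead k N) hf).2.1⟩

omit [IsAlgClosed k] [NeZero N] in
/-- fixed by `σ` ⇒ every `q`-coefficient is fixed by `σ` -/
theorem dinf48_coeff_fixed (φ : k ≃+* k) {x : modularFunctionFieldFullC k N}
    (hx : cfb_coeffAut k N φ • x = x) (n : ℤ) :
    φ ((x : LaurentSeries k).coeff n) = (x : LaurentSeries k).coeff n := by
  have h := congrArg (fun y : modularFunctionFieldFullC k N => (y : LaurentSeries k).coeff n) hx
  simp only [cfb_coe_coeffAut_smul, coeffMap_coeff] at h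
  exact h

end Fixed

end Fermat.Agent.S42x

end
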