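/-
S42x/DescentCore (helper39; S42 block B7, prefix `dsc_`): ABSTRACT CORE of the descent `ℂ → Q̄`
(S42_LEAD_NOTES N5), for an abstract function field `F / K` satisfying the Riemann package
(`rmn_Hyp`, `rmn_Bound` of S18x) and a group `S` of semilinear automorphisms (Prelude
`SemilinearAut K F`) fixing a place `P∞` and compatible with a multiplicative "leading coefficient"
`lc : F → K`.

If `div f = p · D` and the class of `f` modulo `K^* · F^{*p}` is `S`-stable, then this class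
contains an element `f' = c · f · u ^ p`, normalised by `lc f' = 1`, which is FIXED by every
element of `S`.

Construction: `n₀ :=` the least `n` with `L(D + n P∞) ≠ 0`; then `dim L(D + n₀ P∞) = 1`, spanned by
`u`; `f' := f u^p / lc (f u^p)`.
-/
import Mathlib
import Fermat.Prelude.Def_AlgebraicCurve_BaseChangeGalois
import Fermat.Agent.S18x.RmnRiemann

set_option autoImplicit false

namespace Fermat.Agent.S42x

open AlgebraicCurve Fermat.Agent.S18x

variable {K F : Type*} [Field K] [Field F] [Algebra K F]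

/-- `L(D) = 0` in negative degree. -/
theorem dsc_eq_zero_of_degree_neg (H : rmn_Hyp K F) {D : Divisor K F}
    (hD : Divisor.degree D < 0) {x : F} (hx : x ∈ riemannRochSpace D) : x = 0 := by
  by_contra h0
  obtain ⟨Dx, hDx⟩ := H.hpd x h0
  have hnn : ∀ P, 0 ≤ (D + Dx) P := fun P => by
    have := (mem_riemannRochSpace_iff.mp hx P).resolve_left h0
    simp only [Finsupp.coe_add, Pi.add_apply, hDx P]
    omega
  have h1 := rmn_degree_nonneg H hnn
  rw [map_add, H.hprin0 x Dx h0 hDx] at h1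
  omega

/-- the divisors `D + n P∞`. -/
noncomputable def dsc_E (D : Divisor K F) (Pinf : Place K F) (n : ℤ) : Divisor K F :=
  D + Finsupp.single Pinf n

theorem dsc_E_apply_inf (D : Divisor K F) (Pinf : Place K F) (n : ℤ) :
    dsc_E D Pinf n Pinf = D Pinf + n := by
  classical
  rw [dsc_E, Finsupp.coe_add, Pi.add_apply, Finsupp.single_eq_same]

theorem dsc_E_apply_of_eq (D : Divisor K F) (Pinf : Place K F) (n : ℤ) {P : Place K F}
    (h : P = Pinf) : dsc_E D Pinf n P = D P + n := by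
  subst h
  exact dsc_E_apply_inf D P n

theorem dsc_E_apply_ne (D : Divisor K F) (Pinf : Place K F) (n : ℤ) {P : Place K F}
    (h : P ≠ Pinf) : dsc_E D Pinf n P = D P := by
  classical
  rw [dsc_E, Finsupp.coe_add, Pi.add_apply, Finsupp.single_eq_of_ne h, add_zero]

theorem dsc_degree_E (H : rmn_Hyp K F) (D : Divisor K F) (Pinf : Place K F) (n : ℤ) :
    Divisor.degree (dsc_E D Pinf n) = Divisor.degree D + n := by
  rw [dsc_E, map_add, rmn_degree_single H]

theorem dsc_E_succ (D : Divisor K F) (Pinf : Place K F) (n : ℤ) :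
    dsc_E D Pinf n = dsc_E D Pinf (n - 1) + Finsupp.single Pinf 1 := by
  rw [dsc_E, dsc_E, add_assoc, ← Finsupp.single_add]
  congr 2
  ring

/-- `deg D = 0` if `p D = div f`. -/
theorem dsc_degree_eq_zero (H : rmn_Hyp K F) {p : ℕ} (hp : 0 < p) {f : F} (hf : f ≠ 0)
    {D : Divisor K F} (hD : ∀ P, (p : ℤ) * D P = P.ord f) : Divisor.degree D = 0 := by
  obtain ⟨Df, hDf⟩ := H.hpd f hf
  have h0 := H.hprin0 f Df hf hDf
  have h1 : Df = (p : ℤ) • D := by
    ext P
    rw [hDf P, ← hD P]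
    simp
  rw [h1, map_zsmul, smul_eq_mul] at h0
  have hp' : (p : ℤ) ≠ 0 := by exact_mod_cast hp.ne'
  exact (mul_eq_zero.mp h0).resolve_left hp'

/-- existence of the least `n` with `L(D + n P∞) ≠ 0`, and the one-dimensionality there. -/
theorem dsc_exists_least (H : rmn_Hyp K F) (hB : rmn_Bound K F) (Pinf : Place K F)
    {D : Divisor K F} (hD0 : Divisor.degree D = 0) :
    ∃ (n₀ : ℤ) (u : F), u ≠ 0 ∧ u ∈ riemannRochSpace (dsc_E D Pinf n₀) ∧
      (∀ w ∈ riemannRochSpace (dsc_E D Pinf n₀), ∃ a : K, w = algebraMap K F a * u) ∧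
      ∀ (n : ℤ) (w : F), w ≠ 0 → w ∈ riemannRochSpace (dsc_E D Pinf n) → n₀ ≤ n := by
  classical
  -- the set of admissible `n`
  have hne : ∃ n : ℤ, ∃ x : F, x ≠ 0 ∧ x ∈ riemannRochSpace (dsc_E D Pinf n) := by
    refine ⟨rmn_genus K F, ?_⟩
    have hr := rmn_riemann H hB (dsc_E D Pinf (rmn_genus K F))
    rw [dsc_degree_E H, hD0] at hr
    have hpos : 0 < Module.finrank K (riemannRochSpace (dsc_E D Pinf (rmn_genus K F))) := by
      have : (0 : ℤ) < Module.finrank K (riemannRochSpace (dsc_E D Pinf (rmn_genus K F))) := by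
        omega
      exact_mod_cast this
    exact rmn_exists_ne_zero_of_finrank_pos hpos
  have hbdd : ∀ n : ℤ, (∃ x : F, x ≠ 0 ∧ x ∈ riemannRochSpace (dsc_E D Pinf n)) → 0 ≤ n := by
    rintro n ⟨x, hx0, hx⟩
    by_contra hn
    apply hx0
    refine dsc_eq_zero_of_degree_neg H ?_ hx
    rw [dsc_degree_E H, hD0]
    omega
  obtain ⟨n₀, ⟨u, hu0, hu⟩, hmin⟩ := Int.exists_least_of_bdd
    (P := fun n => ∃ x : F, x ≠ 0 ∧ x ∈ riemannRochSpace (dsc_E D Pinf n)) ⟨0, hbdd⟩ hne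
  refine ⟨n₀, u, hu0, hu, ?_, fun n w hw0 hw => hmin n ⟨w, hw0, hw⟩⟩
  -- `L(D + (n₀ - 1) P∞) = 0`
  have hzero : ∀ x ∈ riemannRochSpace (dsc_E D Pinf (n₀ - 1)), x = 0 := by
    intro x hx
    by_contra hx0
    have := hmin (n₀ - 1) ⟨x, hx0, hx⟩
    omega
  have hbot : riemannRochSpace (dsc_E D Pinf (n₀ - 1)) = ⊥ := by
    rw [Submodule.eq_bot_iff]
    exact hzero
  have hfin0 : Module.Finite K (riemannRochSpace (dsc_E D Pinf (n₀ - 1))) := by
    rw [hbot]; infer_instance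
  have hrank0 : Module.finrank K (riemannRochSpace (dsc_E D Pinf (n₀ - 1))) = 0 := by
    rw [hbot]; exact finrank_bot K F
  obtain ⟨hfin, hle⟩ := rmn_step H (dsc_E D Pinf (n₀ - 1)) Pinf hfin0
  rw [← dsc_E_succ, hrank0, zero_add] at hle
  rw [← dsc_E_succ] at hfin
  -- dimension exactly one
  have hu' : (⟨u, hu⟩ : riemannRochSpace (dsc_E D Pinf n₀)) ≠ 0 := fun h =>
    hu0 (congrArg Subtype.val h)
  have hpos : 0 < Module.finrank K (riemannRochSpace (dsc_E D Pinf n₀)) :=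
    Module.finrank_pos_iff_exists_ne_zero.mpr ⟨_, hu'⟩
  have hone : Module.finrank K (riemannRochSpace (dsc_E D Pinf n₀)) = 1 := by omega
  intro w hw
  obtain ⟨a, ha⟩ := (finrank_eq_one_iff_of_nonzero' _ hu').mp hone ⟨w, hw⟩
  refine ⟨a, ?_⟩
  have h1 : ((a • (⟨u, hu⟩ : riemannRochSpace (dsc_E D Pinf n₀)) :
    riemannRochSpace (dsc_E D Pinf n₀)) : F) = w := congrArg Subtype.val ha
  rw [← h1, Submodule.coe_smul, Algebra.smul_def]

/-- **ABSTRACT DESCENT (S42_LEAD_NOTES N5).** -/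
theorem dsc_exists_fixed (H : rmn_Hyp K F) (hB : rmn_Bound K F) (p : ℕ) (hp : 0 < p)
    (Pinf : Place K F) (lc : F → K)
    (hlc_mul : ∀ x y, lc (x * y) = lc x * lc y) (hlc_ne : ∀ x, x ≠ 0 → lc x ≠ 0)
    (hlc_alg : ∀ c, lc (algebraMap K F c) = c)
    (S : Subgroup (SemilinearAut K F))
    (hSinf : ∀ g ∈ S, g • Pinf = Pinf)
    (hSlc : ∀ g ∈ S, ∀ x, lc (g • x) = SemilinearAut.baseAut g (lc x))
    (f : F) (hf : f ≠ 0) (D : Divisor K F) (hD : ∀ P, (p : ℤ) * D P = P.ord f)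
    (hclass : ∀ g ∈ S, ∃ (c : K) (u : F), c ≠ 0 ∧ u ≠ 0 ∧
      g • f = algebraMap K F c * f * u ^ p) :
    ∃ (c : K) (u : F), c ≠ 0 ∧ u ≠ 0 ∧ lc (algebraMap K F c * f * u ^ p) = 1 ∧
      ∀ g ∈ S, g • (algebraMap K F c * f * u ^ p) = algebraMap K F c * f * u ^ p := by
  classical
  have hD0 := dsc_degree_eq_zero H hp hf hD
  obtain ⟨n₀, u, hu0, hu, hspan, -⟩ := dsc_exists_least H hB Pinf hD0
  have hp' : (p : ℤ) ≠ 0 := by exact_mod_cast hp.ne'
  have hw0 : f * u ^ p ≠ 0 := mul_ne_zero hf (pow_ne_zero p hu0)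
  have hlcw : lc (f * u ^ p) ≠ 0 := hlc_ne _ hw0
  -- the key step
  have key : ∀ g ∈ S, ∃ b : K, b ≠ 0 ∧ g • (f * u ^ p) = algebraMap K F b * (f * u ^ p) := by
    intro g hg
    obtain ⟨c, ug, hc0, hug0, hgf⟩ := hclass g hg
    have hgu0 : g • u ≠ 0 := by
      rw [SemilinearAut.smul_def]
      exact (map_ne_zero_iff _ (SemilinearAut.toRingAut g).injective).mpr hu0
    -- membership of `(g • u) * ug`
    have hmem : (g • u) * ug ∈ riemannRochSpace (dsc_E D Pinf n₀) := by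
      rw [mem_riemannRochSpace_iff]
      intro P
      right
      set Q : Place K F := g⁻¹ • P with hQ
      have hPQ : g • Q = P := by rw [hQ, smul_inv_smul]
      have h1 : P.ord (g • u) = Q.ord u := by
        rw [← hPQ]; exact SemilinearAut.ord_smul g Q u
      have h2 : -(dsc_E D Pinf n₀ Q) ≤ Q.ord u :=
        (mem_riemannRochSpace_iff.mp hu Q).resolve_left hu0
      have hinf : (Q = Pinf) ↔ (P = Pinf) := by
        constructor
        · intro h
          rw [← hPQ, h]; exact hSinf g hg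
        · intro h
          rw [hQ, h]
          have := hSinf g hg
          rw [← this, inv_smul_smul, this]
      -- `D Q = D P + ord_P ug`
      have h3 : D Q = D P + P.ord ug := by
        have e1 : (p : ℤ) * D Q = P.ord (g • f) := by
          rw [hD Q, ← hPQ]; exact (SemilinearAut.ord_smul g Q f).symm
        have hcf : algebraMap K F c * f ≠ 0 :=
          mul_ne_zero ((map_ne_zero_iff _ (algebraMap K F).injective).mpr hc0) hf
        have e2 : P.ord (g • f) = P.ord f + (p : ℤ) * P.ord ug := by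
          rw [hgf, P.ord_mul hcf (pow_ne_zero p hug0),
            P.ord_mul ((map_ne_zero_iff _ (algebraMap K F).injective).mpr hc0) hf,
            rmn_ord_algebraMap, zero_add, ← zpow_natCast, P.ord_zpow]
        have e3 : (p : ℤ) * D Q = (p : ℤ) * (D P + P.ord ug) := by
          rw [e1, e2, ← hD P]; ring
        exact mul_left_cancel₀ hp' e3
      rw [P.ord_mul hgu0 hug0, h1]
      by_cases h : P = Pinf
      · have hQi : Q = Pinf := hinf.mpr h
        rw [dsc_E_apply_of_eq D Pinf n₀ hQi] at h2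
        rw [dsc_E_apply_of_eq D Pinf n₀ h]
        omega
      · have hQi : Q ≠ Pinf := fun h' => h (hinf.mp h')
        rw [dsc_E_apply_ne D Pinf n₀ hQi] at h2
        rw [dsc_E_apply_ne D Pinf n₀ h]
        omega
    obtain ⟨a, ha⟩ := hspan _ hmem
    have ha0 : a ≠ 0 := by
      rintro rfl
      rw [map_zero, zero_mul] at ha
      exact mul_ne_zero hgu0 hug0 ha
    refine ⟨c * a ^ p, mul_ne_zero hc0 (pow_ne_zero p ha0), ?_⟩
    have hpow : (g • u) ^ p * ug ^ p = (algebraMap K F a) ^ p * u ^ p := by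
      rw [← mul_pow, ha, mul_pow]
    calc g • (f * u ^ p) = (g • f) * (g • u) ^ p := by rw [smul_mul', smul_pow']
      _ = algebraMap K F c * f * ((g • u) ^ p * ug ^ p) := by rw [hgf]; ring
      _ = algebraMap K F (c * a ^ p) * (f * u ^ p) := by
          rw [hpow, map_mul, map_pow]; ring
  -- normalisation
  refine ⟨(lc (f * u ^ p))⁻¹, u, inv_ne_zero hlcw, hu0, ?_, ?_⟩
  · rw [mul_assoc, hlc_mul, hlc_alg, inv_mul_cancel₀ hlcw]
  · intro g hg
    obtain ⟨b, hb0, hb⟩ := key g hg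
    have hlcb : SemilinearAut.baseAut g (lc (f * u ^ p)) = b * lc (f * u ^ p) := by
      rw [← hSlc g hg, hb, hlc_mul, hlc_alg]
    rw [mul_assoc, smul_mul', SemilinearAut.smul_algebraMap, hb, map_inv₀, hlcb, ← mul_assoc,
      ← map_mul]
    congr 2
    field_simp

/-! ### canonical representatives and the leaf `dsc_core` of the B7 spec -/

/-- the class relation `y = c · x · u ^ p`. -/
def dsc_Rel (K : Type*) {F : Type*} [Field K] [Field F] [Algebra K F] (p : ℕ) (x y : F) : Prop :=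
  ∃ (c : K) (u : F), c ≠ 0 ∧ u ≠ 0 ∧ y = algebraMap K F c * x * u ^ p

/-- `p` divides all orders of `x ≠ 0`. -/
def dsc_PDiv (K : Type*) {F : Type*} [Field K] [Field F] [Algebra K F] (p : ℕ) (x : F) : Prop :=
  x ≠ 0 ∧ ∀ P : Place K F, (p : ℤ) ∣ P.ord x

/-- `x` has no pole outside `P∞` and a pole of order at most `p n` at `P∞`. -/
def dsc_Good (Pinf : Place K F) (p : ℕ) (x : F) (n : ℤ) : Prop :=
  (∀ P : Place K F, P ≠ Pinf → 0 ≤ P.ord x) ∧ -((p : ℤ) * n) ≤ Pinf.ord x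

/-- canonical elements: normalised, and of minimal pole order at `P∞` within the class. -/
def dsc_IsCan (Pinf : Place K F) (p : ℕ) (lc : F → K) (x : F) : Prop :=
  x ≠ 0 ∧ lc x = 1 ∧ ∃ n : ℤ, dsc_Good Pinf p x n ∧
    ∀ (y : F) (n' : ℤ), dsc_Rel K p x y → dsc_Good Pinf p y n' → n ≤ n'

theorem dsc_rel_ne_zero {p : ℕ} {x y : F} (hx : x ≠ 0) (h : dsc_Rel K p x y) : y ≠ 0 := by
  obtain ⟨c, u, hc, hu, rfl⟩ := h
  exact mul_ne_zero (mul_ne_zero ((map_ne_zero_iff _ (algebraMap K F).injective).mpr hc) hx)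
    (pow_ne_zero p hu)

theorem dsc_rel_symm {p : ℕ} {x y : F} (h : dsc_Rel K p x y) : dsc_Rel K p y x := by
  obtain ⟨c, u, hc, hu, rfl⟩ := h
  refine ⟨c⁻¹, u⁻¹, inv_ne_zero hc, inv_ne_zero hu, ?_⟩
  have hc' : algebraMap K F c ≠ 0 := (map_ne_zero_iff _ (algebraMap K F).injective).mpr hc
  have hup : u ^ p ≠ 0 := pow_ne_zero p hu
  rw [map_inv₀, inv_pow]
  field_simp

theorem dsc_rel_trans {p : ℕ} {x y z : F} (h1 : dsc_Rel K p x y) (h2 : dsc_Rel K p y z) :
    dsc_Rel K p x z := by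
  obtain ⟨c, u, hc, hu, rfl⟩ := h1
  obtain ⟨d, v, hd, hv, rfl⟩ := h2
  refine ⟨d * c, u * v, mul_ne_zero hd hc, mul_ne_zero hu hv, ?_⟩
  rw [map_mul, mul_pow]
  ring

theorem dsc_ord_rel {p : ℕ} {x : F} (hx : x ≠ 0) {c : K} (hc : c ≠ 0) {u : F} (hu : u ≠ 0)
    (P : Place K F) :
    P.ord (algebraMap K F c * x * u ^ p) = P.ord x + (p : ℤ) * P.ord u := by
  have hc' : algebraMap K F c ≠ 0 := (map_ne_zero_iff _ (algebraMap K F).injective).mpr hc
  rw [P.ord_mul (mul_ne_zero hc' hx) (pow_ne_zero p hu), P.ord_mul hc' hx, rmn_ord_algebraMap,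
    zero_add, ← zpow_natCast, P.ord_zpow]

theorem dsc_pdiv_of_rel {p : ℕ} {x y : F} (hx : dsc_PDiv K p x) (h : dsc_Rel K p x y) :
    dsc_PDiv K p y := by
  refine ⟨dsc_rel_ne_zero hx.1 h, fun P => ?_⟩
  obtain ⟨c, u, hc, hu, rfl⟩ := h
  rw [dsc_ord_rel hx.1 hc hu]
  exact dvd_add (hx.2 P) (dvd_mul_right _ _)

/-- a divisor `D` with `p D = div x`. -/
theorem dsc_exists_div (H : rmn_Hyp K F) {p : ℕ} {x : F} (hx : dsc_PDiv K p x) :
    ∃ D : Divisor K F, ∀ P, (p : ℤ) * D P = P.ord x := by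
  obtain ⟨Dx, hDx⟩ := H.hpd x hx.1
  refine ⟨Dx.mapRange (fun n => n / (p : ℤ)) (by simp), fun P => ?_⟩
  rw [Finsupp.mapRange_apply, hDx P]
  exact Int.mul_ediv_cancel' (hx.2 P)

/-- `Good (c x w^p) n ↔ w ∈ L(D + n P∞)`, where `p D = div x`. -/
theorem dsc_good_iff {p : ℕ} (hp : 0 < p) (Pinf : Place K F) {x : F} (hx : x ≠ 0)
    {D : Divisor K F} (hD : ∀ P, (p : ℤ) * D P = P.ord x) {c : K} (hc : c ≠ 0) {w : F}
    (hw : w ≠ 0) (n : ℤ) :
    dsc_Good Pinf p (algebraMap K F c * x * w ^ p) n ↔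
      w ∈ riemannRochSpace (dsc_E D Pinf n) := by
  have hp' : (0 : ℤ) < p := by exact_mod_cast hp
  have hord : ∀ P : Place K F,
      P.ord (algebraMap K F c * x * w ^ p) = (p : ℤ) * (D P + P.ord w) := fun P => by
    rw [dsc_ord_rel hx hc hw, ← hD P]; ring
  constructor
  · rintro ⟨h1, h2⟩
    rw [mem_riemannRochSpace_iff]
    intro P
    right
    by_cases h : P = Pinf
    · rw [dsc_E_apply_of_eq D Pinf n h]
      subst h
      rw [hord] at h2
      have : (p : ℤ) * (-n) ≤ (p : ℤ) * (D P + P.ord w) := by linarith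
      have := le_of_mul_le_mul_left this hp'
      omega
    · rw [dsc_E_apply_ne D Pinf n h]
      have h3 := h1 P h
      rw [hord] at h3
      have := nonneg_of_mul_nonneg_right h3 hp'
      omega
  · intro hmem
    have hm := fun P => (mem_riemannRochSpace_iff.mp hmem P).resolve_left hw
    refine ⟨fun P h => ?_, ?_⟩
    · have := hm P
      rw [dsc_E_apply_ne D Pinf n h] at this
      rw [hord]
      exact mul_nonneg hp'.le (by omega)
    · have := hm Pinf
      rw [dsc_E_apply_inf] at this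
      rw [hord]
      have h4 : (p : ℤ) * (-n) ≤ (p : ℤ) * (D Pinf + Pinf.ord w) :=
        mul_le_mul_of_nonneg_left (by omega) hp'.le
      linarith

/-- rewriting `x` as `1 · x · 1 ^ p`. -/
theorem dsc_self_eq (p : ℕ) (x : F) : x = algebraMap K F 1 * x * 1 ^ p := by
  rw [map_one, one_mul, one_pow, mul_one]

/-- **existence** of a canonical element in every class of `S_p(F)`. -/
theorem dsc_exists_can (H : rmn_Hyp K F) (hB : rmn_Bound K F) {p : ℕ} (hp : 0 < p)
    (Pinf : Place K F) (lc : F → K)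
    (hlc_mul : ∀ x y, lc (x * y) = lc x * lc y) (hlc_ne : ∀ x, x ≠ 0 → lc x ≠ 0)
    (hlc_alg : ∀ c, lc (algebraMap K F c) = c) {x : F} (hx : dsc_PDiv K p x) :
    ∃ y : F, dsc_Rel K p x y ∧ dsc_IsCan Pinf p lc y := by
  classical
  obtain ⟨D, hD⟩ := dsc_exists_div H hx
  have hD0 := dsc_degree_eq_zero H hp hx.1 hD
  obtain ⟨n₀, u, hu0, hu, -, hmin⟩ := dsc_exists_least H hB Pinf hD0
  have hw0 : x * u ^ p ≠ 0 := mul_ne_zero hx.1 (pow_ne_zero p hu0)
  have hlcw : lc (x * u ^ p) ≠ 0 := hlc_ne _ hw0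
  have hc0 : (lc (x * u ^ p))⁻¹ ≠ 0 := inv_ne_zero hlcw
  have hrel : dsc_Rel K p x (algebraMap K F (lc (x * u ^ p))⁻¹ * x * u ^ p) :=
    ⟨_, u, hc0, hu0, rfl⟩
  refine ⟨_, hrel, dsc_rel_ne_zero hx.1 hrel, ?_, n₀, ?_, ?_⟩
  · rw [mul_assoc, hlc_mul, hlc_alg, inv_mul_cancel₀ hlcw]
  · exact (dsc_good_iff hp Pinf hx.1 hD hc0 hu0 n₀).mpr hu
  · rintro z n' ⟨d, v, hd, hv, rfl⟩ hgood
    have hz : algebraMap K F d * (algebraMap K F (lc (x * u ^ p))⁻¹ * x * u ^ p) * v ^ p =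
        algebraMap K F (d * (lc (x * u ^ p))⁻¹) * x * (u * v) ^ p := by
      rw [map_mul, mul_pow]; ring
    rw [hz] at hgood
    have hmem := (dsc_good_iff hp Pinf hx.1 hD (mul_ne_zero hd hc0) (mul_ne_zero hu0 hv) n').mp
      hgood
    exact hmin n' _ (mul_ne_zero hu0 hv) hmem

/-- **uniqueness** of the canonical element of a class. -/
theorem dsc_can_unique (H : rmn_Hyp K F) (hB : rmn_Bound K F) {p : ℕ} (hp : 0 < p)
    (Pinf : Place K F) (lc : F → K)
    (hlc_mul : ∀ x y, lc (x * y) = lc x * lc y)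
    (hlc_alg : ∀ c, lc (algebraMap K F c) = c) {x y : F} (hx : dsc_PDiv K p x)
    (hcx : dsc_IsCan Pinf p lc x) (hcy : dsc_IsCan Pinf p lc y) (hrel : dsc_Rel K p x y) :
    x = y := by
  classical
  obtain ⟨D, hD⟩ := dsc_exists_div H hx
  have hD0 := dsc_degree_eq_zero H hp hx.1 hD
  obtain ⟨n₀, u₀, hu0, hu₀, hspan, hmin⟩ := dsc_exists_least H hB Pinf hD0
  obtain ⟨-, hlcx, n, hgx, hminx⟩ := hcx
  obtain ⟨-, hlcy, m, hgy, hminy⟩ := hcy
  have hnm : n ≤ m := hminx y m hrel hgy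
  have hmn : m ≤ n := hminy x n (dsc_rel_symm hrel) hgx
  have hm : m = n := le_antisymm hmn hnm
  subst hm
  -- `1 ∈ L(D + m P∞)`
  have h1mem : (1 : F) ∈ riemannRochSpace (dsc_E D Pinf m) := by
    have := hgx
    rw [dsc_self_eq (K := K) p x] at this
    exact (dsc_good_iff hp Pinf hx.1 hD one_ne_zero one_ne_zero m).mp this
  have hn₀m : n₀ ≤ m := hmin m 1 one_ne_zero h1mem
  have hmn₀ : m ≤ n₀ := by
    refine hminx (algebraMap K F 1 * x * u₀ ^ p) n₀ ⟨1, u₀, one_ne_zero, hu0, rfl⟩ ?_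
    exact (dsc_good_iff hp Pinf hx.1 hD one_ne_zero hu0 n₀).mpr hu₀
  have hm : m = n₀ := le_antisymm hmn₀ hn₀m
  subst hm
  obtain ⟨c, u, hc, hu, rfl⟩ := hrel
  have humem : u ∈ riemannRochSpace (dsc_E D Pinf m) :=
    (dsc_good_iff hp Pinf hx.1 hD hc hu m).mp hgy
  obtain ⟨a₁, ha₁⟩ := hspan 1 h1mem
  obtain ⟨a, ha⟩ := hspan u humem
  have ha₁0 : a₁ ≠ 0 := by
    rintro rfl
    rw [map_zero, zero_mul] at ha₁
    exact one_ne_zero ha₁
  -- `u` is the constant `a / a₁`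
  have hu_const : u = algebraMap K F (a / a₁) := by
    have hu₀' : u₀ = algebraMap K F a₁⁻¹ := by
      have h2 : algebraMap K F a₁ ≠ 0 := (map_ne_zero_iff _ (algebraMap K F).injective).mpr ha₁0
      rw [map_inv₀]
      field_simp
      rw [mul_comm]
      exact ha₁.symm
    rw [ha, hu₀', ← map_mul, div_eq_mul_inv]
  have hy : algebraMap K F c * x * u ^ p = algebraMap K F (c * (a / a₁) ^ p) * x := by
    rw [hu_const, map_mul, map_pow]; ring
  rw [hy] at hlcy ⊢
  rw [hlc_mul, hlc_alg, hlcx, mul_one] at hlcy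
  rw [hlcy, map_one, one_mul]

/-- `Good` is preserved by semilinear automorphisms fixing `P∞`. -/
theorem dsc_good_smul (Pinf : Place K F) (p : ℕ) (g : SemilinearAut K F)
    (hg : g • Pinf = Pinf) {x : F} {n : ℤ} (h : dsc_Good Pinf p x n) :
    dsc_Good Pinf p (g • x) n := by
  refine ⟨fun P hP => ?_, ?_⟩
  · have hPQ : g • (g⁻¹ • P) = P := smul_inv_smul g P
    have hQ : g⁻¹ • P ≠ Pinf := by
      intro hQ
      apply hP
      rw [← hPQ, hQ, hg]
    have := SemilinearAut.ord_smul g (g⁻¹ • P) x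
    rw [hPQ] at this
    rw [this]
    exact h.1 _ hQ
  · have := SemilinearAut.ord_smul g Pinf x
    rw [hg] at this
    rw [this]
    exact h.2

theorem dsc_inv_smul_fix {Pinf : Place K F} {g : SemilinearAut K F} (hg : g • Pinf = Pinf) :
    g⁻¹ • Pinf = Pinf := by
  conv_lhs => rw [← hg]
  exact inv_smul_smul g Pinf

theorem dsc_rel_smul {p : ℕ} (g : SemilinearAut K F) {x y : F} (h : dsc_Rel K p x y) :
    dsc_Rel K p (g • x) (g • y) := by
  obtain ⟨c, u, hc, hu, rfl⟩ := h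
  refine ⟨SemilinearAut.baseAut g c, g • u, ?_, ?_, ?_⟩
  · exact (map_ne_zero_iff _ (SemilinearAut.baseAut g).injective).mpr hc
  · rw [SemilinearAut.smul_def]
    exact (map_ne_zero_iff _ (SemilinearAut.toRingAut g).injective).mpr hu
  · rw [smul_mul', smul_mul', smul_pow', SemilinearAut.smul_algebraMap]

theorem dsc_pdiv_smul {p : ℕ} (g : SemilinearAut K F) {x : F} (h : dsc_PDiv K p x) :
    dsc_PDiv K p (g • x) := by
  refine ⟨?_, fun P => ?_⟩
  · rw [SemilinearAut.smul_def]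
    exact (map_ne_zero_iff _ (SemilinearAut.toRingAut g).injective).mpr h.1
  · have hPQ : g • (g⁻¹ • P) = P := smul_inv_smul g P
    have := SemilinearAut.ord_smul g (g⁻¹ • P) x
    rw [hPQ] at this
    rw [this]
    exact h.2 _

/-- canonical elements are permuted by semilinear automorphisms fixing `P∞` and compatible
with `lc`. -/
theorem dsc_can_smul (Pinf : Place K F) (p : ℕ) (lc : F → K) (g : SemilinearAut K F)
    (hg : g • Pinf = Pinf) (hglc : ∀ x, lc (g • x) = SemilinearAut.baseAut g (lc x)) {x : F}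
    (h : dsc_IsCan Pinf p lc x) : dsc_IsCan Pinf p lc (g • x) := by
  obtain ⟨hx0, hlc, n, hgood, hmin⟩ := h
  refine ⟨?_, ?_, n, dsc_good_smul Pinf p g hg hgood, ?_⟩
  · rw [SemilinearAut.smul_def]
    exact (map_ne_zero_iff _ (SemilinearAut.toRingAut g).injective).mpr hx0
  · rw [hglc, hlc, map_one]
  · intro y n' hrel hgy
    have h1 : dsc_Rel K p x (g⁻¹ • y) := by
      have := dsc_rel_smul g⁻¹ hrel
      rwa [inv_smul_smul] at this
    exact hmin _ n' h1 (dsc_good_smul Pinf p g⁻¹ (dsc_inv_smul_fix hg) hgy)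

/-- **LEAF A of the B7 spec** (`S42_B7_SPEC_helper74`): a finite set of functions meeting every
class of `S_p(F)` can be replaced by a finite set `T` of (canonical) representatives which is stable
under every semilinear automorphism in `S`. -/
theorem dsc_core (H : rmn_Hyp K F) (hB : rmn_Bound K F) (p : ℕ) (hp : 0 < p)
    (Pinf : Place K F) (lc : F → K)
    (hlc_mul : ∀ x y, lc (x * y) = lc x * lc y) (hlc_ne : ∀ x, x ≠ 0 → lc x ≠ 0)
    (hlc_alg : ∀ c, lc (algebraMap K F c) = c)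
    (S : Set (SemilinearAut K F))
    (hSinv : ∀ g ∈ S, g⁻¹ ∈ S)
    (hSinf : ∀ g ∈ S, g • Pinf = Pinf)
    (hSlc : ∀ g ∈ S, ∀ x, lc (g • x) = SemilinearAut.baseAut g (lc x))
    (T0 : Set F) (hT0 : T0.Finite)
    (hcls : ∀ f : F, f ≠ 0 → (∀ P : Place K F, (p : ℤ) ∣ P.ord f) →
      ∃ t ∈ T0, ∃ (c : K) (u : F), c ≠ 0 ∧ u ≠ 0 ∧ f = algebraMap K F c * t * u ^ p) :
    ∃ T : Set F, T.Finite ∧ (∀ g ∈ S, ∀ t ∈ T, g • t ∈ T) ∧
      ∀ f : F, f ≠ 0 → (∀ P : Place K F, (p : ℤ) ∣ P.ord f) →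
        ∃ t ∈ T, ∃ (c : K) (u : F), c ≠ 0 ∧ u ≠ 0 ∧ t = algebraMap K F c * f * u ^ p := by
  classical
  have _ := hSinv
  -- a choice of canonical element of the class of `t`
  let can : F → F := fun t =>
    if h : dsc_PDiv K p t then
      Classical.choose (dsc_exists_can H hB hp Pinf lc hlc_mul hlc_ne hlc_alg h) else 0
  have hcan : ∀ t, dsc_PDiv K p t → dsc_Rel K p t (can t) ∧ dsc_IsCan Pinf p lc (can t) := by
    intro t ht
    have := Classical.choose_spec (dsc_exists_can H hB hp Pinf lc hlc_mul hlc_ne hlc_alg ht)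
    simpa only [can, dif_pos ht] using this
  refine ⟨{x | dsc_PDiv K p x ∧ dsc_IsCan Pinf p lc x}, ?_, ?_, ?_⟩
  · -- finiteness
    refine (hT0.image can).subset ?_
    rintro x ⟨hxp, hxc⟩
    obtain ⟨t, htT0, c, u, hc, hu, hxt⟩ := hcls x hxp.1 hxp.2
    have hrel_tx : dsc_Rel K p t x := ⟨c, u, hc, hu, hxt⟩
    have htp : dsc_PDiv K p t := dsc_pdiv_of_rel hxp (dsc_rel_symm hrel_tx)
    obtain ⟨hr, hc'⟩ := hcan t htp
    refine ⟨t, htT0, ?_⟩
    exact (dsc_can_unique H hB hp Pinf lc hlc_mul hlc_alg hxp hxc hc'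
      (dsc_rel_trans (dsc_rel_symm hrel_tx) hr)).symm
  · -- stability
    rintro g hg x ⟨hxp, hxc⟩
    exact ⟨dsc_pdiv_smul g hxp, dsc_can_smul Pinf p lc g (hSinf g hg) (hSlc g hg) hxc⟩
  · -- covering
    intro f hf hdiv
    have hfp : dsc_PDiv K p f := ⟨hf, hdiv⟩
    obtain ⟨y, hrel, hyc⟩ := dsc_exists_can H hB hp Pinf lc hlc_mul hlc_ne hlc_alg hfp
    refine ⟨y, ⟨dsc_pdiv_of_rel hfp hrel, hyc⟩, ?_⟩
    obtain ⟨c, u, hc, hu, hy⟩ := hrel
    exact ⟨c, u, hc, hu, hy⟩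

end Fermat.Agent.S42x
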