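/-
S42x/ESlPow (helper37, B8 captain): the glue between B8 (quadratic relation for Frobenius lifts),
B9 (every element of a finite Galois group generates the same cyclic group as a Frobenius) and
B10 (`alm_exists_two_dim`, which wants the quadratic relation for EVERY group element).

* `eslp_pow_quadratic`  : `T² - a T + e = 0`, `K` algebraically closed ⟹ for every `k` there is `a'`
                          with `(T^k)² - a' T^k + e^k = 0`   (`a' = α^k + β^k`; no case split).
* `eslp_unique`         : the middle coefficient is unique when `T` is invertible and `V ≠ 0`.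
* `eslp_rel_of_dense`   : group version = the exact hypothesis `h` of `alm_exists_two_dim`.
* `eslp_rel_frob`       : the coefficient function can be chosen to take PRESCRIBED values on the
                          "Frobenius" elements.
Mathlib only.
-/
import Mathlib

set_option autoImplicit false

namespace Fermat.Agent.S42x

open Polynomial

section

variable {K : Type*} [Field K] {V : Type*} [AddCommGroup V] [Module K V]

/-- polynomial identity: `X^k - C c ^ k` is divisible by `X - C c`. -/
theorem eslp_sub_dvd (c : K) (k : ℕ) : (X - C c : K[X]) ∣ X ^ k - C c ^ k :=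
  sub_dvd_pow_sub_pow X (C c) k

/-- If `T² - a T + e = 0` and `K` is algebraically closed, every power `T^k` satisfies a monic
quadratic relation with constant term `e^k`. -/
theorem eslp_pow_quadratic [IsAlgClosed K] (T : Module.End K V) (a e : K)
    (h : T * T - a • T + e • (1 : Module.End K V) = 0) (k : ℕ) :
    ∃ a' : K, T ^ k * T ^ k - a' • T ^ k + e ^ k • (1 : Module.End K V) = 0 := by
  -- factor `X² - aX + e = (X - α)(X - β)`
  obtain ⟨α, hα⟩ := IsAlgClosed.exists_root (X ^ 2 - C a * X + C e : K[X]) (by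
    have hd : (X ^ 2 - C a * X + C e : K[X]).degree = 2 := by
      compute_degree!
    rw [hd]; norm_num)
  set β : K := a - α with hβ
  have hαroot : α ^ 2 - a * α + e = 0 := by
    have := hα
    simp only [IsRoot.def, eval_add, eval_sub, eval_pow, eval_X, eval_mul, eval_C] at this
    exact this
  have hsum : α + β = a := by rw [hβ]; ring
  have hprod : α * β = e := by rw [hβ]; linear_combination -hαroot
  have hfac : (X ^ 2 - C a * X + C e : K[X]) = (X - C α) * (X - C β) := by
    rw [← hsum, ← hprod]; simp only [map_add, map_mul]; ring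
  -- `aeval T` of the quadratic vanishes
  have hT : aeval T (X ^ 2 - C a * X + C e : K[X]) = 0 := by
    have hev : aeval T (X ^ 2 - C a * X + C e : K[X]) =
        T * T - a • T + e • (1 : Module.End K V) := by
      simp only [map_add, map_sub, map_mul, aeval_X, aeval_C,
        Algebra.algebraMap_eq_smul_one, smul_mul_assoc, one_mul, pow_two]
    rw [hev, h]
  obtain ⟨qα, hqα⟩ := eslp_sub_dvd α k
  obtain ⟨qβ, hqβ⟩ := eslp_sub_dvd β k
  refine ⟨α ^ k + β ^ k, ?_⟩
  have hpoly : (X ^ k * X ^ k - C (α ^ k + β ^ k) * X ^ k + C (e ^ k) : K[X]) =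
      (X ^ 2 - C a * X + C e) * (qα * qβ) := by
    have h1 : (X ^ k * X ^ k - C (α ^ k + β ^ k) * X ^ k + C (e ^ k) : K[X]) =
        (X ^ k - C α ^ k) * (X ^ k - C β ^ k) := by
      rw [← hprod]; simp only [map_add, map_mul, map_pow, mul_pow]; ring
    rw [h1, hqα, hqβ, hfac]; ring
  have hev : aeval T (X ^ k * X ^ k - C (α ^ k + β ^ k) * X ^ k + C (e ^ k) : K[X]) =
      T ^ k * T ^ k - (α ^ k + β ^ k) • T ^ k + e ^ k • (1 : Module.End K V) := by
    simp only [map_add, map_sub, map_pow, map_mul, aeval_X, aeval_C,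
      Algebra.algebraMap_eq_smul_one, _root_.smul_pow, one_pow, ← add_smul, smul_mul_assoc, one_mul]
  rw [← hev, hpoly, map_mul, hT, zero_mul]

/-- uniqueness of the middle coefficient for an invertible operator on a nonzero space. -/
theorem eslp_unique [Nontrivial V] (T : Module.End K V) (hT : IsUnit T) (a a' e : K)
    (h : T * T - a • T + e • (1 : Module.End K V) = 0)
    (h' : T * T - a' • T + e • (1 : Module.End K V) = 0) : a = a' := by
  have hsub : (a' - a) • T = 0 := by
    have h1 : T * T - a • T + e • (1 : Module.End K V) =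
        T * T - a' • T + e • (1 : Module.End K V) := h.trans h'.symm
    have h2 : a • T = a' • T := sub_right_injective (add_right_cancel h1)
    rw [sub_smul, h2, sub_self]
  by_contra hne
  have hne' : a' - a ≠ 0 := sub_ne_zero.mpr (Ne.symm hne)
  have hT0 : T = 0 := by
    have := congrArg (fun S => (a' - a)⁻¹ • S) hsub
    simpa [smul_smul, inv_mul_cancel₀ hne'] using this
  obtain ⟨u, rfl⟩ := hT
  have h1 : (1 : Module.End K V) = 0 := by
    have := congrArg (fun S => (↑u⁻¹ : Module.End K V) * S) hT0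
    simpa using this
  exact one_ne_zero h1

end

section Group

variable {K : Type*} [Field K] [IsAlgClosed K] {V : Type*} [AddCommGroup V] [Module K V]
variable {G : Type*} [Group G]

/-- **Group version** (= hypothesis `h` of `alm_exists_two_dim`): if the quadratic relation holds
on a set `Φ` of "Frobenius elements" and every `g` acts as a power of some `φ ∈ Φ` (with the same
power for the character `ε`), then it holds for every `g`. -/
theorem eslp_rel_of_dense (ρ : G →* Module.End K V) (ε : G →* K) (Φ : Set G)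
    (hΦ : ∀ φ ∈ Φ, ∃ a : K, ρ φ * ρ φ - a • ρ φ + ε φ • (1 : Module.End K V) = 0)
    (hdense : ∀ g : G, ∃ φ ∈ Φ, ∃ k : ℕ, ρ g = ρ φ ^ k ∧ ε g = ε φ ^ k) :
    ∃ a : G → K, ∀ g : G, ρ g * ρ g - a g • ρ g + ε g • (1 : Module.End K V) = 0 := by
  have key : ∀ g : G, ∃ a : K, ρ g * ρ g - a • ρ g + ε g • (1 : Module.End K V) = 0 := by
    intro g
    obtain ⟨φ, hφ, k, hρ, hε⟩ := hdense g
    obtain ⟨a, ha⟩ := hΦ φ hφ
    obtain ⟨a', ha'⟩ := eslp_pow_quadratic (ρ φ) a (ε φ) ha k
    exact ⟨a', by rw [hρ, hε]; exact ha'⟩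
  exact ⟨fun g => (key g).choose, fun g => (key g).choose_spec⟩

/-- the same, with the coefficient function taking the prescribed value `aΦ φ` on every `φ ∈ Φ`
(`V ≠ 0`; `ρ φ` is automatically invertible). -/
theorem eslp_rel_frob [Nontrivial V] (ρ : G →* Module.End K V) (ε : G →* K) (Φ : Set G)
    (aΦ : G → K)
    (hΦ : ∀ φ ∈ Φ, ρ φ * ρ φ - aΦ φ • ρ φ + ε φ • (1 : Module.End K V) = 0)
    (hdense : ∀ g : G, ∃ φ ∈ Φ, ∃ k : ℕ, ρ g = ρ φ ^ k ∧ ε g = ε φ ^ k) :
    ∃ a : G → K, (∀ g : G, ρ g * ρ g - a g • ρ g + ε g • (1 : Module.End K V) = 0) ∧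
      ∀ φ ∈ Φ, a φ = aΦ φ := by
  obtain ⟨a, ha⟩ := eslp_rel_of_dense ρ ε Φ (fun φ hφ => ⟨aΦ φ, hΦ φ hφ⟩) hdense
  refine ⟨a, ha, fun φ hφ => ?_⟩
  have hunit : IsUnit (ρ φ) := ⟨⟨ρ φ, ρ φ⁻¹, by rw [← map_mul, mul_inv_cancel, map_one],
    by rw [← map_mul, inv_mul_cancel, map_one]⟩, rfl⟩
  exact eslp_unique (ρ φ) hunit (a φ) (aΦ φ) (ε φ) (ha φ) (hΦ φ hφ)

end Group

end Fermat.Agent.S42x
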