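/-
S42x/EisWSum.lean (helper91, S42 block B1, prefix `eisw_`): GENERIC weighted Eisenstein sums.

For an index set `S : Set (Fin 2 → ℤ)` and coefficients `c : S → ℂ` of norm `≤ 1`,
  `eisw_sum S c k z = ∑' v : S, c v * eisSummand k v z`     (`k ≥ 3`)
is holomorphic on `ℍ`, and EVERY `SL(2,ℤ)`-slash of it is bounded at `i∞` (domination by the
full lattice sum, which is invariant under `z ↦ z + 1`).  Mathlib only.
-/
import Mathlib

set_option autoImplicit false

namespace Fermat.Agent.S42x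

open UpperHalfPlane ModularForm EisensteinSeries Matrix Filter Set Complex Topology
open scoped MatrixGroups Manifold

noncomputable section

/-- weighted Eisenstein sum -/
def eisw_sum (S : Set (Fin 2 → ℤ)) (c : S → ℂ) (k : ℤ) (z : ℍ) : ℂ :=
  ∑' v : S, c v * eisSummand k v z

/-- the full lattice sum of norms -/
def eisw_G (k : ℤ) (z : ℍ) : ℝ := ∑' x : Fin 2 → ℤ, ‖eisSummand k x z‖

variable {S : Set (Fin 2 → ℤ)} {c : S → ℂ} {k : ℤ}

theorem eisw_summable_norm (hc : ∀ v, ‖c v‖ ≤ 1) (hk : 3 ≤ k) (z : ℍ) :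
    Summable fun v : S => ‖c v * eisSummand k v z‖ := by
  refine Summable.of_nonneg_of_le (fun _ => norm_nonneg _) (fun v => ?_)
    ((summable_norm_eisSummand hk z).subtype S)
  rw [norm_mul]
  calc ‖c v‖ * ‖eisSummand k v z‖ ≤ 1 * ‖eisSummand k v z‖ :=
        mul_le_mul_of_nonneg_right (hc v) (norm_nonneg _)
    _ = ‖eisSummand k v z‖ := one_mul _

theorem eisw_summable (hc : ∀ v, ‖c v‖ ≤ 1) (hk : 3 ≤ k) (z : ℍ) :
    Summable fun v : S => c v * eisSummand k v z :=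
  (eisw_summable_norm hc hk z).of_norm

/-- domination by the full lattice sum -/
theorem eisw_norm_le (hc : ∀ v, ‖c v‖ ≤ 1) (hk : 3 ≤ k) (z : ℍ) :
    ‖eisw_sum S c k z‖ ≤ eisw_G k z := by
  unfold eisw_sum eisw_G
  refine (norm_tsum_le_tsum_norm (eisw_summable_norm hc hk z)).trans ?_
  refine ((eisw_summable_norm hc hk z).tsum_le_tsum (fun v => ?_)
    ((summable_norm_eisSummand hk z).subtype S)).trans
    (Summable.tsum_subtype_le (fun x : Fin 2 → ℤ => ‖eisSummand k x z‖) S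
      (fun _ => norm_nonneg _) (summable_norm_eisSummand hk z))
  rw [norm_mul]
  calc ‖c v‖ * ‖eisSummand k v z‖ ≤ 1 * ‖eisSummand k v z‖ :=
        mul_le_mul_of_nonneg_right (hc v) (norm_nonneg _)
    _ = ‖eisSummand k v z‖ := one_mul _

/-- the sum converges locally uniformly on `ℍ` -/
theorem eisw_tendstoLocallyUniformly (hc : ∀ v, ‖c v‖ ≤ 1) (hk : 3 ≤ k) :
    TendstoLocallyUniformly (fun (s : Finset S) ↦ (∑ x ∈ s, c x * eisSummand k x ·))
      (eisw_sum S c k ·) Filter.atTop := by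
  have hk' : (2 : ℝ) < k := by norm_cast
  have p_sum : Summable fun x : S ↦ ‖x.val‖ ^ (-k) :=
    mod_cast (summable_one_div_norm_rpow hk').subtype (· ∈ S)
  simp only [tendstoLocallyUniformly_iff_forall_isCompact, eisw_sum]
  intro K hK
  obtain ⟨A, B, hB, HABK⟩ := subset_verticalStrip_of_isCompact hK
  refine (tendstoUniformlyOn_tsum (hu := p_sum.mul_left <| r ⟨⟨A, B⟩, hB⟩ ^ (-k : ℝ))
    (fun p z hz ↦ ?_)).mono HABK
  rw [norm_mul]
  refine (mul_le_mul_of_nonneg_right (hc p) (norm_nonneg _)).trans ?_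
  rw [one_mul]
  simpa only [eisSummand, one_div, ← _root_.zpow_neg, norm_zpow, ← Real.rpow_intCast,
    Int.cast_neg] using summand_bound_of_mem_verticalStrip (by positivity) p hB hz

/-- variant with maps `ℂ → ℂ` -/
theorem eisw_tendstoLocallyUniformlyOn (hc : ∀ v, ‖c v‖ ≤ 1) (hk : 3 ≤ k) :
    TendstoLocallyUniformlyOn (fun (s : Finset S) ↦
      ↑ₕ(fun (z : ℍ) ↦ ∑ x ∈ s, c x * eisSummand k x z)) (↑ₕ(eisw_sum S c k))
          Filter.atTop {z : ℂ | 0 < z.im} := by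
  rw [← upperHalfPlaneSet, ← range_coe, ← image_univ]
  apply TendstoLocallyUniformlyOn.comp (s := ⊤) _ _ _ (OpenPartialHomeomorph.continuousOn_symm _)
  · simp only [Set.top_eq_univ, tendstoLocallyUniformlyOn_univ]
    apply eisw_tendstoLocallyUniformly hc hk
  · simp only [IsOpenEmbedding.toOpenPartialHomeomorph_target, Set.top_eq_univ, mapsTo_range_iff,
    Set.mem_univ, forall_const]

/-- weighted Eisenstein sums are holomorphic -/
theorem eisw_mdifferentiable (hc : ∀ v, ‖c v‖ ≤ 1) (hk : 3 ≤ k) :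
    MDiff (eisw_sum S c k) := by
  intro τ
  suffices DifferentiableAt ℂ (↑ₕ(eisw_sum S c k)) τ.1 by
    convert!
      MDifferentiableAt.comp τ (DifferentiableAt.mdifferentiableAt this) τ.mdifferentiable_coe
    exact funext fun z ↦ (comp_ofComplex (eisw_sum S c k) z).symm
  refine DifferentiableOn.differentiableAt ?_ (isOpen_upperHalfPlaneSet.mem_nhds τ.2)
  refine (eisw_tendstoLocallyUniformlyOn hc hk).differentiableOn
    (Eventually.of_forall fun s ↦ ?_) isOpen_upperHalfPlaneSet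
  have : (↑ₕ(fun (z : ℍ) ↦ ∑ x ∈ s, c x * eisSummand k x z)) =
      fun w : ℂ => ∑ x ∈ s, c x * (↑ₕ(eisSummand k x)) w := by
    funext w
    simp
  rw [this]
  exact DifferentiableOn.fun_sum fun x _ ↦
    (eisSummand_extension_differentiableOn k x).const_mul (c x)

theorem eisw_vecMul_vecMul_inv (A : SL(2, ℤ)) (v : Fin 2 → ℤ) : (v ᵥ* A.1) ᵥ* (A⁻¹).1 = v := by
  rw [vecMul_vecMul]
  have : A.1 * (A⁻¹).1 = 1 := congrArg Subtype.val (mul_inv_cancel A)
  rw [this, vecMul_one]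

theorem eisw_vecMul_inv_vecMul (A : SL(2, ℤ)) (v : Fin 2 → ℤ) : (v ᵥ* (A⁻¹).1) ᵥ* A.1 = v := by
  rw [vecMul_vecMul]
  have : (A⁻¹).1 * A.1 = 1 := congrArg Subtype.val (inv_mul_cancel A)
  rw [this, vecMul_one]

/-- right multiplication by an element of `SL(2,ℤ)` on row vectors -/
def eisw_vecMulEquiv (A : SL(2, ℤ)) : (Fin 2 → ℤ) ≃ (Fin 2 → ℤ) where
  toFun v := v ᵥ* A.1
  invFun v := v ᵥ* (A⁻¹).1
  left_inv v := eisw_vecMul_vecMul_inv A v
  right_inv v := eisw_vecMul_inv_vecMul A v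

@[simp] theorem eisw_vecMulEquiv_apply (A : SL(2, ℤ)) (v : Fin 2 → ℤ) :
    eisw_vecMulEquiv A v = v ᵥ* A.1 := rfl

/-- the slash of a weighted sum: shift the vectors -/
theorem eisw_slash_apply (A : SL(2, ℤ)) (z : ℍ) :
    (eisw_sum S c k ∣[k] A) z =
      ∑' v : S, c v * eisSummand k ((v : Fin 2 → ℤ) ᵥ* A.1) z := by
  rw [SL_slash_apply, eisw_sum]
  simp_rw [eisSummand_SL2_apply]
  have h0 := zpow_ne_zero k (denom_ne_zero A z)
  have : (fun v : S => c v * (denom (A : SL(2, ℤ)) z ^ k *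
      eisSummand k ((v : Fin 2 → ℤ) ᵥ* A.1) z)) =
      fun v : S => denom (A : SL(2, ℤ)) z ^ k *
        (c v * eisSummand k ((v : Fin 2 → ℤ) ᵥ* A.1) z) := by
    funext v
    ring
  rw [this, tsum_mul_left, _root_.zpow_neg, mul_comm, ← mul_assoc, inv_mul_cancel₀ h0, one_mul]

/-- norm-summability of the shifted family -/
theorem eisw_summable_norm_shift (hk : 3 ≤ k) (A : SL(2, ℤ)) (z : ℍ) :
    Summable fun v : S =>
      ‖eisSummand k ((v : Fin 2 → ℤ) ᵥ* A.1) z‖ := by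
  have h1 : Summable fun x : Fin 2 → ℤ => ‖eisSummand k (eisw_vecMulEquiv A x) z‖ :=
    (eisw_vecMulEquiv A).summable_iff.mpr (summable_norm_eisSummand hk z)
  exact h1.subtype S

/-- every `SL(2,ℤ)`-slash is dominated by the full lattice sum -/
theorem eisw_norm_slash_le (hc : ∀ v, ‖c v‖ ≤ 1) (hk : 3 ≤ k) (A : SL(2, ℤ)) (z : ℍ) :
    ‖(eisw_sum S c k ∣[k] A) z‖ ≤ eisw_G k z := by
  rw [eisw_slash_apply A z]
  have hs := eisw_summable_norm_shift (S := S) hk A z
  have hs' : Summable fun v : S =>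
      ‖c v * eisSummand k ((v : Fin 2 → ℤ) ᵥ* A.1) z‖ := by
    refine Summable.of_nonneg_of_le (fun _ => norm_nonneg _) (fun v => ?_) hs
    rw [norm_mul]
    calc ‖c v‖ * _ ≤ 1 * _ := mul_le_mul_of_nonneg_right (hc v) (norm_nonneg _)
      _ = _ := one_mul _
  refine (norm_tsum_le_tsum_norm hs').trans ?_
  unfold eisw_G
  refine Summable.tsum_le_tsum_of_inj
    (fun v : S => (v : Fin 2 → ℤ) ᵥ* A.1) ?_
    (fun _ _ => norm_nonneg _) (fun v => ?_) hs' (summable_norm_eisSummand hk z)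
  · intro v w hvw
    exact Subtype.ext ((eisw_vecMulEquiv A).injective hvw)
  · rw [norm_mul]
    calc ‖c v‖ * _ ≤ 1 * _ := mul_le_mul_of_nonneg_right (hc v) (norm_nonneg _)
      _ = _ := one_mul _

/-- the full lattice sum is invariant under `z ↦ z + n` -/
theorem eisw_G_T_zpow (k : ℤ) (n : ℤ) (z : ℍ) :
    eisw_G k (ModularGroup.T ^ n • z) = eisw_G k z := by
  unfold eisw_G
  have h : ∀ x : Fin 2 → ℤ, ‖eisSummand k x (ModularGroup.T ^ n • z)‖ =
      ‖eisSummand k (eisw_vecMulEquiv (ModularGroup.T ^ n) x) z‖ := by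
    intro x
    rw [eisSummand_SL2_apply]
    have hd : denom (ModularGroup.T ^ n : SL(2, ℤ)) z = 1 := by
      rw [ModularGroup.denom_apply]
      simp [ModularGroup.coe_T_zpow]
    rw [hd, _root_.one_zpow, one_mul]
    rfl
  simp_rw [h]
  exact (eisw_vecMulEquiv (ModularGroup.T ^ n)).tsum_eq (fun x => ‖eisSummand k x z‖)

/-- the constant bounding the full lattice sum on `Im z ≥ 2` -/
def eisw_C (k : ℤ) : ℝ := ∑' x : Fin 2 → ℤ, r ⟨⟨1, 2⟩, Nat.ofNat_pos⟩ ^ (-k) * ‖x‖ ^ (-k)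

theorem eisw_G_le (hk : 3 ≤ k) (z : ℍ) (hz : 2 ≤ z.im) : eisw_G k z ≤ eisw_C k := by
  obtain ⟨n, hn⟩ := ModularGroup_T_zpow_mem_verticalStrip z (N := 1) one_pos
  have hn' : ModularGroup.T ^ n • z ∈ verticalStrip 1 z.im := by simpa using hn
  rw [← eisw_G_T_zpow k n z]
  unfold eisw_G eisw_C
  have hk' : (2 : ℝ) < k := by norm_cast
  apply (summable_norm_eisSummand hk _).tsum_le_tsum _
  · exact_mod_cast (summable_one_div_norm_rpow hk').mul_left <| r ⟨⟨1, 2⟩, Nat.ofNat_pos⟩ ^ (-k)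
  · intro x
    simp_rw [eisSummand, norm_zpow]
    exact_mod_cast
      summand_bound_of_mem_verticalStrip (lt_trans two_pos hk').le x two_pos
      (verticalStrip_anti_right 1 hz hn')

/-- EVERY `SL(2,ℤ)`-slash of a weighted Eisenstein sum is bounded at `i∞` -/
theorem eisw_isBoundedAtImInfty_slash (hc : ∀ v, ‖c v‖ ≤ 1) (hk : 3 ≤ k) (A : SL(2, ℤ)) :
    IsBoundedAtImInfty (eisw_sum S c k ∣[k] A) := by
  rw [UpperHalfPlane.isBoundedAtImInfty_iff]
  exact ⟨eisw_C k, 2, fun z hz => (eisw_norm_slash_le hc hk A z).trans (eisw_G_le hk z hz)⟩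

end

end Fermat.Agent.S42x
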