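/-
S42x/EllExact39 (helper39, prefix `ell39_`): EXACT ramification of `X₀(M)` over the `j`-line at
the points above `j = 1728` and `j = 0` (over `Q̄`), extracted from the S24 counting squeeze by
keeping the per-place equality which `cc_ncard_placesOver` throws away.

Main results (`τ = g • i`, resp. `τ = g • ρ`):
* `ell39_vPt_ord_I` / `ell39_vPt_ord_rho` : if the stabiliser generator `g S g⁻¹` (resp.
  `g (ST) g⁻¹`) does NOT lie in `Γ₀(M)`, then `ord_{v_τ}(j - 1728) = 2` (resp. `ord_{v_τ}(j) = 3`);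
* `ell39_exists_ord_one_I` / `ell39_exists_ord_one_rho` : in that case some `x₀ ∈ F̄_M` has
  analytic order exactly `1` at `τ`  (a local uniformiser of the upper half plane at `τ` which is a
  modular function of level `M` over `Q̄`).

Purpose: removes the hypothesis `p ≥ 5` from the finite-place divisibility of block B3 of the S42
route (needed for S29 with `p = 2, 3`).
-/
import Fermat.Agent.S24

set_option autoImplicit false
set_option linter.style.haveILetI false

namespace Fermat.Agent.S42x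

open UpperHalfPlane AlgebraicCurve ModularCurve CongruenceSubgroup ModularGroup
open Matrix.SpecialLinearGroup Fermat.Agent.S24x
open scoped MatrixGroups

section Abstract

variable {K F : Type*} [Field K] [Field F] [Algebra K F]
variable {G X : Type*} [Group G] [MulAction G X] [Finite X]

/-- **per-place form of `cc_ncard_placesOver`**: in the squeeze, every place `vP x` has order
exactly the size of the orbit of `x`. -/
theorem ell39_ord_eq_card_orbit (t : F) (c : K)
    (hfin : (placesOver K F t c).Finite)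
    (hsum : ∑ v ∈ hfin.toFinset, v.ord (t - algebraMap K F c) = (cdeg K F t : ℤ))
    (vP : X → Place K F)
    (hinv : ∀ (g : G) (x : X), vP (g • x) = vP x)
    (hcov : ∀ v ∈ placesOver K F t c, ∃ x, vP x = v)
    (hmem : ∀ x, vP x ∈ placesOver K F t c)
    (hbound : ∀ x, (vP x).ord (t - algebraMap K F c) ≤ (Nat.card (MulAction.orbit G x) : ℤ))
    (hdeg : Nat.card X ≤ cdeg K F t) (x : X) :
    (vP x).ord (t - algebraMap K F c) = (Nat.card (MulAction.orbit G x) : ℤ) := by
  classical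
  haveI : Fintype (MulAction.orbitRel.Quotient G X) := Fintype.ofFinite _
  obtain ⟨-, h2, -, -⟩ := squeeze_placesOver (ι := MulAction.orbitRel.Quotient G X) t c hfin hsum
    (fun ω => vP ω.out) (fun ω => Nat.card (MulAction.orbit G ω.out))
    (fun v hv => by
      obtain ⟨x, hx⟩ := hcov v hv
      exact ⟨Quotient.mk'' x, by rw [cc_const_on_orbit vP hinv _ x rfl, hx]⟩)
    (fun ω => ⟨hmem _, hbound _⟩)
    (by rw [cc_sum_card_orbits G X]; exact hdeg)
  have h := h2 (Quotient.mk'' x)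
  have e1 : vP (Quotient.mk'' x : MulAction.orbitRel.Quotient G X).out = vP x :=
    cc_const_on_orbit vP hinv _ x rfl
  have e2 : Nat.card (MulAction.orbit G (Quotient.mk'' x : MulAction.orbitRel.Quotient G X).out)
      = Nat.card (MulAction.orbit G x) :=
    cc_const_on_orbit (fun y => Nat.card (MulAction.orbit G y))
      (fun g y => by
        show Nat.card (MulAction.orbit G (g • y)) = Nat.card (MulAction.orbit G y)
        rw [MulAction.orbit_smul]) _ x rfl
  rw [e1, e2] at h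
  exact h

end Abstract

section Family

variable {K F : Type*} [Field K] [Field F] [Algebra K F]
variable (N : ℕ) [NeZero N]

/-- **per-place form of `fc_ncard_placesOver_of_family`.** -/
theorem ell39_ord_eq_of_family (t : F) (c : K) (s : SL(2, ℤ))
    (hsum : ∃ hfin : (placesOver K F t c).Finite,
      ∑ v ∈ hfin.toFinset, v.ord (t - algebraMap K F c) = (cdeg K F t : ℤ))
    (pt : SL(2, ℤ) → Place K F)
    (hleft : ∀ γ : SL(2, ℤ), γ ∈ Gamma0 N → ∀ g, pt (γ * g) = pt g)
    (hs : ∀ g, pt (g * s) = pt g)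
    (hord : ∀ (g : SL(2, ℤ)) (w : ℕ), 0 < w → g * s ^ w * g⁻¹ ∈ Gamma0 N →
      (pt g).ord (t - algebraMap K F c) ≤ w)
    (hmem : ∀ g, pt g ∈ placesOver K F t c)
    (hcov : ∀ v ∈ placesOver K F t c, ∃ g, v = pt g)
    (hdeg : Nat.card (Q N) ≤ cdeg K F t) (g : SL(2, ℤ)) :
    (pt g).ord (t - algebraMap K F c) =
      (Nat.card (MulAction.orbit (Subgroup.zpowers s) (((g⁻¹ : SL(2, ℤ)) : SL(2, ℤ)) : Q N)) : ℤ)
      := by
  classical
  obtain ⟨hfin, hsum⟩ := hsum
  haveI : Finite (Q N) := by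
    have : (Gamma0 N).FiniteIndex := inferInstance
    exact Subgroup.finite_quotient_of_finiteIndex
  have hsz : ∀ (k : ℤ) (g : SL(2, ℤ)), pt (g * s ^ k) = pt g := fc_zpow_invariant pt s hs
  -- the family on cosets
  let vP : Q N → Place K F := fun q => Quotient.liftOn' q (fun g => pt g⁻¹) (by
    intro a b hab
    have hab' : a⁻¹ * b ∈ Gamma0 N := QuotientGroup.leftRel_apply.mp hab
    have e : b⁻¹ = (a⁻¹ * b)⁻¹ * a⁻¹ := by group
    show pt a⁻¹ = pt b⁻¹
    rw [e, hleft _ ((Gamma0 N).inv_mem hab')])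
  have hvP : ∀ g : SL(2, ℤ), vP ((g : SL(2, ℤ)) : Q N) = pt g⁻¹ := fun g => rfl
  have key := ell39_ord_eq_card_orbit (G := Subgroup.zpowers s) (X := Q N) t c hfin hsum vP
    ?_ ?_ ?_ ?_ hdeg (((g⁻¹ : SL(2, ℤ)) : SL(2, ℤ)) : Q N)
  · rw [hvP, inv_inv] at key
    exact key
  · -- invariance
    rintro ⟨z, hz⟩ q
    obtain ⟨k, rfl⟩ := Subgroup.mem_zpowers_iff.mp hz
    induction q using QuotientGroup.induction_on with
    | H g =>
      show vP ((s ^ k : SL(2, ℤ)) • ((g : SL(2, ℤ)) : Q N)) = _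
      rw [smul_coset, hvP, hvP, mul_inv_rev, ← zpow_neg, hsz]
  · -- covering
    intro v hv
    obtain ⟨g, rfl⟩ := hcov v hv
    exact ⟨((g⁻¹ : SL(2, ℤ)) : Q N), by rw [hvP, inv_inv]⟩
  · -- membership
    intro q
    induction q using QuotientGroup.induction_on with
    | H g => rw [hvP]; exact hmem _
  · -- the bound
    intro q
    induction q using QuotientGroup.induction_on with
    | H g =>
      rw [hvP]
      set w := Nat.card (MulAction.orbit (Subgroup.zpowers s) ((g : SL(2, ℤ)) : Q N))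
        with hw
      have hwpos : 0 < w := by
        haveI : Finite (MulAction.orbit (Subgroup.zpowers s)
            ((g : SL(2, ℤ)) : Q N)) := Set.toFinite _ |>.to_subtype
        haveI : Nonempty (MulAction.orbit (Subgroup.zpowers s)
            ((g : SL(2, ℤ)) : Q N)) := ⟨⟨_, MulAction.mem_orbit_self _⟩⟩
        exact Nat.card_pos
      have hfix0 := cc_pow_card_orbit_smul s (((g : SL(2, ℤ)) : Q N))
      have hfix : (s ^ w : SL(2, ℤ)) • (((g : SL(2, ℤ)) : Q N)) = ((g : SL(2, ℤ)) : Q N) := hfix0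
      rw [smul_coset] at hfix
      have hmemΓ : (s ^ w * g)⁻¹ * g ∈ Gamma0 N := QuotientGroup.eq.mp hfix
      have hmemΓ' : g⁻¹ * s ^ w * (g⁻¹)⁻¹ ∈ Gamma0 N := by
        have := (Gamma0 N).inv_mem hmemΓ
        have e : ((s ^ w * g)⁻¹ * g)⁻¹ = g⁻¹ * s ^ w * (g⁻¹)⁻¹ := by group
        rwa [e] at this
      exact_mod_cast hord g⁻¹ w hwpos hmemΓ'

/-- the orbit of `g⁻¹ Γ₀(N)` under `⟨s⟩` has `p` elements when `g s g⁻¹ ∉ Γ₀(N)`. -/
theorem ell39_card_orbit_of_not_mem (s : SL(2, ℤ)) (p : ℕ) (hp : p.Prime)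
    (hsp : ∀ x : Q N, s ^ p • x = x) (g : SL(2, ℤ)) (hg : g * s * g⁻¹ ∉ Gamma0 N) :
    Nat.card (MulAction.orbit (Subgroup.zpowers s) (((g⁻¹ : SL(2, ℤ)) : SL(2, ℤ)) : Q N)) = p := by
  rw [Nat.card_coe_set_eq]
  refine os_ncard_orbit_of_not_fixed hp (hsp _) ?_
  intro hfix
  apply hg
  have := (os_smul_coset_eq_iff_conj N s g⁻¹).mp hfix
  rwa [inv_inv] at this

end Family

section Qbar

variable (M : ℕ) [NeZero M]

/-- `ord_{v_τ}(j - 1728) = #(⟨S⟩-orbit of g⁻¹Γ₀(M))` for `τ = g • i`. -/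
theorem ell39_vPt_ord_I_eq (g : SL(2, ℤ)) :
    (vPt M (g • UpperHalfPlane.I)).ord (jBar M - algebraMap Qbar (FBar M) 1728) =
      (Nat.card (MulAction.orbit (Subgroup.zpowers S) (((g⁻¹ : SL(2, ℤ)) : SL(2, ℤ)) : Q M)) : ℤ)
      := by
  have A := Fermat.Agent.S24.cInputs M
  have hτ₀ : jFun UpperHalfPlane.I = iotaQ 1728 := by rw [A.jFun_I, map_ofNat]
  have hn : holOrder (cfJ (iotaQ 1728)) UpperHalfPlane.I = (2 : ℕ) := by
    have := A.holOrder_jHol_sub_I
    have e : iotaQ (1728 : Qbar) = 1728 := map_ofNat iotaQ 1728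
    rw [e]
    exact this
  exact ell39_ord_eq_of_family M (jBar M) (1728 : Qbar) S
    ((Fermat.Agent.S24.cInputs M).sum_ord_placesOver 1728)
    ((Fermat.Agent.S24.cInputs M).pt UpperHalfPlane.I)
    ((Fermat.Agent.S24.cInputs M).hleft UpperHalfPlane.I)
    ((Fermat.Agent.S24.cInputs M).hs UpperHalfPlane.I S S_smul_I)
    (fc_ord_le_of_ram M 2 Nat.prime_two _ S ((Fermat.Agent.S24.cInputs M).pt UpperHalfPlane.I)
      ((Fermat.Agent.S24.cInputs M).oF UpperHalfPlane.I)
      ((Fermat.Agent.S24.cInputs M).hmul hτ₀)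
      (fun g => by simpa using (Fermat.Agent.S24.cInputs M).hD UpperHalfPlane.I 1728 2 hn g)
      (fun g hg f => by
        have := two_dvd_ordAt_of_invariant g ((Fermat.Agent.S24.cInputs M).evF f)
          ((Fermat.Agent.S24.cInputs M).evF_smul_of_mem_Gamma0 _ hg f)
        exact_mod_cast this)
      (fun g => by rw [os_S_sq]; exact cf_conj_neg_one_mem M g))
    ((Fermat.Agent.S24.cInputs M).hmem hτ₀) ((Fermat.Agent.S24.cInputs M).hcov hτ₀)
    (Fermat.Agent.S24.cInputs M).hdeg g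

/-- `ord_{v_τ}(j) = #(⟨ST⟩-orbit of g⁻¹Γ₀(M))` for `τ = g • ρ`. -/
theorem ell39_vPt_ord_rho_eq (g : SL(2, ℤ)) :
    (vPt M (g • rho)).ord (jBar M - algebraMap Qbar (FBar M) 0) =
      (Nat.card (MulAction.orbit (Subgroup.zpowers (S * T))
        (((g⁻¹ : SL(2, ℤ)) : SL(2, ℤ)) : Q M)) : ℤ) := by
  have A := Fermat.Agent.S24.cInputs M
  have hτ₀ : jFun rho = iotaQ 0 := by rw [A.jFun_rho, map_zero]
  have hn : holOrder (cfJ (iotaQ 0)) rho = (3 : ℕ) := by
    have := A.holOrder_jHol_rho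
    have e : cfJ (iotaQ (0 : Qbar)) = jHol := by unfold cfJ; rw [map_zero, map_zero, sub_zero]
    rw [e]
    exact this
  exact ell39_ord_eq_of_family M (jBar M) (0 : Qbar) (S * T)
    ((Fermat.Agent.S24.cInputs M).sum_ord_placesOver 0)
    ((Fermat.Agent.S24.cInputs M).pt rho)
    ((Fermat.Agent.S24.cInputs M).hleft rho)
    ((Fermat.Agent.S24.cInputs M).hs rho (S * T) ST_smul_rho)
    (fc_ord_le_of_ram M 3 Nat.prime_three _ (S * T) ((Fermat.Agent.S24.cInputs M).pt rho)
      ((Fermat.Agent.S24.cInputs M).oF rho)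
      ((Fermat.Agent.S24.cInputs M).hmul hτ₀)
      (fun g => by simpa using (Fermat.Agent.S24.cInputs M).hD rho 0 3 hn g)
      (fun g hg f => by
        have := three_dvd_ordAt_of_invariant g ((Fermat.Agent.S24.cInputs M).evF f)
          ((Fermat.Agent.S24.cInputs M).evF_smul_of_mem_Gamma0 _ hg f)
        exact_mod_cast this)
      (fun g => by rw [os_ST_cube]; exact cf_conj_neg_one_mem M g))
    ((Fermat.Agent.S24.cInputs M).hmem hτ₀) ((Fermat.Agent.S24.cInputs M).hcov hτ₀)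
    (Fermat.Agent.S24.cInputs M).hdeg g

/-- **exact ramification over `j = 1728`**: if `g S g⁻¹ ∉ Γ₀(M)` then `ord_{v_τ}(j - 1728) = 2`
at `τ = g • i`. -/
theorem ell39_vPt_ord_I (g : SL(2, ℤ)) (hg : g * S * g⁻¹ ∉ Gamma0 M) :
    (vPt M (g • UpperHalfPlane.I)).ord (jBar M - algebraMap Qbar (FBar M) 1728) = 2 := by
  rw [ell39_vPt_ord_I_eq, ell39_card_orbit_of_not_mem M S 2 Nat.prime_two (os_S_sq_smul M) g hg]
  rfl

/-- **exact ramification over `j = 0`**: if `g (ST) g⁻¹ ∉ Γ₀(M)` then `ord_{v_τ}(j) = 3` at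
`τ = g • ρ`. -/
theorem ell39_vPt_ord_rho (g : SL(2, ℤ)) (hg : g * (S * T) * g⁻¹ ∉ Gamma0 M) :
    (vPt M (g • rho)).ord (jBar M - algebraMap Qbar (FBar M) 0) = 3 := by
  rw [ell39_vPt_ord_rho_eq,
    ell39_card_orbit_of_not_mem M (S * T) 3 Nat.prime_three (os_ST_cube_smul M) g hg]
  rfl

/-- if `ord_τ (ev x) = n = ord_{v_τ} x` for one `x` with `n ≠ 0`, then `e_τ = 1` and some
`x₀ ∈ F̄_M` has analytic order `1` at `τ`. -/
theorem ell39_exists_ord_one_of_eq {τ : ℍ} {c : Qbar} (hτ : jFun τ = iotaQ c) (x : FBar M)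
    {n : ℤ} (hn : n ≠ 0) (h1 : ordAt τ (evF M x) = n) (h2 : (vPt M τ).ord x = n) :
    ∃ x₀ : FBar M, ordAt τ (evF M x₀) = 1 := by
  obtain ⟨e, he, hef⟩ := exists_ordAt_eq_mul_vPt_ord M τ hτ
  have h3 : (e : ℤ) * n = n := by rw [← h2, ← hef, h1, h2]
  have he1 : (e : ℤ) = 1 := by
    have : ((e : ℤ) - 1) * n = 0 := by rw [sub_mul, h3, one_mul, sub_self]
    rcases mul_eq_zero.mp this with h | h
    · omega
    · exact absurd h hn
  obtain ⟨π, hπ⟩ := fc_exists_ord_eq_one (vPt M τ)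
  exact ⟨π, by rw [hef, hπ, he1, mul_one]⟩

/-- **a uniformiser at a non-elliptic point over `j = 1728`.** -/
theorem ell39_exists_ord_one_I (g : SL(2, ℤ)) (hg : g * S * g⁻¹ ∉ Gamma0 M) :
    ∃ x₀ : FBar M, ordAt (g • UpperHalfPlane.I) (evF M x₀) = 1 := by
  have A := Fermat.Agent.S24.cInputs M
  have hτ₀ : jFun UpperHalfPlane.I = iotaQ 1728 := by rw [A.jFun_I, map_ofNat]
  have hn : holOrder (cfJ (iotaQ 1728)) UpperHalfPlane.I = (2 : ℕ) := by
    have := A.holOrder_jHol_sub_I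
    have e : iotaQ (1728 : Qbar) = 1728 := map_ofNat iotaQ 1728
    rw [e]
    exact this
  have h1 : ordAt (g • UpperHalfPlane.I) (evF M (jBar M - algebraMap Qbar (FBar M) 1728)) =
      ((2 : ℕ) : ℤ) := (Fermat.Agent.S24.cInputs M).hD UpperHalfPlane.I 1728 2 hn g
  exact ell39_exists_ord_one_of_eq M (cf_jFun_smul_eq hτ₀ g) _ (by norm_num) h1
    (ell39_vPt_ord_I M g hg)

/-- **a uniformiser at a non-elliptic point over `j = 0`.** -/
theorem ell39_exists_ord_one_rho (g : SL(2, ℤ)) (hg : g * (S * T) * g⁻¹ ∉ Gamma0 M) :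
    ∃ x₀ : FBar M, ordAt (g • rho) (evF M x₀) = 1 := by
  have A := Fermat.Agent.S24.cInputs M
  have hτ₀ : jFun rho = iotaQ 0 := by rw [A.jFun_rho, map_zero]
  have hn : holOrder (cfJ (iotaQ 0)) rho = (3 : ℕ) := by
    have := A.holOrder_jHol_rho
    have e : cfJ (iotaQ (0 : Qbar)) = jHol := by unfold cfJ; rw [map_zero, map_zero, sub_zero]
    rw [e]
    exact this
  have h1 : ordAt (g • rho) (evF M (jBar M - algebraMap Qbar (FBar M) 0)) =
      ((3 : ℕ) : ℤ) := (Fermat.Agent.S24.cInputs M).hD rho 0 3 hn g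
  exact ell39_exists_ord_one_of_eq M (cf_jFun_smul_eq hτ₀ g) _ (by norm_num) h1
    (ell39_vPt_ord_rho M g hg)

end Qbar

end Fermat.Agent.S42x
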