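/-
S42x/EllFinite39 (helper39, prefix `ellf39_`): block B3 leaf B3.4 FINAL **for every `p > 0`**
(in particular `p = 2, 3`; needed for S29), generic in the realisation bundle
`D : cdc_Real F M jF` (S42x/CDictDefs).

Extra hypotheses w.r.t. `cdfin21_dvd_ord_all` / `cdcf71_dvd_all` (which need `gcd (p, 6) = 1`):
* `hsub`  : the realisation `evF M` of `F̄_M` (over `Q̄`) lands in the image of `D.φ`
            (for `FC`: `cdk4_phi_iF`, `D.φ (cdk4_iF M x₀) = evF M x₀`);
* `hell`  : the `p`-th root `h` is invariant under the elements of FINITE ORDER of `Γ₀(M)`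
            (automatic for a character `ψ_χ = exp (2πi χ / p)` with `χ` ℤ-valued).

Proof at a point `τ = g • i` over `j = 1728` (same at `g • ρ` over `j = 0`): `e_τ ∈ {1, 2}`;
if `g S g⁻¹ ∈ Γ₀(M)` then `2 ∣ ord_τ h` (S24x `two_dvd_ordAt_of_invariant`), otherwise `e_τ = 1` by
the exact ramification `ell39_exists_ord_one_I` (S42x/EllExact39).
-/
import Fermat.Agent.S42x.CDictDefs
import Fermat.Agent.S42x.EllExact39
import Fermat.Agent.S18x.PlsTsFields
import Fermat.Agent.S18x.RmnBasic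

set_option autoImplicit false

namespace Fermat.Agent.S42x

open UpperHalfPlane AlgebraicCurve CongruenceSubgroup ModularGroup
open Fermat.Agent.S24x Fermat.Agent.S18x
open scoped MatrixGroups

noncomputable section

variable {F : Type*} [Field F] [Algebra ℂ F] {M : ℕ} [NeZero M] {jF : F} (D : cdc_Real F M jF)

theorem ellf39_ordAt_pow (τ : ℍ) {x : Mer} (hx : x ≠ 0) (n : ℕ) :
    ordAt τ (x ^ n) = n * ordAt τ x := by
  induction n with
  | zero =>
    rw [pow_zero, Nat.cast_zero, zero_mul]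
    have := ordAt_const τ (1 : ℂ)
    rwa [map_one] at this
  | succ n ih =>
    rw [pow_succ, ordAt_mul τ (pow_ne_zero n hx) hx, ih]
    push_cast; ring

/-- if the multiplier `e_τ` is `1`, a `p`-th root gives `p ∣ ord_{vPt τ} f`. -/
theorem ellf39_dvd_of_mult_one (τ : ℍ) {p : ℕ} {f : F} {h : Mer} (hh : h ≠ 0)
    (hpow : h ^ p = D.φ f)
    (hone : ∀ f : F, ordAt τ (D.φ f) = (cdc_vPt D τ).ord f) :
    (p : ℤ) ∣ (cdc_vPt D τ).ord f := by
  rw [← hone f, ← hpow, ellf39_ordAt_pow τ hh]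
  exact dvd_mul_right _ _

/-- the multiplier is `1` as soon as some element has analytic order `1`. -/
theorem ellf39_mult_one_of_ord_one (τ : ℍ) (y : F) (hy : ordAt τ (D.φ y) = 1) :
    ∀ f : F, ordAt τ (D.φ f) = (cdc_vPt D τ).ord f := by
  obtain ⟨e, he, heo⟩ := cdc_exists_ordAt_eq_mul D τ
  have h1 := heo y
  rw [hy] at h1
  have he1 : (e : ℤ) = 1 := by
    have he' : (0 : ℤ) < e := by exact_mod_cast he
    have hpos : 0 < (cdc_vPt D τ).ord y := by
      by_contra hcon
      push_neg at hcon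
      have : (e : ℤ) * (cdc_vPt D τ).ord y ≤ 0 := mul_nonpos_of_nonneg_of_nonpos he'.le hcon
      omega
    have : (e : ℤ) ≤ (e : ℤ) * (cdc_vPt D τ).ord y := by nlinarith
    omega
  intro f
  rw [heo f, he1, one_mul]

/-- **key arithmetic step**: `e * a = q` (`q` prime, `e ≥ 1`), `e * n = p * m`, and `q ∣ m` whenever
`e ≠ 1`  ⟹  `p ∣ n`. -/
theorem ellf39_arith {q : ℕ} (hq : q.Prime) {e : ℕ} (he : 0 < e) {a n m : ℤ} {p : ℕ}
    (h1 : (e : ℤ) * a = q) (h2 : (e : ℤ) * n = p * m) (h3 : e ≠ 1 → (q : ℤ) ∣ m) :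
    (p : ℤ) ∣ n := by
  have he' : (0 : ℤ) < e := by exact_mod_cast he
  have hdvd : (e : ℤ) ∣ (q : ℤ) := ⟨a, h1.symm⟩
  have hdvd' : e ∣ q := by exact_mod_cast hdvd
  rcases (Nat.dvd_prime hq).mp hdvd' with h | h
  · rw [h, Nat.cast_one, one_mul] at h2
    rw [h2]
    exact dvd_mul_right _ _
  · have hne : e ≠ 1 := by rw [h]; exact hq.one_lt.ne'
    obtain ⟨k, hk⟩ := h3 hne
    rw [h, hk] at h2
    have hq0 : (q : ℤ) ≠ 0 := by exact_mod_cast hq.ne_zero
    have : n = p * k := by
      apply mul_left_cancel₀ hq0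
      rw [h2]; ring
    rw [this]
    exact dvd_mul_right _ _

section Point

variable (hsub : ∀ x₀ : FBar M, ∃ y : F, D.φ y = evF M x₀)

include hsub

/-- **point places, every `p > 0`.** -/
theorem ellf39_dvd_ord_vPt {p : ℕ} (hp : 0 < p) (τ : ℍ) (f : F) (h : Mer)
    (hpow : h ^ p = D.φ f)
    (hell : ∀ γ : SL(2, ℤ), γ ∈ Gamma0 M → IsOfFinOrder γ → γ • h = h)
    (hI : jFun τ = 1728 → ∃ g : SL(2, ℤ), τ = g • UpperHalfPlane.I)
    (hrho : jFun τ = 0 → ∃ g : SL(2, ℤ), τ = g • rho) :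
    (p : ℤ) ∣ (cdc_vPt D τ).ord f := by
  rcases eq_or_ne f 0 with rfl | hf
  · simp
  have hh : h ≠ 0 := by
    rintro rfl
    rw [zero_pow hp.ne'] at hpow
    exact cdc_φ_ne_zero D hf hpow.symm
  obtain ⟨e, he, heo⟩ := cdc_exists_ordAt_eq_mul D τ
  have hf1 := heo f
  rw [← hpow, ellf39_ordAt_pow τ hh] at hf1
  have hj := heo (jF - algebraMap ℂ F (jFun τ))
  rw [cdc_ordAt_j_sub] at hj
  by_cases h1 : jFun τ = 1728
  · -- `τ = g • i`
    obtain ⟨g, rfl⟩ := hI h1
    have ho : holOrdZ (jHol - algebraMap ℂ Hol (jFun (g • UpperHalfPlane.I)))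
        (g • UpperHalfPlane.I) = ((2 : ℕ) : ℤ) := by
      have := holOrder_jHol_sub_of_jFun_eq_1728 _ h1
      rw [h1]
      unfold holOrdZ
      rw [this]
      rfl
    rw [ho] at hj
    refine ellf39_arith Nat.prime_two he hj.symm hf1.symm ?_
    intro hne
    by_cases hmem : g * S * g⁻¹ ∈ Gamma0 M
    · have hfin : IsOfFinOrder (g * S * g⁻¹) := by
        rw [isOfFinOrder_iff_pow_eq_one]
        refine ⟨4, by norm_num, ?_⟩
        have hconj : ∀ k : ℕ, (g * S * g⁻¹) ^ k = g * S ^ k * g⁻¹ := by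
          intro k
          induction k with
          | zero => simp
          | succ k ih => rw [pow_succ, ih, pow_succ]; group
        rw [hconj]
        have : (S : SL(2, ℤ)) ^ 4 = 1 := by
          have h2 : (S : SL(2, ℤ)) ^ 4 = (S ^ 2) ^ 2 := by rw [← pow_mul]
          rw [h2, os_S_sq]
          simp
        rw [this]; group
      exact_mod_cast two_dvd_ordAt_of_invariant g h (hell _ hmem hfin)
    · exfalso
      obtain ⟨x₀, hx₀⟩ := ell39_exists_ord_one_I M g hmem
      obtain ⟨y, hy⟩ := hsub x₀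
      have hone := ellf39_mult_one_of_ord_one D (g • UpperHalfPlane.I) y (by rw [hy, hx₀])
      have h2 := heo (jF - algebraMap ℂ F (jFun (g • UpperHalfPlane.I)))
      rw [hone] at h2
      -- `e = 1`
      have hpos : 0 < (cdc_vPt D (g • UpperHalfPlane.I)).ord
          (jF - algebraMap ℂ F (jFun (g • UpperHalfPlane.I))) := by
        have := cdc_vPt_mem_placesOver D (g • UpperHalfPlane.I)
        rwa [mem_placesOver] at this
      have he' : (0 : ℤ) < e := by exact_mod_cast he
      have : (e : ℤ) = 1 := by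
        have h3 : ((e : ℤ) - 1) * (cdc_vPt D (g • UpperHalfPlane.I)).ord
            (jF - algebraMap ℂ F (jFun (g • UpperHalfPlane.I))) = 0 := by
          rw [sub_mul, ← h2, one_mul, sub_self]
        rcases mul_eq_zero.mp h3 with h4 | h4
        · omega
        · omega
      exact hne (by exact_mod_cast this)
  by_cases h0 : jFun τ = 0
  · -- `τ = g • ρ`
    obtain ⟨g, rfl⟩ := hrho h0
    have ho : holOrdZ (jHol - algebraMap ℂ Hol (jFun (g • rho))) (g • rho) = ((3 : ℕ) : ℤ) := by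
      have := holOrder_jHol_of_jFun_eq_zero _ h0
      rw [h0, map_zero, sub_zero]
      unfold holOrdZ
      rw [this]
      rfl
    rw [ho] at hj
    refine ellf39_arith Nat.prime_three he hj.symm hf1.symm ?_
    intro hne
    by_cases hmem : g * (S * T) * g⁻¹ ∈ Gamma0 M
    · have hfin : IsOfFinOrder (g * (S * T) * g⁻¹) := by
        rw [isOfFinOrder_iff_pow_eq_one]
        refine ⟨6, by norm_num, ?_⟩
        have hconj : ∀ k : ℕ, (g * (S * T) * g⁻¹) ^ k = g * (S * T) ^ k * g⁻¹ := by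
          intro k
          induction k with
          | zero => simp
          | succ k ih => rw [pow_succ, ih, pow_succ]; group
        rw [hconj]
        have : ((S * T : SL(2, ℤ))) ^ 6 = 1 := by
          have h2 : ((S * T : SL(2, ℤ))) ^ 6 = ((S * T) ^ 3) ^ 2 := by rw [← pow_mul]
          rw [h2, os_ST_cube]
          simp
        rw [this]; group
      exact_mod_cast three_dvd_ordAt_of_invariant g h (hell _ hmem hfin)
    · exfalso
      obtain ⟨x₀, hx₀⟩ := ell39_exists_ord_one_rho M g hmem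
      obtain ⟨y, hy⟩ := hsub x₀
      have hone := ellf39_mult_one_of_ord_one D (g • rho) y (by rw [hy, hx₀])
      have h2 := heo (jF - algebraMap ℂ F (jFun (g • rho)))
      rw [hone] at h2
      have hpos : 0 < (cdc_vPt D (g • rho)).ord (jF - algebraMap ℂ F (jFun (g • rho))) := by
        have := cdc_vPt_mem_placesOver D (g • rho)
        rwa [mem_placesOver] at this
      have he' : (0 : ℤ) < e := by exact_mod_cast he
      have : (e : ℤ) = 1 := by
        have h3 : ((e : ℤ) - 1) * (cdc_vPt D (g • rho)).ord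
            (jF - algebraMap ℂ F (jFun (g • rho))) = 0 := by
          rw [sub_mul, ← h2, one_mul, sub_self]
        rcases mul_eq_zero.mp h3 with h4 | h4
        · omega
        · omega
      exact hne (by exact_mod_cast this)
  · -- generic point: `e = 1`
    have ho : holOrdZ (jHol - algebraMap ℂ Hol (jFun τ)) τ = 1 := by
      have := holOrder_jHol_sub_generic τ h0 h1
      unfold holOrdZ
      rw [this]
      rfl
    rw [ho] at hj
    have he' : (0 : ℤ) < e := by exact_mod_cast he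
    have hpos : 0 < (cdc_vPt D τ).ord (jF - algebraMap ℂ F (jFun τ)) := by
      have := cdc_vPt_mem_placesOver D τ
      rwa [mem_placesOver] at this
    have he1 : (e : ℤ) = 1 := by
      have : (e : ℤ) ≤ (e : ℤ) * (cdc_vPt D τ).ord (jF - algebraMap ℂ F (jFun τ)) := by nlinarith
      omega
    rw [he1, one_mul] at hf1
    rw [← hf1]
    exact dvd_mul_right _ _

variable (hcoord : IsCoordinate ℂ F jF)
  (hcov : ∀ (c : ℂ) (τ₀ : ℍ), jFun τ₀ = c → ∀ v : Place ℂ F, v ∈ placesOver ℂ F jF c →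
    ∃ g : SL(2, ℤ), v = cdc_vPt D (g • τ₀))

include hcoord hcov

/-- **finite places, every `p > 0`.** -/
theorem ellf39_dvd_ord_fin {p : ℕ} (hp : 0 < p) (f : F) (h : Mer)
    (hpow : h ^ p = D.φ f)
    (hell : ∀ γ : SL(2, ℤ), γ ∈ Gamma0 M → IsOfFinOrder γ → γ • h = h)
    (v : Place ℂ F) (hv : 0 ≤ v.ord jF) : (p : ℤ) ∣ v.ord f := by
  have hval : v.adicValuation jF ≤ 1 := by
    rw [v.adicValuation_le_one_iff]
    exact Or.inr hv
  obtain ⟨c, hc⟩ := pls_eval (pls_isSepCoordinate_of_charZero hcoord) v jF hval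
  have hne : jF - algebraMap ℂ F c ≠ 0 := cdc_j_sub_const_ne_zero D c
  have hover : v ∈ placesOver ℂ F jF c := by
    rw [mem_placesOver]
    rcases (rmn_val_lt_one_iff v).mp hc with h0 | h1
    · exact absurd h0 hne
    · exact lt_of_lt_of_le zero_lt_one h1
  by_cases h1 : c = 1728
  · subst h1
    obtain ⟨g, rfl⟩ := hcov 1728 UpperHalfPlane.I jFun_I v hover
    refine ellf39_dvd_ord_vPt D hsub hp _ f h hpow hell (fun _ => ⟨g, rfl⟩) ?_
    intro h0
    rw [jFun_smul, jFun_I] at h0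
    norm_num at h0
  by_cases h0 : c = 0
  · subst h0
    obtain ⟨g, rfl⟩ := hcov 0 rho jFun_rho v hover
    refine ellf39_dvd_ord_vPt D hsub hp _ f h hpow hell ?_ (fun _ => ⟨g, rfl⟩)
    intro h1'
    rw [jFun_smul, jFun_rho] at h1'
    norm_num at h1'
  · obtain ⟨τ₀, hτ₀⟩ := jFun_surjective c
    obtain ⟨g, rfl⟩ := hcov c τ₀ hτ₀ v hover
    refine ellf39_dvd_ord_vPt D hsub hp _ f h hpow hell ?_ ?_
    · intro h1'
      rw [jFun_smul, hτ₀] at h1'
      exact absurd h1' h1
    · intro h0'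
      rw [jFun_smul, hτ₀] at h0'
      exact absurd h0' h0

/-- **all places, every `p > 0`**, given that `f` is a unit at the poles of `jF` (B3.3). -/
theorem ellf39_dvd_ord_all {p : ℕ} (hp : 0 < p) (f : F) (h : Mer)
    (hpow : h ^ p = D.φ f)
    (hell : ∀ γ : SL(2, ℤ), γ ∈ Gamma0 M → IsOfFinOrder γ → γ • h = h)
    (hpole : ∀ v ∈ polePlaces ℂ F jF, v.ord f = 0) (v : Place ℂ F) :
    (p : ℤ) ∣ v.ord f := by
  by_cases hv : v ∈ polePlaces ℂ F jF
  · rw [hpole v hv]
    exact dvd_zero _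
  · rw [mem_polePlaces, not_lt] at hv
    exact ellf39_dvd_ord_fin D hsub hcoord hcov hp f h hpow hell v hv

end Point

end

end Fermat.Agent.S42x
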