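/-
S42x/EllAdapt39 (helper39, prefix `ella39_`): ADAPTERS for `S42x/EllFinite39` (B3.4 FINAL for
every `p > 0`, needed by S29 with `p = 2, 3`).

* `ella39_chi_finOrder`, `ella39_psiAdd_finOrder` : a ℤ-valued homomorphism `χ` kills the elements
  of finite order, hence so does `ψ_χ = twp_psiAdd p χ`;
* `ella39_hell_of_char` : a function `h` with character `ψ` (the last clause of `heq_Rel`) is
  invariant under the finite-order elements of `Γ₀(M)` if `ψ` kills them  (= hypothesis `hell`);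
* `ella39_hsub` : for a realisation bundle `D` of `FC = modularFunctionFieldFullC ℂ M` sending the
  generators `j(q^d)` to `j(dz)`, `evF M` lands in the image of `D.φ`  (= hypothesis `hsub`);
* `ella39_dvd_all` : the resulting divisibility `p ∣ ord_v f` at ALL places of `FC`, for the
  concrete bundle `cde29_real M`.
-/
import Fermat.Agent.S42x.EllFinite39
import Fermat.Agent.S42x.CDictCompat4
import Fermat.Agent.S42x.CDictCovFin
import Fermat.Agent.S42x.CDictEv29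
import Fermat.Agent.S42x.TwEisPsi

set_option autoImplicit false

namespace Fermat.Agent.S42x

open UpperHalfPlane AlgebraicCurve CongruenceSubgroup ModularGroup ModularCurve
open Fermat.Agent.S24x Fermat.Agent.S18x
open scoped MatrixGroups

noncomputable section

section Char

variable {Γ : Subgroup SL(2, ℤ)}

/-- a ℤ-valued homomorphism kills the elements of finite order. -/
theorem ella39_chi_finOrder (χ : Additive Γ →+ ℤ) (g : Γ) (hg : IsOfFinOrder g) :
    χ (Additive.ofMul g) = 0 := by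
  obtain ⟨n, hn, hgn⟩ := isOfFinOrder_iff_pow_eq_one.mp hg
  have h1 : χ (Additive.ofMul (g ^ n)) = n • χ (Additive.ofMul g) := by
    rw [ofMul_pow, map_nsmul]
  rw [hgn, ofMul_one, map_zero] at h1
  have h2 : (n : ℤ) * χ (Additive.ofMul g) = 0 := by
    rw [← nsmul_eq_mul]; exact h1.symm
  rcases mul_eq_zero.mp h2 with h | h
  · omega
  · exact h

/-- `ψ_χ` kills the elements of finite order. -/
theorem ella39_psiAdd_finOrder (p : ℕ) (χ : Additive Γ →+ ℤ) (g : Γ) (hg : IsOfFinOrder g) :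
    twp_psiAdd p χ (Additive.ofMul g) = 0 := by
  show Additive.ofMul (twp_psi p χ g) = 0
  rw [twp_psi_apply, ella39_chi_finOrder χ g hg]
  show Additive.ofMul (twp_zeta p ^ (0 : ℤ)) = 0
  rw [zpow_zero]
  rfl

end Char

section Hell

variable {M : ℕ}

/-- **hypothesis `hell` from a character** killing the finite-order elements. -/
theorem ella39_hell_of_char (ψ : Additive (Gamma0 M) →+ Additive ℂˣ) (h : Mer)
    (hchar : ∀ γ : Gamma0 M, ((γ : SL(2, ℤ))⁻¹ • h : Mer) =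
      algebraMap ℂ Mer (((ψ (Additive.ofMul γ)).toMul : ℂˣ) : ℂ) * h)
    (hψ : ∀ γ : Gamma0 M, IsOfFinOrder γ → ψ (Additive.ofMul γ) = 0) :
    ∀ γ : SL(2, ℤ), γ ∈ Gamma0 M → IsOfFinOrder γ → γ • h = h := by
  intro γ hγ hfin
  have hfin' : IsOfFinOrder (⟨γ, hγ⟩⁻¹ : Gamma0 M) := by
    rw [isOfFinOrder_inv_iff]
    obtain ⟨n, hn, hgn⟩ := isOfFinOrder_iff_pow_eq_one.mp hfin
    exact isOfFinOrder_iff_pow_eq_one.mpr ⟨n, hn, Subtype.ext (by simpa using hgn)⟩
  have h1 := hchar (⟨γ, hγ⟩⁻¹ : Gamma0 M)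
  rw [hψ _ hfin'] at h1
  simpa using h1

/-- `hell` for `ψ = ψ_χ`. -/
theorem ella39_hell_of_psiAdd (p : ℕ) (χ : Additive (Gamma0 M) →+ ℤ) (h : Mer)
    (hchar : ∀ γ : Gamma0 M, ((γ : SL(2, ℤ))⁻¹ • h : Mer) =
      algebraMap ℂ Mer (((twp_psiAdd p χ (Additive.ofMul γ)).toMul : ℂˣ) : ℂ) * h) :
    ∀ γ : SL(2, ℤ), γ ∈ Gamma0 M → IsOfFinOrder γ → γ • h = h :=
  ella39_hell_of_char _ h hchar (fun γ hγ => ella39_psiAdd_finOrder p χ γ hγ)

end Hell

section FC

variable (M : ℕ) [NeZero M]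

/-- **hypothesis `hsub`** for a bundle on `FC` sending `j(q^d)` to `j(dz)`. -/
theorem ella39_hsub (D : cdc_Real ↥(modularFunctionFieldFullC ℂ M) M (pls_jb ℂ M))
    (hgen : ∀ (d : ℕ) [NeZero d] (hd : d ∣ M),
      D.φ (pls_jdb ℂ M d hd) = algebraMap Hol Mer (jdHol d)) :
    ∀ x₀ : FBar M, ∃ y : ↥(modularFunctionFieldFullC ℂ M), D.φ y = evF M x₀ :=
  fun x₀ => ⟨cdk4_iF M x₀, cdk4_phi_iF M D hgen x₀⟩

theorem ella39_hgen (d : ℕ) [NeZero d] (hd : d ∣ M) :
    (cde29_real M).φ (pls_jdb ℂ M d hd) = algebraMap Hol Mer (jdHol d) :=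
  cde29_real_jd M hd _ (pls_coe_jdb ℂ M d hd)

/-- **B3.4 FINAL for every `p > 0`** on `FC` with the bundle `cde29_real M`. -/
theorem ella39_dvd_all {p : ℕ} (hp : 0 < p) (f : ↥(modularFunctionFieldFullC ℂ M)) (h : Mer)
    (hpow : h ^ p = (cde29_real M).φ f)
    (hell : ∀ γ : SL(2, ℤ), γ ∈ Gamma0 M → IsOfFinOrder γ → γ • h = h)
    (hpole : ∀ v ∈ polePlaces ℂ ↥(modularFunctionFieldFullC ℂ M) (pls_jb ℂ M), v.ord f = 0)
    (v : Place ℂ ↥(modularFunctionFieldFullC ℂ M)) : (p : ℤ) ∣ v.ord f :=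
  ellf39_dvd_ord_all (cde29_real M)
    (ella39_hsub M (cde29_real M) (fun d _ hd => ella39_hgen M d hd))
    (pls_isCoordinate_jb ℂ M)
    (fun c τ₀ hτ₀ v hv => cdf_covering_finite (cde29_real M) (pls_isCoordinate_jb ℂ M) c τ₀ hτ₀ v hv)
    hp f h hpow hell hpole v

end FC

end

end Fermat.Agent.S42x
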