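/-
S42x/EllExact (helper2, prefix `elx_`): EXACT ramification at the elliptic fibres `j = 0, 1728`,
and the point half of "R5c" for an ARBITRARY exponent `p` (needed for S29 at `p = 2, 3`).

Setting (as in S24x `FibreCounts`): a family of places `pt g`, `g ∈ SL(2,ℤ)` (the point places
along the orbit of `τ₀`, `τ₀` fixed by `s`), analytic order functions `oF g = e_g · ord_{pt g}`,
`oF g (t - c) = E` (`E` prime).  The S24x squeeze gives not only the NUMBER of places over `c`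
but the exact value `ord_{pt g} (t - c) = #(⟨s⟩-orbit of g⁻¹Γ₀(N))`; hence `e_g = 1` as soon as
`g s g⁻¹ ∉ Γ₀(N)`.  (This is a GLOBAL fact: locally one only sees `e_g ∣ E`.)

Consumer: if `f = h ^ p` analytically with `h` invariant under the elliptic elements of `Γ₀(N)`,
then `p ∣ ord_v f` at every place `v` where `j` is finite.
-/
import Fermat.Agent.S24x.CountsOfInputs

set_option autoImplicit false

namespace Fermat.Agent.S42x

open Fermat.Agent.S24x AlgebraicCurve CongruenceSubgroup ModularGroup Matrix.SpecialLinearGroup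
open scoped MatrixGroups

section Abstract

variable {K F : Type*} [Field K] [Field F] [Algebra K F]
variable {G X : Type*} [Group G] [MulAction G X] [Finite X]

/-- **Abstract exactness**: under the hypotheses of `cc_ncard_placesOver` (squeeze), the order of
`t - c` at the place attached to `x` EQUALS the size of the orbit of `x`. -/
theorem elx_cc_ord_eq (t : F) (c : K)
    (hfin : (placesOver K F t c).Finite)
    (hsum : ∑ v ∈ hfin.toFinset, v.ord (t - algebraMap K F c) = (cdeg K F t : ℤ))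
    (vP : X → Place K F)
    (hinv : ∀ (g : G) (x : X), vP (g • x) = vP x)
    (hcov : ∀ v ∈ placesOver K F t c, ∃ x, vP x = v)
    (hmem : ∀ x, vP x ∈ placesOver K F t c)
    (hbound : ∀ x, (vP x).ord (t - algebraMap K F c) ≤ (Nat.card (MulAction.orbit G x) : ℤ))
    (hdeg : Nat.card X ≤ cdeg K F t) (x : X) :
    (vP x).ord (t - algebraMap K F c) = (Nat.card (MulAction.orbit G x) : ℤ) := by
  classical
  haveI : Fintype (MulAction.orbitRel.Quotient G X) := Fintype.ofFinite _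
  obtain ⟨-, h2, -, -⟩ := squeeze_placesOver (ι := MulAction.orbitRel.Quotient G X) t c hfin hsum
    (fun ω => vP ω.out) (fun ω => Nat.card (MulAction.orbit G ω.out))
    (fun v hv => by
      obtain ⟨x, hx⟩ := hcov v hv
      exact ⟨Quotient.mk'' x, by rw [cc_const_on_orbit vP hinv _ x rfl, hx]⟩)
    (fun ω => ⟨hmem _, hbound _⟩)
    (by rw [cc_sum_card_orbits G X]; exact hdeg)
  have h := h2 (Quotient.mk'' x)
  rw [cc_const_on_orbit vP hinv _ x rfl] at h
  rw [h]
  -- the orbit of the chosen representative is the orbit of `x`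
  have hout : (Quotient.mk'' x : MulAction.orbitRel.Quotient G X).out ∈ MulAction.orbit G x := by
    have h1 : (Quotient.mk'' (Quotient.mk'' x : MulAction.orbitRel.Quotient G X).out :
        MulAction.orbitRel.Quotient G X) = Quotient.mk'' x := Quotient.out_eq' _
    exact Quotient.exact' h1
  rw [MulAction.orbit_eq_iff.mpr hout]

end Abstract

section Family

variable {K F : Type*} [Field K] [Field F] [Algebra K F]
variable (N : ℕ) [NeZero N]

/-- **Exactness for a family indexed by `SL(2,ℤ)`** (hypotheses of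
`fc_ncard_placesOver_of_family`): `ord_{pt g} (t - c)` is the size of the `⟨s⟩`-orbit of
`g⁻¹ Γ₀(N)`. -/
theorem elx_ord_eq_card_orbit (t : F) (c : K) (s : SL(2, ℤ))
    (hsum : ∃ hfin : (placesOver K F t c).Finite,
      ∑ v ∈ hfin.toFinset, v.ord (t - algebraMap K F c) = (cdeg K F t : ℤ))
    (pt : SL(2, ℤ) → Place K F)
    (hleft : ∀ γ : SL(2, ℤ), γ ∈ Gamma0 N → ∀ g, pt (γ * g) = pt g)
    (hs : ∀ g, pt (g * s) = pt g)
    (hord : ∀ (g : SL(2, ℤ)) (w : ℕ), 0 < w → g * s ^ w * g⁻¹ ∈ Gamma0 N →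
      (pt g).ord (t - algebraMap K F c) ≤ w)
    (hmem : ∀ g, pt g ∈ placesOver K F t c)
    (hcov : ∀ v ∈ placesOver K F t c, ∃ g, v = pt g)
    (hdeg : Nat.card (Q N) ≤ cdeg K F t) (g : SL(2, ℤ)) :
    (pt g).ord (t - algebraMap K F c) =
      (Nat.card (MulAction.orbit (Subgroup.zpowers s) (((g⁻¹ : SL(2, ℤ)) : SL(2, ℤ)) : Q N)) : ℤ) := by
  classical
  obtain ⟨hfin, hsum⟩ := hsum
  haveI : Finite (Q N) := by
    have : (Gamma0 N).FiniteIndex := inferInstance
    exact Subgroup.finite_quotient_of_finiteIndex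
  have hsz : ∀ (k : ℤ) (g : SL(2, ℤ)), pt (g * s ^ k) = pt g := fc_zpow_invariant pt s hs
  let vP : Q N → Place K F := fun q => Quotient.liftOn' q (fun g => pt g⁻¹) (by
    intro a b hab
    have hab' : a⁻¹ * b ∈ Gamma0 N := QuotientGroup.leftRel_apply.mp hab
    have e : b⁻¹ = (a⁻¹ * b)⁻¹ * a⁻¹ := by group
    show pt a⁻¹ = pt b⁻¹
    rw [e, hleft _ ((Gamma0 N).inv_mem hab')])
  have hvP : ∀ g : SL(2, ℤ), vP ((g : SL(2, ℤ)) : Q N) = pt g⁻¹ := fun g => rfl
  have key := elx_cc_ord_eq (G := Subgroup.zpowers s) (X := Q N) t c hfin hsum vP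
    ?_ ?_ ?_ ?_ hdeg (((g⁻¹ : SL(2, ℤ)) : SL(2, ℤ)) : Q N)
  · rw [hvP, inv_inv] at key
    exact key
  · rintro ⟨z, hz⟩ q
    obtain ⟨k, rfl⟩ := Subgroup.mem_zpowers_iff.mp hz
    induction q using QuotientGroup.induction_on with
    | H g =>
      show vP ((s ^ k : SL(2, ℤ)) • ((g : SL(2, ℤ)) : Q N)) = _
      rw [smul_coset, hvP, hvP, mul_inv_rev, ← zpow_neg, hsz]
  · intro v hv
    obtain ⟨g, rfl⟩ := hcov v hv
    exact ⟨((g⁻¹ : SL(2, ℤ)) : Q N), by rw [hvP, inv_inv]⟩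
  · intro q
    induction q using QuotientGroup.induction_on with
    | H g => rw [hvP]; exact hmem _
  · intro q
    induction q using QuotientGroup.induction_on with
    | H g =>
      rw [hvP]
      set w := Nat.card (MulAction.orbit (Subgroup.zpowers s) ((g : SL(2, ℤ)) : Q N))
        with hw
      have hwpos : 0 < w := by
        haveI : Finite (MulAction.orbit (Subgroup.zpowers s)
            ((g : SL(2, ℤ)) : Q N)) := Set.toFinite _ |>.to_subtype
        haveI : Nonempty (MulAction.orbit (Subgroup.zpowers s)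
            ((g : SL(2, ℤ)) : Q N)) := ⟨⟨_, MulAction.mem_orbit_self _⟩⟩
        exact Nat.card_pos
      have hfix0 := cc_pow_card_orbit_smul s (((g : SL(2, ℤ)) : Q N))
      have hfix : (s ^ w : SL(2, ℤ)) • (((g : SL(2, ℤ)) : Q N)) = ((g : SL(2, ℤ)) : Q N) := hfix0
      rw [smul_coset] at hfix
      have hmemΓ : (s ^ w * g)⁻¹ * g ∈ Gamma0 N := QuotientGroup.eq.mp hfix
      have hmemΓ' : g⁻¹ * s ^ w * (g⁻¹)⁻¹ ∈ Gamma0 N := by
        have := (Gamma0 N).inv_mem hmemΓ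
        have e : ((s ^ w * g)⁻¹ * g)⁻¹ = g⁻¹ * s ^ w * (g⁻¹)⁻¹ := by group
        rwa [e] at this
      exact_mod_cast hord g⁻¹ w hwpos hmemΓ'

/-- the orbit size `w` of `g⁻¹ Γ₀(N)` under `⟨s⟩` satisfies `g s^w g⁻¹ ∈ Γ₀(N)`. -/
theorem elx_conj_pow_card_orbit_mem (s g : SL(2, ℤ)) :
    g * s ^ Nat.card (MulAction.orbit (Subgroup.zpowers s)
      (((g⁻¹ : SL(2, ℤ)) : SL(2, ℤ)) : Q N)) * g⁻¹ ∈ Gamma0 N := by
  set w := Nat.card (MulAction.orbit (Subgroup.zpowers s)
    (((g⁻¹ : SL(2, ℤ)) : SL(2, ℤ)) : Q N)) with hw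
  have hfix0 := cc_pow_card_orbit_smul s ((((g⁻¹ : SL(2, ℤ)) : SL(2, ℤ)) : Q N))
  have hfix : (s ^ w : SL(2, ℤ)) • ((((g⁻¹ : SL(2, ℤ)) : SL(2, ℤ)) : Q N)) =
      (((g⁻¹ : SL(2, ℤ)) : SL(2, ℤ)) : Q N) := hfix0
  rw [smul_coset] at hfix
  have hmemΓ : (s ^ w * g⁻¹)⁻¹ * g⁻¹ ∈ Gamma0 N := QuotientGroup.eq.mp hfix
  have := (Gamma0 N).inv_mem hmemΓ
  have e : ((s ^ w * g⁻¹)⁻¹ * g⁻¹)⁻¹ = g * s ^ w * g⁻¹ := by group
  rwa [e] at this

/-- **Point half of R5c at a ramified fibre, arbitrary exponent `p`.**  Setting of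
`fc_ord_le_of_ram` (`oF g = e_g · ord_{pt g}`, `oF g (t - c) = E` prime, `E ∣ oF g` where
`g s g⁻¹ ∈ Γ₀(N)`, `g s^E g⁻¹ ∈ Γ₀(N)`) plus the squeeze inputs.  If `oF g f = p · m g` (`f` is
analytically a `p`-th power of a function of order `m g`) and `E ∣ m g` wherever
`g s g⁻¹ ∈ Γ₀(N)` (the root is invariant under the elliptic elements of `Γ₀(N)`), then
`p ∣ ord_{pt g} f` for every `g`. -/
theorem elx_dvd_ord_of_family (E : ℕ) (hE : E.Prime) (t : F) (c : K) (s : SL(2, ℤ))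
    (hsum : ∃ hfin : (placesOver K F t c).Finite,
      ∑ v ∈ hfin.toFinset, v.ord (t - algebraMap K F c) = (cdeg K F t : ℤ))
    (pt : SL(2, ℤ) → Place K F)
    (hleft : ∀ γ : SL(2, ℤ), γ ∈ Gamma0 N → ∀ g, pt (γ * g) = pt g)
    (hs : ∀ g, pt (g * s) = pt g)
    (hmem : ∀ g, pt g ∈ placesOver K F t c)
    (hcov : ∀ v ∈ placesOver K F t c, ∃ g, v = pt g)
    (hdeg : Nat.card (Q N) ≤ cdeg K F t)
    (oF : SL(2, ℤ) → F → ℤ)
    (hmul : ∀ g, ∃ e : ℕ, 0 < e ∧ ∀ f : F, oF g f = e * (pt g).ord f)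
    (hD : ∀ g, oF g (t - algebraMap K F c) = E)
    (hdiv : ∀ g, g * s * g⁻¹ ∈ Gamma0 N → ∀ f : F, (E : ℤ) ∣ oF g f)
    (hsp : ∀ g, g * s ^ E * g⁻¹ ∈ Gamma0 N)
    (p : ℕ) (f : F) (m : SL(2, ℤ) → ℤ) (hm : ∀ g, oF g f = p * m g)
    (hmdiv : ∀ g, g * s * g⁻¹ ∈ Gamma0 N → (E : ℤ) ∣ m g) (g : SL(2, ℤ)) :
    (p : ℤ) ∣ (pt g).ord f := by
  obtain ⟨e, he, hef⟩ := hmul g
  have he0 : (e : ℤ) ≠ 0 := by exact_mod_cast he.ne'
  have hexact := elx_ord_eq_card_orbit N t c s hsum pt hleft hs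
    (fc_ord_le_of_ram N E hE _ s pt oF hmul hD hdiv hsp) hmem hcov hdeg g
  have h1 : (e : ℤ) * (pt g).ord (t - algebraMap K F c) = E := by rw [← hef, hD]
  have h2 : (e : ℤ) * (pt g).ord f = p * m g := by rw [← hef, hm]
  by_cases hmemΓ : g * s * g⁻¹ ∈ Gamma0 N
  · have hdvd : (e : ℤ) ∣ (E : ℤ) := ⟨_, h1.symm⟩
    obtain ⟨m', hm'⟩ := hdvd.trans (hmdiv g hmemΓ)
    refine ⟨m', ?_⟩
    apply mul_left_cancel₀ he0
    rw [h2, hm']
    ring
  · set w := Nat.card (MulAction.orbit (Subgroup.zpowers s)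
      (((g⁻¹ : SL(2, ℤ)) : SL(2, ℤ)) : Q N)) with hw
    rw [hexact] at h1
    have h1' : e * w = E := by exact_mod_cast h1
    have hwdvd : w ∣ E := ⟨e, by rw [← h1', mul_comm]⟩
    rcases (Nat.dvd_prime hE).mp hwdvd with hw1 | hwE
    · exfalso
      apply hmemΓ
      have := elx_conj_pow_card_orbit_mem N s g
      rw [← hw, hw1, pow_one] at this
      exact this
    · have he1 : e = 1 := by
        rw [hwE] at h1'
        have hEpos : 0 < E := hE.pos
        exact Nat.eq_of_mul_eq_mul_right hEpos (by rw [h1', one_mul])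
      rw [he1] at h2
      exact ⟨m g, by simpa using h2⟩

/-- **Point half of R5c at an unramified fibre** (`oF g (t - c) = 1`): trivial. -/
theorem elx_dvd_ord_of_unram (t : F) (c : K)
    (pt : SL(2, ℤ) → Place K F) (oF : SL(2, ℤ) → F → ℤ)
    (hmul : ∀ g, ∃ e : ℕ, 0 < e ∧ ∀ f : F, oF g f = e * (pt g).ord f)
    (hD : ∀ g, oF g (t - algebraMap K F c) = 1)
    (p : ℕ) (f : F) (m : SL(2, ℤ) → ℤ) (hm : ∀ g, oF g f = p * m g) (g : SL(2, ℤ)) :
    (p : ℤ) ∣ (pt g).ord f := by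
  obtain ⟨e, he, hef⟩ := hmul g
  have h1 : (e : ℤ) * (pt g).ord (t - algebraMap K F c) = 1 := by rw [← hef, hD]
  have he1 : (e : ℤ) = 1 := by
    have he0 : (0 : ℤ) < e := by exact_mod_cast he
    rcases Int.eq_one_or_neg_one_of_mul_eq_one h1 with h | h
    · exact h
    · omega
  have h2 : (e : ℤ) * (pt g).ord f = p * m g := by rw [← hef, hm]
  rw [he1, one_mul] at h2
  exact ⟨m g, h2⟩

end Family

/-! ### the analytic side: `ordAt` of a power -/

theorem elx_ordAt_one (τ : UpperHalfPlane) : ordAt τ (1 : Mer) = 0 := by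
  have h := ordAt_const τ 1
  rwa [map_one] at h

theorem elx_ordAt_pow (τ : UpperHalfPlane) (h : Mer) (p : ℕ) :
    ordAt τ (h ^ p) = (p : ℤ) * ordAt τ h := by
  by_cases hh : h = 0
  · rcases Nat.eq_zero_or_pos p with rfl | hp
    · simp [elx_ordAt_one]
    · rw [hh, zero_pow hp.ne', ordAt_zero, mul_zero]
  · induction p with
    | zero => simp [elx_ordAt_one]
    | succ n ih =>
      rw [pow_succ, ordAt_mul τ (pow_ne_zero n hh) hh, ih]
      push_cast
      ring

/-! ### the `Q̄` instance (through the S24x bundle `CInputs N`) -/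

section CInputs

open UpperHalfPlane

variable {N : ℕ} [NeZero N] (A : CInputs N)

/-- **Point half of R5c over `Q̄`, ARBITRARY exponent `p`** (bundle form).  If `f ∈ F_N` is
analytically the `p`-th power of `h ∈ Mer` and `h` is invariant under every element of `Γ₀(N)`
having a fixed point in `ℍ` (e.g. `h` has a character killing the elliptic elements), then
`p ∣ ord_v f` at every place `v` of `F_N` at which `j` is finite. -/
theorem elx_dvd_ord_of_cinputs_core (p : ℕ) (f : FBar N) (h : Mer) (hpow : h ^ p = A.evF f)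
    (hinvS : ∀ g : SL(2, ℤ), g * S * g⁻¹ ∈ Gamma0 N → (g * S * g⁻¹) • h = h)
    (hinvST : ∀ g : SL(2, ℤ), g * (S * T) * g⁻¹ ∈ Gamma0 N → (g * (S * T) * g⁻¹) • h = h)
    (c : Qbar) (v : Place Qbar (FBar N)) (hv : v ∈ placesOver Qbar (FBar N) (jBar N) c) :
    (p : ℤ) ∣ v.ord f := by
  -- the root data along an orbit
  have hm : ∀ (τ₀ : ℍ) (g : SL(2, ℤ)), A.oF τ₀ g f = (p : ℤ) * ordAt (g • τ₀) h := by
    intro τ₀ g
    unfold CInputs.oF
    rw [← hpow, elx_ordAt_pow]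
  by_cases h1728 : c = 1728
  · subst h1728
    have hτ₀ : jFun UpperHalfPlane.I = iotaQ 1728 := by rw [A.jFun_I, map_ofNat]
    have hn : holOrder (cfJ (iotaQ 1728)) UpperHalfPlane.I = (2 : ℕ) := by
      have := A.holOrder_jHol_sub_I
      have e : iotaQ (1728 : Qbar) = 1728 := map_ofNat iotaQ 1728
      rw [e]
      exact this
    obtain ⟨g, rfl⟩ := A.hcov hτ₀ v hv
    exact elx_dvd_ord_of_family N 2 Nat.prime_two (jBar N) (1728 : Qbar) S
      (A.sum_ord_placesOver 1728) (A.pt UpperHalfPlane.I)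
      (A.hleft UpperHalfPlane.I) (A.hs UpperHalfPlane.I S S_smul_I)
      (A.hmem hτ₀) (A.hcov hτ₀) A.hdeg (A.oF UpperHalfPlane.I) (A.hmul hτ₀)
      (fun g => by simpa using A.hD UpperHalfPlane.I 1728 2 hn g)
      (fun g hg f => by
        have := two_dvd_ordAt_of_invariant g (A.evF f) (A.evF_smul_of_mem_Gamma0 _ hg f)
        exact_mod_cast this)
      (fun g => by rw [os_S_sq]; exact cf_conj_neg_one_mem N g)
      p f (fun g => ordAt (g • UpperHalfPlane.I) h) (hm UpperHalfPlane.I)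
      (fun g hg => by
        have := two_dvd_ordAt_of_invariant g h (hinvS g hg)
        exact_mod_cast this) g
  by_cases h0 : c = 0
  · subst h0
    have hτ₀ : jFun rho = iotaQ 0 := by rw [A.jFun_rho, map_zero]
    have hn : holOrder (cfJ (iotaQ 0)) rho = (3 : ℕ) := by
      have := A.holOrder_jHol_rho
      have e : cfJ (iotaQ (0 : Qbar)) = jHol := by unfold cfJ; rw [map_zero, map_zero, sub_zero]
      rw [e]
      exact this
    obtain ⟨g, rfl⟩ := A.hcov hτ₀ v hv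
    exact elx_dvd_ord_of_family N 3 Nat.prime_three (jBar N) (0 : Qbar) (S * T)
      (A.sum_ord_placesOver 0) (A.pt rho)
      (A.hleft rho) (A.hs rho (S * T) ST_smul_rho)
      (A.hmem hτ₀) (A.hcov hτ₀) A.hdeg (A.oF rho) (A.hmul hτ₀)
      (fun g => by simpa using A.hD rho 0 3 hn g)
      (fun g hg f => by
        have := three_dvd_ordAt_of_invariant g (A.evF f) (A.evF_smul_of_mem_Gamma0 _ hg f)
        exact_mod_cast this)
      (fun g => by rw [os_ST_cube]; exact cf_conj_neg_one_mem N g)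
      p f (fun g => ordAt (g • rho) h) (hm rho)
      (fun g hg => by
        have := three_dvd_ordAt_of_invariant g h (hinvST g hg)
        exact_mod_cast this) g
  · obtain ⟨τ₀, hτ₀⟩ := jFun_surjective (iotaQ c)
    have hc0 : jFun τ₀ ≠ 0 := by
      rw [hτ₀]; intro h; exact h0 (iotaQ_injective (by rw [h, map_zero]))
    have hc1 : jFun τ₀ ≠ 1728 := by
      rw [hτ₀]; intro h; exact h1728 (iotaQ_injective (by rw [h, map_ofNat]))
    have hn : holOrder (cfJ (iotaQ c)) τ₀ = (1 : ℕ) := by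
      have := A.holOrder_jHol_sub_generic τ₀ hc0 hc1
      rw [hτ₀] at this
      exact this
    obtain ⟨g, rfl⟩ := A.hcov hτ₀ v hv
    exact elx_dvd_ord_of_unram (jBar N) c (A.pt τ₀) (A.oF τ₀) (A.hmul hτ₀)
      (fun g => by simpa using A.hD τ₀ c 1 hn g)
      p f (fun g => ordAt (g • τ₀) h) (hm τ₀) g

/-- fixed-point form of the invariance hypothesis. -/
theorem elx_dvd_ord_of_cinputs (p : ℕ) (f : FBar N) (h : Mer) (hpow : h ^ p = A.evF f)
    (hinv : ∀ γ : SL(2, ℤ), γ ∈ Gamma0 N → ∀ τ : ℍ, γ • τ = τ → γ • h = h)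
    (c : Qbar) (v : Place Qbar (FBar N)) (hv : v ∈ placesOver Qbar (FBar N) (jBar N) c) :
    (p : ℤ) ∣ v.ord f :=
  elx_dvd_ord_of_cinputs_core A p f h hpow
    (fun g hg => hinv _ hg (g • UpperHalfPlane.I) (es_conj_smul g S _ S_smul_I))
    (fun g hg => hinv _ hg (g • rho) (es_conj_smul g (S * T) _ ST_smul_rho)) c v hv

theorem elx_conj_pow (g s : SL(2, ℤ)) (k : ℕ) : (g * s * g⁻¹) ^ k = g * s ^ k * g⁻¹ := by
  induction k with
  | zero => simp
  | succ k ih => rw [pow_succ, ih, pow_succ]; group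

theorem elx_conj_S_pow_twelve (g : SL(2, ℤ)) : (g * S * g⁻¹) ^ 12 = 1 := by
  rw [elx_conj_pow, show (12 : ℕ) = 2 * 6 from rfl, pow_mul, os_S_sq]
  have : ((-1 : SL(2, ℤ)) ^ 6) = 1 := by
    rw [show (6 : ℕ) = 2 * 3 from rfl, pow_mul, neg_one_sq, one_pow]
  rw [this, mul_one, mul_inv_cancel]

theorem elx_conj_ST_pow_twelve (g : SL(2, ℤ)) : (g * (S * T) * g⁻¹) ^ 12 = 1 := by
  rw [elx_conj_pow, show (12 : ℕ) = 3 * 4 from rfl, pow_mul, os_ST_cube]
  have : ((-1 : SL(2, ℤ)) ^ 4) = 1 := by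
    rw [show (4 : ℕ) = 2 * 2 from rfl, pow_mul, neg_one_sq, one_pow]
  rw [this, mul_one, mul_inv_cancel]

/-- torsion form of the invariance hypothesis: `h` is invariant under every element of `Γ₀(N)`
of order dividing `12` (automatic when `h` has a character of the form `e ∘ χ`, `χ` a
homomorphism to a torsion-free group). -/
theorem elx_dvd_ord_of_cinputs_torsion (p : ℕ) (f : FBar N) (h : Mer) (hpow : h ^ p = A.evF f)
    (hinv : ∀ γ : SL(2, ℤ), γ ∈ Gamma0 N → γ ^ 12 = 1 → γ • h = h)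
    (c : Qbar) (v : Place Qbar (FBar N)) (hv : v ∈ placesOver Qbar (FBar N) (jBar N) c) :
    (p : ℤ) ∣ v.ord f :=
  elx_dvd_ord_of_cinputs_core A p f h hpow
    (fun g hg => hinv _ hg (elx_conj_S_pow_twelve g))
    (fun g hg => hinv _ hg (elx_conj_ST_pow_twelve g)) c v hv

end CInputs

end Fermat.Agent.S42x
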