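/-
S42x/EllExactQbar (helper2, prefix `elxq_`): the `Q̄` instance of `EllExact` for the actual S24x
objects `evF N`, `vPt N`, `FBar N` (through `Fermat.Agent.S24.cInputs N`).

`elxq_dvd_ord_of_placesOver`  : point half of R5c for an ARBITRARY exponent `p`
                                (fixed-point form of the invariance of the root),
`elxq_dvd_ord_of_torsion`     : same, torsion form (`γ ^ 12 = 1 → γ • h = h`),
`elxq_dvd_ord_of_finite`      : same, for every place at which `jBar` is integral.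
-/
import Fermat.Agent.S42x.EllExact
import Fermat.Agent.S24

set_option autoImplicit false

namespace Fermat.Agent.S42x

open Fermat.Agent.S24x AlgebraicCurve CongruenceSubgroup ModularGroup UpperHalfPlane
open scoped MatrixGroups

variable (N : ℕ) [NeZero N]

theorem elxq_dvd_ord_of_placesOver (p : ℕ) (f : FBar N) (h : Mer) (hpow : h ^ p = evF N f)
    (hinv : ∀ γ : SL(2, ℤ), γ ∈ Gamma0 N → ∀ τ : ℍ, γ • τ = τ → γ • h = h)
    (c : Qbar) (v : Place Qbar (FBar N)) (hv : v ∈ placesOver Qbar (FBar N) (jBar N) c) :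
    (p : ℤ) ∣ v.ord f :=
  elx_dvd_ord_of_cinputs (Fermat.Agent.S24.cInputs N) p f h hpow hinv c v hv

theorem elxq_dvd_ord_of_torsion (p : ℕ) (f : FBar N) (h : Mer) (hpow : h ^ p = evF N f)
    (hinv : ∀ γ : SL(2, ℤ), γ ∈ Gamma0 N → γ ^ 12 = 1 → γ • h = h)
    (c : Qbar) (v : Place Qbar (FBar N)) (hv : v ∈ placesOver Qbar (FBar N) (jBar N) c) :
    (p : ℤ) ∣ v.ord f :=
  elx_dvd_ord_of_cinputs_torsion (Fermat.Agent.S24.cInputs N) p f h hpow hinv c v hv

end Fermat.Agent.S42x
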