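/-
S42x/FinalDvdQbar (helper21): block B3/B7 leaf R5c ("last line of N5"), over `Qbar`.

If `f : FBar N` has a `p`-th root `h` in `Mer` (`p ≥ 5` prime) then `p ∣ P.ord f` at every POINT
place `P = vPt N τ` (the multiplier `ord_τ ∘ evF = g • ord_P` has `1 ≤ g ≤ 3`), and hence, by the
covering theorems of S24x over `Qbar`, at EVERY place of `FBar N` as soon as `p` divides the orders
at the cusp places `cg_vCusp N g` (`fdq_dvd_ord`; the cusp hypothesis is the business of
`S42x/CuspExact`).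
-/
import Fermat.Agent.S24x.CoveringFinal
import Fermat.Agent.S24x.JFiber
import Fermat.Agent.S18x.PlsTsFields
import Fermat.Agent.S18x.RmnBasic

set_option autoImplicit false

namespace Fermat.Agent.S42x

open UpperHalfPlane AlgebraicCurve CongruenceSubgroup Fermat.Agent.S24x Fermat.Agent.S18x
open scoped MatrixGroups

noncomputable section

variable (N : ℕ) [NeZero N]

/-- `ord_τ (j - j(τ)) ∈ {1, 2, 3}`. -/
theorem fdq_holOrdZ_le_three (τ : ℍ) :
    0 < holOrdZ (jHol - algebraMap ℂ Hol (jFun τ)) τ ∧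
      holOrdZ (jHol - algebraMap ℂ Hol (jFun τ)) τ ≤ 3 := by
  by_cases h0 : jFun τ = 0
  · have h := holOrder_jHol_of_jFun_eq_zero τ h0
    rw [h0, map_zero, sub_zero]
    unfold holOrdZ
    rw [h]
    norm_num
  by_cases h1 : jFun τ = 1728
  · have h := holOrder_jHol_sub_of_jFun_eq_1728 τ h1
    rw [h1]
    unfold holOrdZ
    rw [h]
    norm_num
  · have h := holOrder_jHol_sub_generic τ h0 h1
    unfold holOrdZ
    rw [h]
    norm_num

omit [NeZero N] in
/-- the multiplier of a point place is at most `3`. -/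
theorem fdq_pt_mult_le_three (τ : ℍ) {c : Qbar} (hτ : jFun τ = iotaQ c) :
    ∃ g : ℕ, 0 < g ∧ g ≤ 3 ∧ ∀ f : FBar N, ordAt τ (evF N f) = g * (vPt N τ).ord f := by
  obtain ⟨g, hg, hgo⟩ := exists_ordAt_eq_mul_vPt_ord N τ hτ
  refine ⟨g, hg, ?_, hgo⟩
  have h1 := hgo (jBar N - algebraMap Qbar (FBar N) c)
  rw [ordAt_evF_jBar_sub, ← hτ] at h1
  obtain ⟨h2, h3⟩ := fdq_holOrdZ_le_three τ
  have hpos : 0 < (vPt N τ).ord (jBar N - algebraMap Qbar (FBar N) c) := by
    have := vPt_mem_placesOver N τ hτ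
    rwa [mem_placesOver] at this
  have hg' : (0 : ℤ) < g := by exact_mod_cast hg
  have : (g : ℤ) ≤ 3 := by nlinarith
  exact_mod_cast this

theorem fdq_ordAt_pow (τ : ℍ) {x : Mer} (hx : x ≠ 0) (n : ℕ) :
    ordAt τ (x ^ n) = n * ordAt τ x := by
  induction n with
  | zero =>
    rw [pow_zero, Nat.cast_zero, zero_mul]
    have := ordAt_const τ (1 : ℂ)
    rwa [map_one] at this
  | succ n ih =>
    rw [pow_succ, ordAt_mul τ (pow_ne_zero n hx) hx, ih]
    push_cast; ring

omit [NeZero N] in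
/-- **point places**: a `p`-th root in `Mer` forces `p ∣ ord_P f`, `p ≥ 5` prime. -/
theorem fdq_dvd_ord_vPt {p : ℕ} (hp : p.Prime) (hp5 : 5 ≤ p) (τ : ℍ) {c : Qbar}
    (hτ : jFun τ = iotaQ c) (f : FBar N) (h : Mer) (hpow : h ^ p = evF N f) :
    (p : ℤ) ∣ (vPt N τ).ord f := by
  rcases eq_or_ne f 0 with rfl | hf
  · simp
  have hh : h ≠ 0 := by
    rintro rfl
    rw [zero_pow hp.ne_zero] at hpow
    exact hf ((map_eq_zero (evF N)).mp hpow.symm)
  obtain ⟨g, hg, hg3, hgo⟩ := fdq_pt_mult_le_three N τ hτ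
  have h1 := hgo f
  rw [← hpow, fdq_ordAt_pow τ hh] at h1
  have hcop : IsCoprime (p : ℤ) (g : ℤ) := by
    rw [Int.isCoprime_iff_gcd_eq_one, Int.gcd_natCast_natCast]
    exact (Nat.Prime.coprime_iff_not_dvd hp).mpr fun hdvd =>
      absurd (Nat.le_of_dvd hg hdvd) (by omega)
  exact hcop.dvd_of_dvd_mul_left ⟨ordAt τ h, h1.symm⟩

/-- **every place**: a `p`-th root in `Mer` plus divisibility at the cusp places forces
`p ∣ ord_P f` for every place `P` of `FBar N` (`p ≥ 5` prime). -/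
theorem fdq_dvd_ord {p : ℕ} (hp : p.Prime) (hp5 : 5 ≤ p) (f : FBar N) (h : Mer)
    (hpow : h ^ p = evF N f)
    (hcusp : ∀ g : SL(2, ℤ), (p : ℤ) ∣ (cg_vCusp N g).ord f) :
    ∀ P : Place Qbar (FBar N), (p : ℤ) ∣ P.ord f := by
  intro P
  by_cases hpole : P ∈ polePlaces Qbar (FBar N) (jBar N)
  · obtain ⟨g, rfl⟩ := covering_cusp N P hpole
    exact hcusp g
  · rw [mem_polePlaces, not_lt] at hpole
    have hval : P.adicValuation (jBar N) ≤ 1 := by
      rw [P.adicValuation_le_one_iff]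
      exact Or.inr hpole
    obtain ⟨c, hc⟩ := pls_eval_levelN N P (jBar N) hval
    have hne : jBar N - algebraMap Qbar (FBar N) c ≠ 0 := jBar_sub_const_ne_zero N c
    have hover : P ∈ placesOver Qbar (FBar N) (jBar N) c := by
      rw [mem_placesOver]
      have := (rmn_val_lt_one_iff P).mp hc
      rcases this with h0 | h1
      · exact absurd h0 hne
      · exact lt_of_lt_of_le zero_lt_one h1
    obtain ⟨τ₀, hτ₀⟩ := jFun_surjective (iotaQ c)
    obtain ⟨g, rfl⟩ := covering_finite N c τ₀ hτ₀ P hover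
    have hτ : jFun (g • τ₀) = iotaQ c := by rw [jFun_smul, hτ₀]
    exact fdq_dvd_ord_vPt N hp hp5 (g • τ₀) hτ f h hpow

end

end Fermat.Agent.S42x
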