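/-
S42x/EllPt86 (helper86, block B13, prefix `ell86_`): the point-place divisibility
`p ∣ ord_P f` for ALL primes `p` (including `p = 2, 3`), over `Qbar`.

`FinalDvdQbar.fdq_dvd_ord_vPt` needs `p ≥ 5` (the multiplier `g_τ` of the dictionary
`ord_τ ∘ evF = g_τ • ord_P` is `≤ 3`).  For `p ∈ {2, 3}` the multiplier can be `p`; this happens
exactly at the elliptic points of `Γ₀(N)`: the squeeze of S24x (`squeeze_placesOver`) shows that the
ramification index of the place `vPt N (g • i)` over `j = 1728` is the size of the `⟨S⟩`-orbit of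
the coset of `g⁻¹`, so it is `1` only when `g S g⁻¹ ∈ Γ₀(N)`; likewise for `ρ`, `S T`, `j = 0`.
At such a point a `p`-th root `h` of `evF f` which is invariant under the finite-order elements
of `Γ₀(N)` has `p ∣ ord_τ h` (S24x `EllipticOrdAt`), which gives `p ∣ ord_P f`.
-/
import Fermat.Agent.S24x.CountsOfInputs
import Fermat.Agent.S18x.RamDataN
import Fermat.Agent.S42x.FinalDvdQbar
import Fermat.Agent.S42x.TwEisPsi

set_option autoImplicit false

namespace Fermat.Agent.S42x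

open UpperHalfPlane AlgebraicCurve CongruenceSubgroup ModularGroup Fermat.Agent.S24x
open Fermat.Agent.S18x
open scoped MatrixGroups

noncomputable section

/-! ### the exact ramification indices from the squeeze -/

section Family

variable {K F : Type*} [Field K] [Field F] [Algebra K F]
variable (N : ℕ) [NeZero N]

/-- Same hypotheses as `fc_ncard_placesOver_of_family`; conclusion: the order of `t - c` at the
place `pt g` is the size of the `⟨s⟩`-orbit of the coset of `g⁻¹`. -/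
theorem ell86_ord_eq_card_orbit (t : F) (c : K) (s : SL(2, ℤ))
    (hsum : ∃ hfin : (placesOver K F t c).Finite,
      ∑ v ∈ hfin.toFinset, v.ord (t - algebraMap K F c) = (cdeg K F t : ℤ))
    (pt : SL(2, ℤ) → Place K F)
    (hleft : ∀ γ : SL(2, ℤ), γ ∈ Gamma0 N → ∀ g, pt (γ * g) = pt g)
    (hs : ∀ g, pt (g * s) = pt g)
    (hord : ∀ (g : SL(2, ℤ)) (w : ℕ), 0 < w → g * s ^ w * g⁻¹ ∈ Gamma0 N →
      (pt g).ord (t - algebraMap K F c) ≤ w)
    (hmem : ∀ g, pt g ∈ placesOver K F t c)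
    (hcov : ∀ v ∈ placesOver K F t c, ∃ g, v = pt g)
    (hdeg : Nat.card (Q N) ≤ cdeg K F t) (g : SL(2, ℤ)) :
    (pt g).ord (t - algebraMap K F c) =
      (Nat.card (MulAction.orbit (Subgroup.zpowers s) (((g⁻¹ : SL(2, ℤ)) : Q N))) : ℤ) := by
  classical
  obtain ⟨hfin, hsum⟩ := hsum
  have : Finite (Q N) := by
    have : (Gamma0 N).FiniteIndex := inferInstance
    exact Subgroup.finite_quotient_of_finiteIndex
  have hsz : ∀ (k : ℤ) (g : SL(2, ℤ)), pt (g * s ^ k) = pt g := fc_zpow_invariant pt s hs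
  -- the family on cosets
  let vP : Q N → Place K F := fun q => Quotient.liftOn' q (fun g => pt g⁻¹) (by
    intro a b hab
    have hab' : a⁻¹ * b ∈ Gamma0 N := QuotientGroup.leftRel_apply.mp hab
    have e : b⁻¹ = (a⁻¹ * b)⁻¹ * a⁻¹ := by group
    show pt a⁻¹ = pt b⁻¹
    rw [e, hleft _ ((Gamma0 N).inv_mem hab')])
  have hvP : ∀ g : SL(2, ℤ), vP ((g : SL(2, ℤ)) : Q N) = pt g⁻¹ := fun g => rfl
  have hinv : ∀ (z : Subgroup.zpowers s) (q : Q N), vP (z • q) = vP q := by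
    rintro ⟨z, hz⟩ q
    obtain ⟨k, rfl⟩ := Subgroup.mem_zpowers_iff.mp hz
    induction q using QuotientGroup.induction_on with
    | H g =>
      show vP ((s ^ k : SL(2, ℤ)) • ((g : SL(2, ℤ)) : Q N)) = _
      rw [smul_coset, hvP, hvP, mul_inv_rev, ← zpow_neg, hsz]
  have hbound : ∀ q : Q N, (vP q).ord (t - algebraMap K F c) ≤
      (Nat.card (MulAction.orbit (Subgroup.zpowers s) q) : ℤ) := by
    intro q
    induction q using QuotientGroup.induction_on with
    | H g =>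
      rw [hvP]
      set w := Nat.card (MulAction.orbit (Subgroup.zpowers s) ((g : SL(2, ℤ)) : Q N))
        with hw
      have hwpos : 0 < w := by
        have : Finite (MulAction.orbit (Subgroup.zpowers s)
            ((g : SL(2, ℤ)) : Q N)) := Set.toFinite _ |>.to_subtype
        have : Nonempty (MulAction.orbit (Subgroup.zpowers s)
            ((g : SL(2, ℤ)) : Q N)) := ⟨⟨_, MulAction.mem_orbit_self _⟩⟩
        exact Nat.card_pos
      have hfix0 := cc_pow_card_orbit_smul s (((g : SL(2, ℤ)) : Q N))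
      have hfix : (s ^ w : SL(2, ℤ)) • (((g : SL(2, ℤ)) : Q N)) = ((g : SL(2, ℤ)) : Q N) := hfix0
      rw [smul_coset] at hfix
      have hmemΓ : (s ^ w * g)⁻¹ * g ∈ Gamma0 N := QuotientGroup.eq.mp hfix
      have hmemΓ' : g⁻¹ * s ^ w * (g⁻¹)⁻¹ ∈ Gamma0 N := by
        have := (Gamma0 N).inv_mem hmemΓ
        have e : ((s ^ w * g)⁻¹ * g)⁻¹ = g⁻¹ * s ^ w * (g⁻¹)⁻¹ := by group
        rwa [e] at this
      exact_mod_cast hord g⁻¹ w hwpos hmemΓ'
  have : Fintype (MulAction.orbitRel.Quotient (Subgroup.zpowers s) (Q N)) := Fintype.ofFinite _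
  obtain ⟨-, h2, -, -⟩ := squeeze_placesOver
    (ι := MulAction.orbitRel.Quotient (Subgroup.zpowers s) (Q N)) t c hfin hsum
    (fun ω => vP ω.out) (fun ω => Nat.card (MulAction.orbit (Subgroup.zpowers s) ω.out))
    (fun v hv => by
      obtain ⟨x, hx⟩ := hcov v hv
      refine ⟨Quotient.mk'' ((x⁻¹ : SL(2, ℤ)) : Q N), ?_⟩
      rw [cc_const_on_orbit vP hinv _ ((x⁻¹ : SL(2, ℤ)) : Q N) rfl, hvP, inv_inv, hx])
    (fun ω => ⟨by
      induction' hq : ω.out using QuotientGroup.induction_on with g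
      rw [hvP]; exact hmem _, hbound _⟩)
    (by rw [cc_sum_card_orbits (Subgroup.zpowers s) (Q N)]; exact hdeg)
  -- specialise to the orbit of the coset of `g⁻¹`
  set q : Q N := ((g⁻¹ : SL(2, ℤ)) : Q N) with hq
  set ω : MulAction.orbitRel.Quotient (Subgroup.zpowers s) (Q N) := Quotient.mk'' q with hω
  have h3 := h2 ω
  have h4 : vP ω.out = pt g := by
    rw [cc_const_on_orbit vP hinv ω q rfl, hq, hvP, inv_inv]
  have h5 : MulAction.orbit (Subgroup.zpowers s) ω.out = MulAction.orbit (Subgroup.zpowers s) q := by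
    rw [MulAction.orbit_eq_iff]
    have h1 : (Quotient.mk'' ω.out : MulAction.orbitRel.Quotient (Subgroup.zpowers s) (Q N))
        = Quotient.mk'' q := Quotient.out_eq' ω
    exact Quotient.exact' h1
  rw [h4, h5] at h3
  exact h3

/-- If the order of `t - c` at `pt g` is `1`, the stabiliser generator `g s g⁻¹` lies in
`Γ₀(N)`. -/
theorem ell86_conj_mem_of_ord_eq_one (t : F) (c : K) (s : SL(2, ℤ))
    (hsum : ∃ hfin : (placesOver K F t c).Finite,
      ∑ v ∈ hfin.toFinset, v.ord (t - algebraMap K F c) = (cdeg K F t : ℤ))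
    (pt : SL(2, ℤ) → Place K F)
    (hleft : ∀ γ : SL(2, ℤ), γ ∈ Gamma0 N → ∀ g, pt (γ * g) = pt g)
    (hs : ∀ g, pt (g * s) = pt g)
    (hord : ∀ (g : SL(2, ℤ)) (w : ℕ), 0 < w → g * s ^ w * g⁻¹ ∈ Gamma0 N →
      (pt g).ord (t - algebraMap K F c) ≤ w)
    (hmem : ∀ g, pt g ∈ placesOver K F t c)
    (hcov : ∀ v ∈ placesOver K F t c, ∃ g, v = pt g)
    (hdeg : Nat.card (Q N) ≤ cdeg K F t) (g : SL(2, ℤ))
    (h1 : (pt g).ord (t - algebraMap K F c) = 1) : g * s * g⁻¹ ∈ Gamma0 N := by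
  have h2 := ell86_ord_eq_card_orbit N t c s hsum pt hleft hs hord hmem hcov hdeg g
  rw [h1] at h2
  have h3 : Nat.card (MulAction.orbit (Subgroup.zpowers s) (((g⁻¹ : SL(2, ℤ)) : Q N))) = 1 := by
    exact_mod_cast h2.symm
  have hsub : Subsingleton (MulAction.orbit (Subgroup.zpowers s) (((g⁻¹ : SL(2, ℤ)) : Q N))) :=
    (Nat.card_eq_one_iff_unique.mp h3).1
  have hmem1 : (⟨s, Subgroup.mem_zpowers s⟩ : Subgroup.zpowers s) • (((g⁻¹ : SL(2, ℤ)) : Q N))
      ∈ MulAction.orbit (Subgroup.zpowers s) (((g⁻¹ : SL(2, ℤ)) : Q N)) :=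
    MulAction.mem_orbit _ _
  have hmem2 : (((g⁻¹ : SL(2, ℤ)) : Q N))
      ∈ MulAction.orbit (Subgroup.zpowers s) (((g⁻¹ : SL(2, ℤ)) : Q N)) :=
    MulAction.mem_orbit_self _
  have heq := congrArg Subtype.val (hsub.elim ⟨_, hmem1⟩ ⟨_, hmem2⟩)
  have heq' : s • (((g⁻¹ : SL(2, ℤ)) : Q N)) = ((g⁻¹ : SL(2, ℤ)) : Q N) := heq
  rw [smul_coset] at heq'
  have hmemΓ : (s * g⁻¹)⁻¹ * g⁻¹ ∈ Gamma0 N := QuotientGroup.eq.mp heq'
  have := (Gamma0 N).inv_mem hmemΓ
  have e : ((s * g⁻¹)⁻¹ * g⁻¹)⁻¹ = g * s * g⁻¹ := by group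
  rwa [e] at this

end Family

/-! ### the two elliptic fibres of `FBar N` -/

section Inputs

variable {N : ℕ} [NeZero N] (A : CInputs N)

/-- a place `vPt (g • i)` which is unramified over `j = 1728` comes from an elliptic point of
order `2` of `Γ₀(N)`. -/
theorem ell86_S_conj_mem (g : SL(2, ℤ))
    (h1 : (A.vPt (g • UpperHalfPlane.I)).ord (jBar N - algebraMap Qbar (FBar N) 1728) = 1) :
    g * S * g⁻¹ ∈ Gamma0 N := by
  have hτ₀ : jFun UpperHalfPlane.I = iotaQ 1728 := by rw [A.jFun_I, map_ofNat]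
  have hn : holOrder (cfJ (iotaQ 1728)) UpperHalfPlane.I = (2 : ℕ) := by
    have := A.holOrder_jHol_sub_I
    have e : iotaQ (1728 : Qbar) = 1728 := map_ofNat iotaQ 1728
    rw [e]
    exact this
  exact ell86_conj_mem_of_ord_eq_one N (jBar N) (1728 : Qbar) S
    (A.sum_ord_placesOver 1728) (A.pt UpperHalfPlane.I)
    (A.hleft UpperHalfPlane.I) (A.hs UpperHalfPlane.I S S_smul_I)
    (fc_ord_le_of_ram N 2 Nat.prime_two _ S (A.pt UpperHalfPlane.I) (A.oF UpperHalfPlane.I)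
      (A.hmul hτ₀)
      (fun g => by simpa using A.hD UpperHalfPlane.I 1728 2 hn g)
      (fun g hg f => by
        have := two_dvd_ordAt_of_invariant g (A.evF f) (A.evF_smul_of_mem_Gamma0 _ hg f)
        exact_mod_cast this)
      (fun g => by rw [os_S_sq]; exact cf_conj_neg_one_mem N g))
    (A.hmem hτ₀) (A.hcov hτ₀) A.hdeg g h1

/-- a place `vPt (g • ρ)` which is unramified over `j = 0` comes from an elliptic point of
order `3` of `Γ₀(N)`. -/
theorem ell86_ST_conj_mem (g : SL(2, ℤ))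
    (h1 : (A.vPt (g • rho)).ord (jBar N - algebraMap Qbar (FBar N) 0) = 1) :
    g * (S * T) * g⁻¹ ∈ Gamma0 N := by
  have hτ₀ : jFun rho = iotaQ 0 := by rw [A.jFun_rho, map_zero]
  have hn : holOrder (cfJ (iotaQ 0)) rho = (3 : ℕ) := by
    have := A.holOrder_jHol_rho
    have e : cfJ (iotaQ (0 : Qbar)) = jHol := by unfold cfJ; rw [map_zero, map_zero, sub_zero]
    rw [e]
    exact this
  exact ell86_conj_mem_of_ord_eq_one N (jBar N) (0 : Qbar) (S * T)
    (A.sum_ord_placesOver 0) (A.pt rho)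
    (A.hleft rho) (A.hs rho (S * T) ST_smul_rho)
    (fc_ord_le_of_ram N 3 Nat.prime_three _ (S * T) (A.pt rho) (A.oF rho)
      (A.hmul hτ₀)
      (fun g => by simpa using A.hD rho 0 3 hn g)
      (fun g hg f => by
        have := three_dvd_ordAt_of_invariant g (A.evF f) (A.evF_smul_of_mem_Gamma0 _ hg f)
        exact_mod_cast this)
      (fun g => by rw [os_ST_cube]; exact cf_conj_neg_one_mem N g))
    (A.hmem hτ₀) (A.hcov hτ₀) A.hdeg g h1

end Inputs

/-! ### the divisibility at the point places, all primes -/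

section Main

variable (N : ℕ) [NeZero N]

omit [NeZero N] in
/-- cancellation step: if the multiplier at `τ` is `p` and `p ∣ ord_τ h`, then `p ∣ ord_P f`. -/
theorem ell86_dvd_of_mult_eq {p : ℕ} (hp : 0 < p) (τ : ℍ) (P : Place Qbar (FBar N))
    (f : FBar N) (h : Mer) (hh : h ≠ 0) (hpow : h ^ p = evF N f)
    (hmul : ordAt τ (evF N f) = (p : ℤ) * P.ord f) (hdiv : (p : ℤ) ∣ ordAt τ h) :
    (p : ℤ) ∣ P.ord f := by
  rw [← hpow, fdq_ordAt_pow τ hh] at hmul
  have hp0 : (p : ℤ) ≠ 0 := by exact_mod_cast hp.ne'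
  have := mul_left_cancel₀ hp0 hmul
  rw [← this]
  exact hdiv

/-- the common step for the two elliptic fibres. -/
theorem ell86_step {p : ℕ} (hp0 : 0 < p) (c₀ : Qbar) (τ₀ : ℍ) (s : SL(2, ℤ))
    (hτ₀ : jFun τ₀ = iotaQ c₀)
    (hn : ∀ τ : ℍ, jFun τ = iotaQ c₀ →
      holOrdZ (jHol - algebraMap ℂ Hol (iotaQ c₀)) τ = (p : ℤ))
    (hconj : ∀ g : SL(2, ℤ),
      (vPt N (g • τ₀)).ord (jBar N - algebraMap Qbar (FBar N) c₀) = 1 → g * s * g⁻¹ ∈ Gamma0 N)
    (hdvd : ∀ (g : SL(2, ℤ)) (x : Mer), (g * s * g⁻¹) • x = x → (p : ℤ) ∣ ordAt (g • τ₀) x)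
    (P : Place Qbar (FBar N)) (hP : P ∈ placesOver Qbar (FBar N) (jBar N) c₀)
    (he : P.ord (jBar N - algebraMap Qbar (FBar N) c₀) = 1)
    (f : FBar N) (h : Mer) (hh : h ≠ 0) (hpow : h ^ p = evF N f)
    (hinv : ∀ g : SL(2, ℤ), g * s * g⁻¹ ∈ Gamma0 N → (g * s * g⁻¹) • h = h) :
    (p : ℤ) ∣ P.ord f := by
  obtain ⟨g₀, rfl⟩ := covering_finite N c₀ τ₀ hτ₀ P hP
  have hτ' : jFun (g₀ • τ₀) = iotaQ c₀ := by rw [jFun_smul, hτ₀]
  have hmemΓ := hconj g₀ he
  have hdiv := hdvd g₀ h (hinv g₀ hmemΓ)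
  obtain ⟨g', -, hgo'⟩ := exists_ordAt_eq_mul_vPt_ord N (g₀ • τ₀) hτ'
  have h2 := hgo' (jBar N - algebraMap Qbar (FBar N) c₀)
  rw [ordAt_evF_jBar_sub, hn _ hτ', he, mul_one] at h2
  have hmul := hgo' f
  rw [← h2] at hmul
  exact ell86_dvd_of_mult_eq N hp0 (g₀ • τ₀) _ f h hh hpow hmul hdiv

/-- **point places, all primes `p`**: if `f : FBar N` has a `p`-th root `h` in `Mer` which is
invariant under the elliptic elements of `Γ₀(N)` of order `p` (only needed for `p = 2, 3`), then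
`p ∣ ord_P f` at every point place `P = vPt N τ`. -/
theorem ell86_dvd_ord_vPt {p : ℕ} (hp : p.Prime) (τ : ℍ) {c : Qbar}
    (hτ : jFun τ = iotaQ c) (f : FBar N) (h : Mer) (hpow : h ^ p = evF N f)
    (hS : p = 2 → ∀ g : SL(2, ℤ), g * S * g⁻¹ ∈ Gamma0 N → (g * S * g⁻¹) • h = h)
    (hST : p = 3 → ∀ g : SL(2, ℤ), g * (S * T) * g⁻¹ ∈ Gamma0 N → (g * (S * T) * g⁻¹) • h = h) :
    (p : ℤ) ∣ (vPt N τ).ord f := by
  rcases eq_or_ne f 0 with rfl | hf
  · simp
  have hh : h ≠ 0 := by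
    rintro rfl
    rw [zero_pow hp.ne_zero] at hpow
    exact hf ((map_eq_zero (evF N)).mp hpow.symm)
  obtain ⟨g, hg, hgo⟩ := exists_ordAt_eq_mul_vPt_ord N τ hτ
  have h1 := hgo f
  rw [← hpow, fdq_ordAt_pow τ hh] at h1
  by_cases hdvd : p ∣ g
  swap
  · have hcop : IsCoprime (p : ℤ) (g : ℤ) := by
      rw [Int.isCoprime_iff_gcd_eq_one, Int.gcd_natCast_natCast]
      exact (Nat.Prime.coprime_iff_not_dvd hp).mpr hdvd
    exact hcop.dvd_of_dvd_mul_left ⟨ordAt τ h, h1.symm⟩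
  -- now `p ∣ g`
  have hpos : 0 < (vPt N τ).ord (jBar N - algebraMap Qbar (FBar N) c) := by
    have := vPt_mem_placesOver N τ hτ
    rwa [mem_placesOver] at this
  have h2 := hgo (jBar N - algebraMap Qbar (FBar N) c)
  rw [ordAt_evF_jBar_sub, ← hτ] at h2
  obtain ⟨-, hle3⟩ := fdq_holOrdZ_le_three τ
  obtain ⟨k, hk⟩ := hdvd
  have hp2 : (2 : ℤ) ≤ p := by exact_mod_cast hp.two_le
  have hk1 : (1 : ℤ) ≤ k := by
    have : 0 < k := by
      rcases Nat.eq_zero_or_pos k with rfl | h0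
      · rw [mul_zero] at hk; omega
      · exact h0
    exact_mod_cast this
  have hgk : (g : ℤ) = p * k := by exact_mod_cast hk
  -- `e = 1`, `k = 1`
  have he : (vPt N τ).ord (jBar N - algebraMap Qbar (FBar N) c) = 1 := by
    by_contra hne
    have h2e : 2 ≤ (vPt N τ).ord (jBar N - algebraMap Qbar (FBar N) c) := by omega
    have : (4 : ℤ) ≤ g * (vPt N τ).ord (jBar N - algebraMap Qbar (FBar N) c) := by
      rw [hgk]; nlinarith
    omega
  rw [he, mul_one] at h2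
  have hkone : k = 1 := by
    by_contra hne
    have : (2 : ℤ) ≤ k := by omega
    have : (4 : ℤ) ≤ g := by rw [hgk]; nlinarith
    omega
  have hk' : p = g := by rw [hk, hkone, mul_one]
  subst hk'
  -- `h2 : holOrdZ (j - j τ) τ = p`
  by_cases h0 : jFun τ = 0
  · have h3 := holOrder_jHol_of_jFun_eq_zero τ h0
    have hp3 : p = 3 := by
      rw [h0, map_zero, sub_zero] at h2
      unfold holOrdZ at h2
      rw [h3] at h2
      have : ((3 : ℕ) : ℤ) = (p : ℤ) := by simpa using h2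
      exact_mod_cast this.symm
    subst hp3
    have hc : c = 0 := by
      apply iotaQ_injective
      rw [← hτ, h0, map_zero]
    subst hc
    refine ell86_step N (by norm_num) 0 rho (S * T) (by rw [jFun_rho, map_zero]) ?_
      (fun g hg => ell86_ST_conj_mem (rdn_cInputs N) g hg)
      (fun g x hx => three_dvd_ordAt_of_invariant g x hx)
      (vPt N τ) (vPt_mem_placesOver N τ hτ) he f h hh hpow (hST rfl)
    intro τ' hτ'
    have h0' : jFun τ' = 0 := by rw [hτ', map_zero]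
    have h3' := holOrder_jHol_of_jFun_eq_zero τ' h0'
    rw [map_zero, map_zero, sub_zero]
    unfold holOrdZ
    rw [h3']
    rfl
  by_cases h1728 : jFun τ = 1728
  · have h3 := holOrder_jHol_sub_of_jFun_eq_1728 τ h1728
    have hp2' : p = 2 := by
      rw [h1728] at h2
      unfold holOrdZ at h2
      rw [h3] at h2
      have : ((2 : ℕ) : ℤ) = (p : ℤ) := by simpa using h2
      exact_mod_cast this.symm
    subst hp2'
    have hc : c = 1728 := by
      apply iotaQ_injective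
      rw [← hτ, h1728, map_ofNat]
    subst hc
    refine ell86_step N (by norm_num) 1728 UpperHalfPlane.I S
      (by rw [jFun_I, map_ofNat]) ?_
      (fun g hg => ell86_S_conj_mem (rdn_cInputs N) g hg)
      (fun g x hx => two_dvd_ordAt_of_invariant g x hx)
      (vPt N τ) (vPt_mem_placesOver N τ hτ) he f h hh hpow (hS rfl)
    intro τ' hτ'
    have h0' : jFun τ' = 1728 := by rw [hτ', map_ofNat]
    have h3' := holOrder_jHol_sub_of_jFun_eq_1728 τ' h0'
    rw [map_ofNat]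
    unfold holOrdZ
    rw [h3']
    rfl
  · exfalso
    have h3 := holOrder_jHol_sub_generic τ h0 h1728
    unfold holOrdZ at h2
    rw [h3] at h2
    have : ((1 : ℕ) : ℤ) = (p : ℤ) := by simpa using h2
    omega

end Main

/-! ### every place, and convenient forms of the invariance hypothesis -/

section Forms

variable (N : ℕ) [NeZero N]

theorem ell86_conj_S_pow (g : SL(2, ℤ)) : (g * S * g⁻¹) ^ 4 = 1 := by
  rw [conj_pow, show (4 : ℕ) = 2 * 2 from rfl, pow_mul, os_S_sq]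
  simp

theorem ell86_conj_ST_pow (g : SL(2, ℤ)) : (g * (S * T) * g⁻¹) ^ 6 = 1 := by
  rw [conj_pow, show (6 : ℕ) = 3 * 2 from rfl, pow_mul, os_ST_cube]
  simp

theorem ell86_conj_S_finOrder (g : SL(2, ℤ)) : IsOfFinOrder (g * S * g⁻¹) :=
  isOfFinOrder_iff_pow_eq_one.mpr ⟨4, by norm_num, ell86_conj_S_pow g⟩

theorem ell86_conj_ST_finOrder (g : SL(2, ℤ)) : IsOfFinOrder (g * (S * T) * g⁻¹) :=
  isOfFinOrder_iff_pow_eq_one.mpr ⟨6, by norm_num, ell86_conj_ST_pow g⟩

/-- point places, all primes: `h` invariant under the finite-order elements of `Γ₀(N)`. -/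
theorem ell86_dvd_ord_vPt_of_finOrder {p : ℕ} (hp : p.Prime) (τ : ℍ) {c : Qbar}
    (hτ : jFun τ = iotaQ c) (f : FBar N) (h : Mer) (hpow : h ^ p = evF N f)
    (hfin : ∀ γ : SL(2, ℤ), γ ∈ Gamma0 N → IsOfFinOrder γ → γ • h = h) :
    (p : ℤ) ∣ (vPt N τ).ord f :=
  ell86_dvd_ord_vPt N hp τ hτ f h hpow
    (fun _ g hg => hfin _ hg (ell86_conj_S_finOrder g))
    (fun _ g hg => hfin _ hg (ell86_conj_ST_finOrder g))

/-- **every place, all primes `p`**: a `p`-th root in `Mer`, invariant under the elliptic elements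
of `Γ₀(N)` of order `p`, plus divisibility at the cusp places forces `p ∣ ord_P f` for every
place `P` of `FBar N`. -/
theorem ell86_dvd_ord {p : ℕ} (hp : p.Prime) (f : FBar N) (h : Mer)
    (hpow : h ^ p = evF N f)
    (hS : p = 2 → ∀ g : SL(2, ℤ), g * S * g⁻¹ ∈ Gamma0 N → (g * S * g⁻¹) • h = h)
    (hST : p = 3 → ∀ g : SL(2, ℤ), g * (S * T) * g⁻¹ ∈ Gamma0 N → (g * (S * T) * g⁻¹) • h = h)
    (hcusp : ∀ g : SL(2, ℤ), (p : ℤ) ∣ (cg_vCusp N g).ord f) :
    ∀ P : Place Qbar (FBar N), (p : ℤ) ∣ P.ord f := by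
  intro P
  by_cases hpole : P ∈ polePlaces Qbar (FBar N) (jBar N)
  · obtain ⟨g, rfl⟩ := covering_cusp N P hpole
    exact hcusp g
  · rw [mem_polePlaces, not_lt] at hpole
    have hval : P.adicValuation (jBar N) ≤ 1 := by
      rw [P.adicValuation_le_one_iff]
      exact Or.inr hpole
    obtain ⟨c, hc⟩ := pls_eval_levelN N P (jBar N) hval
    have hne : jBar N - algebraMap Qbar (FBar N) c ≠ 0 := jBar_sub_const_ne_zero N c
    have hover : P ∈ placesOver Qbar (FBar N) (jBar N) c := by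
      rw [mem_placesOver]
      have := (rmn_val_lt_one_iff P).mp hc
      rcases this with h0 | h1
      · exact absurd h0 hne
      · exact lt_of_lt_of_le zero_lt_one h1
    obtain ⟨τ₀, hτ₀⟩ := jFun_surjective (iotaQ c)
    obtain ⟨g, rfl⟩ := covering_finite N c τ₀ hτ₀ P hover
    have hτ : jFun (g • τ₀) = iotaQ c := by rw [jFun_smul, hτ₀]
    exact ell86_dvd_ord_vPt N hp (g • τ₀) hτ f h hpow hS hST

theorem ell86_dvd_ord_of_finOrder {p : ℕ} (hp : p.Prime) (f : FBar N) (h : Mer)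
    (hpow : h ^ p = evF N f)
    (hfin : ∀ γ : SL(2, ℤ), γ ∈ Gamma0 N → IsOfFinOrder γ → γ • h = h)
    (hcusp : ∀ g : SL(2, ℤ), (p : ℤ) ∣ (cg_vCusp N g).ord f) :
    ∀ P : Place Qbar (FBar N), (p : ℤ) ∣ P.ord f :=
  ell86_dvd_ord N hp f h hpow
    (fun _ g hg => hfin _ hg (ell86_conj_S_finOrder g))
    (fun _ g hg => hfin _ hg (ell86_conj_ST_finOrder g)) hcusp

omit [NeZero N] in
/-- the character law gives invariance where the character is trivial. -/
theorem ell86_smul_eq_of_char (ψ : ↥(Gamma0 N) →* ℂˣ) (h : Mer)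
    (hchar : ∀ γ : Gamma0 N, ((γ : SL(2, ℤ))⁻¹ • h : Mer) =
      algebraMap ℂ Mer ((ψ γ : ℂˣ) : ℂ) * h)
    (γ : SL(2, ℤ)) (hγ : γ ∈ Gamma0 N) (hψ : ψ ⟨γ, hγ⟩ = 1) : γ • h = h := by
  have h1 := hchar ⟨γ, hγ⟩
  rw [hψ, Units.val_one, map_one, one_mul] at h1
  have h2 := congrArg (fun x => γ • x) h1
  simp only [smul_inv_smul] at h2
  exact h2.symm

/-- an integer valued homomorphism kills the elements of finite order. -/
theorem ell86_chi_of_finOrder {Γ : Subgroup SL(2, ℤ)} (χ : Additive Γ →+ ℤ) (g : Γ)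
    (hg : IsOfFinOrder g) : χ (Additive.ofMul g) = 0 := by
  obtain ⟨n, hn, hgn⟩ := isOfFinOrder_iff_pow_eq_one.mp hg
  have h1 : χ (Additive.ofMul (g ^ n)) = n • χ (Additive.ofMul g) := by
    rw [ofMul_pow, map_nsmul]
  rw [hgn, ofMul_one, map_zero] at h1
  have h2 : (n : ℤ) * χ (Additive.ofMul g) = 0 := by
    rw [← nsmul_eq_mul]; exact h1.symm
  rcases mul_eq_zero.mp h2 with h3 | h3
  · exact absurd (by exact_mod_cast h3) hn.ne'
  · exact h3

omit [NeZero N] in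
/-- `h` with the character law for `ψ_χ = exp(2 π i χ / p)`, `χ` integer valued, is invariant under
the finite-order elements of `Γ₀(N)`. -/
theorem ell86_finOrder_of_chi (p : ℕ) (χ : Additive ↥(Gamma0 N) →+ ℤ) (h : Mer)
    (hchar : ∀ γ : Gamma0 N, ((γ : SL(2, ℤ))⁻¹ • h : Mer) =
      algebraMap ℂ Mer ((twp_psi p χ γ : ℂˣ) : ℂ) * h) :
    ∀ γ : SL(2, ℤ), γ ∈ Gamma0 N → IsOfFinOrder γ → γ • h = h := by
  intro γ hγ hfin
  refine ell86_smul_eq_of_char N (twp_psi p χ) h hchar γ hγ ?_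
  have hfin' : IsOfFinOrder (⟨γ, hγ⟩ : Gamma0 N) := by
    obtain ⟨n, hn, hgn⟩ := isOfFinOrder_iff_pow_eq_one.mp hfin
    exact isOfFinOrder_iff_pow_eq_one.mpr ⟨n, hn, Subtype.ext (by simpa using hgn)⟩
  rw [twp_psi_apply, ell86_chi_of_finOrder χ _ hfin', twp_ep_zero]

/-- **every place, all primes, `χ`-form** (the shape produced by block B1: `twt_chi_mer`). -/
theorem ell86_dvd_ord_chi {p : ℕ} (hp : p.Prime) (χ : Additive ↥(Gamma0 N) →+ ℤ)
    (f : FBar N) (h : Mer) (hpow : h ^ p = evF N f)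
    (hchar : ∀ γ : Gamma0 N, ((γ : SL(2, ℤ))⁻¹ • h : Mer) =
      algebraMap ℂ Mer ((twp_psi p χ γ : ℂˣ) : ℂ) * h)
    (hcusp : ∀ g : SL(2, ℤ), (p : ℤ) ∣ (cg_vCusp N g).ord f) :
    ∀ P : Place Qbar (FBar N), (p : ℤ) ∣ P.ord f :=
  ell86_dvd_ord_of_finOrder N hp f h hpow (ell86_finOrder_of_chi N p χ h hchar) hcusp

/-- point places, all primes, `χ`-form. -/
theorem ell86_dvd_ord_vPt_chi {p : ℕ} (hp : p.Prime) (χ : Additive ↥(Gamma0 N) →+ ℤ)
    (τ : ℍ) {c : Qbar} (hτ : jFun τ = iotaQ c) (f : FBar N) (h : Mer) (hpow : h ^ p = evF N f)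
    (hchar : ∀ γ : Gamma0 N, ((γ : SL(2, ℤ))⁻¹ • h : Mer) =
      algebraMap ℂ Mer ((twp_psi p χ γ : ℂˣ) : ℂ) * h) :
    (p : ℤ) ∣ (vPt N τ).ord f :=
  ell86_dvd_ord_vPt_of_finOrder N hp τ hτ f h hpow (ell86_finOrder_of_chi N p χ h hchar)

end Forms

end

end Fermat.Agent.S42x
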