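/-
S42 block B3, leaf X3 (helper35): FC-BRIDGE.

The three presentations of the level `M` modular function field over `ℂ` inside `ℂ((q))` coincide:
* `S23x.ratioField M`  (ratios of modular forms of equal weight on `Γ₀(M)`),
* `modularFunctionFieldFullC ℂ M = ℂ(j(q^d) : d ∣ M)`  (Prelude; the type `S18x.pls_Fb ℂ M`, which carries the
  Riemann / place / semilinear-automorphism API already on main),
* `laurentBaseChange ℂ (modularFunctionFieldFull M)`  (Prelude base change of the rational model),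
and they contain the coefficientwise image `iotaL (FBar M)` of the `Q̄`-model, which generates them over `ℂ`.
-/
import Fermat.Agent.S23x.FieldGen
import Fermat.Agent.S24x.JqBridge
import Fermat.Agent.S24x.Realize
import Fermat.Agent.S18x.CuspConjPrim
import Fermat.Agent.S18x.PrimReduce

set_option autoImplicit false

noncomputable section

namespace Fermat.Agent.S42x

open ModularCurve IntermediateField UpperHalfPlane ModularForm EisensteinSeries

/-- the `q`-expansion maps of S23x and S24x are the same -/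
theorem fcb_qL_eq_qaL (f : ℍ → ℂ) : S23x.qL f = S24x.qaL f := rfl

/-- the Prelude's formal `j` over `ℂ` in both dialects -/
theorem fcb_qaJqC_eq : S24x.qaJqC = jqModC ℂ := S24x.qaJqC_eq

/-- S23x's `mulN` is S24x's `qaScale` -/
theorem fcb_mulN_eq (d : ℕ) [NeZero d] (z : ℍ) : S23x.mulN d z = S24x.qaScale d z := rfl

/-- **the analytic `j` of S23x is the formal `j` of the Prelude** -/
theorem fcb_jL_eq : S23x.jL = jqModC ℂ := by
  rw [← fcb_qaJqC_eq]
  unfold S23x.jL S23x.E4L S23x.DeltaL
  rw [fcb_qL_eq_qaL, fcb_qL_eq_qaL, div_eq_iff (S24x.isQAn_discriminant.qaL_eq_zero_iff.not.mpr ?_),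
    ← S24x.isQAn_E4.qaL_pow, mul_comm]
  · exact S24x.qaL_discriminant_mul_qaJqC.symm
  · intro h
    exact ModularForm.discriminant_ne_zero UpperHalfPlane.I (congrFun h _)

/-- **the analytic `j_d = j(d z)` of S23x is the formal `j(q^d)` of the Prelude** -/
theorem fcb_jNL_eq (d : ℕ) [NeZero d] : S23x.jNL d = jqNModC ℂ d := by
  have h1 : (fun z => E₄ (S23x.mulN d z)) = (⇑E₄ : ℍ → ℂ) ∘ S24x.qaScale d := rfl
  have h2 : (fun z => ModularForm.discriminant (S23x.mulN d z)) =
      (ModularForm.discriminant : ℍ → ℂ) ∘ S24x.qaScale d := rfl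
  have h3 : (((⇑E₄ : ℍ → ℂ) ^ 3) ∘ S24x.qaScale d) = ((⇑E₄ : ℍ → ℂ) ∘ S24x.qaScale d) ^ 3 := rfl
  unfold S23x.jNL
  rw [h1, h2, fcb_qL_eq_qaL, fcb_qL_eq_qaL, ← (S24x.isQAn_E4.comp_qaScale d).qaL_pow, ← h3,
    ← S24x.coeffEmb_qExpand_jq_eq_div, S24x.coeffEmb_qExpand_jq, fcb_qaJqC_eq, jqNModC]

variable (M : ℕ) [NeZero M]

/-- `ℂ(j, j_M) = ℂ(j_d : d ∣ M)` -/
theorem fcb_fieldC_eq_fullC : modularFunctionFieldC ℂ M = modularFunctionFieldFullC ℂ M :=
  S18x.prim_fieldC_eq_fullC_of_hom S24x.iotaQ M (S18x.ccp_fieldC_eq_fullC M)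

/-- **ratios of modular forms = the Prelude's function field over `ℂ`** -/
theorem fcb_ratioField_eq : S23x.ratioField M = modularFunctionFieldFullC ℂ M := by
  rw [S23x.ratioField_eq, fcb_jL_eq, fcb_jNL_eq, ← fcb_fieldC_eq_fullC, modularFunctionFieldC]

/-- the only door from modular forms into `FC`: membership is `IsRatio M 0` -/
theorem fcb_mem_fullC_iff {x : LaurentSeries ℂ} :
    x ∈ modularFunctionFieldFullC ℂ M ↔ S23x.IsRatio M 0 x := by
  rw [← fcb_ratioField_eq, S23x.mem_ratioField_iff]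

/-! ### base change presentations -/

section BaseChange

variable {K₁ K₂ : Type*} [Field K₁] [Field K₂]

/-- coefficientwise base change maps the generators `j(q^d)` to the generators `j(q^d)` -/
theorem fcb_coeffMap_image_divisorExpansionsC (φ : K₁ →+* K₂) (N : ℕ) :
    coeffMap φ '' divisorExpansionsC K₁ N = divisorExpansionsC K₂ N := by
  ext x
  constructor
  · rintro ⟨_, ⟨d, hne, hd, rfl⟩, rfl⟩
    have := hne
    exact ⟨d, hne, hd, by rw [coeffMap_qExpand, coeffMap_jqModC]⟩
  · rintro ⟨d, hne, hd, rfl⟩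
    have := hne
    exact ⟨_, ⟨d, hne, hd, rfl⟩, by rw [coeffMap_qExpand, coeffMap_jqModC]⟩

/-- coefficientwise base change maps `F_N(K₁)` into `F_N(K₂)` -/
theorem fcb_coeffMap_mem_fullC (φ : K₁ →+* K₂) (N : ℕ) {x : LaurentSeries K₁}
    (hx : x ∈ modularFunctionFieldFullC K₁ N) : coeffMap φ x ∈ modularFunctionFieldFullC K₂ N := by
  have h := S18x.prim_coeffMap_mem_adjoin φ (divisorExpansionsC K₁ N) hx
  rwa [fcb_coeffMap_image_divisorExpansionsC] at h

/-- `F_N(K₂)` is generated over `K₂` by the coefficientwise image of `F_N(K₁)` -/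
theorem fcb_fullC_eq_adjoin_image (φ : K₁ →+* K₂) (N : ℕ) :
    modularFunctionFieldFullC K₂ N =
      IntermediateField.adjoin K₂ (coeffMap φ '' (modularFunctionFieldFullC K₁ N : Set (LaurentSeries K₁))) := by
  apply le_antisymm
  · rw [modularFunctionFieldFullC, IntermediateField.adjoin_le_iff,
      ← fcb_coeffMap_image_divisorExpansionsC φ N]
    rintro _ ⟨y, hy, rfl⟩
    exact IntermediateField.subset_adjoin _ _
      ⟨y, IntermediateField.subset_adjoin K₁ (divisorExpansionsC K₁ N) hy, rfl⟩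
  · rw [IntermediateField.adjoin_le_iff]
    rintro _ ⟨y, hy, rfl⟩
    exact fcb_coeffMap_mem_fullC φ N hy

end BaseChange

/-- the Prelude's two base-change presentations coincide over every field of characteristic zero -/
theorem fcb_fullC_eq_laurentBaseChange (L : Type*) [Field L] [Algebra ℚ L] (N : ℕ) :
    modularFunctionFieldFullC L N = laurentBaseChange L (modularFunctionFieldFull N) := by
  rw [laurentBaseChange, ← modularFunctionFieldFullC_rat]
  exact fcb_fullC_eq_adjoin_image (algebraMap ℚ L) N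

/-- the coefficientwise embedding `Q̄((q)) → ℂ((q))` maps `FBar M` into `FC` -/
theorem fcb_iotaL_mem {x : LaurentSeries S24x.Qbar} (hx : x ∈ modularFunctionFieldBar M) :
    S24x.iotaL x ∈ modularFunctionFieldFullC ℂ M := by
  rw [← S18x.ccp_fullC_eq_bar] at hx
  exact fcb_coeffMap_mem_fullC S24x.iotaQ M hx

/-- `FC = ℂ · iotaL (FBar M)` -/
theorem fcb_fullC_eq_adjoin_iotaL :
    modularFunctionFieldFullC ℂ M =
      IntermediateField.adjoin ℂ (S24x.iotaL '' (modularFunctionFieldBar M : Set (LaurentSeries S24x.Qbar))) := by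
  rw [← S18x.ccp_fullC_eq_bar]
  exact fcb_fullC_eq_adjoin_image S24x.iotaQ M

/-- the ring homomorphism `FBar M → FC` induced by `iotaL` -/
def fcb_iotaF : S24x.FBar M →+* ↥(modularFunctionFieldFullC ℂ M) :=
  (S24x.iotaL.comp (modularFunctionFieldBar M).val.toRingHom).codRestrict
    (modularFunctionFieldFullC ℂ M).toSubfield.toSubring fun x => fcb_iotaL_mem M x.2

@[simp]
theorem fcb_coe_iotaF (x : S24x.FBar M) :
    ((fcb_iotaF M x : ↥(modularFunctionFieldFullC ℂ M)) : LaurentSeries ℂ) =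
      S24x.iotaL (x : LaurentSeries S24x.Qbar) := rfl

theorem fcb_iotaF_injective : Function.Injective (fcb_iotaF M) := (fcb_iotaF M).injective

theorem fcb_iotaF_algebraMap (c : S24x.Qbar) :
    fcb_iotaF M (algebraMap S24x.Qbar (S24x.FBar M) c) =
      algebraMap ℂ ↥(modularFunctionFieldFullC ℂ M) (S24x.iotaQ c) := by
  apply Subtype.ext
  rw [fcb_coe_iotaF]
  show S24x.iotaL (algebraMap S24x.Qbar (LaurentSeries S24x.Qbar) c) =
    algebraMap ℂ (LaurentSeries ℂ) (S24x.iotaQ c)
  rw [S24x.iotaL_algebraMap, algebraMap_laurentSeries_eq_single]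
  rfl

end Fermat.Agent.S42x
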