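/-
S42 block B9 (cyclic Frobenius density), leaf (b) (helper22): the ABSTRACT inclusion-exclusion
divergence lemma.  Mathlib only.

`Ω` = a set of "primes", `w v s ≥ 0` = weight (`N v ^ (-s)` on degree-one primes, `0` otherwise),
`S i ⊆ Ω` (`i ∈ P`) = "splits completely in `L_i`".  If for every `R ⊆ P` the partial sum over
`⋂_{i ∈ R} S i` is `(∏_{i ∈ R} x i) * Λ s + O(1)` on `(1,2]` with `Λ s → +∞` as `s ↓ 1` and
`0 < x i < 1`, then infinitely many `v` lie in NO `S i`
(their weighted sum is `≥ ∏ (1 - x i) * Λ s - C`).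

Prefix `fdci_`.
-/
import Mathlib

set_option autoImplicit false

namespace Fermat.Agent.S42x

open Filter Topology Finset

section Pointwise

variable {Ω ι : Type*}

open Classical in
/-- pointwise inclusion-exclusion for indicators (real valued). -/
theorem fdci_indicator (P : Finset ι) (S : ι → Set Ω) (v : Ω) :
    (if ∀ i ∈ P, v ∉ S i then (1 : ℝ) else 0) =
      ∑ R ∈ P.powerset, (-1 : ℝ) ^ R.card * (if ∀ i ∈ R, v ∈ S i then (1 : ℝ) else 0) := by
  have h1 : (if ∀ i ∈ P, v ∉ S i then (1 : ℝ) else 0) =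
      ∏ i ∈ P, (1 + -(if v ∈ S i then (1 : ℝ) else 0)) := by
    by_cases h : ∀ i ∈ P, v ∉ S i
    · rw [if_pos h]
      symm
      apply Finset.prod_eq_one
      intro i hi
      rw [if_neg (h i hi)]
      ring
    · rw [if_neg h]
      obtain ⟨i, hi, hiS⟩ : ∃ i ∈ P, v ∈ S i := by
        by_contra hne
        exact h fun i hi hiS => hne ⟨i, hi, hiS⟩
      symm
      apply Finset.prod_eq_zero hi
      rw [if_pos hiS]
      ring
  rw [h1, Finset.prod_one_add]
  apply Finset.sum_congr rfl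
  intro R _
  rw [Finset.prod_neg, Finset.prod_ite_zero]
  simp only [Finset.prod_const_one]

end Pointwise

section Main

variable {Ω ι : Type*}

open Classical in
/-- **abstract inclusion-exclusion divergence lemma.** -/
theorem fdci_infinite (P : Finset ι) (S : ι → Set Ω) (w : Ω → ℝ → ℝ)
    (x : ι → ℝ) (hx1 : ∀ i ∈ P, x i < 1)
    (Λ : ℝ → ℝ) (hΛ : Tendsto Λ (𝓝[>] (1 : ℝ)) atTop)
    (hw1 : ∀ v s, 1 < s → w v s ≤ 1)
    (hsum : ∀ R ∈ P.powerset, ∀ s : ℝ, 1 < s → s ≤ 2 →
      Summable (fun v : Ω => if ∀ i ∈ R, v ∈ S i then w v s else 0))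
    (C : Finset ι → ℝ)
    (hZ : ∀ R ∈ P.powerset, ∀ s : ℝ, 1 < s → s ≤ 2 →
      |∑' v : Ω, (if ∀ i ∈ R, v ∈ S i then w v s else 0) - (∏ i ∈ R, x i) * Λ s| ≤ C R) :
    {v : Ω | ∀ i ∈ P, v ∉ S i}.Infinite := by
  intro hfin
  set T : Set Ω := {v : Ω | ∀ i ∈ P, v ∉ S i} with hT
  -- the total weight of `T` is bounded by its cardinality
  set c : ℝ := ∏ i ∈ P, (1 - x i) with hc
  have hcpos : 0 < c := Finset.prod_pos fun i hi => by linarith [hx1 i hi]
  set B : ℝ := ∑ R ∈ P.powerset, C R with hB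
  -- pointwise identity
  have hpt : ∀ (s : ℝ) (v : Ω), (if ∀ i ∈ P, v ∉ S i then w v s else 0) =
      ∑ R ∈ P.powerset, (-1 : ℝ) ^ R.card * (if ∀ i ∈ R, v ∈ S i then w v s else 0) := by
    intro s v
    have := fdci_indicator P S v
    have h2 : (if ∀ i ∈ P, v ∉ S i then w v s else 0) =
        (if ∀ i ∈ P, v ∉ S i then (1 : ℝ) else 0) * w v s := by
      split_ifs <;> simp
    rw [h2, this, Finset.sum_mul]
    apply Finset.sum_congr rfl
    intro R _
    split_ifs <;> simp
  -- key inequality for every s in (1,2]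
  have key : ∀ s : ℝ, 1 < s → s ≤ 2 → c * Λ s - B ≤ (hfin.toFinset.card : ℝ) := by
    intro s hs1 hs2
    have hsumR : ∀ R ∈ P.powerset, Summable (fun v : Ω =>
        (-1 : ℝ) ^ R.card * (if ∀ i ∈ R, v ∈ S i then w v s else 0)) :=
      fun R hR => (hsum R hR s hs1 hs2).mul_left _
    have htsum : ∑' v : Ω, (if ∀ i ∈ P, v ∉ S i then w v s else 0) =
        ∑ R ∈ P.powerset, (-1 : ℝ) ^ R.card *
          ∑' v : Ω, (if ∀ i ∈ R, v ∈ S i then w v s else 0) := by
      rw [tsum_congr (hpt s), Summable.tsum_finsetSum hsumR]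
      apply Finset.sum_congr rfl
      intro R _
      rw [tsum_mul_left]
    -- upper bound by the cardinality of T
    have hle : ∑' v : Ω, (if ∀ i ∈ P, v ∉ S i then w v s else 0) ≤ (hfin.toFinset.card : ℝ) := by
      have hsupp : ∀ v ∉ hfin.toFinset, (if ∀ i ∈ P, v ∉ S i then w v s else 0) = 0 := by
        intro v hv
        have : ¬ ∀ i ∈ P, v ∉ S i := fun h => hv (hfin.mem_toFinset.mpr h)
        rw [if_neg this]
      rw [tsum_eq_sum hsupp]
      calc ∑ v ∈ hfin.toFinset, (if ∀ i ∈ P, v ∉ S i then w v s else 0)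
          ≤ ∑ _v ∈ hfin.toFinset, (1 : ℝ) := by
            apply Finset.sum_le_sum
            intro v _
            split_ifs
            · exact hw1 v s hs1
            · exact zero_le_one
        _ = (hfin.toFinset.card : ℝ) := by simp
    -- lower bound through the estimates
    have hexp : c * Λ s = ∑ R ∈ P.powerset, (-1 : ℝ) ^ R.card * ((∏ i ∈ R, x i) * Λ s) := by
      rw [hc]
      have : ∏ i ∈ P, (1 - x i) = ∏ i ∈ P, (1 + -x i) := by
        apply Finset.prod_congr rfl; intro i _; ring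
      rw [this, Finset.prod_one_add, Finset.sum_mul]
      apply Finset.sum_congr rfl
      intro R _
      rw [Finset.prod_neg]
      ring
    have hlow : c * Λ s - B ≤ ∑ R ∈ P.powerset, (-1 : ℝ) ^ R.card *
          ∑' v : Ω, (if ∀ i ∈ R, v ∈ S i then w v s else 0) := by
      rw [hexp, hB, ← Finset.sum_sub_distrib]
      apply Finset.sum_le_sum
      intro R hR
      have h := hZ R hR s hs1 hs2
      rw [abs_le] at h
      rcases neg_one_pow_eq_or ℝ R.card with h1 | h1 <;> rw [h1] <;> linarith [h.1, h.2]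
    linarith [htsum ▸ hle, hlow]
  -- contradiction as s ↓ 1
  have h1 : ∀ᶠ s in 𝓝[>] (1 : ℝ), ((hfin.toFinset.card : ℝ) + B) / c + 1 ≤ Λ s :=
    hΛ.eventually_ge_atTop _
  have h2 : ∀ᶠ s in 𝓝[>] (1 : ℝ), 1 < s := eventually_mem_nhdsWithin
  have h3 : ∀ᶠ s in 𝓝[>] (1 : ℝ), s ≤ 2 :=
    (eventually_le_nhds (by norm_num : (1 : ℝ) < 2)).filter_mono nhdsWithin_le_nhds
  obtain ⟨s, hs, hs1, hs2⟩ := (h1.and (h2.and h3)).exists
  have hk := key s hs1 hs2
  have : ((hfin.toFinset.card : ℝ) + B) / c * c + c ≤ Λ s * c := by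
    have := mul_le_mul_of_nonneg_right hs hcpos.le
    linarith [this]
  rw [div_mul_cancel₀ _ hcpos.ne'] at this
  linarith

end Main

end Fermat.Agent.S42x
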