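/-
S42 block B11, leaf L7 part (c) in carrier-independent form (helper14, prefix `fto_`):
open stabilisers pass from a `ZMod p`-module `Jp` with a Galois action to the tensor product
`K ⊗[ZMod p] Jp`.

* `fto_open`      : abstract tensor induction (any `Jp`, any family `ρ σ` with
                    `ρ σ (c ⊗ x) = c ⊗ act σ x`);
* `fto_open_sub`  : the hypothesis `hopen` for any carrier `Jp` with an additive map `ι : Jp → JZero N`
                    that is injective, lands in the `m`-torsion and intertwines `act σ` with `σ • ·`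
                    (e.g. `Jp = {x // p • x = 0}`, `Submodule.torsionBy ℤ (JZero N) p`, ...),
                    from `finl_stab_open`;
* `fto_open_jzero`: both combined.

Mathlib + `S42x/FinLevel` only.
-/
import Mathlib
import Fermat.Agent.S42x.FinLevel

set_option autoImplicit false

namespace Fermat.Agent.S42x

open scoped TensorProduct
open IntermediateField

local notation "Q̄" => AlgebraicClosure ℚ

section Abstract

variable {p : ℕ} {Jp : Type*} [AddCommGroup Jp] [Module (ZMod p) Jp]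
variable {K : Type*} [Field K] [Algebra (ZMod p) K]

/-- **abstract (c)**: if every element of `Jp` is fixed by `Gal(Q̄/E)` for some number field `E`, so
is every tensor in `K ⊗[ZMod p] Jp`. -/
theorem fto_open (act : (Q̄ ≃ₐ[ℚ] Q̄) → Jp → Jp)
    (ρ : (Q̄ ≃ₐ[ℚ] Q̄) → Module.End K (K ⊗[ZMod p] Jp))
    (hρ : ∀ σ (c : K) (x : Jp), ρ σ (c ⊗ₜ[ZMod p] x) = c ⊗ₜ[ZMod p] act σ x)
    (hopen : ∀ x : Jp, ∃ E : IntermediateField ℚ Q̄, FiniteDimensional ℚ E ∧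
      ∀ σ : Q̄ ≃ₐ[ℚ] Q̄, (∀ a ∈ E, σ a = a) → act σ x = x)
    (w : K ⊗[ZMod p] Jp) :
    ∃ E : IntermediateField ℚ Q̄, FiniteDimensional ℚ E ∧
      ∀ σ : Q̄ ≃ₐ[ℚ] Q̄, (∀ a ∈ E, σ a = a) → ρ σ w = w := by
  induction w using TensorProduct.induction_on with
  | zero => exact ⟨⊥, inferInstance, fun σ _ => map_zero _⟩
  | tmul c x =>
      obtain ⟨E, hE, hfix⟩ := hopen x
      exact ⟨E, hE, fun σ hσ => by rw [hρ, hfix σ hσ]⟩
  | add w₁ w₂ h₁ h₂ =>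
      obtain ⟨E₁, hE₁, hfix₁⟩ := h₁
      obtain ⟨E₂, hE₂, hfix₂⟩ := h₂
      refine ⟨E₁ ⊔ E₂, IntermediateField.finiteDimensional_sup E₁ E₂, fun σ hσ => ?_⟩
      rw [map_add, hfix₁ σ (fun a ha => hσ a ((le_sup_left : E₁ ≤ E₁ ⊔ E₂) ha)),
        hfix₂ σ (fun a ha => hσ a ((le_sup_right : E₂ ≤ E₁ ⊔ E₂) ha))]

/-- finitely many tensors at once. -/
theorem fto_open_finset (act : (Q̄ ≃ₐ[ℚ] Q̄) → Jp → Jp)
    (ρ : (Q̄ ≃ₐ[ℚ] Q̄) → Module.End K (K ⊗[ZMod p] Jp))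
    (hρ : ∀ σ (c : K) (x : Jp), ρ σ (c ⊗ₜ[ZMod p] x) = c ⊗ₜ[ZMod p] act σ x)
    (hopen : ∀ x : Jp, ∃ E : IntermediateField ℚ Q̄, FiniteDimensional ℚ E ∧
      ∀ σ : Q̄ ≃ₐ[ℚ] Q̄, (∀ a ∈ E, σ a = a) → act σ x = x)
    (S : Finset (K ⊗[ZMod p] Jp)) :
    ∃ E : IntermediateField ℚ Q̄, FiniteDimensional ℚ E ∧
      ∀ σ : Q̄ ≃ₐ[ℚ] Q̄, (∀ a ∈ E, σ a = a) → ∀ w ∈ S, ρ σ w = w := by
  classical
  induction S using Finset.induction_on with
  | empty => exact ⟨⊥, inferInstance, fun _ _ w hw => absurd hw (Finset.notMem_empty w)⟩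
  | insert a S _ ih =>
      obtain ⟨E₁, hE₁, hfix₁⟩ := ih
      obtain ⟨E₂, hE₂, hfix₂⟩ := fto_open act ρ hρ hopen a
      refine ⟨E₁ ⊔ E₂, IntermediateField.finiteDimensional_sup E₁ E₂, fun σ hσ w hw => ?_⟩
      rcases Finset.mem_insert.mp hw with rfl | hw
      · exact hfix₂ σ (fun a ha => hσ a ((le_sup_right : E₂ ≤ E₁ ⊔ E₂) ha))
      · exact hfix₁ σ (fun a ha => hσ a ((le_sup_left : E₁ ≤ E₁ ⊔ E₂) ha)) w hw

end Abstract

section JZero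

/-- the hypothesis `hopen` of `fto_open` for any carrier `Jp` of torsion classes of `JZero N`. -/
theorem fto_open_sub {Jp : Type*} (N : ℕ) (m : ℤ) (hm : m ≠ 0) (ι : Jp → ModularCurve.JZero N)
    (hι : Function.Injective ι) (hm0 : ∀ x : Jp, m • ι x = 0)
    (act : (Q̄ ≃ₐ[ℚ] Q̄) → Jp → Jp) (hact : ∀ σ x, ι (act σ x) = σ • ι x) (x : Jp) :
    ∃ E : IntermediateField ℚ Q̄, FiniteDimensional ℚ E ∧
      ∀ σ : Q̄ ≃ₐ[ℚ] Q̄, (∀ a ∈ E, σ a = a) → act σ x = x := by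
  obtain ⟨E, hE, hfix⟩ := finl_stab_open N m hm (ι x) (hm0 x)
  refine ⟨E, hE, fun σ hσ => hι ?_⟩
  rw [hact]
  exact hfix σ ((IntermediateField.mem_fixingSubgroup_iff E σ).mpr hσ)

variable {p : ℕ} {Jp : Type*} [AddCommGroup Jp] [Module (ZMod p) Jp]
variable {K : Type*} [Field K] [Algebra (ZMod p) K]

/-- **(c) for `JZero N`**: every tensor in `K ⊗[ZMod p] Jp` has an open stabiliser. -/
theorem fto_open_jzero (N : ℕ) (m : ℤ) (hm : m ≠ 0) (ι : Jp → ModularCurve.JZero N)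
    (hι : Function.Injective ι) (hm0 : ∀ x : Jp, m • ι x = 0)
    (act : (Q̄ ≃ₐ[ℚ] Q̄) → Jp → Jp) (hact : ∀ σ x, ι (act σ x) = σ • ι x)
    (ρ : (Q̄ ≃ₐ[ℚ] Q̄) → Module.End K (K ⊗[ZMod p] Jp))
    (hρ : ∀ σ (c : K) (x : Jp), ρ σ (c ⊗ₜ[ZMod p] x) = c ⊗ₜ[ZMod p] act σ x)
    (w : K ⊗[ZMod p] Jp) :
    ∃ E : IntermediateField ℚ Q̄, FiniteDimensional ℚ E ∧
      ∀ σ : Q̄ ≃ₐ[ℚ] Q̄, (∀ a ∈ E, σ a = a) → ρ σ w = w :=
  fto_open act ρ hρ (fto_open_sub N m hm ι hι hm0 act hact) w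

end JZero

end Fermat.Agent.S42x
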