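/-
S42x/FinUpperGen61 (helper61; S42/S29 project, UPPER HALF for an ARBITRARY prime `p`; prefix `fug61_`).

`fug61_IotaPkg M p` = the waist of the project (comparison map `ι : lrL M →+ JZero M`, `p • ι = 0`,
`ker ι ⊆ p · lrL M`, Hecke-equivariant at the primes `ℓ ∤ M`, `ℓ ≠ p`).

* `fug61_input_of_iota` : from the waist, for every eigenform `g`, every field `K` over `ZMod p` and every ring
  hom `ψ : ℤ̄ →+* K`: `(V, ρ, v ≠ 0, hopen, hfrob, hinert)` — verbatim the body of `s29c_Input` (S29Core) and the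
  inputs of `fin_core_closed` / `fin_attach_closed`.
* `fug61_s29c_input` : `(∀ M p, fug61_IotaPkg M p) → s29c_Input`.
-/
import Mathlib
import Fermat.Agent.S42x.FinUpper61
import Fermat.Agent.S42x.S29Core

set_option autoImplicit false
set_option linter.style.haveILetI false

open ModularCurve AlgebraicCurve TensorProduct Fermat.Agent.S41x

namespace Fermat.Agent.S42x

noncomputable section

/-- the waist: comparison map at level `M` and prime `p` (equivariance only needed at `ℓ ∤ M`, `ℓ ≠ p`). -/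
def fug61_IotaPkg (M p : ℕ) [NeZero M] : Prop :=
  ∃ ι : lrL M →+ JZero M, (∀ v : lrL M, p • ι v = 0) ∧
    (∀ v : lrL M, ι v = 0 → ∃ w : lrL M, v = (p : ℤ) • w) ∧
    ∀ ℓ : Nat.Primes, ¬ (ℓ : ℕ) ∣ M → (ℓ : ℕ) ≠ p → ∀ v : lrL M,
      ι (lrtT M ℓ v) = heckeOperatorBar M ℓ (ι v)

/-- **UPPER HALF, any prime `p`, any coefficient field**: the inputs of `fin_core_closed`. -/
theorem fug61_input_of_iota (M : ℕ) [NeZero M] (p : ℕ) [Fact p.Prime] (h : fug61_IotaPkg M p)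
    (g : CuspForm (CongruenceSubgroup.Gamma0 M) 2) (hg : g.IsNormalizedEigenform)
    (K : Type) [Field K] [Algebra (ZMod p) K] (ψ : integralClosure ℤ ℂ →+* K) :
    ∃ (V : Type) (_ : AddCommGroup V) (_ : Module K V)
      (ρ : (AlgebraicClosure ℚ ≃ₐ[ℚ] AlgebraicClosure ℚ) →* Module.End K V) (v : V),
      v ≠ 0 ∧
      (∃ E : IntermediateField ℚ (AlgebraicClosure ℚ), FiniteDimensional ℚ E ∧
        ∀ σ : AlgebraicClosure ℚ ≃ₐ[ℚ] AlgebraicClosure ℚ, (∀ a ∈ E, σ a = a) → ρ σ v = v) ∧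
      (∀ ℓ : ℕ, ℓ.Prime → ¬ ℓ ∣ M → ℓ ≠ p →
        ∀ A : ValuationSubring (AlgebraicClosure ℚ), A.LiesOverPrime ℓ →
          ∀ τ : AlgebraicClosure ℚ ≃ₐ[ℚ] AlgebraicClosure ℚ, A.IsFrobeniusAt τ ℓ →
            ∃ a : integralClosure ℤ ℂ, (a : ℂ) = ModularFormClass.qCoeff g ℓ ∧
              ∀ σ, ρ τ (ρ τ (ρ σ v)) - ψ a • ρ τ (ρ σ v) + (ℓ : K) • ρ σ v = 0) ∧
      (∀ ℓ : ℕ, ℓ.Prime → ¬ ℓ ∣ M * p →
        ∀ A : ValuationSubring (AlgebraicClosure ℚ), A.LiesOverPrime ℓ →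
          ∀ σ ∈ A.inertiaSubgroupIn ℚ, ∀ τ, ρ σ (ρ τ v) = ρ τ v) := by
  obtain ⟨ι, htors, hker, hequiv⟩ := h
  obtain ⟨x, hx0, hx⟩ := bet52_top (p := p) g hg ψ (fun ℓ => fint_Tp M p ℓ)
    (fup61_iota M p ι htors)
    (fun v hv => hker v (by
      have := congrArg (fun y : fint_Jp M p => (y : JZero M)) hv
      simpa using this))
    (fun ℓ : Nat.Primes => ¬ (ℓ : ℕ) ∣ M ∧ (ℓ : ℕ) ≠ p)
    (fun ℓ hℓ v => Subtype.ext (by
      rw [fup61_iota_coe, hequiv ℓ hℓ.1 hℓ.2 v]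
      rfl))
  refine ⟨K ⊗[ZMod p] fint_Jp M p, inferInstance, inferInstance, fint_rho M p K, x, hx0,
    fint_hopen M p K x, fint_hfrob M p K g ψ x ?_, ?_⟩
  · intro ℓ hℓ hℓM hℓp
    obtain ⟨a, ha⟩ := bet52_qCoeff_integral g hg ℓ hℓ
    exact ⟨a, ha, hx ⟨ℓ, hℓ⟩ ⟨hℓM, hℓp⟩ a ha⟩
  · intro ℓ hℓ hℓMp A hA σ hσ τ
    have hℓM : ¬ ℓ ∣ M := fun h => hℓMp (Dvd.dvd.mul_right h _)
    have hℓp : ℓ ≠ p := fun h => hℓMp (h ▸ Dvd.intro_left M rfl)
    rw [fint_inertia M p K ℓ hℓ hℓM hℓp A hA σ hσ]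
    rfl

/-- the B12 input of S29/S42 (`s29c_Input`, S29Core) from the waist at every level and every prime. -/
theorem fug61_s29c_input (h : ∀ (M : ℕ) [NeZero M] (p : ℕ) [Fact p.Prime], fug61_IotaPkg M p) :
    s29c_Input := by
  intro M _ p _ g hg K _ _ _ ψ
  exact fug61_input_of_iota M p (h M p) g hg K ψ

end

end Fermat.Agent.S42x
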