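/-
S42 project, block B5 (Hecke equivariance R6), leaf HE2b (twin by helper54), prefix `heqd54_`.

Evaluation of `det (mp_mat p f)` for a convergent Laurent series `f` over `ℂ`:
`(det (mp_mat p f))(t^p) = ∏_{b < p} f(t ζ^b)` (`ζ` a primitive `p`-th root of unity), by the
evaluated eigenvector identity `S28x.mp_eval_eigen` and a Vandermonde argument.
-/
import Mathlib
import Fermat.Agent.S28x.ModPolyEval

set_option autoImplicit false

namespace Fermat.Agent.S42x

open HahnSeries ModularCurve Matrix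
open Fermat.Agent.S24x Fermat.Agent.S28x

noncomputable section

variable (p : ℕ) [NeZero p]

/-- the matrix `mp_mat p f` with entries in the algebra of convergent Laurent series -/
def heqd54_matC {f : LaurentSeries ℂ} (hf : LConv f) : Matrix (Fin p) (Fin p) convLaurent :=
  fun i k => ⟨mp_mat p f i k, mp_lconv_sec p hf ((i : ℤ) - (k : ℤ))⟩

theorem heqd54_matC_val {f : LaurentSeries ℂ} (hf : LConv f) :
    (convLaurent.val : convLaurent →+* LaurentSeries ℂ).mapMatrix (heqd54_matC p hf) =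
      mp_mat p f := rfl

theorem heqd54_det_val {f : LaurentSeries ℂ} (hf : LConv f) :
    (((heqd54_matC p hf).det : convLaurent) : LaurentSeries ℂ) = (mp_mat p f).det := by
  have h := (convLaurent.val : convLaurent →+* LaurentSeries ℂ).map_det (heqd54_matC p hf)
  rw [heqd54_matC_val] at h
  exact h

/-- `det (mp_mat p f)` converges -/
theorem heqd54_lconv_det {f : LaurentSeries ℂ} (hf : LConv f) : LConv (mp_mat p f).det := by
  rw [← heqd54_det_val p hf]
  exact (heqd54_matC p hf).det.2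

/-- the evaluated matrix -/
theorem heqd54_lEval_det_eq {f : LaurentSeries ℂ} (hf : LConv f) {q : ℂ} (hq0 : q ≠ 0)
    (hq : ‖q‖ < 1) :
    lEval (mp_mat p f).det q =
      (Matrix.of fun i k : Fin p => lEval (mp_mat p f i k) q).det := by
  have h := ((lEvalHom q hq0 hq : convLaurent →ₐ[ℂ] ℂ) : convLaurent →+* ℂ).map_det
    (heqd54_matC p hf)
  have h1 : ((lEvalHom q hq0 hq : convLaurent →ₐ[ℂ] ℂ) : convLaurent →+* ℂ)
      (heqd54_matC p hf).det = lEval (mp_mat p f).det q := by
    show lEval (((heqd54_matC p hf).det : convLaurent) : LaurentSeries ℂ) q = _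
    rw [heqd54_det_val]
  rw [← h1, h]
  rfl

/-- **det evaluation**: `(det (mp_mat p f))(t^p) = ∏_b f(t ζ^b)`. -/
theorem heqd54_lEval_det {f : LaurentSeries ℂ} (hf : LConv f) {t : ℂ} (ht0 : t ≠ 0)
    (ht1 : ‖t‖ < 1) {ζ : ℂ} (hζ : IsPrimitiveRoot ζ p) :
    lEval (mp_mat p f).det (t ^ p) = ∏ b : Fin p, lEval f (t * ζ ^ (b : ℕ)) := by
  have hp0 : p ≠ 0 := NeZero.ne p
  have hq0 : t ^ p ≠ 0 := pow_ne_zero p ht0
  have hq1 : ‖t ^ p‖ < 1 := by
    rw [norm_pow]
    exact pow_lt_one₀ (norm_nonneg t) ht1 hp0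
  rw [heqd54_lEval_det_eq p hf hq0 hq1]
  set Mq : Matrix (Fin p) (Fin p) ℂ := Matrix.of fun i k : Fin p => lEval (mp_mat p f i k) (t ^ p)
    with hMq
  set x : Fin p → ℂ := fun b => t * ζ ^ (b : ℕ) with hx
  have hζnorm : ‖ζ‖ = 1 := hζ.norm'_eq_one hp0
  have hx0 : ∀ b, x b ≠ 0 := fun b => mul_ne_zero ht0 (pow_ne_zero _ (hζ.ne_zero hp0))
  have hx1 : ∀ b, ‖x b‖ < 1 := by
    intro b
    rw [hx]
    simp only [norm_mul, norm_pow, hζnorm, one_pow, mul_one]
    exact ht1
  have hxp : ∀ b, x b ^ p = t ^ p := by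
    intro b
    rw [hx]
    simp only [mul_pow]
    rw [← pow_mul, mul_comm (b : ℕ) p, pow_mul, hζ.pow_eq_one, one_pow, mul_one]
  have hxinj : Function.Injective x := by
    intro a b hab
    have h1 : ζ ^ (a : ℕ) = ζ ^ (b : ℕ) := mul_left_cancel₀ ht0 hab
    exact Fin.ext (hζ.pow_inj a.2 b.2 h1)
  -- the eigenvector identities: `V * Mq = diag * V`
  have hV : vandermonde x * Mq = Matrix.diagonal (fun b => lEval f (x b)) * vandermonde x := by
    ext b k
    rw [Matrix.mul_apply, Matrix.diagonal_mul]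
    have h := mp_eval_eigen p hf k (hx0 b) (hx1 b)
    rw [hxp b] at h
    simp only [vandermonde_apply, hMq, Matrix.of_apply]
    exact h
  have hdet := congrArg Matrix.det hV
  rw [Matrix.det_mul, Matrix.det_mul, Matrix.det_diagonal, mul_comm] at hdet
  have hVne : (vandermonde x).det ≠ 0 := Matrix.det_vandermonde_ne_zero_iff.mpr hxinj
  exact mul_right_cancel₀ hVne hdet

end

end Fermat.Agent.S42x
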