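/-
S42 project, block B5 (Hecke equivariance R6), leaf HE2 (helper79), prefix `heqn_`.

**The analytic norm formula.**  For `f ∈ F_N = Q̄(j(q^d) : d ∣ N)`, `ℓ ∤ N` prime, the function
`h := N_{F_{Nℓ}/αF_N}(β f) ∈ F_N` (`heqn_norm N ℓ f`; `div h = T_ℓ (div f)` by `es3ld_hecke_apply`)
is realised in `Mer = Frac Hol` by
`evF h = ∏_{A ∈ heckeReps N ℓ} (evF f) ∘ A`, i.e. `h(τ) = f(ℓτ) ∏_{b<ℓ} f((τ+b)/ℓ)`.

* `heqn_evF_of_conv`  : `x ∈ F_N` with convergent `q`-series ⇒ `evF x` = the holomorphic function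
  `τ ↦ x(e^{2πiτ})`;
* `heqn_lconv_det`, `heqn_lEval_det` : for a convergent Laurent series `f`, `det (mp_mat p f)`
  converges and `det (mp_mat p f)(e^{2πiz}) = ∏_{b<p} f(e^{2πi(z+b)/p})` (Vandermonde argument of
  S28x: `mp_eval_eigen` + `mp_charpoly_eq_prod`; no roots of unity);
* `heqn_norm_conv`    : function-level formula (via `es3lb_norm_series_bar`:
  `h = f(q^ℓ) · det (mp_mat ℓ f)` in `Q̄((q))`);
* `heqn_evF_norm`     : the formula in `Mer`, for ANY family `c A : Mer →+* Mer` of ring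
  endomorphisms which are "precomposition with the Möbius transformation of `A`" on `Hol`
  (`heqn_IsComp`; satisfied by the `heq_comp A` of `S42x/HeckeEqDefs.lean`).
-/
import Mathlib
import Fermat.Agent.S24x.Realize
import Fermat.Agent.S28x.ModPolyCoef
import Fermat.Agent.S37x.Es3LiftsBar
import Fermat.Agent.S16x.CohHecke
import Fermat.Agent.S42x.HeckeEqDefs
import Fermat.Agent.S42x.HeckeEqDiv

set_option autoImplicit false

namespace Fermat.Agent.S42x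

open ModularCurve UpperHalfPlane HahnSeries AlgebraicCurve
open Fermat.Agent.S24x Fermat.Agent.S28x Fermat.Agent.S37x Fermat.Agent.S16x Fermat.Agent.S18x
open scoped Manifold MatrixGroups

noncomputable section

/-! ### elements of `F_N` with convergent `q`-series -/

/-- an element of the modular function field whose `q`-series converges is realised in `Mer` by the
holomorphic function it defines. -/
theorem heqn_evF_of_conv (N : ℕ) (x : FBar N) (hx : (x : LaurentSeries Qbar) ∈ convBar) :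
    evF N x = algebraMap Hol Mer (evBar ⟨(x : LaurentSeries Qbar), hx⟩) := by
  obtain ⟨⟨a, s⟩, h⟩ := IsLocalization.surj (nonZeroDivisors (ringR0 N)) x
  -- `h : x * algebraMap s = algebraMap a`
  simp only at h
  have hs0 : evF N (algebraMap (ringR0 N) (FBar N) (s : ringR0 N)) ≠ 0 := by
    rw [Ne, map_eq_zero, map_eq_zero_iff _ (IsFractionRing.injective (ringR0 N) (FBar N))]
    exact nonZeroDivisors.coe_ne_zero s
  have h1 : evF N x * evF N (algebraMap (ringR0 N) (FBar N) (s : ringR0 N))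
      = evF N (algebraMap (ringR0 N) (FBar N) a) := by rw [← map_mul, h]
  -- the same identity for convergent series
  have hsc : ((s : ringR0 N) : LaurentSeries Qbar) ∈ convBar :=
    ringR0_le_convBar N (s : ringR0 N).2
  have hac : (a : LaurentSeries Qbar) ∈ convBar := ringR0_le_convBar N a.2
  have h2 : (⟨(x : LaurentSeries Qbar), hx⟩ : convBar) *
      ⟨((s : ringR0 N) : LaurentSeries Qbar), hsc⟩ = ⟨(a : LaurentSeries Qbar), hac⟩ := by
    apply Subtype.ext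
    have := congrArg (fun y : FBar N => (y : LaurentSeries Qbar)) h
    exact this
  have h3 : evR0 N (s : ringR0 N) = evBar ⟨((s : ringR0 N) : LaurentSeries Qbar), hsc⟩ := rfl
  have h4 : evR0 N a = evBar ⟨(a : LaurentSeries Qbar), hac⟩ := rfl
  rw [evF_algebraMap_R0, evF_algebraMap_R0, h3, h4, ← h2, map_mul, map_mul] at h1
  rw [evF_algebraMap_R0, h3] at hs0
  exact mul_right_cancel₀ hs0 h1

/-! ### the determinant of `mp_mat p f` for a convergent series `f` -/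

section Det

/-- help instance search (the generic path through `Subalgebra.toRing` is slow) -/
local instance heqn_instCommRing : CommRing ↥convLaurent := convLaurent.toCommRing

variable (p : ℕ) [NeZero p]

/-- the matrix `mp_mat p f` of a convergent series, with entries in `convLaurent` -/
def heqn_matC {f : LaurentSeries ℂ} (hf : LConv f) : Matrix (Fin p) (Fin p) convLaurent :=
  fun i k => ⟨mp_mat p f i k, mp_lconv_sec p hf _⟩

theorem heqn_matC_val {f : LaurentSeries ℂ} (hf : LConv f) :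
    (heqn_matC p hf).map (convLaurent.val) = mp_mat p f := rfl

theorem heqn_det_eq {f : LaurentSeries ℂ} (hf : LConv f) :
    (mp_mat p f).det = (((heqn_matC p hf).det : convLaurent) : LaurentSeries ℂ) := by
  rw [← heqn_matC_val p hf]
  exact (RingHom.map_det (convLaurent.val : convLaurent →+* LaurentSeries ℂ) (heqn_matC p hf)).symm

/-- the determinant of `mp_mat p f` converges when `f` does. -/
theorem heqn_lconv_det {f : LaurentSeries ℂ} (hf : LConv f) : LConv (mp_mat p f).det := by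
  rw [heqn_det_eq p hf]
  exact ((heqn_matC p hf).det : convLaurent).2

/-- **value of the determinant**: `det (mp_mat p f)(e^{2πiz}) = ∏_{b<p} f(e^{2πi(z+b)/p})`. -/
theorem heqn_lEval_det {f : LaurentSeries ℂ} (hf : LConv f) (z : ℍ) :
    lEval (mp_mat p f).det (qOf z) = ∏ b : Fin p, lEval f (qOf (mp_pt p (b : ℕ) z)) := by
  set A : Matrix (Fin p) (Fin p) ℂ := (heqn_matC p hf).map (mp_ev z) with hA
  have h1 : lEval (mp_mat p f).det (qOf z) = A.det := by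
    rw [heqn_det_eq p hf, ← mp_ev_apply, hA]
    exact RingHom.map_det (mp_ev z) (heqn_matC p hf)
  have h2 : A.charpoly =
      ∏ b : Fin p, (Polynomial.X - Polynomial.C (lEval f (qOf (mp_pt p (b : ℕ) z)))) := by
    refine mp_charpoly_eq_prod A (fun b : Fin p => qOf (mp_pt p (b : ℕ) z))
      (fun b : Fin p => lEval f (qOf (mp_pt p (b : ℕ) z)))
      (mp_qOf_injective p z (fun b : Fin p => mp_pt p (b : ℕ) z) (fun b => mp_pt_mul p b z))
      (fun b k => ?_)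
    have h := mp_eval_eigen p hf k (qOf_ne_zero (mp_pt p (b : ℕ) z))
      (norm_qOf_lt_one (mp_pt p (b : ℕ) z))
    rw [mp_qOf_pow p _ z (b : ℕ) (mp_pt_mul p b z)] at h
    exact h
  rw [h1, Matrix.det_eq_sign_charpoly_coeff, h2, Polynomial.coeff_zero_eq_eval_zero,
    Polynomial.eval_prod]
  simp only [Polynomial.eval_sub, Polynomial.eval_X, Polynomial.eval_C, zero_sub,
    Fintype.card_fin]
  rw [Finset.prod_neg, Finset.card_univ, Fintype.card_fin, ← mul_assoc, ← mul_pow]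
  simp

end Det

/-! ### the norm `N_α(β f)` -/

variable (N ℓ : ℕ) [NeZero N] [NeZero ℓ]

/-- `f ↦ N_{F_{Nℓ}/αF_N}(β f)` as a monoid homomorphism `F_N → F_N` (the "multiplicative Hecke
operator": `div (heqn_norm f) = T_ℓ (div f)`, see `es3ld_hecke_apply`). -/
def heqn_norm : FBar N →* FBar N :=
  (@Algebra.norm (FBar N) (modularFunctionFieldBar (N * ℓ)) _ _
      (algebraAlong (heckeAlphaBar Qbar N ℓ))).comp
    ((heckeBetaBar Qbar N ℓ : FBar N →+* modularFunctionFieldBar (N * ℓ)) :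
      FBar N →* modularFunctionFieldBar (N * ℓ))

theorem heqn_norm_apply (u : FBar N) :
    heqn_norm N ℓ u = @Algebra.norm (FBar N) (modularFunctionFieldBar (N * ℓ)) _ _
      (algebraAlong (heckeAlphaBar Qbar N ℓ)) (heckeBetaBar Qbar N ℓ u) := rfl

omit [NeZero N] in
theorem heqn_iotaL_qExpand (u : LaurentSeries Qbar) :
    iotaL (qExpand Qbar ℓ u) = qExpand ℂ ℓ (iotaL u) := by
  rw [iotaL, coeffMap_qExpand]

omit [NeZero N] in
theorem heqn_iotaL_det (u : LaurentSeries Qbar) :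
    iotaL (mp_mat ℓ u).det = (mp_mat ℓ (iotaL u)).det := by
  rw [iotaL, mp_mat_coeffMap, RingHom.map_det]
  rfl

/-- **the analytic norm formula, function level**: for `u ∈ F_N` with convergent `q`-series,
`N_α(β u)` has convergent `q`-series and its value at `τ` is `u(ℓτ) ∏_{b<ℓ} u((τ+b)/ℓ)`. -/
theorem heqn_norm_conv [Fact ℓ.Prime] (hℓN : ¬ ℓ ∣ N) (u : FBar N)
    (hu : (u : LaurentSeries Qbar) ∈ convBar) :
    ∃ hn : ((heqn_norm N ℓ u : FBar N) : LaurentSeries Qbar) ∈ convBar,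
      ∀ τ : ℍ, (evBar ⟨_, hn⟩ : ℍ → ℂ) τ =
        (evBar ⟨_, hu⟩ : ℍ → ℂ) (dmulH ℓ τ) *
          ∏ b : Fin ℓ, (evBar ⟨_, hu⟩ : ℍ → ℂ) (mp_pt ℓ (b : ℕ) τ) := by
  have hs : ((heqn_norm N ℓ u : FBar N) : LaurentSeries Qbar) =
      qExpand Qbar ℓ (u : LaurentSeries Qbar) * (mp_mat ℓ (u : LaurentSeries Qbar)).det :=
    es3lb_norm_series_bar N ℓ hℓN u
  have hc : LConv (iotaL (u : LaurentSeries Qbar)) := hu
  have hc1 : LConv (qExpand ℂ ℓ (iotaL (u : LaurentSeries Qbar))) := hc.qExpand ℓ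
  have hc2 : LConv (mp_mat ℓ (iotaL (u : LaurentSeries Qbar))).det := heqn_lconv_det ℓ hc
  have hi : iotaL ((heqn_norm N ℓ u : FBar N) : LaurentSeries Qbar) =
      qExpand ℂ ℓ (iotaL (u : LaurentSeries Qbar)) *
        (mp_mat ℓ (iotaL (u : LaurentSeries Qbar))).det := by
    rw [hs, map_mul, heqn_iotaL_qExpand, heqn_iotaL_det]
  have hn : ((heqn_norm N ℓ u : FBar N) : LaurentSeries Qbar) ∈ convBar := by
    rw [mem_convBar, hi]
    exact hc1.mul hc2
  refine ⟨hn, fun τ => ?_⟩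
  simp only [evBar_apply]
  rw [hi, lEval_mul hc1 hc2 (qOf_ne_zero τ) (norm_qOf_lt_one τ), lEval_qExpand, ← qOf_dmulH,
    heqn_lEval_det ℓ hc]

/-! ### the formula in `Mer` -/

/-- `c : Mer →+* Mer` is "precomposition with the Möbius transformation `τ ↦ (aτ+b)/(cτ+d)` of the
integer matrix `A = [[a,b],[c,d]]`" on holomorphic functions. -/
def heqn_IsComp (A : Matrix (Fin 2) (Fin 2) ℤ) (c : Mer →+* Mer) : Prop :=
  ∀ g : Hol, ∃ g' : Hol, c (algebraMap Hol Mer g) = algebraMap Hol Mer g' ∧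
    ∀ τ : ℍ, ∃ τ' : ℍ,
      (((A 1 0 : ℤ) : ℂ) * (τ : ℂ) + ((A 1 1 : ℤ) : ℂ)) * (τ' : ℂ) =
        ((A 0 0 : ℤ) : ℂ) * (τ : ℂ) + ((A 0 1 : ℤ) : ℂ) ∧
      (g' : ℍ → ℂ) τ = (g : ℍ → ℂ) τ'

omit [NeZero N] [NeZero ℓ] in
/-- splitting a product over `heckeReps N ℓ` (`ℓ ∤ N`, `ℓ` prime). -/
theorem heqn_prod_heckeReps {M : Type*} [CommMonoid M] (hℓ : ℓ.Prime) (hℓN : ¬ ℓ ∣ N)
    (F : Matrix (Fin 2) (Fin 2) ℤ → M) :
    ∏ A ∈ heckeReps N ℓ, F A =
      F !![(ℓ : ℤ), 0; 0, 1] * ∏ b : Fin ℓ, F !![1, ((b : ℕ) : ℤ); 0, (ℓ : ℤ)] := by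
  unfold heckeReps
  rw [if_neg hℓN, Finset.prod_union, Finset.prod_singleton, Finset.prod_image, Finset.prod_range,
    mul_comm]
  · intro j _ j' _ h
    have := congrFun (congrFun h 0) 1
    simpa using this
  · rw [Finset.disjoint_singleton_right, Finset.mem_image]
    rintro ⟨j, _, h⟩
    have := congrFun (congrFun h 0) 0
    simp only [Matrix.of_apply, Matrix.cons_val_zero] at this
    have h1 : (ℓ : ℤ) = 1 := this.symm
    have h2 : ℓ = 1 := by exact_mod_cast h1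
    exact hℓ.one_lt.ne' h2

omit [NeZero N] [NeZero ℓ] in
theorem heqn_mem_inf (hℓN : ¬ ℓ ∣ N) : !![(ℓ : ℤ), 0; 0, 1] ∈ heckeReps N ℓ := by
  unfold heckeReps
  rw [if_neg hℓN]
  exact Finset.mem_union_right _ (Finset.mem_singleton_self _)

omit [NeZero N] [NeZero ℓ] in
theorem heqn_mem_fin (b : Fin ℓ) : !![1, ((b : ℕ) : ℤ); 0, (ℓ : ℤ)] ∈ heckeReps N ℓ :=
  Finset.mem_union_left _ (Finset.mem_image.mpr ⟨b, Finset.mem_range.mpr b.2, rfl⟩)

omit [NeZero N] in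
theorem heqn_isComp_inf {c : Mer →+* Mer} (hc : heqn_IsComp !![(ℓ : ℤ), 0; 0, 1] c) (g : Hol) :
    ∃ g' : Hol, c (algebraMap Hol Mer g) = algebraMap Hol Mer g' ∧
      ∀ τ : ℍ, (g' : ℍ → ℂ) τ = (g : ℍ → ℂ) (dmulH ℓ τ) := by
  obtain ⟨g', h1, h2⟩ := hc g
  refine ⟨g', h1, fun τ => ?_⟩
  obtain ⟨τ', h3, h4⟩ := h2 τ
  have h5 : τ' = dmulH ℓ τ := by
    apply UpperHalfPlane.ext
    rw [coe_dmulH]
    simpa using h3
  rw [h4, h5]

omit [NeZero N] in
theorem heqn_isComp_fin (b : ℕ) {c : Mer →+* Mer}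
    (hc : heqn_IsComp !![1, (b : ℤ); 0, (ℓ : ℤ)] c) (g : Hol) :
    ∃ g' : Hol, c (algebraMap Hol Mer g) = algebraMap Hol Mer g' ∧
      ∀ τ : ℍ, (g' : ℍ → ℂ) τ = (g : ℍ → ℂ) (mp_pt ℓ b τ) := by
  obtain ⟨g', h1, h2⟩ := hc g
  refine ⟨g', h1, fun τ => ?_⟩
  obtain ⟨τ', h3, h4⟩ := h2 τ
  have h6 : τ' = mp_pt ℓ b τ := by
    apply UpperHalfPlane.ext
    rw [mpi_coe_pt]
    have hℓ0 : (ℓ : ℂ) ≠ 0 := by exact_mod_cast NeZero.ne ℓ
    have h5 : (ℓ : ℂ) * (τ' : ℂ) = (τ : ℂ) + b := by simpa using h3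
    field_simp
    rw [← h5]; ring
  rw [h4, h6]

/-- **the analytic norm formula for elements with convergent `q`-series.** -/
theorem heqn_evF_norm_conv [Fact ℓ.Prime] (hℓN : ¬ ℓ ∣ N)
    (c : Matrix (Fin 2) (Fin 2) ℤ → (Mer →+* Mer))
    (hc : ∀ A ∈ heckeReps N ℓ, heqn_IsComp A (c A)) (u : FBar N)
    (hu : (u : LaurentSeries Qbar) ∈ convBar) :
    evF N (heqn_norm N ℓ u) = ∏ A ∈ heckeReps N ℓ, c A (evF N u) := by
  have hℓ : ℓ.Prime := Fact.out
  obtain ⟨hn, hval⟩ := heqn_norm_conv N ℓ hℓN u hu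
  rw [heqn_prod_heckeReps N ℓ hℓ hℓN, heqn_evF_of_conv N _ hn, heqn_evF_of_conv N u hu]
  set g : Hol := evBar ⟨_, hu⟩ with hg
  obtain ⟨gi, hgi1, hgi2⟩ := heqn_isComp_inf ℓ (hc _ (heqn_mem_inf N ℓ hℓN)) g
  choose gf hgf1 hgf2 using fun b : Fin ℓ =>
    heqn_isComp_fin ℓ (b : ℕ) (hc _ (heqn_mem_fin N ℓ b)) g
  rw [hgi1]
  simp_rw [hgf1]
  rw [← map_prod, ← map_mul]
  congr 1
  apply Subtype.ext
  funext τ
  rw [hval τ]
  show _ = ((gi * ∏ b, gf b : Hol) : ℍ → ℂ) τ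
  rw [Subring.coe_mul, Pi.mul_apply, hgi2, SubmonoidClass.coe_finsetProd, Finset.prod_apply]
  simp_rw [hgf2]

/-- **HE2, the analytic norm formula**: for every `f ∈ F_N` (`ℓ ∤ N` prime),
`evF (N_{F_{Nℓ}/αF_N}(β f)) = ∏_{A ∈ heckeReps N ℓ} (evF f) ∘ A`. -/
theorem heqn_evF_norm [Fact ℓ.Prime] (hℓN : ¬ ℓ ∣ N)
    (c : Matrix (Fin 2) (Fin 2) ℤ → (Mer →+* Mer))
    (hc : ∀ A ∈ heckeReps N ℓ, heqn_IsComp A (c A)) (f : FBar N) :
    evF N (heqn_norm N ℓ f) = ∏ A ∈ heckeReps N ℓ, c A (evF N f) := by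
  obtain ⟨⟨a, s⟩, h⟩ := IsLocalization.surj (nonZeroDivisors (ringR0 N)) f
  simp only at h
  have ha := heqn_evF_norm_conv N ℓ hℓN c hc (algebraMap (ringR0 N) (FBar N) a)
    (ringR0_le_convBar N a.2)
  have hs := heqn_evF_norm_conv N ℓ hℓN c hc (algebraMap (ringR0 N) (FBar N) (s : ringR0 N))
    (ringR0_le_convBar N (s : ringR0 N).2)
  have hs0 : algebraMap (ringR0 N) (FBar N) (s : ringR0 N) ≠ 0 := by
    rw [Ne, map_eq_zero_iff _ (IsFractionRing.injective (ringR0 N) (FBar N))]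
    exact nonZeroDivisors.coe_ne_zero s
  have hne : evF N (heqn_norm N ℓ (algebraMap (ringR0 N) (FBar N) (s : ringR0 N))) ≠ 0 := by
    rw [hs, Finset.prod_ne_zero_iff]
    intro A _
    exact (_root_.map_ne_zero _).mpr ((_root_.map_ne_zero _).mpr hs0)
  rw [← h, map_mul, map_mul] at ha
  simp_rw [map_mul] at ha
  rw [Finset.prod_mul_distrib, ← hs] at ha
  exact mul_right_cancel₀ hne ha

/-! ### instantiation at `heq_comp` (the shape of `hNorm` in `heq_R6_of`) -/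

omit [NeZero N] [NeZero ℓ] in
/-- `heq_comp A` is precomposition with the Möbius transformation of `A` (`det A > 0`). -/
theorem heqn_isComp_heq_comp (A : Matrix (Fin 2) (Fin 2) ℤ) (hA : 0 < A.det) :
    heqn_IsComp A (heq_comp A) := by
  intro g
  refine ⟨heq_compHol A hA g, heq_comp_algebraMap A hA g, fun τ => ⟨heq_glOf A hA • τ, ?_, rfl⟩⟩
  have hden : (((A 1 0 : ℤ) : ℂ) * (τ : ℂ) + ((A 1 1 : ℤ) : ℂ)) ≠ 0 := by
    have h := UpperHalfPlane.denom_ne_zero (heq_glOf A hA) τ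
    simpa [UpperHalfPlane.denom, heq_glOf_coe] using h
  rw [heq_glOf_smul_coe, mul_div_cancel₀ _ hden]

omit [NeZero N] [NeZero ℓ] in
theorem heqn_det_pos_of_mem (hℓ : ℓ.Prime) {A : Matrix (Fin 2) (Fin 2) ℤ}
    (hA : A ∈ heckeReps N ℓ) : 0 < A.det := by
  have : NeZero ℓ := ⟨hℓ.ne_zero⟩
  have h0 : (0 : ℤ) < (ℓ : ℤ) := by exact_mod_cast hℓ.pos
  rcases coh_mem_heckeReps.mp hA with ⟨j, rfl⟩ | ⟨-, rfl⟩
  · rw [cohMatFin_det]; exact h0
  · rw [cohMatInf_det]; exact h0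

/-- **HE2 in the shape used by `heq_R6_of`**:
`evF (heq_Nm M ℓ f) = ∏ A ∈ heckeReps M ℓ, heq_comp A (evF f)`. -/
theorem heqn_evF_Nm [Fact ℓ.Prime] (hℓN : ¬ ℓ ∣ N) (f : FBar N) :
    evF N (heq_Nm N ℓ f) = ∏ A ∈ heckeReps N ℓ, heq_comp A (evF N f) :=
  heqn_evF_norm N ℓ hℓN heq_comp
    (fun A hA => heqn_isComp_heq_comp A (heqn_det_pos_of_mem N ℓ Fact.out hA)) f

omit [NeZero ℓ] in
/-- the hypothesis `hNorm` of `heq_R6_of`, for `ℓ : Nat.Primes`, `ℓ ∤ M`. -/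
theorem heqn_hNorm (ℓ' : Nat.Primes) (hℓN : ¬ (ℓ' : ℕ) ∣ N) :
    haveI : NeZero (ℓ' : ℕ) := ⟨ℓ'.2.ne_zero⟩
    ∀ f : FBar N,
      evF N (heq_Nm N (ℓ' : ℕ) f) = ∏ A ∈ heckeReps N (ℓ' : ℕ), heq_comp A (evF N f) := by
  have : NeZero (ℓ' : ℕ) := ⟨ℓ'.2.ne_zero⟩
  have : Fact (ℓ' : ℕ).Prime := ⟨ℓ'.2⟩
  exact fun f => heqn_evF_Nm N (ℓ' : ℕ) hℓN f

end

end Fermat.Agent.S42x
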