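/-
S42 project, block B5 (Hecke equivariance R6), leaf HE2c (helper4), prefix `heqf_`.

Function-level norm formula for a convergent Laurent series `a` over `Qbar`:
the series `a(q^l) · det (mp_mat l a)` (the `q`-expansion of `N_α(β a)`, cf.
`S37x.es3lb_norm_series_bar`) converges, and its value at `q = e^{2πiτ}` is
`a(lτ) · ∏_{b mod l} a((τ+b)/l)` in the `heq_glOf` coordinates of `HeckeEqDefs`:

* `heqf_lconv`  : `LConv (iotaL (qExpand Qbar l a * (mp_mat l a).det))`;
* `heqf_lEval`  : the evaluation formula (any positivity proofs);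
* `heqf_lEval'` : the same with the canonical positivity proofs
  `heqf_cohMatInf_det_pos`, `heqf_cohMatFin_det_pos`.
-/
import Mathlib
import Fermat.Agent.S42x.HeckeEqDetEval54
import Fermat.Agent.S42x.HeckeEqDefs
import Fermat.Agent.S24x.Realize
import Fermat.Agent.S37x.KraGauss
import Fermat.Agent.S16x.CohGamma0

set_option autoImplicit false

namespace Fermat.Agent.S42x

open UpperHalfPlane ModularCurve HahnSeries
open Fermat.Agent.S24x Fermat.Agent.S28x Fermat.Agent.S37x Fermat.Agent.S16x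

noncomputable section

/-! ### positivity of the determinants -/

theorem heqf_cohMatInf_det_pos (l : ℕ) [NeZero l] : 0 < (cohMatInf l).det := by
  rw [cohMatInf_det]
  exact_mod_cast Nat.pos_of_ne_zero (NeZero.ne l)

theorem heqf_cohMatFin_det_pos (l : ℕ) [NeZero l] (b : ZMod l) : 0 < (cohMatFin l b).det := by
  rw [cohMatFin_det]
  exact_mod_cast Nat.pos_of_ne_zero (NeZero.ne l)

/-! ### the series -/

/-- the norm series over `ℂ` -/
theorem heqf_iotaL_norm (l : ℕ) [NeZero l] (a : LaurentSeries Qbar) :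
    iotaL (qExpand Qbar l a * (mp_mat l a).det) =
      qExpand ℂ l (iotaL a) * (mp_mat l (iotaL a)).det := by
  rw [map_mul]
  show coeffMap iotaQ (qExpand Qbar l a) * coeffMap iotaQ (mp_mat l a).det =
    qExpand ℂ l (coeffMap iotaQ a) * (mp_mat l (coeffMap iotaQ a)).det
  rw [coeffMap_qExpand, kra_det_coeffMap]

/-- **HE2c (i)**: the norm series converges -/
theorem heqf_lconv (l : ℕ) [NeZero l] {a : LaurentSeries Qbar} (ha : LConv (iotaL a)) :
    LConv (iotaL (qExpand Qbar l a * (mp_mat l a).det)) := by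
  rw [heqf_iotaL_norm]
  exact (ha.qExpand l).mul (heqd54_lconv_det l ha)

/-! ### Möbius coordinates -/

theorem heqf_coe_inf (l : ℕ) [NeZero l] (h : 0 < (cohMatInf l).det) (τ : ℍ) :
    ((heq_glOf (cohMatInf l) h • τ : ℍ) : ℂ) = (l : ℂ) * (τ : ℂ) := by
  rw [heq_glOf_smul_coe]
  simp [cohMatInf]

theorem heqf_coe_fin (l : ℕ) [NeZero l] (b : ZMod l) (h : 0 < (cohMatFin l b).det) (τ : ℍ) :
    ((heq_glOf (cohMatFin l b) h • τ : ℍ) : ℂ) = ((τ : ℂ) + (b.val : ℂ)) / (l : ℂ) := by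
  rw [heq_glOf_smul_coe]
  simp [cohMatFin]

theorem heqf_qOf_inf (l : ℕ) [NeZero l] (h : 0 < (cohMatInf l).det) (τ : ℍ) :
    qOf (heq_glOf (cohMatInf l) h • τ) = qOf τ ^ l := by
  unfold qOf Function.Periodic.qParam
  rw [heqf_coe_inf, ← Complex.exp_nat_mul]
  congr 1
  push_cast
  ring

/-- the `l`-th root `e^{2πiτ/l}` of `e^{2πiτ}` -/
def heqf_t (l : ℕ) (τ : ℍ) : ℂ := Function.Periodic.qParam (l : ℝ) (τ : ℂ)

theorem heqf_t_ne_zero (l : ℕ) (τ : ℍ) : heqf_t l τ ≠ 0 := Function.Periodic.qParam_ne_zero _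

theorem heqf_norm_t_lt_one (l : ℕ) [NeZero l] (τ : ℍ) : ‖heqf_t l τ‖ < 1 :=
  Function.Periodic.norm_qParam_lt_one
    (by exact_mod_cast Nat.pos_of_ne_zero (NeZero.ne l)) τ.im_pos

theorem heqf_t_pow (l : ℕ) [NeZero l] (τ : ℍ) : heqf_t l τ ^ l = qOf τ := by
  unfold heqf_t qOf Function.Periodic.qParam
  rw [← Complex.exp_nat_mul]
  congr 1
  have hl : (l : ℂ) ≠ 0 := by exact_mod_cast NeZero.ne l
  push_cast
  field_simp

theorem heqf_qOf_fin (l : ℕ) [NeZero l] (b : ZMod l) (h : 0 < (cohMatFin l b).det) (τ : ℍ) :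
    qOf (heq_glOf (cohMatFin l b) h • τ) =
      heqf_t l τ * Complex.exp (2 * Real.pi * Complex.I / (l : ℂ)) ^ b.val := by
  unfold qOf heqf_t Function.Periodic.qParam
  rw [heqf_coe_fin, ← Complex.exp_nat_mul, ← Complex.exp_add]
  congr 1
  have hl : (l : ℂ) ≠ 0 := by exact_mod_cast NeZero.ne l
  push_cast
  field_simp

/-- reindexing a product over `ZMod l` as a product over `Fin l` -/
theorem heqf_prod_zmod {M : Type*} [CommMonoid M] (l : ℕ) [NeZero l] (g : ℕ → M) :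
    ∏ b : ZMod l, g b.val = ∏ b : Fin l, g (b : ℕ) := by
  obtain ⟨k, rfl⟩ : ∃ k, l = k + 1 := Nat.exists_eq_succ_of_ne_zero (NeZero.ne l)
  rfl

/-! ### the evaluation formula -/

/-- **HE2c (ii)**: the value of the norm series at `q = e^{2πiτ}` is
`a(lτ) · ∏_{b mod l} a((τ+b)/l)`. -/
theorem heqf_lEval (l : ℕ) [NeZero l] {a : LaurentSeries Qbar} (ha : LConv (iotaL a))
    (hInf : 0 < (cohMatInf l).det) (hFin : ∀ b : ZMod l, 0 < (cohMatFin l b).det) (τ : ℍ) :
    lEval (iotaL (qExpand Qbar l a * (mp_mat l a).det)) (qOf τ) =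
      lEval (iotaL a) (qOf (heq_glOf (cohMatInf l) hInf • τ)) *
        ∏ b : ZMod l, lEval (iotaL a) (qOf (heq_glOf (cohMatFin l b) (hFin b) • τ)) := by
  rw [heqf_iotaL_norm,
    lEval_mul (ha.qExpand l) (heqd54_lconv_det l ha) (qOf_ne_zero τ) (norm_qOf_lt_one τ),
    lEval_qExpand, heqf_qOf_inf]
  congr 1
  have hζ : IsPrimitiveRoot (Complex.exp (2 * Real.pi * Complex.I / (l : ℂ))) l :=
    Complex.isPrimitiveRoot_exp l (NeZero.ne l)
  rw [← heqf_t_pow l τ,
    heqd54_lEval_det l ha (heqf_t_ne_zero l τ) (heqf_norm_t_lt_one l τ) hζ,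
    ← heqf_prod_zmod l (fun n => lEval (iotaL a)
      (heqf_t l τ * Complex.exp (2 * Real.pi * Complex.I / (l : ℂ)) ^ n))]
  refine Finset.prod_congr rfl fun b _ => ?_
  rw [heqf_qOf_fin]

/-- **HE2c (ii)** with the canonical positivity proofs -/
theorem heqf_lEval' (l : ℕ) [NeZero l] {a : LaurentSeries Qbar} (ha : LConv (iotaL a)) (τ : ℍ) :
    lEval (iotaL (qExpand Qbar l a * (mp_mat l a).det)) (qOf τ) =
      lEval (iotaL a) (qOf (heq_glOf (cohMatInf l) (heqf_cohMatInf_det_pos l) • τ)) *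
        ∏ b : ZMod l,
          lEval (iotaL a) (qOf (heq_glOf (cohMatFin l b) (heqf_cohMatFin_det_pos l b) • τ)) :=
  heqf_lEval l ha _ _ τ

end

end Fermat.Agent.S42x
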