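/-
S42 project, block B5 (Hecke equivariance R6), leaf HE2a (helper5), prefix `heqr_`.

* `heqr_evF_of_conv` : an element `x` of `FBar N` whose `q`-expansion converges (through `iotaL`)
  on the punctured unit disc is realised in `Mer` by the holomorphic function
  `τ ↦ lEval (iotaL x) (qOf τ)`.
* `heqr_Nm M l f` : the norm `N_α (β f)` (verbatim the left hand side of
  `S37x.es3lb_norm_series_bar`), `heqr_NmHom` : the same as a monoid hom;
* `heqr_norm_reduction` : a multiplicative map `Φ : FBar M →* Mer` agreeing with `evF M ∘ Nm` on the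
  image of `ringR0 M` agrees with it everywhere.
-/
import Mathlib
import Fermat.Agent.S24x.Realize
import Fermat.Agent.S37x.Es3LiftsBar

set_option autoImplicit false

namespace Fermat.Agent.S42x

open UpperHalfPlane ModularCurve AlgebraicCurve HahnSeries
open Fermat.Agent.S24x Fermat.Agent.S28x Fermat.Agent.S18x Fermat.Agent.S37x
open scoped MatrixGroups Manifold

noncomputable section

/-! ### realisation of convergent elements -/

/-- the holomorphic function on `ℍ` attached to a convergent Laurent series over `Q̄`. -/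
def heqr_holOf {a : LaurentSeries Qbar} (ha : LConv (iotaL a)) : Hol :=
  ⟨fun τ => lEval (iotaL a) (qOf τ), ha.mdifferentiable⟩

theorem heqr_holOf_apply {a : LaurentSeries Qbar} (ha : LConv (iotaL a)) (τ : ℍ) :
    (heqr_holOf ha : ℍ → ℂ) τ = lEval (iotaL a) (qOf τ) := rfl

theorem heqr_holOf_R0 (N : ℕ) (a : ringR0 N) :
    heqr_holOf (ringR0_le_convBar N a.2) = evR0 N a := rfl

theorem heqr_holOf_mul {a b : LaurentSeries Qbar} (ha : LConv (iotaL a)) (hb : LConv (iotaL b))
    (hab : LConv (iotaL (a * b))) : heqr_holOf hab = heqr_holOf ha * heqr_holOf hb := by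
  apply Subtype.ext
  funext τ
  show lEval (iotaL (a * b)) (qOf τ) = lEval (iotaL a) (qOf τ) * lEval (iotaL b) (qOf τ)
  rw [map_mul, lEval_mul ha hb (qOf_ne_zero τ) (norm_qOf_lt_one τ)]

/-- **realisation of convergent elements**: if the `q`-expansion of `x ∈ FBar N` converges then
`evF N x` is the holomorphic function `τ ↦ x(q(τ))`. -/
theorem heqr_evF_of_conv (N : ℕ) (x : FBar N) (hx : LConv (iotaL (x : LaurentSeries Qbar))) :
    evF N x = algebraMap Hol Mer
      ⟨fun τ => lEval (iotaL (x : LaurentSeries Qbar)) (qOf τ), hx.mdifferentiable⟩ := by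
  obtain ⟨r, s, hs, hrs⟩ := IsFractionRing.div_surjective (A := ringR0 N) x
  have hs0 : algebraMap (ringR0 N) (FBar N) s ≠ 0 := by
    rw [Ne, map_eq_zero_iff _ (IsFractionRing.injective (ringR0 N) (FBar N))]
    exact nonZeroDivisors.ne_zero hs
  -- `s * x = r` in `FBar N`, hence as Laurent series
  have h1 : algebraMap (ringR0 N) (FBar N) s * x = algebraMap (ringR0 N) (FBar N) r := by
    rw [← hrs, mul_div_cancel₀ _ hs0]
  have h2 : ((s : ringR0 N) : LaurentSeries Qbar) * (x : LaurentSeries Qbar)
      = ((r : ringR0 N) : LaurentSeries Qbar) := by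
    have := congrArg (fun y : FBar N => (y : LaurentSeries Qbar)) h1
    simpa [coe_algebraMap_R0_FBar] using this
  have hsc : LConv (iotaL ((s : ringR0 N) : LaurentSeries Qbar)) := ringR0_le_convBar N s.2
  have hrc : LConv (iotaL ((r : ringR0 N) : LaurentSeries Qbar)) := ringR0_le_convBar N r.2
  -- the identity in `Hol`
  have h3 : evR0 N s * heqr_holOf hx = evR0 N r := by
    have hsx : LConv (iotaL (((s : ringR0 N) : LaurentSeries Qbar) * (x : LaurentSeries Qbar))) := by
      rw [h2]; exact hrc
    rw [← heqr_holOf_R0 N s, ← heqr_holOf_mul hsc hx hsx, ← heqr_holOf_R0 N r]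
    apply Subtype.ext
    funext τ
    show lEval (iotaL (((s : ringR0 N) : LaurentSeries Qbar) * (x : LaurentSeries Qbar))) (qOf τ)
      = lEval (iotaL ((r : ringR0 N) : LaurentSeries Qbar)) (qOf τ)
    rw [h2]
  -- transport to `Mer` and cancel
  have h4 : evF N (algebraMap (ringR0 N) (FBar N) s) * evF N x
      = evF N (algebraMap (ringR0 N) (FBar N) s) * algebraMap Hol Mer (heqr_holOf hx) := by
    rw [← map_mul, h1, evF_algebraMap_R0, evF_algebraMap_R0, ← map_mul, h3]
  have h5 : evF N (algebraMap (ringR0 N) (FBar N) s) ≠ 0 := (map_ne_zero (evF N)).mpr hs0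
  exact mul_left_cancel₀ h5 h4

/-! ### reduction of the norm formula to `ringR0 M` -/

variable (M l : ℕ) [NeZero M] [NeZero l]

/-- the norm `N_α (β f)` along the Hecke correspondence at `l` (verbatim the left hand side of
`S37x.es3lb_norm_series_bar`). -/
def heqr_Nm (f : FBar M) : FBar M :=
  @Algebra.norm (modularFunctionFieldBar M) (modularFunctionFieldBar (M * l)) _ _
    (algebraAlong (heckeAlphaBar Qbar M l)) (heckeBetaBar Qbar M l f)

theorem heqr_Nm_def (f : FBar M) :
    heqr_Nm M l f = @Algebra.norm (modularFunctionFieldBar M) (modularFunctionFieldBar (M * l)) _ _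
      (algebraAlong (heckeAlphaBar Qbar M l)) (heckeBetaBar Qbar M l f) := rfl

/-- `f ↦ N_α (β f)` as a monoid hom. -/
def heqr_NmHom : FBar M →* FBar M :=
  (@Algebra.norm (modularFunctionFieldBar M) (modularFunctionFieldBar (M * l)) _ _
    (algebraAlong (heckeAlphaBar Qbar M l))).comp
    ((heckeBetaBar Qbar M l : modularFunctionFieldBar M →+* modularFunctionFieldBar (M * l)) :
      modularFunctionFieldBar M →* modularFunctionFieldBar (M * l))

theorem heqr_NmHom_apply (f : FBar M) : heqr_NmHom M l f = heqr_Nm M l f := rfl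

theorem heqr_Nm_mul (f g : FBar M) : heqr_Nm M l (f * g) = heqr_Nm M l f * heqr_Nm M l g := by
  rw [← heqr_NmHom_apply, map_mul]; rfl

theorem heqr_Nm_one : heqr_Nm M l (1 : FBar M) = 1 := by
  rw [← heqr_NmHom_apply, map_one]

/-- **reduction to `ringR0 M`**: a multiplicative `Φ : FBar M →* Mer` which agrees with
`evF M ∘ N_α ∘ β` on the image of `ringR0 M` agrees with it on all of `FBar M`. -/
theorem heqr_norm_reduction (Φ : FBar M →* Mer)
    (h : ∀ a : ringR0 M, evF M (heqr_Nm M l (algebraMap (ringR0 M) (FBar M) a))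
      = Φ (algebraMap (ringR0 M) (FBar M) a)) (f : FBar M) :
    evF M (heqr_Nm M l f) = Φ f := by
  obtain ⟨r, s, hs, hrs⟩ := IsFractionRing.div_surjective (A := ringR0 M) f
  have hs0 : algebraMap (ringR0 M) (FBar M) s ≠ 0 := by
    rw [Ne, map_eq_zero_iff _ (IsFractionRing.injective (ringR0 M) (FBar M))]
    exact nonZeroDivisors.ne_zero hs
  have h1 : algebraMap (ringR0 M) (FBar M) s * f = algebraMap (ringR0 M) (FBar M) r := by
    rw [← hrs, mul_div_cancel₀ _ hs0]
  -- apply both multiplicative maps to `s * f = r`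
  have h2 : evF M (heqr_Nm M l (algebraMap (ringR0 M) (FBar M) s)) * evF M (heqr_Nm M l f)
      = evF M (heqr_Nm M l (algebraMap (ringR0 M) (FBar M) r)) := by
    rw [← map_mul, ← heqr_Nm_mul, h1]
  have h3 : Φ (algebraMap (ringR0 M) (FBar M) s) * Φ f
      = Φ (algebraMap (ringR0 M) (FBar M) r) := by
    rw [← map_mul, h1]
  rw [h s, h r] at h2
  -- `Φ s ≠ 0` because `evF M (Nm s) ≠ 0`
  have h4 : Φ (algebraMap (ringR0 M) (FBar M) s) ≠ 0 := by
    rw [← h s]
    refine (map_ne_zero (evF M)).mpr ?_
    intro h0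
    -- `Nm s * Nm s⁻¹ = Nm 1 = 1`
    have h5 := heqr_Nm_mul M l (algebraMap (ringR0 M) (FBar M) s)
      (algebraMap (ringR0 M) (FBar M) s)⁻¹
    rw [mul_inv_cancel₀ hs0, heqr_Nm_one, h0, zero_mul] at h5
    exact one_ne_zero h5
  exact mul_left_cancel₀ h4 (h2.trans h3.symm)

/-- the same with the norm written out verbatim. -/
theorem heqr_norm_reduction' (Φ : FBar M →* Mer)
    (h : ∀ a : ringR0 M, evF M
      (@Algebra.norm (modularFunctionFieldBar M) (modularFunctionFieldBar (M * l)) _ _
        (algebraAlong (heckeAlphaBar Qbar M l))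
        (heckeBetaBar Qbar M l (algebraMap (ringR0 M) (FBar M) a)))
      = Φ (algebraMap (ringR0 M) (FBar M) a)) (f : FBar M) :
    evF M (@Algebra.norm (modularFunctionFieldBar M) (modularFunctionFieldBar (M * l)) _ _
        (algebraAlong (heckeAlphaBar Qbar M l)) (heckeBetaBar Qbar M l f)) = Φ f :=
  heqr_norm_reduction M l Φ h f

/-- the `q`-expansion of `N_α (β a)` for `a ∈ ringR0 M` (`S37x.es3lb_norm_series_bar`). -/
theorem heqr_Nm_series [Fact l.Prime] (hlM : ¬ l ∣ M) (f : FBar M) :
    ((heqr_Nm M l f : FBar M) : LaurentSeries Qbar)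
      = qExpand Qbar l (f : LaurentSeries Qbar) * (mp_mat l (f : LaurentSeries Qbar)).det :=
  es3lb_norm_series_bar M l hlM f

/-- **the `ringR0` case from the series identity**: once the series
`a(q^l) · det (mp_mat l a)` is known to converge, `evF M (N_α (β a))` is its holomorphic
function. -/
theorem heqr_evF_Nm_of_conv [Fact l.Prime] (hlM : ¬ l ∣ M) (f : FBar M)
    (hc : LConv (iotaL (qExpand Qbar l (f : LaurentSeries Qbar)
      * (mp_mat l (f : LaurentSeries Qbar)).det))) :
    evF M (heqr_Nm M l f) = algebraMap Hol Mer (heqr_holOf hc) := by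
  have hs := heqr_Nm_series M l hlM f
  have hx : LConv (iotaL ((heqr_Nm M l f : FBar M) : LaurentSeries Qbar)) := by
    rw [hs]; exact hc
  rw [heqr_evF_of_conv M _ hx]
  congr 1
  apply Subtype.ext
  funext τ
  show lEval (iotaL ((heqr_Nm M l f : FBar M) : LaurentSeries Qbar)) (qOf τ)
    = lEval (iotaL (qExpand Qbar l (f : LaurentSeries Qbar)
      * (mp_mat l (f : LaurentSeries Qbar)).det)) (qOf τ)
  rw [hs]

end

end Fermat.Agent.S42x
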