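/-
S42/S29 route, leaf "GALOIS-EQUIVARIANCE OF T_ℓ ON J₀(N)" (helper95, prefix `cgq_`):

  `cgq_heckeOperatorBar_smul : heckeOperatorBar N ℓ (σ • x) = σ • heckeOperatorBar N ℓ x`

for every `σ ∈ Gal(Q̄/ℚ)`, every prime `ℓ` and every `x : JZero N` (= the content of the hypothesis
`SMulCommClass Gal HeckeAlg (JZero N)` of S37, per operator, proved unconditionally):
`α` (inclusion) and `β` (`q ↦ q^ℓ`) are defined over `ℚ`, i.e. intertwine the coefficientwise
Galois actions on `F_N(Q̄)` and `F_{Nℓ}(Q̄)`; then apply `cgq_pic0_correspondence_smul`.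
-/
import Mathlib
import Fermat.Agent.S42x.CorrGalois
import Fermat.Agent.S37x.HeckeInputsFinal
import Fermat.Agent.S37x.HeckeUnfold
import Fermat.Prelude.Def_ModularCurve_HeckeModule
import Fermat.Prelude.Def_ModularCurve_ArithmeticGalois
import Fermat.Prelude.Thm_ModularCurve_coeffMap_qExpand

set_option autoImplicit false

noncomputable section

namespace Fermat.Agent.S42x

open AlgebraicCurve ModularCurve Fermat.Agent.S24x Fermat.Agent.S37x

local notation "Q̄" => AlgebraicClosure ℚ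

section Intertwine

variable (N ℓ : ℕ) [NeZero N] [NeZero ℓ]

/-- `α` is defined over `ℚ`. -/
theorem cgq_alpha_intertwine (σ : Q̄ ≃ₐ[ℚ] Q̄) (x : modularFunctionFieldBar N) :
    heckeAlphaBar Q̄ N ℓ (arithmeticGalois (modularFunctionFieldFull N) σ • x) =
      arithmeticGalois (modularFunctionFieldFull (N * ℓ)) σ • heckeAlphaBar Q̄ N ℓ x := by
  apply Subtype.ext
  rw [coe_heckeAlphaBar, coe_arithmeticGalois_smul, coe_arithmeticGalois_smul, coe_heckeAlphaBar]

/-- `β` is defined over `ℚ`. -/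
theorem cgq_beta_intertwine (σ : Q̄ ≃ₐ[ℚ] Q̄) (x : modularFunctionFieldBar N) :
    heckeBetaBar Q̄ N ℓ (arithmeticGalois (modularFunctionFieldFull N) σ • x) =
      arithmeticGalois (modularFunctionFieldFull (N * ℓ)) σ • heckeBetaBar Q̄ N ℓ x := by
  apply Subtype.ext
  rw [coe_heckeBetaBar, coe_arithmeticGalois_smul, coe_arithmeticGalois_smul, coe_heckeBetaBar,
    coeffMap_qExpand]

end Intertwine

variable (N : ℕ) [NeZero N]

/-- **`T_ℓ` commutes with `Gal(Q̄/ℚ)` on `J₀(N)(Q̄)`** (every prime `ℓ`, unconditional). -/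
theorem cgq_heckeOperatorBar_smul (ℓ : Nat.Primes) (σ : Q̄ ≃ₐ[ℚ] Q̄) (x : JZero N) :
    heckeOperatorBar N ℓ (σ • x) = σ • heckeOperatorBar N ℓ x := by
  haveI : NeZero (ℓ : ℕ) := hku_neZero ℓ
  obtain ⟨hα, hβ, hP, hfin, hFI, hN⟩ := hif_heckeInputsAlong N (ℓ : ℕ)
  haveI := hP
  rw [heckeOperatorBar_apply, heckeOperatorBar_apply, heckeOperatorAlong_eq hα hβ hFI hfin hN,
    galois_smul_pic0_def, galois_smul_pic0_def]
  exact cgq_pic0_correspondence_smul (heckeBetaBar Q̄ N ℓ) (heckeAlphaBar Q̄ N ℓ) hβ hα hFI hfin hN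
    (arithmeticGalois (modularFunctionFieldFull N) σ)
    (arithmeticGalois (modularFunctionFieldFull (N * ℓ)) σ)
    (cgq_beta_intertwine N ℓ σ) (cgq_alpha_intertwine N ℓ σ)
    (hif_deg_eq_one N) (hif_deg_eq_one (N * ℓ)) x

/-- the Hecke operator preserves `m`-torsion and commutes with Galois there: the common
eigenspaces of the `T_ℓ` in `J₀(N)[m]` are Galois-stable. -/
theorem cgq_eigen_galois_stable (ℓ : Nat.Primes) (σ : Q̄ ≃ₐ[ℚ] Q̄) (a : ℤ) (x : JZero N)
    (hx : heckeOperatorBar N ℓ x = a • x) : heckeOperatorBar N ℓ (σ • x) = a • (σ • x) := by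
  rw [cgq_heckeOperatorBar_smul, hx]
  exact map_zsmul (DistribSMul.toAddMonoidHom (JZero N) σ) a x

end Fermat.Agent.S42x
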