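/-
S29 / T1 support (helper55, prefix `lowall55_`): the LOWER HALF (comparison map
`ι : H¹_par(Γ₀(M), ℤ) → J₀(M)[m]`) for EVERY modulus `m > 0` — in particular every prime
`p` including `2` and `3`.  Literal shape of `low92_iotaPkg` (S42x/TopLow92) with `p := m`.

Same construction as `low92_iotaPkg`; the only input that needed `p ≥ 5` there, (R5), is replaced by
`r5all55_main` (S42x/R5All55).
-/
import Fermat.Agent.S42x.TopLow92
import Fermat.Agent.S42x.R5All55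

set_option autoImplicit false

namespace Fermat.Agent.S42x

open UpperHalfPlane ModularCurve AlgebraicCurve CongruenceSubgroup ModularCurve.Period
open Fermat.Agent.S24x Fermat.Agent.S23x Fermat.Agent.S41x Fermat.Agent.S16x
open scoped MatrixGroups

noncomputable section

variable (M : ℕ) [NeZero M]

/-- (R5) at modulus `m`, in the `psiOf` shape. -/
theorem lowall55_hR5 (m : ℕ) (hm : 0 < m) (χ : lrL M) :
    ∃ x : JZero M, heq_Rel M m x (low92_psiOf M m χ) := by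
  rw [low92_psiOf_eq]
  exact r5all55_main M m hm (mem_parabolicHoms_iff.mp χ.2)

/-- **the lower half for every modulus `m > 0`.** -/
theorem lowall55_iotaPkg (m : ℕ) (hm : 0 < m) :
    ∃ ι : lrL M →+ JZero M,
      (∀ v : lrL M, m • ι v = 0) ∧
      (∀ v : lrL M, ι v = 0 → ∃ w : lrL M, v = (m : ℤ) • w) ∧
      ∀ ℓ : Nat.Primes, ¬ (ℓ : ℕ) ∣ M → ∀ v : lrL M,
        ι (lrtT M ℓ v) = heckeOperatorBar M ℓ (ι v) := by
  have hR3 : ∀ (x : JZero M) (χ : lrL M), heq_Rel M m x (low92_psiOf M m χ) →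
      low92_psiOf M m χ = 0 → x = 0 :=
    inj_cmp_hR3 M (cde29_ev M) m hm (cde29_evCompat M) (low92_psiOf M m)
  have hR4 : ∀ χ : lrL M, heq_Rel M m (0 : JZero M) (low92_psiOf M m χ) →
      low92_psiOf M m χ = 0 :=
    fun χ h => rr4_psi_eq_zero M m hm.ne' _ h
  have hR5 : ∀ χ : lrL M, ∃ x : JZero M, heq_Rel M m x (low92_psiOf M m χ) :=
    lowall55_hR5 M m hm
  refine ⟨rlg_iota (low92_psiOf M m) hR3 hR4 hR5,
    fun v => rlg_iota_tors _ hR3 hR4 hR5 v, fun v hv => ?_, fun ℓ hℓM v => ?_⟩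
  · rw [rlg_iota_eq_zero_iff, low92_psiOf_eq, twp_psiAdd_eq_zero_iff hm.ne'] at hv
    exact lrt_dvd_of_values M m hm.ne' v (fun γ => hv (Additive.toMul γ))
  · refine rlg_iota_comm (low92_psiOf M m) hR3 hR4 hR5 (heckeOperatorBar M ℓ) (lrtT M ℓ) ?_ v
    intro x χ hx
    exact heq_R6_comp M m ℓ hℓM x (low92_e m) χ.1 hx

/-- the waist consumed by `tin45_input` / `fug61_s29c_input` (S29): every level, every prime. -/
theorem lowall55_waist (M : ℕ) [NeZero M] (p : ℕ) [hp : Fact p.Prime] :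
    ∃ ι : lrL M →+ JZero M, (∀ v : lrL M, p • ι v = 0) ∧
      (∀ v : lrL M, ι v = 0 → ∃ w : lrL M, v = (p : ℤ) • w) ∧
      ∀ ℓ : Nat.Primes, ¬ (ℓ : ℕ) ∣ M → (ℓ : ℕ) ≠ p → ∀ v : lrL M,
        ι (lrtT M ℓ v) = heckeOperatorBar M ℓ (ι v) := by
  obtain ⟨ι, h1, h2, h3⟩ := lowall55_iotaPkg M p hp.out.pos
  exact ⟨ι, h1, h2, fun ℓ hℓ _ => h3 ℓ hℓ⟩

end

end Fermat.Agent.S42x
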