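/-
S42 project, B3.5 TOP-GLUE / closed (R5) via the `Sp_full` chain (helper55, prefix `r5f55_`).

For `p ≥ 5` prime and a parabolic `χ : Γ₀(M) → ℤ`:  `∃ x : JZero M, heq_Rel M p x ψ_χ`.

Chain: all-cusp Eisenstein series `A_χ` (helper99/helper76 `twx76_`), `f_χ = (A_χ / E₄)^p ∈ ℂ(j, j_M)`,
realisation `cde29_realR` on `ratioField M` (helper29), covering of the finite places
`cdf_covering_finite` (helper38), unit at the poles of `j` `cdu55_ord_eq_zero` (helper55),
`p ∣ div f_χ` `cdfin21_dvd_ord_all` (helper21), and the concrete (R5) `r5i81_of_forms` (helper81: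
B4 finiteness + B7 descent + R5c).
-/
import Fermat.Agent.S42x.R5Inst81
import Fermat.Agent.S42x.CDictEvR29
import Fermat.Agent.S42x.CDictCovFin
import Fermat.Agent.S42x.CDictFinal21
import Fermat.Agent.S42x.CDictCuspUnit55
import Fermat.Agent.S42x.TwEisAllTop76

set_option autoImplicit false

namespace Fermat.Agent.S42x

open UpperHalfPlane ModularCurve AlgebraicCurve CongruenceSubgroup ModularCurve.Period
open Fermat.Agent.S24x Fermat.Agent.S23x
open scoped MatrixGroups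

noncomputable section

/-- the point dictionary of a bundle in the shape consumed by `r5i81_main`. -/
theorem r5f55_hdict {F : Type*} [Field F] [Algebra ℂ F] {M : ℕ} {jF : F} (D : cdc_Real F M jF)
    (τ : ℍ) : ∃ (P : Place ℂ F) (e : ℤ), ∀ f : F, f ≠ 0 → ordAt τ (D.φ f) = e * P.ord f := by
  obtain ⟨e, -, he⟩ := cdc_exists_ordAt_eq_mul D τ
  exact ⟨cdc_vPt D τ, (e : ℤ), fun f _ => he f⟩

theorem r5f55_coprime_six {p : ℕ} (hp : p.Prime) (hp5 : 5 ≤ p) : Nat.Coprime p 6 := by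
  have h2 : Nat.Coprime p 2 := by
    rw [Nat.coprime_primes hp Nat.prime_two]
    omega
  have h3 : Nat.Coprime p 3 := by
    rw [Nat.coprime_primes hp Nat.prime_three]
    omega
  have : (6 : ℕ) = 2 * 3 := by norm_num
  rw [this]
  exact Nat.Coprime.mul_right h2 h3

/-- **Closed (R5), `Sp_full` chain.** -/
theorem r5f55_main (M p : ℕ) [NeZero M] (hp : p.Prime) (hp5 : 5 ≤ p)
    {χ : Additive ↥(Gamma0 M) →+ ℤ} (hχ : IsParabolicHom (Gamma0 M) χ) :
    ∃ x : JZero M, heq_Rel M p x (twp_psiAdd p χ) := by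
  set D := cde29_realR M with hD
  have hcoord := cde29_isCoordinateR M
  set A : Hol := twx76_AHol p hχ ^ p with hA
  set B : Hol := cdc_E4Hol ^ p with hB
  have hAmf : IsMF M ((p : ℤ) * 4) (A : ℍ → ℂ) := twx76_isMF_pow p hχ
  have hBmf : IsMF M ((p : ℤ) * 4) (B : ℍ → ℂ) := twb76_isMF_E4_pow M p
  have hA0 : A ≠ 0 := pow_ne_zero p (twx76_form p hχ).hol_ne_zero
  have hB0 : B ≠ 0 := pow_ne_zero p twb76_E4Hol_ne_zero
  have hroot : twx76_h p hχ ^ p = algebraMap Hol Mer A / algebraMap Hol Mer B := twx76_h_pow p hχ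
  have hev : inj_EvCompat M (cde29_ev M) := cde29_evCompat M
  refine r5i81_of_forms M p (r5f55_coprime_six hp hp5) (cde29_ev M) hev
    (fun τ => r5f55_hdict D τ) (twp_psiAdd p χ) (r5i81_parabolic p hχ) A B hAmf hBmf hA0 hB0
    (twx76_h p hχ) hroot (fun γ => twx76_h_char p hχ γ) ?_
  -- `p ∣ div f_χ`
  set fC : ratioField M := ⟨_, r5i81_ratio_mem M A B hAmf hBmf hB0⟩ with hfC
  have hevf : cde29_ev M fC = algebraMap Hol Mer A / algebraMap Hol Mer B :=
    r5i81_ev_ratio M (cde29_ev M) hev A B hAmf hBmf hB0 fC rfl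
  have hpow : twx76_h p hχ ^ p = D.φ fC := hroot.trans hevf.symm
  have hpole : ∀ v ∈ polePlaces ℂ ↥(ratioField M) (cde29_jR M), v.ord fC = 0 := by
    intro v hv
    refine cdu55_ord_eq_zero D (twx76_AHol p hχ) p (fun g => twx76_hhol p hχ g)
      (fun g => twx76_hbdd p hχ g) (fun g => twx76_hlim p hχ g) fC ?_ v hv
    have hBne : algebraMap Hol Mer B ≠ 0 := cdu55_mk_ne_zero hB0
    have h1 : D.φ fC = algebraMap Hol Mer A / algebraMap Hol Mer B := hevf
    rw [h1, ← map_pow, ← map_pow, ← hA, ← hB, div_mul_cancel₀ _ hBne]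
  exact cdfin21_dvd_ord_all D hcoord
    (fun c τ₀ hτ₀ v hv => cdf_covering_finite D hcoord c τ₀ hτ₀ v hv) hp hp5 fC
    (twx76_h p hχ) hpow hpole

end

end Fermat.Agent.S42x
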