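/-
S42 project, block T1 / B13 (helper87, prefix `lam87_`): closed (R5) and the LOWER HALF (iota
package) for EVERY modulus `m > 0` (no primality, no coprimality with `6`; `p = 2, 3`, prime
powers and `p ∣ M` included).

* `lam87_R5 M m (hm : 0 < m) hχ : ∃ x : JZero M, heq_Rel M m x (twp_psiAdd m χ)` : the `Sp_full`
  chain of `r5f55_main` (helper55) with the two prime-sensitive steps replaced by helper90's
  ELL-EXACT forms (`cdfap90_dvd_ord_all` over `ℂ`, `r5iap90_of_forms` over `Q̄`).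
* `lam87_iotaPkg M m (hm : 0 < m)` : the literal shape of `low92_iotaPkg` (helper92) with `p := m`:
  `ι : lrL M →+ JZero M`, `m • ι = 0`, kernel `m • lrL M`, Hecke-equivariant at every `ℓ ∤ M`.
* `lam87_iota M m hm` : the same as a DEFINITION (coherent tower), with `lam87_iota_rel`,
  `lam87_iota_unique` (so that the tower compatibility `a • ι_(a*b) = ι_b` follows from
  helper63's `rlc63_rel_psi`, S30x/RelCompat63).
-/
import Mathlib
import Fermat.Agent.S42x.R5InstAllP90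
import Fermat.Agent.S42x.CDictFinalAllP90
import Fermat.Agent.S42x.R5Full55
import Fermat.Agent.S42x.TopLow92

set_option autoImplicit false

namespace Fermat.Agent.S42x

open UpperHalfPlane ModularCurve AlgebraicCurve CongruenceSubgroup ModularCurve.Period
open Fermat.Agent.S24x Fermat.Agent.S23x Fermat.Agent.S41x Fermat.Agent.S16x
open scoped MatrixGroups

noncomputable section

/-- **Closed (R5) for EVERY modulus `m > 0`.** -/
theorem lam87_R5 (M m : ℕ) [NeZero M] (hm : 0 < m)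
    {χ : Additive ↥(Gamma0 M) →+ ℤ} (hχ : IsParabolicHom (Gamma0 M) χ) :
    ∃ x : JZero M, heq_Rel M m x (twp_psiAdd m χ) := by
  set D := cde29_realR M with hD
  have hcoord := cde29_isCoordinateR M
  set A : Hol := twx76_AHol m hχ ^ m with hA
  set B : Hol := cdc_E4Hol ^ m with hB
  have hAmf : IsMF M ((m : ℤ) * 4) (A : ℍ → ℂ) := twx76_isMF_pow m hχ
  have hBmf : IsMF M ((m : ℤ) * 4) (B : ℍ → ℂ) := twb76_isMF_E4_pow M m
  have hA0 : A ≠ 0 := pow_ne_zero m (twx76_form m hχ).hol_ne_zero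
  have hB0 : B ≠ 0 := pow_ne_zero m twb76_E4Hol_ne_zero
  have hroot : twx76_h m hχ ^ m = algebraMap Hol Mer A / algebraMap Hol Mer B := twx76_h_pow m hχ
  have hev : inj_EvCompat M (cde29_ev M) := cde29_evCompat M
  have hψfin : ∀ γ : Gamma0 M, IsOfFinOrder γ → twp_psiAdd m χ (Additive.ofMul γ) = 0 :=
    fun γ hγ => ell90_psiAdd_finOrder m χ γ hγ
  have hchar : r5a_HasChar M (twp_psiAdd m χ) (twx76_h m hχ) := fun γ => twx76_h_char m hχ γ
  refine r5iap90_of_forms M m hm (cde29_ev M) hev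
    (fun τ => r5f55_hdict D τ) (twp_psiAdd m χ) (r5i81_parabolic m hχ) hψfin A B hAmf hBmf hA0 hB0
    (twx76_h m hχ) hroot hchar ?_
  -- `m ∣ div f_χ`
  set fC : ratioField M := ⟨_, r5i81_ratio_mem M A B hAmf hBmf hB0⟩ with hfC
  have hevf : cde29_ev M fC = algebraMap Hol Mer A / algebraMap Hol Mer B :=
    r5i81_ev_ratio M (cde29_ev M) hev A B hAmf hBmf hB0 fC rfl
  have hpow : twx76_h m hχ ^ m = D.φ fC := hroot.trans hevf.symm
  have hpole : ∀ v ∈ polePlaces ℂ ↥(ratioField M) (cde29_jR M), v.ord fC = 0 := by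
    intro v hv
    refine cdu55_ord_eq_zero D (twx76_AHol m hχ) m (fun g => twx76_hhol m hχ g)
      (fun g => twx76_hbdd m hχ g) (fun g => twx76_hlim m hχ g) fC ?_ v hv
    have hBne : algebraMap Hol Mer B ≠ 0 := cdu55_mk_ne_zero hB0
    have h1 : D.φ fC = algebraMap Hol Mer A / algebraMap Hol Mer B := hevf
    rw [h1, ← map_pow, ← map_pow, ← hA, ← hB, div_mul_cancel₀ _ hBne]
  exact cdfap90_dvd_ord_all D (inj_cmp_iF M) (fun f => inj_cmp_ev_iF M (cde29_ev M) hev f) hcoord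
    (fun c τ₀ hτ₀ v hv => cdf_covering_finite D hcoord c τ₀ hτ₀ v hv) hm fC
    (twx76_h m hχ) hpow (ell90_inv_of_char M (twp_psiAdd m χ) hψfin (twx76_h m hχ) hchar) hpole

variable (M : ℕ) [NeZero M]

theorem lam87_hR3 (m : ℕ) (hm : 0 < m) : ∀ (x : JZero M) (χ : lrL M),
    heq_Rel M m x (low92_psiOf M m χ) → low92_psiOf M m χ = 0 → x = 0 :=
  inj_cmp_hR3 M (cde29_ev M) m hm (cde29_evCompat M) (low92_psiOf M m)

theorem lam87_hR4 (m : ℕ) (hm : 0 < m) : ∀ χ : lrL M,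
    heq_Rel M m (0 : JZero M) (low92_psiOf M m χ) → low92_psiOf M m χ = 0 :=
  fun _ h => rr4_psi_eq_zero M m hm.ne' _ h

theorem lam87_hR5 (m : ℕ) (hm : 0 < m) : ∀ χ : lrL M,
    ∃ x : JZero M, heq_Rel M m x (low92_psiOf M m χ) := by
  intro χ
  rw [low92_psiOf_eq]
  exact lam87_R5 M m hm (mem_parabolicHoms_iff.mp χ.2)

/-- **the comparison map at modulus `m`**: `ι_m : H¹_par(Γ₀(M), ℤ) → J₀(M)[m]`, as a definition. -/
def lam87_iota (m : ℕ) (hm : 0 < m) : lrL M →+ JZero M :=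
  rlg_iota (low92_psiOf M m) (lam87_hR3 M m hm) (lam87_hR4 M m hm) (lam87_hR5 M m hm)

theorem lam87_iota_tors (m : ℕ) (hm : 0 < m) (v : lrL M) : m • lam87_iota M m hm v = 0 :=
  rlg_iota_tors _ (lam87_hR3 M m hm) (lam87_hR4 M m hm) (lam87_hR5 M m hm) v

theorem lam87_iota_ker (m : ℕ) (hm : 0 < m) (v : lrL M) (hv : lam87_iota M m hm v = 0) :
    ∃ w : lrL M, v = (m : ℤ) • w := by
  rw [lam87_iota, rlg_iota_eq_zero_iff, low92_psiOf_eq, twp_psiAdd_eq_zero_iff hm.ne'] at hv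
  exact lrt_dvd_of_values M m hm.ne' v (fun γ => hv (Additive.toMul γ))

theorem lam87_iota_hecke (m : ℕ) (hm : 0 < m) (ℓ : Nat.Primes) (hℓM : ¬ (ℓ : ℕ) ∣ M)
    (v : lrL M) :
    lam87_iota M m hm (lrtT M ℓ v) = heckeOperatorBar M ℓ (lam87_iota M m hm v) := by
  refine rlg_iota_comm (low92_psiOf M m) (lam87_hR3 M m hm) (lam87_hR4 M m hm)
    (lam87_hR5 M m hm) (heckeOperatorBar M ℓ) (lrtT M ℓ) ?_ v
  intro x χ hx
  exact heq_R6_comp M m ℓ hℓM x (low92_e m) χ.1 hx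

theorem lam87_iota_rel (m : ℕ) (hm : 0 < m) (v : lrL M) :
    heq_Rel M m (lam87_iota M m hm v) (twp_psiAdd m v.1) := by
  have h := rlg_iota_spec (low92_psiOf M m) (lam87_hR3 M m hm) (lam87_hR4 M m hm)
    (lam87_hR5 M m hm) v
  rwa [low92_psiOf_eq] at h

/-- uniqueness: `ι_m v` is THE point in relation with `ψ_v = exp(2πi v / m)`. -/
theorem lam87_iota_unique (m : ℕ) (hm : 0 < m) {x : JZero M} {v : lrL M}
    (h : heq_Rel M m x (twp_psiAdd m v.1)) : x = lam87_iota M m hm v := by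
  rw [← low92_psiOf_eq] at h
  exact rlg_iota_eq (low92_psiOf M m) (lam87_hR3 M m hm) (lam87_hR4 M m hm)
    (lam87_hR5 M m hm) h

/-- **the lower half for EVERY modulus `m > 0`** (literal shape of `low92_iotaPkg` with `p := m`). -/
theorem lam87_iotaPkg (m : ℕ) (hm : 0 < m) :
    ∃ ι : lrL M →+ JZero M,
      (∀ v : lrL M, m • ι v = 0) ∧
      (∀ v : lrL M, ι v = 0 → ∃ w : lrL M, v = (m : ℤ) • w) ∧
      ∀ ℓ : Nat.Primes, ¬ (ℓ : ℕ) ∣ M → ∀ v : lrL M,
        ι (lrtT M ℓ v) = heckeOperatorBar M ℓ (ι v) :=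
  ⟨lam87_iota M m hm, lam87_iota_tors M m hm, lam87_iota_ker M m hm,
    fun ℓ hℓM v => lam87_iota_hecke M m hm ℓ hℓM v⟩

end

end Fermat.Agent.S42x
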