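/-
S42x/PlaceExt72 (helper72; S42 project, block B7, leaf PLEXT twin B; prefix `plx72_`):
EXTENSION OF A PLACE ALONG A CONSTANT FIELD EXTENSION, in the Laurent-series model.

Setting: fields `K ⊆ L`, `FK ⊆ K((q))` an intermediate field, `P0` a place of `FK / K` with residue
field `K` (hypothesis `hres`, the `eval` field of `rmn_Hyp`), `FL ⊆ L((q))` an intermediate field
containing `ι(FK)` (`ι = coeffMap (algebraMap K L)`) all of whose elements are fractions of elements
of the `L`-span `A` of `ι(FK)`.  Then there is a place `P` of `FL / L` with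
`P.ord (ι x) = P0.ord x` for all `x ∈ FK`.

Construction ("Gauss extension", localisation of `L ⊗ O_{P0}` at the prime `L ⊗ 𝔪`), done with the
coefficientwise functionals `injd_Phi φ` (`φ : L →ₗ[K] K`) of helper34 instead of tensor products:

* `plx72_IsRes P0 b ρ` : for every functional `φ`, `Φ_φ b ∈ O_{P0}` with residue `φ ρ`
  ("`b ∈ L ⊗ O` and its image in `L ⊗ (O/𝔪) = L` is `ρ`");
* `plx72_Good P0 b ρ` : `IsRes b ρ`, multiplicatively stable;
* `plx72_NF P0 t a n` : normal form `a = ι(t)^n * b`, `Good b ρ`, `ρ ≠ 0` (`t` a uniformizer);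
  `n` is unique, additive in `a`, ultrametric, `0` on constants, `P0.ord x` on `ι x`;
* every nonzero element of `A` has a normal form (representation with `K`-linearly independent
  coefficients);
* S24x `SubOrderFn` ⟹ the place.
-/
import Mathlib
import Fermat.Prelude.Def_ModularCurve_LaurentCoeff
import Fermat.Prelude.Def_AlgebraicCurve_Repartitions
import Fermat.Agent.S42x.InjFieldDescent
import Fermat.Agent.S24x.OrderOfFractions
import Fermat.Agent.S18x.RmnBasic

set_option autoImplicit false

namespace Fermat.Agent.S42x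

open ModularCurve AlgebraicCurve HahnSeries Fermat.Agent.S24x Fermat.Agent.S18x

noncomputable section

universe u v

variable {K : Type u} {L : Type v} [Field K] [Field L] [Algebra K L]
variable {FK : IntermediateField K (LaurentSeries K)} (P0 : Place K FK)

/-! ### valuation helpers -/

theorem plx72_val_const_le_one (c : K) : P0.adicValuation (algebraMap K FK c) ≤ 1 := by
  rw [P0.adicValuation_le_one_iff]
  exact Or.inr (rmn_ord_algebraMap P0 c).ge

theorem plx72_const_eq_zero_of_val_lt_one {c : K}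
    (h : P0.adicValuation (algebraMap K FK c) < 1) : c = 0 := by
  by_contra hc
  have h0 : algebraMap K FK c ≠ 0 := by
    rwa [Ne, map_eq_zero_iff _ (algebraMap K FK).injective]
  rw [P0.adicValuation_eq_exp_neg_ord h0, rmn_ord_algebraMap, neg_zero, WithZero.exp_zero] at h
  exact lt_irrefl _ h

theorem plx72_val_le_one_of_sub_lt_one {x : FK} {c : K}
    (h : P0.adicValuation (x - algebraMap K FK c) < 1) : P0.adicValuation x ≤ 1 := by
  have hx : x = (x - algebraMap K FK c) + algebraMap K FK c := by ring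
  rw [hx]
  exact (Valuation.map_add _ _ _).trans (max_le h.le (plx72_val_const_le_one P0 c))

/-! ### the residue relation -/

/-- `IsRes b ρ`: for every `K`-linear functional `φ : L → K`, the coefficientwise image `Φ_φ b`
lies in `O_{P0} ⊆ FK` and has residue `φ ρ`. -/
def plx72_IsRes (b : LaurentSeries L) (ρ : L) : Prop :=
  ∀ φ : L →ₗ[K] K, ∃ x : FK, (x : LaurentSeries K) = injd_Phi φ b ∧
    P0.adicValuation (x - algebraMap K FK (φ ρ)) < 1

theorem plx72_isRes_zero : plx72_IsRes (L := L) P0 0 0 := by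
  intro φ
  refine ⟨0, ?_, ?_⟩
  · rw [injd_Phi_zero]; rfl
  · rw [map_zero, map_zero, sub_zero, map_zero]
    exact zero_lt_one

theorem plx72_isRes_add {b b' : LaurentSeries L} {ρ ρ' : L} (h : plx72_IsRes P0 b ρ)
    (h' : plx72_IsRes P0 b' ρ') : plx72_IsRes P0 (b + b') (ρ + ρ') := by
  intro φ
  obtain ⟨x, hx, hxv⟩ := h φ
  obtain ⟨x', hx', hxv'⟩ := h' φ
  refine ⟨x + x', ?_, ?_⟩
  · rw [injd_Phi_add, ← hx, ← hx']; rfl
  · have : x + x' - algebraMap K FK (φ (ρ + ρ')) =
        (x - algebraMap K FK (φ ρ)) + (x' - algebraMap K FK (φ ρ')) := by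
      rw [map_add, map_add]; ring
    rw [this]
    exact Valuation.map_add_lt _ hxv hxv'

theorem plx72_isRes_smul {b : LaurentSeries L} {ρ : L} (l : L) (h : plx72_IsRes P0 b ρ) :
    plx72_IsRes P0 (algebraMap L (LaurentSeries L) l * b) (l * ρ) := by
  intro φ
  obtain ⟨x, hx, hxv⟩ := h (φ.comp (LinearMap.mulLeft K l))
  refine ⟨x, ?_, ?_⟩
  · rw [injd_Phi_algebraMap_mul, hx]
  · exact hxv

theorem plx72_isRes_iota_mul {b : LaurentSeries L} {ρ : L} {y : FK} {c : K}
    (hy : P0.adicValuation (y - algebraMap K FK c) < 1) (h : plx72_IsRes P0 b ρ) :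
    plx72_IsRes P0 (coeffMap (algebraMap K L) (y : LaurentSeries K) * b)
      (algebraMap K L c * ρ) := by
  intro φ
  obtain ⟨x, hx, hxv⟩ := h φ
  refine ⟨y * x, ?_, ?_⟩
  · rw [injd_Phi_mul, ← hx]; rfl
  · have hφ : φ (algebraMap K L c * ρ) = c * φ ρ := by
      rw [← Algebra.smul_def, map_smul, smul_eq_mul]
    have : y * x - algebraMap K FK (φ (algebraMap K L c * ρ)) =
        (y - algebraMap K FK c) * x + algebraMap K FK c * (x - algebraMap K FK (φ ρ)) := by
      rw [hφ, map_mul]; ring
    rw [this]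
    refine Valuation.map_add_lt _ ?_ ?_
    · rw [map_mul]
      exact mul_lt_of_lt_of_le_one hy (plx72_val_le_one_of_sub_lt_one P0 hxv)
    · rw [map_mul]
      exact mul_lt_of_le_one_of_lt (plx72_val_const_le_one P0 c) hxv

theorem plx72_isRes_one : plx72_IsRes (L := L) P0 1 1 := by
  intro φ
  refine ⟨algebraMap K FK (φ 1), ?_, ?_⟩
  · ext n
    rw [injd_Phi_coeff]
    show (algebraMap K (LaurentSeries K) (φ 1)).coeff n = _
    rw [algebraMap_laurentSeries_eq_single]
    by_cases hn : n = 0
    · subst hn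
      rw [HahnSeries.coeff_single_same, HahnSeries.coeff_one, if_pos rfl]
    · rw [HahnSeries.coeff_single_of_ne hn, HahnSeries.coeff_one, if_neg hn, map_zero]
  · rw [sub_self, map_zero]
    exact zero_lt_one

theorem plx72_isRes_unique {b : LaurentSeries L} {ρ ρ' : L} (h : plx72_IsRes P0 b ρ)
    (h' : plx72_IsRes P0 b ρ') : ρ = ρ' := by
  rw [← sub_eq_zero, ← Module.forall_dual_apply_eq_zero_iff K]
  intro φ
  obtain ⟨x, hx, hxv⟩ := h φ
  obtain ⟨x', hx', hxv'⟩ := h' φ
  have hxx : x = x' := Subtype.ext (hx.trans hx'.symm)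
  subst hxx
  apply plx72_const_eq_zero_of_val_lt_one P0
  have : algebraMap K FK (φ (ρ - ρ')) =
      (x - algebraMap K FK (φ ρ')) - (x - algebraMap K FK (φ ρ)) := by
    rw [map_sub, map_sub]; ring
  rw [this]
  exact Valuation.map_sub_lt _ hxv' hxv

end

end Fermat.Agent.S42x
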