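/-
S42x/PlaceExt72B (helper72; S42 project, block B7, leaf PLEXT twin B; prefix `plx72_`):
multiplicatively stable residues (`plx72_Good`) and normal forms (`plx72_NF`) for the extension of a
place along a constant field extension.  See `S42x/PlaceExt72.lean` for the setting.
-/
import Mathlib
import Fermat.Agent.S42x.PlaceExt72

set_option autoImplicit false

namespace Fermat.Agent.S42x

open ModularCurve AlgebraicCurve HahnSeries Fermat.Agent.S24x Fermat.Agent.S18x

noncomputable section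

universe u v

variable {K : Type u} {L : Type v} [Field K] [Field L] [Algebra K L]
variable {FK : IntermediateField K (LaurentSeries K)} (P0 : Place K FK)

/-- coefficientwise extension of constants `K((q)) → L((q))` -/
abbrev plx72_iota : LaurentSeries K →+* LaurentSeries L := coeffMap (algebraMap K L)

theorem plx72_iota_injective : Function.Injective (plx72_iota (K := K) (L := L)) :=
  (plx72_iota (K := K) (L := L)).injective

/-! ### multiplicatively stable residues -/

/-- `Good b ρ`: `b` has residue `ρ`, and multiplication by `b` multiplies residues by `ρ`. -/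
def plx72_Good (b : LaurentSeries L) (ρ : L) : Prop :=
  plx72_IsRes P0 b ρ ∧
    ∀ (b' : LaurentSeries L) (ρ' : L), plx72_IsRes P0 b' ρ' → plx72_IsRes P0 (b * b') (ρ * ρ')

variable {P0}

theorem plx72_good_iota {y : FK} {c : K}
    (hy : P0.adicValuation (y - algebraMap K FK c) < 1) :
    plx72_Good (L := L) P0 (plx72_iota (y : LaurentSeries K)) (algebraMap K L c) := by
  refine ⟨?_, fun b' ρ' h => plx72_isRes_iota_mul P0 hy h⟩
  have := plx72_isRes_iota_mul (L := L) P0 hy (plx72_isRes_one P0)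
  rwa [mul_one, mul_one] at this

theorem plx72_good_zero : plx72_Good (L := L) P0 0 0 := by
  refine ⟨plx72_isRes_zero P0, fun b' ρ' _ => ?_⟩
  rw [zero_mul, zero_mul]
  exact plx72_isRes_zero P0

theorem plx72_good_one : plx72_Good (L := L) P0 1 1 := by
  refine ⟨plx72_isRes_one P0, fun b' ρ' h => ?_⟩
  rwa [one_mul, one_mul]

theorem plx72_good_add {b b' : LaurentSeries L} {ρ ρ' : L} (h : plx72_Good P0 b ρ)
    (h' : plx72_Good P0 b' ρ') : plx72_Good P0 (b + b') (ρ + ρ') := by
  refine ⟨plx72_isRes_add P0 h.1 h'.1, fun b'' ρ'' h'' => ?_⟩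
  rw [add_mul, add_mul]
  exact plx72_isRes_add P0 (h.2 _ _ h'') (h'.2 _ _ h'')

theorem plx72_good_smul {b : LaurentSeries L} {ρ : L} (l : L) (h : plx72_Good P0 b ρ) :
    plx72_Good P0 (algebraMap L (LaurentSeries L) l * b) (l * ρ) := by
  refine ⟨plx72_isRes_smul P0 l h.1, fun b'' ρ'' h'' => ?_⟩
  rw [mul_assoc, mul_assoc]
  exact plx72_isRes_smul P0 l (h.2 _ _ h'')

theorem plx72_good_mul {b b' : LaurentSeries L} {ρ ρ' : L} (h : plx72_Good P0 b ρ)
    (h' : plx72_Good P0 b' ρ') : plx72_Good P0 (b * b') (ρ * ρ') := by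
  refine ⟨h.2 _ _ h'.1, fun b'' ρ'' h'' => ?_⟩
  rw [mul_assoc, mul_assoc]
  exact h.2 _ _ (h'.2 _ _ h'')

theorem plx72_good_pow {b : LaurentSeries L} {ρ : L} (h : plx72_Good P0 b ρ) (k : ℕ) :
    plx72_Good P0 (b ^ k) (ρ ^ k) := by
  induction k with
  | zero => rw [pow_zero, pow_zero]; exact plx72_good_one
  | succ k ih => rw [pow_succ, pow_succ]; exact plx72_good_mul ih h

theorem plx72_good_sum {J : Type*} (s : Finset J) (b : J → LaurentSeries L) (ρ : J → L)
    (h : ∀ j ∈ s, plx72_Good P0 (b j) (ρ j)) :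
    plx72_Good P0 (∑ j ∈ s, b j) (∑ j ∈ s, ρ j) := by
  classical
  induction s using Finset.induction_on with
  | empty => rw [Finset.sum_empty, Finset.sum_empty]; exact plx72_good_zero
  | insert j s hj ih =>
    rw [Finset.sum_insert hj, Finset.sum_insert hj]
    exact plx72_good_add (h j (Finset.mem_insert_self j s))
      (ih fun i hi => h i (Finset.mem_insert_of_mem hi))

/-- a nonzero residue forces a nonzero element -/
theorem plx72_ne_zero_of_isRes {b : LaurentSeries L} {ρ : L} (h : plx72_IsRes P0 b ρ)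
    (hρ : ρ ≠ 0) : b ≠ 0 := by
  rintro rfl
  exact hρ (plx72_isRes_unique P0 h (plx72_isRes_zero P0))

/-! ### normal forms -/

/-- `NF t a n`: `a = ι(t)^n * b` with `b` of nonzero (multiplicatively stable) residue. -/
def plx72_NF (P0 : Place K FK) (t : FK) (a : LaurentSeries L) (n : ℤ) : Prop :=
  ∃ (b : LaurentSeries L) (ρ : L),
    a = (plx72_iota (t : LaurentSeries K)) ^ n * b ∧ plx72_Good P0 b ρ ∧ ρ ≠ 0

variable {t : FK}

theorem plx72_unif_ne_zero (ht : P0.ord t = 1) : t ≠ 0 := by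
  rintro rfl
  rw [Place.ord_zero] at ht
  exact zero_ne_one ht

theorem plx72_unif_val_lt_one (ht : P0.ord t = 1) : P0.adicValuation t < 1 := by
  rw [rmn_val_lt_one_iff]
  exact Or.inr ht.ge

theorem plx72_iota_unif_ne_zero (ht : P0.ord t = 1) :
    (plx72_iota (t : LaurentSeries K) : LaurentSeries L) ≠ 0 := by
  rw [Ne, map_eq_zero_iff _ plx72_iota_injective]
  intro h
  exact plx72_unif_ne_zero ht (Subtype.ext h)

theorem plx72_good_iota_unif (ht : P0.ord t = 1) :
    plx72_Good (L := L) P0 (plx72_iota (t : LaurentSeries K)) (algebraMap K L 0) := by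
  apply plx72_good_iota
  rw [map_zero, sub_zero]
  exact plx72_unif_val_lt_one ht

/-- **comparison of exponents**: if `a = ι(t)^n * b''` with `b''` good (any residue) and
`a = ι(t)^m * β` with `β` of nonzero residue, then `n ≤ m`. -/
theorem plx72_le_of_forms (ht : P0.ord t = 1) {a : LaurentSeries L} {n m : ℤ}
    {b'' : LaurentSeries L} {ρ'' : L}
    (ha : a = (plx72_iota (t : LaurentSeries K)) ^ n * b'') (hg : plx72_Good P0 b'' ρ'')
    {β : LaurentSeries L} {σ : L}
    (ha' : a = (plx72_iota (t : LaurentSeries K)) ^ m * β) (hβ : plx72_IsRes P0 β σ)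
    (hσ : σ ≠ 0) : n ≤ m := by
  by_contra hnm
  rw [not_le] at hnm
  obtain ⟨k, hk⟩ : ∃ k : ℕ, n = m + ((k + 1 : ℕ) : ℤ) := ⟨(n - m - 1).toNat, by omega⟩
  have hT := plx72_iota_unif_ne_zero (L := L) ht
  have hβeq : β = (plx72_iota (t : LaurentSeries K)) * ((plx72_iota (t : LaurentSeries K)) ^ k * b'') := by
    have h1 : (plx72_iota (t : LaurentSeries K) : LaurentSeries L) ^ m * β =
        (plx72_iota (t : LaurentSeries K)) ^ m *
          ((plx72_iota (t : LaurentSeries K)) * ((plx72_iota (t : LaurentSeries K)) ^ k * b'')) := by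
      rw [← ha', ha, hk, zpow_add₀ hT, zpow_natCast, pow_succ']
      ring
    exact mul_left_cancel₀ (zpow_ne_zero m hT) h1
  have h2 : plx72_IsRes P0 ((plx72_iota (t : LaurentSeries K)) ^ k * b'')
      ((algebraMap K L 0) ^ k * ρ'') :=
    (plx72_good_pow (plx72_good_iota_unif ht) k).2 _ _ hg.1
  have h3 := (plx72_good_iota_unif (L := L) ht).2 _ _ h2
  rw [← hβeq, map_zero, zero_mul] at h3
  exact hσ (plx72_isRes_unique P0 hβ h3)

theorem plx72_NF_unique (ht : P0.ord t = 1) {a : LaurentSeries L} {n m : ℤ}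
    (h : plx72_NF P0 t a n) (h' : plx72_NF P0 t a m) : n = m := by
  obtain ⟨b, ρ, ha, hg, hρ⟩ := h
  obtain ⟨b', ρ', ha', hg', hρ'⟩ := h'
  exact le_antisymm (plx72_le_of_forms ht ha hg ha' hg'.1 hρ')
    (plx72_le_of_forms ht ha' hg' ha hg.1 hρ)

theorem plx72_NF_ne_zero (ht : P0.ord t = 1) {a : LaurentSeries L} {n : ℤ}
    (h : plx72_NF P0 t a n) : a ≠ 0 := by
  obtain ⟨b, ρ, ha, hg, hρ⟩ := h
  rw [ha]
  exact mul_ne_zero (zpow_ne_zero n (plx72_iota_unif_ne_zero ht)) (plx72_ne_zero_of_isRes hg.1 hρ)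

theorem plx72_NF_mul (ht : P0.ord t = 1) {a a' : LaurentSeries L} {n n' : ℤ}
    (h : plx72_NF P0 t a n) (h' : plx72_NF P0 t a' n') : plx72_NF P0 t (a * a') (n + n') := by
  obtain ⟨b, ρ, ha, hg, hρ⟩ := h
  obtain ⟨b', ρ', ha', hg', hρ'⟩ := h'
  refine ⟨b * b', ρ * ρ', ?_, plx72_good_mul hg hg', mul_ne_zero hρ hρ'⟩
  rw [ha, ha', zpow_add₀ (plx72_iota_unif_ne_zero ht)]
  ring

/-- ultrametric inequality for normal forms -/
theorem plx72_NF_add (ht : P0.ord t = 1) {a a' : LaurentSeries L} {n n' m : ℤ}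
    (h : plx72_NF P0 t a n) (h' : plx72_NF P0 t a' n') (hnn' : n ≤ n')
    (hm : plx72_NF P0 t (a + a') m) : n ≤ m := by
  obtain ⟨b, ρ, ha, hg, hρ⟩ := h
  obtain ⟨b', ρ', ha', hg', hρ'⟩ := h'
  obtain ⟨β, σ, hs, hgβ, hσ⟩ := hm
  obtain ⟨k, hk⟩ : ∃ k : ℕ, n' = n + (k : ℤ) := ⟨(n' - n).toNat, by omega⟩
  have hT := plx72_iota_unif_ne_zero (L := L) ht
  have hsum : a + a' = (plx72_iota (t : LaurentSeries K)) ^ n *
      (b + (plx72_iota (t : LaurentSeries K)) ^ k * b') := by
    rw [ha, ha', hk, zpow_add₀ hT, zpow_natCast]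
    ring
  exact plx72_le_of_forms ht hsum
    (plx72_good_add hg (plx72_good_mul (plx72_good_pow (plx72_good_iota_unif ht) k) hg'))
    hs hgβ.1 hσ

theorem plx72_NF_const (t : FK) {c : L} (hc : c ≠ 0) :
    plx72_NF P0 t (algebraMap L (LaurentSeries L) c) 0 := by
  refine ⟨algebraMap L (LaurentSeries L) c * 1, c * 1, ?_, plx72_good_smul c plx72_good_one, ?_⟩
  · rw [zpow_zero, one_mul, mul_one]
  · rwa [mul_one]

/-- the normal form of `ι x`, `x ∈ FK`, has exponent `P0.ord x` (uses that the residue field of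
`P0` is `K`). -/
theorem plx72_NF_iota (ht : P0.ord t = 1)
    (hres : ∀ x : FK, P0.adicValuation x ≤ 1 →
      ∃ c : K, P0.adicValuation (x - algebraMap K FK c) < 1)
    {x : FK} (hx : x ≠ 0) :
    plx72_NF (L := L) P0 t (plx72_iota (x : LaurentSeries K)) (P0.ord x) := by
  have ht0 := plx72_unif_ne_zero ht
  set u : FK := x * t ^ (-(P0.ord x)) with hu
  have hu0 : u ≠ 0 := mul_ne_zero hx (zpow_ne_zero _ ht0)
  have hordu : P0.ord u = 0 := by
    rw [hu, P0.ord_mul hx (zpow_ne_zero _ ht0), P0.ord_zpow, ht]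
    ring
  have hvu : P0.adicValuation u = 1 := by
    rw [P0.adicValuation_eq_exp_neg_ord hu0, hordu, neg_zero, WithZero.exp_zero]
  obtain ⟨c, hc⟩ := hres u hvu.le
  have hc0 : c ≠ 0 := by
    rintro rfl
    rw [map_zero, sub_zero, hvu] at hc
    exact lt_irrefl _ hc
  refine ⟨plx72_iota (u : LaurentSeries K), algebraMap K L c, ?_, plx72_good_iota hc, ?_⟩
  · have hxu : x = t ^ (P0.ord x) * u := by
      rw [hu, mul_comm x, ← mul_assoc, ← zpow_add₀ ht0, add_neg_cancel, zpow_zero, one_mul]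
    have hcoe : (x : LaurentSeries K) = (t : LaurentSeries K) ^ (P0.ord x) * (u : LaurentSeries K) := by
      conv_lhs => rw [hxu]
      push_cast
      rfl
    rw [hcoe, map_mul, map_zpow₀]
  · rwa [Ne, map_eq_zero_iff _ (algebraMap K L).injective]

end

end Fermat.Agent.S42x
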