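/-
S42x/PlaceExt72C (helper72; S42 project, block B7, leaf PLEXT twin B; prefix `plx72_`):
representation with `K`-linearly independent coefficients, existence of normal forms, the order
function on the `L`-span of `ι(FK)` and the extended place.  See `S42x/PlaceExt72.lean`.
-/
import Mathlib
import Fermat.Agent.S42x.PlaceExt72B

set_option autoImplicit false

namespace Fermat.Agent.S42x

open ModularCurve AlgebraicCurve HahnSeries Fermat.Agent.S24x Fermat.Agent.S18x

noncomputable section

universe u v

variable {K : Type u} {L : Type v} [Field K] [Field L] [Algebra K L]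

/-- the `L`-subalgebra of `L((q))` generated by `ι(FK)` (= its `L`-span). -/
def plx72_A (FK : IntermediateField K (LaurentSeries K)) : Subalgebra L (LaurentSeries L) :=
  Algebra.adjoin L ((plx72_iota (K := K) (L := L)) '' (FK : Set (LaurentSeries K)))

variable {FK : IntermediateField K (LaurentSeries K)}

theorem plx72_iota_mem_A {x : LaurentSeries K} (hx : x ∈ FK) :
    (plx72_iota x : LaurentSeries L) ∈ plx72_A (L := L) FK :=
  Algebra.subset_adjoin ⟨x, hx, rfl⟩

/-- **representation with independent coefficients**: every element of `A` is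
`∑ e_j • ι(x_j)` with `e_j ∈ L` linearly independent over `K` and `x_j ∈ FK`. -/
theorem plx72_rep {a : LaurentSeries L} (ha : a ∈ plx72_A (L := L) FK) :
    ∃ (J : Type v) (_ : Fintype J) (e : J → L) (x : J → FK), LinearIndependent K e ∧
      a = ∑ j, algebraMap L (LaurentSeries L) (e j) * plx72_iota ((x j : FK) : LaurentSeries K) := by
  classical
  have h1 : ((plx72_iota (K := K) (L := L)) '' (FK : Set (LaurentSeries K))) =
      ((FK.toSubfield.toSubring.toSubmonoid.map
        (plx72_iota (K := K) (L := L) : LaurentSeries K →* LaurentSeries L) :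
        Submonoid (LaurentSeries L)) : Set (LaurentSeries L)) := by
    ext x
    simp only [Set.mem_image, SetLike.mem_coe, Submonoid.coe_map]
    rfl
  have h4 : (Submonoid.closure ((plx72_iota (K := K) (L := L)) '' (FK : Set (LaurentSeries K))) :
      Set (LaurentSeries L)) = (plx72_iota (K := K) (L := L)) '' (FK : Set (LaurentSeries K)) := by
    conv_lhs => rw [h1, Submonoid.closure_eq]
    exact h1.symm
  have h3 : a ∈ Subalgebra.toSubmodule (plx72_A (L := L) FK) := ha
  rw [plx72_A, Algebra.adjoin_eq_span, h4] at h3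
  obtain ⟨T, hT, c, ha2⟩ : ∃ T : Finset (LaurentSeries K), ↑T ⊆ (FK : Set (LaurentSeries K)) ∧
      ∃ c : T → L, a = ∑ i : T, algebraMap L (LaurentSeries L) (c i) *
        (plx72_iota (i : LaurentSeries K) : LaurentSeries L) := by
    let _ : Module L (LaurentSeries L) := Algebra.toModule
    obtain ⟨T, hT, c, hc⟩ := (Submodule.mem_span_image_iff_exists_fun L).mp h3
    refine ⟨T, hT, c, ?_⟩
    rw [← hc]
    exact Finset.sum_congr rfl fun i _ => Algebra.smul_def _ _
  rw [ha2]
  let ℬ := Module.Basis.ofVectorSpace K L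
  let S : Finset (Module.Basis.ofVectorSpaceIndex K L) :=
    Finset.univ.biUnion fun i : T => (ℬ.repr (c i)).support
  have hc : ∀ i : T, c i = ∑ k : S, (ℬ.repr (c i) k) • (ℬ k : L) := by
    intro i
    conv_lhs => rw [← ℬ.linearCombination_repr (c i), Finsupp.linearCombination_apply, Finsupp.sum]
    rw [Finset.sum_coe_sort S (fun k => (ℬ.repr (c i) k) • (ℬ k : L))]
    refine Finset.sum_subset ?_ ?_
    · intro k hk
      exact Finset.mem_biUnion.mpr ⟨i, Finset.mem_univ i, hk⟩
    · intro k _ hk
      rw [Finsupp.notMem_support_iff.mp hk, zero_smul]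
  refine ⟨S, inferInstance, fun k => (ℬ k : L),
    fun k => ⟨∑ i : T, algebraMap K (LaurentSeries K) (ℬ.repr (c i) k) * ((i : LaurentSeries K)),
      FK.sum_mem fun i _ => FK.mul_mem (FK.algebraMap_mem _) (hT i.2)⟩,
    ℬ.linearIndependent.comp Subtype.val Subtype.val_injective, ?_⟩
  have hconst : ∀ r : K, (plx72_iota (algebraMap K (LaurentSeries K) r) : LaurentSeries L) =
      algebraMap L (LaurentSeries L) (algebraMap K L r) := by
    intro r
    rw [plx72_iota, algebraMap_laurentSeries_eq_single, algebraMap_laurentSeries_eq_single,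
      coeffMap_single]
  have hterm : ∀ (i : T) (k : S),
      algebraMap L (LaurentSeries L) ((ℬ.repr (c i) k) • (ℬ k : L)) *
          (plx72_iota (i : LaurentSeries K) : LaurentSeries L) =
        algebraMap L (LaurentSeries L) (ℬ k : L) *
          plx72_iota (algebraMap K (LaurentSeries K) (ℬ.repr (c i) k) * (i : LaurentSeries K)) := by
    intro i k
    rw [map_mul plx72_iota, hconst, Algebra.smul_def, map_mul]
    ring
  calc ∑ i : T, algebraMap L (LaurentSeries L) (c i) *
        (plx72_iota (i : LaurentSeries K) : LaurentSeries L)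
      = ∑ i : T, ∑ k : S, algebraMap L (LaurentSeries L) ((ℬ.repr (c i) k) • (ℬ k : L)) *
          (plx72_iota (i : LaurentSeries K) : LaurentSeries L) := by
        refine Finset.sum_congr rfl fun i _ => ?_
        conv_lhs => rw [hc i]
        rw [map_sum, Finset.sum_mul]
    _ = ∑ k : S, ∑ i : T, algebraMap L (LaurentSeries L) (ℬ k : L) *
          plx72_iota (algebraMap K (LaurentSeries K) (ℬ.repr (c i) k) * (i : LaurentSeries K)) := by
        rw [Finset.sum_comm]
        refine Finset.sum_congr rfl fun k _ => Finset.sum_congr rfl fun i _ => hterm i k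
    _ = _ := by
        refine Finset.sum_congr rfl fun k _ => ?_
        rw [← Finset.mul_sum, ← map_sum]

variable {P0 : Place K FK} {t : FK}

/-- **existence of normal forms** on `A \ {0}`. -/
theorem plx72_exists_NF (ht : P0.ord t = 1)
    (hres : ∀ x : FK, P0.adicValuation x ≤ 1 →
      ∃ c : K, P0.adicValuation (x - algebraMap K FK c) < 1)
    {a : LaurentSeries L} (ha : a ∈ plx72_A (L := L) FK) (ha0 : a ≠ 0) :
    ∃ n : ℤ, plx72_NF P0 t a n := by
  classical
  obtain ⟨J, _, e, x, he, rfl⟩ := plx72_rep ha
  have hne : (Finset.univ.filter fun j => x j ≠ 0).Nonempty := by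
    by_contra h
    rw [Finset.not_nonempty_iff_eq_empty, Finset.filter_eq_empty_iff] at h
    apply ha0
    refine Finset.sum_eq_zero fun j _ => ?_
    have hxj : x j = 0 := not_not.mp (h (Finset.mem_univ j))
    rw [hxj]
    simp
  obtain ⟨j0, hj0, hmin⟩ := Finset.exists_min_image _ (fun j => P0.ord (x j)) hne
  have hxj0 : x j0 ≠ 0 := (Finset.mem_filter.mp hj0).2
  set n : ℤ := P0.ord (x j0) with hn
  have ht0 := plx72_unif_ne_zero ht
  let y : J → FK := fun j => x j * t ^ (-n)
  have hordy : ∀ j, x j ≠ 0 → P0.ord (y j) = P0.ord (x j) - n := by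
    intro j hxj
    show P0.ord (x j * t ^ (-n)) = _
    rw [P0.ord_mul hxj (zpow_ne_zero _ ht0), P0.ord_zpow, ht]
    ring
  have hy : ∀ j, P0.adicValuation (y j) ≤ 1 := by
    intro j
    rw [P0.adicValuation_le_one_iff]
    by_cases hxj : x j = 0
    · left
      show x j * t ^ (-n) = 0
      rw [hxj, zero_mul]
    · right
      rw [hordy j hxj]
      have := hmin j (Finset.mem_filter.mpr ⟨Finset.mem_univ j, hxj⟩)
      linarith
  choose c hc using fun j => hres (y j) (hy j)
  have hcj0 : c j0 ≠ 0 := by
    intro h0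
    have h1 := hc j0
    rw [h0, map_zero, sub_zero] at h1
    have hy0 : y j0 ≠ 0 := mul_ne_zero hxj0 (zpow_ne_zero _ ht0)
    rw [P0.adicValuation_eq_exp_neg_ord hy0, hordy j0 hxj0, sub_self, neg_zero,
      WithZero.exp_zero] at h1
    exact lt_irrefl _ h1
  refine ⟨n, ∑ j, algebraMap L (LaurentSeries L) (e j) * plx72_iota ((y j : FK) : LaurentSeries K),
    ∑ j, e j * algebraMap K L (c j), ?_, ?_, ?_⟩
  · rw [Finset.mul_sum]
    refine Finset.sum_congr rfl fun j _ => ?_
    have hxy : x j = t ^ n * y j := by
      show x j = t ^ n * (x j * t ^ (-n))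
      rw [mul_comm (x j), ← mul_assoc, ← zpow_add₀ ht0, add_neg_cancel, zpow_zero, one_mul]
    have hcoe : ((x j : FK) : LaurentSeries K) =
        (t : LaurentSeries K) ^ n * ((y j : FK) : LaurentSeries K) := by
      conv_lhs => rw [hxy]
      push_cast
      rfl
    rw [hcoe, map_mul, map_zpow₀]
    ring
  · exact plx72_good_sum _ _ _ fun j _ => plx72_good_smul (e j) (plx72_good_iota (hc j))
  · intro h0
    have hsum : ∑ j, c j • e j = 0 := by
      rw [← h0]
      refine Finset.sum_congr rfl fun j _ => ?_
      rw [Algebra.smul_def, mul_comm]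
    exact hcj0 (Fintype.linearIndependent_iff.mp he c hsum j0)

end

end Fermat.Agent.S42x
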