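/-
S42x/PlaceExt72D (helper72; S42 project, block B7, leaf PLEXT twin B; prefix `plx72_`):
the order function on the `L`-span of `ι(FK)`, the extended place (generic theorem
`plx72_exists_place_gen`).  See `S42x/PlaceExt72.lean`.
-/
import Mathlib
import Fermat.Agent.S42x.PlaceExt72C

set_option autoImplicit false

namespace Fermat.Agent.S42x

open ModularCurve AlgebraicCurve HahnSeries Fermat.Agent.S24x Fermat.Agent.S18x

noncomputable section

universe u v

variable {K : Type u} {L : Type v} [Field K] [Field L] [Algebra K L]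
variable {FK : IntermediateField K (LaurentSeries K)}

open Classical in
/-- the exponent of the normal form (junk value `0` if there is none). -/
def plx72_o (P0 : Place K FK) (t : FK) (a : LaurentSeries L) : ℤ :=
  if h : ∃ n : ℤ, plx72_NF P0 t a n then h.choose else 0

variable {P0 : Place K FK} {t : FK}

theorem plx72_o_eq (ht : P0.ord t = 1) {a : LaurentSeries L} {n : ℤ} (h : plx72_NF P0 t a n) :
    plx72_o P0 t a = n := by
  have hex : ∃ n : ℤ, plx72_NF P0 t a n := ⟨n, h⟩
  rw [plx72_o, dif_pos hex]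
  exact plx72_NF_unique ht hex.choose_spec h

variable (FL : IntermediateField L (LaurentSeries L))

/-- the subalgebra of `FL` of elements lying in the `L`-span of `ι(FK)`. -/
def plx72_R0 (FK : IntermediateField K (LaurentSeries K))
    (FL : IntermediateField L (LaurentSeries L)) : Subalgebra L FL :=
  (plx72_A (L := L) FK).comap FL.val

theorem plx72_mem_R0 (y : FL) :
    y ∈ plx72_R0 FK FL ↔ ((y : FL) : LaurentSeries L) ∈ plx72_A (L := L) FK := Iff.rfl

/-- the order function on `R₀`. -/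
def plx72_subOrderFn (ht : P0.ord t = 1)
    (hres : ∀ x : FK, P0.adicValuation x ≤ 1 →
      ∃ c : K, P0.adicValuation (x - algebraMap K FK c) < 1)
    (hι : ∀ x : LaurentSeries K, x ∈ FK → (plx72_iota x : LaurentSeries L) ∈ FL)
    (hfrac : ∀ y : LaurentSeries L, y ∈ FL → ∃ a ∈ plx72_A (L := L) FK, ∃ b ∈ plx72_A (L := L) FK,
      b ≠ 0 ∧ y = a / b) :
    SubOrderFn L FL (plx72_R0 FK FL) where
  o a := plx72_o P0 t (((a : plx72_R0 FK FL) : FL) : LaurentSeries L)
  map_mul := by
    intro a b ha hb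
    have ha0 : (((a : plx72_R0 FK FL) : FL) : LaurentSeries L) ≠ 0 := fun h =>
      ha (Subtype.ext (Subtype.ext h))
    have hb0 : (((b : plx72_R0 FK FL) : FL) : LaurentSeries L) ≠ 0 := fun h =>
      hb (Subtype.ext (Subtype.ext h))
    obtain ⟨n, hn⟩ : ∃ n : ℤ, plx72_NF P0 t (((a : plx72_R0 FK FL) : FL) : LaurentSeries L) n :=
      plx72_exists_NF ht hres a.2 ha0
    obtain ⟨m, hm⟩ : ∃ n : ℤ, plx72_NF P0 t (((b : plx72_R0 FK FL) : FL) : LaurentSeries L) n :=
      plx72_exists_NF ht hres b.2 hb0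
    have hab : ((((a * b : plx72_R0 FK FL) : plx72_R0 FK FL) : FL) : LaurentSeries L) =
        (((a : plx72_R0 FK FL) : FL) : LaurentSeries L) *
          (((b : plx72_R0 FK FL) : FL) : LaurentSeries L) := rfl
    rw [hab, plx72_o_eq ht hn, plx72_o_eq ht hm, plx72_o_eq ht (plx72_NF_mul ht hn hm)]
  map_add := by
    intro a b ha hb hab
    have ha0 : (((a : plx72_R0 FK FL) : FL) : LaurentSeries L) ≠ 0 := fun h =>
      ha (Subtype.ext (Subtype.ext h))
    have hb0 : (((b : plx72_R0 FK FL) : FL) : LaurentSeries L) ≠ 0 := fun h =>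
      hb (Subtype.ext (Subtype.ext h))
    have hab0 : ((((a + b : plx72_R0 FK FL) : plx72_R0 FK FL) : FL) : LaurentSeries L) ≠ 0 :=
      fun h => hab (Subtype.ext (Subtype.ext h))
    obtain ⟨n, hn⟩ : ∃ n : ℤ, plx72_NF P0 t (((a : plx72_R0 FK FL) : FL) : LaurentSeries L) n :=
      plx72_exists_NF ht hres a.2 ha0
    obtain ⟨m, hm⟩ : ∃ n : ℤ, plx72_NF P0 t (((b : plx72_R0 FK FL) : FL) : LaurentSeries L) n :=
      plx72_exists_NF ht hres b.2 hb0
    obtain ⟨k, hk⟩ : ∃ n : ℤ, plx72_NF P0 t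
        ((((a + b : plx72_R0 FK FL) : plx72_R0 FK FL) : FL) : LaurentSeries L) n :=
      plx72_exists_NF ht hres (a + b).2 hab0
    have habc : ((((a + b : plx72_R0 FK FL) : plx72_R0 FK FL) : FL) : LaurentSeries L) =
        (((a : plx72_R0 FK FL) : FL) : LaurentSeries L) +
          (((b : plx72_R0 FK FL) : FL) : LaurentSeries L) := rfl
    rw [plx72_o_eq ht hn, plx72_o_eq ht hm, plx72_o_eq ht hk]
    rw [habc] at hk
    rcases le_total n m with hnm | hnm
    · rw [min_eq_left hnm]
      exact plx72_NF_add ht hn hm hnm hk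
    · rw [min_eq_right hnm]
      rw [add_comm] at hk
      exact plx72_NF_add ht hm hn hnm hk
  map_const := by
    intro c hc
    exact plx72_o_eq ht (plx72_NF_const t hc)
  nontrivial := by
    refine ⟨⟨⟨plx72_iota (t : LaurentSeries K), hι _ t.2⟩, plx72_iota_mem_A t.2⟩, ?_, ?_⟩
    · intro h
      have h1 := congrArg (fun z : plx72_R0 FK FL => ((z : FL) : LaurentSeries L)) h
      exact plx72_iota_unif_ne_zero ht h1
    · show plx72_o P0 t (plx72_iota (t : LaurentSeries K)) ≠ 0
      rw [plx72_o_eq ht (plx72_NF_iota ht hres (plx72_unif_ne_zero ht)), ht]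
      exact one_ne_zero
  frac := by
    intro f
    obtain ⟨a, ha, b, hb, hb0, hab⟩ := hfrac (f : LaurentSeries L) f.2
    have hAle : ∀ z ∈ plx72_A (L := L) FK, z ∈ FL := by
      intro z hz
      have hle : plx72_A (L := L) FK ≤ FL.toSubalgebra := by
        rw [plx72_A]
        apply Algebra.adjoin_le
        rintro _ ⟨x, hx, rfl⟩
        exact hι x hx
      exact hle hz
    refine ⟨⟨⟨a, hAle a ha⟩, ha⟩, ⟨⟨b, hAle b hb⟩, hb⟩, ?_, ?_⟩
    · intro h
      exact hb0 (congrArg (fun z : plx72_R0 FK FL => ((z : FL) : LaurentSeries L)) h)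
    · apply Subtype.ext
      rw [hab]
      rfl

/-- **Extension of a place along a constant field extension (generic form).** -/
theorem plx72_exists_place_gen (P0 : Place K FK)
    (hres : ∀ x : FK, P0.adicValuation x ≤ 1 →
      ∃ c : K, P0.adicValuation (x - algebraMap K FK c) < 1)
    (hι : ∀ x : LaurentSeries K, x ∈ FK → (plx72_iota x : LaurentSeries L) ∈ FL)
    (hfrac : ∀ y : LaurentSeries L, y ∈ FL → ∃ a ∈ plx72_A (L := L) FK, ∃ b ∈ plx72_A (L := L) FK,
      b ≠ 0 ∧ y = a / b) :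
    ∃ P : Place L FL, ∀ (x : FK) (y : FL),
      (y : LaurentSeries L) = plx72_iota (x : LaurentSeries K) → x ≠ 0 → P.ord y = P0.ord x := by
  obtain ⟨π, hπ⟩ := IsDiscreteValuationRing.exists_irreducible P0.toValuationSubring
  set t : FK := (π : FK) with htdef
  have ht : P0.ord t = 1 := P0.ord_coe_irreducible hπ
  set ω := plx72_subOrderFn (t := t) FL ht hres hι hfrac with hω
  refine ⟨ω.place, ?_⟩
  obtain ⟨g, hg, -, hall⟩ := ω.toOrderFn.exists_o_eq_mul_ord
  -- the element `ι t` has order `1`, hence `g = 1`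
  have hval : ∀ (x : FK) (y : FL), (y : LaurentSeries L) = plx72_iota (x : LaurentSeries K) →
      x ≠ 0 → y ≠ 0 ∧ ω.toOrderFn.o y = P0.ord x := by
    intro x y hy hx
    have hymem : y ∈ plx72_R0 FK FL := by
      rw [plx72_mem_R0, hy]
      exact plx72_iota_mem_A x.2
    have hy0 : y ≠ 0 := by
      intro h
      rw [h] at hy
      have h2 : (plx72_iota (x : LaurentSeries K) : LaurentSeries L) = 0 := hy.symm
      rw [map_eq_zero_iff _ plx72_iota_injective] at h2
      exact hx (Subtype.ext h2)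
    have hy0' : (⟨y, hymem⟩ : plx72_R0 FK FL) ≠ 0 := fun h => hy0 (congrArg Subtype.val h)
    refine ⟨hy0, ?_⟩
    have h1 := ω.toOrderFn_o_coe hy0'
    rw [show ((⟨y, hymem⟩ : plx72_R0 FK FL) : FL) = y from rfl] at h1
    rw [h1]
    show plx72_o P0 t ((y : FL) : LaurentSeries L) = _
    rw [hy]
    exact plx72_o_eq ht (plx72_NF_iota ht hres hx)
  have hg1 : g = 1 := by
    obtain ⟨hT0, hTo⟩ := hval t ⟨plx72_iota (t : LaurentSeries K), hι _ t.2⟩ rfl
      (plx72_unif_ne_zero ht)
    have h2 := hall _ hT0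
    rw [hTo, ht] at h2
    exact Int.eq_one_of_mul_eq_one_right hg.le h2.symm
  intro x y hy hx
  obtain ⟨hy0, hyo⟩ := hval x y hy hx
  have h3 := hall y hy0
  rw [hg1, one_mul] at h3
  show ω.toOrderFn.place.ord y = P0.ord x
  rw [← h3, hyo]

end

end Fermat.Agent.S42x
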