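/-
S42x/PlaceExt72E (helper72; S42 project, block B7, leaf PLEXT twin B; prefix `plx72_`):
INSTANCE of the place extension theorem at `Q̄ ⊆ ℂ`, `FK = F̄_M = modularFunctionFieldBar M`,
`FL = FC = modularFunctionFieldFullC ℂ M`, and the ALGEBRAIC form of R5c:

* `plx72_exists_place` : every place `P0` of `F̄_M / Q̄` extends to a place `P` of `FC / ℂ` with
  `P.ord (ι x) = P0.ord x`;
* `plx72_dvd` : if `ι f0 = c * f * u^p` in `FC` and `p ∣ P.ord f` for all places `P` of `FC`, then
  `p ∣ P0.ord f0` for all places `P0` of `F̄_M` (outputs of `dsct_top`; no covering theorem over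
  `Q̄`, no cusp exactness, any `p`).
-/
import Mathlib
import Fermat.Agent.S42x.PlaceExt72D
import Fermat.Agent.S42x.FCIdent95
import Fermat.Agent.S18x.RmnOfRmt
import Fermat.Agent.S24x.Iota
import Fermat.Agent.S24x.AlgDefs

set_option autoImplicit false

namespace Fermat.Agent.S42x

open ModularCurve AlgebraicCurve HahnSeries Fermat.Agent.S24x Fermat.Agent.S18x

noncomputable section

/-- **PLEXT**: extension of a place of `F̄_M / Q̄` to `FC / ℂ` with the same orders. -/
theorem plx72_exists_place (M : ℕ) [NeZero M] (P0 : Place Qbar (FBar M)) :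
    ∃ P : Place ℂ (modularFunctionFieldFullC ℂ M),
      ∀ (x : FBar M) (y : modularFunctionFieldFullC ℂ M),
        (y : LaurentSeries ℂ) = coeffMap iotaQ (x : LaurentSeries Qbar) → x ≠ 0 →
          P.ord y = P0.ord x := by
  let _ : Algebra Qbar ℂ := iotaQ.toAlgebra
  have : IsScalarTower ℚ Qbar ℂ := IsScalarTower.of_algebraMap_eq fun r => by
    show algebraMap ℚ ℂ r = iotaQ (algebraMap ℚ Qbar r)
    rw [eq_ratCast, eq_ratCast, map_ratCast]
  have hι : ∀ x : LaurentSeries Qbar, x ∈ modularFunctionFieldBar M →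
      (plx72_iota x : LaurentSeries ℂ) ∈ modularFunctionFieldFullC ℂ M := by
    intro x hx
    rw [← fci95_laurentBaseChange_eq ℂ M]
    exact (injd_mem_iff (modularFunctionFieldFull M) x).mpr hx
  have hfrac : ∀ y : LaurentSeries ℂ, y ∈ modularFunctionFieldFullC ℂ M →
      ∃ a ∈ plx72_A (L := ℂ) (modularFunctionFieldBar M),
        ∃ b ∈ plx72_A (L := ℂ) (modularFunctionFieldBar M), b ≠ 0 ∧ y = a / b := by
    intro y hy
    rw [← fci95_laurentBaseChange_eq ℂ M] at hy
    obtain ⟨a, ha, b, hb, hab⟩ := IntermediateField.mem_adjoin_iff_div.mp hy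
    have hle : Algebra.adjoin ℂ (⇑(coeffEmb ℂ) '' (modularFunctionFieldFull M : Set (LaurentSeries ℚ))) ≤
        plx72_A (L := ℂ) (modularFunctionFieldBar M) := by
      apply Algebra.adjoin_le
      rintro _ ⟨f, hf, rfl⟩
      rw [injd_coeffEmb_eq (K := Qbar)]
      exact plx72_iota_mem_A (coeffEmb_mem_laurentBaseChange Qbar hf)
    by_cases hb0 : b = 0
    · refine ⟨0, zero_mem _, 1, one_mem _, one_ne_zero, ?_⟩
      rw [hab, hb0, div_zero, zero_div]
    · exact ⟨a, hle ha, b, hle hb, hb0, hab⟩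
  exact plx72_exists_place_gen (modularFunctionFieldFullC ℂ M) P0
    (fun x hx => (rmn_hyp_FBar M).eval P0 x hx) hι hfrac

/-- **algebraic R5c**: divisibility of all place orders descends from `FC` to `F̄_M`. -/
theorem plx72_dvd (M : ℕ) [NeZero M] (p : ℕ) (f0 : FBar M) (hf0 : f0 ≠ 0) (c : ℂ)
    (f u : modularFunctionFieldFullC ℂ M) (hc : c ≠ 0) (hf : f ≠ 0) (hu : u ≠ 0)
    (h : coeffMap iotaQ (f0 : LaurentSeries Qbar) =
      ((algebraMap ℂ (modularFunctionFieldFullC ℂ M) c * f * u ^ p :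
        modularFunctionFieldFullC ℂ M) : LaurentSeries ℂ))
    (hdiv : ∀ P : Place ℂ (modularFunctionFieldFullC ℂ M), (p : ℤ) ∣ P.ord f) :
    ∀ P0 : Place Qbar (FBar M), (p : ℤ) ∣ P0.ord f0 := by
  intro P0
  obtain ⟨P, hP⟩ := plx72_exists_place M P0
  rw [← hP f0 _ h.symm hf0]
  have hc0 : algebraMap ℂ (modularFunctionFieldFullC ℂ M) c ≠ 0 := by
    rwa [Ne, map_eq_zero_iff _ (algebraMap ℂ (modularFunctionFieldFullC ℂ M)).injective]
  rw [P.ord_mul (mul_ne_zero hc0 hf) (pow_ne_zero p hu), P.ord_mul hc0 hf, rmn_ord_algebraMap,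
    zero_add, ← zpow_natCast, P.ord_zpow]
  exact dvd_add (hdiv P) (dvd_mul_right _ _)

end

end Fermat.Agent.S42x
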