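/-
S42 project, block B7/B13, leaf PLEXT (helper96, prefix `plx96_`): EXTENSION OF PLACES ALONG A
CONSTANT FIELD EXTENSION (tensor-product proof).

Generic part: `K ⊆ L` fields, `O` a `K`-algebra domain (the valuation ring of a place of degree
one) with a residue map `res : O →ₐ[K] K`, a parameter `π` with `res π = 0`, and the DVR
decomposition `y = π ^ n * u`, `res u ≠ 0`.  On `R = O ⊗[K] L` the map
`red = res ⊗ id : R → L` is a ring homomorphism, and every `a ≠ 0` in `R` is `π ^ n • a'` with
`red a' ≠ 0` (coordinates in the `O`-basis `1 ⊗ b i`, `b` a `K`-basis of `L`).  Hence the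
`π`-adic order `plx96_ordR` on `R` is multiplicative, ultrametric, trivial on `L`, and restricts to
the given order on `O`.
-/
import Mathlib
import Fermat.Agent.S24x.OrderOfFractions

set_option autoImplicit false
set_option linter.unusedSectionVars false

namespace Fermat.Agent.S42x

open TensorProduct AlgebraicCurve Fermat.Agent.S24x

noncomputable section

section Tensor

variable {K L O : Type*} [Field K] [Field L] [Algebra K L] [CommRing O] [IsDomain O] [Algebra K O]

/-- the reduction map `res ⊗ id : O ⊗[K] L → L`. -/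
def plx96_red (res : O →ₐ[K] K) : O ⊗[K] L →ₐ[K] L :=
  Algebra.TensorProduct.productMap ((Algebra.ofId K L).comp res) (AlgHom.id K L)

theorem plx96_red_tmul (res : O →ₐ[K] K) (y : O) (l : L) :
    plx96_red res (y ⊗ₜ[K] l) = algebraMap K L (res y) * l := by
  unfold plx96_red
  rw [Algebra.TensorProduct.productMap_apply_tmul]
  rfl

theorem plx96_red_smul (res : O →ₐ[K] K) (y : O) (a : O ⊗[K] L) :
    plx96_red res (y • a) = algebraMap K L (res y) * plx96_red res a := by
  rw [Algebra.smul_def, map_mul, Algebra.TensorProduct.algebraMap_apply, plx96_red_tmul,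
    Algebra.algebraMap_self_apply, mul_one]

variable (K L O) in
/-- the chosen `K`-basis of `L`. -/
abbrev plx96_b : Module.Basis (Module.Free.ChooseBasisIndex K L) K L := Module.Free.chooseBasis K L

variable (K L O) in
/-- the `O`-basis `1 ⊗ b i` of `O ⊗[K] L`. -/
abbrev plx96_B : Module.Basis (Module.Free.ChooseBasisIndex K L) O (O ⊗[K] L) :=
  Algebra.TensorProduct.basis O (plx96_b K L)

theorem plx96_red_repr_symm (res : O →ₐ[K] K) (c : Module.Free.ChooseBasisIndex K L →₀ O) :
    plx96_red res ((plx96_B K L O).repr.symm c) =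
      Finsupp.linearCombination K (plx96_b K L) (c.mapRange res (map_zero res)) := by
  induction c using Finsupp.induction_linear with
  | zero => simp
  | add f g hf hg =>
    rw [map_add, map_add, hf, hg, Finsupp.mapRange_add (fun x y => map_add res x y), map_add]
  | single i y =>
    rw [Module.Basis.repr_symm_apply, Finsupp.linearCombination_single,
      Algebra.TensorProduct.basis_apply, plx96_red_smul, plx96_red_tmul, map_one, map_one, one_mul,
      Finsupp.mapRange_single, Finsupp.linearCombination_single, Algebra.smul_def]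

theorem plx96_red_eq (res : O →ₐ[K] K) (a : O ⊗[K] L) :
    plx96_red res a = Finsupp.linearCombination K (plx96_b K L)
      (((plx96_B K L O).repr a).mapRange res (map_zero res)) := by
  conv_lhs => rw [← (plx96_B K L O).repr.symm_apply_apply a]
  exact plx96_red_repr_symm res _

theorem plx96_red_eq_zero_iff (res : O →ₐ[K] K) (a : O ⊗[K] L) :
    plx96_red res a = 0 ↔ ∀ i, res ((plx96_B K L O).repr a i) = 0 := by
  rw [plx96_red_eq]
  constructor
  · intro h i
    have h1 := linearIndependent_iff.mp (plx96_b K L).linearIndependent _ h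
    have h2 := DFunLike.congr_fun h1 i
    simpa using h2
  · intro h
    have : ((plx96_B K L O).repr a).mapRange res (map_zero res) = 0 := by
      ext i
      simpa using h i
    rw [this, map_zero]

/-- `π ^ k • x = 0 → x = 0` (coordinates in a domain). -/
theorem plx96_smul_eq_zero {π : O} (hπ0 : π ≠ 0) (k : ℕ) {x : O ⊗[K] L}
    (h : π ^ k • x = 0) : x = 0 := by
  apply (plx96_B K L O).repr.injective
  rw [map_zero]
  ext i
  have h1 := DFunLike.congr_fun (congrArg (plx96_B K L O).repr h) i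
  rw [map_smul, map_zero, Finsupp.smul_apply, Finsupp.zero_apply, smul_eq_mul] at h1
  rcases mul_eq_zero.mp h1 with h2 | h2
  · exact absurd h2 (pow_ne_zero k hπ0)
  · simpa using h2

/-- **Gauss decomposition**: every nonzero element of `O ⊗[K] L` is `π ^ n • a'` with
`red a' ≠ 0`. -/
theorem plx96_exists_decomp (res : O →ₐ[K] K) (π : O)
    (hdec : ∀ y : O, y ≠ 0 → ∃ (n : ℕ) (u : O), res u ≠ 0 ∧ y = π ^ n * u)
    {a : O ⊗[K] L} (ha : a ≠ 0) :
    ∃ (n : ℕ) (a' : O ⊗[K] L), a = π ^ n • a' ∧ plx96_red res a' ≠ 0 := by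
  classical
  set c := (plx96_B K L O).repr a with hc
  have hc0 : c ≠ 0 := by
    intro h
    apply ha
    apply (plx96_B K L O).repr.injective
    rw [map_zero, ← hc, h]
  -- the chosen decompositions of the coordinates
  let ν : Module.Free.ChooseBasisIndex K L → ℕ := fun i =>
    if h : c i = 0 then 0 else (hdec (c i) h).choose
  let υ : Module.Free.ChooseBasisIndex K L → O := fun i =>
    if h : c i = 0 then 0 else (hdec (c i) h).choose_spec.choose
  have hνυ : ∀ i, c i = π ^ ν i * υ i := by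
    intro i
    by_cases h : c i = 0
    · simp only [ν, υ, dif_pos h, h, mul_zero]
    · simp only [ν, υ, dif_neg h]
      exact (hdec (c i) h).choose_spec.choose_spec.2
  have hυ : ∀ i, c i ≠ 0 → res (υ i) ≠ 0 := by
    intro i h
    simp only [υ, dif_neg h]
    exact (hdec (c i) h).choose_spec.choose_spec.1
  have hS : c.support.Nonempty := Finsupp.support_nonempty_iff.mpr hc0
  obtain ⟨i0, hi0, hmin⟩ := Finset.exists_min_image c.support ν hS
  set n := ν i0 with hn
  let c' : Module.Free.ChooseBasisIndex K L →₀ O :=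
    Finsupp.onFinset c.support (fun i => if i ∈ c.support then π ^ (ν i - n) * υ i else 0)
      (fun i hi => by
        by_contra hmem
        exact hi (if_neg hmem))
  have hc' : π ^ n • c' = c := by
    ext i
    rw [Finsupp.smul_apply, Finsupp.onFinset_apply, smul_eq_mul]
    by_cases hi : i ∈ c.support
    · rw [if_pos hi, ← mul_assoc, ← pow_add, Nat.add_sub_cancel' (hmin i hi), ← hνυ i]
    · rw [if_neg hi, mul_zero]
      exact (Finsupp.notMem_support_iff.mp hi).symm
  refine ⟨n, (plx96_B K L O).repr.symm c', ?_, ?_⟩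
  · apply (plx96_B K L O).repr.injective
    rw [map_smul, LinearEquiv.apply_symm_apply, hc']
  · intro h0
    have h1 := (plx96_red_eq_zero_iff res _).mp h0 i0
    rw [LinearEquiv.apply_symm_apply, Finsupp.onFinset_apply, if_pos hi0, Nat.sub_self, pow_zero,
      one_mul] at h1
    exact hυ i0 (Finsupp.mem_support_iff.mp hi0) h1

/-- data of a "degree one DVR over `K`": residue map, parameter, decomposition. -/
structure plx96_Dvr (K O : Type*) [Field K] [CommRing O] [Algebra K O] where
  /-- the residue map -/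
  res : O →ₐ[K] K
  /-- the parameter -/
  π : O
  π_ne_zero : π ≠ 0
  res_π : res π = 0
  dec : ∀ y : O, y ≠ 0 → ∃ (n : ℕ) (u : O), res u ≠ 0 ∧ y = π ^ n * u

variable (D : plx96_Dvr K O)

open scoped Classical in
/-- the `π`-adic order on `O ⊗[K] L` (junk value `0` at `0`). -/
def plx96_ordR (a : O ⊗[K] L) : ℕ :=
  if h : a = 0 then 0 else (plx96_exists_decomp (L := L) D.res D.π D.dec h).choose

theorem plx96_red_pow_smul (k : ℕ) (hk : 0 < k) (x : O ⊗[K] L) :
    plx96_red D.res (D.π ^ k • x) = 0 := by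
  rw [plx96_red_smul, map_pow, D.res_π, zero_pow hk.ne', map_zero, zero_mul]

theorem plx96_decomp_ne_zero {n : ℕ} {a' : O ⊗[K] L} (h' : plx96_red D.res a' ≠ 0) :
    D.π ^ n • a' ≠ 0 := by
  intro h
  have := plx96_smul_eq_zero D.π_ne_zero n h
  rw [this, map_zero] at h'
  exact h' rfl

/-- uniqueness of the exponent. -/
theorem plx96_decomp_unique {n m : ℕ} {a' a'' : O ⊗[K] L}
    (h : D.π ^ n • a' = D.π ^ m • a'') (h' : plx96_red D.res a' ≠ 0)
    (h'' : plx96_red D.res a'' ≠ 0) : n = m := by
  wlog hnm : n ≤ m generalizing n m a' a''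
  · exact (this h.symm h'' h' (le_of_not_ge hnm)).symm
  by_contra hne
  have hlt : n < m := lt_of_le_of_ne hnm hne
  have h1 : D.π ^ n • (a' - D.π ^ (m - n) • a'') = 0 := by
    rw [smul_sub, smul_smul, ← pow_add, Nat.add_sub_cancel' hnm, h, sub_self]
  have h2 := plx96_smul_eq_zero D.π_ne_zero n h1
  rw [sub_eq_zero] at h2
  rw [h2, plx96_red_pow_smul D (m - n) (by omega)] at h'
  exact h' rfl

theorem plx96_ordR_eq {a : O ⊗[K] L} {n : ℕ} {a' : O ⊗[K] L} (h : a = D.π ^ n • a')
    (h' : plx96_red D.res a' ≠ 0) : plx96_ordR D a = n := by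
  have ha : a ≠ 0 := h ▸ plx96_decomp_ne_zero D h'
  unfold plx96_ordR
  rw [dif_neg ha]
  obtain ⟨h1, h2⟩ := (plx96_exists_decomp (L := L) D.res D.π D.dec ha).choose_spec.choose_spec
  exact plx96_decomp_unique D (h1.symm.trans h) h2 h'

theorem plx96_ordR_spec {a : O ⊗[K] L} (ha : a ≠ 0) :
    ∃ a' : O ⊗[K] L, a = D.π ^ plx96_ordR D a • a' ∧ plx96_red D.res a' ≠ 0 := by
  obtain ⟨n, a', h, h'⟩ := plx96_exists_decomp (L := L) D.res D.π D.dec ha
  exact ⟨a', by rw [plx96_ordR_eq D h h']; exact h, h'⟩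

include D in
theorem plx96_mul_ne_zero {a b : O ⊗[K] L} (ha : a ≠ 0) (hb : b ≠ 0) : a * b ≠ 0 := by
  obtain ⟨a', h1, h1'⟩ := plx96_ordR_spec D ha
  obtain ⟨b', h2, h2'⟩ := plx96_ordR_spec D hb
  rw [h1, h2, smul_mul_smul_comm, ← pow_add]
  apply plx96_decomp_ne_zero D
  rw [map_mul]
  exact mul_ne_zero h1' h2'

theorem plx96_ordR_mul {a b : O ⊗[K] L} (ha : a ≠ 0) (hb : b ≠ 0) :
    plx96_ordR D (a * b) = plx96_ordR D a + plx96_ordR D b := by
  obtain ⟨a', h1, h1'⟩ := plx96_ordR_spec D ha
  obtain ⟨b', h2, h2'⟩ := plx96_ordR_spec D hb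
  apply plx96_ordR_eq D (a' := a' * b')
  · conv_lhs => rw [h1, h2]
    rw [smul_mul_smul_comm, ← pow_add]
  · rw [map_mul]
    exact mul_ne_zero h1' h2'

theorem plx96_ordR_add {a b : O ⊗[K] L} (ha : a ≠ 0) (hb : b ≠ 0) (hab : a + b ≠ 0) :
    min (plx96_ordR D a) (plx96_ordR D b) ≤ plx96_ordR D (a + b) := by
  wlog hnm : plx96_ordR D a ≤ plx96_ordR D b generalizing a b
  · rw [min_comm, add_comm]
    exact this hb ha (by rwa [add_comm]) (le_of_not_ge hnm)
  rw [min_eq_left hnm]
  obtain ⟨a', h1, h1'⟩ := plx96_ordR_spec D ha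
  obtain ⟨b', h2, h2'⟩ := plx96_ordR_spec D hb
  set n := plx96_ordR D a
  set m := plx96_ordR D b
  have hs : a + b = D.π ^ n • (a' + D.π ^ (m - n) • b') := by
    conv_lhs => rw [h1, h2]
    rw [smul_add, smul_smul, ← pow_add, Nat.add_sub_cancel' hnm]
  have hs0 : a' + D.π ^ (m - n) • b' ≠ 0 := by
    intro h0
    apply hab
    rw [hs, h0, smul_zero]
  obtain ⟨s', h3, h3'⟩ := plx96_ordR_spec D hs0
  have : plx96_ordR D (a + b) = n + plx96_ordR D (a' + D.π ^ (m - n) • b') := by
    apply plx96_ordR_eq D (a' := s')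
    · rw [hs]
      conv_lhs => rw [h3]
      rw [smul_smul, ← pow_add]
    · exact h3'
  omega

theorem plx96_ordR_one_tmul {l : L} (hl : l ≠ 0) : plx96_ordR D ((1 : O) ⊗ₜ[K] l) = 0 := by
  apply plx96_ordR_eq D (a' := (1 : O) ⊗ₜ[K] l)
  · rw [pow_zero, one_smul]
  · rw [plx96_red_tmul, map_one, map_one, one_mul]
    exact hl

theorem plx96_ordR_tmul_one {y u : O} {n : ℕ} (hy : y = D.π ^ n * u) (hu : D.res u ≠ 0) :
    plx96_ordR D (y ⊗ₜ[K] (1 : L)) = n := by
  apply plx96_ordR_eq D (a' := u ⊗ₜ[K] (1 : L))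
  · rw [hy, TensorProduct.smul_tmul', smul_eq_mul]
  · rw [plx96_red_tmul, mul_one]
    intro h
    apply hu
    exact (algebraMap K L).injective (by rw [h, map_zero])

end Tensor

/-! ### the DVR data of a place of degree one -/

section OfPlace

variable {K F : Type*} [Field K] [Field F] [Algebra K F] (P : Place K F)

theorem plx96_val_coe_le_one (y : P.toValuationSubring) : P.adicValuation (y : F) ≤ 1 := by
  rw [P.adicValuation_coe]
  exact IsDedekindDomain.HeightOneSpectrum.intValuation_le_one _ y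

theorem plx96_val_coe_lt_one_iff (y : P.toValuationSubring) :
    P.adicValuation (y : F) < 1 ↔ y ∈ IsLocalRing.maximalIdeal P.toValuationSubring := by
  rw [P.adicValuation_coe, IsDedekindDomain.HeightOneSpectrum.intValuation_lt_one_iff_mem,
    Place.heightOneSpectrum_asIdeal]

variable (heval : ∀ x : F, P.adicValuation x ≤ 1 →
  ∃ c : K, P.adicValuation (x - algebraMap K F c) < 1)

include heval in
theorem plx96_algebraMap_bijective :
    Function.Bijective (algebraMap K
      (P.toValuationSubring ⧸ IsLocalRing.maximalIdeal P.toValuationSubring)) := by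
  refine ⟨(algebraMap K _).injective, fun z => ?_⟩
  obtain ⟨y, rfl⟩ := Ideal.Quotient.mk_surjective z
  obtain ⟨c, hc⟩ := heval (y : F) (plx96_val_coe_le_one P y)
  refine ⟨c, ?_⟩
  have h1 : y - algebraMap K P.toValuationSubring c ∈
      IsLocalRing.maximalIdeal P.toValuationSubring := by
    rw [← plx96_val_coe_lt_one_iff]
    exact hc
  rw [IsScalarTower.algebraMap_apply K P.toValuationSubring
    (P.toValuationSubring ⧸ IsLocalRing.maximalIdeal P.toValuationSubring),
    Ideal.Quotient.algebraMap_eq]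
  exact ((Ideal.Quotient.mk_eq_mk_iff_sub_mem _ _).mpr h1).symm

include heval in
theorem plx96_ofId_bijective :
    Function.Bijective (Algebra.ofId K
      (P.toValuationSubring ⧸ IsLocalRing.maximalIdeal P.toValuationSubring)) :=
  plx96_algebraMap_bijective P heval

/-- the residue field of a place of degree one is `K`. -/
def plx96_resEquiv :
    K ≃ₐ[K] (P.toValuationSubring ⧸ IsLocalRing.maximalIdeal P.toValuationSubring) :=
  AlgEquiv.ofBijective (Algebra.ofId K
    (P.toValuationSubring ⧸ IsLocalRing.maximalIdeal P.toValuationSubring))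
    (plx96_ofId_bijective P heval)

/-- the residue map of a place of degree one. -/
def plx96_resP : P.toValuationSubring →ₐ[K] K :=
  ((plx96_resEquiv P heval).symm : _ →ₐ[K] K).comp
    (Ideal.Quotient.mkₐ K (IsLocalRing.maximalIdeal P.toValuationSubring))

theorem plx96_resP_apply (y : P.toValuationSubring) :
    plx96_resP P heval y = (plx96_resEquiv P heval).symm
      (Ideal.Quotient.mk (IsLocalRing.maximalIdeal P.toValuationSubring) y) := rfl

theorem plx96_resP_eq_zero_iff (y : P.toValuationSubring) :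
    plx96_resP P heval y = 0 ↔ y ∈ IsLocalRing.maximalIdeal P.toValuationSubring := by
  rw [plx96_resP_apply, EmbeddingLike.map_eq_zero_iff, Ideal.Quotient.eq_zero_iff_mem]

/-- the DVR data of a place of degree one (with a chosen uniformizer). -/
def plx96_dvrP : plx96_Dvr K P.toValuationSubring where
  res := plx96_resP P heval
  π := (IsDiscreteValuationRing.exists_irreducible P.toValuationSubring).choose
  π_ne_zero := (IsDiscreteValuationRing.exists_irreducible P.toValuationSubring).choose_spec.ne_zero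
  res_π := by
    rw [plx96_resP_eq_zero_iff, IsLocalRing.mem_maximalIdeal, mem_nonunits_iff]
    exact (IsDiscreteValuationRing.exists_irreducible P.toValuationSubring).choose_spec.not_isUnit
  dec := by
    intro y hy
    obtain ⟨n, u, hu⟩ := IsDiscreteValuationRing.eq_unit_mul_pow_irreducible hy
      (IsDiscreteValuationRing.exists_irreducible P.toValuationSubring).choose_spec
    refine ⟨n, (u : P.toValuationSubring), ?_, by rw [hu, mul_comm]⟩
    rw [ne_eq, plx96_resP_eq_zero_iff, IsLocalRing.mem_maximalIdeal, mem_nonunits_iff, not_not]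
    exact u.isUnit

theorem plx96_dvrP_irreducible : Irreducible (plx96_dvrP P heval).π :=
  (IsDiscreteValuationRing.exists_irreducible P.toValuationSubring).choose_spec

/-- the exponent in a decomposition is the order of the place. -/
theorem plx96_ord_eq {y u : P.toValuationSubring} {n : ℕ}
    (hy : y = (plx96_dvrP P heval).π ^ n * u) (hu : (plx96_dvrP P heval).res u ≠ 0) :
    P.ord (y : F) = n := by
  have hunit : IsUnit u := by
    by_contra h
    apply hu
    show plx96_resP P heval u = 0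
    rw [plx96_resP_eq_zero_iff, IsLocalRing.mem_maximalIdeal, mem_nonunits_iff]
    exact h
  obtain ⟨u', rfl⟩ := hunit
  have h1 := P.ord_unit_smul_zpow u' (plx96_dvrP_irreducible P heval) (n : ℤ)
  rw [hy]
  rw [← h1]
  congr 1
  push_cast
  rw [zpow_natCast, mul_comm]

end OfPlace

/-! ### the order function on the image of `O ⊗[K] L` in a field `FC` -/

section Embed

variable {K L O FC : Type*} [Field K] [Field L] [Algebra K L] [CommRing O] [IsDomain O]
  [Algebra K O] [Field FC] [Algebra L FC] [Algebra K FC] [IsScalarTower K L FC]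
  (D : plx96_Dvr K O) (j : O →ₐ[K] FC)

variable (L) in
/-- the multiplication map `O ⊗[K] L → FC`. -/
def plx96_mu : O ⊗[K] L →ₐ[K] FC :=
  Algebra.TensorProduct.productMap j (IsScalarTower.toAlgHom K L FC)

theorem plx96_mu_tmul (y : O) (l : L) :
    plx96_mu L j (y ⊗ₜ[K] l) = j y * algebraMap L FC l := by
  unfold plx96_mu
  rw [Algebra.TensorProduct.productMap_apply_tmul]
  rfl

variable (L) in
/-- the image of `O ⊗[K] L` as an `L`-subalgebra of `FC`. -/
def plx96_R0 : Subalgebra L FC :=
  { (plx96_mu L j).range.toSubsemiring with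
    algebraMap_mem' := fun l => ⟨(1 : O) ⊗ₜ[K] l, by
      show plx96_mu L j ((1 : O) ⊗ₜ[K] l) = algebraMap L FC l
      rw [plx96_mu_tmul, map_one, one_mul]⟩ }

theorem plx96_mem_R0 {x : FC} : x ∈ plx96_R0 L j ↔ ∃ r, plx96_mu L j r = x := Iff.rfl

/-- a chosen preimage. -/
def plx96_pre (a : plx96_R0 L j) : O ⊗[K] L := ((plx96_mem_R0 j).mp a.2).choose

theorem plx96_mu_pre (a : plx96_R0 L j) : plx96_mu L j (plx96_pre j a) = (a : FC) :=
  ((plx96_mem_R0 j).mp a.2).choose_spec

variable (hμ : Function.Injective (plx96_mu L j))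

include hμ in
theorem plx96_pre_eq {a : plx96_R0 L j} {r : O ⊗[K] L} (h : plx96_mu L j r = (a : FC)) :
    plx96_pre j a = r := hμ ((plx96_mu_pre j a).trans h.symm)

include hμ in
theorem plx96_pre_ne_zero {a : plx96_R0 L j} (ha : a ≠ 0) : plx96_pre j a ≠ 0 := by
  intro h
  apply ha
  apply Subtype.ext
  rw [← plx96_mu_pre j a, h, map_zero]
  rfl

/-- the order function on the image of `O ⊗[K] L`. -/
def plx96_sub (hfrac : ∀ f : FC, ∃ a b : plx96_R0 L j, b ≠ 0 ∧ f = (a : FC) / (b : FC)) :
    SubOrderFn L FC (plx96_R0 L j) where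
  o a := (plx96_ordR D (plx96_pre j a) : ℤ)
  map_mul a b ha hb := by
    have h : plx96_pre j (a * b) = plx96_pre j a * plx96_pre j b := by
      apply plx96_pre_eq j hμ
      rw [map_mul, plx96_mu_pre, plx96_mu_pre]
      rfl
    rw [h, plx96_ordR_mul D (plx96_pre_ne_zero j hμ ha) (plx96_pre_ne_zero j hμ hb)]
    push_cast
    rfl
  map_add a b ha hb hab := by
    have h : plx96_pre j (a + b) = plx96_pre j a + plx96_pre j b := by
      apply plx96_pre_eq j hμ
      rw [map_add, plx96_mu_pre, plx96_mu_pre]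
      rfl
    have hab' : plx96_pre j a + plx96_pre j b ≠ 0 := by
      rw [← h]
      exact plx96_pre_ne_zero j hμ hab
    rw [h]
    have := plx96_ordR_add D (plx96_pre_ne_zero j hμ ha) (plx96_pre_ne_zero j hμ hb) hab'
    exact_mod_cast this
  map_const c hc := by
    have h : plx96_pre j (algebraMap L (plx96_R0 L j) c) = (1 : O) ⊗ₜ[K] c := by
      apply plx96_pre_eq j hμ
      rw [plx96_mu_tmul, map_one, one_mul]
      rfl
    rw [h, plx96_ordR_one_tmul D hc]
    rfl
  nontrivial := by
    have hmem : plx96_mu L j (D.π ⊗ₜ[K] (1 : L)) ∈ plx96_R0 L j := ⟨_, rfl⟩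
    refine ⟨⟨_, hmem⟩, ?_, ?_⟩
    · intro h0
      have h1 : plx96_mu L j (D.π ⊗ₜ[K] (1 : L)) = 0 := congrArg Subtype.val h0
      rw [← map_zero (plx96_mu L j)] at h1
      have h2 := hμ h1
      have h3 := plx96_ordR_tmul_one (L := L) D (y := D.π) (u := 1) (n := 1) (by simp)
        (by rw [map_one]; exact one_ne_zero)
      rw [h2] at h3
      unfold plx96_ordR at h3
      rw [dif_pos rfl] at h3
      exact absurd h3 (by norm_num)
    · have h : plx96_pre j ⟨_, hmem⟩ = D.π ⊗ₜ[K] (1 : L) := plx96_pre_eq j hμ rfl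
      rw [h, plx96_ordR_tmul_one (L := L) D (y := D.π) (u := 1) (n := 1) (by simp)
        (by rw [map_one]; exact one_ne_zero)]
      norm_num
  frac := hfrac

theorem plx96_sub_o_mu (hfrac : ∀ f : FC, ∃ a b : plx96_R0 L j, b ≠ 0 ∧ f = (a : FC) / (b : FC))
    (r : O ⊗[K] L) (hr : plx96_mu L j r ∈ plx96_R0 L j) :
    (plx96_sub D j hμ hfrac).o ⟨plx96_mu L j r, hr⟩ = (plx96_ordR D r : ℤ) := by
  show (plx96_ordR D (plx96_pre j ⟨plx96_mu L j r, hr⟩) : ℤ) = _
  rw [plx96_pre_eq j hμ (a := ⟨plx96_mu L j r, hr⟩) rfl]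

end Embed

/-! ### criteria for the two hypotheses -/

section Criteria

variable {K L O FC : Type*} [Field K] [Field L] [Algebra K L] [CommRing O] [IsDomain O]
  [Algebra K O] [Field FC] [Algebra L FC] [Algebra K FC] [IsScalarTower K L FC]
  (j : O →ₐ[K] FC)

theorem plx96_mu_repr_symm (c : Module.Free.ChooseBasisIndex K L →₀ O) :
    plx96_mu L j ((plx96_B K L O).repr.symm c) =
      c.sum fun i y => j y * algebraMap L FC (plx96_b K L i) := by
  induction c using Finsupp.induction_linear with
  | zero => simp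
  | add f g hf hg =>
    rw [map_add, map_add, hf, hg, Finsupp.sum_add_index']
    · intro i
      rw [map_zero, zero_mul]
    · intro i y z
      rw [map_add, add_mul]
  | single i y =>
    rw [Module.Basis.repr_symm_apply, Finsupp.linearCombination_single,
      Algebra.TensorProduct.basis_apply, TensorProduct.smul_tmul', smul_eq_mul, mul_one,
      plx96_mu_tmul, Finsupp.sum_single_index]
    rw [map_zero, zero_mul]

/-- `μ` is injective as soon as the chosen basis of `L` stays linearly independent over `j(O)`. -/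
theorem plx96_mu_injective
    (h : ∀ c : Module.Free.ChooseBasisIndex K L →₀ O,
      (c.sum fun i y => j y * algebraMap L FC (plx96_b K L i)) = 0 → c = 0) :
    Function.Injective (plx96_mu L j) := by
  rw [injective_iff_map_eq_zero]
  intro a ha
  have h1 := plx96_mu_repr_symm j ((plx96_B K L O).repr a)
  rw [LinearEquiv.symm_apply_apply, ha] at h1
  have h2 := h _ h1.symm
  apply (plx96_B K L O).repr.injective
  rw [h2, map_zero]

/-- `f` is a fraction of elements of the image of `O ⊗[K] L`. -/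
def plx96_IsFrac (f : FC) : Prop :=
  ∃ a b : plx96_R0 L j, b ≠ 0 ∧ f = (a : FC) / (b : FC)

theorem plx96_isFrac_of_mem {f : FC} (hf : f ∈ plx96_R0 L j) : plx96_IsFrac (L := L) j f :=
  ⟨⟨f, hf⟩, 1, one_ne_zero, by simp⟩

theorem plx96_isFrac_algebraMap (l : L) : plx96_IsFrac (L := L) j (algebraMap L FC l) :=
  plx96_isFrac_of_mem j ((plx96_R0 L j).algebraMap_mem l)

theorem plx96_isFrac_add {f g : FC} (hf : plx96_IsFrac (L := L) j f)
    (hg : plx96_IsFrac (L := L) j g) : plx96_IsFrac (L := L) j (f + g) := by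
  obtain ⟨a, b, hb, rfl⟩ := hf
  obtain ⟨c, d, hd, rfl⟩ := hg
  have hb' : (b : FC) ≠ 0 := fun h => hb (Subtype.ext h)
  have hd' : (d : FC) ≠ 0 := fun h => hd (Subtype.ext h)
  refine ⟨a * d + c * b, b * d, mul_ne_zero hb hd, ?_⟩
  push_cast
  field_simp

theorem plx96_isFrac_mul {f g : FC} (hf : plx96_IsFrac (L := L) j f)
    (hg : plx96_IsFrac (L := L) j g) : plx96_IsFrac (L := L) j (f * g) := by
  obtain ⟨a, b, hb, rfl⟩ := hf
  obtain ⟨c, d, hd, rfl⟩ := hg
  have hb' : (b : FC) ≠ 0 := fun h => hb (Subtype.ext h)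
  have hd' : (d : FC) ≠ 0 := fun h => hd (Subtype.ext h)
  refine ⟨a * c, b * d, mul_ne_zero hb hd, ?_⟩
  push_cast
  field_simp

theorem plx96_isFrac_inv {f : FC} (hf : plx96_IsFrac (L := L) j f) :
    plx96_IsFrac (L := L) j f⁻¹ := by
  obtain ⟨a, b, hb, rfl⟩ := hf
  by_cases ha : a = 0
  · refine ⟨0, 1, one_ne_zero, ?_⟩
    rw [ha]
    simp
  · exact ⟨b, a, ha, by rw [inv_div]⟩

end Criteria

/-! ### the generic extension theorem -/

section Main

variable {K L F0 FC : Type*} [Field K] [Field L] [Algebra K L] [Field F0] [Algebra K F0]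
  [Field FC] [Algebra L FC] [Algebra K FC] [IsScalarTower K L FC]

/-- the restriction of `ι : F0 → FC` to the valuation ring of `P0`. -/
def plx96_j (ι : F0 →ₐ[K] FC) (P0 : Place K F0) : P0.toValuationSubring →ₐ[K] FC :=
  ι.comp (IsScalarTower.toAlgHom K P0.toValuationSubring F0)

theorem plx96_j_apply (ι : F0 →ₐ[K] FC) (P0 : Place K F0) (y : P0.toValuationSubring) :
    plx96_j ι P0 y = ι (y : F0) := rfl

/-- **Extension of a place of degree one along a constant field extension** (generic form):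
if `O_{P0} ⊗[K] L → FC` is injective and `FC` is the fraction field of its image, there is a place
`P` of `FC / L` with `P.ord (ι x) = P0.ord x` for all `x ∈ F0`. -/
theorem plx96_exists_place_generic (ι : F0 →ₐ[K] FC) (P0 : Place K F0)
    (heval : ∀ x : F0, P0.adicValuation x ≤ 1 →
      ∃ c : K, P0.adicValuation (x - algebraMap K F0 c) < 1)
    (hμ : Function.Injective (plx96_mu L (plx96_j ι P0)))
    (hfrac : ∀ f : FC, ∃ a b : plx96_R0 L (plx96_j ι P0), b ≠ 0 ∧ f = (a : FC) / (b : FC)) :
    ∃ P : Place L FC, ∀ x : F0, x ≠ 0 → P.ord (ι x) = P0.ord x := by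
  set D := plx96_dvrP P0 heval with hD
  set j := plx96_j ι P0 with hj
  obtain ⟨ω, hω⟩ : ∃ ω, ω = plx96_sub D j hμ hfrac := ⟨_, rfl⟩
  have hιinj : Function.Injective ι := ι.toRingHom.injective
  -- the values of `ω` on the image of `O`
  have hmemO : ∀ y : P0.toValuationSubring, ι (y : F0) ∈ plx96_R0 L j := by
    intro y
    refine (plx96_mem_R0 j).mpr ⟨y ⊗ₜ[K] (1 : L), ?_⟩
    rw [plx96_mu_tmul, map_one, mul_one]
    rfl
  have hoO : ∀ y : P0.toValuationSubring, y ≠ 0 →
      ω.toOrderFn.o (ι (y : F0)) = P0.ord (y : F0) := by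
    intro y hy
    have hne : (⟨ι (y : F0), hmemO y⟩ : plx96_R0 L j) ≠ 0 := by
      intro h0
      have h1 : ι (y : F0) = 0 := congrArg Subtype.val h0
      rw [map_eq_zero] at h1
      exact hy (Subtype.ext h1)
    have h1 := ω.toOrderFn_o_coe hne
    rw [show ((⟨ι (y : F0), hmemO y⟩ : plx96_R0 L j) : FC) = ι (y : F0) from rfl] at h1
    rw [h1]
    obtain ⟨n, u, hu, hyu⟩ := D.dec y hy
    have h2 : (⟨ι (y : F0), hmemO y⟩ : plx96_R0 L j) =
        ⟨plx96_mu L j (y ⊗ₜ[K] (1 : L)), (plx96_mem_R0 j).mpr ⟨_, rfl⟩⟩ := by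
      apply Subtype.ext
      show ι (y : F0) = plx96_mu L j (y ⊗ₜ[K] (1 : L))
      rw [plx96_mu_tmul, map_one, mul_one]
      rfl
    rw [h2, hω, plx96_sub_o_mu D j hμ hfrac, plx96_ordR_tmul_one D hyu hu,
      plx96_ord_eq P0 heval hyu hu]
  -- the value group is `ℤ`
  obtain ⟨g, hg, -, hall⟩ := ω.toOrderFn.exists_o_eq_mul_ord
  have hπ0 : D.π ≠ 0 := D.π_ne_zero
  have hπF : ι ((D.π : P0.toValuationSubring) : F0) ≠ 0 := by
    rw [ne_eq, map_eq_zero]
    intro h
    exact hπ0 (Subtype.ext h)
  have hg1 : g = 1 := by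
    have h1 := hall _ hπF
    rw [hoO D.π hπ0, P0.ord_coe_irreducible (plx96_dvrP_irreducible P0 heval)] at h1
    exact Int.eq_one_of_mul_eq_one_right hg.le h1.symm
  have hord : ∀ f : FC, f ≠ 0 → ω.place.ord f = ω.toOrderFn.o f := by
    intro f hf
    rw [hall f hf, hg1, one_mul]
    rfl
  refine ⟨ω.place, fun x hx => ?_⟩
  have hιx : ι x ≠ 0 := by rwa [ne_eq, map_eq_zero]
  rcases P0.toValuationSubring.mem_or_inv_mem x with hmem | hmem
  · have hy : (⟨x, hmem⟩ : P0.toValuationSubring) ≠ 0 := fun h => hx (congrArg Subtype.val h)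
    rw [hord _ hιx]
    exact hoO ⟨x, hmem⟩ hy
  · have hx' : x⁻¹ ≠ 0 := inv_ne_zero hx
    have hy : (⟨x⁻¹, hmem⟩ : P0.toValuationSubring) ≠ 0 := fun h => hx' (congrArg Subtype.val h)
    have h1 := hoO ⟨x⁻¹, hmem⟩ hy
    have h2 : ω.place.ord (ι x⁻¹) = P0.ord x⁻¹ := by
      rw [hord _ (by rwa [ne_eq, map_eq_zero])]
      exact h1
    rw [map_inv₀, Place.ord_inv, Place.ord_inv] at h2
    linarith

/-- the image of `F0` consists of fractions. -/
theorem plx96_isFrac_iota (ι : F0 →ₐ[K] FC) (P0 : Place K F0) (x : F0) :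
    plx96_IsFrac (L := L) (plx96_j ι P0) (ι x) := by
  have key : ∀ y : P0.toValuationSubring, plx96_IsFrac (L := L) (plx96_j ι P0) (ι (y : F0)) := by
    intro y
    apply plx96_isFrac_of_mem
    refine (plx96_mem_R0 _).mpr ⟨y ⊗ₜ[K] (1 : L), ?_⟩
    rw [plx96_mu_tmul, map_one, mul_one]
    rfl
  rcases P0.toValuationSubring.mem_or_inv_mem x with hmem | hmem
  · exact key ⟨x, hmem⟩
  · have h := plx96_isFrac_inv _ (key ⟨x⁻¹, hmem⟩)
    rwa [map_inv₀, inv_inv] at h

end Main

end

end Fermat.Agent.S42x
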