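/-
S42 project, block B7/B13, leaf PLEXT (helper96, prefix `plx96_`): the INSTANCE of the generic
place-extension theorem (`S42x/PlaceExt96.lean`) for `K = Q̄ ⊆ L = ℂ`, `F0 = FBar M`,
`FC = modularFunctionFieldFullC ℂ M`, `ι = ` coefficientwise `iotaQ` (`cdk4_iF`).

* `plx96_exists_place` : every place `P0` of `FBar M` extends to a place `P` of `FC` with
  `P.ord (ι x) = P0.ord x` (unramified constant field extension);
* `plx96_dvd` : algebraic R5c for EVERY `p`: if `ι f0 = c * f * u ^ p` and `p ∣ P.ord f` at all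
  places of `FC` then `p ∣ P0.ord f0` at all places of `FBar M`.
-/
import Mathlib
import Fermat.Agent.S42x.PlaceExt96
import Fermat.Agent.S42x.CDictCompat4
import Fermat.Agent.S18x.RmnOfRmt

set_option autoImplicit false
set_option linter.unusedSectionVars false
set_option linter.style.haveILetI false

namespace Fermat.Agent.S42x

open TensorProduct AlgebraicCurve ModularCurve Fermat.Agent.S24x Fermat.Agent.S18x

noncomputable section

/-- `ℂ` as a `Q̄`-algebra via `iotaQ`. -/
@[reducible] def plx96_algQC : Algebra Qbar ℂ := iotaQ.toAlgebra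

/-- `FC` as a `Q̄`-algebra via `iotaQ`. -/
@[reducible] def plx96_algQFC (M : ℕ) [NeZero M] :
    Algebra Qbar ↥(modularFunctionFieldFullC ℂ M) :=
  ((algebraMap ℂ ↥(modularFunctionFieldFullC ℂ M)).comp iotaQ).toAlgebra

attribute [local instance] plx96_algQC plx96_algQFC

theorem plx96_tower (M : ℕ) [NeZero M] :
    IsScalarTower Qbar ℂ ↥(modularFunctionFieldFullC ℂ M) :=
  IsScalarTower.of_algebraMap_eq fun _ => rfl

attribute [local instance] plx96_tower

/-- the coefficientwise embedding as a `Q̄`-algebra homomorphism. -/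
def plx96_iota (M : ℕ) [NeZero M] : FBar M →ₐ[Qbar] ↥(modularFunctionFieldFullC ℂ M) :=
  { cdk4_iF M with commutes' := fun c => cdk4_iF_algebraMap M c }

theorem plx96_coe_iota (M : ℕ) [NeZero M] (x : FBar M) :
    ((plx96_iota M x : ↥(modularFunctionFieldFullC ℂ M)) : LaurentSeries ℂ) =
      iotaL (x : LaurentSeries Qbar) := rfl

/-- coefficient of `ι y * c` in `ℂ((q))`. -/
theorem plx96_coeff_iota_mul (M : ℕ) [NeZero M] (y : FBar M) (z : ℂ) (n : ℤ) :
    ((plx96_iota M y * algebraMap ℂ ↥(modularFunctionFieldFullC ℂ M) z :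
      ↥(modularFunctionFieldFullC ℂ M)) : LaurentSeries ℂ).coeff n =
      ((y : LaurentSeries Qbar).coeff n) • z := by
  have h1 : ((plx96_iota M y * algebraMap ℂ ↥(modularFunctionFieldFullC ℂ M) z :
      ↥(modularFunctionFieldFullC ℂ M)) : LaurentSeries ℂ) =
      HahnSeries.C z * iotaL (y : LaurentSeries Qbar) := by
    rw [mul_comm, MulMemClass.coe_mul, plx96_coe_iota, HahnSeries.C_apply,
      ← algebraMap_laurentSeries_eq_single]
    rfl
  rw [h1, HahnSeries.C_mul_eq_smul, HahnSeries.coeff_smul, iotaL_coeff, smul_eq_mul,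
    Algebra.smul_def, mul_comm]
  rfl

/-- **linear disjointness**: `O_{P0} ⊗[Q̄] ℂ → FC` is injective. -/
theorem plx96_mu_injective_inst (M : ℕ) [NeZero M] (P0 : Place Qbar (FBar M)) :
    Function.Injective (plx96_mu ℂ (plx96_j (plx96_iota M) P0)) := by
  apply plx96_mu_injective
  intro c hc
  have hcoef : ∀ n : ℤ, ∀ i ∈ c.support,
      (((c i : P0.toValuationSubring) : FBar M) : LaurentSeries Qbar).coeff n = 0 := by
    intro n
    apply linearIndependent_iff'.mp (plx96_b Qbar ℂ).linearIndependent c.support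
      (fun i => (((c i : P0.toValuationSubring) : FBar M) : LaurentSeries Qbar).coeff n)
    have h1 := congrArg
      (fun z : ↥(modularFunctionFieldFullC ℂ M) => (z : LaurentSeries ℂ).coeff n) hc
    simp only [Finsupp.sum, AddSubmonoidClass.coe_finsetSum, HahnSeries.coeff_sum,
      ZeroMemClass.coe_zero, HahnSeries.coeff_zero] at h1
    rw [← h1]
    refine Finset.sum_congr rfl fun i _ => ?_
    rw [plx96_j_apply, plx96_coeff_iota_mul]
  refine Finsupp.ext fun i => ?_
  by_cases hi : i ∈ c.support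
  · have h0 : (((c i : P0.toValuationSubring) : FBar M) : LaurentSeries Qbar) = 0 := by
      ext n
      exact hcoef n i hi
    have h1 : ((c i : P0.toValuationSubring) : FBar M) = 0 := Subtype.ext h0
    exact Subtype.ext h1
  · exact Finsupp.notMem_support_iff.mp hi

set_option maxHeartbeats 400000 in
/-- **generation**: every element of `FC` is a fraction of elements of the image of
`O_{P0} ⊗[Q̄] ℂ`. -/
theorem plx96_isFrac_aux (M : ℕ) [NeZero M] (P0 : Place Qbar (FBar M)) (z : LaurentSeries ℂ)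
    (hz : z ∈ IntermediateField.adjoin ℂ (divisorExpansionsC ℂ M)) :
    plx96_IsFrac (L := ℂ) (plx96_j (plx96_iota M) P0)
      (⟨z, hz⟩ : ↥(modularFunctionFieldFullC ℂ M)) := by
  induction hz using IntermediateField.adjoin_induction with
  | mem x hx =>
    obtain ⟨d, hne, hd, rfl⟩ := hx
    haveI := hne
    have h1 := plx96_isFrac_iota (L := ℂ) (plx96_iota M) P0 (jdBar M d hd)
    have h2 : plx96_iota M (jdBar M d hd) = pls_jdb ℂ M d hd := cdk4_iF_jdBar M d hd
    rw [h2] at h1
    exact h1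
  | algebraMap c =>
    have h := plx96_isFrac_algebraMap (L := ℂ) (plx96_j (plx96_iota M) P0) c
    exact h
  | add x y hx hy h1 h2 =>
    have h := plx96_isFrac_add (plx96_j (plx96_iota M) P0) h1 h2
    have e : (⟨x, hx⟩ + ⟨y, hy⟩ : ↥(modularFunctionFieldFullC ℂ M)) = ⟨x + y, add_mem hx hy⟩ :=
      rfl
    rw [e] at h
    exact h
  | inv x hx h1 =>
    have h := plx96_isFrac_inv (plx96_j (plx96_iota M) P0) h1
    have e : ((⟨x, hx⟩ : ↥(modularFunctionFieldFullC ℂ M))⁻¹) = ⟨x⁻¹, inv_mem hx⟩ := rfl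
    rw [e] at h
    exact h
  | mul x y hx hy h1 h2 =>
    have h := plx96_isFrac_mul (plx96_j (plx96_iota M) P0) h1 h2
    have e : (⟨x, hx⟩ * ⟨y, hy⟩ : ↥(modularFunctionFieldFullC ℂ M)) = ⟨x * y, mul_mem hx hy⟩ :=
      rfl
    rw [e] at h
    exact h

theorem plx96_isFrac_inst (M : ℕ) [NeZero M] (P0 : Place Qbar (FBar M))
    (f : ↥(modularFunctionFieldFullC ℂ M)) :
    plx96_IsFrac (L := ℂ) (plx96_j (plx96_iota M) P0) f :=
  plx96_isFrac_aux M P0 f.1 f.2

/-- **PLEXT**: every place of `FBar M` extends to a place of `FC = modularFunctionFieldFullC ℂ M`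
with the same orders (unramified constant field extension). -/
theorem plx96_exists_place (M : ℕ) [NeZero M] (P0 : Place Qbar (FBar M)) :
    ∃ P : Place ℂ ↥(modularFunctionFieldFullC ℂ M),
      ∀ (x : FBar M) (y : ↥(modularFunctionFieldFullC ℂ M)),
        (y : LaurentSeries ℂ) = coeffMap iotaQ (x : LaurentSeries Qbar) → x ≠ 0 →
          P.ord y = P0.ord x := by
  obtain ⟨P, hP⟩ := plx96_exists_place_generic (L := ℂ) (plx96_iota M) P0
    ((rmn_hyp_FBar M).eval P0) (plx96_mu_injective_inst M P0) (plx96_isFrac_inst M P0)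
  refine ⟨P, fun x y hy hx => ?_⟩
  have h : y = plx96_iota M x := Subtype.ext hy
  rw [h]
  exact hP x hx

/-- **algebraic R5c, every `p`**: if `ι f0 = c * f * u ^ p` in `FC` and `p ∣ P.ord f` at every
place of `FC`, then `p ∣ P0.ord f0` at every place of `FBar M`. -/
theorem plx96_dvd (M : ℕ) [NeZero M] (p : ℕ) (f0 : FBar M) (hf0 : f0 ≠ 0) (c : ℂ)
    (f u : ↥(modularFunctionFieldFullC ℂ M)) (hc : c ≠ 0) (hf : f ≠ 0) (hu : u ≠ 0)
    (h : coeffMap iotaQ (f0 : LaurentSeries Qbar) =
      ((algebraMap ℂ ↥(modularFunctionFieldFullC ℂ M) c * f * u ^ p :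
        ↥(modularFunctionFieldFullC ℂ M)) : LaurentSeries ℂ))
    (hdiv : ∀ P : Place ℂ ↥(modularFunctionFieldFullC ℂ M), (p : ℤ) ∣ P.ord f) :
    ∀ P0 : Place Qbar (FBar M), (p : ℤ) ∣ P0.ord f0 := by
  intro P0
  obtain ⟨P, hP⟩ := plx96_exists_place M P0
  have h1 := hP f0 _ h.symm hf0
  have hc' : algebraMap ℂ ↥(modularFunctionFieldFullC ℂ M) c ≠ 0 := by
    rwa [ne_eq, map_eq_zero]
  have hup : u ^ p ≠ 0 := pow_ne_zero p hu
  rw [P.ord_mul (mul_ne_zero hc' hf) hup, P.ord_mul hc' hf, rmn_ord_algebraMap, zero_add,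
    ← zpow_natCast, P.ord_zpow] at h1
  rw [← h1]
  exact dvd_add (hdiv P) (Dvd.intro _ rfl)

end

end Fermat.Agent.S42x
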