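/-
S29 / T1 support (helper55, prefix `r5all55_`): closed (R5) for EVERY modulus `p > 0`
(no primality, no coprimality with `6`).

For every `p > 0` and every parabolic `χ : Γ₀(M) → ℤ`:  `∃ x : JZero M, heq_Rel M p x ψ_χ`,
`ψ_χ = exp(2πi χ / p)`.

Same `Sp_full` chain as `r5f55_main` (S42x/R5Full55), with the two places where `gcd(p, 6) = 1`
was used replaced by the exact ramification results at the elliptic points:
* over `ℂ`: `ellf39_dvd_ord_all` (helper39) instead of `cdfin21_dvd_ord_all`;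
* over `ℚ̄` (R5c): `ell90_dvd_ord_of_char` (helper90) instead of `dsdq_dvd_ord`.
-/
import Fermat.Agent.S42x.R5Full55
import Fermat.Agent.S42x.EllFinite39
import Fermat.Agent.S42x.EllExactC90

set_option autoImplicit false

namespace Fermat.Agent.S42x

open UpperHalfPlane ModularCurve AlgebraicCurve CongruenceSubgroup ModularCurve.Period
open Fermat.Agent.S24x Fermat.Agent.S23x
open scoped MatrixGroups

noncomputable section

/-- the multiplier `ψ_χ` kills the finite-order elements of `Γ₀(M)` (it factors through `ℤ`). -/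
theorem r5all55_psi_finOrder {M : ℕ} (p : ℕ) (χ : Additive ↥(Gamma0 M) →+ ℤ)
    (γ : Gamma0 M) (hγ : IsOfFinOrder γ) : twp_psiAdd p χ (Additive.ofMul γ) = 0 :=
  ell90_psiAdd_finOrder p χ γ hγ

/-- **Closed (R5) for every modulus `p > 0`.** -/
theorem r5all55_main (M p : ℕ) [NeZero M] (hp : 0 < p)
    {χ : Additive ↥(Gamma0 M) →+ ℤ} (hχ : IsParabolicHom (Gamma0 M) χ) :
    ∃ x : JZero M, heq_Rel M p x (twp_psiAdd p χ) := by
  set D := cde29_realR M with hD
  have hcoord := cde29_isCoordinateR M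
  set A : Hol := twx76_AHol p hχ ^ p with hA
  set B : Hol := cdc_E4Hol ^ p with hB
  have hAmf : IsMF M ((p : ℤ) * 4) (A : ℍ → ℂ) := twx76_isMF_pow p hχ
  have hBmf : IsMF M ((p : ℤ) * 4) (B : ℍ → ℂ) := twb76_isMF_E4_pow M p
  have hA0 : A ≠ 0 := pow_ne_zero p (twx76_form p hχ).hol_ne_zero
  have hB0 : B ≠ 0 := pow_ne_zero p twb76_E4Hol_ne_zero
  have hroot : twx76_h p hχ ^ p = algebraMap Hol Mer A / algebraMap Hol Mer B := twx76_h_pow p hχ
  have hev : inj_EvCompat M (cde29_ev M) := cde29_evCompat M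
  have hqA : qL (A : ℍ → ℂ) ≠ 0 := m04_qL_ne_zero hAmf (inj_coe_ne_zero hA0)
  have hqB : qL (B : ℍ → ℂ) ≠ 0 := m04_qL_ne_zero hBmf (inj_coe_ne_zero hB0)
  set fC : ratioField M := ⟨_, r5i81_ratio_mem M A B hAmf hBmf hB0⟩ with hfC
  have hfC0 : fC ≠ 0 := by
    intro h0
    exact div_ne_zero hqA hqB (congrArg Subtype.val h0)
  have hevf : cde29_ev M fC = algebraMap Hol Mer A / algebraMap Hol Mer B :=
    r5i81_ev_ratio M (cde29_ev M) hev A B hAmf hBmf hB0 fC rfl
  have hpow : twx76_h p hχ ^ p = D.φ fC := hroot.trans hevf.symm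
  have hchar : r5a_HasChar M (twp_psiAdd p χ) (twx76_h p hχ) := fun γ => twx76_h_char p hχ γ
  have hψfin : ∀ γ : Gamma0 M, IsOfFinOrder γ → twp_psiAdd p χ (Additive.ofMul γ) = 0 :=
    fun γ hγ => r5all55_psi_finOrder p χ γ hγ
  -- `p ∣ div f_χ` over `ℂ`
  have hpole : ∀ v ∈ polePlaces ℂ ↥(ratioField M) (cde29_jR M), v.ord fC = 0 := by
    intro v hv
    refine cdu55_ord_eq_zero D (twx76_AHol p hχ) p (fun g => twx76_hhol p hχ g)
      (fun g => twx76_hbdd p hχ g) (fun g => twx76_hlim p hχ g) fC ?_ v hv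
    have hBne : algebraMap Hol Mer B ≠ 0 := cdu55_mk_ne_zero hB0
    have h1 : D.φ fC = algebraMap Hol Mer A / algebraMap Hol Mer B := hevf
    rw [h1, ← map_pow, ← map_pow, ← hA, ← hB, div_mul_cancel₀ _ hBne]
  have hsub : ∀ x₀ : FBar M, ∃ y : ↥(ratioField M), D.φ y = evF M x₀ :=
    fun x₀ => ⟨inj_cmp_iF M x₀, inj_cmp_ev_iF M (cde29_ev M) hev x₀⟩
  have hdivC : ∀ P : Place ℂ (ratioField M), (p : ℤ) ∣ P.ord fC :=
    ellf39_dvd_ord_all D hsub hcoord
      (fun c τ₀ hτ₀ v hv => cdf_covering_finite D hcoord c τ₀ hτ₀ v hv) hp fC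
      (twx76_h p hχ) hpow (ell90_inv_of_char M (twp_psiAdd p χ) hψfin (twx76_h p hχ) hchar) hpole
  exact r5a_of_descended M p hp (twp_psiAdd p χ) (ratioField M) (cde29_ev M)
    (inj_cmp_const M (cde29_ev M) hev) (r5i81_inv M (cde29_ev M) hev)
    (inj_cmp_hcomp M (cde29_ev M) hev) (twx76_h p hχ) fC hfC0 (hroot.trans hevf.symm) hchar
    (dsg74_descend M (cde29_ev M) hev hp (fun τ => r5f55_hdict D τ) fC hfC0 hdivC)
    (fun f₀ hf₀ h hh hc => ell90_dvd_ord_of_char M hp f₀ hf₀ h hh (twp_psiAdd p χ)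
      (r5i81_parabolic p hχ) hψfin hc)

end

end Fermat.Agent.S42x
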