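/-
S42 project, glue (helper71, prefix `r5f71_`): the COMPLETE chain producing hypothesis `R5` of
`rlg_iotHyp` (for every parabolic `χ : Γ₀(M) → ℤ` there is `x : JZero M` with
`heq_Rel M p x ψ_χ`) from the DOOR ALONE, i.e. from ANY realisation
`ev : ratioField M →+* Mer` with `inj_EvCompat M ev`, along the "finite places only" route
(no cusp places over `ℂ`):

  B1  `twt_chi_mer`, `twt_chi_ratio_mem`   : `f_χ = (E_χ/E_1)^p ∈ ratioField M`, root `h = E_χ/E_1`;
  door                                     : `ev f_χ = h ^ p`;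
  B3  `rc71_ev_dvd_finite`                 : `p ∣ ord_P f_χ` at the places with `j` finite (`p` prime to 6);
  B4  `inj_exists_T0_of_dict`              : finitely many classes for that predicate;
  B7  `dsct57_top_fin'`                    : descent `ι f₀ = c · f_χ · u ^ p`, `f₀ ∈ FBar M`;
  R5c `dsdq_dvd_ord`                       : `p ∣ ord_{P₀} f₀` at EVERY place of `FBar M` (over `ℚ̄`);
  `r5a_of_descended`                       : the relation.
-/
import Fermat.Agent.S42x.RatioCoord71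
import Fermat.Agent.S42x.TwEisTop
import Fermat.Agent.S42x.R5Asm
import Fermat.Agent.S42x.DescFinalFin57
import Fermat.Agent.S42x.InjT0
import Fermat.Agent.S42x.DescDivFinal

set_option autoImplicit false

namespace Fermat.Agent.S42x

open UpperHalfPlane AlgebraicCurve CongruenceSubgroup ModularCurve ModularCurve.Period
open Fermat.Agent.S24x Fermat.Agent.S23x
open scoped MatrixGroups Manifold

section

variable (M : ℕ) [NeZero M] (ev : ↥(ratioField M) →+* Mer) (hev : inj_EvCompat M ev)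

include hev

/-- **B4 + B7, finite places only, from the door**: descent of a function whose orders are
divisible by `p` at all places at which `j` is finite. -/
theorem r5f71_descend_fin {p : ℕ} (hp : 0 < p) (f : ↥(ratioField M)) (hf : f ≠ 0)
    (hdiv : ∀ P : Place ℂ ↥(ratioField M), 0 ≤ P.ord (rc71_jR M) → (p : ℤ) ∣ P.ord f) :
    ∃ (f0 : FBar M) (c : ℂ) (u : ↥(ratioField M)), c ≠ 0 ∧ u ≠ 0 ∧
      coeffMap iotaQ (f0 : LaurentSeries Qbar) =
        ((algebraMap ℂ ↥(ratioField M) c * f * u ^ p : ↥(ratioField M)) : LaurentSeries ℂ) := by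
  obtain ⟨T0, hfin, -, hcls⟩ := inj_exists_T0_of_dict M ev hev hp
    {P | 0 ≤ P.ord (rc71_jR M)} (fun τ => by
      obtain ⟨P, e, hP, -, -, hall⟩ := rc71_ev_hdict_fin M ev hev τ
      exact ⟨P, (e : ℤ), hP, fun f _ => hall f⟩)
  exact dsct57_top_fin' M p hp (ratioField M) (cdcb_fullC_eq M).symm (rc71_jR M)
    dl_jqModC_eq_jL.symm T0 hfin (fun g hg0 hd => hcls g hg0 hd) f hf hdiv

omit hev [NeZero M] in
/-- `ψ_χ` is parabolic when `χ` is. -/
theorem r5f71_psiAdd_parabolic (p : ℕ) {χ : Additive (Gamma0 M) →+ ℤ}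
    (hχ : IsParabolicHom (Gamma0 M) χ) : IsParabolicHom (Gamma0 M) (twp_psiAdd p χ) := by
  intro γ hγ
  rw [twp_psiAdd_apply]
  show Additive.ofMul (twp_psi p χ γ) = 0
  rw [twp_psi_of_trace p hχ γ hγ]
  rfl

/-- the door applied to `f_χ`: `ev f_χ = mk (E_χ ^ p) / mk (E_1 ^ p)`. -/
theorem r5f71_ev_fchi (p : ℕ) {χ : Additive (Gamma0 M) →+ ℤ}
    (hχ : IsParabolicHom (Gamma0 M) χ) :
    ev ⟨qL (twt_Echi p χ ^ p) / qL (twt_E1 M ^ p), twt_chi_ratio_mem p hχ⟩ =
      algebraMap Hol Mer (twt_EchiPowHol p hχ) / algebraMap Hol Mer (twt_E1PowHol M p) := by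
  have hE1f : twt_E1 M ^ p ≠ 0 := twm_pow_ne_zero twt_E1_ne_zero p
  have hE1 : (twt_E1PowHol M p : Hol) ≠ 0 := fun h0 => hE1f (congrArg Subtype.val h0)
  have hq : qL (twt_E1 M ^ p) ≠ 0 := fun h =>
    hE1f ((qL_eq_zero_iff (twt_isMF_E1_pow p).isNice).mp h)
  have hdoor := hev ⟨qL (twt_Echi p χ ^ p) / qL (twt_E1 M ^ p), twt_chi_ratio_mem p hχ⟩
    ((p : ℤ) * 4) (twt_EchiPowHol p hχ) (twt_E1PowHol M p) (twt_Echi_isMF_pow p hχ)
    (twt_isMF_E1_pow p) hE1 (by
      show qL (twt_Echi p χ ^ p) / qL (twt_E1 M ^ p) * qL (twt_E1 M ^ p) = qL (twt_Echi p χ ^ p)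
      exact div_mul_cancel₀ _ hq)
  rw [eq_div_iff (inj_algebraMap_ne_zero hE1)]
  exact hdoor

/-- **R5 from the door alone** (`p` prime to `6`): for every parabolic `χ : Γ₀(M) → ℤ` there is
a point of `JZero M` in relation with `ψ_χ = exp(2πi χ / p)`. -/
theorem r5f71_R5 {p : ℕ} (hp6 : Nat.Coprime p 6) (χ : Additive (Gamma0 M) →+ ℤ)
    (hχ : IsParabolicHom (Gamma0 M) χ) : ∃ x : JZero M, heq_Rel M p x (twp_psiAdd p χ) := by
  have hp : 0 < p := by
    rcases Nat.eq_zero_or_pos p with rfl | hp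
    · simp at hp6
    · exact hp
  obtain ⟨h1, -, hchar, hpow⟩ := twt_chi_mer p hχ
  have hfC : (⟨qL (twt_Echi p χ ^ p) / qL (twt_E1 M ^ p), twt_chi_ratio_mem p hχ⟩ :
      ↥(ratioField M)) ≠ 0 := fun h0 => twt_chi_ratio_ne_zero p hχ (congrArg Subtype.val h0)
  have hroot : h1 ^ p =
      ev ⟨qL (twt_Echi p χ ^ p) / qL (twt_E1 M ^ p), twt_chi_ratio_mem p hχ⟩ := by
    rw [hpow, r5f71_ev_fchi M ev hev p hχ]
  refine r5a_of_descended M p hp (twp_psiAdd p χ) (ratioField M) ev (inj_cmp_const M ev hev)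
    (fun γ u => inj_ev_invariant M ev hev u _ (inv_mem γ.2))
    (fun f0 y hy => inj_cmp_hcomp M ev hev f0 y hy) h1 _ hfC hroot hchar
    (r5f71_descend_fin M ev hev hp _ hfC
      (fun P hP => rc71_ev_dvd_finite M ev hev hp6 hroot hP))
    (fun f0 hf0 h hh hc P =>
      dsdq_dvd_ord M hp6 f0 hf0 h hh (twp_psiAdd p χ) (r5f71_psiAdd_parabolic M p hχ) hc P)

/-- prime `p ≥ 5` form. -/
theorem r5f71_R5_prime {p : ℕ} (hp : p.Prime) (h5 : 5 ≤ p) (χ : Additive (Gamma0 M) →+ ℤ)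
    (hχ : IsParabolicHom (Gamma0 M) χ) : ∃ x : JZero M, heq_Rel M p x (twp_psiAdd p χ) :=
  r5f71_R5 M ev hev (ddp71_coprime_six hp h5) χ hχ

end

end Fermat.Agent.S42x
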