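/-
S42 project, S29 support (helper90, prefix `r5iap90_`): all-`p` twins of helper81's
`r5i81_main` / `r5i81_of_forms` (S42x/R5Inst81).  `Nat.Coprime p 6` is replaced by `0 < p` plus
triviality of the multiplier `ψ` on the finite-order elements of `Γ₀(M)` (automatic for
`ψ = twp_psiAdd p χ`, `ell90_psiAdd_finOrder`), via the exact ramification at the elliptic points
(`ell90_dvd_ord_of_char`, S42x/EllExactC90).  Needed for S29 at `p = 2, 3`.
-/
import Mathlib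
import Fermat.Agent.S42x.R5Inst81
import Fermat.Agent.S42x.EllExactC90

set_option autoImplicit false

namespace Fermat.Agent.S42x

open UpperHalfPlane ModularCurve AlgebraicCurve CongruenceSubgroup
open Fermat.Agent.S24x Fermat.Agent.S23x
open scoped MatrixGroups

noncomputable section

/-- **(R5), concrete, any `p > 0`.** -/
theorem r5iap90_main (M p : ℕ) [NeZero M] (hp : 0 < p)
    (ev : ratioField M →+* Mer) (hev : inj_EvCompat M ev)
    (hdict : ∀ τ : ℍ, ∃ (P : Place ℂ (ratioField M)) (e : ℤ),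
      ∀ f : ratioField M, f ≠ 0 → ordAt τ (ev f) = e * P.ord f)
    (ψ : Additive (Gamma0 M) →+ Additive ℂˣ)
    (hψ : ModularCurve.Period.IsParabolicHom (Gamma0 M) ψ)
    (hψfin : ∀ γ : Gamma0 M, IsOfFinOrder γ → ψ (Additive.ofMul γ) = 0)
    (h₁ : Mer) (fC : ratioField M) (hfC : fC ≠ 0)
    (hroot : h₁ ^ p = ev fC) (hchar : r5a_HasChar M ψ h₁)
    (hdivC : ∀ P : Place ℂ (ratioField M), (p : ℤ) ∣ P.ord fC) :
    ∃ x : JZero M, heq_Rel M p x ψ :=
  r5a_of_descended M p hp ψ (ratioField M) ev (inj_cmp_const M ev hev)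
    (r5i81_inv M ev hev) (inj_cmp_hcomp M ev hev) h₁ fC hfC hroot hchar
    (dsg74_descend M ev hev hp hdict fC hfC hdivC)
    (fun f₀ hf₀ h hh hc => ell90_dvd_ord_of_char M hp f₀ hf₀ h hh ψ hψ hψfin hc)

/-- **(R5) from forms, any `p > 0`.** -/
theorem r5iap90_of_forms (M p : ℕ) [NeZero M] (hp : 0 < p)
    (ev : ratioField M →+* Mer) (hev : inj_EvCompat M ev)
    (hdict : ∀ τ : ℍ, ∃ (P : Place ℂ (ratioField M)) (e : ℤ),
      ∀ f : ratioField M, f ≠ 0 → ordAt τ (ev f) = e * P.ord f)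
    (ψ : Additive (Gamma0 M) →+ Additive ℂˣ)
    (hψ : ModularCurve.Period.IsParabolicHom (Gamma0 M) ψ)
    (hψfin : ∀ γ : Gamma0 M, IsOfFinOrder γ → ψ (Additive.ofMul γ) = 0)
    {m : ℤ} (A B : Hol) (hA : IsMF M m (A : ℍ → ℂ)) (hB : IsMF M m (B : ℍ → ℂ))
    (hA0 : A ≠ 0) (hB0 : B ≠ 0)
    (h₁ : Mer) (hroot : h₁ ^ p = algebraMap Hol Mer A / algebraMap Hol Mer B)
    (hchar : r5a_HasChar M ψ h₁)
    (hdivC : ∀ P : Place ℂ (ratioField M),
      (p : ℤ) ∣ P.ord (⟨_, r5i81_ratio_mem M A B hA hB hB0⟩ : ratioField M)) :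
    ∃ x : JZero M, heq_Rel M p x ψ := by
  have hqA : qL (A : ℍ → ℂ) ≠ 0 := m04_qL_ne_zero hA (inj_coe_ne_zero hA0)
  have hqB : qL (B : ℍ → ℂ) ≠ 0 := m04_qL_ne_zero hB (inj_coe_ne_zero hB0)
  have hfC : (⟨_, r5i81_ratio_mem M A B hA hB hB0⟩ : ratioField M) ≠ 0 := by
    intro h0
    exact div_ne_zero hqA hqB (congrArg Subtype.val h0)
  exact r5iap90_main M p hp ev hev hdict ψ hψ hψfin h₁ _ hfC
    (hroot.trans (r5i81_ev_ratio M ev hev A B hA hB hB0 _ rfl).symm) hchar hdivC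

end

end Fermat.Agent.S42x
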