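/-
S42 project, glue (helper4, dry run of the `Sp_full` chain), prefix `r5t4_`.

**(R5), closed form**: for `p` prime `≥ 5`, every parabolic `χ : Γ₀(M) → ℤ` is in relation
`heq_Rel M p x (twp_psiAdd p χ)` with some `x : JZero M`.  Pure assembly of landed block tops:
B1 `twx76_*` (all-cusp Eisenstein series), B3 `cde29_*` (realisation), `cdf_covering_finite`,
`cdu55_ord_eq_zero`, `cdfin21_dvd_ord_all`, and `r5i81_of_forms` (B4 + B7 + R5c).
-/
import Mathlib
import Fermat.Agent.S42x.R5Inst81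
import Fermat.Agent.S42x.TwEisAllTop76
import Fermat.Agent.S42x.CDictEvR29
import Fermat.Agent.S42x.CDictCovFin
import Fermat.Agent.S42x.CDictCuspUnit55
import Fermat.Agent.S42x.CDictFinal21

set_option autoImplicit false

namespace Fermat.Agent.S42x

open UpperHalfPlane ModularCurve AlgebraicCurve CongruenceSubgroup ModularForm
open ModularCurve.Period
open Fermat.Agent.S24x Fermat.Agent.S23x
open scoped MatrixGroups Manifold

noncomputable section

/-- the point dictionary of the landed realisation, in the shape of `r5i81_main`. -/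
theorem r5t4_hdict (M : ℕ) [NeZero M] : ∀ τ : ℍ, ∃ (P : Place ℂ (ratioField M)) (e : ℤ),
    ∀ f : ratioField M, f ≠ 0 → ordAt τ (cde29_ev M f) = e * P.ord f := by
  intro τ
  obtain ⟨e, -, he⟩ := cdc_exists_ordAt_eq_mul (cde29_realR M) τ
  exact ⟨cdc_vPt (cde29_realR M) τ, (e : ℤ), fun f _ => he f⟩

/-- **(R5)** for `p ≥ 5` prime. -/
theorem r5t4_R5 (M p : ℕ) [NeZero M] (hp : p.Prime) (hp5 : 5 ≤ p)
    (χ : Additive (Gamma0 M) →+ ℤ) (hχ : IsParabolicHom (Gamma0 M) χ) :
    ∃ x : JZero M, heq_Rel M p x (twp_psiAdd p χ) := by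
  have hp6 : Nat.Coprime p 6 := by
    have h2 : Nat.Coprime p 2 := (Nat.coprime_primes hp Nat.prime_two).mpr (by omega)
    have h3 : Nat.Coprime p 3 := (Nat.coprime_primes hp Nat.prime_three).mpr (by omega)
    exact Nat.Coprime.mul_right h2 h3
  set A : Hol := twx76_AHol p hχ ^ p with hA
  set B : Hol := cdc_E4Hol ^ p with hB
  have hAmf : IsMF M ((p : ℤ) * 4) (A : ℍ → ℂ) := twx76_isMF_pow p hχ
  have hBmf : IsMF M ((p : ℤ) * 4) (B : ℍ → ℂ) := twb76_isMF_E4_pow M p
  have hA0 : A ≠ 0 := pow_ne_zero p (twx76_form p hχ).hol_ne_zero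
  have hB0 : B ≠ 0 := pow_ne_zero p twb76_E4Hol_ne_zero
  have hroot : twx76_h p hχ ^ p = algebraMap Hol Mer A / algebraMap Hol Mer B :=
    twx76_h_pow p hχ
  refine r5i81_of_forms M p hp6 (cde29_ev M) (cde29_evCompat M) (r5t4_hdict M)
    (twp_psiAdd p χ) (r5i81_parabolic p hχ) A B hAmf hBmf hA0 hB0 (twx76_h p hχ) hroot
    (twx76_h_char p hχ) ?_
  -- divisibility of the divisor over `ℂ`
  set fC : ratioField M := ⟨_, r5i81_ratio_mem M A B hAmf hBmf hB0⟩ with hfC
  have hev : (cde29_realR M).φ fC = twx76_h p hχ ^ p := by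
    rw [hroot]
    exact r5i81_ev_ratio M (cde29_ev M) (cde29_evCompat M) A B hAmf hBmf hB0 fC rfl
  have hcoord := cde29_isCoordinateR M
  refine cdfin21_dvd_ord_all (cde29_realR M) hcoord
    (fun c τ₀ hτ₀ v hv => cdf_covering_finite (cde29_realR M) hcoord c τ₀ hτ₀ v hv)
    hp hp5 fC (twx76_h p hχ) hev.symm ?_
  intro v hv
  refine cdu55_ord_eq_zero (cde29_realR M) (twx76_AHol p hχ) p (twx76_hhol p hχ)
    (twx76_hbdd p hχ) (twx76_hlim p hχ) fC ?_ v hv
  rw [hev]
  exact twx76_h_pow_mul p hχ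

end

end Fermat.Agent.S42x
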