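/-
S42x/R5Top60 (helper60, S42 glue leaf R5-TOP, prefix `r5t60_`): hypothesis `R5` of `rlg_iotHyp`
(`∀ χ, ∃ x, heq_Rel M p x (ψ_χ)`) from the block tops which are on main

* B4  `inj_exists_T0_univ` (finitely many classes of `S_p(FC)`, helper81),
* B7  `dsct_top'` (descent `ℂ → ℚ̄`, helper74),
* R5c `dsdq_dvd_ord` (divisibility over `ℚ̄`, helper11),
* B1  `twt_chi_mer`, `twt_Echi_isMF_pow`, … (Eisenstein series with character `ψ_χ`, helper76),
* FC bridge `cdcb_fullC_eq` (helper2),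

and from the B3 package `(ev, hev, hconst, hcomp, hdict)` on `FC = S23x.ratioField M` (the same
package as in `InjR3`, helper34) plus the B3 final statement `p ∣ div_FC f_χ`, which enter as
hypotheses.
-/
import Mathlib
import Fermat.Agent.S42x.R5Asm
import Fermat.Agent.S42x.InjT0
import Fermat.Agent.S42x.DescFinal
import Fermat.Agent.S42x.DescDivFinal
import Fermat.Agent.S42x.CDictBridge
import Fermat.Agent.S42x.TwEisTop

set_option autoImplicit false

namespace Fermat.Agent.S42x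

open UpperHalfPlane ModularCurve AlgebraicCurve CongruenceSubgroup
open Fermat.Agent.S24x Fermat.Agent.S23x Fermat.Agent.S18x
open scoped MatrixGroups

noncomputable section

/-- **R5 from a pair of forms.**  `A, B` forms of the same weight on `Γ₀(M)`, `h₁ ∈ Mer` with
`h₁ ^ p = A / B` and multiplier `ψ` (parabolic), `p` prime to `6`; B3 package on
`FC = ratioField M`; `p ∣ div_FC (A / B)`.  Then some `x : JZero M` is in relation with `ψ`. -/
theorem r5t60_of_forms (M p : ℕ) [NeZero M] (hp6 : Nat.Coprime p 6)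
    (ev : ratioField M →+* Mer) (hev : inj_EvCompat M ev)
    (hconst : ∀ c : ℂ, ev (algebraMap ℂ (ratioField M) c) = algebraMap ℂ Mer c)
    (hcomp : ∀ (f : FBar M) (y : ratioField M),
      (y : LS) = iotaL (f : LaurentSeries Qbar) → ev y = evF M f)
    (hdict : ∀ τ : ℍ, ∃ (P : Place ℂ (ratioField M)) (e : ℤ),
      ∀ f : ratioField M, f ≠ 0 → ordAt τ (ev f) = e * P.ord f)
    (ψ : Additive (Gamma0 M) →+ Additive ℂˣ)
    (hψ : ModularCurve.Period.IsParabolicHom (Gamma0 M) ψ)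
    (m : ℤ) (A B : Hol) (hA : IsMF M m (A : ℍ → ℂ)) (hB : IsMF M m (B : ℍ → ℂ))
    (hA0 : A ≠ 0) (hB0 : B ≠ 0)
    (h₁ : Mer) (hpow : h₁ ^ p * algebraMap Hol Mer B = algebraMap Hol Mer A)
    (hchar : r5a_HasChar M ψ h₁)
    (hdivC : ∀ fC : ratioField M, (fC : LS) * qL (B : ℍ → ℂ) = qL (A : ℍ → ℂ) →
      ∀ P : Place ℂ (ratioField M), (p : ℤ) ∣ P.ord fC) :
    ∃ x : JZero M, heq_Rel M p x ψ := by
  have hp : 0 < p := by
    rcases Nat.eq_zero_or_pos p with rfl | hp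
    · simp at hp6
    · exact hp
  -- the element `fC = qL A / qL B` of `FC`
  have hqB : qL (B : ℍ → ℂ) ≠ 0 := m04_qL_ne_zero hB (fun h0 => hB0 (Subtype.ext h0))
  have hqA : qL (A : ℍ → ℂ) ≠ 0 := m04_qL_ne_zero hA (fun h0 => hA0 (Subtype.ext h0))
  have hmem : qL (A : ℍ → ℂ) * (qL (B : ℍ → ℂ))⁻¹ ∈ ratioField M := by
    rw [mem_ratioField_iff]
    refine ⟨m, (A : ℍ → ℂ), (B : ℍ → ℂ), hA.cast (add_zero m).symm, hB,
      fun h0 => hB0 (Subtype.ext h0), ?_⟩
    rw [mul_assoc, inv_mul_cancel₀ hqB, mul_one]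
  set fC : ratioField M := ⟨_, hmem⟩ with hfC
  have hfx : (fC : LS) * qL (B : ℍ → ℂ) = qL (A : ℍ → ℂ) := by
    show qL (A : ℍ → ℂ) * (qL (B : ℍ → ℂ))⁻¹ * qL (B : ℍ → ℂ) = _
    rw [mul_assoc, inv_mul_cancel₀ hqB, mul_one]
  have hfC0 : fC ≠ 0 := by
    intro h0
    have : (fC : LS) = 0 := by rw [h0]; rfl
    rw [this, zero_mul] at hfx
    exact hqA hfx.symm
  have hBm : algebraMap Hol Mer B ≠ 0 := inj_algebraMap_ne_zero hB0
  have hroot : h₁ ^ p = ev fC := by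
    apply mul_right_cancel₀ hBm
    rw [hpow, hev fC m A B hA hB hB0 hfx]
  -- B4: finitely many classes
  obtain ⟨T0, hT0, hcls⟩ := inj_exists_T0_univ M ev hev hp hdict
  -- B7: descent
  have hdesc := dsct_top' M p hp (ratioField M) (cdcb_fullC_eq M).symm T0 hT0 hcls fC hfC0
    (hdivC fC hfx)
  -- assembly
  exact r5a_of_descended M p hp ψ (ratioField M) ev hconst
    (fun γ u => inj_ev_invariant M ev hev u _ (inv_mem γ.2)) hcomp h₁ fC hfC0 hroot hchar
    hdesc (fun f₀ hf₀ h hh hch P => dsdq_dvd_ord M hp6 f₀ hf₀ h hh ψ hψ hch P)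

/-- `ψ_χ` is parabolic when `χ` is. -/
theorem r5t60_psiAdd_parabolic {M : ℕ} (p : ℕ) {χ : Additive (Gamma0 M) →+ ℤ}
    (hχ : ModularCurve.Period.IsParabolicHom (Gamma0 M) χ) :
    ModularCurve.Period.IsParabolicHom (Gamma0 M) (twp_psiAdd p χ) := by
  intro γ hγ
  show Additive.ofMul (twp_psi p χ γ) = 0
  rw [twp_psi_of_trace p hχ γ hγ]
  rfl

/-- **R5 for `ψ_χ`, with the Eisenstein series `E_χ / E_1` of `TwEisTop`** (B1 on main), from the
B3 package and the B3 final statement `p ∣ div_FC ((E_χ / E_1) ^ p)`. -/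
theorem r5t60_chi (M p : ℕ) [NeZero M] (hp6 : Nat.Coprime p 6)
    (ev : ratioField M →+* Mer) (hev : inj_EvCompat M ev)
    (hconst : ∀ c : ℂ, ev (algebraMap ℂ (ratioField M) c) = algebraMap ℂ Mer c)
    (hcomp : ∀ (f : FBar M) (y : ratioField M),
      (y : LS) = iotaL (f : LaurentSeries Qbar) → ev y = evF M f)
    (hdict : ∀ τ : ℍ, ∃ (P : Place ℂ (ratioField M)) (e : ℤ),
      ∀ f : ratioField M, f ≠ 0 → ordAt τ (ev f) = e * P.ord f)
    {χ : Additive (Gamma0 M) →+ ℤ}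
    (hχ : ModularCurve.Period.IsParabolicHom (Gamma0 M) χ)
    (hdivC : ∀ fC : ratioField M,
      (fC : LS) * qL (twt_E1 M ^ p) = qL (twt_Echi p χ ^ p) →
      ∀ P : Place ℂ (ratioField M), (p : ℤ) ∣ P.ord fC) :
    ∃ x : JZero M, heq_Rel M p x (twp_psiAdd p χ) := by
  obtain ⟨h₁, -, hchar, hpow⟩ := twt_chi_mer p hχ
  have hE1 : twt_E1PowHol M p ≠ 0 := by
    intro h0
    have h1 : twt_E1 M ^ p = 0 := congrArg Subtype.val h0
    exact twm_pow_ne_zero twt_E1_ne_zero p h1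
  have hEchi : twt_EchiPowHol p hχ ≠ 0 := by
    intro h0
    have h1 : twt_Echi p χ ^ p = 0 := congrArg Subtype.val h0
    exact twm_pow_ne_zero (twt_Echi_ne_zero p hχ) p h1
  have hBm : algebraMap Hol Mer (twt_E1PowHol M p) ≠ 0 := inj_algebraMap_ne_zero hE1
  refine r5t60_of_forms M p hp6 ev hev hconst hcomp hdict (twp_psiAdd p χ)
    (r5t60_psiAdd_parabolic p hχ) ((p : ℤ) * 4) (twt_EchiPowHol p hχ) (twt_E1PowHol M p)
    (twt_Echi_isMF_pow p hχ) (twt_isMF_E1_pow p) hEchi hE1 h₁ ?_ hchar hdivC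
  rw [hpow, div_mul_cancel₀ _ hBm]

end

end Fermat.Agent.S42x
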