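/-
S42/S29/S30/S31 project, block T1 (comparison package at a general modulus), helper4,
prefix `r5a4_`.

**(R5) at EVERY modulus `m > 0`** (in particular `m = p ^ k` for `p = 2, 3`): every parabolic
`χ : Γ₀(M) → ℤ` is in relation `heq_Rel M m x (twp_psiAdd m χ)` with some `x : JZero M`.
Same assembly as `r5t4_R5` / `r5m4_R5`, with the ELL-EXACT forms (no `gcd (m, 6) = 1`):
`ellf39_dvd_ord_all` (helper39, over `ℂ`) and `ell90_dvd_ord_of_char` (helper90, R5c over `ℚ̄`),
using that `ψ_χ` kills the elements of finite order (`ell90_psiAdd_finOrder`).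
-/
import Mathlib
import Fermat.Agent.S42x.R5Top4
import Fermat.Agent.S42x.EllFinite39
import Fermat.Agent.S42x.EllExactC90

set_option autoImplicit false

namespace Fermat.Agent.S42x

open UpperHalfPlane ModularCurve AlgebraicCurve CongruenceSubgroup ModularForm
open ModularCurve.Period
open Fermat.Agent.S24x Fermat.Agent.S23x
open scoped MatrixGroups Manifold

noncomputable section

/-- **(R5)** for EVERY modulus `m > 0`. -/
theorem r5a4_R5 (M m : ℕ) [NeZero M] (hm : 0 < m)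
    (χ : Additive (Gamma0 M) →+ ℤ) (hχ : IsParabolicHom (Gamma0 M) χ) :
    ∃ x : JZero M, heq_Rel M m x (twp_psiAdd m χ) := by
  set A : Hol := twx76_AHol m hχ ^ m with hA
  set B : Hol := cdc_E4Hol ^ m with hB
  have hAmf : IsMF M ((m : ℤ) * 4) (A : ℍ → ℂ) := twx76_isMF_pow m hχ
  have hBmf : IsMF M ((m : ℤ) * 4) (B : ℍ → ℂ) := twb76_isMF_E4_pow M m
  have hA0 : A ≠ 0 := pow_ne_zero m (twx76_form m hχ).hol_ne_zero
  have hB0 : B ≠ 0 := pow_ne_zero m twb76_E4Hol_ne_zero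
  have hroot : twx76_h m hχ ^ m = algebraMap Hol Mer A / algebraMap Hol Mer B :=
    twx76_h_pow m hχ
  have hev' := cde29_evCompat M
  have hψ := r5i81_parabolic m hχ
  have hψfin : ∀ γ : Gamma0 M, IsOfFinOrder γ → twp_psiAdd m χ (Additive.ofMul γ) = 0 :=
    fun γ hγ => ell90_psiAdd_finOrder m χ γ hγ
  have hqA : qL (A : ℍ → ℂ) ≠ 0 := m04_qL_ne_zero hAmf (inj_coe_ne_zero hA0)
  have hqB : qL (B : ℍ → ℂ) ≠ 0 := m04_qL_ne_zero hBmf (inj_coe_ne_zero hB0)
  set fC : ratioField M := ⟨_, r5i81_ratio_mem M A B hAmf hBmf hB0⟩ with hfC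
  have hfC0 : fC ≠ 0 := by
    intro h0
    exact div_ne_zero hqA hqB (congrArg Subtype.val h0)
  have hev : (cde29_realR M).φ fC = twx76_h m hχ ^ m := by
    rw [hroot]
    exact r5i81_ev_ratio M (cde29_ev M) hev' A B hAmf hBmf hB0 fC rfl
  have hchar := twx76_h_char m hχ
  -- divisibility of the divisor over `ℂ`
  have hcoord := cde29_isCoordinateR M
  have hdivC : ∀ P : Place ℂ (ratioField M), (m : ℤ) ∣ P.ord fC := by
    refine ellf39_dvd_ord_all (cde29_realR M)
      (fun x₀ => ⟨inj_cmp_iF M x₀, inj_cmp_ev_iF M (cde29_ev M) hev' x₀⟩) hcoord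
      (fun c τ₀ hτ₀ v hv => cdf_covering_finite (cde29_realR M) hcoord c τ₀ hτ₀ v hv)
      hm fC (twx76_h m hχ) hev.symm
      (ell90_inv_of_char M (twp_psiAdd m χ) hψfin (twx76_h m hχ) hchar) ?_
    intro v hv
    refine cdu55_ord_eq_zero (cde29_realR M) (twx76_AHol m hχ) m (twx76_hhol m hχ)
      (twx76_hbdd m hχ) (twx76_hlim m hχ) fC ?_ v hv
    rw [hev]
    exact twx76_h_pow_mul m hχ
  exact r5a_of_descended M m hm (twp_psiAdd m χ) (ratioField M) (cde29_ev M)
    (inj_cmp_const M (cde29_ev M) hev') (r5i81_inv M (cde29_ev M) hev')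
    (inj_cmp_hcomp M (cde29_ev M) hev') (twx76_h m hχ) fC hfC0 hev.symm hchar
    (dsg74_descend M (cde29_ev M) hev' hm (r5t4_hdict M) fC hfC0 hdivC)
    (fun f₀ hf₀ h hh hc =>
      ell90_dvd_ord_of_char M hm f₀ hf₀ h hh (twp_psiAdd m χ) hψ hψfin hc)

end

end Fermat.Agent.S42x
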