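/-
S42x/R5TopFin60 (helper60, S42 glue leaf R5-TOP, chain "no cusps over ℂ" of ARCH-3 (R1), prefix
`r5tf60_`): the same assembly as `S42x/R5Top60`, but the B3 inputs are only needed at the places of
`FC = ratioField M` where `j` is finite:

* the dictionary `hdict` produces places `P_τ` with `0 ≤ P_τ.ord j`;
* the B3 final statement is `p ∣ P.ord f_χ` for the places `P` with `0 ≤ P.ord j` only
  (= B3.2 COVFIN + B3.4 FINAL, no CUSPUNIT, any Eisenstein series with the right character).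

Uses B4 `inj_exists_T0_of_dict` (helper81), B7 `dsf60_top_fin'` (`S42x/DescFin60`, on helper57's
`dscg_core`), R5c `dsdq_dvd_ord` (helper11; the cusps are handled there, over `ℚ̄`).
-/
import Mathlib
import Fermat.Agent.S42x.R5Top60
import Fermat.Agent.S42x.DescFin60

set_option autoImplicit false

namespace Fermat.Agent.S42x

open UpperHalfPlane ModularCurve AlgebraicCurve CongruenceSubgroup
open Fermat.Agent.S24x Fermat.Agent.S23x Fermat.Agent.S18x
open scoped MatrixGroups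

noncomputable section

/-- **R5 from a pair of forms, finite places only.** -/
theorem r5tf60_of_forms (M p : ℕ) [NeZero M] (hp6 : Nat.Coprime p 6)
    (ev : ratioField M →+* Mer) (hev : inj_EvCompat M ev)
    (hconst : ∀ c : ℂ, ev (algebraMap ℂ (ratioField M) c) = algebraMap ℂ Mer c)
    (hcomp : ∀ (f : FBar M) (y : ratioField M),
      (y : LS) = iotaL (f : LaurentSeries Qbar) → ev y = evF M f)
    (j : ratioField M) (hj : (j : LS) = jqModC ℂ)
    (hdict : ∀ τ : ℍ, ∃ (P : Place ℂ (ratioField M)) (e : ℤ), 0 ≤ P.ord j ∧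
      ∀ f : ratioField M, f ≠ 0 → ordAt τ (ev f) = e * P.ord f)
    (ψ : Additive (Gamma0 M) →+ Additive ℂˣ)
    (hψ : ModularCurve.Period.IsParabolicHom (Gamma0 M) ψ)
    (m : ℤ) (A B : Hol) (hA : IsMF M m (A : ℍ → ℂ)) (hB : IsMF M m (B : ℍ → ℂ))
    (hA0 : A ≠ 0) (hB0 : B ≠ 0)
    (h₁ : Mer) (hpow : h₁ ^ p * algebraMap Hol Mer B = algebraMap Hol Mer A)
    (hchar : r5a_HasChar M ψ h₁)
    (hdivC : ∀ fC : ratioField M, (fC : LS) * qL (B : ℍ → ℂ) = qL (A : ℍ → ℂ) →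
      ∀ P : Place ℂ (ratioField M), 0 ≤ P.ord j → (p : ℤ) ∣ P.ord fC) :
    ∃ x : JZero M, heq_Rel M p x ψ := by
  have hp : 0 < p := by
    rcases Nat.eq_zero_or_pos p with rfl | hp
    · simp at hp6
    · exact hp
  -- the element `fC = qL A / qL B` of `FC`
  have hqB : qL (B : ℍ → ℂ) ≠ 0 := m04_qL_ne_zero hB (fun h0 => hB0 (Subtype.ext h0))
  have hqA : qL (A : ℍ → ℂ) ≠ 0 := m04_qL_ne_zero hA (fun h0 => hA0 (Subtype.ext h0))
  have hmem : qL (A : ℍ → ℂ) * (qL (B : ℍ → ℂ))⁻¹ ∈ ratioField M := by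
    rw [mem_ratioField_iff]
    refine ⟨m, (A : ℍ → ℂ), (B : ℍ → ℂ), hA.cast (add_zero m).symm, hB,
      fun h0 => hB0 (Subtype.ext h0), ?_⟩
    rw [mul_assoc, inv_mul_cancel₀ hqB, mul_one]
  set fC : ratioField M := ⟨_, hmem⟩ with hfC
  have hfx : (fC : LS) * qL (B : ℍ → ℂ) = qL (A : ℍ → ℂ) := by
    show qL (A : ℍ → ℂ) * (qL (B : ℍ → ℂ))⁻¹ * qL (B : ℍ → ℂ) = _
    rw [mul_assoc, inv_mul_cancel₀ hqB, mul_one]
  have hfC0 : fC ≠ 0 := by
    intro h0
    have : (fC : LS) = 0 := by rw [h0]; rfl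
    rw [this, zero_mul] at hfx
    exact hqA hfx.symm
  have hBm : algebraMap Hol Mer B ≠ 0 := inj_algebraMap_ne_zero hB0
  have hroot : h₁ ^ p = ev fC := by
    apply mul_right_cancel₀ hBm
    rw [hpow, hev fC m A B hA hB hB0 hfx]
  -- B4: finitely many classes (finite places only)
  obtain ⟨T0, hT0, -, hcls⟩ := inj_exists_T0_of_dict M ev hev hp
    {P : Place ℂ (ratioField M) | 0 ≤ P.ord j} hdict
  -- B7: descent
  have hdesc := dsf60_top_fin' M p hp (ratioField M) (cdcb_fullC_eq M).symm j hj T0 hT0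
    (fun f hf hdiv => hcls f hf hdiv) fC hfC0 (hdivC fC hfx)
  -- assembly
  exact r5a_of_descended M p hp ψ (ratioField M) ev hconst
    (fun γ u => inj_ev_invariant M ev hev u _ (inv_mem γ.2)) hcomp h₁ fC hfC0 hroot hchar
    hdesc (fun f₀ hf₀ h hh hch P => dsdq_dvd_ord M hp6 f₀ hf₀ h hh ψ hψ hch P)

/-- **R5 for `ψ_χ` with `E_χ / E_1` of `TwEisTop`, finite places only.** -/
theorem r5tf60_chi (M p : ℕ) [NeZero M] (hp6 : Nat.Coprime p 6)
    (ev : ratioField M →+* Mer) (hev : inj_EvCompat M ev)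
    (hconst : ∀ c : ℂ, ev (algebraMap ℂ (ratioField M) c) = algebraMap ℂ Mer c)
    (hcomp : ∀ (f : FBar M) (y : ratioField M),
      (y : LS) = iotaL (f : LaurentSeries Qbar) → ev y = evF M f)
    (j : ratioField M) (hj : (j : LS) = jqModC ℂ)
    (hdict : ∀ τ : ℍ, ∃ (P : Place ℂ (ratioField M)) (e : ℤ), 0 ≤ P.ord j ∧
      ∀ f : ratioField M, f ≠ 0 → ordAt τ (ev f) = e * P.ord f)
    {χ : Additive (Gamma0 M) →+ ℤ}
    (hχ : ModularCurve.Period.IsParabolicHom (Gamma0 M) χ)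
    (hdivC : ∀ fC : ratioField M,
      (fC : LS) * qL (twt_E1 M ^ p) = qL (twt_Echi p χ ^ p) →
      ∀ P : Place ℂ (ratioField M), 0 ≤ P.ord j → (p : ℤ) ∣ P.ord fC) :
    ∃ x : JZero M, heq_Rel M p x (twp_psiAdd p χ) := by
  obtain ⟨h₁, -, hchar, hpow⟩ := twt_chi_mer p hχ
  have hE1 : twt_E1PowHol M p ≠ 0 := by
    intro h0
    have h1 : twt_E1 M ^ p = 0 := congrArg Subtype.val h0
    exact twm_pow_ne_zero twt_E1_ne_zero p h1
  have hEchi : twt_EchiPowHol p hχ ≠ 0 := by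
    intro h0
    have h1 : twt_Echi p χ ^ p = 0 := congrArg Subtype.val h0
    exact twm_pow_ne_zero (twt_Echi_ne_zero p hχ) p h1
  have hBm : algebraMap Hol Mer (twt_E1PowHol M p) ≠ 0 := inj_algebraMap_ne_zero hE1
  refine r5tf60_of_forms M p hp6 ev hev hconst hcomp j hj hdict (twp_psiAdd p χ)
    (r5t60_psiAdd_parabolic p hχ) ((p : ℤ) * 4) (twt_EchiPowHol p hχ) (twt_E1PowHol M p)
    (twt_Echi_isMF_pow p hχ) (twt_isMF_E1_pow p) hEchi hE1 h₁ ?_ hchar hdivC
  rw [hpow, div_mul_cancel₀ _ hBm]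

end

end Fermat.Agent.S42x
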