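/-
S42/S30/S31 project, block T1 (comparison package at a general modulus), helper4, prefix `r5m4_`.

**(R5) at an arbitrary modulus `m` coprime to `6`** (in particular `m = p ^ k`, `p ≥ 5` prime):
every parabolic `χ : Γ₀(M) → ℤ` is in relation `heq_Rel M m x (twp_psiAdd m χ)` with some
`x : JZero M`.  Same assembly as `r5t4_R5` (S42x/R5Top4), with helper71's coprime-to-6 form
`cdcf71_dvd_all` of B3.4 FINAL instead of the prime form.
-/
import Mathlib
import Fermat.Agent.S42x.R5Top4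
import Fermat.Agent.S42x.CDictFinal71

set_option autoImplicit false

namespace Fermat.Agent.S42x

open UpperHalfPlane ModularCurve AlgebraicCurve CongruenceSubgroup ModularForm
open ModularCurve.Period
open Fermat.Agent.S24x Fermat.Agent.S23x
open scoped MatrixGroups Manifold

noncomputable section

/-- **(R5)** for a modulus `m` coprime to `6`. -/
theorem r5m4_R5 (M m : ℕ) [NeZero M] (hm6 : Nat.Coprime m 6)
    (χ : Additive (Gamma0 M) →+ ℤ) (hχ : IsParabolicHom (Gamma0 M) χ) :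
    ∃ x : JZero M, heq_Rel M m x (twp_psiAdd m χ) := by
  set A : Hol := twx76_AHol m hχ ^ m with hA
  set B : Hol := cdc_E4Hol ^ m with hB
  have hAmf : IsMF M ((m : ℤ) * 4) (A : ℍ → ℂ) := twx76_isMF_pow m hχ
  have hBmf : IsMF M ((m : ℤ) * 4) (B : ℍ → ℂ) := twb76_isMF_E4_pow M m
  have hA0 : A ≠ 0 := pow_ne_zero m (twx76_form m hχ).hol_ne_zero
  have hB0 : B ≠ 0 := pow_ne_zero m twb76_E4Hol_ne_zero
  have hroot : twx76_h m hχ ^ m = algebraMap Hol Mer A / algebraMap Hol Mer B :=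
    twx76_h_pow m hχ
  refine r5i81_of_forms M m hm6 (cde29_ev M) (cde29_evCompat M) (r5t4_hdict M)
    (twp_psiAdd m χ) (r5i81_parabolic m hχ) A B hAmf hBmf hA0 hB0 (twx76_h m hχ) hroot
    (twx76_h_char m hχ) ?_
  set fC : ratioField M := ⟨_, r5i81_ratio_mem M A B hAmf hBmf hB0⟩ with hfC
  have hev : (cde29_realR M).φ fC = twx76_h m hχ ^ m := by
    rw [hroot]
    exact r5i81_ev_ratio M (cde29_ev M) (cde29_evCompat M) A B hAmf hBmf hB0 fC rfl
  have hcoord := cde29_isCoordinateR M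
  refine cdcf71_dvd_all (cde29_realR M) hcoord
    (fun c τ₀ hτ₀ v hv => cdf_covering_finite (cde29_realR M) hcoord c τ₀ hτ₀ v hv)
    hm6 hev.symm ?_
  intro v hv
  refine cdu55_ord_eq_zero (cde29_realR M) (twx76_AHol m hχ) m (twx76_hhol m hχ)
    (twx76_hbdd m hχ) (twx76_hlim m hχ) fC ?_ v hv
  rw [hev]
  exact twx76_h_pow_mul m hχ

/-- **(R5)** at prime powers `p ^ k`, `p ≥ 5`. -/
theorem r5m4_R5_primePow (M p k : ℕ) [NeZero M] (hp : p.Prime) (hp5 : 5 ≤ p)
    (χ : Additive (Gamma0 M) →+ ℤ) (hχ : IsParabolicHom (Gamma0 M) χ) :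
    ∃ x : JZero M, heq_Rel M (p ^ k) x (twp_psiAdd (p ^ k) χ) := by
  have hp6 : Nat.Coprime p 6 := by
    have h2 : Nat.Coprime p 2 := (Nat.coprime_primes hp Nat.prime_two).mpr (by omega)
    have h3 : Nat.Coprime p 3 := (Nat.coprime_primes hp Nat.prime_three).mpr (by omega)
    exact Nat.Coprime.mul_right h2 h3
  exact r5m4_R5 M (p ^ k) (Nat.Coprime.pow_left k hp6) χ hχ

end

end Fermat.Agent.S42x
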