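/-
S42 project, row 75 "R5c" (helper16, prefix `r5c_`): divisibility of the divisor of `f0 ∈ FBar N` by
`p` from an explicit `p`-th root of `evF N f0` in `Mer`, over `Q̄`, via the S24x covering theorem.

* point places (`j` finite): `ord_τ ∘ evF = g_τ · ord_{vPt τ}` with `g_τ ∣ ord_τ(j - j(τ)) ∈ {1,2,3}`,
  so `gcd(g_τ, p) = 1` as soon as `p` is prime to `6`, and `p ∣ ord_τ(h^p) = g_τ · ord_P f0` gives
  `p ∣ ord_P f0`;
* cusp places: hypothesis `hcusp` (the consumer statement of the CUSP-EXACT leaf, helper38);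
* `covering_finite` / `covering_cusp`: every place is of one of the two kinds.
-/
import Fermat.Agent.S24x.CoveringFinal
import Fermat.Agent.S24x.JFiber
import Fermat.Agent.S18x.RiemannOfCoord

set_option autoImplicit false

namespace Fermat.Agent.S42x

open UpperHalfPlane AlgebraicCurve CongruenceSubgroup ModularCurve
open Fermat.Agent.S24x Fermat.Agent.S18x
open scoped MatrixGroups Manifold

noncomputable section

/-- `ord_τ` of a power. -/
theorem r5c_ordAt_pow (τ : ℍ) {x : Mer} (hx : x ≠ 0) (n : ℕ) :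
    ordAt τ (x ^ n) = n * ordAt τ x := by
  induction n with
  | zero =>
    have := ordAt_const τ 1
    rw [map_one] at this
    simp [this]
  | succ n ih =>
    rw [pow_succ, ordAt_mul τ (pow_ne_zero n hx) hx, ih]
    push_cast
    ring

/-- the order of `j - j(τ)` at `τ` is `1`, `2` or `3`. -/
theorem r5c_holOrdZ_j_sub (τ : ℍ) :
    holOrdZ (jHol - algebraMap ℂ Hol (jFun τ)) τ = 1 ∨
      holOrdZ (jHol - algebraMap ℂ Hol (jFun τ)) τ = 2 ∨
      holOrdZ (jHol - algebraMap ℂ Hol (jFun τ)) τ = 3 := by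
  unfold holOrdZ
  by_cases h0 : jFun τ = 0
  · right; right
    rw [h0, map_zero, sub_zero, holOrder_jHol_of_jFun_eq_zero τ h0]
    rfl
  · by_cases h1 : jFun τ = 1728
    · right; left
      rw [h1, holOrder_jHol_sub_of_jFun_eq_1728 τ h1]
      rfl
    · left
      rw [holOrder_jHol_sub_generic τ h0 h1]
      rfl

variable (N : ℕ) [NeZero N]

/-- the local multiplier `g_τ` of `ord_τ ∘ evF = g_τ · ord_{vPt τ}` divides `6`. -/
theorem r5c_exists_mult (τ : ℍ) {c : Qbar} (hτ : jFun τ = iotaQ c) :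
    ∃ g : ℕ, 0 < g ∧ g ∣ 6 ∧ ∀ f : FBar N, ordAt τ (evF N f) = g * (vPt N τ).ord f := by
  obtain ⟨g, hg, hall⟩ := exists_ordAt_eq_mul_vPt_ord N τ hτ
  refine ⟨g, hg, ?_, hall⟩
  have h1 := hall (jBar N - algebraMap Qbar (FBar N) c)
  rw [ordAt_evF_jBar_sub, ← hτ] at h1
  have hdvd : (g : ℤ) ∣ holOrdZ (jHol - algebraMap ℂ Hol (jFun τ)) τ := ⟨_, h1⟩
  have h6 : (g : ℤ) ∣ 6 := by
    rcases r5c_holOrdZ_j_sub τ with h | h | h
    · rw [h] at hdvd; exact dvd_trans hdvd (by norm_num)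
    · rw [h] at hdvd; exact dvd_trans hdvd (by norm_num)
    · rw [h] at hdvd; exact dvd_trans hdvd (by norm_num)
  exact_mod_cast h6

/-- **point places**: `p ∣ ord_P f0` at every place over a finite value of `j`. -/
theorem r5c_dvd_point (p : ℕ) (hp : Nat.Coprime p 6) (f0 : FBar N) (hf0 : f0 ≠ 0) (h0 : Mer)
    (hroot : h0 ^ p = evF N f0) (c : Qbar) (v : Place Qbar (FBar N))
    (hv : v ∈ placesOver Qbar (FBar N) (jBar N) c) : (p : ℤ) ∣ v.ord f0 := by
  obtain ⟨τ₀, hτ₀⟩ := jFun_surjective (iotaQ c)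
  obtain ⟨g, rfl⟩ := covering_finite N c τ₀ hτ₀ v hv
  have hτ : jFun (g • τ₀) = iotaQ c := by rw [jFun_smul, hτ₀]
  obtain ⟨m, hm, hm6, hall⟩ := r5c_exists_mult N (g • τ₀) hτ
  have hev : evF N f0 ≠ 0 := (map_ne_zero (evF N)).mpr hf0
  have hh0 : h0 ≠ 0 := by
    rintro rfl
    by_cases hp0 : p = 0
    · subst hp0
      simp at hp
    · rw [zero_pow hp0] at hroot
      exact hev hroot.symm
  have h1 := hall f0
  rw [← hroot, r5c_ordAt_pow _ hh0] at h1
  have hdvd : (p : ℤ) ∣ (m : ℤ) * (vPt N (g • τ₀)).ord f0 := ⟨_, h1.symm⟩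
  have hcop : IsCoprime (p : ℤ) (m : ℤ) := by
    rw [Int.isCoprime_iff_gcd_eq_one]
    have : Nat.Coprime p m := Nat.Coprime.coprime_dvd_right hm6 hp
    simpa [Int.gcd_natCast_natCast] using this
  exact hcop.dvd_of_dvd_mul_left hdvd

/-- **R5c**: `p ∣ ord_P f0` at EVERY place of `FBar N`, given an explicit `p`-th root of `evF N f0`
(`p` prime to `6`) and the divisibility at the cusp places. -/
theorem r5c_dvd_ord (p : ℕ) (hp : Nat.Coprime p 6) (f0 : FBar N) (hf0 : f0 ≠ 0) (h0 : Mer)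
    (hroot : h0 ^ p = evF N f0)
    (hcusp : ∀ g : SL(2, ℤ), (p : ℤ) ∣ (cg_vCusp N g).ord f0)
    (P : Place Qbar (FBar N)) : (p : ℤ) ∣ P.ord f0 := by
  by_cases hpole : P ∈ polePlaces Qbar (FBar N) (jBar N)
  · obtain ⟨g, rfl⟩ := covering_cusp N P hpole
    exact hcusp g
  · have hb : RmtBase Qbar (FBar N) := rmt_base_of_isCoordinate (fbf_isCoordinate_jBar N)
    have hmem : jBar N ∈ P.toValuationSubring := by
      rw [mem_polePlaces, not_lt] at hpole
      by_cases hj : jBar N = 0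
      · rw [hj]; exact zero_mem _
      · exact (pb_mem_iff P hj).mpr hpole
    obtain ⟨c, hc | hc⟩ := rmt_exists_residue hb P hmem
    · exact absurd (sub_eq_zero.mpr hc) (jBar_sub_const_ne_zero N c)
    · exact r5c_dvd_point N p hp f0 hf0 h0 hroot c P hc

end

end Fermat.Agent.S42x
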