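/-
S42 project, block B3 glue (helper71, prefix `rc71_`): the `ratioField M` side of the dictionary.

* `rc71_isCoordinate_of_eq`, `rc71_exists_real_of_eq` : transport of `IsCoordinate` and of a
  realisation bundle `cdc_Real` along an EQUALITY of intermediate fields (so a bundle built on
  `modularFunctionFieldFullC ℂ M` serves `S23x.ratioField M` and conversely);
* `rc71_jR M`, `rc71_isCoordinate M` : `j` is a coordinate of `S23x.ratioField M` over `ℂ`;
* for a bundle `D : cdc_Real ↥(ratioField M) M (rc71_jR M)`: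
  `rc71_hdict` (the point dictionary in the shape consumed by `inj_exists_T0_univ`/`dsg74_descend`),
  `rc71_dvd_finite`, `rc71_dvd_all` (B3.2 COVFIN + B3.4 FINAL combined), `rc71_dvd_ordAt_of_finite`.
-/
import Fermat.Agent.S42x.CDictBridge
import Fermat.Agent.S42x.CDictCovFin
import Fermat.Agent.S42x.CDictFinal71
import Fermat.Agent.S18x.PlsFbar
import Fermat.Agent.S42x.InjComp

set_option autoImplicit false

namespace Fermat.Agent.S42x

open UpperHalfPlane AlgebraicCurve CongruenceSubgroup ModularCurve Fermat.Agent.S24x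
open scoped MatrixGroups Manifold

/-! ## Transport along an equality of intermediate fields -/

section Transport

variable {K E : Type*} [Field K] [Field E] [Algebra K E]

theorem rc71_isCoordinate_of_eq {S T : IntermediateField K E} (h : S = T) {x : E} (hS : x ∈ S)
    (hT : x ∈ T) (hc : IsCoordinate K ↥S ⟨x, hS⟩) : IsCoordinate K ↥T ⟨x, hT⟩ := by
  subst h
  exact hc

theorem rc71_exists_real_of_eq {E : Type*} [Field E] [Algebra ℂ E] {S T : IntermediateField ℂ E}
    (h : S = T) {M : ℕ} {x : E} (hS : x ∈ S) (hT : x ∈ T) (D : cdc_Real ↥S M ⟨x, hS⟩) :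
    ∃ D' : cdc_Real ↥T M ⟨x, hT⟩,
      ∀ (y : E) (hyS : y ∈ S) (hyT : y ∈ T), D'.φ ⟨y, hyT⟩ = D.φ ⟨y, hyS⟩ := by
  subst h
  exact ⟨D, fun _ _ _ => rfl⟩

end Transport

/-! ## `j` as a coordinate of `ratioField M` -/

section Ratio

variable (M : ℕ) [NeZero M]

theorem rc71_jL_mem : S23x.jL ∈ S23x.ratioField M :=
  S23x.mem_ratioField_iff.mpr (S23x.isRatio_jL M)

/-- `j` as an element of `ratioField M`. -/
noncomputable def rc71_jR : ↥(S23x.ratioField M) := ⟨S23x.jL, rc71_jL_mem M⟩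

@[simp] theorem rc71_coe_jR : ((rc71_jR M : ↥(S23x.ratioField M)) : LaurentSeries ℂ) = S23x.jL :=
  rfl

/-- `j` is a coordinate of `ratioField M` over `ℂ`. -/
theorem rc71_isCoordinate : IsCoordinate ℂ ↥(S23x.ratioField M) (rc71_jR M) := by
  have h0 := Fermat.Agent.S18x.pls_isCoordinate_jb ℂ M
  have hmem : S23x.jL ∈ modularFunctionFieldFullC ℂ M := by
    rw [← dl_jqModC_eq_jL]
    exact jqModC_mem_full ℂ M
  have h1 : IsCoordinate ℂ ↥(modularFunctionFieldFullC ℂ M) ⟨S23x.jL, hmem⟩ := by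
    have : (⟨S23x.jL, hmem⟩ : ↥(modularFunctionFieldFullC ℂ M)) =
        Fermat.Agent.S18x.pls_jb ℂ M := by
      apply Subtype.ext
      show S23x.jL = jqModC ℂ
      exact dl_jqModC_eq_jL.symm
    rw [this]
    exact h0
  exact rc71_isCoordinate_of_eq (cdcb_fullC_eq M) hmem (rc71_jL_mem M) h1

variable {M}
variable (D : cdc_Real ↥(S23x.ratioField M) M (rc71_jR M))

/-- the point dictionary in the shape of `inj_exists_T0_univ` / `dsg74_descend`. -/
theorem rc71_hdict : ∀ τ : ℍ, ∃ (P : Place ℂ ↥(S23x.ratioField M)) (e : ℤ),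
    ∀ f : ↥(S23x.ratioField M), f ≠ 0 → ordAt τ (D.φ f) = e * P.ord f := by
  intro τ
  obtain ⟨e, -, he⟩ := cdc_exists_ordAt_eq_mul D τ
  exact ⟨cdc_vPt D τ, e, fun f _ => he f⟩

/-- the same, with places at which `j` is finite and multiplier dividing `6`. -/
theorem rc71_hdict_fin : ∀ τ : ℍ, ∃ (P : Place ℂ ↥(S23x.ratioField M)) (e : ℕ),
    0 ≤ P.ord (rc71_jR M) ∧ 0 < e ∧ e ∣ 6 ∧
      ∀ f : ↥(S23x.ratioField M), ordAt τ (D.φ f) = e * P.ord f := by
  intro τ
  obtain ⟨e, he, h6, hall⟩ := cdcf71_exists_mult_dvd_six D τ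
  refine ⟨cdc_vPt D τ, e, ?_, he, h6, hall⟩
  have hmem : rc71_jR M ∈ (cdc_vPt D τ).toValuationSubring := by
    rw [cdc_mem_vPt_iff, D.map_j]
    exact ordAt_algebraMap_nonneg τ jHol
  have hj : rc71_jR M ≠ 0 := by
    have := cdc_j_sub_const_ne_zero D 0
    rwa [map_zero, sub_zero] at this
  exact (pb_mem_iff _ hj).mp hmem

/-- B3.2 + B3.4: divisibility at all places at which `j` is finite. -/
theorem rc71_dvd_finite {p : ℕ} (hp : Nat.Coprime p 6) {f : ↥(S23x.ratioField M)} {h : Mer}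
    (hroot : h ^ p = D.φ f) {v : Place ℂ ↥(S23x.ratioField M)} (hv : 0 ≤ v.ord (rc71_jR M)) :
    (p : ℤ) ∣ v.ord f :=
  cdcf71_dvd_finite D (rc71_isCoordinate M) (cdf_covering_finite D (rc71_isCoordinate M)) hp
    hroot hv

/-- B3.2 + B3.4 (+ B3.3 as a hypothesis): divisibility at all places. -/
theorem rc71_dvd_all {p : ℕ} (hp : Nat.Coprime p 6) {f : ↥(S23x.ratioField M)} {h : Mer}
    (hroot : h ^ p = D.φ f)
    (hpole : ∀ v : Place ℂ ↥(S23x.ratioField M),
      v ∈ polePlaces ℂ ↥(S23x.ratioField M) (rc71_jR M) → v.ord f = 0)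
    (v : Place ℂ ↥(S23x.ratioField M)) : (p : ℤ) ∣ v.ord f :=
  cdcf71_dvd_all D (rc71_isCoordinate M) (cdf_covering_finite D (rc71_isCoordinate M)) hp
    hroot hpole v

/-- N3 converse on `ratioField M`. -/
theorem rc71_dvd_ordAt_of_finite {p : ℤ} {f : ↥(S23x.ratioField M)}
    (hall : ∀ v : Place ℂ ↥(S23x.ratioField M), 0 ≤ v.ord (rc71_jR M) → p ∣ v.ord f) (τ : ℍ) :
    p ∣ ordAt τ (D.φ f) :=
  cdcf71_dvd_ordAt_of_finite D hall τ

end Ratio

/-! ## Everything from the DOOR `inj_EvCompat` alone -/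

section Door

variable (M : ℕ) [NeZero M] (ev : ↥(S23x.ratioField M) →+* Mer) (hev : inj_EvCompat M ev)

/-- a realisation of `ratioField M` satisfying the door `inj_EvCompat` is a `cdc_Real` bundle. -/
noncomputable def rc71_real_of_ev : cdc_Real ↥(S23x.ratioField M) M (rc71_jR M) where
  φ := ev
  map_const := inj_cmp_const M ev hev
  map_j := by
    have h1 : ((rc71_jR M : ↥(S23x.ratioField M)) : LaurentSeries ℂ) = S23x.jNL 1 := by
      rw [dl_jNL_eq 1, qExpand_one_apply]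
      rfl
    rw [inj_cmp_gen M ev hev 1 (one_dvd M) (rc71_jR M) h1, jdHol_one]
    rfl
  inv := fun γ hγ f => inj_ev_invariant M ev hev f γ hγ

@[simp] theorem rc71_real_of_ev_φ : (rc71_real_of_ev M ev hev).φ = ev := rfl

include hev

/-- the point dictionary (shape of `inj_exists_T0_univ` / `dsg74_descend`) from the door. -/
theorem rc71_ev_hdict : ∀ τ : ℍ, ∃ (P : Place ℂ ↥(S23x.ratioField M)) (e : ℤ),
    ∀ f : ↥(S23x.ratioField M), f ≠ 0 → ordAt τ (ev f) = e * P.ord f :=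
  rc71_hdict (rc71_real_of_ev M ev hev)

/-- the dictionary with finite places and multiplier dividing `6` (shape of
`inj_exists_T0_of_dict` with `PP = {P | 0 ≤ P.ord j}`). -/
theorem rc71_ev_hdict_fin : ∀ τ : ℍ, ∃ (P : Place ℂ ↥(S23x.ratioField M)) (e : ℕ),
    0 ≤ P.ord (rc71_jR M) ∧ 0 < e ∧ e ∣ 6 ∧
      ∀ f : ↥(S23x.ratioField M), ordAt τ (ev f) = e * P.ord f :=
  rc71_hdict_fin (rc71_real_of_ev M ev hev)

/-- B3.2 + B3.4 from the door: divisibility at all places at which `j` is finite. -/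
theorem rc71_ev_dvd_finite {p : ℕ} (hp : Nat.Coprime p 6) {f : ↥(S23x.ratioField M)} {h : Mer}
    (hroot : h ^ p = ev f) {v : Place ℂ ↥(S23x.ratioField M)} (hv : 0 ≤ v.ord (rc71_jR M)) :
    (p : ℤ) ∣ v.ord f :=
  rc71_dvd_finite (rc71_real_of_ev M ev hev) hp hroot hv

/-- B3.2 + B3.4 from the door, all places (B3.3 as a hypothesis). -/
theorem rc71_ev_dvd_all {p : ℕ} (hp : Nat.Coprime p 6) {f : ↥(S23x.ratioField M)} {h : Mer}
    (hroot : h ^ p = ev f)
    (hpole : ∀ v : Place ℂ ↥(S23x.ratioField M),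
      v ∈ polePlaces ℂ ↥(S23x.ratioField M) (rc71_jR M) → v.ord f = 0)
    (v : Place ℂ ↥(S23x.ratioField M)) : (p : ℤ) ∣ v.ord f :=
  rc71_dvd_all (rc71_real_of_ev M ev hev) hp hroot hpole v

/-- N3 converse from the door. -/
theorem rc71_ev_dvd_ordAt_of_finite {p : ℤ} {f : ↥(S23x.ratioField M)}
    (hall : ∀ v : Place ℂ ↥(S23x.ratioField M), 0 ≤ v.ord (rc71_jR M) → p ∣ v.ord f) (τ : ℍ) :
    p ∣ ordAt τ (ev f) :=
  rc71_dvd_ordAt_of_finite (rc71_real_of_ev M ev hev) hall τ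

end Door

end Fermat.Agent.S42x
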