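/-
S42 project, glue between block B4 (injectivity) and block B12 (`rlg_iotHyp`, helper47), helper32, prefix
`rli32_`: the hypotheses `hR3` and `hR4` of `rlg_iotHyp` for helper54's relation `heq_Rel`.

* `rli32_RootHyp M p` : the output shape of B4 (s42_plan row 25 (ii)): a `Γ₀(M)`-invariant `p`-th root in
  `Mer` of `evF f`, `f ∈ F̄_M`, forces `f = c · u₀ ^ p` with `c ∈ Q̄`, `u₀ ∈ F̄_M`;
* `rli32_R3`  : `rli32_RootHyp M p → heq_Rel M p x 0 → x = 0`                       (R3);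
* `rli32_R4`  : `heq_Rel M p 0 ψ → ψ = 0`  (R4', UNCONDITIONAL: `Dt = div u`, `f / u ^ p` is a constant
  `a`, every `p`-th root of `evF f` is a constant multiple of `evF u`, hence `Γ₀(M)`-invariant);
* `rli32_hR3`, `rli32_hR4` : the same in the literal shapes of `rlg_iotHyp` for any `psiOf`.
-/
import Mathlib
import Fermat.Agent.S42x.HeckeEqDefs
import Fermat.Agent.S42x.InjFinite
import Fermat.Agent.S18x.RmnOfRmt
import Fermat.Agent.S24x.PrincipalDegree

set_option autoImplicit false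

namespace Fermat.Agent.S42x

open UpperHalfPlane ModularCurve AlgebraicCurve CongruenceSubgroup
open Fermat.Agent.S24x Fermat.Agent.S18x
open scoped MatrixGroups Manifold

noncomputable section

variable (M p : ℕ) [NeZero M]

/-- the output shape of B4 (R3 over `Q̄`, root form). -/
def rli32_RootHyp : Prop :=
  ∀ (f : FBar M) (h : Mer), f ≠ 0 →
    (∀ γ : Gamma0 M, ((γ : SL(2, ℤ))⁻¹ • h : Mer) = h) → h ^ p = evF M f →
      ∃ (u₀ : FBar M) (c : Qbar), f = algebraMap Qbar (FBar M) c * u₀ ^ p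

variable {M p}

theorem rli32_ord_pow {K F : Type*} [Field K] [Field F] [Algebra K F] (P : Place K F) (u : F)
    (n : ℕ) : P.ord (u ^ n) = (n : ℤ) * P.ord u := by
  rw [← zpow_natCast, P.ord_zpow]

/-- **(R3)** for the trivial multiplier. -/
theorem rli32_R3 (hp : 0 < p) (hroot : rli32_RootHyp M p) {x : JZero M}
    (hx : heq_Rel M p x 0) : x = 0 := by
  obtain ⟨f, Dt, h, hf, hDt, hdiv, hpow, hchar⟩ := hx
  have hinv : ∀ γ : Gamma0 M, ((γ : SL(2, ℤ))⁻¹ • h : Mer) = h := by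
    intro γ
    rw [hchar γ]
    simp
  obtain ⟨u₀, c, hfc⟩ := hroot f h hf hinv hpow
  have hc : algebraMap Qbar (FBar M) c ≠ 0 := by
    intro h0
    rw [h0, zero_mul] at hfc
    exact hf hfc
  have hu : u₀ ≠ 0 := by
    rintro rfl
    rw [zero_pow hp.ne', mul_zero] at hfc
    exact hf hfc
  rw [← hDt]
  refine (QuotientAddGroup.eq_zero_iff _).mpr ?_
  rw [AddSubgroup.mem_addSubgroupOf, Divisor.mem_principal]
  refine ⟨u₀, hu, fun P => ?_⟩
  have h1 := hdiv P
  rw [hfc, P.ord_mul hc (pow_ne_zero p hu), pd_ord_algebraMap, zero_add, rli32_ord_pow] at h1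
  have hp' : (p : ℤ) ≠ 0 := by exact_mod_cast hp.ne'
  exact mul_left_cancel₀ hp' h1

/-- **(R4')**: the zero class only carries the trivial multiplier. -/
theorem rli32_R4 (hp : 0 < p) {ψ : Additive (Gamma0 M) →+ Additive ℂˣ}
    (hx : heq_Rel M p (0 : JZero M) ψ) : ψ = 0 := by
  obtain ⟨f, Dt, h, hf, hDt, hdiv, hpow, hchar⟩ := hx
  have hp' : (p : ℤ) ≠ 0 := by exact_mod_cast hp.ne'
  -- `Dt` is principal
  have hprin := (QuotientAddGroup.eq_zero_iff _).mp hDt
  rw [AddSubgroup.mem_addSubgroupOf, Divisor.mem_principal] at hprin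
  obtain ⟨u, hu, hDu⟩ := hprin
  -- `f / u ^ p` is a constant
  have hup : u ^ p ≠ 0 := pow_ne_zero p hu
  have hg0 : f * (u ^ p)⁻¹ ≠ 0 := mul_ne_zero hf (inv_ne_zero hup)
  have hgord : ∀ Q : Place Qbar (FBar M), Q.ord (f * (u ^ p)⁻¹) = 0 := by
    intro Q
    rw [Q.ord_mul hf (inv_ne_zero hup), Q.ord_inv, rli32_ord_pow, ← hdiv Q, hDu Q]
    ring
  obtain ⟨a, ha⟩ := (rmn_hyp_FBar M).hconst _ hg0 (fun Q => (hgord Q).ge)
  have hfa : f = algebraMap Qbar (FBar M) a * u ^ p := by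
    rw [← ha, mul_assoc, inv_mul_cancel₀ hup, mul_one]
  -- a `p`-th root of `evF f` which is a constant multiple of `evF u`
  obtain ⟨b, hb⟩ := IsAlgClosed.exists_pow_nat_eq (iotaQ a) hp
  have hevf : evF M f = (algebraMap ℂ Mer b * evF M u) ^ p := by
    rw [hfa, map_mul, evF_algebraMap, ← hb, map_pow (algebraMap ℂ Mer), map_pow (evF M), mul_pow]
  have hevf0 : evF M f ≠ 0 := (map_ne_zero (evF M)).mpr hf
  have hh1 : algebraMap ℂ Mer b * evF M u ≠ 0 := by
    intro h0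
    rw [h0, zero_pow hp.ne'] at hevf
    exact hevf0 hevf
  have hh : h ≠ 0 := by
    rintro rfl
    rw [zero_pow hp.ne'] at hpow
    exact hevf0 hpow.symm
  have hquot : (h * (algebraMap ℂ Mer b * evF M u)⁻¹) ^ p = 1 := by
    rw [mul_pow, inv_pow, hpow, hevf, mul_inv_cancel₀ (pow_ne_zero p hh1)]
  obtain ⟨ζ, -, hζ⟩ := inj_eq_const_of_pow_eq_one hp hquot
  have hh' : h = algebraMap ℂ Mer ζ * (algebraMap ℂ Mer b * evF M u) := by
    rw [← hζ, mul_assoc, inv_mul_cancel₀ hh1, mul_one]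
  -- hence `h` is `Γ₀(M)`-invariant
  have hinv : ∀ γ : Gamma0 M, ((γ : SL(2, ℤ))⁻¹ • h : Mer) = h := by
    intro γ
    have hγ : ((γ : SL(2, ℤ))⁻¹) ∈ Gamma0 M := (Gamma0 M).inv_mem γ.2
    rw [hh', smul_mul', smul_mul', inj_smul_const, inj_smul_const,
      evF_smul_of_mem_Gamma0 M _ hγ]
  -- so the multiplier is trivial
  refine AddMonoidHom.ext fun γa => ?_
  obtain ⟨γ, rfl⟩ : ∃ γ : Gamma0 M, Additive.ofMul γ = γa := ⟨γa.toMul, rfl⟩
  have h2 := hchar γ
  rw [hinv γ] at h2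
  have h3 : algebraMap ℂ Mer (((ψ (Additive.ofMul γ)).toMul : ℂˣ) : ℂ) = algebraMap ℂ Mer 1 := by
    rw [map_one]
    have : (1 : Mer) * h = algebraMap ℂ Mer (((ψ (Additive.ofMul γ)).toMul : ℂˣ) : ℂ) * h := by
      rw [one_mul]; exact h2
    exact (mul_right_cancel₀ hh this).symm
  have h4 := inj_algebraMap_complex_injective h3
  have h5 : (ψ (Additive.ofMul γ)).toMul = 1 := Units.ext h4
  rw [AddMonoidHom.zero_apply]
  exact h5

section Shapes

variable {L : Type*} [AddCommGroup L]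

/-- `hR3` of `rlg_iotHyp`. -/
theorem rli32_hR3 (hp : 0 < p) (hroot : rli32_RootHyp M p)
    (psiOf : L →+ (Additive (Gamma0 M) →+ Additive ℂˣ)) :
    ∀ (x : JZero M) (χ : L), heq_Rel M p x (psiOf χ) → psiOf χ = 0 → x = 0 := by
  intro x χ hx h0
  rw [h0] at hx
  exact rli32_R3 hp hroot hx

/-- `hR4` of `rlg_iotHyp`. -/
theorem rli32_hR4 (hp : 0 < p) (psiOf : L →+ (Additive (Gamma0 M) →+ Additive ℂˣ)) :
    ∀ χ : L, heq_Rel M p (0 : JZero M) (psiOf χ) → psiOf χ = 0 :=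
  fun _ hx => rli32_R4 hp hx

end Shapes

end

end Fermat.Agent.S42x
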