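/-
S42 project, blocks B3 / B7 (N4 and N5-end), helper63, prefix `rto63_`.

GENERIC CUSP CONSUMER LEMMA.  `D : CuspData K F N` (S24x/CuspPlacesG: a realisation of a function
field `F/K` inside `Mer` with `Γ₀(N)`-invariance and cusp-regular fractions), `g : SL(2,ℤ)`,
`w > 0` with `g T^w g⁻¹ ∈ Γ₀(N)`, `f : F` nonzero, `h : Mer` a `p`-th root of the realisation of
`f` which is invariant under the parabolic element `g T^w g⁻¹`.  Then

* `rto63_dvd_ord_cusp_gen` : `p * e ∣ ord_P f * w`, where `P = D.vCuspG g` is the cusp place and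
  `e = -ord_P t` its ramification index over `K(t)`;
* `rto63_dvd_ord_cusp` : if moreover the ramification is exact, `e = w`, then `p ∣ ord_P f`.

No `q`-expansion of the root is needed, only the S24x growth calculus.
-/
import Mathlib
import Fermat.Agent.S24x.CuspPlacesG
import Fermat.Agent.S42x.InjCore

set_option autoImplicit false

namespace Fermat.Agent.S42x

open UpperHalfPlane AlgebraicCurve CongruenceSubgroup
open Fermat.Agent.S24x
open scoped MatrixGroups Manifold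

/-! ### growth calculus: powers -/

theorem rto63_hasCuspGrowth_pow {w : ℕ} {h : ℍ → ℂ} {m : ℤ} (hg : HasCuspGrowth w h m) (n : ℕ) :
    HasCuspGrowth w (h ^ n) (n * m) := by
  induction n with
  | zero =>
    have h1 : (h ^ 0 : ℍ → ℂ) = fun _ => (1 : ℂ) := by
      funext τ
      simp
    rw [h1]
    simpa using hasCuspGrowth_const w (one_ne_zero : (1 : ℂ) ≠ 0)
  | succ n ih =>
    have h1 := ih.mul hg
    rw [pow_succ]
    have h2 : ((n : ℤ) * m + m) = ((n + 1 : ℕ) : ℤ) * m := by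
      push_cast
      ring
    rwa [h2] at h1

/-- moderate growth of a `p`-th root -/
theorem rto63_modGrowth_of_pow {p : ℕ} (hp : 0 < p) {G H : ℍ → ℂ} (hH : ModGrowth H)
    (hpow : ∀ τ, G τ ^ p = H τ) : ModGrowth G := by
  obtain ⟨m, C, A, hb⟩ := hH
  refine ⟨m, 1 + |C|, max A 0, fun τ hτ => ?_⟩
  have hτA : A ≤ τ.im := le_trans (le_max_left _ _) hτ
  have hτ0 : 0 ≤ τ.im := le_trans (le_max_right _ _) hτ
  have h1 := hb τ hτA
  rw [← hpow τ, norm_pow] at h1
  set x : ℝ := ‖G τ‖ with hx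
  have hx0 : 0 ≤ x := norm_nonneg _
  set E : ℝ := Real.exp (2 * Real.pi * m * τ.im) with hE
  have hE1 : 1 ≤ E := by
    rw [hE]
    apply Real.one_le_exp
    have := Real.pi_pos
    positivity
  have hxp : x ≤ 1 + x ^ p := by
    rcases le_or_gt x 1 with h | h
    · have : 0 ≤ x ^ p := pow_nonneg hx0 p
      linarith
    · have : x ≤ x ^ p := by
        calc x = x ^ 1 := (pow_one x).symm
          _ ≤ x ^ p := pow_le_pow_right₀ h.le hp
      linarith
  have hC : C * E ≤ |C| * E := mul_le_mul_of_nonneg_right (le_abs_self C) (by linarith)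
  calc x ≤ 1 + x ^ p := hxp
    _ ≤ 1 + C * E := by linarith
    _ ≤ E + |C| * E := by linarith
    _ = (1 + |C|) * E := by ring

section Main

variable {K F : Type*} [Field K] [Field F] [Algebra K F] {N : ℕ} [NeZero N] (D : CuspData K F N)

/-- the holomorphic function `G` with `G = h * b` for `f = a / b`, and its properties -/
theorem rto63_exists_hol {p : ℕ} (hp : 0 < p) {a b : D.ρ.cuspReg} (hb : b ≠ 0) {h : Mer}
    (hroot : h ^ p = D.ρ.φ ((a : F) / (b : F))) :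
    ∃ G : Hol, h * algebraMap Hol Mer (D.ρ.rep b) = algebraMap Hol Mer G ∧
      G ^ p = D.ρ.rep a * D.ρ.rep b ^ (p - 1) := by
  have hbF : (b : F) ≠ 0 := by
    intro h0
    exact hb (Subtype.ext h0)
  have hφb : D.ρ.φ (b : F) ≠ 0 := D.ρ.φ_ne_zero hbF
  have hx : (h * algebraMap Hol Mer (D.ρ.rep b)) ^ p =
      algebraMap Hol Mer (D.ρ.rep a * D.ρ.rep b ^ (p - 1)) := by
    rw [mul_pow, hroot, map_div₀, map_mul, map_pow, ← D.ρ.rep_spec a, ← D.ρ.rep_spec b]
    obtain ⟨q, rfl⟩ : ∃ q, p = q + 1 := ⟨p - 1, by omega⟩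
    rw [Nat.add_sub_cancel, pow_succ]
    field_simp
  obtain ⟨G, hG⟩ := inj_hol_of_pow_hol hp hx
  refine ⟨G, hG, ?_⟩
  apply IsFractionRing.injective Hol Mer
  rw [map_pow, ← hG, hx]

theorem rto63_dvd_ord_cusp_gen (g : SL(2, ℤ)) {w : ℕ} (hw0 : 0 < w)
    (hw : g * ModularGroup.T ^ w * g⁻¹ ∈ Gamma0 N) {p : ℕ} (hp : 0 < p) {f : F} (hf : f ≠ 0)
    {h : Mer} (hroot : h ^ p = D.ρ.φ f)
    (hinv : (g * ModularGroup.T ^ w * g⁻¹) • h = h) :
    ((p : ℤ) * -((D.vCuspG g).ord D.t)) ∣ (D.vCuspG g).ord f * w := by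
  have hN : 0 < N := Nat.pos_of_ne_zero (NeZero.ne N)
  obtain ⟨a, b, hb, rfl⟩ := D.frac f
  have ha : a ≠ 0 := by
    rintro rfl
    apply hf
    simp
  obtain ⟨G, hG, hGp⟩ := rto63_exists_hol D hp hb hroot
  set γ₀ : SL(2, ℤ) := g * ModularGroup.T ^ w * g⁻¹ with hγ₀
  -- `G` is invariant under `γ₀`
  have hGinv : γ₀ • G = G := by
    apply IsFractionRing.injective Hol Mer
    rw [← smul_algebraMap_Mer, ← hG, smul_mul', hinv, ← D.ρ.rep_spec b, D.inv γ₀ hw]
  have hGpt : ∀ τ : ℍ, (G : ℍ → ℂ) (γ₀ • τ) = (G : ℍ → ℂ) τ := by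
    intro τ
    have h1 := congrArg (fun k : Hol => (k : ℍ → ℂ) (γ₀ • τ)) hGinv
    simp only [smul_Hol_apply, inv_smul_smul] at h1
    exact h1.symm
  -- `G ≠ 0`
  have hA0 : D.ρ.rep a ≠ 0 := D.ρ.rep_ne_zero ha
  have hB0 : D.ρ.rep b ≠ 0 := D.ρ.rep_ne_zero hb
  have hG0 : G ≠ 0 := by
    intro h0
    rw [h0, zero_pow hp.ne'] at hGp
    exact mul_ne_zero hA0 (pow_ne_zero _ hB0) hGp.symm
  -- `G ∘ g` is `IsCuspMer w`
  have hper : ∀ τ : ℍ, (holComp G g : ℍ → ℂ) (ModularGroup.T ^ w • τ) =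
      (holComp G g : ℍ → ℂ) τ := by
    intro τ
    rw [holComp_apply, holComp_apply]
    have : g • ModularGroup.T ^ w • τ = γ₀ • g • τ := by
      rw [hγ₀, smul_smul, smul_smul]
      congr 1
      group
    rw [this, hGpt]
  have hpowfun : ∀ τ : ℍ, (holComp G g : ℍ → ℂ) τ ^ p =
      ((holComp (D.ρ.rep a) g : ℍ → ℂ) * (holComp (D.ρ.rep b) g : ℍ → ℂ) ^ (p - 1)) τ := by
    intro τ
    have h1 := congrArg (fun k : Hol => (k : ℍ → ℂ) (g • τ)) hGp
    simp only [holComp_apply, Pi.mul_apply, Pi.pow_apply]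
    simpa using h1
  have hmodH : ModGrowth ((holComp (D.ρ.rep a) g : ℍ → ℂ) *
      (holComp (D.ρ.rep b) g : ℍ → ℂ) ^ (p - 1)) := by
    apply (D.ρ.rep_growth a g).mul
    have hbg := D.ρ.rep_growth b g
    generalize (p - 1) = n
    induction n with
    | zero =>
      have : ((holComp (D.ρ.rep b) g : ℍ → ℂ) ^ 0) = fun _ => (1 : ℂ) := by
        funext τ
        simp
      rw [this]
      exact modGrowth_const 1
    | succ n ih =>
      rw [pow_succ]
      exact ih.mul hbg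
  have hcm : IsCuspMer w (holComp G g : ℍ → ℂ) :=
    ⟨(holComp G g).2, hper, rto63_modGrowth_of_pow hp hmodH hpowfun⟩
  have hGg0 : (holComp G g : ℍ → ℂ) ≠ 0 := by
    intro h0
    apply holComp_ne_zero hG0 g
    exact Subtype.ext h0
  obtain ⟨m, hm⟩ := hcm.exists_hasCuspGrowth hw0 hGg0
  -- compare growth orders in the common parameter `q_{wN}`
  have h1 : HasCuspGrowth (w * N) ((holComp G g : ℍ → ℂ) ^ p) ((p : ℤ) * m * N) := by
    have := (rto63_hasCuspGrowth_pow hm p).mul_period hN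
    exact this
  have h2 : HasCuspGrowth (w * N) ((holComp G g : ℍ → ℂ) ^ p)
      ((D.cuspO g a + ((p - 1 : ℕ) : ℤ) * D.cuspO g b) * w) := by
    have hfun : ((holComp G g : ℍ → ℂ) ^ p) = (holComp (D.ρ.rep a) g : ℍ → ℂ) *
        (holComp (D.ρ.rep b) g : ℍ → ℂ) ^ (p - 1) := by
      funext τ
      rw [Pi.pow_apply]
      exact hpowfun τ
    rw [hfun]
    have := ((D.hasCuspGrowth_rep g ha).mul
      (rto63_hasCuspGrowth_pow (D.hasCuspGrowth_rep g hb) (p - 1))).mul_period hw0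
    rwa [Nat.mul_comm N w] at this
  have hkey : (p : ℤ) * m * N = (D.cuspO g a + ((p - 1 : ℕ) : ℤ) * D.cuspO g b) * w :=
    hasCuspGrowth_unique (Nat.mul_pos hw0 hN) h1 h2
  obtain ⟨kb, hkb⟩ := D.dvd_cuspO_mul g hw0 hw hb
  -- the order function versus the normalised order
  obtain ⟨g₀, hg₀, -, hall⟩ := (D.subOrderFn g).toOrderFn.exists_o_eq_mul_ord
  have hof := hall _ hf
  rw [(D.subOrderFn g).toOrderFn_o_div ha hb] at hof
  change D.cuspO g a - D.cuspO g b = g₀ * (D.vCuspG g).ord ((a : F) / (b : F)) at hof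
  have ht := hall D.t D.t_ne_zero
  rw [D.toOrderFn_o_t] at ht
  change -(N : ℤ) = g₀ * (D.vCuspG g).ord D.t at ht
  set e : ℤ := -((D.vCuspG g).ord D.t) with he
  set v : ℤ := (D.vCuspG g).ord ((a : F) / (b : F)) with hv
  have hNe : (N : ℤ) = g₀ * e := by rw [he]; linarith
  have hp1 : (((p - 1 : ℕ) : ℤ)) = (p : ℤ) - 1 := by
    have : 1 ≤ p := hp
    push_cast [Nat.cast_sub this]
    ring
  rw [hp1] at hkey
  -- `g₀ * v * w = p * g₀ * e * (m - kb)`
  have hfin : g₀ * (v * w) = g₀ * ((p : ℤ) * e * (m - kb)) := by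
    have e1 : g₀ * v * w = (D.cuspO g a - D.cuspO g b) * w := by rw [hof]
    have e2 : (D.cuspO g a - D.cuspO g b) * w =
        (D.cuspO g a + ((p : ℤ) - 1) * D.cuspO g b) * w - (p : ℤ) * (D.cuspO g b * w) := by ring
    have e3 : g₀ * (v * w) = (p : ℤ) * m * N - (p : ℤ) * ((N : ℤ) * kb) := by
      rw [← mul_assoc, e1, e2, ← hkey, hkb]
    rw [e3, hNe]
    ring
  have hvw : v * w = (p : ℤ) * e * (m - kb) := mul_left_cancel₀ hg₀.ne' hfin
  exact ⟨m - kb, hvw⟩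

theorem rto63_dvd_ord_cusp (g : SL(2, ℤ)) {w : ℕ} (hw0 : 0 < w)
    (hw : g * ModularGroup.T ^ w * g⁻¹ ∈ Gamma0 N)
    (hexact : -((D.vCuspG g).ord D.t) = (w : ℤ)) {p : ℕ} (hp : 0 < p) {f : F} (hf : f ≠ 0)
    {h : Mer} (hroot : h ^ p = D.ρ.φ f)
    (hinv : (g * ModularGroup.T ^ w * g⁻¹) • h = h) :
    (p : ℤ) ∣ (D.vCuspG g).ord f := by
  obtain ⟨k, hk⟩ := rto63_dvd_ord_cusp_gen D g hw0 hw hp hf hroot hinv
  rw [hexact] at hk
  have hw' : (w : ℤ) ≠ 0 := by exact_mod_cast hw0.ne'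
  refine ⟨k, ?_⟩
  apply mul_right_cancel₀ hw'
  rw [hk]
  ring

end Main

/-- from the character form `γ⁻¹ • h = c * h` with `c = 1` to invariance under `γ` -/
theorem rto63_inv_of_char {γ : SL(2, ℤ)} {h : Mer} {c : ℂ} (hc : c = 1)
    (hchar : (γ⁻¹ • h : Mer) = algebraMap ℂ Mer c * h) : γ • h = h := by
  rw [hc, map_one, one_mul] at hchar
  calc γ • h = γ • (γ⁻¹ • h) := by rw [hchar]
    _ = h := smul_inv_smul γ h

end Fermat.Agent.S42x
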