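/-
S42x/S29Aux (helper96, S42 project, block B13 = S29 TOP, prefix `s29t_`): small independent lemmas
for packaging the frozen S29 statement from the common `top_core` of S42/S29.
Mathlib + Prelude only.

* `s29t_ker_isMaximal`, `s29t_p_mem_ker` : `ker φ` is a maximal ideal of `ℤ̄` over `p`;
* `s29t_lift`, `s29t_lift_mk`, `s29t_lift_injective` : `ℤ̄ ⧸ ker φ →+* k`;
* `s29t_level_zero` : the frozen S29 statement for `N = 0` (vacuous clauses, trivial representation);
* `s29t_charpoly_of_trace_det` : in dimension `2`, `charpoly = X² - tr X + det`;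
* `s29t_baseChangeAlong_*` : charpoly / unramifiedness pass to `ResidualGaloisRep.baseChangeAlong`;
* `s29t_of_core` : the frozen S29 conclusion from a representation over `ℤ̄ ⧸ ker φ` with the right
  traces, determinants and inertia.
-/
import Mathlib
import Fermat.Prelude.Def_GaloisRep_Residual

set_option autoImplicit false
set_option linter.style.haveILetI false

namespace Fermat.Agent.S42x

open Polynomial

noncomputable section

/-! ### the maximal ideal `ker φ` -/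

section Ker

variable {k : Type} [Field k] (p : ℕ) [CharP k p] (φ : integralClosure ℤ ℂ →+* k)

include p in
theorem s29t_p_mem_ker : (p : integralClosure ℤ ℂ) ∈ RingHom.ker φ := by
  rw [RingHom.mem_ker, map_natCast]
  exact CharP.cast_eq_zero k p

theorem s29t_ker_isPrime : (RingHom.ker φ).IsPrime := RingHom.ker_isPrime φ

theorem s29t_ker_isMaximal (hp : p.Prime) : (RingHom.ker φ).IsMaximal := by
  haveI : (RingHom.ker φ).IsPrime := RingHom.ker_isPrime φ
  apply Ideal.isMaximal_of_isIntegral_of_isMaximal_comap (R := ℤ) (RingHom.ker φ)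
  -- the contraction to `ℤ` is `(p)`
  have hcomap : (RingHom.ker φ).comap (algebraMap ℤ (integralClosure ℤ ℂ)) =
      Ideal.span {(p : ℤ)} := by
    ext n
    rw [Ideal.mem_comap, RingHom.mem_ker, Ideal.mem_span_singleton]
    have : φ (algebraMap ℤ (integralClosure ℤ ℂ) n) = (n : k) := by
      rw [eq_intCast, map_intCast]
    rw [this]
    exact CharP.intCast_eq_zero_iff k p n
  rw [hcomap]
  have hpp : Prime (p : ℤ) := Nat.prime_iff_prime_int.mp hp
  exact PrincipalIdealRing.isMaximal_of_irreducible hpp.irreducible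

/-- the induced embedding `ℤ̄ ⧸ ker φ →+* k`. -/
def s29t_lift : (integralClosure ℤ ℂ ⧸ RingHom.ker φ) →+* k := RingHom.kerLift φ

@[simp] theorem s29t_lift_mk (a : integralClosure ℤ ℂ) :
    s29t_lift φ (Ideal.Quotient.mk (RingHom.ker φ) a) = φ a := RingHom.kerLift_mk φ a

theorem s29t_lift_injective : Function.Injective (s29t_lift φ) := RingHom.kerLift_injective φ

end Ker

/-! ### dimension two -/

theorem s29t_charpoly_of_trace_det {K V : Type*} [Field K] [AddCommGroup V] [Module K V]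
    [Module.Finite K V] (h2 : Module.finrank K V = 2) (f : Module.End K V) :
    LinearMap.charpoly f = X ^ 2 - C (LinearMap.trace K V f) * X + C (LinearMap.det f) := by
  let b : Module.Basis (Fin 2) K V := Module.finBasisOfFinrankEq K V h2
  rw [← LinearMap.charpoly_toMatrix f b, Matrix.charpoly_fin_two,
    LinearMap.trace_eq_matrix_trace K b f, LinearMap.det_toMatrix b f]

/-! ### base change along a field homomorphism -/

section BaseChange

variable {k₁ k₂ : Type} [Field k₁] [Field k₂] (ψ : k₁ →+* k₂) (ρ : ResidualGaloisRep k₁)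

theorem s29t_baseChangeAlong_charpoly (σ : AlgebraicClosure ℚ ≃ₐ[ℚ] AlgebraicClosure ℚ) :
    LinearMap.charpoly ((ρ.baseChangeAlong ψ).ρ σ) = (LinearMap.charpoly (ρ.ρ σ)).map ψ := by
  letI : Algebra k₁ k₂ := ψ.toAlgebra
  exact LinearMap.charpoly_baseChange (A := k₂) (ρ.ρ σ)

theorem s29t_baseChangeAlong_eq_one {σ : AlgebraicClosure ℚ ≃ₐ[ℚ] AlgebraicClosure ℚ}
    (h : ρ.ρ σ = 1) : (ρ.baseChangeAlong ψ).ρ σ = 1 := by
  letI : Algebra k₁ k₂ := ψ.toAlgebra
  show (ρ.ρ σ).baseChange k₂ = 1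
  rw [h, LinearMap.baseChange_one]

theorem s29t_baseChangeAlong_isUnramifiedAt {q : ℕ} (h : ρ.IsUnramifiedAt q) :
    (ρ.baseChangeAlong ψ).IsUnramifiedAt q :=
  fun A hA σ hσ => s29t_baseChangeAlong_eq_one ψ ρ (h A hA σ hσ)

end BaseChange

/-! ### the characteristic -/

theorem s29t_natCast_ne_zero_iff {k : Type} [Field k] {p : ℕ} [CharP k p] (hp : p.Prime) {ℓ : ℕ}
    (hℓ : ℓ.Prime) : (ℓ : k) ≠ 0 ↔ ℓ ≠ p := by
  rw [Ne, CharP.cast_eq_zero_iff k p ℓ, Nat.prime_dvd_prime_iff_eq hp hℓ]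
  exact ⟨fun h e => h e.symm, fun h e => h e.symm⟩

/-! ### level zero -/

/-- the trivial two-dimensional representation. -/
def s29t_trivRep (k : Type) [Field k] : ResidualGaloisRep k where
  V := Fin 2 → k
  finrank_eq := by simp
  ρ := 1
  factorsThroughFiniteLevel := ⟨⊥, inferInstance, fun _ _ => rfl⟩

/-- the frozen S29 statement at level `N = 0` (all clauses are vacuous). -/
theorem s29t_level_zero {g : CuspForm (CongruenceSubgroup.Gamma0 0) 2} {p : ℕ}
    {k : Type} [Field k] (φ : integralClosure ℤ ℂ →+* k) :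
    ∃ ρ : ResidualGaloisRep k, ρ.IsAttachedTo g φ ∧
      ∀ ℓ : ℕ, ℓ.Prime → ¬ ℓ ∣ 0 * p → ρ.IsUnramifiedAt ℓ := by
  refine ⟨s29t_trivRep k, ?_, ?_⟩
  · intro ℓ _ hℓ0
    exact absurd (dvd_zero ℓ) hℓ0
  · intro ℓ _ hℓ0
    rw [zero_mul] at hℓ0
    exact absurd (dvd_zero ℓ) hℓ0

/-! ### packaging -/

/-- **S29 from a representation over a subfield**: a two-dimensional representation over `K₀`
(`π : ℤ̄ → K₀`, `ψ : K₀ → k`, `ψ ∘ π = φ`) with the right traces / determinants at Frobenius lifts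
and trivial inertia outside `N p` gives the frozen S29 conclusion over `k`. -/
theorem s29t_of_rep {N : ℕ} {g : CuspForm (CongruenceSubgroup.Gamma0 N) 2} {p : ℕ}
    {k : Type} [Field k] (φ : integralClosure ℤ ℂ →+* k)
    {K₀ : Type} [Field K₀] (π : integralClosure ℤ ℂ →+* K₀) (ψ : K₀ →+* k)
    (hψ : ∀ a, ψ (π a) = φ a) (ρ₀ : ResidualGaloisRep K₀)
    (hin : ∀ ℓ : ℕ, ℓ.Prime → ¬ ℓ ∣ N * p → ρ₀.IsUnramifiedAt ℓ)
    (htd : ∀ ℓ : ℕ, ℓ.Prime → ¬ ℓ ∣ N → (ℓ : k) ≠ 0 →
      ∀ A : ValuationSubring (AlgebraicClosure ℚ), A.LiesOverPrime ℓ →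
        ∀ σ : AlgebraicClosure ℚ ≃ₐ[ℚ] AlgebraicClosure ℚ, A.IsFrobeniusAt σ ℓ →
          ∃ a : integralClosure ℤ ℂ, (a : ℂ) = ModularFormClass.qCoeff g ℓ ∧
            LinearMap.trace K₀ ρ₀.V (ρ₀.ρ σ) = π a ∧ LinearMap.det (ρ₀.ρ σ) = (ℓ : K₀)) :
    ∃ ρ : ResidualGaloisRep k, ρ.IsAttachedTo g φ ∧
      ∀ ℓ : ℕ, ℓ.Prime → ¬ ℓ ∣ N * p → ρ.IsUnramifiedAt ℓ := by
  refine ⟨ρ₀.baseChangeAlong ψ, ?_, fun ℓ hℓ hℓNp =>
    s29t_baseChangeAlong_isUnramifiedAt ψ ρ₀ (hin ℓ hℓ hℓNp)⟩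
  intro ℓ hℓ hℓN hℓk A hA σ hσ
  obtain ⟨a, ha, htr, hdet⟩ := htd ℓ hℓ hℓN hℓk A hA σ hσ
  refine ⟨a, ha, ?_⟩
  rw [s29t_baseChangeAlong_charpoly, s29t_charpoly_of_trace_det ρ₀.finrank_eq, htr, hdet]
  simp only [Polynomial.map_add, Polynomial.map_sub, Polynomial.map_mul, Polynomial.map_pow,
    Polynomial.map_X, Polynomial.map_C, hψ, map_natCast, Polynomial.map_natCast]

end

end Fermat.Agent.S42x
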