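/-
S42x/S29Eigen (helper25; blocks B12/B13 glue; prefix `s29e_`).

BOTH tops (S42 and S29) from ONE hypothesis, the existence of a Hecke eigenvector in `K ⊗[ZMod p] J₀(M)[p]`:

* `s29e_Eigen` : for every level `M ≠ 0`, prime `p`, normalised eigenform `g`, algebraically closed `K` over `ZMod p`,
  `ψ : ℤ̄ →+* K`: a nonzero `w : K ⊗[ZMod p] fint_Jp M p` with `T_ℓ w = ψ(a_ℓ) w` for all primes `ℓ ∤ M`, `ℓ ≠ p`;
* `s29e_input_of_eigen : s29e_Eigen → s29c_Input` (FinTensor: open stabilisers, Eichler–Shimura on the orbit, inertia);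
* `s29e_core_of_eigen  : s29e_Eigen → s29p_Core` (so S29 = `s29p_result_of_core (s29e_core_of_eigen h) hg hp φ`);
* `s29e_s42_of_eigen   : s29e_Eigen → ∀ P M, 0 < M → P.EigenformResidualAttachmentAt M` (S42, via `fin_attach_closed`
  with `K := ℤ̄ ⧸ 𝔪`).
-/
import Mathlib
import Fermat.Agent.S42x.S29Core
import Fermat.Agent.S42x.FinTensor
import Fermat.Agent.S42x.ZbarQuot

set_option autoImplicit false
set_option linter.style.haveILetI false

namespace Fermat.Agent.S42x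

open ValuationSubring TensorProduct FreyPackage

/-- the single remaining input of S42 and S29: a Hecke eigenvector in `K ⊗ J₀(M)[p]` with the eigenvalues of `g`. -/
def s29e_Eigen : Prop :=
  ∀ (M : ℕ) [NeZero M] (p : ℕ) [Fact p.Prime]
    (g : CuspForm (CongruenceSubgroup.Gamma0 M) 2), g.IsNormalizedEigenform →
    ∀ (K : Type) [Field K] [IsAlgClosed K] [Algebra (ZMod p) K] (ψ : integralClosure ℤ ℂ →+* K),
    ∃ w : K ⊗[ZMod p] fint_Jp M p, w ≠ 0 ∧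
      ∀ (ℓ : ℕ) (hℓ : ℓ.Prime), ¬ ℓ ∣ M → ℓ ≠ p →
        ∃ a : integralClosure ℤ ℂ, (a : ℂ) = ModularFormClass.qCoeff g ℓ ∧
          fint_T M p K ⟨ℓ, hℓ⟩ w = ψ a • w

theorem s29e_input_of_eigen (h : s29e_Eigen) : s29c_Input := by
  intro M _ p _ g hg K _ _ _ ψ
  obtain ⟨w, hw, hev⟩ := h M p g hg K ψ
  refine ⟨K ⊗[ZMod p] fint_Jp M p, inferInstance, inferInstance, fint_rho M p K, w, hw,
    fint_hopen M p K w, fint_hfrob M p K g ψ w hev, ?_⟩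
  intro ℓ hℓ hℓMp A hA σ hσ τ
  have hℓM : ¬ ℓ ∣ M := fun h => hℓMp (Dvd.dvd.mul_right h _)
  have hℓp : ℓ ≠ p := fun h => hℓMp (h ▸ Dvd.intro_left M rfl)
  rw [fint_inertia M p K ℓ hℓ hℓM hℓp A hA σ hσ]
  rfl

theorem s29e_core_of_eigen (h : s29e_Eigen) : s29p_Core :=
  s29c_core_of_input (s29e_input_of_eigen h)

/-- **S42 from the eigenvector input.** -/
theorem s29e_s42_of_eigen (h : s29e_Eigen) (P : FreyPackage) :
    ∀ M : ℕ, 0 < M → P.EigenformResidualAttachmentAt M := by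
  intro M hM
  rw [fin_attachmentAt_iff]
  intro g hg 𝔪 h𝔪 hp𝔪
  haveI : NeZero M := ⟨hM.ne'⟩
  haveI : Fact P.p.Prime := ⟨P.pp⟩
  letI : Field (integralClosure ℤ ℂ ⧸ 𝔪) := Ideal.Quotient.field 𝔪
  haveI : IsAlgClosed (integralClosure ℤ ℂ ⧸ 𝔪) := zbq_isAlgClosed 𝔪
  letI : Algebra (ZMod P.p) (integralClosure ℤ ℂ ⧸ 𝔪) := zbq_algebraZMod 𝔪 P.p hp𝔪
  obtain ⟨w, hw, hev⟩ := h M P.p g hg (integralClosure ℤ ℂ ⧸ 𝔪) (Ideal.Quotient.mk 𝔪)
  refine fin_attach_closed P M hM g 𝔪 (Ideal.Quotient.mk 𝔪) ?_ (fint_rho M P.p _) w hw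
    (fint_hopen M P.p _ w) (fint_hfrob M P.p _ g (Ideal.Quotient.mk 𝔪) w hev)
  intro x hx
  rw [RingHom.mem_ker]
  exact Ideal.Quotient.eq_zero_iff_mem.mpr hx

end Fermat.Agent.S42x
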