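/-
S42 project, block B12 (helper45, prefix `tin45_`): the UPPER HALF in the `s29c_Input` form requested by helper25
(serves BOTH S42 and S29).

From the waist (helper80's `top80_IotaPkg M p`, here as explicit hypotheses, with the WEAKER equivariance
hypothesis `ℓ ∤ M`, `ℓ ≠ p`): `ι : lrL M →+ JZero M`, `p • ι v = 0`, `ι v = 0 → v ∈ p • lrL M`,
`ι (lrtT M ℓ v) = heckeOperatorBar M ℓ (ι v)`:

* `tin45_cores`          : corestriction of `ι` to `J[p] = fint_Jp M p`;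
* `tin45_hinert`         : inertia at `ℓ ∤ M p` is trivial on the orbit of any tensor (`fint_inertia`);
* `tin45_input_of_iota`  : for ANY prime `p`, ANY field `K` over `ZMod p`, ANY `ψ : ℤ̄ →+* K`, a normalised eigenform `g`:
  `∃ v ≠ 0` in `K ⊗[ZMod p] J[p]` with `hopen`, `hfrob`, `hinert` for `ρ := fint_rho M p K`
  (VERBATIM the hypotheses of `fin_core_closed` / `fin_attach_closed` / `s29c_clauses`);
* `tin45_input`          : the waist for all `(M, p)` ⇒ `s29c_Input`.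
-/
import Mathlib
import Fermat.Agent.S42x.FinTensor
import Fermat.Agent.S42x.BettiEigenTop52
import Fermat.Agent.S42x.S29Core

set_option autoImplicit false
set_option synthInstance.maxHeartbeats 400000

namespace Fermat.Agent.S42x

open ModularCurve AlgebraicCurve ValuationSubring TensorProduct
open Fermat.Agent.S41x

local notation "Q̄" => AlgebraicClosure ℚ

noncomputable section

/-- corestriction of a `p`-torsion valued map to `J[p] = fint_Jp M p` -/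
def tin45_cores (M p : ℕ) [NeZero M] (ι : lrL M →+ JZero M) (htors : ∀ v : lrL M, p • ι v = 0) :
    lrL M →+ fint_Jp M p where
  toFun v := ⟨ι v, by rw [Pic0.mem_torsion, natCast_zsmul]; exact htors v⟩
  map_zero' := Subtype.ext (map_zero ι)
  map_add' x y := Subtype.ext (map_add ι x y)

@[simp] theorem tin45_coe_cores (M p : ℕ) [NeZero M] (ι : lrL M →+ JZero M)
    (htors : ∀ v : lrL M, p • ι v = 0) (v : lrL M) :
    ((tin45_cores M p ι htors v : fint_Jp M p) : JZero M) = ι v := rfl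


/-- inertia at `ℓ ∤ M p` acts trivially on the orbit of any tensor (the `hinert` clause of `s29c_Input`) -/
theorem tin45_hinert (M : ℕ) [NeZero M] (p : ℕ) [Fact p.Prime] (K : Type*) [Field K]
    [Algebra (ZMod p) K] (v : K ⊗[ZMod p] fint_Jp M p) :
    ∀ ℓ : ℕ, ℓ.Prime → ¬ ℓ ∣ M * p →
      ∀ A : ValuationSubring (AlgebraicClosure ℚ), A.LiesOverPrime ℓ →
        ∀ σ ∈ A.inertiaSubgroupIn ℚ, ∀ τ,
          fint_rho M p K σ (fint_rho M p K τ v) = fint_rho M p K τ v := by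
  intro ℓ hℓ hℓMp A hA σ hσ τ
  have hℓM : ¬ ℓ ∣ M := fun h => hℓMp (Dvd.dvd.mul_right h _)
  have hℓp : ℓ ≠ p := fun h => hℓMp (h ▸ Dvd.intro_left M rfl)
  have h1 : fint_rho M p K σ = 1 := fint_inertia M p K ℓ hℓ hℓM hℓp A hA σ hσ
  rw [h1]
  rfl

/-- **B12 input from the waist** (one `(M, p, g, K, ψ)`): from `ι : lrL M →+ JZero M` with `p`-torsion values,
kernel in `p • lrL M` and Hecke-equivariance at the primes `ℓ ∤ M` (with or without `ℓ ≠ p`), the data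
`(V, ρ, v, hv, hopen, hfrob, hinert)` consumed by `fin_core_closed` / `fin_attach_closed` / `s29c_clauses`,
with `V := K ⊗[ZMod p] J[p]`, `ρ := fint_rho M p K`.  ANY prime `p`, ANY field `K` over `ZMod p`, ANY `ψ`. -/
theorem tin45_input_of_iota (M : ℕ) [NeZero M] (p : ℕ) [Fact p.Prime]
    (ι : lrL M →+ JZero M) (htors : ∀ v : lrL M, p • ι v = 0)
    (hker : ∀ v : lrL M, ι v = 0 → ∃ w : lrL M, v = (p : ℤ) • w)
    (hequiv : ∀ ℓ : Nat.Primes, ¬ (ℓ : ℕ) ∣ M → (ℓ : ℕ) ≠ p → ∀ v : lrL M,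
      ι (lrtT M ℓ v) = heckeOperatorBar M ℓ (ι v))
    (g : CuspForm (CongruenceSubgroup.Gamma0 M) 2) (hg : g.IsNormalizedEigenform)
    (K : Type) [Field K] [Algebra (ZMod p) K] (ψ : integralClosure ℤ ℂ →+* K) :
    ∃ v : K ⊗[ZMod p] fint_Jp M p, v ≠ 0 ∧
      (∃ E : IntermediateField ℚ (AlgebraicClosure ℚ), FiniteDimensional ℚ E ∧
        ∀ σ : AlgebraicClosure ℚ ≃ₐ[ℚ] AlgebraicClosure ℚ, (∀ a ∈ E, σ a = a) →
          fint_rho M p K σ v = v) ∧
      (∀ ℓ : ℕ, ℓ.Prime → ¬ ℓ ∣ M → ℓ ≠ p →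
        ∀ A : ValuationSubring (AlgebraicClosure ℚ), A.LiesOverPrime ℓ →
          ∀ τ : AlgebraicClosure ℚ ≃ₐ[ℚ] AlgebraicClosure ℚ, A.IsFrobeniusAt τ ℓ →
            ∃ a : integralClosure ℤ ℂ, (a : ℂ) = ModularFormClass.qCoeff g ℓ ∧
              ∀ σ, fint_rho M p K τ (fint_rho M p K τ (fint_rho M p K σ v))
                - ψ a • fint_rho M p K τ (fint_rho M p K σ v) + (ℓ : K) • fint_rho M p K σ v = 0) ∧
      (∀ ℓ : ℕ, ℓ.Prime → ¬ ℓ ∣ M * p →
        ∀ A : ValuationSubring (AlgebraicClosure ℚ), A.LiesOverPrime ℓ →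
          ∀ σ ∈ A.inertiaSubgroupIn ℚ, ∀ τ,
            fint_rho M p K σ (fint_rho M p K τ v) = fint_rho M p K τ v) := by
  obtain ⟨w, hw0, hw⟩ := bet52_top (p := p) g hg ψ (fint_Tp M p) (tin45_cores M p ι htors)
    (fun v hv => hker v (congrArg Subtype.val hv))
    (fun ℓ => ¬ (ℓ : ℕ) ∣ M ∧ (ℓ : ℕ) ≠ p)
    (fun ℓ hℓ v => Subtype.ext (hequiv ℓ hℓ.1 hℓ.2 v))
  obtain ⟨b, hb⟩ : ∃ b : Nat.Primes → integralClosure ℤ ℂ,
      ∀ ℓ : Nat.Primes, ((b ℓ : integralClosure ℤ ℂ) : ℂ) = ModularFormClass.qCoeff g (ℓ : ℕ) :=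
    ⟨fun ℓ => (bet52_qCoeff_integral g hg ℓ ℓ.2).choose,
      fun ℓ => (bet52_qCoeff_integral g hg ℓ ℓ.2).choose_spec⟩
  exact ⟨w, hw0, fint_hopen M p K w,
    fint_hfrob' M p K g ψ w b (fun ℓ _ _ => hb ℓ) (fun ℓ h1 h2 => hw ℓ ⟨h1, h2⟩ (b ℓ) (hb ℓ)),
    tin45_hinert M p K w⟩

/-- the waist as an explicit hypothesis for all `(M, p)` ⇒ `s29c_Input` (helper25), i.e. BOTH S42 and S29. -/
theorem tin45_input
    (h : ∀ (M : ℕ) [NeZero M] (p : ℕ) [Fact p.Prime],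
      ∃ ι : lrL M →+ JZero M, (∀ v : lrL M, p • ι v = 0) ∧
        (∀ v : lrL M, ι v = 0 → ∃ w : lrL M, v = (p : ℤ) • w) ∧
        ∀ ℓ : Nat.Primes, ¬ (ℓ : ℕ) ∣ M → (ℓ : ℕ) ≠ p → ∀ v : lrL M,
          ι (lrtT M ℓ v) = heckeOperatorBar M ℓ (ι v)) :
    s29c_Input := by
  intro M _ p _ g hg K _ _ _ ψ
  obtain ⟨ι, htors, hker, hequiv⟩ := h M p
  obtain ⟨v, hv, hopen, hfrob, hinert⟩ := tin45_input_of_iota M p ι htors hker hequiv g hg K ψ
  exact ⟨K ⊗[ZMod p] fint_Jp M p, inferInstance, inferInstance, fint_rho M p K, v, hv, hopen, hfrob,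
    hinert⟩

end

end Fermat.Agent.S42x
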