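/-
S42x/S29Top (helper25; block B13 = S29 TOP; prefix `s29top_`).

END-TO-END assembly of the common core `s29p_Core` for EVERY prime `p` (hence the frozen S29 through
`s29p_result_of_core`):

* lower half for an arbitrary modulus: `tlap90_iotaPkg_prime` (helper90, S42x/TopLowAllP90):
  `ι : H¹_par(Γ₀(M), ℤ) → J₀(M)[p]`, kernel `p • L`, Hecke equivariant;
* upper half: `tin45_input` (helper45, S42x/TopInput45): the waist for all `(M, p)` ⇒ `s29c_Input`;
* `s29c_core_of_input` (S42x/S29Core): `s29c_Input → s29p_Core` (two-dimensional quotient, finite level, inertia,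
  trace/determinant: helper61's `fin_core_closed` + the cyclotomic character on inertia).
-/
import Mathlib
import Fermat.Agent.S42x.S29Core
import Fermat.Agent.S42x.TopInput45
import Fermat.Agent.S42x.TopLowAllP90

set_option autoImplicit false

namespace Fermat.Agent.S42x

/-- the B12 input for every level `M ≠ 0` and EVERY prime `p`. -/
theorem s29top_input : s29c_Input :=
  tin45_input (fun M _ p hp => by
    obtain ⟨ι, h1, h2, h3⟩ := tlap90_iotaPkg_prime M p hp.out
    exact ⟨ι, h1, h2, fun ℓ hℓ _ v => h3 ℓ hℓ v⟩)

/-- **the common core of S42/S29, unconditionally.** -/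
theorem s29top_core : s29p_Core :=
  s29c_core_of_input s29top_input

end Fermat.Agent.S42x
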