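/-
S42x/TopAbs.lean (helper92, S42 block B12 leaf TOP-ABS, prefix `tpa_`): the abstract top algebra.
From a finite `ZMod p`-module `Jp` with a group action `ρ0`, commuting operators `T i`, a nonzero
simultaneous eigenvector in `K ⊗ Jp`, Frobenius quadratic relations and a density statement
(every `g` acts as a power of a Frobenius) we produce a 2-dimensional representation over `K`
with the prescribed characteristic polynomials at all Frobenius elements.
-/
import Mathlib
import Fermat.Agent.S42x.QuadRepMain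

set_option autoImplicit false

namespace Fermat.Agent.S42x

open Polynomial Module TensorProduct

section Lucas

variable {K : Type*} [Field K] {A : Type*} [Ring A] [Algebra K A]

/-- **Lucas powers**: if `x^2 - a x + e = 0` then `(x^j)^2 - s_j x^j + e^j = 0` for some scalar
`s_j`. -/
theorem tpa_lucas (x : A) (a e : K) (hx : x * x - a • x + e • (1 : A) = 0) (j : ℕ) :
    ∃ s : K, x ^ j * x ^ j - s • x ^ j + (e ^ j) • (1 : A) = 0 := by
  set x' : A := a • (1 : A) - x with hx'
  have hcomm : Commute x x' := by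
    rw [hx']
    exact ((Commute.one_right x).smul_right a).sub_right (Commute.refl x)
  have hprod : x * x' = e • (1 : A) := by
    rw [hx', mul_sub, mul_smul_comm, mul_one]
    have : a • x - x * x - e • (1 : A) = 0 := by
      rw [← neg_eq_zero, ← hx]; abel
    exact sub_eq_zero.1 this
  have hsum : ∀ n : ℕ, ∃ s : K, x ^ n + x' ^ n = s • (1 : A) := by
    intro n
    induction n using Nat.strong_induction_on with
    | _ n ih =>
      match n, ih with
      | 0, _ => exact ⟨2, by simp [two_smul]⟩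
      | 1, _ => exact ⟨a, by rw [pow_one, pow_one, hx']; abel⟩
      | (n + 2), ih =>
        obtain ⟨s1, h1⟩ := ih (n + 1) (by omega)
        obtain ⟨s0, h0⟩ := ih n (by omega)
        refine ⟨a * s1 - e * s0, ?_⟩
        have hx'x : x' * x = e • (1 : A) := by rw [← hcomm.eq, hprod]
        have key : x ^ (n + 2) + x' ^ (n + 2)
            = (x + x') * (x ^ (n + 1) + x' ^ (n + 1)) - (x * x') * (x ^ n + x' ^ n) := by
          have e1 : x' * x ^ (n + 1) = (x * x') * x ^ n := by
            rw [pow_succ', ← mul_assoc, hcomm.eq]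
          have e2 : x * x' ^ (n + 1) = (x * x') * x' ^ n := by
            rw [pow_succ', ← mul_assoc]
          rw [add_mul, mul_add, mul_add, mul_add, e1, e2, pow_succ' x (n + 1),
            pow_succ' x' (n + 1)]
          abel
        have hxx' : x + x' = a • (1 : A) := by rw [hx']; abel
        rw [key, h1, h0, hxx', hprod]
        simp only [mul_smul_comm, mul_one, smul_smul, sub_smul]
        rw [mul_comm s1 a, mul_comm s0 e]
  obtain ⟨s, hs⟩ := hsum j
  refine ⟨s, ?_⟩
  have h1 : x' ^ j = s • (1 : A) - x ^ j := eq_sub_of_add_eq' hs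
  have h2 : x ^ j * x' ^ j = (e ^ j) • (1 : A) := by
    rw [← hcomm.mul_pow, hprod, _root_.smul_pow, one_pow]
  rw [h1, mul_sub, mul_smul_comm, mul_one] at h2
  rw [← h2]; abel

end Lucas


section Aux

variable {K : Type} [Field K] {G : Type*} [Group G] {M : Type} [AddCommGroup M] [Module K M]

/-- the common eigenspace -/
def tpa_E {I : Type*} (TK : I → Module.End K M) (a : I → K) : Submodule K M :=
  ⨅ i, LinearMap.ker (TK i - a i • (1 : Module.End K M))

lemma tpa_mem_E {I : Type*} (TK : I → Module.End K M) (a : I → K) (v : M) :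
    v ∈ tpa_E TK a ↔ ∀ i, TK i v = a i • v := by
  simp only [tpa_E, Submodule.mem_iInf, LinearMap.mem_ker, LinearMap.sub_apply,
    LinearMap.smul_apply, Module.End.one_apply, sub_eq_zero]

/-- **Abstract top algebra, vector-space form.** -/
theorem tpa_core_aux [IsAlgClosed K] [FiniteDimensional K M]
    (R : G →* Module.End K M) {I : Type*} (TK : I → Module.End K M)
    (hcomm : ∀ i g, TK i * R g = R g * TK i) (a : I → K)
    (w : M) (hw : w ≠ 0) (hev : ∀ i, TK i w = a i • w)
    (ε : G →* K) (ellK : I → K) (Frob : I → G → Prop)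
    (hFQ : ∀ i σ, Frob i σ → ∀ m : M, R σ (R σ m) - R σ (TK i m) + ellK i • m = 0)
    (hFε : ∀ i σ, Frob i σ → ε σ = ellK i)
    (hdens : ∀ g : G, ∃ i σ, ∃ j : ℕ, Frob i σ ∧ R g = R σ ^ j ∧ ε g = ε σ ^ j) :
    ∃ (W : Type) (_ : AddCommGroup W) (_ : Module K W) (_ : Module.Finite K W)
      (ρ' : G →* Module.End K W),
      finrank K W = 2 ∧
      (∀ i σ, Frob i σ → LinearMap.charpoly (ρ' σ) = X ^ 2 - C (a i) * X + C (ellK i)) ∧
      (∀ g : G, R g = 1 → ε g = 1 → ρ' g = 1) := by
  classical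
  set V : Submodule K M := tpa_E TK a with hV
  have hstab : ∀ g : G, ∀ v ∈ V, R g v ∈ V := by
    intro g v hv
    rw [hV, tpa_mem_E] at hv ⊢
    intro i
    have h3 := congrArg (fun F : Module.End K M => F v) (hcomm i g)
    simp only [Module.End.mul_apply] at h3
    rw [h3, hv i, map_smul]
  have hwV : w ∈ V := (tpa_mem_E TK a w).2 hev
  have hnt : Nontrivial V := ⟨⟨⟨w, hwV⟩, 0, fun h => hw (congrArg Subtype.val h)⟩⟩
  set ρV : G →* Module.End K V := qdr_restrict R V hstab with hρV
  have hone : (1 : Module.End K V) ≠ 0 := one_ne_zero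
  -- Frobenius relation on `V`
  have hrelF : ∀ i σ, Frob i σ →
      ρV σ * ρV σ - a i • ρV σ + ellK i • (1 : Module.End K V) = 0 := by
    intro i σ hF
    apply LinearMap.ext; intro v; apply Subtype.ext
    have h1 := hFQ i σ hF (v : M)
    have h2 : TK i (v : M) = a i • (v : M) := (tpa_mem_E TK a _).1 v.2 i
    rw [h2, map_smul] at h1
    change R σ (R σ (v : M)) - a i • R σ (v : M) + ellK i • (v : M) = 0
    exact h1
  -- every element is quadratic on `V`
  have hquad : ∀ g : G, ∃ s : K,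
      ρV g * ρV g - s • ρV g + ε g • (1 : Module.End K V) = 0 := by
    intro g
    obtain ⟨i, σ, j, hF, hρ, hε⟩ := hdens g
    obtain ⟨s, hs⟩ := tpa_lucas (ρV σ) (a i) (ellK i) (hrelF i σ hF) j
    refine ⟨s, ?_⟩
    have hg : ρV g = ρV σ ^ j := by
      rw [← map_pow]
      apply LinearMap.ext; intro v; apply Subtype.ext
      rw [qdr_restrict_apply, qdr_restrict_apply, hρ, map_pow]
    rw [hg, hε, hFε i σ hF]
    exact hs
  choose a' ha' using hquad
  obtain ⟨W, iW1, iW2, iW3, ρ', hdim, hchar, hker⟩ := alm_exists_two_dim ρV ε a' ha'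
  refine ⟨W, iW1, iW2, iW3, ρ', hdim, ?_, ?_⟩
  · intro i σ hF
    have h1 := ha' σ
    have h2 := hrelF i σ hF
    rw [hFε i σ hF] at h1
    have h3 : (a i - a' σ) • ρV σ = 0 := by
      have : (a i - a' σ) • ρV σ
          = (ρV σ * ρV σ - a' σ • ρV σ + ellK i • (1 : Module.End K V))
            - (ρV σ * ρV σ - a i • ρV σ + ellK i • (1 : Module.End K V)) := by
        module
      rw [this, h1, h2, sub_zero]
    have h4 := congrArg (fun F : Module.End K V => F * ρV σ⁻¹) h3
    simp only [smul_mul_assoc, qdr_mul_inv_self, zero_mul] at h4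
    have h5 : a i - a' σ = 0 := by
      rcases smul_eq_zero.1 h4 with h6 | h6
      · exact h6
      · exact absurd h6 hone
    rw [hchar σ, hFε i σ hF, ← sub_eq_zero.1 h5]
  · intro g hg hε
    apply hker g _ hε
    apply LinearMap.ext; intro v; apply Subtype.ext
    rw [qdr_restrict_apply, hg]
    rfl

/-- finite orbit from a finite-index stabiliser -/
lemma tpa_orbit_finite_of_finiteIndex (R : G →* Module.End K M) (w : M) (H : Subgroup G)
    [H.FiniteIndex] (hH : ∀ g ∈ H, R g w = w) : (Set.range fun g : G => R g w).Finite := by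
  classical
  have hfin : Finite (G ⧸ H) := Subgroup.finite_quotient_of_finiteIndex
  let f' : G ⧸ H → M := Quotient.lift (fun g : G => R g w) (by
    intro g1 g2 h12
    have h3 : g1⁻¹ * g2 ∈ H := QuotientGroup.leftRel_apply.1 h12
    have h4 := hH _ h3
    have h5 : R g2 w = R g1 (R (g1⁻¹ * g2) w) := by
      rw [← Module.End.mul_apply, ← map_mul, mul_inv_cancel_left]
    change R g1 w = R g2 w
    rw [h5, h4])
  have hrange : (Set.range fun g : G => R g w) ⊆ Set.range f' := by
    rintro _ ⟨g, rfl⟩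
    exact ⟨QuotientGroup.mk g, rfl⟩
  exact (Set.finite_range f').subset hrange

/-- **Abstract top algebra, orbit form**: no finiteness of the ambient space, only a finite
orbit of the eigenvector. -/
theorem tpa_core_aux_orbit [IsAlgClosed K]
    (R : G →* Module.End K M) {I : Type*} (TK : I → Module.End K M)
    (hcomm : ∀ i g, TK i * R g = R g * TK i) (a : I → K)
    (w : M) (hw : w ≠ 0) (hev : ∀ i, TK i w = a i • w)
    (horb : (Set.range fun g : G => R g w).Finite)
    (ε : G →* K) (ellK : I → K) (Frob : I → G → Prop)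
    (hFQ : ∀ i σ, Frob i σ → ∀ m : M, R σ (R σ m) - R σ (TK i m) + ellK i • m = 0)
    (hFε : ∀ i σ, Frob i σ → ε σ = ellK i)
    (hdens : ∀ g : G, ∃ i σ, ∃ j : ℕ, Frob i σ ∧ R g = R σ ^ j ∧ ε g = ε σ ^ j) :
    ∃ (W : Type) (_ : AddCommGroup W) (_ : Module K W) (_ : Module.Finite K W)
      (ρ' : G →* Module.End K W),
      finrank K W = 2 ∧
      (∀ i σ, Frob i σ → LinearMap.charpoly (ρ' σ) = X ^ 2 - C (a i) * X + C (ellK i)) ∧
      (∀ g : G, R g = 1 → ε g = 1 → ρ' g = 1) := by
  classical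
  set M0 : Submodule K M := Submodule.span K (Set.range fun g : G => R g w) with hM0
  have hfd : FiniteDimensional K M0 := FiniteDimensional.span_of_finite K horb
  have hstab : ∀ g : G, ∀ v ∈ M0, R g v ∈ M0 := by
    intro g v hv
    have h1 : M0.map (R g) ≤ M0 := by
      rw [hM0, Submodule.map_span, Submodule.span_le]
      rintro _ ⟨_, ⟨h, rfl⟩, rfl⟩
      apply Submodule.subset_span
      exact ⟨g * h, by simp [map_mul]⟩
    exact h1 ⟨v, hv, rfl⟩
  have heig : ∀ i, ∀ v ∈ M0, TK i v = a i • v := by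
    intro i v hv
    induction hv using Submodule.span_induction with
    | mem x hx =>
      obtain ⟨g, rfl⟩ := hx
      have h3 := congrArg (fun F : Module.End K M => F w) (hcomm i g)
      simp only [Module.End.mul_apply] at h3
      rw [h3, hev i, map_smul]
    | zero => simp
    | add x y _ _ hx hy => rw [map_add, hx, hy, smul_add]
    | smul c x _ hx => rw [map_smul, hx, smul_comm]
  have hwM0 : w ∈ M0 := Submodule.subset_span ⟨1, by simp⟩
  set R0 : G →* Module.End K M0 := qdr_restrict R M0 hstab with hR0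
  obtain ⟨W, iW1, iW2, iW3, ρ', hdim, hchar, hker⟩ :=
    tpa_core_aux (K := K) (M := M0) R0 (fun i => a i • (1 : Module.End K M0))
      (fun i g => by rw [smul_mul_assoc, mul_smul_comm, one_mul, mul_one]) a
      ⟨w, hwM0⟩ (fun h => hw (congrArg Subtype.val h)) (fun i => rfl) ε ellK Frob
      (fun i σ hF m => by
        apply Subtype.ext
        have h1 := hFQ i σ hF (m : M)
        rw [heig i _ m.2] at h1
        change R σ (R σ (m : M)) - R σ (a i • (m : M)) + ellK i • (m : M) = 0
        exact h1)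
      hFε
      (fun g => by
        obtain ⟨i, σ, j, hF, hρ, hε⟩ := hdens g
        refine ⟨i, σ, j, hF, ?_, hε⟩
        rw [← map_pow]
        apply LinearMap.ext; intro v; apply Subtype.ext
        rw [qdr_restrict_apply, qdr_restrict_apply, hρ, map_pow])
  refine ⟨W, iW1, iW2, iW3, ρ', hdim, hchar, fun g hg hε => hker g ?_ hε⟩
  apply LinearMap.ext; intro v; apply Subtype.ext
  rw [qdr_restrict_apply, hg]
  rfl

end Aux

section Core

variable {p : ℕ} [Fact p.Prime] {K : Type} [Field K] [Algebra (ZMod p) K]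
  {G : Type*} [Group G] {Jp : Type} [AddCommGroup Jp] [Module (ZMod p) Jp]

/-- base change of endomorphisms `End_{F_p}(Jp) → End_K(K ⊗ Jp)` as a monoid homomorphism -/
noncomputable def tpa_bc (p : ℕ) [Fact p.Prime] (K : Type) [Field K] [Algebra (ZMod p) K]
    (Jp : Type) [AddCommGroup Jp] [Module (ZMod p) Jp] :
    Module.End (ZMod p) Jp →* Module.End K (K ⊗[ZMod p] Jp) where
  toFun f := LinearMap.baseChange K f
  map_one' := LinearMap.baseChange_one _ _
  map_mul' f g := LinearMap.baseChange_mul f g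

lemma tpa_bc_apply (f : Module.End (ZMod p) Jp) :
    tpa_bc p K Jp f = LinearMap.baseChange K f := rfl

lemma tpa_bc_tmul (f : Module.End (ZMod p) Jp) (c : K) (x : Jp) :
    tpa_bc p K Jp f (c ⊗ₜ[ZMod p] x) = c ⊗ₜ[ZMod p] f x :=
  LinearMap.baseChange_tmul _ _ _

/-- the Frobenius relation on `K ⊗ Jp` -/
lemma tpa_frob_M (f t : Module.End (ZMod p) Jp) (ell : ℕ)
    (h : ∀ x : Jp, f (f x) - f (t x) + (ell : ZMod p) • x = 0) (m : K ⊗[ZMod p] Jp) :
    tpa_bc p K Jp f (tpa_bc p K Jp f m) - tpa_bc p K Jp f (tpa_bc p K Jp t m) + (ell : K) • m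
      = 0 := by
  induction m using TensorProduct.induction_on with
  | zero => simp
  | tmul c x =>
    have h1 : (ell : K) • (c ⊗ₜ[ZMod p] x) = c ⊗ₜ[ZMod p] ((ell : ZMod p) • x) := by
      rw [TensorProduct.tmul_smul, ← algebraMap_smul K (ell : ZMod p) (c ⊗ₜ[ZMod p] x),
        map_natCast]
    rw [tpa_bc_tmul, tpa_bc_tmul, tpa_bc_tmul, tpa_bc_tmul, h1, ← TensorProduct.tmul_sub,
      ← TensorProduct.tmul_add, h x, TensorProduct.tmul_zero]
  | add m1 m2 h1 h2 =>
    have : tpa_bc p K Jp f (tpa_bc p K Jp f (m1 + m2))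
        - tpa_bc p K Jp f (tpa_bc p K Jp t (m1 + m2)) + (ell : K) • (m1 + m2)
        = (tpa_bc p K Jp f (tpa_bc p K Jp f m1) - tpa_bc p K Jp f (tpa_bc p K Jp t m1)
            + (ell : K) • m1)
          + (tpa_bc p K Jp f (tpa_bc p K Jp f m2) - tpa_bc p K Jp f (tpa_bc p K Jp t m2)
            + (ell : K) • m2) := by
      simp only [map_add, smul_add]; abel
    rw [this, h1, h2, add_zero]

/-- **Abstract top algebra** (the form consumed by the S42 / S29 tops). -/
theorem tpa_core [IsAlgClosed K] [Finite Jp]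
    (ρ0 : G →* Module.End (ZMod p) Jp) {I : Type*} (T : I → Jp →ₗ[ZMod p] Jp)
    (hTρ : ∀ i g x, T i (ρ0 g x) = ρ0 g (T i x)) (a : I → K)
    (w : K ⊗[ZMod p] Jp) (hw : w ≠ 0)
    (hev : ∀ i, LinearMap.baseChange K (T i) w = a i • w)
    (ε : G →* K) (ell : I → ℕ) (Frob : I → G → Prop)
    (hFQ : ∀ i σ, Frob i σ →
      ∀ x : Jp, ρ0 σ (ρ0 σ x) - ρ0 σ (T i x) + (ell i : ZMod p) • x = 0)
    (hFε : ∀ i σ, Frob i σ → ε σ = (ell i : K))
    (hdens : ∀ g : G, ∃ i σ, ∃ j : ℕ, Frob i σ ∧ ρ0 g = ρ0 σ ^ j ∧ ε g = ε σ ^ j) :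
    ∃ (W : Type) (_ : AddCommGroup W) (_ : Module K W) (_ : Module.Finite K W)
      (ρ' : G →* Module.End K W),
      finrank K W = 2 ∧
      (∀ i σ, Frob i σ →
        LinearMap.charpoly (ρ' σ) = X ^ 2 - C (a i) * X + C ((ell i : K))) ∧
      (∀ g : G, ρ0 g = 1 → ε g = 1 → ρ' g = 1) := by
  have : Module.Finite (ZMod p) Jp := Module.Finite.of_finite
  obtain ⟨W, iW1, iW2, iW3, ρ', hdim, hchar, hker⟩ :=
    tpa_core_aux (K := K) (M := K ⊗[ZMod p] Jp) ((tpa_bc p K Jp).comp ρ0)
      (fun i => tpa_bc p K Jp (T i))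
      (fun i g => by
        have hc : (T i : Module.End (ZMod p) Jp) * ρ0 g = ρ0 g * (T i : Module.End (ZMod p) Jp) :=
          LinearMap.ext fun x => hTρ i g x
        rw [MonoidHom.comp_apply, ← map_mul, ← map_mul, hc])
      a w hw hev ε (fun i => (ell i : K)) Frob
      (fun i σ hF m => tpa_frob_M (K := K) (ρ0 σ) (T i) (ell i) (hFQ i σ hF) m)
      hFε
      (fun g => by
        obtain ⟨i, σ, j, hF, hρ, hε⟩ := hdens g
        exact ⟨i, σ, j, hF, by rw [MonoidHom.comp_apply, MonoidHom.comp_apply, hρ, map_pow], hε⟩)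
  exact ⟨W, iW1, iW2, iW3, ρ', hdim, hchar, fun g hg hε =>
    hker g (by rw [MonoidHom.comp_apply, hg, map_one]) hε⟩

/-- **Abstract top algebra, orbit form** (no finiteness of `Jp`; only the orbit of the
eigenvector `w` under the group is finite, e.g. because a finite-index subgroup fixes `w`). -/
theorem tpa_core_orbit [IsAlgClosed K]
    (ρ0 : G →* Module.End (ZMod p) Jp) {I : Type*} (T : I → Jp →ₗ[ZMod p] Jp)
    (hTρ : ∀ i g x, T i (ρ0 g x) = ρ0 g (T i x)) (a : I → K)
    (w : K ⊗[ZMod p] Jp) (hw : w ≠ 0)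
    (hev : ∀ i, LinearMap.baseChange K (T i) w = a i • w)
    (horb : (Set.range fun g : G => LinearMap.baseChange K (ρ0 g) w).Finite)
    (ε : G →* K) (ell : I → ℕ) (Frob : I → G → Prop)
    (hFQ : ∀ i σ, Frob i σ →
      ∀ x : Jp, ρ0 σ (ρ0 σ x) - ρ0 σ (T i x) + (ell i : ZMod p) • x = 0)
    (hFε : ∀ i σ, Frob i σ → ε σ = (ell i : K))
    (hdens : ∀ g : G, ∃ i σ, ∃ j : ℕ, Frob i σ ∧ ρ0 g = ρ0 σ ^ j ∧ ε g = ε σ ^ j) :
    ∃ (W : Type) (_ : AddCommGroup W) (_ : Module K W) (_ : Module.Finite K W)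
      (ρ' : G →* Module.End K W),
      finrank K W = 2 ∧
      (∀ i σ, Frob i σ →
        LinearMap.charpoly (ρ' σ) = X ^ 2 - C (a i) * X + C ((ell i : K))) ∧
      (∀ g : G, ρ0 g = 1 → ε g = 1 → ρ' g = 1) := by
  obtain ⟨W, iW1, iW2, iW3, ρ', hdim, hchar, hker⟩ :=
    tpa_core_aux_orbit (K := K) (M := K ⊗[ZMod p] Jp) ((tpa_bc p K Jp).comp ρ0)
      (fun i => tpa_bc p K Jp (T i))
      (fun i g => by
        have hc : (T i : Module.End (ZMod p) Jp) * ρ0 g = ρ0 g * (T i : Module.End (ZMod p) Jp) :=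
          LinearMap.ext fun x => hTρ i g x
        rw [MonoidHom.comp_apply, ← map_mul, ← map_mul, hc])
      a w hw hev horb ε (fun i => (ell i : K)) Frob
      (fun i σ hF m => tpa_frob_M (K := K) (ρ0 σ) (T i) (ell i) (hFQ i σ hF) m)
      hFε
      (fun g => by
        obtain ⟨i, σ, j, hF, hρ, hε⟩ := hdens g
        exact ⟨i, σ, j, hF, by rw [MonoidHom.comp_apply, MonoidHom.comp_apply, hρ, map_pow], hε⟩)
  exact ⟨W, iW1, iW2, iW3, ρ', hdim, hchar, fun g hg hε =>
    hker g (by rw [MonoidHom.comp_apply, hg, map_one]) hε⟩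

/-- the orbit of `w` is finite as soon as a finite-index subgroup fixes it -/
theorem tpa_orbit_finite (ρ0 : G →* Module.End (ZMod p) Jp) (w : K ⊗[ZMod p] Jp)
    (H : Subgroup G) [H.FiniteIndex]
    (hH : ∀ g ∈ H, LinearMap.baseChange K (ρ0 g) w = w) :
    (Set.range fun g : G => LinearMap.baseChange K (ρ0 g) w).Finite :=
  tpa_orbit_finite_of_finiteIndex (K := K) (M := K ⊗[ZMod p] Jp) ((tpa_bc p K Jp).comp ρ0) w H hH

end Core

end Fermat.Agent.S42x
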