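/-
S42x/TopAbs2.lean (helper92, S42 B12 leaf TOP-ABS, prefix `tpa_`): orbit forms of the abstract
top algebra in which the DENSITY hypothesis is only required on the orbit of the eigenvector `w`
(so that no finiteness of the ambient `Jp` is needed anywhere).
-/
import Mathlib
import Fermat.Agent.S42x.TopAbs

set_option autoImplicit false

namespace Fermat.Agent.S42x

open Polynomial Module TensorProduct

section Aux

variable {K : Type} [Field K] {G : Type*} [Group G] {M : Type} [AddCommGroup M] [Module K M]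

/-- **Abstract top algebra, orbit form with density on the orbit only.** -/
theorem tpa_core_aux_orbit' [IsAlgClosed K]
    (R : G →* Module.End K M) {I : Type*} (TK : I → Module.End K M)
    (hcomm : ∀ i g, TK i * R g = R g * TK i) (a : I → K)
    (w : M) (hw : w ≠ 0) (hev : ∀ i, TK i w = a i • w)
    (horb : (Set.range fun g : G => R g w).Finite)
    (ε : G →* K) (ellK : I → K) (Frob : I → G → Prop)
    (hFQ : ∀ i σ, Frob i σ → ∀ h : G,
      R σ (R σ (R h w)) - R σ (TK i (R h w)) + ellK i • R h w = 0)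
    (hFε : ∀ i σ, Frob i σ → ε σ = ellK i)
    (hdens : ∀ g : G, ∃ i σ, ∃ j : ℕ, Frob i σ ∧
      (∀ h : G, R g (R h w) = (R σ ^ j) (R h w)) ∧ ε g = ε σ ^ j) :
    ∃ (W : Type) (_ : AddCommGroup W) (_ : Module K W) (_ : Module.Finite K W)
      (ρ' : G →* Module.End K W),
      finrank K W = 2 ∧
      (∀ i σ, Frob i σ → LinearMap.charpoly (ρ' σ) = X ^ 2 - C (a i) * X + C (ellK i)) ∧
      (∀ g : G, (∀ h : G, R g (R h w) = R h w) → ε g = 1 → ρ' g = 1) := by
  classical
  set M0 : Submodule K M := Submodule.span K (Set.range fun g : G => R g w) with hM0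
  have hfd : FiniteDimensional K M0 := FiniteDimensional.span_of_finite K horb
  have hstab : ∀ g : G, ∀ v ∈ M0, R g v ∈ M0 := by
    intro g v hv
    have h1 : M0.map (R g) ≤ M0 := by
      rw [hM0, Submodule.map_span, Submodule.span_le]
      rintro _ ⟨_, ⟨h, rfl⟩, rfl⟩
      apply Submodule.subset_span
      exact ⟨g * h, by simp [map_mul]⟩
    exact h1 ⟨v, hv, rfl⟩
  have heig : ∀ i, ∀ v ∈ M0, TK i v = a i • v := by
    intro i v hv
    induction hv using Submodule.span_induction with
    | mem x hx =>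
      obtain ⟨g, rfl⟩ := hx
      have h3 := congrArg (fun F : Module.End K M => F w) (hcomm i g)
      simp only [Module.End.mul_apply] at h3
      rw [h3, hev i, map_smul]
    | zero => simp
    | add x y _ _ hx hy => rw [map_add, hx, hy, smul_add]
    | smul c x _ hx => rw [map_smul, hx, smul_comm]
  -- two linear maps agreeing on the orbit agree on `M0`
  have hext : ∀ (F F' : Module.End K M), (∀ h : G, F (R h w) = F' (R h w)) →
      ∀ v ∈ M0, F v = F' v := by
    intro F F' hFF v hv
    induction hv using Submodule.span_induction with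
    | mem x hx =>
      obtain ⟨g, rfl⟩ := hx
      exact hFF g
    | zero => simp
    | add x y _ _ hx hy => rw [map_add, map_add, hx, hy]
    | smul c x _ hx => rw [map_smul, map_smul, hx]
  have hwM0 : w ∈ M0 := Submodule.subset_span ⟨1, by simp⟩
  set R0 : G →* Module.End K M0 := qdr_restrict R M0 hstab with hR0
  have hR0pow : ∀ (σ : G) (j : ℕ) (v : M0), ((R0 σ ^ j) v : M) = (R σ ^ j) (v : M) := by
    intro σ j v
    rw [← map_pow, ← map_pow]
    rfl
  obtain ⟨W, iW1, iW2, iW3, ρ', hdim, hchar, hker⟩ :=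
    tpa_core_aux (K := K) (M := M0) R0 (fun i => a i • (1 : Module.End K M0))
      (fun i g => by rw [smul_mul_assoc, mul_smul_comm, one_mul, mul_one]) a
      ⟨w, hwM0⟩ (fun h => hw (congrArg Subtype.val h)) (fun i => rfl) ε ellK Frob
      (fun i σ hF m => by
        apply Subtype.ext
        have h1 : ∀ v ∈ M0, (R σ * R σ - R σ * TK i + ellK i • (1 : Module.End K M)) v
            = (0 : Module.End K M) v := by
          apply hext
          intro h
          simpa [Module.End.mul_apply] using hFQ i σ hF h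
        have h2 := h1 (m : M) m.2
        simp only [LinearMap.add_apply, LinearMap.sub_apply, Module.End.mul_apply,
          LinearMap.smul_apply, Module.End.one_apply, LinearMap.zero_apply] at h2
        rw [heig i _ m.2] at h2
        change R σ (R σ (m : M)) - R σ (a i • (m : M)) + ellK i • (m : M) = 0
        exact h2)
      hFε
      (fun g => by
        obtain ⟨i, σ, j, hF, hρ, hε⟩ := hdens g
        refine ⟨i, σ, j, hF, ?_, hε⟩
        apply LinearMap.ext; intro v; apply Subtype.ext
        rw [hR0pow σ j v, qdr_restrict_apply]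
        exact hext (R g) (R σ ^ j) hρ (v : M) v.2)
  refine ⟨W, iW1, iW2, iW3, ρ', hdim, hchar, fun g hg hε => hker g ?_ hε⟩
  apply LinearMap.ext; intro v; apply Subtype.ext
  rw [qdr_restrict_apply]
  exact hext (R g) 1 (fun h => by rw [hg h]; rfl) (v : M) v.2

end Aux

section Core

variable {p : ℕ} [Fact p.Prime] {K : Type} [Field K] [Algebra (ZMod p) K]
  {G : Type*} [Group G] {Jp : Type} [AddCommGroup Jp] [Module (ZMod p) Jp]

/-- **Abstract top algebra, orbit form with density on the orbit only**, in the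
`K ⊗[ZMod p] Jp` shape.  `bc f := LinearMap.baseChange K f`. -/
theorem tpa_core_orbit' [IsAlgClosed K]
    (ρ0 : G →* Module.End (ZMod p) Jp) {I : Type*} (T : I → Jp →ₗ[ZMod p] Jp)
    (hTρ : ∀ i g x, T i (ρ0 g x) = ρ0 g (T i x)) (a : I → K)
    (w : K ⊗[ZMod p] Jp) (hw : w ≠ 0)
    (hev : ∀ i, LinearMap.baseChange K (T i) w = a i • w)
    (horb : (Set.range fun g : G => LinearMap.baseChange K (ρ0 g) w).Finite)
    (ε : G →* K) (ell : I → ℕ) (Frob : I → G → Prop)
    (hFQ : ∀ i σ, Frob i σ →
      ∀ x : Jp, ρ0 σ (ρ0 σ x) - ρ0 σ (T i x) + (ell i : ZMod p) • x = 0)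
    (hFε : ∀ i σ, Frob i σ → ε σ = (ell i : K))
    (hdens : ∀ g : G, ∃ i σ, ∃ j : ℕ, Frob i σ ∧
      (∀ h : G, LinearMap.baseChange K (ρ0 g) (LinearMap.baseChange K (ρ0 h) w)
        = LinearMap.baseChange K (ρ0 (σ ^ j)) (LinearMap.baseChange K (ρ0 h) w)) ∧
      ε g = ε σ ^ j) :
    ∃ (W : Type) (_ : AddCommGroup W) (_ : Module K W) (_ : Module.Finite K W)
      (ρ' : G →* Module.End K W),
      finrank K W = 2 ∧
      (∀ i σ, Frob i σ →
        LinearMap.charpoly (ρ' σ) = X ^ 2 - C (a i) * X + C ((ell i : K))) ∧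
      (∀ g : G, (∀ h : G, LinearMap.baseChange K (ρ0 g) (LinearMap.baseChange K (ρ0 h) w)
        = LinearMap.baseChange K (ρ0 h) w) → ε g = 1 → ρ' g = 1) := by
  obtain ⟨W, iW1, iW2, iW3, ρ', hdim, hchar, hker⟩ :=
    tpa_core_aux_orbit' (K := K) (M := K ⊗[ZMod p] Jp) ((tpa_bc p K Jp).comp ρ0)
      (fun i => tpa_bc p K Jp (T i))
      (fun i g => by
        have hc : (T i : Module.End (ZMod p) Jp) * ρ0 g = ρ0 g * (T i : Module.End (ZMod p) Jp) :=
          LinearMap.ext fun x => hTρ i g x
        rw [MonoidHom.comp_apply, ← map_mul, ← map_mul, hc])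
      a w hw hev horb ε (fun i => (ell i : K)) Frob
      (fun i σ hF h => tpa_frob_M (K := K) (ρ0 σ) (T i) (ell i) (hFQ i σ hF) _)
      hFε
      (fun g => by
        obtain ⟨i, σ, j, hF, hρ, hε⟩ := hdens g
        refine ⟨i, σ, j, hF, fun h => ?_, hε⟩
        rw [← map_pow]
        exact hρ h)
  exact ⟨W, iW1, iW2, iW3, ρ', hdim, hchar, fun g hg hε => hker g hg hε⟩

end Core

end Fermat.Agent.S42x
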