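/-
S42x/TopFull92 (helper92, prefix `top92_`): END-TO-END assembly of the frozen statement S42
(`∀ M, 0 < M → P.EigenformResidualAttachmentAt M`) from the landed halves:

* lower half `low92_iotaPkg` (S42x/TopLow92): the comparison map `ι : H¹_par(Γ₀(M), ℤ) → J₀(M)[p]`;
* upper half: `tin45_input_of_iota` (helper45: eigenvector in `K ⊗ J[p]` + open stabiliser + the
  Frobenius quadratic on its orbit) and `fin_attach_closed` (helper61: the two-dimensional
  quotient, finite level, trace/det, packaging into the frozen existential);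
* coefficient field `K := ℤ̄ ⧸ 𝔪` (helper30: `zbq_isAlgClosed`, `zbq_algebraZMod`).
-/
import Mathlib
import Fermat.Agent.S42x.TopLow92
import Fermat.Agent.S42x.TopInput45
import Fermat.Agent.S42x.FinAttachB9
import Fermat.Agent.S42x.ZbarQuot

set_option autoImplicit false
set_option linter.style.haveILetI false

namespace Fermat.Agent.S42x

open FreyPackage ModularCurve

/-- **S42, assembled**: the type is the frozen one. -/
theorem top92_attachment (P : FreyPackage) :
    ∀ M : ℕ, 0 < M → P.EigenformResidualAttachmentAt M := by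
  intro M hM
  haveI : NeZero M := ⟨hM.ne'⟩
  haveI : Fact P.p.Prime := ⟨P.pp⟩
  rw [fin_attachmentAt_iff]
  intro g hg 𝔪 h𝔪 hp𝔪
  haveI := h𝔪
  letI : Field (integralClosure ℤ ℂ ⧸ 𝔪) := Ideal.Quotient.field 𝔪
  letI : Algebra (ZMod P.p) (integralClosure ℤ ℂ ⧸ 𝔪) := zbq_algebraZMod 𝔪 P.p hp𝔪
  haveI : IsAlgClosed (integralClosure ℤ ℂ ⧸ 𝔪) := zbq_isAlgClosed 𝔪
  obtain ⟨ι, htors, hker, hequiv⟩ := low92_iotaPkg M P.p P.pp P.hp5
  obtain ⟨v, hv, hopen, hfrob, -⟩ := tin45_input_of_iota M P.p ι htors hker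
    (fun ℓ h _ v => hequiv ℓ h v) g hg (integralClosure ℤ ℂ ⧸ 𝔪) (Ideal.Quotient.mk 𝔪)
  exact fin_attach_closed P M hM g 𝔪 (Ideal.Quotient.mk 𝔪)
    (by rw [Ideal.mk_ker]) (fint_rho M P.p (integralClosure ℤ ℂ ⧸ 𝔪)) v hv hopen hfrob

end Fermat.Agent.S42x
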