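/-
S42 project, block B12, LOWER HALF (L) (helper27, prefix `tl27_`).

The comparison map `ι : lrL M →+ JZero M` (`lrL M = H¹_par(Γ₀(M), ℤ)`), killed by `p`, with kernel `p • lrL M`
and Hecke equivariant, i.e. `top80_IotaPkg M p` in literal form:

* `tl27_eps p : ℤ →+ Additive ℂˣ`, `n ↦ exp(2πi n/p)`; `tl27_psiOf M p = psk_psiOf (Gamma0 M) (tl27_eps p)`,
  `tl27_psiOf_apply : tl27_psiOf M p χ = twp_psiAdd p χ.1`;
* `tl27_of_hR5` : the package from `hR5 : ∀ χ : lrL M, ∃ x, heq_Rel M p x (twp_psiAdd p χ.1)` alone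
  (R3 := `inj_cmp_hR3` on `cde29_ev`, R4' := `rr4_psi_eq_zero`, kernel := `psk_psiOf_eq_zero_iff`,
  R6 := `heq_R6_comp` + `rlg_iota_comm`);
* `tl27_lower` : the CLOSED lower half for a prime `p ≥ 5` (R5 := helper92's `r5f92_hR5`, the finite-places chain).
-/
import Mathlib
import Fermat.Agent.S41x.LRTopDefs
import Fermat.Agent.S42x.RelGroup
import Fermat.Agent.S42x.RelR4
import Fermat.Agent.S42x.PsiKer
import Fermat.Agent.S42x.HeckeEqTop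
import Fermat.Agent.S42x.InjComp
import Fermat.Agent.S42x.CDictEv29
import Fermat.Agent.S42x.TwEisPsi
import Fermat.Agent.S42x.R5Fin92

set_option autoImplicit false

namespace Fermat.Agent.S42x

open UpperHalfPlane ModularCurve AlgebraicCurve CongruenceSubgroup
open Fermat.Agent.S24x Fermat.Agent.S41x Fermat.Agent.S16x
open scoped MatrixGroups

noncomputable section

/-- `n ↦ exp(2πi n/p)` as an additive character `ℤ →+ Additive ℂˣ` -/
def tl27_eps (p : ℕ) : ℤ →+ Additive ℂˣ where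
  toFun n := Additive.ofMul (twp_ep p n)
  map_zero' := by rw [twp_ep_zero]; rfl
  map_add' m n := by rw [twp_ep_add]; rfl

theorem tl27_eps_apply (p : ℕ) (n : ℤ) : tl27_eps p n = Additive.ofMul (twp_ep p n) := rfl

theorem tl27_eps_eq_zero_iff {p : ℕ} (hp : p ≠ 0) (n : ℤ) : tl27_eps p n = 0 ↔ (p : ℤ) ∣ n := by
  rw [← twp_ep_eq_one_iff hp n]
  exact Iff.rfl

/-- `χ ↦ ψ_χ = exp(2πi χ/p)` on the parabolic lattice -/
def tl27_psiOf (M p : ℕ) : lrL M →+ (Additive (Gamma0 M) →+ Additive ℂˣ) :=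
  psk_psiOf (Gamma0 M) (tl27_eps p)

theorem tl27_psiOf_apply (M p : ℕ) (χ : lrL M) : tl27_psiOf M p χ = twp_psiAdd p χ.1 := rfl

theorem tl27_psiOf_eq_comp (M p : ℕ) (χ : lrL M) : tl27_psiOf M p χ = (tl27_eps p).comp χ.1 := rfl

/-- **LOWER HALF from (R5)**: the literal form of `top80_IotaPkg M p`. -/
theorem tl27_of_hR5 (M p : ℕ) [NeZero M] (hp : p.Prime)
    (hR5 : ∀ χ : lrL M, ∃ x : JZero M, heq_Rel M p x (twp_psiAdd p χ.1)) :
    ∃ ι : lrL M →+ JZero M, (∀ v : lrL M, p • ι v = 0) ∧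
      (∀ v : lrL M, ι v = 0 → ∃ w : lrL M, v = (p : ℤ) • w) ∧
      ∀ ℓ : Nat.Primes, ¬ (ℓ : ℕ) ∣ M → ∀ v : lrL M,
        ι (lrtT M ℓ v) = heckeOperatorBar M ℓ (ι v) := by
  have hR3 : ∀ (x : JZero M) (χ : lrL M), heq_Rel M p x (tl27_psiOf M p χ) →
      tl27_psiOf M p χ = 0 → x = 0 :=
    inj_cmp_hR3 M (cde29_ev M) p hp.pos (cde29_evCompat M) (tl27_psiOf M p)
  have hR4 : ∀ χ : lrL M, heq_Rel M p (0 : JZero M) (tl27_psiOf M p χ) → tl27_psiOf M p χ = 0 :=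
    fun χ h => rr4_psi_eq_zero M p hp.ne_zero _ h
  have hR5' : ∀ χ : lrL M, ∃ x : JZero M, heq_Rel M p x (tl27_psiOf M p χ) := hR5
  refine ⟨rlg_iota (tl27_psiOf M p) hR3 hR4 hR5', fun v => rlg_iota_tors _ hR3 hR4 hR5' v, ?_, ?_⟩
  · intro v hv
    have h0 : tl27_psiOf M p v = 0 := (rlg_iota_eq_zero_iff _ hR3 hR4 hR5' v).mp hv
    obtain ⟨w, hw⟩ := (psk_psiOf_eq_zero_iff (Gamma0 M) (tl27_eps p) p hp.ne_zero
      (tl27_eps_eq_zero_iff hp.ne_zero) v).mp h0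
    exact ⟨w, by rw [hw, natCast_zsmul]⟩
  · intro ℓ hℓ v
    refine rlg_iota_comm (tl27_psiOf M p) hR3 hR4 hR5' (heckeOperatorBar M ℓ) (lrtT M ℓ) ?_ v
    intro x χ hx
    exact heq_R6_comp M p ℓ hℓ x (tl27_eps p) χ.1 hx

/-- **LOWER HALF, closed** (`p ≥ 5` prime): the literal form of `top80_IotaPkg M p`. -/
theorem tl27_lower (M p : ℕ) [NeZero M] (hp : p.Prime) (hp5 : 5 ≤ p) :
    ∃ ι : lrL M →+ JZero M, (∀ v : lrL M, p • ι v = 0) ∧
      (∀ v : lrL M, ι v = 0 → ∃ w : lrL M, v = (p : ℤ) • w) ∧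
      ∀ ℓ : Nat.Primes, ¬ (ℓ : ℕ) ∣ M → ∀ v : lrL M,
        ι (lrtT M ℓ v) = heckeOperatorBar M ℓ (ι v) :=
  tl27_of_hR5 M p hp (fun χ => r5f92_hR5 M p hp hp5 χ.1 χ.2)

end

end Fermat.Agent.S42x
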