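/-
S42 project, block B12 (helper45, prefix `low45_`): the LOWER HALF (the waist `top80_IotaPkg` body, literally) for
`p ≥ 5` prime, and the frozen S42 statement.

* `low45_eps p`      : `ℤ →+ Additive ℂˣ`, `n ↦ ζ_p ^ n` (`twp_ep`), `low45_eps_eq_zero_iff`;
* `low45_psiOf_eq`   : `psk_psiOf (Gamma0 M) (low45_eps p) χ = twp_psiAdd p χ.1` (rfl);
* `low45_waist M p hp h5` : `∃ ι : lrL M →+ JZero M, (∀ v, p • ι v = 0) ∧ (∀ v, ι v = 0 → ∃ w, v = (p:ℤ) • w) ∧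
  ∀ ℓ : Nat.Primes, ¬ ℓ ∣ M → ∀ v, ι (lrtT M ℓ v) = heckeOperatorBar M ℓ (ι v)`:
  `ι := rlg_iota (psk_psiOf (Gamma0 M) (low45_eps p))` with
  (R3) `inj_cmp_hR3` at helper29's `cde29_ev` / `cde29_evCompat`, (R4') `rr4_psi_eq_zero`, (R5) helper92's closed
  `r5f92_hR5`, kernel by `psk_psiOf_eq_zero_iff`, (R6) `heq_R6_comp` through `rlg_iota_comm`;
* `low45_S42 (P : FreyPackage) : ∀ M, 0 < M → P.EigenformResidualAttachmentAt M` via helper61's `fup61_upper`.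
-/
import Mathlib
import Fermat.Agent.S42x.R5Fin92
import Fermat.Agent.S42x.BettiJunction52
import Fermat.Agent.S42x.FinUpper61
import Fermat.Agent.S42x.RelR4
import Fermat.Agent.S42x.InjComp
import Fermat.Agent.S42x.CDictEv29

set_option autoImplicit false
set_option synthInstance.maxHeartbeats 400000

namespace Fermat.Agent.S42x

open ModularCurve AlgebraicCurve ValuationSubring TensorProduct FreyPackage CongruenceSubgroup
open ModularCurve.Period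
open Fermat.Agent.S41x Fermat.Agent.S24x Fermat.Agent.S23x

noncomputable section

/-- the additive character `n ↦ ζ_p ^ n` -/
def low45_eps (p : ℕ) : ℤ →+ Additive ℂˣ where
  toFun n := Additive.ofMul (twp_ep p n)
  map_zero' := by
    show Additive.ofMul (twp_ep p 0) = 0
    rw [twp_ep_zero]; rfl
  map_add' m n := by
    show Additive.ofMul (twp_ep p (m + n)) = Additive.ofMul (twp_ep p m) + Additive.ofMul (twp_ep p n)
    rw [twp_ep_add]; rfl

theorem low45_eps_eq_zero_iff {p : ℕ} (hp : p ≠ 0) (n : ℤ) : low45_eps p n = 0 ↔ (p : ℤ) ∣ n := by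
  rw [← twp_ep_eq_one_iff hp n]
  rfl

theorem low45_psiOf_eq (M p : ℕ) (χ : lrL M) :
    psk_psiOf (Gamma0 M) (low45_eps p) χ = twp_psiAdd p χ.1 := by
  refine DFunLike.ext _ _ fun g => ?_
  rfl

/-- **LOWER HALF**: the waist for `p ≥ 5`. -/
theorem low45_waist (M p : ℕ) [NeZero M] (hp : p.Prime) (h5 : 5 ≤ p) :
    ∃ ι : lrL M →+ JZero M, (∀ v : lrL M, p • ι v = 0) ∧
      (∀ v : lrL M, ι v = 0 → ∃ w : lrL M, v = (p : ℤ) • w) ∧
      ∀ ℓ : Nat.Primes, ¬ (ℓ : ℕ) ∣ M → ∀ v : lrL M,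
        ι (lrtT M ℓ v) = heckeOperatorBar M ℓ (ι v) := by
  have hp0 : p ≠ 0 := hp.ne_zero
  have hR3 : ∀ (x : JZero M) (χ : lrL M), heq_Rel M p x (psk_psiOf (Gamma0 M) (low45_eps p) χ) →
      psk_psiOf (Gamma0 M) (low45_eps p) χ = 0 → x = 0 :=
    inj_cmp_hR3 M (cde29_ev M) p hp.pos (cde29_evCompat M) (psk_psiOf (Gamma0 M) (low45_eps p))
  have hR4 : ∀ χ : lrL M, heq_Rel M p (0 : JZero M) (psk_psiOf (Gamma0 M) (low45_eps p) χ) →
      psk_psiOf (Gamma0 M) (low45_eps p) χ = 0 :=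
    fun χ h => rr4_psi_eq_zero M p hp0 _ h
  have hR5 : ∀ χ : lrL M, ∃ x : JZero M, heq_Rel M p x (psk_psiOf (Gamma0 M) (low45_eps p) χ) := by
    intro χ
    rw [low45_psiOf_eq]
    exact r5f92_hR5 M p hp h5 χ.1 (mem_parabolicHoms_iff.mp χ.2)
  refine ⟨rlg_iota (psk_psiOf (Gamma0 M) (low45_eps p)) hR3 hR4 hR5,
    fun v => rlg_iota_tors _ hR3 hR4 hR5 v, ?_, ?_⟩
  · intro v hv
    have h1 : psk_psiOf (Gamma0 M) (low45_eps p) v = 0 :=
      (rlg_iota_eq_zero_iff _ hR3 hR4 hR5 v).mp hv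
    obtain ⟨w, hw⟩ := (psk_psiOf_eq_zero_iff (Gamma0 M) (low45_eps p) p hp0
      (low45_eps_eq_zero_iff hp0) v).mp h1
    exact ⟨w, by rw [hw, natCast_zsmul]⟩
  · intro ℓ hℓ v
    exact rlg_iota_comm _ hR3 hR4 hR5 (fun x => heckeOperatorBar M ℓ x) (fun χ => lrtT M ℓ χ)
      (fun x χ hx => heq_R6_comp M p ℓ hℓ x (low45_eps p) χ.1 hx) v

/-- **S42** -/
theorem low45_S42 (P : FreyPackage) : ∀ M : ℕ, 0 < M → P.EigenformResidualAttachmentAt M := by
  intro M hM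
  haveI : NeZero M := ⟨hM.ne'⟩
  obtain ⟨ι, htors, hker, hequiv⟩ := low45_waist M P.p P.pp P.hp5
  exact fup61_upper P M hM ι htors hker (fun ℓ h1 _ v => hequiv ℓ h1 v)

end

end Fermat.Agent.S42x

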