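/-
S42x/TopLowAllP40 (helper40, prefix `tla40_`): the LOWER HALF of the S42/S29 assembly for an
ARBITRARY modulus `q > 0` (all-modulus twin of helper92's `low92_iotaPkg`, which needs `q ≥ 5` prime).

S29 needs the primes `2, 3`; S30/S31 (block T1) need the prime powers `q = p ^ n` together with the
tower compatibility `p • ι_{p^(n+1)} = ι_{p^n}`.

* `tla40_iota M q hq : lrL M →+ JZero M` (a DEFINITION, so that the tower is coherent):
  `rlg_iota` (helper47) for `psiOf χ := twp_psiAdd q χ = exp(2πi χ / q)` (`low92_psiOf`), with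
  `hR3 := inj_cmp_hR3` on `cde29_ev` (`0 < q`), `hR4 := rr4_psi_eq_zero` (`q ≠ 0`),
  `hR5 := r5fap90_hR5` (helper90, EVERY `q > 0`).
* `tla40_spec`, `tla40_eq`, `tla40_tors`, `tla40_eq_zero_iff`, `tla40_ker`, `tla40_hecke`.
* `tla40_iotaPkg` : the literal body of `top80_IotaPkg M q` / `fug61_IotaPkg M q` for every `q > 0`.
* `tla40_waist` : the waist of `tin45_input` / `fug61_s29c_input` for ALL primes `p`.
* `tla40_compat_mul` : `a • ι_{ab} = ι_b`;  `tla40_compat_pow` : `p • ι_{p^(n+1)} = ι_{p^n}`.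
-/
import Mathlib
import Fermat.Agent.S42x.TopLow92
import Fermat.Agent.S42x.R5FinAllP90
import Fermat.Agent.S30x.RelCompat63

set_option autoImplicit false

namespace Fermat.Agent.S42x

open UpperHalfPlane ModularCurve AlgebraicCurve CongruenceSubgroup ModularCurve.Period
open Fermat.Agent.S24x Fermat.Agent.S23x Fermat.Agent.S41x Fermat.Agent.S16x Fermat.Agent.S30x
open scoped MatrixGroups

noncomputable section

variable (M : ℕ) [NeZero M]

theorem tla40_hR3 (q : ℕ) (hq : 0 < q) :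
    ∀ (x : JZero M) (χ : lrL M), heq_Rel M q x (low92_psiOf M q χ) →
      low92_psiOf M q χ = 0 → x = 0 :=
  inj_cmp_hR3 M (cde29_ev M) q hq (cde29_evCompat M) (low92_psiOf M q)

theorem tla40_hR4 (q : ℕ) (hq : 0 < q) :
    ∀ χ : lrL M, heq_Rel M q (0 : JZero M) (low92_psiOf M q χ) → low92_psiOf M q χ = 0 :=
  fun _ h => rr4_psi_eq_zero M q hq.ne' _ h

theorem tla40_hR5 (q : ℕ) (hq : 0 < q) :
    ∀ χ : lrL M, ∃ x : JZero M, heq_Rel M q x (low92_psiOf M q χ) := by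
  intro χ
  rw [low92_psiOf_eq]
  exact r5fap90_hR5 M q hq χ.1 (mem_parabolicHoms_iff.mp χ.2)

/-- **the comparison map at modulus `q`**: `ι_q : H¹_par(Γ₀(M), ℤ) → J₀(M)[q]`, any `q > 0`. -/
def tla40_iota (q : ℕ) (hq : 0 < q) : lrL M →+ JZero M :=
  rlg_iota (low92_psiOf M q) (tla40_hR3 M q hq) (tla40_hR4 M q hq) (tla40_hR5 M q hq)

variable {M}

theorem tla40_spec (q : ℕ) (hq : 0 < q) (χ : lrL M) :
    heq_Rel M q (tla40_iota M q hq χ) (twp_psiAdd q χ.1) := by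
  rw [← low92_psiOf_eq]
  exact rlg_iota_spec (low92_psiOf M q) (tla40_hR3 M q hq) (tla40_hR4 M q hq) (tla40_hR5 M q hq) χ

/-- uniqueness: any point in relation with `ψ_{q,χ}` is `ι_q χ`. -/
theorem tla40_eq (q : ℕ) (hq : 0 < q) {x : JZero M} {χ : lrL M}
    (h : heq_Rel M q x (twp_psiAdd q χ.1)) : x = tla40_iota M q hq χ := by
  rw [← low92_psiOf_eq] at h
  exact rlg_iota_eq (low92_psiOf M q) (tla40_hR3 M q hq) (tla40_hR4 M q hq) (tla40_hR5 M q hq) h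

theorem tla40_tors (q : ℕ) (hq : 0 < q) (v : lrL M) : q • tla40_iota M q hq v = 0 :=
  rlg_iota_tors _ (tla40_hR3 M q hq) (tla40_hR4 M q hq) (tla40_hR5 M q hq) v

theorem tla40_mem_torsion (q : ℕ) (hq : 0 < q) (v : lrL M) :
    tla40_iota M q hq v ∈ Pic0.torsion Qbar (modularFunctionFieldBar M) q :=
  rlg_iota_mem_torsion _ (tla40_hR3 M q hq) (tla40_hR4 M q hq) (tla40_hR5 M q hq) v

theorem tla40_eq_zero_iff (q : ℕ) (hq : 0 < q) (v : lrL M) :
    tla40_iota M q hq v = 0 ↔ twp_psiAdd q v.1 = 0 := by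
  rw [← low92_psiOf_eq]
  exact rlg_iota_eq_zero_iff _ (tla40_hR3 M q hq) (tla40_hR4 M q hq) (tla40_hR5 M q hq) v

/-- the kernel of `ι_q` is `q • lrL M`. -/
theorem tla40_ker (q : ℕ) (hq : 0 < q) (v : lrL M) (hv : tla40_iota M q hq v = 0) :
    ∃ w : lrL M, v = (q : ℤ) • w := by
  rw [tla40_eq_zero_iff, twp_psiAdd_eq_zero_iff hq.ne'] at hv
  exact lrt_dvd_of_values M q hq.ne' v (fun γ => hv (Additive.toMul γ))

/-- conversely `ι_q` kills `q • lrL M`. -/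
theorem tla40_smul (q : ℕ) (hq : 0 < q) (w : lrL M) : tla40_iota M q hq ((q : ℤ) • w) = 0 := by
  rw [map_zsmul, natCast_zsmul]
  exact tla40_tors q hq w

/-- Hecke equivariance at every prime `ℓ ∤ M`. -/
theorem tla40_hecke (q : ℕ) (hq : 0 < q) (ℓ : Nat.Primes) (hℓM : ¬ (ℓ : ℕ) ∣ M) (v : lrL M) :
    tla40_iota M q hq (lrtT M ℓ v) = heckeOperatorBar M ℓ (tla40_iota M q hq v) := by
  refine rlg_iota_comm (low92_psiOf M q) (tla40_hR3 M q hq) (tla40_hR4 M q hq) (tla40_hR5 M q hq)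
    (heckeOperatorBar M ℓ) (lrtT M ℓ) ?_ v
  intro x χ hx
  exact heq_R6_comp M q ℓ hℓM x (low92_e q) χ.1 hx

variable (M)

/-- **the lower half for EVERY modulus `q > 0`**: the literal body of helper80's waist
`top80_IotaPkg M q` (= `low92_iotaPkg` without `q ≥ 5` prime). -/
theorem tla40_iotaPkg (q : ℕ) (hq : 0 < q) :
    ∃ ι : lrL M →+ JZero M,
      (∀ v : lrL M, q • ι v = 0) ∧
      (∀ v : lrL M, ι v = 0 → ∃ w : lrL M, v = (q : ℤ) • w) ∧
      ∀ ℓ : Nat.Primes, ¬ (ℓ : ℕ) ∣ M → ∀ v : lrL M,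
        ι (lrtT M ℓ v) = heckeOperatorBar M ℓ (ι v) :=
  ⟨tla40_iota M q hq, tla40_tors q hq, tla40_ker q hq, tla40_hecke q hq⟩

/-- the waist in the weakened form (equivariance only at `ℓ ∤ M q`) consumed by `tin45_input` /
`fug61_IotaPkg`, for every modulus `q > 0`. -/
theorem tla40_iotaPkg' (q : ℕ) (hq : 0 < q) :
    ∃ ι : lrL M →+ JZero M,
      (∀ v : lrL M, q • ι v = 0) ∧
      (∀ v : lrL M, ι v = 0 → ∃ w : lrL M, v = (q : ℤ) • w) ∧
      ∀ ℓ : Nat.Primes, ¬ (ℓ : ℕ) ∣ M → (ℓ : ℕ) ≠ q → ∀ v : lrL M,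
        ι (lrtT M ℓ v) = heckeOperatorBar M ℓ (ι v) :=
  ⟨tla40_iota M q hq, tla40_tors q hq, tla40_ker q hq, fun ℓ hℓ _ v => tla40_hecke q hq ℓ hℓ v⟩

/-- **the waist for ALL primes `p`** (incl. `2`, `3`, `p ∣ M`), in the literal binder shape of
`tin45_input` (helper45) and of `fug61_s29c_input` (helper61, unfold `fug61_IotaPkg`):
`S29 := s29p_result_of_core (s29c_core_of_input (tin45_input tla40_waist))`. -/
theorem tla40_waist : ∀ (M : ℕ) [NeZero M] (p : ℕ) [Fact p.Prime],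
    ∃ ι : lrL M →+ JZero M, (∀ v : lrL M, p • ι v = 0) ∧
      (∀ v : lrL M, ι v = 0 → ∃ w : lrL M, v = (p : ℤ) • w) ∧
      ∀ ℓ : Nat.Primes, ¬ (ℓ : ℕ) ∣ M → (ℓ : ℕ) ≠ p → ∀ v : lrL M,
        ι (lrtT M ℓ v) = heckeOperatorBar M ℓ (ι v) :=
  fun M _ p hp => tla40_iotaPkg' M p hp.out.pos

variable {M}

/-- **change of modulus**: `a • ι_{ab} = ι_b`. -/
theorem tla40_compat_mul (a b : ℕ) (ha : 0 < a) (hb : 0 < b) (v : lrL M) :
    a • tla40_iota M (a * b) (Nat.mul_pos ha hb) v = tla40_iota M b hb v := by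
  apply tla40_eq
  exact rlc63_rel_psi a b ha.ne' v.1 (tla40_spec (a * b) (Nat.mul_pos ha hb) v)

/-- **the tower**: `p • ι_{p^(n+1)} = ι_{p^n}`. -/
theorem tla40_compat_pow (p : ℕ) (hp : 0 < p) (n : ℕ) (v : lrL M) :
    p • tla40_iota M (p ^ (n + 1)) (pow_pos hp _) v = tla40_iota M (p ^ n) (pow_pos hp _) v := by
  apply tla40_eq
  have h := tla40_spec (p ^ (n + 1)) (pow_pos hp _) v
  obtain ⟨x, hx⟩ : ∃ x, x = tla40_iota M (p ^ (n + 1)) (pow_pos hp _) v := ⟨_, rfl⟩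
  rw [← hx] at h ⊢
  rw [pow_succ'] at h
  exact rlc63_rel_psi p (p ^ n) hp.ne' v.1 h

/-- general divisibility form: `(q / d) • ι_q = ι_d` for `d ∣ q`. -/
theorem tla40_compat_dvd (q d : ℕ) (hq : 0 < q) (hd : 0 < d) (hdq : d ∣ q) (v : lrL M) :
    (q / d) • tla40_iota M q hq v = tla40_iota M d hd v := by
  obtain ⟨a, rfl⟩ := hdq
  have ha : a ≠ 0 := by
    rintro rfl
    rw [mul_zero] at hq
    exact lt_irrefl _ hq
  rw [Nat.mul_div_cancel_left a hd]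
  apply tla40_eq
  have h := tla40_spec (d * a) hq v
  obtain ⟨x, hx⟩ : ∃ x, x = tla40_iota M (d * a) hq v := ⟨_, rfl⟩
  rw [← hx] at h ⊢
  rw [mul_comm] at h
  exact rlc63_rel_psi a d ha v.1 h

end

end Fermat.Agent.S42x
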