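/-
S42 project, block B1, leaf B1-ALL part 2 (helper99, prefix `twa99_`): the `Hol` / `Mer` / modular
form interface of the ALL-CUSP Eisenstein series `twa99_E ψ` (S42x/TwEisAll99), denominator = the
level-one Eisenstein series `E₄` (`cdc_E4Hol`, S42x/CDictDefs), as required by ARCH-2 (helper55).

* `twa99_EHol ψ hU : Hol`, with `twa99_hhol / twa99_hbdd / twa99_hlim` = the hypotheses
  `hhol / hbdd / hlim` of `cdu_ord_eq_zero` (B3.3 CUSPUNIT) for `A := twa99_EHol ψ hU`, literally;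
* `twa99_u ψ hU = E_ψ / E₄ ∈ Mer`, nonzero, `γ⁻¹ • u = ψ(γ) · u` for `γ ∈ Γ₀(M)` (last clause of
  `heq_Rel`), `u ^ p * mk(E₄) ^ p = mk(E_ψ) ^ p` (hypothesis `hf` of `cdu_ord_eq_zero`);
* `(twa99_E ψ) ^ p` and `E₄ ^ p` are modular forms of weight `p * 4` on `Γ₀(M)` when `ψ ^ p = 1`
  (`S23x.IsMF`), and `qL (E_ψ ^ p) / qL (E₄ ^ p) ∈ S23x.ratioField M`;
* the same for the official additive character type `Additive (Gamma0 M) →+ Additive ℂˣ`.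
-/
import Fermat.Agent.S42x.TwEisAll99
import Fermat.Agent.S42x.TwEisMer
import Fermat.Agent.S42x.TwEisMF
import Fermat.Agent.S42x.CDictDefs
import Fermat.Agent.S24x.JLocal

set_option autoImplicit false

namespace Fermat.Agent.S42x

open EisensteinSeries UpperHalfPlane ModularForm Matrix CongruenceSubgroup Filter Topology
open Fermat.Agent.S24x
open scoped MatrixGroups Manifold

noncomputable section

variable {M : ℕ} {ψ : ↥(Gamma0 M) →* ℂˣ}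

/-! ### `E₄` -/

theorem twa99_E4_slash (A : SL(2, ℤ)) : (⇑E₄ : ℍ → ℂ) ∣[(4 : ℤ)] A = ⇑E₄ := by
  funext z
  rw [SL_slash_apply, jl_E₄_smul A z]
  have hd : denom (A : GL (Fin 2) ℝ) z ^ (4 : ℤ) ≠ 0 := zpow_ne_zero _ (denom_ne_zero _ z)
  rw [_root_.zpow_neg, mul_assoc, mul_comm (E₄ z), ← mul_assoc, mul_inv_cancel₀ hd, one_mul]

theorem twa99_E4_ne_zero : (⇑E₄ : ℍ → ℂ) ≠ 0 := by
  intro h
  obtain ⟨τ, hτ⟩ := jFun_surjective 1
  have h0 : E₄ τ = 0 := congrFun h τ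
  rw [jo_E₄_eq_zero_iff, hτ] at h0
  exact one_ne_zero h0

theorem twa99_E4Hol_ne_zero : cdc_E4Hol ≠ 0 := by
  intro h
  exact twa99_E4_ne_zero (congrArg Subtype.val h)

theorem twa99_isMF_E4 (M : ℕ) [NeZero M] : S23x.IsMF M 4 (⇑E₄ : ℍ → ℂ) :=
  S23x.IsMF1.isMF M ⟨E₄, rfl⟩

theorem twa99_isMF_E4_pow (M : ℕ) [NeZero M] (p : ℕ) :
    S23x.IsMF M ((p : ℤ) * 4) ((⇑E₄ : ℍ → ℂ) ^ p) :=
  (twa99_isMF_E4 M).pow p

/-! ### `E_ψ` as an element of `Hol` -/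

variable (ψ) in
/-- the all-cusp Eisenstein series as an element of `Hol`. -/
def twa99_EHol (hU : twc_Unitary ψ) : Hol := ⟨twa99_E ψ, twa99_E_mdiff hU⟩

@[simp] theorem twa99_EHol_coe (hU : twc_Unitary ψ) :
    ((twa99_EHol ψ hU : Hol) : ℍ → ℂ) = twa99_E ψ := rfl

theorem twa99_EHol_ne_zero (hP : twa99_TrivPar ψ) (hU : twc_Unitary ψ) :
    twa99_EHol ψ hU ≠ 0 := by
  intro h
  exact twa99_E_ne_zero hP hU (congrArg Subtype.val h)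

/-- hypothesis `hhol` of `cdu_ord_eq_zero`. -/
theorem twa99_hhol (hU : twc_Unitary ψ) (g : SL(2, ℤ)) :
    MDiff (((twa99_EHol ψ hU : Hol) : ℍ → ℂ) ∣[(4 : ℤ)] g) :=
  twa99_E_slash_mdiff hU g

/-- hypothesis `hbdd` of `cdu_ord_eq_zero`. -/
theorem twa99_hbdd (hU : twc_Unitary ψ) (g : SL(2, ℤ)) :
    IsBoundedAtImInfty (((twa99_EHol ψ hU : Hol) : ℍ → ℂ) ∣[(4 : ℤ)] g) :=
  twa99_E_isBoundedAtImInfty_slash hU g

/-- hypothesis `hlim` of `cdu_ord_eq_zero`. -/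
theorem twa99_hlim (hP : twa99_TrivPar ψ) (hU : twc_Unitary ψ) (g : SL(2, ℤ)) :
    ∃ l : ℂ, l ≠ 0 ∧ Tendsto
      (fun y : ℝ => (((twa99_EHol ψ hU : Hol) : ℍ → ℂ) ∣[(4 : ℤ)] g) (twe55_iy y)) atTop (𝓝 l) :=
  twa99_E_hlim hP hU g

/-- the transformation law in `Hol`, cross-multiplied against `E₄`. -/
theorem twa99_EHol_cross (hP : twa99_TrivPar ψ) (hU : twc_Unitary ψ) (g : Gamma0 M) :
    ((g : SL(2, ℤ))⁻¹ • twa99_EHol ψ hU) * cdc_E4Hol =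
      algebraMap ℂ Hol ((ψ g : ℂˣ) : ℂ) * twa99_EHol ψ hU * ((g : SL(2, ℤ))⁻¹ • cdc_E4Hol) := by
  apply Subtype.ext
  funext τ
  show ((((g : SL(2, ℤ))⁻¹ • twa99_EHol ψ hU : Hol) : ℍ → ℂ) τ) * ((cdc_E4Hol : Hol) : ℍ → ℂ) τ =
    ((algebraMap ℂ Hol ((ψ g : ℂˣ) : ℂ) : Hol) : ℍ → ℂ) τ *
      ((twa99_EHol ψ hU : Hol) : ℍ → ℂ) τ *
      ((((g : SL(2, ℤ))⁻¹ • cdc_E4Hol : Hol) : ℍ → ℂ) τ)
  rw [smul_Hol_apply, smul_Hol_apply, inv_inv, algebraMap_Hol_apply, twa99_EHol_coe,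
    cdc_E4Hol_apply, cdc_E4Hol_apply, twa99_E_smul_apply hP g τ, jl_E₄_smul (g : SL(2, ℤ)) τ]
  ring

/-! ### the meromorphic function `u_ψ = E_ψ / E₄` -/

variable (ψ) in
/-- the meromorphic function `u_ψ = E_ψ / E₄` on `ℍ`. -/
def twa99_u (hU : twc_Unitary ψ) : Mer :=
  algebraMap Hol Mer (twa99_EHol ψ hU) / algebraMap Hol Mer cdc_E4Hol

theorem twa99_u_ne_zero (hP : twa99_TrivPar ψ) (hU : twc_Unitary ψ) : twa99_u ψ hU ≠ 0 :=
  div_ne_zero (twc_algebraMap_ne_zero (twa99_EHol_ne_zero hP hU))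
    (twc_algebraMap_ne_zero twa99_E4Hol_ne_zero)

/-- **the character law in `Mer`**: `γ⁻¹ • u_ψ = ψ(γ) · u_ψ`, i.e. `u_ψ(γ z) = ψ(γ) u_ψ(z)`. -/
theorem twa99_u_char (hP : twa99_TrivPar ψ) (hU : twc_Unitary ψ) (g : Gamma0 M) :
    ((g : SL(2, ℤ))⁻¹ • twa99_u ψ hU : Mer) =
      algebraMap ℂ Mer ((ψ g : ℂˣ) : ℂ) * twa99_u ψ hU := by
  unfold twa99_u
  set a := twa99_EHol ψ hU with ha
  set b := cdc_E4Hol with hb
  have hb0 : algebraMap Hol Mer b ≠ 0 := twc_algebraMap_ne_zero twa99_E4Hol_ne_zero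
  have hgb0 : algebraMap Hol Mer ((g : SL(2, ℤ))⁻¹ • b) ≠ 0 := by
    apply twc_algebraMap_ne_zero
    intro h
    apply twa99_E4Hol_ne_zero
    have := congrArg (fun x => (g : SL(2, ℤ)) • x) h
    simpa using this
  have hcross := congrArg (algebraMap Hol Mer) (twa99_EHol_cross hP hU g)
  rw [map_mul, map_mul, map_mul, ← IsScalarTower.algebraMap_apply ℂ Hol Mer, ← ha, ← hb] at hcross
  have hdiv : ((g : SL(2, ℤ))⁻¹ • (algebraMap Hol Mer a / algebraMap Hol Mer b) : Mer) =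
      ((g : SL(2, ℤ))⁻¹ • algebraMap Hol Mer a) / ((g : SL(2, ℤ))⁻¹ • algebraMap Hol Mer b) :=
    map_div₀ (MulSemiringAction.toRingHom SL(2, ℤ) Mer (g : SL(2, ℤ))⁻¹) _ _
  rw [hdiv, smul_algebraMap_Mer, smul_algebraMap_Mer, div_eq_iff hgb0]
  field_simp
  linear_combination hcross

/-- `u_ψ ^ p` as a quotient of the `p`-th powers. -/
theorem twa99_u_pow (hU : twc_Unitary ψ) (p : ℕ) :
    twa99_u ψ hU ^ p =
      algebraMap Hol Mer (twa99_EHol ψ hU ^ p) / algebraMap Hol Mer (cdc_E4Hol ^ p) := by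
  unfold twa99_u
  rw [div_pow, map_pow, map_pow]

/-- hypothesis `hf` of `cdu_ord_eq_zero` for any `f` realised by `u_ψ ^ p`. -/
theorem twa99_u_pow_mul (hU : twc_Unitary ψ) (p : ℕ) :
    twa99_u ψ hU ^ p * algebraMap Hol Mer cdc_E4Hol ^ p =
      algebraMap Hol Mer (twa99_EHol ψ hU) ^ p := by
  unfold twa99_u
  have hb0 : algebraMap Hol Mer cdc_E4Hol ≠ 0 := twc_algebraMap_ne_zero twa99_E4Hol_ne_zero
  rw [div_pow, div_mul_cancel₀ _ (pow_ne_zero p hb0)]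

/-! ### modular forms -/

/-- `(E_ψ) ^ p` is a modular form of weight `p * 4` on `Γ₀(M)` when `ψ ^ p = 1`. -/
theorem twa99_isMF_pow [NeZero M] (hP : twa99_TrivPar ψ) (hU : twc_Unitary ψ) (p : ℕ)
    (hp : ∀ g : Gamma0 M, ψ g ^ p = 1) :
    S23x.IsMF M ((p : ℤ) * 4) (twa99_E ψ ^ p) := by
  refine twm_isMF_pow (twa99_E_mdiff hU) (fun g => ((ψ g : ℂˣ) : ℂ))
    (fun g => twa99_E_slash hP g) (fun A => twa99_E_isBoundedAtImInfty_slash hU A) p (fun g => ?_)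
  rw [← Units.val_pow_eq_pow_val, hp g, Units.val_one]

/-- the `q`-expansion of `(E_ψ / E₄) ^ p` lies in `ℂ(j, j_M)`. -/
theorem twa99_ratio_mem [NeZero M] (hP : twa99_TrivPar ψ) (hU : twc_Unitary ψ) (p : ℕ)
    (hp : ∀ g : Gamma0 M, ψ g ^ p = 1) :
    S23x.qL (twa99_E ψ ^ p) / S23x.qL ((⇑E₄ : ℍ → ℂ) ^ p) ∈ S23x.ratioField M :=
  twm_qL_div_mem (twa99_isMF_pow hP hU p hp) (twa99_isMF_E4_pow M p)
    (twm_pow_ne_zero twa99_E4_ne_zero p)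

/-- cross-multiplied form of the membership (the shape of the "door from forms"). -/
theorem twa99_ratio_mul [NeZero M] (p : ℕ) :
    S23x.qL (twa99_E ψ ^ p) / S23x.qL ((⇑E₄ : ℍ → ℂ) ^ p) * S23x.qL ((⇑E₄ : ℍ → ℂ) ^ p) =
      S23x.qL (twa99_E ψ ^ p) := by
  have hq : S23x.qL ((⇑E₄ : ℍ → ℂ) ^ p) ≠ 0 := fun h =>
    twm_pow_ne_zero twa99_E4_ne_zero p
      ((S23x.qL_eq_zero_iff (twa99_isMF_E4_pow M p).isNice).mp h)
  rw [div_mul_cancel₀ _ hq]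

/-! ### the official character type `Additive (Gamma0 M) →+ Additive ℂˣ` -/

/-- **B1-ALL → R5 / B3.5 interface**: for an additive character `psi` (S16x `cohOpGen` type) killing
every element of trace `± 2` and unitary, `h = E_psi / E₄ ∈ Mer` is nonzero, has character `psi`
(last clause of `heq_Rel`), and its numerator `A` satisfies `hhol / hbdd / hlim` of
`cdu_ord_eq_zero` together with `h ^ p * mk(E₄) ^ p = mk(A) ^ p`. -/
theorem twa99_exists_mer (psi : Additive (Gamma0 M) →+ Additive ℂˣ)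
    (hP : ∀ g : Gamma0 M, ((g : SL(2, ℤ)) : Matrix (Fin 2) (Fin 2) ℤ).trace ^ 2 = 4 →
      psi (Additive.ofMul g) = 0)
    (hU : ∀ g : Gamma0 M, ‖(((psi (Additive.ofMul g)).toMul : ℂˣ) : ℂ)‖ = 1) :
    ∃ (A : Hol) (h : Mer), h ≠ 0 ∧
      (∀ γ : Gamma0 M, ((γ : SL(2, ℤ))⁻¹ • h : Mer) =
        algebraMap ℂ Mer (((psi (Additive.ofMul γ)).toMul : ℂˣ) : ℂ) * h) ∧
      h = algebraMap Hol Mer A / algebraMap Hol Mer cdc_E4Hol ∧
      (∀ p : ℕ, h ^ p * algebraMap Hol Mer cdc_E4Hol ^ p = algebraMap Hol Mer A ^ p) ∧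
      (∀ g : SL(2, ℤ), MDiff ((A : ℍ → ℂ) ∣[(4 : ℤ)] g)) ∧
      (∀ g : SL(2, ℤ), IsBoundedAtImInfty ((A : ℍ → ℂ) ∣[(4 : ℤ)] g)) ∧
      (∀ g : SL(2, ℤ), ∃ l : ℂ, l ≠ 0 ∧
        Tendsto (fun y : ℝ => ((A : ℍ → ℂ) ∣[(4 : ℤ)] g) (twe55_iy y)) atTop (𝓝 l)) := by
  have hP' : twa99_TrivPar (twc_ofAdd psi) := by
    intro g hg
    rw [twc_ofAdd_apply, hP g hg]
    rfl
  have hU' : twc_Unitary (twc_ofAdd psi) := fun g => hU g
  exact ⟨twa99_EHol (twc_ofAdd psi) hU', twa99_u (twc_ofAdd psi) hU', twa99_u_ne_zero hP' hU',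
    fun γ => twa99_u_char hP' hU' γ, rfl, fun p => twa99_u_pow_mul hU' p,
    fun g => twa99_hhol hU' g, fun g => twa99_hbdd hU' g, fun g => twa99_hlim hP' hU' g⟩

end

end Fermat.Agent.S42x
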