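/-
S42 project, junction B1 × B3.1 (helper76), prefix `twd76_`.

Pushes the B1 TOP (`TwEisAllTop76`: all-cusp Eisenstein series `A_χ`, denominator `E₄`) through the
landed evaluation package `cde29_ev` / `cde29_real` (helper29, `CDictEv29`):

* `twd76_f p hχ : S23x.ratioField M`     the modular function `f_χ = (A_χ / E₄)^p` (as `q`-series);
* `twd76_ev`       : `cde29_ev M f_χ = h_χ ^ p`  with `h_χ = twx76_h p hχ = mk A_χ / mk E₄ ∈ Mer`;
* `twd76_fC p hχ`  : the same element of the official carrier `modularFunctionFieldFullC ℂ M`;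
* `twd76_real`     : `(cde29_real M).φ f_χ = h_χ ^ p`;
* `twd76_real_mul` : `(cde29_real M).φ f_χ * mk E₄ ^ p = mk A_χ ^ p` (hypothesis `hf` of `cdu_ord_eq_zero`);
* `twd76_package`  : the input of R5-ASM in one statement, for `χ : parabolicHoms ℤ (Gamma0 M) ℤ` (`= S41x.lrL M`) and
  `ψ = twp_psiAdd p χ.1` (= `psiOf χ`).
-/
import Fermat.Agent.S42x.TwEisAllTop76
import Fermat.Agent.S42x.CDictEv29

set_option autoImplicit false

namespace Fermat.Agent.S42x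

open UpperHalfPlane ModularForm CongruenceSubgroup Filter ModularCurve.Period
open Fermat.Agent.S24x Fermat.Agent.S23x
open scoped MatrixGroups Manifold Topology

variable {M : ℕ} [NeZero M] (p : ℕ) {χ : Additive ↥(Gamma0 M) →+ ℤ}
  (hχ : IsParabolicHom (Gamma0 M) χ)

/-- The modular function `f_χ = (A_χ / E₄) ^ p` as an element of `ℂ(j, j_M)`. -/
noncomputable def twd76_f : ratioField M :=
  ⟨qL (twx76_A p χ ^ p) / qL ((⇑E₄ : ℍ → ℂ) ^ p), twx76_ratio_mem p hχ⟩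

theorem twd76_f_coe :
    ((twd76_f p hχ : ratioField M) : LS) = qL (twx76_A p χ ^ p) / qL ((⇑E₄ : ℍ → ℂ) ^ p) := rfl

theorem twd76_f_ne_zero : twd76_f p hχ ≠ 0 := by
  intro h
  exact twx76_ratio_ne_zero p hχ (congrArg Subtype.val h)

/-- **`ev f_χ = h_χ ^ p`.** -/
theorem twd76_ev : cde29_ev M (twd76_f p hχ) = twx76_h p hχ ^ p := by
  have hB0 : cdc_E4Hol ^ p ≠ 0 := pow_ne_zero p twb76_E4Hol_ne_zero
  have hdoor := cde29_evCompat M (twd76_f p hχ) ((p : ℤ) * 4) (twx76_AHol p hχ ^ p)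
    (cdc_E4Hol ^ p) (twx76_isMF_pow p hχ) (twb76_isMF_E4_pow M p) hB0
    (twx76_ratio_mul (M := M) p (χ := χ))
  rw [twx76_h_pow, eq_div_iff (twr76_algebraMap_ne_zero hB0)]
  exact hdoor

/-- `f_χ` on the official carrier. -/
noncomputable def twd76_fC : ↥(ModularCurve.modularFunctionFieldFullC ℂ M) :=
  (cde29_equiv M).symm (twd76_f p hχ)

theorem twd76_fC_ne_zero : twd76_fC p hχ ≠ 0 := by
  intro h
  apply twd76_f_ne_zero p hχ
  have := congrArg (cde29_equiv M) h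
  simpa [twd76_fC] using this

theorem twd76_fC_coe :
    ((twd76_fC p hχ : ↥(ModularCurve.modularFunctionFieldFullC ℂ M)) : LaurentSeries ℂ) =
      qL (twx76_A p χ ^ p) / qL ((⇑E₄ : ℍ → ℂ) ^ p) := by
  have h := cde29_equiv_coe M (twd76_fC p hχ)
  rw [← h]
  simp [twd76_fC, twd76_f_coe]

/-- **`φ f_χ = h_χ ^ p`** for the official realisation bundle. -/
theorem twd76_real : (cde29_real M).φ (twd76_fC p hχ) = twx76_h p hχ ^ p := by
  rw [cde29_real_apply, twd76_fC, AlgEquiv.apply_symm_apply, twd76_ev]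

/-- The hypothesis `hf` of `cdu_ord_eq_zero`. -/
theorem twd76_real_mul :
    (cde29_real M).φ (twd76_fC p hχ) * algebraMap Hol Mer cdc_E4Hol ^ p =
      algebraMap Hol Mer (twx76_AHol p hχ) ^ p := by
  rw [twd76_real, twx76_h_pow_mul]

/-- **Input of R5-ASM in one statement.** -/
theorem twd76_package (χ : parabolicHoms ℤ (Gamma0 M) ℤ) :
    ∃ (fC : ↥(ModularCurve.modularFunctionFieldFullC ℂ M)) (h₁ : Mer), fC ≠ 0 ∧ h₁ ≠ 0 ∧
      h₁ ^ p = (cde29_real M).φ fC ∧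
      (∀ γ : ↥(Gamma0 M), ((γ : SL(2, ℤ))⁻¹ • h₁ : Mer) =
        algebraMap ℂ Mer (((twp_psiAdd p χ.1 (Additive.ofMul γ)).toMul : ℂˣ) : ℂ) * h₁) ∧
      ∃ A : Hol, (∀ g : SL(2, ℤ), MDiff ((A : ℍ → ℂ) ∣[(4 : ℤ)] g)) ∧
        (∀ g : SL(2, ℤ), IsBoundedAtImInfty ((A : ℍ → ℂ) ∣[(4 : ℤ)] g)) ∧
        (∀ g : SL(2, ℤ), ∃ l : ℂ, l ≠ 0 ∧
          Tendsto (fun y : ℝ => ((A : ℍ → ℂ) ∣[(4 : ℤ)] g) (twe55_iy y)) atTop (𝓝 l)) ∧
        (cde29_real M).φ fC * algebraMap Hol Mer cdc_E4Hol ^ p = algebraMap Hol Mer A ^ p :=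
  ⟨twd76_fC p χ.2, twx76_h p χ.2, twd76_fC_ne_zero p χ.2, twx76_h_ne_zero p χ.2,
    (twd76_real p χ.2).symm, twx76_h_char p χ.2, twx76_AHol p χ.2, twx76_hhol p χ.2,
    twx76_hbdd p χ.2, twx76_hlim p χ.2, twd76_real_mul p χ.2⟩

end Fermat.Agent.S42x
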