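/-
S42 project, junction B1 × B3 (TOP-GLUE twin, helper76), prefix `twv76_`.

**All place orders of `f_χ = (A_χ / E₄)^p` over `ℂ` are divisible by `p`** (`p ≥ 5` prime), on the
official carrier `modularFunctionFieldFullC ℂ M` and on `S23x.ratioField M`, by combining
* B3.2 COVFIN  `cdf_covering_finite` (helper38),
* B3.3 CUSPUNIT `cdu55_ord_eq_zero` (helper55),
* B3.4 FINAL   `cdfin21_dvd_ord_all` (helper21),
* B3.1 EV      `cde29_real` (helper29),
* B1 TOP       `twx76_*`, `twd76_*` (helper99/helper76).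
-/
import Fermat.Agent.S42x.TwEisDoor76
import Fermat.Agent.S42x.CDictCovFin
import Fermat.Agent.S42x.CDictCuspUnit55
import Fermat.Agent.S42x.CDictFinal21

set_option autoImplicit false

namespace Fermat.Agent.S42x

open UpperHalfPlane ModularForm CongruenceSubgroup Filter ModularCurve.Period AlgebraicCurve
open Fermat.Agent.S24x Fermat.Agent.S23x Fermat.Agent.S18x
open scoped MatrixGroups Manifold Topology

variable {M : ℕ} [NeZero M] {p : ℕ} {χ : Additive ↥(Gamma0 M) →+ ℤ}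

/-- `f_χ` is a unit at every pole place of `j` (cusps). -/
theorem twv76_ord_pole (p : ℕ) (hχ : IsParabolicHom (Gamma0 M) χ)
    (v : Place ℂ ↥(ModularCurve.modularFunctionFieldFullC ℂ M))
    (hv : v ∈ polePlaces ℂ ↥(ModularCurve.modularFunctionFieldFullC ℂ M) (pls_jb ℂ M)) :
    v.ord (twd76_fC p hχ) = 0 :=
  cdu55_ord_eq_zero (cde29_real M) (twx76_AHol p hχ) p (twx76_hhol p hχ) (twx76_hbdd p hχ)
    (twx76_hlim p hχ) (twd76_fC p hχ) (twd76_real_mul p hχ) v hv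

/-- **`p ∣ ord_v f_χ` at every place of `ℂ(X₀(M))`** (official carrier). -/
theorem twv76_dvd_ord (hp : p.Prime) (hp5 : 5 ≤ p) (hχ : IsParabolicHom (Gamma0 M) χ)
    (v : Place ℂ ↥(ModularCurve.modularFunctionFieldFullC ℂ M)) :
    (p : ℤ) ∣ v.ord (twd76_fC p hχ) :=
  cdfin21_dvd_ord_all (cde29_real M) (pls_isCoordinate_jb ℂ M)
    (fun c τ₀ hτ₀ v hv => cdf_covering_finite (cde29_real M) (pls_isCoordinate_jb ℂ M) c τ₀ hτ₀ v hv)
    hp hp5 (twd76_fC p hχ) (twx76_h p hχ) (twd76_real p hχ).symm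
    (fun v hv => twv76_ord_pole p hχ v hv) v

/-- Transport of a statement along an equality of intermediate fields. -/
theorem twv76_transport {FC FC' : IntermediateField ℂ (LaurentSeries ℂ)} (h : FC = FC')
    {x : LaurentSeries ℂ} (hx : x ∈ FC)
    (H : ∀ v : Place ℂ ↥FC, (p : ℤ) ∣ v.ord (⟨x, hx⟩ : ↥FC)) :
    ∀ v : Place ℂ ↥FC', (p : ℤ) ∣ v.ord (⟨x, h ▸ hx⟩ : ↥FC') := by
  subst h
  exact H

/-- **`p ∣ ord_P f_χ` at every place, on the carrier `S23x.ratioField M`.** -/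
theorem twv76_dvd_ord_ratio (hp : p.Prime) (hp5 : 5 ≤ p) (hχ : IsParabolicHom (Gamma0 M) χ)
    (P : Place ℂ ↥(ratioField M)) : (p : ℤ) ∣ P.ord (twd76_f p hχ) := by
  have hx : (qL (twx76_A p χ ^ p) / qL ((⇑E₄ : ℍ → ℂ) ^ p) : LaurentSeries ℂ) ∈
      ModularCurve.modularFunctionFieldFullC ℂ M := by
    rw [← twd76_fC_coe p hχ]
    exact (twd76_fC p hχ).2
  have H : ∀ v : Place ℂ ↥(ModularCurve.modularFunctionFieldFullC ℂ M),
      (p : ℤ) ∣ v.ord (⟨_, hx⟩ : ↥(ModularCurve.modularFunctionFieldFullC ℂ M)) := by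
    intro v
    have h1 := twv76_dvd_ord hp hp5 hχ v
    have e : twd76_fC p hχ = ⟨_, hx⟩ := Subtype.ext (twd76_fC_coe p hχ)
    rwa [e] at h1
  exact twv76_transport (cdcb_fullC_eq M) hx H P

/-- The form consumed by `r5t60_of_forms` / `r5i81_of_forms`: every `fC ∈ ratioField M` with
`fC * qL (E₄ ^ p) = qL (A_χ ^ p)` has all orders divisible by `p`. -/
theorem twv76_hdivC (hp : p.Prime) (hp5 : 5 ≤ p) (hχ : IsParabolicHom (Gamma0 M) χ)
    (fC : ratioField M)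
    (hfC : (fC : LS) * qL (((cdc_E4Hol ^ p : Hol) : ℍ → ℂ)) =
      qL (((twx76_AHol p hχ ^ p : Hol) : ℍ → ℂ)))
    (P : Place ℂ ↥(ratioField M)) : (p : ℤ) ∣ P.ord fC := by
  have hq : qL ((⇑E₄ : ℍ → ℂ) ^ p) ≠ 0 := twb76_qL_E4_pow_ne_zero p M
  have e : fC = twd76_f p hχ := by
    apply Subtype.ext
    rw [twd76_f_coe, eq_div_iff hq]
    exact hfC
  rw [e]
  exact twv76_dvd_ord_ratio hp hp5 hχ P

end Fermat.Agent.S42x
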