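/-
S42 project, junction leaf PSI-OF (helper12), prefix `twp12_`.

The CONCRETE additive character `e_p : ℤ →+ Additive ℂˣ`, `n ↦ exp(2 π i n / p)`, plugged into
helper47's abstract `psk_psiOf` (PsiKer) :

* `twp12_epAdd p`, `twp12_epAdd_toMul`, `twp12_epAdd_eq_zero_iff` (`= 0 ↔ p ∣ n`, the hypothesis
  `hε` of `psk_psiOf_eq_zero_iff`);
* `twp12_comp` : `(twp12_epAdd p).comp χ = twp_psiAdd p χ` (the multiplier of B1 TOP `twt_chi_mer`);
* `twp12_psiOf M p : lrL M →+ (Additive Γ₀(M) →+ Additive ℂˣ)` (`= psk_psiOf _ (twp12_epAdd p)`),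
  `twp12_psiOf_apply`, `twp12_psiOf_eq_zero_iff` (kernel `= p L`);
* `twp12_psiOf_lrtT` : `psiOf (T^B_ℓ χ) = cohOpGen M ℓ (psiOf χ)` (S16x `cohOpGen_comp`).
-/
import Mathlib
import Fermat.Agent.S42x.TwEisPsi
import Fermat.Agent.S42x.PsiKer
import Fermat.Agent.S41x.LRTopDefs

set_option autoImplicit false

namespace Fermat.Agent.S42x

open CongruenceSubgroup ModularCurve.Period
open Fermat.Agent.S41x Fermat.Agent.S16x
open scoped MatrixGroups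

noncomputable section

/-- `e_p : ℤ →+ Additive ℂˣ`, `n ↦ exp(2 π i n / p)` -/
def twp12_epAdd (p : ℕ) : ℤ →+ Additive ℂˣ where
  toFun n := Additive.ofMul (twp_ep p n)
  map_zero' := by rw [twp_ep_zero]; rfl
  map_add' m n := by rw [twp_ep_add]; rfl

theorem twp12_epAdd_apply (p : ℕ) (n : ℤ) : twp12_epAdd p n = Additive.ofMul (twp_ep p n) := rfl

theorem twp12_epAdd_toMul (p : ℕ) (n : ℤ) : (twp12_epAdd p n).toMul = twp_ep p n := rfl

theorem twp12_epAdd_coe (p : ℕ) (n : ℤ) :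
    (((twp12_epAdd p n).toMul : ℂˣ) : ℂ) = Complex.exp (2 * Real.pi * Complex.I * n / p) :=
  twp_ep_coe p n

/-- the hypothesis `hε` of `psk_psiOf_eq_zero_iff` -/
theorem twp12_epAdd_eq_zero_iff {p : ℕ} (hp : p ≠ 0) (n : ℤ) :
    twp12_epAdd p n = 0 ↔ (p : ℤ) ∣ n := by
  rw [← twp_ep_eq_one_iff hp n]
  constructor
  · intro h
    exact congrArg Additive.toMul h
  · intro h
    rw [twp12_epAdd_apply, h]
    rfl

variable {Γ : Subgroup SL(2, ℤ)}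

/-- `e_p ∘ χ` is the multiplier `twp_psiAdd p χ` of B1 -/
theorem twp12_comp (p : ℕ) (χ : Additive Γ →+ ℤ) : (twp12_epAdd p).comp χ = twp_psiAdd p χ := by
  refine DFunLike.ext _ _ fun a => ?_
  rfl

/-- the map `χ ↦ ψ_χ` on the parabolic lattice `L = lrL M` -/
def twp12_psiOf (M p : ℕ) : lrL M →+ (Additive (Gamma0 M) →+ Additive ℂˣ) :=
  psk_psiOf (Gamma0 M) (twp12_epAdd p)

theorem twp12_psiOf_apply (M p : ℕ) (χ : lrL M) : twp12_psiOf M p χ = twp_psiAdd p χ.1 :=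
  twp12_comp p χ.1

theorem twp12_psiOf_apply_apply (M p : ℕ) (χ : lrL M) (γ : Gamma0 M) :
    (twp12_psiOf M p χ (Additive.ofMul γ)).toMul = twp_psi p χ.1 γ := rfl

theorem twp12_psiOf_def (M p : ℕ) (χ : lrL M) :
    twp12_psiOf M p χ = (twp12_epAdd p).comp χ.1 := rfl

/-- **the kernel of `χ ↦ ψ_χ` on `L` is `p L`** -/
theorem twp12_psiOf_eq_zero_iff (M : ℕ) {p : ℕ} (hp : p ≠ 0) (χ : lrL M) :
    twp12_psiOf M p χ = 0 ↔ ∃ χ' : lrL M, χ = p • χ' :=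
  psk_psiOf_eq_zero_iff (Gamma0 M) (twp12_epAdd p) p hp (twp12_epAdd_eq_zero_iff hp) χ

/-- `ℤ`-scalar form of the kernel statement -/
theorem twp12_psiOf_eq_zero_iff' (M : ℕ) {p : ℕ} (hp : p ≠ 0) (χ : lrL M) :
    twp12_psiOf M p χ = 0 ↔ ∃ χ' : lrL M, χ = (p : ℤ) • χ' := by
  rw [twp12_psiOf_eq_zero_iff M hp]
  constructor
  · rintro ⟨χ', h⟩
    exact ⟨χ', by rw [h, natCast_zsmul]⟩
  · rintro ⟨χ', h⟩
    exact ⟨χ', by rw [h, natCast_zsmul]⟩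

/-- **`χ ↦ ψ_χ` intertwines the Betti Hecke operator `T^B_ℓ = lrtT M ℓ` on `L` with `cohOpGen M ℓ`
on multipliers** -/
theorem twp12_psiOf_lrtT (M p : ℕ) [NeZero M] (ℓ : Nat.Primes) (χ : lrL M) :
    twp12_psiOf M p (lrtT M ℓ χ) = cohOpGen M ℓ (twp12_psiOf M p χ) := by
  rw [twp12_psiOf_def, twp12_psiOf_def, lrtT_coe]
  exact cohOpGen_comp M ℓ (twp12_epAdd p) χ.1

theorem twp12_psiAdd_cohOpGen (M p : ℕ) [NeZero M] (ℓ : Nat.Primes)
    (χ : Additive (Gamma0 M) →+ ℤ) :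
    twp_psiAdd p (cohOpGen M ℓ χ) = cohOpGen M ℓ (twp_psiAdd p χ) := by
  rw [← twp12_comp, ← twp12_comp]
  exact cohOpGen_comp M ℓ (twp12_epAdd p) χ

end

end Fermat.Agent.S42x
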