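/-
S42 project, block B1, leaf B1.7 QEXP (helper29, prefix `twq_`): `q`-expansion facts of the
Eisenstein series with character `E_ψ = twc_E ψ` (S42x/TwEisCharSlash):

* `twq_isNice`      : `E_ψ` is `S23x.IsNice` (holomorphic, `1`-periodic, bounded at `i∞`);
* `twq_qL_pow`      : `qL (E_ψ ^ p) = qL E_ψ ^ p`;
* `twq_coeff_zero`  : the constant term of the `q`-expansion of `E_ψ` is `2`;
* `twq_ratio`       : `qL (E_ψ ^ p) / qL (E_1 ^ p)` is (the image of) a power series with constant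
                      term `1`; hence it has `q`-order `0` and leading coefficient `1`
                      (`twq_ratio_order`, `twq_ratio_coeff_zero`, `twq_ratio_leadingCoeff`).
-/
import Fermat.Agent.S42x.TwEisCharSlash
import Fermat.Agent.S42x.TwEisCusp
import Fermat.Agent.S23x.QRing

set_option autoImplicit false

namespace Fermat.Agent.S42x

open EisensteinSeries UpperHalfPlane ModularForm Matrix CongruenceSubgroup Filter Topology
open Fermat.Agent.S23x
open scoped MatrixGroups Manifold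

noncomputable section

variable {M : ℕ} {ψ : ↥(Gamma0 M) →* ℂˣ}

/-- `T ∈ Γ₀(M)`. -/
theorem twq_T_mem (M : ℕ) : ModularGroup.T ∈ Gamma0 M := by
  rw [Gamma0_mem]
  simp [ModularGroup.T]

/-- `E_ψ` is `1`-periodic. -/
theorem twq_periodic (hT : twc_TrivUnip ψ) (z : ℍ) :
    twc_E ψ ((1 : ℝ) +ᵥ z) = twc_E ψ z := by
  have h1 := twc_E_slash hT ⟨ModularGroup.T, twq_T_mem M⟩
  have h2 : ψ ⟨ModularGroup.T, twq_T_mem M⟩ = 1 := hT _ (by simp [ModularGroup.T])
  rw [h2, Units.val_one, one_smul] at h1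
  have h3 := twk_slash_T_zpow (twc_E ψ) 4 1 z
  rw [zpow_one] at h3
  have h4 : (twc_E ψ ∣[(4 : ℤ)] ModularGroup.T) z = twc_E ψ z := congrFun h1 z
  rw [h3] at h4
  simpa using h4

/-- **(a)** `E_ψ` is nice. -/
theorem twq_isNice (hT : twc_TrivUnip ψ) (hU : twc_Unitary ψ) : IsNice (twc_E ψ) := by
  refine ⟨twc_E_mdiff hT hU, twq_periodic hT, ?_⟩
  have h := twc_E_isBoundedAtImInfty_slash hT hU 1
  rwa [SlashAction.slash_one] at h

/-- **(b)** `qL` of the powers. -/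
theorem twq_qL_pow (hT : twc_TrivUnip ψ) (hU : twc_Unitary ψ) (p : ℕ) :
    qL (twc_E ψ ^ p) = qL (twc_E ψ) ^ p :=
  qL_pow (twq_isNice hT hU) p

/-- **(c)** the constant term of the `q`-expansion of `E_ψ` is `2`. -/
theorem twq_coeff_zero (hT : twc_TrivUnip ψ) (hU : twc_Unitary ψ) :
    (qExpansion 1 (twc_E ψ)).coeff 0 = 2 :=
  twk_qExpansion_coeff_zero (twc_E_mdiff hT hU) (twq_periodic hT) (twq_isNice hT hU).2.2
    (twc_E_tendsto hT hU)

theorem twq_constantCoeff (hT : twc_TrivUnip ψ) (hU : twc_Unitary ψ) :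
    PowerSeries.constantCoeff (qExpansion 1 (twc_E ψ)) = 2 := by
  rw [← PowerSeries.coeff_zero_eq_constantCoeff_apply]
  exact twq_coeff_zero hT hU


/-! ### (d) normalisation of the ratio `qL (E_ψ ^ p) / qL (E_1 ^ p)` -/

theorem twq_one_trivUnip (M : ℕ) : twc_TrivUnip (1 : ↥(Gamma0 M) →* ℂˣ) := fun _ _ => rfl

theorem twq_one_unitary (M : ℕ) : twc_Unitary (1 : ↥(Gamma0 M) →* ℂˣ) := fun _ => by simp

/-- the Laurent series of a power series with constant term `1` has order `0`, coefficient `1` at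
`0` and leading coefficient `1`. -/
theorem twq_coe_facts (U : PowerSeries ℂ) (hU : PowerSeries.constantCoeff U = 1) :
    ((U : LaurentSeries ℂ)).coeff 0 = 1 ∧ ((U : LaurentSeries ℂ)).order = 0 := by
  have h0 : ((U : LaurentSeries ℂ)).coeff 0 = 1 := by
    have := PowerSeries.coeff_coe (R := ℂ) U 0
    rw [if_neg (by norm_num)] at this
    rw [this]
    simpa using hU
  have hne : (U : LaurentSeries ℂ) ≠ 0 := by
    intro h
    rw [h, HahnSeries.coeff_zero] at h0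
    exact zero_ne_one h0
  refine ⟨h0, le_antisymm ?_ ?_⟩
  · apply HahnSeries.order_le_of_coeff_ne_zero
    rw [h0]
    exact one_ne_zero
  · by_contra hlt
    rw [not_le] at hlt
    have h1 := PowerSeries.coeff_coe (R := ℂ) U ((U : LaurentSeries ℂ)).order
    rw [if_pos hlt] at h1
    exact hne (HahnSeries.coeff_order_eq_zero.mp h1)

/-- **(d)** `qL (E_ψ ^ p) / qL (E_1 ^ p)` is a power series with constant term `1`. -/
theorem twq_ratio (hT : twc_TrivUnip ψ) (hU : twc_Unitary ψ) (p : ℕ) :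
    ∃ U : PowerSeries ℂ, PowerSeries.constantCoeff U = 1 ∧
      qL (twc_E ψ ^ p) / qL (twc_E (1 : ↥(Gamma0 M) →* ℂˣ) ^ p) = (U : LaurentSeries ℂ) := by
  set P : PowerSeries ℂ := qExpansion 1 (twc_E ψ) with hP
  set Q : PowerSeries ℂ := qExpansion 1 (twc_E (1 : ↥(Gamma0 M) →* ℂˣ)) with hQ
  have hPc : PowerSeries.constantCoeff P = 2 := twq_constantCoeff hT hU
  have hQc : PowerSeries.constantCoeff Q = 2 :=
    twq_constantCoeff (twq_one_trivUnip M) (twq_one_unitary M)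
  have hQ0 : PowerSeries.constantCoeff Q ≠ 0 := by rw [hQc]; norm_num
  have hQQ : Q * Q⁻¹ = 1 := PowerSeries.mul_inv_cancel Q hQ0
  refine ⟨(P * Q⁻¹) ^ p, ?_, ?_⟩
  · rw [map_pow, map_mul, PowerSeries.constantCoeff_inv, hPc, hQc]
    norm_num
  · have hden : qL (twc_E (1 : ↥(Gamma0 M) →* ℂˣ) ^ p) ≠ 0 := by
      rw [twq_qL_pow (twq_one_trivUnip M) (twq_one_unitary M)]
      apply pow_ne_zero
      intro h0
      have := (qL_eq_zero_iff (twq_isNice (twq_one_trivUnip M) (twq_one_unitary M))).mp h0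
      exact twc_E_ne_zero (twq_one_trivUnip M) (twq_one_unitary M) this
    rw [div_eq_iff hden, twq_qL_pow hT hU, twq_qL_pow (twq_one_trivUnip M) (twq_one_unitary M)]
    show ((P : PowerSeries ℂ) : LaurentSeries ℂ) ^ p =
      (((P * Q⁻¹) ^ p : PowerSeries ℂ) : LaurentSeries ℂ) * ((Q : PowerSeries ℂ) : LaurentSeries ℂ) ^ p
    have h1 : ((((P * Q⁻¹) ^ p : PowerSeries ℂ) : LaurentSeries ℂ)) * ((Q : PowerSeries ℂ) : LaurentSeries ℂ) ^ p
        = (((P * Q⁻¹) ^ p * Q ^ p : PowerSeries ℂ) : LaurentSeries ℂ) := by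
      push_cast
      rfl
    rw [h1, ← mul_pow, mul_assoc, mul_comm Q⁻¹ Q, hQQ, mul_one]
    push_cast
    rfl

theorem twq_ratio_coeff_zero (hT : twc_TrivUnip ψ) (hU : twc_Unitary ψ) (p : ℕ) :
    (qL (twc_E ψ ^ p) / qL (twc_E (1 : ↥(Gamma0 M) →* ℂˣ) ^ p)).coeff 0 = 1 := by
  obtain ⟨U, hU1, hx⟩ := twq_ratio hT hU p
  rw [hx]
  exact (twq_coe_facts U hU1).1

theorem twq_ratio_order (hT : twc_TrivUnip ψ) (hU : twc_Unitary ψ) (p : ℕ) :
    (qL (twc_E ψ ^ p) / qL (twc_E (1 : ↥(Gamma0 M) →* ℂˣ) ^ p)).order = 0 := by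
  obtain ⟨U, hU1, hx⟩ := twq_ratio hT hU p
  rw [hx]
  exact (twq_coe_facts U hU1).2

theorem twq_ratio_leadingCoeff (hT : twc_TrivUnip ψ) (hU : twc_Unitary ψ) (p : ℕ) :
    (qL (twc_E ψ ^ p) / qL (twc_E (1 : ↥(Gamma0 M) →* ℂˣ) ^ p)).leadingCoeff = 1 := by
  rw [HahnSeries.leadingCoeff_eq, twq_ratio_order hT hU p]
  exact twq_ratio_coeff_zero hT hU p

end

end Fermat.Agent.S42x
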