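/-
S42x/WEis (helper71; S42 block B1, generic analytic layer; prefix `weis_`).

WEIGHTED EISENSTEIN SERIES.  For a bounded weight `w : (Fin 2 → ℤ) → ℂ` and an integer `k ≥ 3`,

  `weis w k z = ∑' v : Fin 2 → ℤ, w v * (v 0 * z + v 1) ^ (-k)`     (`z ∈ ℍ`).

* `weis_summable`, `weis_norm_le` : absolute convergence, bound by the full sum of norms;
* `weis_slash` : `(weis w k) ∣[k] γ = weis (fun v => w (v ᵥ* γ⁻¹)) k` for `γ ∈ SL(2, ℤ)`;
* `weis_mdifferentiable` : holomorphic on `ℍ`;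
* `weis_isBoundedAtImInfty` : bounded at `i∞` (hence, with `weis_slash`, at every cusp);
* `weis_tendsto` : along `z = i y`, `y → ∞`, `weis w k z → ∑' d : ℤ, w ![0, d] * d ^ (-k)`.
-/
import Mathlib

set_option autoImplicit false

noncomputable section

namespace Fermat.Agent.S42x

open ModularForm UpperHalfPlane Complex Matrix CongruenceSubgroup Set EisensteinSeries Filter
  Topology

open scoped MatrixGroups Manifold

/-- the weighted Eisenstein series. -/
def weis (w : (Fin 2 → ℤ) → ℂ) (k : ℤ) (z : ℍ) : ℂ :=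
  ∑' v : Fin 2 → ℤ, w v * eisSummand k v z

variable {w : (Fin 2 → ℤ) → ℂ} {C : ℝ} {k : ℤ}

theorem weis_summable_norm (hw : ∀ v, ‖w v‖ ≤ C) (hk : 3 ≤ k) (z : ℍ) :
    Summable fun v : Fin 2 → ℤ => ‖w v * eisSummand k v z‖ := by
  refine Summable.of_nonneg_of_le (fun _ => norm_nonneg _) (fun v => ?_)
    ((summable_norm_eisSummand hk z).mul_left C)
  rw [norm_mul]
  exact mul_le_mul_of_nonneg_right (hw v) (norm_nonneg _)

theorem weis_summable (hw : ∀ v, ‖w v‖ ≤ C) (hk : 3 ≤ k) (z : ℍ) :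
    Summable fun v : Fin 2 → ℤ => w v * eisSummand k v z :=
  (weis_summable_norm hw hk z).of_norm

theorem weis_norm_le (hw : ∀ v, ‖w v‖ ≤ C) (hk : 3 ≤ k) (z : ℍ) :
    ‖weis w k z‖ ≤ C * ∑' v : Fin 2 → ℤ, ‖eisSummand k v z‖ := by
  rw [weis, ← tsum_mul_left]
  refine (norm_tsum_le_tsum_norm (weis_summable_norm hw hk z)).trans ?_
  refine (weis_summable_norm hw hk z).tsum_le_tsum (fun v => ?_)
    ((summable_norm_eisSummand hk z).mul_left C)
  rw [norm_mul]
  exact mul_le_mul_of_nonneg_right (hw v) (norm_nonneg _)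

theorem weis_vecMul_vecMul_inv (γ : SL(2, ℤ)) (v : Fin 2 → ℤ) :
    (v ᵥ* (γ : Matrix (Fin 2) (Fin 2) ℤ)) ᵥ* ((γ⁻¹ : SL(2, ℤ)) : Matrix (Fin 2) (Fin 2) ℤ) = v := by
  rw [vecMul_vecMul, ← Matrix.SpecialLinearGroup.coe_mul, mul_inv_cancel, Matrix.SpecialLinearGroup.coe_one,
    vecMul_one]

theorem weis_vecMul_inv_vecMul (γ : SL(2, ℤ)) (v : Fin 2 → ℤ) :
    (v ᵥ* ((γ⁻¹ : SL(2, ℤ)) : Matrix (Fin 2) (Fin 2) ℤ)) ᵥ* (γ : Matrix (Fin 2) (Fin 2) ℤ) = v := by
  rw [vecMul_vecMul, ← Matrix.SpecialLinearGroup.coe_mul, inv_mul_cancel, Matrix.SpecialLinearGroup.coe_one,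
    vecMul_one]

/-- right multiplication by `γ ∈ SL(2, ℤ)` as a permutation of `ℤ²`. -/
def weis_vecMulEquiv (γ : SL(2, ℤ)) : (Fin 2 → ℤ) ≃ (Fin 2 → ℤ) where
  toFun v := v ᵥ* γ
  invFun v := v ᵥ* ↑(γ⁻¹)
  left_inv v := weis_vecMul_vecMul_inv γ v
  right_inv v := weis_vecMul_inv_vecMul γ v

@[simp] theorem weis_vecMulEquiv_apply (γ : SL(2, ℤ)) (v : Fin 2 → ℤ) :
    weis_vecMulEquiv γ v = v ᵥ* γ := rfl

@[simp] theorem weis_vecMulEquiv_symm_apply (γ : SL(2, ℤ)) (v : Fin 2 → ℤ) :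
    (weis_vecMulEquiv γ).symm v = v ᵥ* ↑(γ⁻¹) := rfl

/-- the slash action on weighted Eisenstein series only moves the weight. -/
theorem weis_slash (w : (Fin 2 → ℤ) → ℂ) (k : ℤ) (γ : SL(2, ℤ)) :
    (weis w k) ∣[k] γ = weis (fun v => w (v ᵥ* ↑(γ⁻¹))) k := by
  ext1 z
  simp_rw [SL_slash_apply, _root_.zpow_neg,
    mul_inv_eq_iff_eq_mul₀ (zpow_ne_zero _ <| denom_ne_zero _ z), weis,
    eisSummand_SL2_apply, ← tsum_mul_right]
  rw [← (weis_vecMulEquiv γ).tsum_eq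
    (fun v => w (v ᵥ* ↑(γ⁻¹)) * eisSummand k v z * denom (γ : SL(2, ℤ)) z ^ k)]
  refine tsum_congr fun v => ?_
  simp only [weis_vecMulEquiv_apply]
  rw [weis_vecMul_vecMul_inv]
  ring

/-! ### holomorphy -/

theorem weis_tendstoLocallyUniformly (hw : ∀ v, ‖w v‖ ≤ C) (hk : 3 ≤ k) :
    TendstoLocallyUniformly
      (fun (s : Finset (Fin 2 → ℤ)) ↦ (∑ x ∈ s, w x * eisSummand k x ·))
      (weis w k ·) Filter.atTop := by
  have hk' : (2 : ℝ) < k := by norm_cast
  have hC : 0 ≤ C := (norm_nonneg _).trans (hw 0)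
  have p_sum : Summable fun x : Fin 2 → ℤ ↦ ‖x‖ ^ (-k) :=
    mod_cast (summable_one_div_norm_rpow hk')
  simp only [tendstoLocallyUniformly_iff_forall_isCompact, weis]
  intro K hK
  obtain ⟨A, B, hB, HABK⟩ := subset_verticalStrip_of_isCompact hK
  refine (tendstoUniformlyOn_tsum
    (hu := (p_sum.mul_left <| r ⟨⟨A, B⟩, hB⟩ ^ (-k : ℝ)).mul_left C)
    (fun p z hz ↦ ?_)).mono HABK
  rw [norm_mul]
  refine mul_le_mul (hw p) ?_ (norm_nonneg _) hC
  simpa only [eisSummand, one_div, ← _root_.zpow_neg, norm_zpow, ← Real.rpow_intCast,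
    Int.cast_neg] using summand_bound_of_mem_verticalStrip (by positivity) p hB hz

theorem weis_tendstoLocallyUniformlyOn (hw : ∀ v, ‖w v‖ ≤ C) (hk : 3 ≤ k) :
    TendstoLocallyUniformlyOn (fun (s : Finset (Fin 2 → ℤ)) ↦
      ↑ₕ(fun (z : ℍ) ↦ ∑ x ∈ s, w x * eisSummand k x z)) (↑ₕ(weis w k))
          Filter.atTop {z : ℂ | 0 < z.im} := by
  rw [← upperHalfPlaneSet, ← range_coe, ← image_univ]
  apply TendstoLocallyUniformlyOn.comp (s := ⊤) _ _ _ (OpenPartialHomeomorph.continuousOn_symm _)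
  · simp only [Set.top_eq_univ, tendstoLocallyUniformlyOn_univ]
    exact weis_tendstoLocallyUniformly hw hk
  · simp only [IsOpenEmbedding.toOpenPartialHomeomorph_target, Set.top_eq_univ, mapsTo_range_iff,
    Set.mem_univ, forall_const]

theorem weis_summand_extension_differentiableOn (w : (Fin 2 → ℤ) → ℂ) (k : ℤ) (a : Fin 2 → ℤ) :
    DifferentiableOn ℂ (↑ₕ(fun z : ℍ => w a * eisSummand k a z)) {z : ℂ | 0 < z.im} := by
  have h := (eisSummand_extension_differentiableOn k a).const_smul (w a)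
  refine h.congr fun z hz => ?_
  simp [Function.comp_def, smul_eq_mul]

/-- weighted Eisenstein series with bounded weights are holomorphic on `ℍ`. -/
theorem weis_mdifferentiable (hw : ∀ v, ‖w v‖ ≤ C) (hk : 3 ≤ k) :
    MDiff (weis w k) := by
  intro τ
  suffices DifferentiableAt ℂ (↑ₕ(weis w k)) τ.1 by
    convert!
      MDifferentiableAt.comp τ (DifferentiableAt.mdifferentiableAt this) τ.mdifferentiable_coe
    exact funext fun z ↦ (comp_ofComplex (weis w k) z).symm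
  refine DifferentiableOn.differentiableAt ?_ (isOpen_upperHalfPlaneSet.mem_nhds τ.2)
  refine (weis_tendstoLocallyUniformlyOn hw hk).differentiableOn
    (Eventually.of_forall fun s ↦ ?_) isOpen_upperHalfPlaneSet
  have : (↑ₕ(fun (z : ℍ) ↦ ∑ x ∈ s, w x * eisSummand k x z)) =
      fun z : ℂ => ∑ x ∈ s, (↑ₕ(fun z : ℍ => w x * eisSummand k x z)) z := by
    ext z
    simp
  rw [this]
  exact DifferentiableOn.fun_sum fun x _ ↦ weis_summand_extension_differentiableOn w k x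

/-! ### boundedness at `i∞` -/

/-- the full sum of the norms of the Eisenstein summands. -/
def weis_normSum (k : ℤ) (z : ℍ) : ℝ := ∑' v : Fin 2 → ℤ, ‖eisSummand k v z‖

theorem weis_denom_T_zpow (n : ℤ) (z : ℍ) : denom (ModularGroup.T ^ n : SL(2, ℤ)) z = 1 := by
  rw [ModularGroup.denom_apply]
  simp [ModularGroup.coe_T_zpow]

theorem weis_normSum_T_zpow (k n : ℤ) (z : ℍ) :
    weis_normSum k ((ModularGroup.T ^ n : SL(2, ℤ)) • z) = weis_normSum k z := by
  unfold weis_normSum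
  simp_rw [eisSummand_SL2_apply, weis_denom_T_zpow, _root_.one_zpow, one_mul]
  exact (weis_vecMulEquiv (ModularGroup.T ^ n)).tsum_eq (fun v => ‖eisSummand k v z‖)

theorem weis_normSum_le (hk : 3 ≤ k) {z : ℍ} (hz : 2 ≤ z.im) :
    weis_normSum k z ≤ ∑' x : Fin 2 → ℤ, r ⟨⟨1, 2⟩, Nat.ofNat_pos⟩ ^ (-k) * ‖x‖ ^ (-k) := by
  obtain ⟨n, hn⟩ := ModularGroup_T_zpow_mem_verticalStrip z (N := 1) Nat.one_pos
  have hk' : (2 : ℝ) < k := by norm_cast
  rw [← weis_normSum_T_zpow k (((1 : ℕ) : ℤ) * n) z]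
  unfold weis_normSum
  apply (summable_norm_eisSummand hk _).tsum_le_tsum _
  · exact_mod_cast (summable_one_div_norm_rpow hk').mul_left <| r ⟨⟨1, 2⟩, Nat.ofNat_pos⟩ ^ (-k)
  · intro x
    simp_rw [eisSummand, norm_zpow]
    have h2 := verticalStrip_anti_right (1 : ℕ) hz hn
    exact_mod_cast
      summand_bound_of_mem_verticalStrip (lt_trans two_pos hk').le x two_pos (by exact_mod_cast h2)

/-- weighted Eisenstein series with bounded weights are bounded at `i∞`. -/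
theorem weis_isBoundedAtImInfty (hw : ∀ v, ‖w v‖ ≤ C) (hk : 3 ≤ k) :
    IsBoundedAtImInfty (weis w k) := by
  rw [UpperHalfPlane.isBoundedAtImInfty_iff]
  have hC : 0 ≤ C := (norm_nonneg _).trans (hw 0)
  refine ⟨C * ∑' x : Fin 2 → ℤ, r ⟨⟨1, 2⟩, Nat.ofNat_pos⟩ ^ (-k) * ‖x‖ ^ (-k), 2, fun z hz => ?_⟩
  exact (weis_norm_le hw hk z).trans (mul_le_mul_of_nonneg_left (weis_normSum_le hk hz) hC)

/-- ... and so are all their `SL(2, ℤ)`-translates. -/
theorem weis_slash_isBoundedAtImInfty (hw : ∀ v, ‖w v‖ ≤ C) (hk : 3 ≤ k) (γ : SL(2, ℤ)) :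
    IsBoundedAtImInfty ((weis w k) ∣[k] γ) := by
  rw [weis_slash]
  exact weis_isBoundedAtImInfty (fun v => hw _) hk

/-! ### the limit along the imaginary axis -/

/-- the point `i e^y` of the upper half plane. -/
def weis_iexp (y : ℝ) : ℍ := ⟨⟨0, Real.exp y⟩, Real.exp_pos y⟩

@[simp] theorem weis_iexp_re (y : ℝ) : (weis_iexp y).re = 0 := rfl

@[simp] theorem weis_iexp_im (y : ℝ) : (weis_iexp y).im = Real.exp y := rfl

theorem weis_iexp_mem_verticalStrip {y : ℝ} (hy : 0 ≤ y) : weis_iexp y ∈ verticalStrip 0 1 := by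
  refine ⟨by simp, ?_⟩
  simpa using Real.one_le_exp hy

/-- termwise limit of the Eisenstein summands along `z = i e^y`, `y → ∞`. -/
theorem weis_tendsto_eisSummand (hk : 1 ≤ k) (v : Fin 2 → ℤ) :
    Tendsto (fun y : ℝ => eisSummand k v (weis_iexp y)) atTop
      (𝓝 (if v 0 = 0 then ((v 1 : ℤ) : ℂ) ^ (-k) else 0)) := by
  by_cases h0 : v 0 = 0
  · rw [if_pos h0]
    have : (fun y : ℝ => eisSummand k v (weis_iexp y)) = fun _ => ((v 1 : ℤ) : ℂ) ^ (-k) := by
      funext y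
      simp [eisSummand, h0]
    rw [this]
    exact tendsto_const_nhds
  · rw [if_neg h0]
    rw [tendsto_zero_iff_norm_tendsto_zero]
    have hk0 : (0 : ℝ) < k := by exact_mod_cast (lt_of_lt_of_le zero_lt_one hk)
    -- `‖c i e^y + d‖ ≥ |c| e^y ≥ e^y`
    have hbound : ∀ y : ℝ, ‖eisSummand k v (weis_iexp y)‖ ≤ (Real.exp y) ^ (-k) := by
      intro y
      rw [eisSummand, norm_zpow]
      have h1 : Real.exp y ≤ ‖((v 0 : ℤ) : ℂ) * ((weis_iexp y : ℍ) : ℂ) + ((v 1 : ℤ) : ℂ)‖ := by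
        have him : (((v 0 : ℤ) : ℂ) * ((weis_iexp y : ℍ) : ℂ) + ((v 1 : ℤ) : ℂ)).im =
            (v 0 : ℝ) * Real.exp y := by
          simp [Complex.add_im, Complex.mul_im]
        have h2 := Complex.abs_im_le_norm
          (((v 0 : ℤ) : ℂ) * ((weis_iexp y : ℍ) : ℂ) + ((v 1 : ℤ) : ℂ))
        rw [him, abs_mul, abs_of_pos (Real.exp_pos y)] at h2
        have h3 : (1 : ℝ) ≤ |(v 0 : ℝ)| := by
          have : (1 : ℤ) ≤ |v 0| := Int.one_le_abs h0
          exact_mod_cast this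
        calc Real.exp y = 1 * Real.exp y := (one_mul _).symm
          _ ≤ |(v 0 : ℝ)| * Real.exp y := by gcongr
          _ ≤ _ := h2
      rw [_root_.zpow_neg, _root_.zpow_neg]
      have hpos : (0 : ℝ) < Real.exp y ^ k := zpow_pos (Real.exp_pos y) k
      rw [inv_le_inv₀ (lt_of_lt_of_le hpos ?_) hpos]
      · exact zpow_le_zpow_left₀ (by omega) (Real.exp_pos y).le h1
      · exact zpow_le_zpow_left₀ (by omega) (Real.exp_pos y).le h1
    refine squeeze_zero (fun y => norm_nonneg _) hbound ?_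
    have : (fun y : ℝ => Real.exp y ^ (-k)) = fun y => Real.exp (-(k : ℝ) * y) := by
      funext y
      rw [← Real.rpow_intCast, ← Real.exp_mul, mul_comm]
      push_cast
      ring_nf
    rw [this]
    refine Real.tendsto_exp_atBot.comp ?_
    exact tendsto_id.const_mul_atTop_of_neg (by linarith)

/-- **limit at `i∞`**: along `z = i e^y`, the weighted Eisenstein series tends to the sum of its
terms with `c = 0`. -/
theorem weis_tendsto (hw : ∀ v, ‖w v‖ ≤ C) (hk : 3 ≤ k) :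
    Tendsto (fun y : ℝ => weis w k (weis_iexp y)) atTop
      (𝓝 (∑' v : Fin 2 → ℤ, w v * (if v 0 = 0 then ((v 1 : ℤ) : ℂ) ^ (-k) else 0))) := by
  have hk' : (2 : ℝ) < k := by norm_cast
  have hC : 0 ≤ C := (norm_nonneg _).trans (hw 0)
  unfold weis
  refine tendsto_tsum_of_dominated_convergence
    (bound := fun v : Fin 2 → ℤ => C * (r ⟨⟨0, 1⟩, one_pos⟩ ^ (-k : ℝ) * ‖v‖ ^ (-k : ℝ)))
    (((summable_one_div_norm_rpow hk').mul_left _).mul_left C)
    (fun v => (weis_tendsto_eisSummand (by omega) v).const_mul (w v)) ?_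
  filter_upwards [eventually_ge_atTop (0 : ℝ)] with y hy v
  rw [norm_mul]
  refine mul_le_mul (hw v) ?_ (norm_nonneg _) hC
  simpa only [eisSummand, one_div, ← _root_.zpow_neg, norm_zpow, ← Real.rpow_intCast,
    Int.cast_neg] using summand_bound_of_mem_verticalStrip (by positivity) v one_pos
      (weis_iexp_mem_verticalStrip hy)

end Fermat.Agent.S42x
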